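import Fermat.Agent.Lib.S27.DFrobPl

set_option autoImplicit false
set_option linter.style.haveILetI false

noncomputable section

namespace Fermat.Agent.Lib.S27

open AlgebraicCurve Fermat.Agent.Lib.FF Fermat.Agent.Lib.S19 IntermediateField Polynomial

universe u v

theorem s27d_frobExists : s27_FrobExists.{u, v} := by
  intro p _ k Fb _ _ _ hk g hF
  obtain ⟨hac, hchar, hper⟩ := hk
  haveI := hac
  haveI := hchar
  obtain ⟨x, hxgen, hsep⟩ := hF.gen
  haveI := hF.pd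
  haveI : FiniteDimensional k⟮x⟯ Fb := hxgen.finite
  have hxt : Transcendental k x := hxgen.transc
  -- the Frobenius of `k`
  set σ : k ≃+* k := frobeniusEquiv k p with hσdef
  have hσ : ∀ (n : ℕ) (c : k), ((σ : k →+* k) ^ n) c = c ^ p ^ n := by
    intro n c
    rw [RingHom.coe_pow]
    show (⇑(frobeniusEquiv k p))^[n] c = _
    rw [coe_frobeniusEquiv, iterate_frobenius]
  have hσper : ∀ c : k, ∃ n : ℕ, 0 < n ∧ ((σ : k →+* k) ^ n) c = c := fun c => by
    obtain ⟨n, hn, hc⟩ := hper c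
    exact ⟨n, hn, by rw [hσ, hc]⟩
  -- its action on `L = k(x)`
  set e : RatFunc k ≃ₐ[k] k⟮x⟯ := RatFunc.algEquivOfTranscendental x hxt with he
  set τ : k⟮x⟯ ≃+* k⟮x⟯ :=
    (e.symm.toRingEquiv.trans (s27d_ratAut σ)).trans e.toRingEquiv with hτdef
  have hτe : ∀ r : RatFunc k, (τ : k⟮x⟯ →+* k⟮x⟯) ((e : RatFunc k →+* k⟮x⟯) r) =
      (e : RatFunc k →+* k⟮x⟯) ((s27d_ratAut σ : RatFunc k →+* RatFunc k) r) := by
    intro r
    show e ((s27d_ratAut σ) (e.symm (e r))) = e ((s27d_ratAut σ) r)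
    rw [AlgEquiv.symm_apply_apply]
  have hτpow : ∀ (n : ℕ) (r : RatFunc k), ((τ : k⟮x⟯ →+* k⟮x⟯) ^ n) (e r) =
      e (((s27d_ratAut σ : RatFunc k →+* RatFunc k) ^ n) r) := fun n r =>
    s27d_pow_comm (Φ := (τ : k⟮x⟯ →+* k⟮x⟯)) (i := (e : RatFunc k →+* k⟮x⟯)) hτe n r
  have hτper : ∀ l : k⟮x⟯, ∃ n : ℕ, 0 < n ∧ ((τ : k⟮x⟯ →+* k⟮x⟯) ^ n) l = l := by
    intro l
    obtain ⟨n, hn, h⟩ := s27d_ratAut_per σ hσper (e.symm l)
    refine ⟨n, hn, ?_⟩
    have := hτpow n (e.symm l)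
    rw [h, AlgEquiv.apply_symm_apply] at this
    exact this
  obtain ⟨n₀, Φ, hn₀, hΦL, hΦper⟩ := s27d_extend (E := Fb) (τ : k⟮x⟯ →+* k⟮x⟯) hτper
  -- constants
  have hτk : ∀ c : k, ((τ : k⟮x⟯ →+* k⟮x⟯) ^ n₀) (algebraMap k k⟮x⟯ c) =
      algebraMap k k⟮x⟯ (c ^ p ^ n₀) := by
    intro c
    have h1 : algebraMap k k⟮x⟯ c = e (RatFunc.C c) := by
      rw [← RatFunc.algebraMap_eq_C, e.commutes]
    rw [h1, hτpow]
    have h2 : ((s27d_ratAut σ : RatFunc k →+* RatFunc k) ^ n₀) (RatFunc.C c) =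
        RatFunc.C (((σ : k →+* k) ^ n₀) c) :=
      s27d_pow_comm (i := (RatFunc.C : k →+* RatFunc k)) (τ := (σ : k →+* k))
        (fun a => s27d_ratAut_C σ a) n₀ c
    rw [h2, hσ, ← RatFunc.algebraMap_eq_C, e.commutes]
  have hΦk : ∀ c : k, Φ (algebraMap k Fb c) = algebraMap k Fb (c ^ p ^ n₀) := by
    intro c
    rw [IsScalarTower.algebraMap_apply k k⟮x⟯ Fb, hΦL, hτk,
      ← IsScalarTower.algebraMap_apply k k⟮x⟯ Fb]
  -- the generator
  have hτx : ((τ : k⟮x⟯ →+* k⟮x⟯) ^ n₀) (AdjoinSimple.gen k x) = AdjoinSimple.gen k x := by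
    have h1 : AdjoinSimple.gen k x = e RatFunc.X := by
      apply Subtype.ext
      rw [he, RatFunc.algEquivOfTranscendental_X]
      rfl
    rw [h1, hτpow]
    have h2 : ((s27d_ratAut σ : RatFunc k →+* RatFunc k) ^ n₀) (RatFunc.X) = RatFunc.X := by
      rw [RingHom.coe_pow]
      exact Function.iterate_fixed (s27d_ratAut_X σ) n₀
    rw [h2]
  have hΦx : Φ x = x := by
    have := hΦL (AdjoinSimple.gen k x)
    rw [hτx, AdjoinSimple.algebraMap_gen] at this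
    exact this
  have hxc : ∀ c : k, x - algebraMap k Fb c ≠ 0 := by
    intro c h
    apply hxt
    rw [sub_eq_zero.mp h]
    exact isAlgebraic_algebraMap c
  -- the semilinear automorphism and its action on places
  set gg : SemilinearAut k Fb :=
    ⟨(Φ, iterateFrobeniusEquiv k p n₀), fun c => by
      show Φ (algebraMap k Fb c) = algebraMap k Fb (iterateFrobeniusEquiv k p n₀ c)
      rw [hΦk, iterateFrobeniusEquiv_def]⟩ with hgg
  set θ : Equiv.Perm (Place k Fb) := MulAction.toPerm gg with hθ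
  have hord : ∀ (P : Place k Fb) (y : Fb), (θ P).ord (Φ y) = P.ord y := fun P y =>
    SemilinearAut.ord_smul gg P y
  -- the dynamics of `c ↦ c ^ p ^ n₀`
  set N : ℕ := p ^ n₀ with hN
  have hp1 : 1 < p := (Fact.out : p.Prime).one_lt
  have hN1 : 1 < N := Nat.one_lt_pow hn₀.ne' hp1
  have hit : ∀ (n : ℕ) (c : k), (fun c : k => c ^ N)^[n] c = c ^ N ^ n := fun n c => by
    rw [pow_iterate]
  have hσ₀per : ∀ c : k, ∃ n : ℕ, 0 < n ∧ (fun c : k => c ^ N)^[n] c = c := by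
    intro c
    obtain ⟨m, hm, hc⟩ := hper c
    refine ⟨m, hm, ?_⟩
    rw [hit, hN, ← pow_mul, mul_comm, pow_mul]
    have h2 : (fun c : k => c ^ p ^ m)^[n₀] c = c := Function.iterate_fixed hc n₀
    rw [pow_iterate] at h2
    exact h2
  have hσ₀fin : ∀ n : ℕ, 0 < n → {c : k | (fun c : k => c ^ N)^[n] c = c}.Finite := by
    intro n hn
    have hne : (X ^ (N ^ n) - X : k[X]) ≠ 0 :=
      FiniteField.X_pow_card_sub_X_ne_zero k (Nat.one_lt_pow hn.ne' hN1)
    refine (Polynomial.finite_setOfPred_isRoot hne).subset fun c hc => ?_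
    have hc' : c ^ N ^ n = c := by rw [← hit]; exact hc
    show (X ^ (N ^ n) - X : k[X]).IsRoot c
    rw [IsRoot.def, eval_sub, eval_pow, eval_X, hc', sub_self]
  obtain ⟨hper_pl, hfin_pl⟩ := s27d_places hF.deg1 Φ (fun c : k => c ^ N) hΦk x hxc hΦx hσ₀per hσ₀fin
    θ hord
  exact ⟨{ f := n₀, f_pos := hn₀, φ := Φ, map_k := hΦk, per := hΦper, θ := θ, ord_map := hord,
           per_pl := hper_pl, fin_pl := hfin_pl }⟩

end Fermat.Agent.Lib.S27
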