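/-
Programme Z (S27), ARITHMETIC HALF ([G] + [Z]): INTERFACE (architect: helper7), v1.

Goal of the half: `s27_FinCount` — over `k` = an algebraic closure of `𝔽_p`, a function field
`Fb / k` of genus `g` has exactly `ℓ ^ (2 g e)` divisor classes of degree zero killed by `ℓ ^ e`
(`ℓ ≠ p`).

Architecture.  Everything arithmetic is done in an ABSTRACT setting (`s27_Dyn`, Mathlib only):
a set of points `Pt` with a permutation `θ` (Frobenius) all of whose orbits are finite and with
finitely many fixed points of every power; a class group `Cl` with compatible automorphism `Θ`,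
the class map of divisors, the degree, the Riemann–Roch dimension function `dim` with a canonical
class `W` (`dim C - dim (W - C) = deg C + 1 - g`) and the COUNTING AXIOM: a `Θⁿ`-stable class `C`
contains exactly `(q^(n·dim C) - 1)/(qⁿ - 1)` effective `θⁿ`-stable divisors.
 * `s27_DynCount`  (abstract machine: zeta function, F. K. Schmidt, `h_n = det (1 - Mⁿ)`,
    first inequality, group theory):  `#(ker deg)[ℓ^e] = ℓ^(2 g e)` for `ℓ ∤ q`.
 * `s27_DynExists` (function fields): `(k, Fb)` carries such a structure on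
    `(Place k Fb, Pic k Fb)`: Frobenius structure `φ` on `Fb`, its action on places, Hilbert 90
    counting, Riemann–Roch duality.
 * `s27_Dual` : Riemann–Roch duality (Weil differentials) — a contract of its own.
-/
import Fermat.Agent.Lib.S19.IfaceCurve

set_option autoImplicit false
set_option linter.unusedSectionVars false
set_option linter.unusedVariables false

noncomputable section

namespace Fermat.Agent.Lib.S27

open AlgebraicCurve Fermat.Agent.Lib.FF Fermat.Agent.Lib.S19

universe u v

/-! ## 1. The abstract setting -/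

/-- **an abstract curve over a finite field**, seen over the algebraic closure: points with
Frobenius, class group with Frobenius, degree, Riemann–Roch dimension, canonical class, and the
counting axiom. -/
structure s27_Dyn (Pt : Type u) (Cl : Type v) [AddCommGroup Cl] where
  /-- Frobenius on points. -/
  θ : Equiv.Perm Pt
  /-- every point is periodic. -/
  per : ∀ P : Pt, ∃ n : ℕ, 0 < n ∧ (θ ^ n) P = P
  /-- finitely many points of each period. -/
  fin : ∀ n : ℕ, 0 < n → {P : Pt | (θ ^ n) P = P}.Finite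
  /-- Frobenius on classes. -/
  Θ : Cl ≃+ Cl
  /-- the class of a divisor. -/
  cls : (Pt →₀ ℤ) →+ Cl
  cls_surj : Function.Surjective cls
  /-- equivariance (`Finsupp.mapDomain θ D` is the push-forward: its value at `θ P` is `D P`). -/
  cls_map : ∀ D : Pt →₀ ℤ, cls (Finsupp.mapDomain θ D) = Θ (cls D)
  /-- the degree. -/
  deg : Cl →+ ℤ
  deg_cls : ∀ D : Pt →₀ ℤ, deg (cls D) = D.sum fun _ n => n
  /-- the cardinality of the finite field. -/
  q : ℕ
  one_lt_q : 1 < q
  /-- the genus. -/
  g : ℕ
  /-- the Riemann–Roch dimension of a class. -/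
  dim : Cl → ℕ
  /-- the canonical class. -/
  W : Cl
  W_fix : Θ W = W
  dim_map : ∀ C : Cl, dim (Θ C) = dim C
  rr : ∀ C : Cl, (dim C : ℤ) - (dim (W - C) : ℤ) = deg C + 1 - g
  dim_of_neg : ∀ C : Cl, deg C < 0 → dim C = 0
  dim_zero : dim 0 = 1
  /-- **the counting axiom**: the effective `θⁿ`-stable divisors in a `Θⁿ`-stable class. -/
  count : ∀ n : ℕ, 0 < n → ∀ C : Cl, (⇑Θ)^[n] C = C →
    {D : Pt →₀ ℕ | Finsupp.mapDomain (⇑(θ ^ n)) D = D ∧
        cls (D.mapRange (Nat.cast : ℕ → ℤ) Nat.cast_zero) = C}.ncard * (q ^ n - 1) =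
      q ^ (n * dim C) - 1

/-- the group of classes of degree zero. -/
def s27_Dyn.cl0 {Pt : Type u} {Cl : Type v} [AddCommGroup Cl] (X : s27_Dyn Pt Cl) : AddSubgroup Cl :=
  X.deg.ker

/-- **CONTRACT [G]+[EP]+[ZR]+[FI] (abstract machine, Mathlib only).** -/
def s27_DynCount : Prop :=
  ∀ (Pt : Type u) (Cl : Type v) [AddCommGroup Cl] (X : s27_Dyn Pt Cl) (ℓ : ℕ) [Fact ℓ.Prime]
    (hℓ : ¬ ℓ ∣ X.q) (e : ℕ),
    Nat.card {x : ↥X.cl0 // ℓ ^ e • x = 0} = ℓ ^ (2 * X.g * e)

/-! ## 2. Function fields over the algebraic closure of a finite field -/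

/-- the standing hypotheses on `Fb / k` (`k` algebraically closed): principal divisors, places of
degree one, Riemann's theorem with genus `g`, and a separating transcendental generator. -/
structure s27_FF (k : Type u) (Fb : Type v) [Field k] [Field Fb] [Algebra k Fb] (g : ℕ) :
    Prop where
  pd : HasPrincipalDivisors k Fb
  deg1 : ∀ P : Place k Fb, P.deg = 1
  riemann : s19_Riemann k Fb g
  gen : ∃ x : Fb, FFGen k x ∧ Algebra.IsSeparable (IntermediateField.adjoin k ({x} : Set Fb)) Fb

/-- `k` is an algebraic closure of `𝔽_p` (as far as its elements are concerned). -/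
def s27_IsFpBar (p : ℕ) (k : Type u) [Field k] : Prop :=
  IsAlgClosed k ∧ CharP k p ∧ ∀ c : k, ∃ n : ℕ, 0 < n ∧ c ^ (p ^ n) = c

/-- **CONTRACT [DUAL] (Riemann–Roch duality).** -/
def s27_Dual : Prop :=
  ∀ (k : Type u) (Fb : Type v) [Field k] [Field Fb] [Algebra k Fb] [IsAlgClosed k] (g : ℕ)
    (hF : s27_FF k Fb g),
    ∃ W : Divisor k Fb, ∀ D : Divisor k Fb,
      (Module.finrank k ↥(riemannRochSpace D) : ℤ) -
          (Module.finrank k ↥(riemannRochSpace (W - D)) : ℤ) =
        Divisor.degree D + 1 - g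

/-- the degree on `Pic`. -/
def s27_picDeg (k : Type u) (Fb : Type v) [Field k] [Field Fb] [Algebra k Fb]
    (hpd : HasPrincipalDivisors k Fb) : Pic k Fb →+ ℤ :=
  QuotientAddGroup.lift _ (Divisor.degree (K := k) (F := Fb)) (by
    rintro D ⟨f, hf, hD⟩
    have := hpd
    obtain ⟨D', hD', hdeg⟩ := HasPrincipalDivisors.exists_divisor (K := k) f hf
    have : D = D' := Finsupp.ext fun v => by rw [hD v, hD' v]
    rw [AddMonoidHom.mem_ker, this, hdeg])

/-- **CONTRACT [ZA]+[ZB]+[ZASM] (function-field side).**  The curve `Fb / k` over `k = 𝔽̄_p`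
carries an abstract structure on `(Place k Fb, Pic k Fb)` with the tautological class map and
degree, with the given genus, and `q` a power of `p`. -/
def s27_DynExists : Prop :=
  ∀ (p : ℕ) [Fact p.Prime] (k : Type u) (Fb : Type v) [Field k] [Field Fb] [Algebra k Fb]
    (hk : s27_IsFpBar p k) (g : ℕ) (hF : s27_FF k Fb g),
    ∃ X : s27_Dyn (Place k Fb) (Pic k Fb),
      (∀ D : Divisor k Fb, X.cls D = QuotientAddGroup.mk D) ∧ X.deg = s27_picDeg k Fb hF.pd ∧
        X.g = g ∧ ∃ f : ℕ, 0 < f ∧ X.q = p ^ f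

/-- **THE OUTPUT OF THE ARITHMETIC HALF.** -/
def s27_FinCount : Prop :=
  ∀ (p : ℕ) [Fact p.Prime] (k : Type u) (Fb : Type v) [Field k] [Field Fb] [Algebra k Fb]
    (hk : s27_IsFpBar p k) (g : ℕ) (hF : s27_FF k Fb g) (ℓ : ℕ) [Fact ℓ.Prime] (hℓp : ℓ ≠ p)
    (e : ℕ),
    Nat.card ↥(Pic0.torsion k Fb (ℓ ^ e)) = ℓ ^ (2 * g * e)

end Fermat.Agent.Lib.S27
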