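/-
Programme Z (S27), ARITHMETIC HALF: INTERFACE part 2 (architect: helper7), v1.
Exact Lean statements of the bricks of the blueprint:
 * the power `X.pow n` of an abstract curve (construction, proved here);
 * [EP] formal Euler products by logarithmic derivative: `s27_eff`, `s27_A`, `s27_orb`, `s27_N`,
   `s27_L`, `s27_S`, `s27_LDeq`, contract `s27_EP`;
 * [PS] calculus of `s27_LDeq` (contracts `s27_PS_*`);
 * [ZR] rational form of the zeta function with a rational point (`s27_ZR`);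
 * [ZM] `h_n = det (1 - M ^ n)` (`s27_ZM`);
 * [FI] first inequality (`s27_FI`);
 * [ZA] Frobenius structure on a function field over `𝔽̄_p` and its action on places
   (`s27_Frob`, `s27_FrobExists`);
 * [ZB] counting of stable effective divisors in a stable class (`s27_ZB`).
-/
import Fermat.Agent.Lib.S27.ZIface

set_option autoImplicit false
set_option linter.unusedSectionVars false
set_option linter.unusedVariables false

noncomputable section

namespace Fermat.Agent.Lib.S27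

open AlgebraicCurve Fermat.Agent.Lib.FF Fermat.Agent.Lib.S19

universe u v w

/-! ## 1. Powers of an abstract curve -/

section Pow

variable {Pt : Type u} {Cl : Type v} [AddCommGroup Cl]

/-- the `n`-th power of an additive automorphism. -/
def s27_addEquivPow (Θ : Cl ≃+ Cl) : ℕ → (Cl ≃+ Cl)
  | 0 => AddEquiv.refl Cl
  | n + 1 => Θ.trans (s27_addEquivPow Θ n)

theorem s27_addEquivPow_apply (Θ : Cl ≃+ Cl) (n : ℕ) (C : Cl) :
    s27_addEquivPow Θ n C = (⇑Θ)^[n] C := by
  induction n generalizing C with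
  | zero => rfl
  | succ n ih =>
    rw [Function.iterate_succ_apply]
    show s27_addEquivPow Θ n (Θ C) = _
    exact ih (Θ C)

theorem s27_Dyn.cls_map_pow (X : s27_Dyn Pt Cl) (n : ℕ) (D : Pt →₀ ℤ) :
    X.cls (Finsupp.mapDomain (⇑(X.θ ^ n)) D) = (⇑X.Θ)^[n] (X.cls D) := by
  induction n generalizing D with
  | zero => simp
  | succ n ih =>
    rw [Function.iterate_succ_apply, ← X.cls_map, ← ih, ← Finsupp.mapDomain_comp]
    rfl

theorem s27_Dyn.iterate_W (X : s27_Dyn Pt Cl) (n : ℕ) : (⇑X.Θ)^[n] X.W = X.W := by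
  induction n with
  | zero => rfl
  | succ n ih => rw [Function.iterate_succ_apply, X.W_fix, ih]

theorem s27_Dyn.dim_iterate (X : s27_Dyn Pt Cl) (n : ℕ) (C : Cl) :
    X.dim ((⇑X.Θ)^[n] C) = X.dim C := by
  induction n generalizing C with
  | zero => rfl
  | succ n ih => rw [Function.iterate_succ_apply, ih, X.dim_map]

/-- **the curve over the extension of degree `n` of the finite field.** -/
def s27_Dyn.pow (X : s27_Dyn Pt Cl) (n : ℕ) (hn : 0 < n) : s27_Dyn Pt Cl where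
  θ := X.θ ^ n
  per := by
    intro P
    obtain ⟨m, hm, hP⟩ := X.per P
    refine ⟨m, hm, ?_⟩
    rw [← pow_mul, mul_comm, pow_mul]
    have : ∀ j : ℕ, ((X.θ ^ m) ^ j) P = P := by
      intro j
      induction j with
      | zero => rfl
      | succ j ih => rw [pow_succ, Equiv.Perm.mul_apply, hP, ih]
    exact this n
  fin := by
    intro m hm
    have := X.fin (n * m) (Nat.mul_pos hn hm)
    simpa only [pow_mul] using this
  Θ := s27_addEquivPow X.Θ n
  cls := X.cls
  cls_surj := X.cls_surj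
  cls_map := by
    intro D
    rw [X.cls_map_pow n D]
    exact (s27_addEquivPow_apply X.Θ n _).symm
  deg := X.deg
  deg_cls := X.deg_cls
  q := X.q ^ n
  one_lt_q := Nat.one_lt_pow hn.ne' X.one_lt_q
  g := X.g
  dim := X.dim
  W := X.W
  W_fix := by
    rw [s27_addEquivPow_apply, X.iterate_W]
  dim_map := by
    intro C
    rw [s27_addEquivPow_apply, X.dim_iterate]
  rr := X.rr
  dim_of_neg := X.dim_of_neg
  dim_zero := X.dim_zero
  count := by
    intro m hm C hC
    have hC' : (⇑X.Θ)^[n * m] C = C := by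
      rw [Function.iterate_mul]
      have : (⇑(s27_addEquivPow X.Θ n)) = (⇑X.Θ)^[n] := by
        funext c
        exact s27_addEquivPow_apply X.Θ n c
      rw [← this]
      exact hC
    have := X.count (n * m) (Nat.mul_pos hn hm) C hC'
    simpa only [pow_mul, mul_assoc] using this

end Pow

/-! ## 2. [EP] Formal Euler products by logarithmic derivative -/

section EP

variable {Pt : Type u} {R : Type v} [CommRing R]

/-- the size (degree) of an effective divisor. -/
def s27_size (D : Pt →₀ ℕ) : ℕ := D.sum fun _ n => n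

/-- the `θ`-stable effective divisors of size `m`. -/
def s27_eff (θ : Equiv.Perm Pt) (m : ℕ) : Set (Pt →₀ ℕ) :=
  {D | Finsupp.mapDomain (⇑θ) D = D ∧ s27_size D = m}

/-- the `m`-th coefficient of the `L`-series of a multiplicative weight. -/
def s27_A (θ : Equiv.Perm Pt) (w : Multiplicative (Pt →₀ ℕ) →* R) (m : ℕ) : R :=
  ∑ᶠ D ∈ s27_eff θ m, w (Multiplicative.ofAdd D)

/-- the orbit divisor of a (periodic) point. -/
def s27_orb (θ : Equiv.Perm Pt) (P : Pt) : Pt →₀ ℕ :=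
  ∑ i ∈ Finset.range (Function.minimalPeriod (⇑θ) P), Finsupp.single ((θ ^ i) P) 1

/-- the weighted number of points of period dividing `j`. -/
def s27_N (θ : Equiv.Perm Pt) (w : Multiplicative (Pt →₀ ℕ) →* R) (j : ℕ) : R :=
  ∑ᶠ P ∈ {P : Pt | (θ ^ j) P = P},
    w (Multiplicative.ofAdd (s27_orb θ P)) ^ (j / Function.minimalPeriod (⇑θ) P)

/-- the `L`-series. -/
def s27_L (θ : Equiv.Perm Pt) (w : Multiplicative (Pt →₀ ℕ) →* R) : PowerSeries R :=
  PowerSeries.mk (s27_A θ w)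

/-- its logarithmic derivative `Σ_{j ≥ 1} N_j X^j`. -/
def s27_S (θ : Equiv.Perm Pt) (w : Multiplicative (Pt →₀ ℕ) →* R) : PowerSeries R :=
  PowerSeries.mk fun j => if j = 0 then 0 else s27_N θ w j

/-- `X f' = f S` and `f(0) = 1`. -/
def s27_LDeq (f S : PowerSeries R) : Prop :=
  PowerSeries.X * PowerSeries.derivative R f = f * S ∧ PowerSeries.constantCoeff f = 1

/-- **CONTRACT [EP].** -/
def s27_EP : Prop :=
  ∀ (Pt : Type u) (θ : Equiv.Perm Pt) (hfin : ∀ n : ℕ, 0 < n → {P : Pt | (θ ^ n) P = P}.Finite)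
    (R : Type v) [CommRing R] (w : Multiplicative (Pt →₀ ℕ) →* R),
    (∀ m : ℕ, (s27_eff θ m).Finite) ∧ s27_LDeq (s27_L θ w) (s27_S θ w)

/-- substitution `X ↦ X ^ n`. -/
def s27_expand (n : ℕ) (f : PowerSeries R) : PowerSeries R :=
  PowerSeries.mk fun m => if n ∣ m then PowerSeries.coeff (m / n) f else 0

/-- **CONTRACTS [PS]**: the calculus of `s27_LDeq`. -/
def s27_PS_unique : Prop :=
  ∀ (R : Type v) [CommRing R] [Algebra ℚ R] (f g S : PowerSeries R),
    s27_LDeq f S → s27_LDeq g S → f = g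

def s27_PS_mul : Prop :=
  ∀ (R : Type v) [CommRing R] (f g S S' : PowerSeries R),
    s27_LDeq f S → s27_LDeq g S' → s27_LDeq (f * g) (S + S')

def s27_PS_prod : Prop :=
  ∀ (R : Type v) [CommRing R] (ι : Type) (s : Finset ι) (f S : ι → PowerSeries R),
    (∀ i ∈ s, s27_LDeq (f i) (S i)) → s27_LDeq (∏ i ∈ s, f i) (∑ i ∈ s, S i)

def s27_PS_pow : Prop :=
  ∀ (R : Type v) [CommRing R] (f S : PowerSeries R) (c : ℕ),
    s27_LDeq f S → s27_LDeq (f ^ c) (c • S)

def s27_PS_rescale : Prop :=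
  ∀ (R : Type v) [CommRing R] (a : R) (f S : PowerSeries R),
    s27_LDeq f S → s27_LDeq (PowerSeries.rescale a f) (PowerSeries.rescale a S)

def s27_PS_expand : Prop :=
  ∀ (R : Type v) [CommRing R] (n : ℕ) (hn : 0 < n) (f S : PowerSeries R),
    s27_LDeq f S → s27_LDeq (s27_expand n f) (n • s27_expand n S)

/-- `f (1 - a X) = 1 → X f' = f · Σ_{j ≥ 1} a^j X^j`. -/
def s27_PS_geom : Prop :=
  ∀ (R : Type v) [CommRing R] (a : R) (f : PowerSeries R),
    f * (1 - PowerSeries.C a * PowerSeries.X) = 1 →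
      s27_LDeq f (PowerSeries.mk fun j => if j = 0 then 0 else a ^ j)

end EP

/-! ## 3. [ZR], [ZM], [FI]: the abstract machine with a rational point -/

section Machine

variable {Pt : Type u} {Cl : Type v} [AddCommGroup Cl]

/-- the zeta function (integer coefficients): trivial weight. -/
def s27_Z (θ : Equiv.Perm Pt) : PowerSeries ℤ :=
  s27_L θ (1 : Multiplicative (Pt →₀ ℕ) →* ℤ)

/-- the classes of degree zero fixed by the `n`-th power of Frobenius. -/
def s27_Dyn.fix0 (X : s27_Dyn Pt Cl) (n : ℕ) : AddSubgroup Cl where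
  carrier := {C | X.deg C = 0 ∧ (⇑X.Θ)^[n] C = C}
  zero_mem' := ⟨map_zero _, iterate_map_zero X.Θ n⟩
  add_mem' := by
    rintro C C' ⟨h1, h2⟩ ⟨h1', h2'⟩
    exact ⟨by rw [map_add, h1, h1', add_zero], by rw [iterate_map_add X.Θ, h2, h2']⟩
  neg_mem' := by
    rintro C ⟨h1, h2⟩
    exact ⟨by rw [map_neg, h1, neg_zero], by rw [iterate_map_neg X.Θ, h2]⟩

/-- **CONTRACT [ZR]**: rational form of the zeta function of a curve with a rational point. -/
def s27_ZR : Prop :=
  ∀ (Pt : Type u) (Cl : Type v) [AddCommGroup Cl] (X : s27_Dyn Pt Cl) (P₁ : Pt)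
    (hP₁ : X.θ P₁ = P₁),
    Finite ↥(X.fix0 1) ∧ ∃ P : Polynomial ℤ, P.natDegree ≤ 2 * X.g ∧
      P.coeff (2 * X.g) = (X.q : ℤ) ^ X.g ∧ P.coeff 0 = 1 ∧
      P.eval 1 = (Nat.card ↥(X.fix0 1) : ℤ) ∧
      s27_Z X.θ * ((1 - PowerSeries.X) * (1 - PowerSeries.C (X.q : ℤ) * PowerSeries.X)) =
        (P : PowerSeries ℤ)

/-- **CONTRACT [ZM]**: the class numbers over the extensions are `det (1 - M ^ n)`. -/
def s27_ZM : Prop :=
  ∀ (Pt : Type u) (Cl : Type v) [AddCommGroup Cl] (X : s27_Dyn Pt Cl) (P₁ : Pt)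
    (hP₁ : X.θ P₁ = P₁),
    ∃ M : Matrix (Fin (2 * X.g)) (Fin (2 * X.g)) ℤ,
      (M.det = (X.q : ℤ) ^ X.g ∨ M.det = -(X.q : ℤ) ^ X.g) ∧
        ∀ n : ℕ, 0 < n → Finite ↥(X.fix0 n) ∧ (Nat.card ↥(X.fix0 n) : ℤ) = (1 - M ^ n).det

/-- **CONTRACT [FI]**: the first inequality — norms are onto in a constant extension of prime
degree. -/
def s27_FI : Prop :=
  ∀ (Pt : Type u) (Cl : Type v) [AddCommGroup Cl] (X : s27_Dyn Pt Cl) (P₁ : Pt)
    (hP₁ : X.θ P₁ = P₁) (ℓ : ℕ) [Fact ℓ.Prime],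
    ∀ C ∈ X.fix0 1, ∃ C' ∈ X.fix0 ℓ, ∑ j ∈ Finset.range ℓ, (⇑X.Θ)^[j] C' = C

end Machine

/-! ## 4. [ZA], [ZB]: function fields over `𝔽̄_p` -/

section FunctionFields

variable (p : ℕ) (k : Type u) (Fb : Type v) [Field k] [Field Fb] [Algebra k Fb]

/-- **a Frobenius structure** on `Fb / k`: a `p^f`-semilinear automorphism `φ` all of whose orbits
are finite, and its action `θ` on the places. -/
structure s27_Frob where
  f : ℕ
  f_pos : 0 < f
  φ : Fb ≃+* Fb
  map_k : ∀ c : k, φ (algebraMap k Fb c) = algebraMap k Fb (c ^ (p ^ f))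
  per : ∀ y : Fb, ∃ n : ℕ, 0 < n ∧ (⇑φ)^[n] y = y
  θ : Equiv.Perm (Place k Fb)
  ord_map : ∀ (P : Place k Fb) (y : Fb), (θ P).ord (φ y) = P.ord y
  per_pl : ∀ P : Place k Fb, ∃ n : ℕ, 0 < n ∧ (θ ^ n) P = P
  fin_pl : ∀ n : ℕ, 0 < n → {P : Place k Fb | (θ ^ n) P = P}.Finite

/-- **CONTRACT [ZA].** -/
def s27_FrobExists : Prop :=
  ∀ (p : ℕ) [Fact p.Prime] (k : Type u) (Fb : Type v) [Field k] [Field Fb] [Algebra k Fb]
    (hk : s27_IsFpBar p k) (g : ℕ) (hF : s27_FF k Fb g), Nonempty (s27_Frob p k Fb)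

/-- an effective divisor as a divisor. -/
def s27_toDiv {k : Type u} {Fb : Type v} [Field k] [Field Fb] [Algebra k Fb]
    (D : Place k Fb →₀ ℕ) : Divisor k Fb :=
  D.mapRange (Nat.cast : ℕ → ℤ) Nat.cast_zero

/-- **CONTRACT [ZB]**: Hilbert 90 counting. -/
def s27_ZB : Prop :=
  ∀ (p : ℕ) [Fact p.Prime] (k : Type u) (Fb : Type v) [Field k] [Field Fb] [Algebra k Fb]
    (hk : s27_IsFpBar p k) (g : ℕ) (hF : s27_FF k Fb g) (Φ : s27_Frob p k Fb) (n : ℕ)
    (hn : 0 < n) (D₀ : Divisor k Fb)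
    (hD₀ : Finsupp.mapDomain (⇑(Φ.θ ^ n)) D₀ - D₀ ∈ Divisor.principal (K := k) (F := Fb)),
    {D : Place k Fb →₀ ℕ | Finsupp.mapDomain (⇑(Φ.θ ^ n)) D = D ∧
        s27_toDiv D - D₀ ∈ Divisor.principal (K := k) (F := Fb)}.ncard *
          ((p ^ Φ.f) ^ n - 1) =
      (p ^ Φ.f) ^ (n * Module.finrank k ↥(riemannRochSpace D₀)) - 1

end FunctionFields

end Fermat.Agent.Lib.S27
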