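/-
Programme Z (S27), [EP] — part 2 (helper8): stable divisors, orbits, finiteness.
-/
import Fermat.Agent.Lib.S27.ZIface2

set_option autoImplicit false

noncomputable section

namespace Fermat.Agent.Lib.S27

open Multiplicative Function

variable {Pt : Type*}

theorem s27e_deg_add (D E : Pt →₀ ℕ) : s27_size (D + E) = s27_size D + s27_size E := by
  unfold s27_size
  exact Finsupp.sum_add_index' (fun _ => rfl) fun _ _ _ => rfl

theorem s27e_deg_single (P : Pt) (n : ℕ) : s27_size (Finsupp.single P n) = n := by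
  unfold s27_size
  exact Finsupp.sum_single_index rfl

theorem s27e_deg_zero : s27_size (0 : Pt →₀ ℕ) = 0 := by
  unfold s27_size
  exact Finsupp.sum_zero_index

theorem s27e_deg_nsmul (i : ℕ) (D : Pt →₀ ℕ) : s27_size (i • D) = i * s27_size D := by
  induction i with
  | zero => rw [zero_smul, zero_mul, s27e_deg_zero]
  | succ i ih => rw [succ_nsmul, s27e_deg_add, ih]; ring

theorem s27e_deg_sum {ι : Type*} (s : Finset ι) (f : ι → Pt →₀ ℕ) :
    s27_size (∑ i ∈ s, f i) = ∑ i ∈ s, s27_size (f i) := by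
  classical
  induction s using Finset.induction_on with
  | empty => rw [Finset.sum_empty, Finset.sum_empty, s27e_deg_zero]
  | insert a s ha ih => rw [Finset.sum_insert ha, Finset.sum_insert ha, s27e_deg_add, ih]

theorem s27e_apply_le_deg (D : Pt →₀ ℕ) (P : Pt) : D P ≤ s27_size D := by
  classical
  unfold s27_size
  by_cases hP : P ∈ D.support
  · exact Finset.single_le_sum (f := fun Q => D Q) (fun _ _ => Nat.zero_le _) hP
  · rw [Finsupp.notMem_support_iff.mp hP]
    exact Nat.zero_le _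

theorem s27e_deg_le_of_le {D E : Pt →₀ ℕ} (h : D ≤ E) : s27_size D ≤ s27_size E := by
  obtain ⟨C, rfl⟩ := exists_add_of_le h
  rw [s27e_deg_add]
  exact Nat.le_add_right _ _

variable (θ : Equiv.Perm Pt)

/-- a stable divisor is constant along `θ`. -/
theorem s27e_stable_apply {D : Pt →₀ ℕ} (hD : Finsupp.mapDomain θ D = D) (P : Pt) :
    D (θ P) = D P := by
  conv_lhs => rw [← hD]
  exact Finsupp.mapDomain_apply θ.injective D P

theorem s27e_stable_apply_pow {D : Pt →₀ ℕ} (hD : Finsupp.mapDomain θ D = D) (P : Pt) (k : ℕ) :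
    D ((θ ^ k) P) = D P := by
  induction k with
  | zero => simp
  | succ k ih => rw [pow_succ', Equiv.Perm.mul_apply, s27e_stable_apply θ hD, ih]

theorem s27e_periodic_iff (P : Pt) (n : ℕ) : (θ ^ n) P = P ↔ minimalPeriod θ P ∣ n := by
  rw [← isPeriodicPt_iff_minimalPeriod_dvd, IsPeriodicPt, IsFixedPt, Equiv.Perm.iterate_eq_pow]

theorem s27e_period_pos {P : Pt} {n : ℕ} (hn : 0 < n) (h : (θ ^ n) P = P) :
    0 < minimalPeriod θ P := by
  apply IsPeriodicPt.minimalPeriod_pos hn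
  rw [IsPeriodicPt, IsFixedPt, Equiv.Perm.iterate_eq_pow]
  exact h

/-- the points of the support of a stable divisor are periodic. -/
theorem s27e_period_pos_of_stable {D : Pt →₀ ℕ} (hD : Finsupp.mapDomain θ D = D) {P : Pt}
    (hP : D P ≠ 0) : 0 < minimalPeriod θ P := by
  have hmem : ∀ k : ℕ, (θ ^ k) P ∈ D.support := fun k => by
    rw [Finsupp.mem_support_iff, s27e_stable_apply_pow θ hD]
    exact hP
  obtain ⟨a, b, hab, heq⟩ := Finite.exists_ne_map_eq_of_infinite
    (fun k : ℕ => (⟨(θ ^ k) P, hmem k⟩ : D.support))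
  have heq' : (θ ^ a) P = (θ ^ b) P := congrArg Subtype.val heq
  have key : ∀ a b : ℕ, a < b → (θ ^ a) P = (θ ^ b) P → 0 < minimalPeriod θ P := by
    intro a b hlt h
    have hb : b = a + (b - a) := by omega
    rw [hb, pow_add, Equiv.Perm.mul_apply] at h
    have h2 := (θ ^ a).injective h
    exact s27e_period_pos θ (by omega : 0 < b - a) h2.symm
  rcases lt_or_gt_of_ne hab with h | h
  · exact key a b h heq'
  · exact key b a h heq'.symm

theorem s27e_pow_period (P : Pt) : (θ ^ minimalPeriod θ P) P = P :=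
  (s27e_periodic_iff θ P _).mpr dvd_rfl

/-- the value of the orbit divisor. -/
theorem s27e_orb_apply [DecidableEq Pt] (P Q : Pt) :
    s27_orb θ P Q
      = ((Finset.range (minimalPeriod θ P)).filter fun i => (θ ^ i) P = Q).card := by
  unfold s27_orb
  rw [Finsupp.finsetSum_apply, Finset.card_filter]
  refine Finset.sum_congr rfl fun i _ => ?_
  rw [Finsupp.single_apply]

theorem s27e_orb_le_one (P Q : Pt) : s27_orb θ P Q ≤ 1 := by
  classical
  rw [s27e_orb_apply, Finset.card_le_one]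
  intro a ha b hb
  simp only [Finset.mem_filter, Finset.mem_range] at ha hb
  apply iterate_injOn_Iio_minimalPeriod (f := θ) (x := P) (Set.mem_Iio.mpr ha.1)
    (Set.mem_Iio.mpr hb.1)
  simp only [Equiv.Perm.iterate_eq_pow]
  rw [ha.2, hb.2]

theorem s27e_orb_ne_zero {P Q : Pt} (h : s27_orb θ P Q ≠ 0) : ∃ k : ℕ, (θ ^ k) P = Q := by
  classical
  rw [s27e_orb_apply] at h
  obtain ⟨k, hk⟩ := Finset.card_pos.mp (Nat.pos_of_ne_zero h)
  exact ⟨k, (Finset.mem_filter.mp hk).2⟩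

theorem s27e_orb_self {P : Pt} (hP : 0 < minimalPeriod θ P) :
    s27_orb θ P P = 1 := by
  classical
  apply le_antisymm (s27e_orb_le_one θ P P)
  rw [s27e_orb_apply]
  apply Finset.card_pos.mpr
  exact ⟨0, Finset.mem_filter.mpr ⟨Finset.mem_range.mpr hP, by simp⟩⟩

theorem s27e_deg_orb (P : Pt) : s27_size (s27_orb θ P) = minimalPeriod θ P := by
  unfold s27_orb
  rw [s27e_deg_sum]
  simp [s27e_deg_single]

/-- the orbit divisor is stable. -/
theorem s27e_orb_stable (P : Pt) : Finsupp.mapDomain θ (s27_orb θ P) = s27_orb θ P := by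
  unfold s27_orb
  rw [Finsupp.mapDomain_finsetSum]
  simp only [Finsupp.mapDomain_single]
  rcases Nat.eq_zero_or_pos (minimalPeriod θ P) with h0 | hpos
  · rw [h0, Finset.range_zero, Finset.sum_empty, Finset.sum_empty]
  obtain ⟨π, hπ⟩ : ∃ π, minimalPeriod θ P = π + 1 := ⟨minimalPeriod θ P - 1, by omega⟩
  have hper := s27e_pow_period θ P
  rw [hπ] at hper ⊢
  rw [Finset.sum_range_succ, Finset.sum_range_succ']
  have e : ∀ i : ℕ, θ ((θ ^ i) P) = (θ ^ (i + 1)) P := fun i => by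
    rw [pow_succ', Equiv.Perm.mul_apply]
  simp only [e]
  rw [hper, pow_zero, Equiv.Perm.one_apply]

/-- a stable divisor with `i ≤ D P` contains `i` times the orbit of `P`. -/
theorem s27e_nsmul_orb_le {D : Pt →₀ ℕ} (hD : Finsupp.mapDomain θ D = D) {P : Pt} {i : ℕ}
    (hi : i ≤ D P) : i • s27_orb θ P ≤ D := by
  rw [Finsupp.le_def]
  intro Q
  rw [Finsupp.smul_apply, smul_eq_mul]
  by_cases h0 : s27_orb θ P Q = 0
  · rw [h0, mul_zero]; exact Nat.zero_le _
  · obtain ⟨k, rfl⟩ := s27e_orb_ne_zero θ h0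
    have h1 : s27_orb θ P ((θ ^ k) P) = 1 :=
      le_antisymm (s27e_orb_le_one θ P _) (Nat.pos_of_ne_zero h0)
    rw [h1, mul_one, s27e_stable_apply_pow θ hD]
    exact hi

theorem s27e_period_le_deg {D : Pt →₀ ℕ} (hD : Finsupp.mapDomain θ D = D) {P : Pt}
    (hP : D P ≠ 0) : minimalPeriod θ P ≤ s27_size D := by
  have h1 : 1 • s27_orb θ P ≤ D := s27e_nsmul_orb_le θ hD (Nat.pos_of_ne_zero hP)
  rw [one_smul] at h1
  have := s27e_deg_le_of_le h1
  rwa [s27e_deg_orb] at this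

section Finite

variable (fin : ∀ n : ℕ, 0 < n → {P : Pt | (θ ^ n) P = P}.Finite)

include fin in
theorem s27e_pts_finite (m : ℕ) : {P : Pt | ∃ j : ℕ, 1 ≤ j ∧ j ≤ m ∧ (θ ^ j) P = P}.Finite := by
  have : {P : Pt | ∃ j : ℕ, 1 ≤ j ∧ j ≤ m ∧ (θ ^ j) P = P}
      = ⋃ j ∈ (Finset.Icc 1 m : Set ℕ), {P : Pt | (θ ^ j) P = P} := by
    ext P
    simp only [Set.mem_ofPred_eq, Finset.coe_Icc, Set.mem_Icc, Set.mem_iUnion, exists_prop]
    constructor
    · rintro ⟨j, h1, h2, h3⟩; exact ⟨j, ⟨h1, h2⟩, h3⟩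
    · rintro ⟨j, ⟨h1, h2⟩, h3⟩; exact ⟨j, h1, h2, h3⟩
  rw [this]
  refine Set.Finite.biUnion (Finset.finite_toSet _) fun j hj => fin j ?_
  have := (Finset.mem_Icc.mp (Finset.mem_coe.mp hj)).1
  omega

/-- the points of period `≤ m`. -/
def s27e_pts (m : ℕ) : Finset Pt := (s27e_pts_finite θ fin m).toFinset

theorem s27e_mem_pts {m : ℕ} {P : Pt} :
    P ∈ s27e_pts θ fin m ↔ ∃ j : ℕ, 1 ≤ j ∧ j ≤ m ∧ (θ ^ j) P = P := by
  unfold s27e_pts
  rw [Set.Finite.mem_toFinset]
  rfl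

theorem s27e_mem_pts_iff {m : ℕ} {P : Pt} :
    P ∈ s27e_pts θ fin m ↔ 0 < minimalPeriod θ P ∧ minimalPeriod θ P ≤ m := by
  rw [s27e_mem_pts]
  constructor
  · rintro ⟨j, h1, h2, h3⟩
    exact ⟨s27e_period_pos θ (by omega) h3,
      (Nat.le_of_dvd (by omega) ((s27e_periodic_iff θ P j).mp h3)).trans h2⟩
  · rintro ⟨h0, h⟩
    exact ⟨minimalPeriod θ P, h0, h, s27e_pow_period θ P⟩

include fin in
theorem s27e_stabSet_finite (m : ℕ) : (s27_eff θ m).Finite := by
  classical
  apply Set.Finite.subset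
    (Finset.finite_toSet ((s27e_pts θ fin m).finsupp fun _ => Finset.range (m + 1)))
  rintro D ⟨hD, hdeg⟩
  rw [Finset.mem_coe, Finset.mem_finsupp_iff]
  constructor
  · intro P hP
    rw [s27e_mem_pts_iff θ fin, ← hdeg]
    exact ⟨s27e_period_pos_of_stable θ hD (Finsupp.mem_support_iff.mp hP),
      s27e_period_le_deg θ hD (Finsupp.mem_support_iff.mp hP)⟩
  · intro P _
    rw [Finset.mem_range, ← hdeg]
    exact Nat.lt_succ_of_le (s27e_apply_le_deg D P)

/-- the finset of stable effective divisors of degree `m`. -/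
def s27e_stab (m : ℕ) : Finset (Pt →₀ ℕ) := (s27e_stabSet_finite θ fin m).toFinset

theorem s27e_mem_stab {m : ℕ} {D : Pt →₀ ℕ} :
    D ∈ s27e_stab θ fin m ↔ Finsupp.mapDomain θ D = D ∧ s27_size D = m := by
  unfold s27e_stab
  rw [Set.Finite.mem_toFinset]
  rfl

theorem s27e_A_eq_sum {R : Type*} [CommRing R] (w : Multiplicative (Pt →₀ ℕ) →* R) (m : ℕ) :
    s27_A θ w m = ∑ D ∈ s27e_stab θ fin m, w (ofAdd D) := by
  unfold s27_A s27e_stab
  exact finsum_mem_eq_finite_toFinset_sum _ _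

/-- the fixed points of `θ ^ j`. -/
def s27e_fix (j : ℕ) (hj : 0 < j) : Finset Pt := (fin j hj).toFinset

theorem s27e_mem_fix {j : ℕ} (hj : 0 < j) {P : Pt} :
    P ∈ s27e_fix θ fin j hj ↔ (θ ^ j) P = P := by
  unfold s27e_fix
  rw [Set.Finite.mem_toFinset]
  rfl

theorem s27e_N_eq_sum {R : Type*} [CommRing R] (w : Multiplicative (Pt →₀ ℕ) →* R) (j : ℕ)
    (hj : 0 < j) :
    s27_N θ w j = ∑ P ∈ s27e_fix θ fin j hj,
      w (ofAdd (s27_orb θ P)) ^ (j / minimalPeriod θ P) := by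
  unfold s27_N s27e_fix
  exact finsum_mem_eq_finite_toFinset_sum _ _

end Finite

end Fermat.Agent.Lib.S27
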