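/-
Programme Z (S27), [EP] — part 3 (helper8): the logarithmic-derivative identity
`m · A m = ∑_{j=1}^{m} N j · A (m - j)` (the whole content of the Euler product).
-/
import Fermat.Agent.Lib.S27.EStab

set_option autoImplicit false

noncomputable section

namespace Fermat.Agent.Lib.S27

open Multiplicative Function

variable {Pt : Type*} (θ : Equiv.Perm Pt)
  (fin : ∀ n : ℕ, 0 < n → {P : Pt | (θ ^ n) P = P}.Finite)
  {R : Type*} [CommRing R] (w : Multiplicative (Pt →₀ ℕ) →* R)

theorem s27e_w_add (D E : Pt →₀ ℕ) : w (ofAdd (D + E)) = w (ofAdd D) * w (ofAdd E) := by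
  rw [ofAdd_add, map_mul]

theorem s27e_w_nsmul (i : ℕ) (E : Pt →₀ ℕ) : w (ofAdd (i • E)) = w (ofAdd E) ^ i := by
  rw [ofAdd_nsmul, map_pow]

theorem s27e_mapDomain_nsmul (i : ℕ) (E : Pt →₀ ℕ) :
    Finsupp.mapDomain θ (i • E) = i • Finsupp.mapDomain θ E := by
  induction i with
  | zero => simp
  | succ i ih => rw [succ_nsmul, succ_nsmul, Finsupp.mapDomain_add, ih]

/-- **(K)**: removing `i` times the orbit of `P`. -/
theorem s27e_sum_filter_ge [DecidableEq Pt] (P : Pt) (hP : 0 < minimalPeriod θ P) (i m : ℕ) :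
    ∑ D ∈ (s27e_stab θ fin m).filter (fun D => i ≤ D P), w (ofAdd D)
      = if i * minimalPeriod θ P ≤ m then
          w (ofAdd (s27_orb θ P)) ^ i * s27_A θ w (m - i * minimalPeriod θ P)
        else 0 := by
  split_ifs with hle
  · rw [s27e_A_eq_sum θ fin, Finset.mul_sum]
    refine Finset.sum_nbij' (fun D => D - i • s27_orb θ P) (fun D' => D' + i • s27_orb θ P)
      ?_ ?_ ?_ ?_ ?_
    · intro D hD
      rw [Finset.mem_filter, s27e_mem_stab] at hD
      obtain ⟨⟨hst, hdeg⟩, hi⟩ := hD
      have hle' := s27e_nsmul_orb_le θ hst hi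
      have hadd : D - i • s27_orb θ P + i • s27_orb θ P = D := tsub_add_cancel_of_le hle'
      rw [s27e_mem_stab]
      constructor
      · have hE : Finsupp.mapDomain θ (i • s27_orb θ P) = i • s27_orb θ P := by
          rw [s27e_mapDomain_nsmul, s27e_orb_stable]
        have h1 : Finsupp.mapDomain θ (D - i • s27_orb θ P) + i • s27_orb θ P
            = D - i • s27_orb θ P + i • s27_orb θ P := by
          calc Finsupp.mapDomain θ (D - i • s27_orb θ P) + i • s27_orb θ P
              = Finsupp.mapDomain θ (D - i • s27_orb θ P)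
                  + Finsupp.mapDomain θ (i • s27_orb θ P) := by rw [hE]
            _ = Finsupp.mapDomain θ (D - i • s27_orb θ P + i • s27_orb θ P) :=
                Finsupp.mapDomain_add.symm
            _ = D := by rw [hadd, hst]
            _ = _ := hadd.symm
        exact add_right_cancel h1
      · have h2 := congrArg s27_size hadd
        rw [s27e_deg_add, s27e_deg_nsmul, s27e_deg_orb, hdeg] at h2
        omega
    · intro D' hD'
      rw [s27e_mem_stab] at hD'
      rw [Finset.mem_filter, s27e_mem_stab]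
      refine ⟨⟨?_, ?_⟩, ?_⟩
      · rw [Finsupp.mapDomain_add, s27e_mapDomain_nsmul, s27e_orb_stable, hD'.1]
      · rw [s27e_deg_add, s27e_deg_nsmul, s27e_deg_orb, hD'.2]
        omega
      · rw [Finsupp.add_apply, Finsupp.smul_apply, s27e_orb_self θ hP, smul_eq_mul, mul_one]
        exact Nat.le_add_left _ _
    · intro D hD
      rw [Finset.mem_filter, s27e_mem_stab] at hD
      exact tsub_add_cancel_of_le (s27e_nsmul_orb_le θ hD.1.1 hD.2)
    · intro D' _
      exact add_tsub_cancel_right _ _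
    · intro D hD
      rw [Finset.mem_filter, s27e_mem_stab] at hD
      have hadd : D - i • s27_orb θ P + i • s27_orb θ P = D :=
        tsub_add_cancel_of_le (s27e_nsmul_orb_le θ hD.1.1 hD.2)
      conv_lhs => rw [← hadd]
      rw [s27e_w_add, s27e_w_nsmul, mul_comm]
  · apply Finset.sum_eq_zero
    intro D hD
    exfalso
    rw [Finset.mem_filter, s27e_mem_stab] at hD
    have h1 := s27e_deg_le_of_le (s27e_nsmul_orb_le θ hD.1.1 hD.2)
    rw [s27e_deg_nsmul, s27e_deg_orb, hD.1.2] at h1
    exact hle h1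

/-- the degree of a stable divisor as a count of marked points. -/
theorem s27e_deg_eq_count {m : ℕ} {D : Pt →₀ ℕ} (hD : D ∈ s27e_stab θ fin m) :
    ∑ P ∈ s27e_pts θ fin m, ∑ i ∈ Finset.Icc 1 m, (if i ≤ D P then 1 else 0) = m := by
  rw [s27e_mem_stab] at hD
  have h1 : ∀ P, ∑ i ∈ Finset.Icc 1 m, (if i ≤ D P then 1 else 0) = D P := by
    intro P
    have hle : D P ≤ m := by rw [← hD.2]; exact s27e_apply_le_deg D P
    rw [← Finset.card_filter]
    have : (Finset.Icc 1 m).filter (fun i => i ≤ D P) = Finset.Icc 1 (D P) := by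
      ext i
      simp only [Finset.mem_filter, Finset.mem_Icc]
      omega
    rw [this, Nat.card_Icc]
    omega
  simp only [h1]
  have hsub : D.support ⊆ s27e_pts θ fin m := by
    intro P hP
    rw [s27e_mem_pts_iff θ fin, ← hD.2]
    exact ⟨s27e_period_pos_of_stable θ hD.1 (Finsupp.mem_support_iff.mp hP),
      s27e_period_le_deg θ hD.1 (Finsupp.mem_support_iff.mp hP)⟩
  rw [← Finset.sum_subset hsub (fun P _ hP => Finsupp.notMem_support_iff.mp hP)]
  exact hD.2

omit θ in
/-- reindexing `j = i π`. -/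
theorem s27e_reindex (π m : ℕ) (hπ : 0 < π) {M : Type*} [AddCommMonoid M] (F : ℕ → ℕ → M) :
    ∑ j ∈ Finset.Icc 1 m, (if π ∣ j then F (j / π) j else 0)
      = ∑ i ∈ Finset.Icc 1 m, (if i * π ≤ m then F i (i * π) else 0) := by
  rw [← Finset.sum_filter, ← Finset.sum_filter]
  refine Finset.sum_nbij' (fun j => j / π) (fun i => i * π) ?_ ?_ ?_ ?_ ?_
  · intro j hj
    simp only [Finset.mem_filter, Finset.mem_Icc] at hj ⊢
    obtain ⟨⟨h1, h2⟩, c, rfl⟩ := hj
    rw [Nat.mul_div_cancel_left c hπ]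
    have hc : 1 ≤ c := by
      rcases Nat.eq_zero_or_pos c with rfl | hc
      · omega
      · exact hc
    refine ⟨⟨hc, ?_⟩, ?_⟩
    · calc c = 1 * c := (one_mul c).symm
        _ ≤ π * c := Nat.mul_le_mul_right c hπ
        _ ≤ m := h2
    · rw [mul_comm]; exact h2
  · intro i hi
    simp only [Finset.mem_filter, Finset.mem_Icc] at hi ⊢
    obtain ⟨⟨h1, h2⟩, h3⟩ := hi
    refine ⟨⟨?_, h3⟩, Dvd.intro_left i rfl⟩
    calc 1 = 1 * 1 := rfl
      _ ≤ i * π := Nat.mul_le_mul h1 hπ
  · intro j hj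
    simp only [Finset.mem_filter, Finset.mem_Icc] at hj
    exact Nat.div_mul_cancel hj.2
  · intro i _
    exact Nat.mul_div_cancel i hπ
  · intro j hj
    simp only [Finset.mem_filter, Finset.mem_Icc] at hj
    rw [Nat.div_mul_cancel hj.2]

include fin in
/-- **(LD)** `m · A m = ∑_{j=1}^{m} N j · A (m - j)`. -/
theorem s27e_ld (m : ℕ) :
    (m : R) * s27_A θ w m = ∑ j ∈ Finset.Icc 1 m, s27_N θ w j * s27_A θ w (m - j) := by
  classical
  -- the left-hand side
  have hL : (m : R) * s27_A θ w m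
      = ∑ P ∈ s27e_pts θ fin m, ∑ i ∈ Finset.Icc 1 m,
          (if i * minimalPeriod θ P ≤ m then
            w (ofAdd (s27_orb θ P)) ^ i * s27_A θ w (m - i * minimalPeriod θ P) else 0) := by
    rw [s27e_A_eq_sum θ fin, Finset.mul_sum]
    have h1 : ∀ D ∈ s27e_stab θ fin m, (m : R) * w (ofAdd D)
        = ∑ P ∈ s27e_pts θ fin m, ∑ i ∈ Finset.Icc 1 m,
            (if i ≤ D P then w (ofAdd D) else 0) := by
      intro D hD
      have h2 := s27e_deg_eq_count θ fin hD
      conv_lhs => rw [← h2]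
      push_cast
      rw [Finset.sum_mul]
      refine Finset.sum_congr rfl fun P _ => ?_
      rw [Finset.sum_mul]
      refine Finset.sum_congr rfl fun i _ => ?_
      split_ifs <;> simp
    rw [Finset.sum_congr rfl h1, Finset.sum_comm]
    refine Finset.sum_congr rfl fun P hP => ?_
    rw [Finset.sum_comm]
    refine Finset.sum_congr rfl fun i _ => ?_
    rw [← Finset.sum_filter]
    exact s27e_sum_filter_ge θ fin w P ((s27e_mem_pts_iff θ fin).mp hP).1 i m
  -- the right-hand side
  have hR : ∑ j ∈ Finset.Icc 1 m, s27_N θ w j * s27_A θ w (m - j)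
      = ∑ P ∈ s27e_pts θ fin m, ∑ j ∈ Finset.Icc 1 m,
          (if minimalPeriod θ P ∣ j then
            w (ofAdd (s27_orb θ P)) ^ (j / minimalPeriod θ P) * s27_A θ w (m - j) else 0) := by
    rw [Finset.sum_comm]
    refine Finset.sum_congr rfl fun j hj => ?_
    have hj1 : 0 < j := (Finset.mem_Icc.mp hj).1
    have hjm : j ≤ m := (Finset.mem_Icc.mp hj).2
    rw [s27e_N_eq_sum θ fin w j hj1, Finset.sum_mul]
    have hfix : s27e_fix θ fin j hj1
        = (s27e_pts θ fin m).filter fun P => minimalPeriod θ P ∣ j := by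
      ext P
      rw [s27e_mem_fix, Finset.mem_filter, s27e_mem_pts_iff θ fin]
      constructor
      · intro h
        have h' := (s27e_periodic_iff θ P j).mp h
        exact ⟨⟨s27e_period_pos θ hj1 h, (Nat.le_of_dvd hj1 h').trans hjm⟩, h'⟩
      · exact fun h => (s27e_periodic_iff θ P j).mpr h.2
    rw [hfix, Finset.sum_filter]
  rw [hL, hR]
  refine Finset.sum_congr rfl fun P hP => ?_
  exact (s27e_reindex (minimalPeriod θ P) m ((s27e_mem_pts_iff θ fin).mp hP).1
    (fun i j => w (ofAdd (s27_orb θ P)) ^ i * s27_A θ w (m - j))).symm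

end Fermat.Agent.Lib.S27
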