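/-
Programme Z (S27), [EP] — part 4 (helper8): the contract `s27_EP` in power-series form.
-/
import Fermat.Agent.Lib.S27.ELD

set_option autoImplicit false

noncomputable section

namespace Fermat.Agent.Lib.S27

open Multiplicative Function PowerSeries

universe u v

variable {Pt : Type u} (θ : Equiv.Perm Pt)
  (fin : ∀ n : ℕ, 0 < n → {P : Pt | (θ ^ n) P = P}.Finite)
  {R : Type v} [CommRing R] (w : Multiplicative (Pt →₀ ℕ) →* R)

theorem s27e_size_eq_zero {D : Pt →₀ ℕ} (h : s27_size D = 0) : D = 0 := by
  ext P
  have := s27e_apply_le_deg D P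
  rw [h] at this
  simpa using this

include fin in
theorem s27e_A_zero : s27_A θ w 0 = 1 := by
  rw [s27e_A_eq_sum θ fin]
  have : s27e_stab θ fin 0 = {0} := by
    ext D
    rw [s27e_mem_stab, Finset.mem_singleton]
    constructor
    · exact fun h => s27e_size_eq_zero h.2
    · rintro rfl
      exact ⟨Finsupp.mapDomain_zero, s27e_deg_zero⟩
  rw [this, Finset.sum_singleton, ofAdd_zero, map_one]

include fin in
/-- **[EP]** in power-series form. -/
theorem s27e_LDeq_L : s27_LDeq (s27_L θ w) (s27_S θ w) := by
  refine ⟨?_, ?_⟩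
  · ext m
    have hRHS : coeff m (s27_L θ w * s27_S θ w)
        = ∑ j ∈ Finset.Icc 1 m, s27_N θ w j * s27_A θ w (m - j) := by
      rw [mul_comm (s27_L θ w) (s27_S θ w), coeff_mul,
        Finset.Nat.sum_antidiagonal_eq_sum_range_succ
          (fun a b => coeff a (s27_S θ w) * coeff b (s27_L θ w))]
      unfold s27_L s27_S
      simp only [coeff_mk]
      rw [Finset.range_eq_Ico, Finset.sum_eq_sum_Ico_succ_bot (Nat.succ_pos m), if_pos rfl,
        zero_mul, zero_add]
      refine Finset.sum_congr (by ext; simp) fun j hj => ?_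
      have : j ≠ 0 := by
        have := (Finset.mem_Ico.mp hj).1
        omega
      rw [if_neg this]
    have hLHS : coeff m (X * d⁄dX R (s27_L θ w)) = (m : R) * s27_A θ w m := by
      rcases m with _ | n
      · simp
      · rw [coeff_succ_X_mul, coeff_derivative]
        unfold s27_L
        rw [coeff_mk]
        push_cast
        ring
    rw [hLHS, hRHS]
    exact s27e_ld θ fin w m
  · unfold s27_L
    rw [← coeff_zero_eq_constantCoeff_apply, coeff_mk]
    exact s27e_A_zero θ fin w

/-- **CONTRACT [EP].** -/
theorem s27e_EP : s27_EP.{u, v} := by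
  intro Pt θ hfin R _ w
  exact ⟨fun m => s27e_stabSet_finite θ hfin m, s27e_LDeq_L θ hfin w⟩

end Fermat.Agent.Lib.S27
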