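/-
Programme Z (S27), [PS] — the calculus of the logarithmic-derivative equation
`s27_LDeq f S : X f' = f S ∧ f(0) = 1` (helper8).  Contracts `s27_PS_*` of `ZIface2.lean`.
-/
import Fermat.Agent.Lib.S27.ZIface2

set_option autoImplicit false

noncomputable section

namespace Fermat.Agent.Lib.S27

open PowerSeries

universe v

variable {R : Type v} [CommRing R]

theorem s27e_LDeq_one : s27_LDeq (1 : R⟦X⟧) 0 := by
  refine ⟨?_, map_one _⟩
  rw [Derivation.map_one_eq_zero, mul_zero, mul_zero]

theorem s27e_LDeq_mul {f g S S' : R⟦X⟧} (hf : s27_LDeq f S) (hg : s27_LDeq g S') :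
    s27_LDeq (f * g) (S + S') := by
  refine ⟨?_, by rw [map_mul, hf.2, hg.2, mul_one]⟩
  rw [Derivation.leibniz, smul_eq_mul, smul_eq_mul]
  calc X * (f * d⁄dX R g + g * d⁄dX R f)
      = f * (X * d⁄dX R g) + g * (X * d⁄dX R f) := by ring
    _ = f * (g * S') + g * (f * S) := by rw [hf.1, hg.1]
    _ = f * g * (S + S') := by ring

theorem s27e_LDeq_prod {ι : Type*} (s : Finset ι) (f S : ι → R⟦X⟧)
    (h : ∀ i ∈ s, s27_LDeq (f i) (S i)) : s27_LDeq (∏ i ∈ s, f i) (∑ i ∈ s, S i) := by
  classical
  induction s using Finset.induction_on with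
  | empty =>
    rw [Finset.prod_empty, Finset.sum_empty]
    exact s27e_LDeq_one
  | insert a s ha ih =>
    rw [Finset.prod_insert ha, Finset.sum_insert ha]
    exact s27e_LDeq_mul (h a (Finset.mem_insert_self a s))
      (ih fun i hi => h i (Finset.mem_insert_of_mem hi))

theorem s27e_LDeq_pow {f S : R⟦X⟧} (hf : s27_LDeq f S) (c : ℕ) : s27_LDeq (f ^ c) (c • S) := by
  induction c with
  | zero =>
    rw [pow_zero, zero_smul]
    exact s27e_LDeq_one
  | succ c ih =>
    rw [pow_succ, succ_nsmul]
    exact s27e_LDeq_mul ih hf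

theorem s27e_derivative_rescale (a : R) (f : R⟦X⟧) :
    d⁄dX R (rescale a f) = C a * rescale a (d⁄dX R f) := by
  ext n
  rw [coeff_derivative, coeff_rescale, coeff_C_mul, coeff_rescale, coeff_derivative]
  ring

theorem s27e_LDeq_rescale (a : R) {f S : R⟦X⟧} (hf : s27_LDeq f S) :
    s27_LDeq (rescale a f) (rescale a S) := by
  refine ⟨?_, ?_⟩
  · rw [s27e_derivative_rescale, ← map_mul, ← hf.1, map_mul, rescale_X]
    ring
  · rw [← coeff_zero_eq_constantCoeff_apply, coeff_rescale, pow_zero, one_mul,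
      coeff_zero_eq_constantCoeff_apply]
    exact hf.2

theorem s27e_expand_eq (n : ℕ) (hn : 0 < n) (f : R⟦X⟧) :
    s27_expand n f = PowerSeries.expand n hn.ne' f := by
  ext m
  unfold s27_expand
  rw [coeff_mk, coeff_expand]

theorem s27e_LDeq_expand (n : ℕ) (hn : 0 < n) {f S : R⟦X⟧} (hf : s27_LDeq f S) :
    s27_LDeq (s27_expand n f) (n • s27_expand n S) := by
  rw [s27e_expand_eq n hn, s27e_expand_eq n hn]
  refine ⟨?_, ?_⟩
  · have h1 : d⁄dX R (PowerSeries.expand n hn.ne' f)
        = PowerSeries.expand n hn.ne' (d⁄dX R f) * ((n : R⟦X⟧) * X ^ (n - 1)) := by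
      rw [expand_apply, derivative_subst (HasSubst.X_pow hn.ne'), ← expand_apply,
        Derivation.leibniz_pow, derivative_X, smul_eq_mul, mul_one, nsmul_eq_mul]
    have h2 : (X : R⟦X⟧) * X ^ (n - 1) = X ^ n := by
      rw [← pow_succ', Nat.sub_add_cancel hn]
    have h3 : PowerSeries.expand n hn.ne' (X * d⁄dX R f)
        = X ^ n * PowerSeries.expand n hn.ne' (d⁄dX R f) := by
      rw [map_mul, expand_X]
    calc X * d⁄dX R (PowerSeries.expand n hn.ne' f)
        = (n : R⟦X⟧) * ((X * X ^ (n - 1)) * PowerSeries.expand n hn.ne' (d⁄dX R f)) := by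
          rw [h1]; ring
      _ = (n : R⟦X⟧) * PowerSeries.expand n hn.ne' (X * d⁄dX R f) := by rw [h2, h3]
      _ = (n : R⟦X⟧) * PowerSeries.expand n hn.ne' (f * S) := by rw [hf.1]
      _ = PowerSeries.expand n hn.ne' f * (n • PowerSeries.expand n hn.ne' S) := by
          rw [map_mul, nsmul_eq_mul]; ring
  · rw [constantCoeff_expand]
    exact hf.2

theorem s27e_LDeq_geom (a : R) (f : R⟦X⟧) (h : f * (1 - C a * X) = 1) :
    s27_LDeq f (PowerSeries.mk fun j => if j = 0 then 0 else a ^ j) := by
  -- `S (1 - aX) = aX`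
  have hS : (PowerSeries.mk fun j => if j = 0 then 0 else a ^ j : R⟦X⟧) * (1 - C a * X)
      = C a * X := by
    ext m
    rw [mul_sub, mul_one, map_sub, ← mul_assoc, mul_comm _ (C a), mul_assoc, coeff_C_mul]
    rcases m with _ | m
    · simp
    · rw [coeff_succ_mul_X, coeff_mk, coeff_mk, if_neg (Nat.succ_ne_zero m), coeff_C_mul,
        coeff_X]
      rcases m with _ | m
      · simp
      · rw [if_neg (Nat.succ_ne_zero m), if_neg (by omega), mul_zero, pow_succ]
        ring
  -- derivative of the relation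
  have hd := congrArg (d⁄dX R) h
  rw [Derivation.leibniz, Derivation.map_one_eq_zero, smul_eq_mul, smul_eq_mul, map_sub,
    Derivation.map_one_eq_zero, zero_sub, Derivation.leibniz, derivative_C, smul_zero,
    add_zero, derivative_X, smul_eq_mul, mul_one] at hd
  -- `f' (1 - aX) = f · a`
  have hd' : d⁄dX R f * (1 - C a * X) = f * C a := by
    linear_combination hd
  refine ⟨?_, ?_⟩
  · -- multiply by the unit `(1 - aX)` ... use `f (1 - aX) = 1`
    have key : (X * d⁄dX R f - f * PowerSeries.mk fun j => if j = 0 then 0 else a ^ j)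
        * (1 - C a * X) = 0 := by
      rw [sub_mul, mul_assoc, hd', mul_assoc, hS]
      ring
    have : X * d⁄dX R f - f * (PowerSeries.mk fun j => if j = 0 then 0 else a ^ j) = 0 := by
      have := congrArg (· * f) key
      simp only [zero_mul] at this
      rw [mul_assoc, mul_comm (1 - C a * X) f, h, mul_one] at this
      exact this
    exact sub_eq_zero.mp this
  · have := congrArg constantCoeff h
    simpa using this

theorem s27e_natCast_cancel [Algebra ℚ R] (n : ℕ) {x : R} (h : x * ((n : R) + 1) = 0) :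
    x = 0 := by
  have hu : IsUnit ((n : R) + 1) := by
    have h1 : IsUnit ((n : ℚ) + 1) := IsUnit.mk0 _ (by positivity)
    have h2 := h1.map (algebraMap ℚ R)
    simpa using h2
  exact (hu.mul_left_eq_zero).mp h

theorem s27e_LDeq_unique [Algebra ℚ R] {f g S : R⟦X⟧} (hf : s27_LDeq f S)
    (hg : s27_LDeq g S) : f = g := by
  -- `S(0) = 0`
  have hS0 : coeff 0 S = 0 := by
    have := congrArg (coeff 0) hf.1
    rw [coeff_zero_X_mul, coeff_mul, Finset.Nat.antidiagonal_zero, Finset.sum_singleton,
      coeff_zero_eq_constantCoeff_apply, hf.2, one_mul] at this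
    exact this.symm
  have hh : X * d⁄dX R (f - g) = (f - g) * S := by
    rw [map_sub, mul_sub, hf.1, hg.1, sub_mul]
  have h0 : ∀ n, coeff n (f - g) = 0 := by
    intro n
    induction n using Nat.strong_induction_on with
    | _ n ih =>
      rcases n with _ | n
      · rw [coeff_zero_eq_constantCoeff_apply, map_sub, hf.2, hg.2, sub_self]
      · have h1 := congrArg (coeff (n + 1)) hh
        rw [coeff_succ_X_mul, coeff_derivative, coeff_mul] at h1
        have h2 : ∑ p ∈ Finset.HasAntidiagonal.antidiagonal (n + 1), coeff p.1 (f - g) * coeff p.2 S = 0 := by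
          apply Finset.sum_eq_zero
          rintro ⟨a, b⟩ hab
          rw [Finset.HasAntidiagonal.mem_antidiagonal] at hab
          simp only at hab ⊢
          rcases Nat.lt_or_ge a (n + 1) with ha | ha
          · rw [ih a ha, zero_mul]
          · have hb : b = 0 := by omega
            rw [hb, hS0, mul_zero]
        rw [h2] at h1
        exact s27e_natCast_cancel n h1
  exact sub_eq_zero.mp (PowerSeries.ext fun n => by rw [h0 n, map_zero])

/-! ### the contracts -/

theorem s27e_PS_unique : s27_PS_unique.{v} := fun _ _ _ _ _ _ hf hg => s27e_LDeq_unique hf hg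

theorem s27e_PS_mul : s27_PS_mul.{v} := fun _ _ _ _ _ _ hf hg => s27e_LDeq_mul hf hg

theorem s27e_PS_prod : s27_PS_prod.{v} := fun _ _ _ s f S h => s27e_LDeq_prod s f S h

theorem s27e_PS_pow : s27_PS_pow.{v} := fun _ _ _ _ c hf => s27e_LDeq_pow hf c

theorem s27e_PS_rescale : s27_PS_rescale.{v} := fun _ _ a _ _ hf => s27e_LDeq_rescale a hf

theorem s27e_PS_expand : s27_PS_expand.{v} := fun _ _ n hn _ _ hf => s27e_LDeq_expand n hn hf

theorem s27e_PS_geom : s27_PS_geom.{v} := fun _ _ a f h => s27e_LDeq_geom a f h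

end Fermat.Agent.Lib.S27
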