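/-
Programme Z (S27), brick [ZM], LINEAR-ALGEBRA HALF (helper8).  Mathlib only.

For an integer polynomial `P` of degree `d` with `P(0) = 1` there is an integer `d × d` matrix `M`
with `det (1 - X M) = P` (so `charpoly M = X^d P(1/X)`), `det M = (-1)^d · lc(P)`, and for every
primitive `n`-th root of unity `ξ` in a commutative domain `K`,
`det (1 - M ^ n) = ∏_{i < n} P(ξ^i)`.
-/
import Mathlib

set_option autoImplicit false

namespace Fermat.Agent.Lib.S27

open Polynomial Matrix

/-- the minimal polynomial of the root in `AdjoinRoot g` (`g` monic) over any commutative ring. -/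
theorem s27e_minpoly_root {R : Type*} [CommRing R] (g : R[X]) (hg : g.Monic) :
    minpoly R (AdjoinRoot.root g) = g := by
  symm
  apply minpoly.unique' R _ hg
  · rw [AdjoinRoot.aeval_eq, AdjoinRoot.mk_self]
  · intro q hq
    by_cases h0 : q = 0
    · exact Or.inl h0
    · right
      rw [AdjoinRoot.aeval_eq, Ne, AdjoinRoot.mk_eq_zero]
      exact hg.not_dvd_of_degree_lt h0 hq

/-- the matrix of multiplication by the generator of a power basis, with the dimension renamed. -/
theorem s27e_exists_matrix_of_powerBasis {R S : Type*} [CommRing R] [Ring S] [Algebra R S]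
    (pb : PowerBasis R S) (d : ℕ) (hd : pb.dim = d) :
    ∃ M : Matrix (Fin d) (Fin d) R, M.charpoly = minpoly R pb.gen := by
  subst hd
  exact ⟨_, charpoly_leftMulMatrix pb⟩

/-- a matrix with prescribed monic characteristic polynomial. -/
theorem s27e_exists_matrix_charpoly {R : Type*} [CommRing R] (d : ℕ) (p : R[X]) (hp : p.Monic)
    (hd : p.natDegree = d) : ∃ M : Matrix (Fin d) (Fin d) R, M.charpoly = p := by
  obtain ⟨M, hM⟩ := s27e_exists_matrix_of_powerBasis (AdjoinRoot.powerBasis' hp) d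
    ((AdjoinRoot.powerBasis'_dim hp).trans hd)
  refine ⟨M, hM.trans ?_⟩
  rw [AdjoinRoot.powerBasis'_gen]
  exact s27e_minpoly_root p hp

/-- `1 - T ^ n = ∏_{i < n} (1 - ξ^i T)` for a primitive `n`-th root of unity `ξ`. -/
theorem s27e_one_sub_X_pow {K : Type*} [CommRing K] [IsDomain K] {n : ℕ} (hn : 0 < n) {ξ : K}
    (hξ : IsPrimitiveRoot ξ n) :
    (1 : K[X]) - X ^ n = ∏ i ∈ Finset.range n, (1 - C (ξ ^ i) * X) := by
  have hξ' : IsPrimitiveRoot (C ξ : K[X]) n := hξ.map_of_injective C_injective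
  have h := X_pow_sub_C_eq_prod (R := K[X]) hξ' (α := (X : K[X])) hn rfl
  have h2 := congrArg (Polynomial.eval (1 : K[X])) h
  rw [eval_sub, eval_pow, eval_X, eval_C, one_pow, eval_prod] at h2
  rw [h2]
  refine Finset.prod_congr rfl fun i _ => ?_
  rw [eval_sub, eval_X, eval_C, C_pow]

/-- `det` of a polynomial in `A` given as a product. -/
theorem s27e_det_aeval_prod {K : Type*} [CommRing K] {m : Type*} [Fintype m] [DecidableEq m]
    {ι : Type*} (s : Finset ι) (p : ι → K[X]) (A : Matrix m m K) :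
    (aeval A (∏ i ∈ s, p i)).det = ∏ i ∈ s, (aeval A (p i)).det := by
  classical
  induction s using Finset.induction_on with
  | empty => simp
  | insert a s ha ih => rw [Finset.prod_insert ha, map_mul, det_mul, ih, Finset.prod_insert ha]

/-- `det (1 - A ^ n) = ∏_{i < n} det (1 - ξ^i A)`. -/
theorem s27e_det_one_sub_pow {K : Type*} [CommRing K] [IsDomain K] {m : Type*} [Fintype m]
    [DecidableEq m] {n : ℕ} (hn : 0 < n) {ξ : K} (hξ : IsPrimitiveRoot ξ n) (A : Matrix m m K) :
    (1 - A ^ n).det = ∏ i ∈ Finset.range n, (1 - ξ ^ i • A).det := by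
  have h := congrArg (fun p : K[X] => (aeval A p).det) (s27e_one_sub_X_pow hn hξ)
  simp only [s27e_det_aeval_prod] at h
  simpa [Algebra.smul_def] using h

/-- `det (1 - ζ A)` is the value at `ζ` of `det (1 - X A)`. -/
theorem s27e_eval₂_charpolyRev {K : Type*} [CommRing K] {m : Type*} [Fintype m] [DecidableEq m]
    (M : Matrix m m ℤ) (ζ : K) :
    eval₂ (Int.castRingHom K) ζ M.charpolyRev = (1 - ζ • M.map (Int.castRingHom K)).det := by
  rw [Matrix.charpolyRev, ← Polynomial.coe_eval₂RingHom, RingHom.map_det]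
  congr 1
  ext i j
  have h1 : eval₂ (Int.castRingHom K) ζ ((M i j : ℤ) : ℤ[X]) = ((M i j : ℤ) : K) := by
    rw [← C_eq_intCast, eval₂_C]; rfl
  simp [Matrix.one_apply, apply_ite, h1]

/-- an integer matrix `M` with `det (1 - X M) = P`, for `P` of degree `≤ d` with `P(0) = 1`. -/
theorem s27e_exists_matrix_charpolyRev {R : Type*} [CommRing R] [Nontrivial R] (d : ℕ) (P : R[X])
    (hdeg : P.natDegree ≤ d) (h0 : P.coeff 0 = 1) :
    ∃ M : Matrix (Fin d) (Fin d) R, M.charpolyRev = P ∧ M.det = (-1) ^ d * P.coeff d := by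
  have hle : (P.reflect d).natDegree ≤ d := by
    refine natDegree_reflect_le.trans ?_
    simp [hdeg]
  have hcoeff : (P.reflect d).coeff d = 1 := by
    rw [coeff_reflect, revAt_le le_rfl, Nat.sub_self, h0]
  have hnat : (P.reflect d).natDegree = d :=
    le_antisymm hle (le_natDegree_of_ne_zero (by rw [hcoeff]; exact one_ne_zero))
  have hmonic : (P.reflect d).Monic := by
    rw [Monic, leadingCoeff, hnat, hcoeff]
  obtain ⟨M, hM⟩ := s27e_exists_matrix_charpoly d (P.reflect d) hmonic hnat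
  refine ⟨M, ?_, ?_⟩
  · rw [← Matrix.reverse_charpoly, hM, reverse, hnat, reflect_reflect]
  · rw [Matrix.det_eq_sign_charpoly_coeff, hM, coeff_reflect, revAt_le (Nat.zero_le d),
      Nat.sub_zero, Fintype.card_fin]

/-- `det (1 - M ^ n) = ∏_{i < n} P(ξ^i)` with `P = det (1 - X M)`, in any commutative domain
containing a primitive `n`-th root of unity `ξ`. -/
theorem s27e_det_one_sub_pow_int {K : Type*} [CommRing K] [IsDomain K] {m : Type*} [Fintype m]
    [DecidableEq m] (M : Matrix m m ℤ) {n : ℕ} (hn : 0 < n) {ξ : K} (hξ : IsPrimitiveRoot ξ n) :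
    (((1 - M ^ n).det : ℤ) : K) =
      ∏ i ∈ Finset.range n, eval₂ (Int.castRingHom K) (ξ ^ i) M.charpolyRev := by
  have h1 : (((1 - M ^ n).det : ℤ) : K) = (1 - (M.map (Int.castRingHom K)) ^ n).det := by
    have := (Int.castRingHom K).map_det (1 - M ^ n)
    rw [eq_intCast] at this
    rw [this]
    congr 1
    have h2 : (Int.castRingHom K).mapMatrix (1 - M ^ n)
        = 1 - ((Int.castRingHom K).mapMatrix M) ^ n := by
      rw [map_sub, map_one, map_pow]
    exact h2
  rw [h1, s27e_det_one_sub_pow hn hξ]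
  refine Finset.prod_congr rfl fun i _ => ?_
  rw [s27e_eval₂_charpolyRev]

/-- **[ZM], linear-algebra half.** -/
theorem s27e_LA (d : ℕ) (P : Polynomial ℤ) (hdeg : P.natDegree ≤ d) (h0 : P.coeff 0 = 1) :
    ∃ M : Matrix (Fin d) (Fin d) ℤ, M.det = (-1) ^ d * P.coeff d ∧
      ∀ n : ℕ, 0 < n → ∀ ξ : ℂ, IsPrimitiveRoot ξ n →
        (((1 - M ^ n).det : ℤ) : ℂ) =
          ∏ i ∈ Finset.range n, (P.map (Int.castRingHom ℂ)).eval (ξ ^ i) := by
  obtain ⟨M, hM, hdet⟩ := s27e_exists_matrix_charpolyRev d P hdeg h0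
  refine ⟨M, hdet, fun n hn ξ hξ => ?_⟩
  rw [s27e_det_one_sub_pow_int M hn hξ, hM]
  refine Finset.prod_congr rfl fun i _ => ?_
  rw [eval_map]

end Fermat.Agent.Lib.S27
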