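/-
Programme Z (S27), brick [ZM], POWER-SERIES HALF (helper8).

For a permutation `θ` with finitely many points of each period, trivial weight, and a primitive
`n`-th root of unity `ξ` (characteristic zero):
`Z_{θ^n}(X^n) = ∏_{i < n} Z_θ(ξ^i X)`.
-/
import Fermat.Agent.Lib.S27.EEP
import Fermat.Agent.Lib.S27.EPS
import Fermat.Agent.Lib.S27.EZMLA

set_option autoImplicit false

noncomputable section

namespace Fermat.Agent.Lib.S27

open Multiplicative Function PowerSeries

universe u v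

section Counting

variable {Pt : Type u} (θ : Equiv.Perm Pt)
  (fin : ∀ n : ℕ, 0 < n → {P : Pt | (θ ^ n) P = P}.Finite)

include fin in
theorem s27e_fin_pow (n : ℕ) (hn : 0 < n) :
    ∀ m : ℕ, 0 < m → {P : Pt | ((θ ^ n) ^ m) P = P}.Finite := by
  intro m hm
  have := fin (n * m) (Nat.mul_pos hn hm)
  simpa only [pow_mul] using this

/-- trivial weight: `N_j` of `θ ^ n` is `N_{nj}` of `θ`. -/
theorem s27e_N_pow_one {R : Type v} [CommRing R] (n j : ℕ) :
    s27_N (θ ^ n) (1 : Multiplicative (Pt →₀ ℕ) →* R) j = s27_N θ 1 (n * j) := by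
  unfold s27_N
  simp only [MonoidHom.one_apply, one_pow, pow_mul]

include fin in
/-- trivial weight: `A_m` is the number of stable effective divisors of degree `m`. -/
theorem s27e_A_one {R : Type v} [CommRing R] (m : ℕ) :
    s27_A θ (1 : Multiplicative (Pt →₀ ℕ) →* R) m = ((s27e_stab θ fin m).card : R) := by
  rw [s27e_A_eq_sum θ fin]
  simp

include fin in
/-- the zeta function over any ring is the image of the integral one. -/
theorem s27e_map_Z {R : Type v} [CommRing R] :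
    PowerSeries.map (Int.castRingHom R) (s27_Z θ) =
      s27_L θ (1 : Multiplicative (Pt →₀ ℕ) →* R) := by
  ext m
  rw [coeff_map, s27_Z, s27_L, s27_L, coeff_mk, coeff_mk, s27e_A_one θ fin, s27e_A_one θ fin]
  simp

end Counting

section Roots

variable {K : Type v} [CommRing K] [IsDomain K]

/-- `Σ_{i < n} (ξ^i)^j = n` if `n ∣ j`, and `0` otherwise. -/
theorem s27e_sum_pow_root {n : ℕ} {ξ : K} (hξ : IsPrimitiveRoot ξ n) (j : ℕ) :
    ∑ i ∈ Finset.range n, (ξ ^ i) ^ j = if n ∣ j then (n : K) else 0 := by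
  have h1 : ∀ i : ℕ, (ξ ^ i) ^ j = (ξ ^ j) ^ i := fun i => by
    rw [← pow_mul, ← pow_mul, mul_comm]
  simp only [h1]
  split_ifs with h
  · rw [(hξ.pow_eq_one_iff_dvd j).mpr h]
    simp
  · have hne : ξ ^ j ≠ 1 := fun h' => h ((hξ.pow_eq_one_iff_dvd j).mp h')
    have h2 : (∑ i ∈ Finset.range n, (ξ ^ j) ^ i) * (ξ ^ j - 1) = 0 := by
      rw [geom_sum_mul, ← pow_mul, mul_comm, pow_mul, hξ.pow_eq_one, one_pow, sub_self]
    rcases mul_eq_zero.mp h2 with h3 | h3
    · exact h3
    · exact absurd (sub_eq_zero.mp h3) hne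

end Roots

section Zeta

variable {Pt : Type u} (θ : Equiv.Perm Pt)
  (fin : ∀ n : ℕ, 0 < n → {P : Pt | (θ ^ n) P = P}.Finite)
  {K : Type v} [Field K] [CharZero K]

omit [CharZero K] in
/-- the logarithmic derivatives: `n · S_{θ^n}(X^n) = Σ_{i<n} S_θ(ξ^i X)`. -/
theorem s27e_S_pow_eq {n : ℕ} (hn : 0 < n) {ξ : K} (hξ : IsPrimitiveRoot ξ n) :
    n • s27_expand n (s27_S (θ ^ n) (1 : Multiplicative (Pt →₀ ℕ) →* K)) =
      ∑ i ∈ Finset.range n, rescale (ξ ^ i) (s27_S θ (1 : Multiplicative (Pt →₀ ℕ) →* K)) := by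
  ext j
  rw [nsmul_eq_mul, ← map_natCast (PowerSeries.C (R := K)) n, coeff_C_mul, map_sum]
  simp only [coeff_rescale]
  rw [← Finset.sum_mul, s27e_sum_pow_root hξ j]
  unfold s27_expand s27_S
  rw [coeff_mk, coeff_mk]
  by_cases hdvd : n ∣ j
  · rw [if_pos hdvd, if_pos hdvd]
    obtain ⟨k, rfl⟩ := hdvd
    rw [Nat.mul_div_cancel_left k hn, coeff_mk, s27e_N_pow_one]
    by_cases hk : k = 0
    · subst hk
      simp
    · rw [if_neg hk, if_neg (Nat.mul_ne_zero hn.ne' hk)]
  · rw [if_neg hdvd, if_neg hdvd, mul_zero, zero_mul]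

include fin in
/-- **`Z_{θ^n}(X^n) = ∏_{i<n} Z_θ(ξ^i X)`** (trivial weight, characteristic zero). -/
theorem s27e_L_pow_eq {n : ℕ} (hn : 0 < n) {ξ : K} (hξ : IsPrimitiveRoot ξ n) :
    s27_expand n (s27_L (θ ^ n) (1 : Multiplicative (Pt →₀ ℕ) →* K)) =
      ∏ i ∈ Finset.range n, rescale (ξ ^ i) (s27_L θ (1 : Multiplicative (Pt →₀ ℕ) →* K)) := by
  have h1 := s27e_LDeq_expand n hn
    (s27e_LDeq_L (θ ^ n) (s27e_fin_pow θ fin n hn) (1 : Multiplicative (Pt →₀ ℕ) →* K))
  have h2 := s27e_LDeq_prod (Finset.range n)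
    (fun i => rescale (ξ ^ i) (s27_L θ (1 : Multiplicative (Pt →₀ ℕ) →* K)))
    (fun i => rescale (ξ ^ i) (s27_S θ (1 : Multiplicative (Pt →₀ ℕ) →* K)))
    (fun i _ => s27e_LDeq_rescale (ξ ^ i) (s27e_LDeq_L θ fin 1))
  rw [s27e_S_pow_eq θ hn hξ] at h1
  exact s27e_LDeq_unique h1 h2

end Zeta

section Poly

variable {R : Type v} [CommRing R]

theorem s27e_rescale_C (a b : R) : rescale a (C b : R⟦X⟧) = C b := by
  ext m
  rw [coeff_rescale, coeff_C]
  split_ifs with h
  · subst h; simp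
  · simp

/-- coercion of `p(aX)`. -/
theorem s27e_coe_comp_C_mul_X (a : R) (p : Polynomial R) :
    ((p.comp (Polynomial.C a * Polynomial.X) : Polynomial R) : R⟦X⟧) = rescale a (p : R⟦X⟧) := by
  ext m
  rw [Polynomial.coeff_coe, Polynomial.comp_C_mul_X_coeff, coeff_rescale, Polynomial.coeff_coe,
    mul_comm]

/-- coercion of `p(X^n)`. -/
theorem s27e_coe_expand (n : ℕ) (hn : 0 < n) (p : Polynomial R) :
    ((Polynomial.expand R n p : Polynomial R) : R⟦X⟧) = s27_expand n (p : R⟦X⟧) := by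
  ext m
  unfold s27_expand
  rw [Polynomial.coeff_coe, Polynomial.coeff_expand hn, coeff_mk]
  simp only [Polynomial.coeff_coe]

/-- `(1 - X^n)(1 - a^n X^n) = ∏_{i<n} (1 - ξ^i X)(1 - a ξ^i X)`. -/
theorem s27e_denominator [IsDomain R] {n : ℕ} (hn : 0 < n) {ξ : R} (hξ : IsPrimitiveRoot ξ n)
    (a : R) :
    s27_expand n ((1 - X) * (1 - C (a ^ n) * X) : R⟦X⟧) =
      ∏ i ∈ Finset.range n, rescale (ξ ^ i) ((1 - X) * (1 - C a * X) : R⟦X⟧) := by
  -- the basic identity in power series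
  have h0 : (1 : R⟦X⟧) - X ^ n = ∏ i ∈ Finset.range n, (1 - C (ξ ^ i) * X) := by
    have := congrArg (fun p : Polynomial R => (p : R⟦X⟧)) (s27e_one_sub_X_pow hn hξ)
    simp only [Polynomial.coe_sub, Polynomial.coe_one, Polynomial.coe_pow, Polynomial.coe_X] at this
    rw [this, ← Polynomial.coeToPowerSeries.ringHom_apply, map_prod]
    refine Finset.prod_congr rfl fun i _ => ?_
    simp
  have h1 : (1 : R⟦X⟧) - C (a ^ n) * X ^ n = ∏ i ∈ Finset.range n, (1 - C a * (C (ξ ^ i) * X)) := by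
    have := congrArg (rescale a) h0
    rw [map_sub, map_one, map_pow, rescale_X, mul_pow, ← map_pow, map_prod] at this
    rw [this]
    refine Finset.prod_congr rfl fun i _ => ?_
    rw [map_sub, map_one, map_mul, rescale_X, s27e_rescale_C]
    ring
  rw [s27e_expand_eq n hn, map_mul, map_sub, map_sub, map_one, map_mul, expand_X, expand_C, h0, h1,
    ← Finset.prod_mul_distrib]
  refine Finset.prod_congr rfl fun i _ => ?_
  rw [map_mul, map_sub, map_sub, map_one, map_mul, rescale_X, s27e_rescale_C]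

end Poly

section Main

variable {Pt : Type u} (θ : Equiv.Perm Pt)
  (fin : ∀ n : ℕ, 0 < n → {P : Pt | (θ ^ n) P = P}.Finite)
  {K : Type v} [Field K] [CharZero K]

omit [CharZero K] in
include fin in
/-- the rational form over `K`. -/
theorem s27e_map_rational (q : ℤ) (P : Polynomial ℤ)
    (h : s27_Z θ * ((1 - X) * (1 - C q * X)) = (P : ℤ⟦X⟧)) :
    s27_L θ (1 : Multiplicative (Pt →₀ ℕ) →* K) * ((1 - X) * (1 - C (q : K) * X)) =
      ((P.map (Int.castRingHom K) : Polynomial K) : K⟦X⟧) := by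
  have := congrArg (PowerSeries.map (Int.castRingHom K)) h
  rw [map_mul, s27e_map_Z θ fin, ← Polynomial.polynomial_map_coe] at this
  rw [← this]
  congr 1
  rw [map_mul, map_sub, map_sub, map_one, map_mul, map_X, map_C]
  rfl

include fin in
/-- **[ZM], power-series half**: `P_n(1) = ∏_{i<n} P₁(ξ^i)`. -/
theorem s27e_prod_eval (q : ℤ) {n : ℕ} (hn : 0 < n) (P₁ Pn : Polynomial ℤ)
    (h1 : s27_Z θ * ((1 - X) * (1 - C q * X)) = (P₁ : ℤ⟦X⟧))
    (hn' : s27_Z (θ ^ n) * ((1 - X) * (1 - C (q ^ n) * X)) = (Pn : ℤ⟦X⟧))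
    {ξ : K} (hξ : IsPrimitiveRoot ξ n) :
    ((Pn.eval 1 : ℤ) : K) =
      ∏ i ∈ Finset.range n, (P₁.map (Int.castRingHom K)).eval (ξ ^ i) := by
  have e1 := s27e_map_rational θ fin (K := K) q P₁ h1
  have en := s27e_map_rational (θ ^ n) (s27e_fin_pow θ fin n hn) (K := K) (q ^ n) Pn hn'
  -- the identity of power series
  have key : s27_expand n ((Pn.map (Int.castRingHom K) : Polynomial K) : K⟦X⟧) =
      ∏ i ∈ Finset.range n,
        rescale (ξ ^ i) ((P₁.map (Int.castRingHom K) : Polynomial K) : K⟦X⟧) := by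
    rw [← en, ← e1]
    simp only [map_mul (rescale _)]
    rw [Finset.prod_mul_distrib, ← s27e_L_pow_eq θ fin hn hξ]
    have hd := s27e_denominator hn hξ (q : K)
    simp only [map_mul (rescale _)] at hd
    rw [← hd, s27e_expand_eq n hn, s27e_expand_eq n hn, s27e_expand_eq n hn, map_mul]
    push_cast
    rfl
  -- back to polynomials
  have key2 : Polynomial.expand K n (Pn.map (Int.castRingHom K)) =
      ∏ i ∈ Finset.range n,
        (P₁.map (Int.castRingHom K)).comp (Polynomial.C (ξ ^ i) * Polynomial.X) := by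
    apply Polynomial.coe_injective
    have hprod : ((∏ i ∈ Finset.range n, (P₁.map (Int.castRingHom K)).comp
          (Polynomial.C (ξ ^ i) * Polynomial.X) : Polynomial K) : K⟦X⟧) =
        ∏ i ∈ Finset.range n, (((P₁.map (Int.castRingHom K)).comp
          (Polynomial.C (ξ ^ i) * Polynomial.X) : Polynomial K) : K⟦X⟧) :=
      map_prod (Polynomial.coeToPowerSeries.ringHom (R := K))
        (fun i => (P₁.map (Int.castRingHom K)).comp (Polynomial.C (ξ ^ i) * Polynomial.X))
        (Finset.range n)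
    rw [s27e_coe_expand n hn, key, hprod]
    refine Finset.prod_congr rfl fun i _ => ?_
    rw [s27e_coe_comp_C_mul_X]
  have key3 := congrArg (Polynomial.eval (1 : K)) key2
  rw [Polynomial.expand_eval, one_pow, Polynomial.eval_one_map, Polynomial.eval_prod] at key3
  rw [eq_intCast] at key3
  rw [key3]
  refine Finset.prod_congr rfl fun i _ => ?_
  rw [Polynomial.eval_comp, Polynomial.eval_mul, Polynomial.eval_C, Polynomial.eval_X, mul_one]

end Main

end Fermat.Agent.Lib.S27
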