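/-
Programme Z (S27), brick [ZM] (helper8): the class numbers over the constant extensions are
`det (1 - M ^ n)`, from the rational form [ZR] of the zeta function.
-/
import Fermat.Agent.Lib.S27.EZMPS

set_option autoImplicit false

noncomputable section

namespace Fermat.Agent.Lib.S27

open PowerSeries

universe u v

theorem s27e_pow_fix {Pt : Type u} (θ : Equiv.Perm Pt) {P : Pt} (h : θ P = P) (n : ℕ) :
    (θ ^ n) P = P := by
  induction n with
  | zero => rfl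
  | succ n ih => rw [pow_succ, Equiv.Perm.mul_apply, h, ih]

theorem s27e_fix0_pow {Pt : Type u} {Cl : Type v} [AddCommGroup Cl] (X : s27_Dyn Pt Cl) (n : ℕ)
    (hn : 0 < n) : (X.pow n hn).fix0 1 = X.fix0 n := by
  ext C
  show (X.deg C = 0 ∧ (⇑(s27_addEquivPow X.Θ n))^[1] C = C) ↔ (X.deg C = 0 ∧ (⇑X.Θ)^[n] C = C)
  rw [Function.iterate_one, s27_addEquivPow_apply]

/-- **CONTRACT [ZM]** from [ZR]. -/
theorem s27e_ZM (hZR : s27_ZR.{u, v}) : s27_ZM.{u, v} := by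
  intro Pt Cl _ X P₁ hP₁
  obtain ⟨-, P, hdeg, hlead, h0, -, hrat⟩ := hZR Pt Cl X P₁ hP₁
  obtain ⟨M, hdet, hM⟩ := s27e_LA (2 * X.g) P hdeg h0
  refine ⟨M, Or.inl ?_, ?_⟩
  · rw [hdet, hlead, Even.neg_one_pow ⟨X.g, by ring⟩, one_mul]
  · intro n hn
    have hPn : (X.pow n hn).θ P₁ = P₁ := s27e_pow_fix X.θ hP₁ n
    obtain ⟨hfinn, Pn, -, -, -, hevaln, hratn⟩ := hZR Pt Cl (X.pow n hn) P₁ hPn
    rw [s27e_fix0_pow X n hn] at hfinn hevaln
    refine ⟨hfinn, ?_⟩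
    have hratn' : s27_Z (X.θ ^ n) * ((1 - PowerSeries.X) * (1 - C ((X.q : ℤ) ^ n) * PowerSeries.X))
        = (Pn : ℤ⟦X⟧) := by
      rw [← hratn]
      show _ = s27_Z (X.θ ^ n) * ((1 - PowerSeries.X) *
        (1 - C (((X.q ^ n : ℕ)) : ℤ) * PowerSeries.X))
      push_cast
      rfl
    have key : (((Nat.card ↥(X.fix0 n) : ℤ)) : ℂ) = (((1 - M ^ n).det : ℤ) : ℂ) := by
      rw [← hevaln, hM n hn _ (Complex.isPrimitiveRoot_exp n hn.ne')]
      exact s27e_prod_eval X.θ X.fin (X.q : ℤ) hn P Pn hrat hratn'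
        (Complex.isPrimitiveRoot_exp n hn.ne')
    exact_mod_cast key

end Fermat.Agent.Lib.S27
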