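import Mathlib

/-!
# Programme Z (S27), brick [ZR]/[EP] (shared): finiteness of the stable effective divisors of a
given degree

Mathlib-only.  `θ : Equiv.Perm Pt` with finitely many fixed points of every power.  The effective
divisors `D : Pt →₀ ℕ` with `Finsupp.mapDomain θ D = D` and `D.sum (fun _ n => n) = m` are finite in
number (`s27z_stable_finite`); `s27z_stab θ fin m` is the corresponding `Finset`.
-/

namespace Fermat.Agent.Lib.S27

open Finset

section Fin

variable {Pt : Type*}

/-- a `θ`-stable divisor is constant along `θ`. -/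
theorem s27z_stable_apply {M : Type*} [AddCommMonoid M] (θ : Equiv.Perm Pt) {D : Pt →₀ M}
    (hD : Finsupp.mapDomain θ D = D) (a : Pt) : D (θ a) = D a := by
  conv_lhs => rw [← hD]
  exact Finsupp.mapDomain_apply θ.injective D a

theorem s27z_stable_apply_pow {M : Type*} [AddCommMonoid M] (θ : Equiv.Perm Pt) {D : Pt →₀ M}
    (hD : Finsupp.mapDomain θ D = D) (i : ℕ) (a : Pt) : D ((θ ^ i) a) = D a := by
  induction i with
  | zero => simp
  | succ i ih => rw [pow_succ', Equiv.Perm.mul_apply, s27z_stable_apply θ hD, ih]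

/-- a function constant along `θ` is a `θ`-stable divisor. -/
theorem s27z_stable_of_apply {M : Type*} [AddCommMonoid M] (θ : Equiv.Perm Pt) {D : Pt →₀ M}
    (hD : ∀ a, D (θ a) = D a) : Finsupp.mapDomain θ D = D := by
  ext a
  obtain ⟨b, rfl⟩ := θ.surjective a
  rw [Finsupp.mapDomain_apply θ.injective, hD]

theorem s27z_card_support_le (D : Pt →₀ ℕ) : D.support.card ≤ D.sum fun _ n => n := by
  rw [Finsupp.sum, Finset.card_eq_sum_ones]
  refine Finset.sum_le_sum fun i hi => ?_
  exact Nat.one_le_iff_ne_zero.mpr (Finsupp.mem_support_iff.mp hi)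

/-- the points of a stable effective divisor of degree `m` are fixed by `θ ^ m!`. -/
theorem s27z_support_fixed (θ : Equiv.Perm Pt) {D : Pt →₀ ℕ}
    (hD : Finsupp.mapDomain θ D = D) {m : ℕ} (hm : (D.sum fun _ n => n) = m) {P : Pt}
    (hP : P ∈ D.support) : (θ ^ (m.factorial)) P = P := by
  classical
  have hcard : D.support.card < (range (m + 1)).card := by
    rw [Finset.card_range]
    have := s27z_card_support_le D
    omega
  have hmaps : ∀ i ∈ range (m + 1), (θ ^ i) P ∈ D.support := by
    intro i _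
    rw [Finsupp.mem_support_iff, s27z_stable_apply_pow θ hD]
    exact Finsupp.mem_support_iff.mp hP
  obtain ⟨i, hi, j, hj, hij, heq⟩ := Finset.exists_ne_map_eq_of_card_lt_of_maps_to hcard hmaps
  -- a positive period `d ≤ m`
  have key : ∀ i j : ℕ, i < j → j ≤ m → (θ ^ i) P = (θ ^ j) P → (θ ^ (m.factorial)) P = P := by
    intro i j hij hjm heq
    obtain ⟨d, rfl⟩ : ∃ d, j = i + d := ⟨j - i, by omega⟩
    have hd : (θ ^ d) P = P := by
      rw [pow_add, Equiv.Perm.mul_apply] at heq
      exact ((θ ^ i).injective heq).symm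
    have hdvd : d ∣ m.factorial := Nat.dvd_factorial (by omega) (by omega)
    obtain ⟨c, hc⟩ := hdvd
    rw [hc, pow_mul]
    exact Equiv.Perm.pow_apply_eq_self_of_apply_eq_self hd c
  have hi' : i ≤ m := by have := Finset.mem_range.mp hi; omega
  have hj' : j ≤ m := by have := Finset.mem_range.mp hj; omega
  rcases lt_or_gt_of_ne hij with h | h
  · exact key i j h hj' heq
  · exact key j i h hi' heq.symm

/-- **finiteness** of the stable effective divisors of degree `m`. -/
theorem s27z_stable_finite (θ : Equiv.Perm Pt)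
    (fin : ∀ n : ℕ, 0 < n → {P : Pt | (θ ^ n) P = P}.Finite) (m : ℕ) :
    {D : Pt →₀ ℕ | Finsupp.mapDomain θ D = D ∧ (D.sum fun _ n => n) = m}.Finite := by
  classical
  set S : Finset Pt := (fin m.factorial (Nat.factorial_pos m)).toFinset with hS
  refine Set.Finite.subset (Finset.finite_toSet (S.finsuppAntidiag m)) ?_
  rintro D ⟨hD, hm⟩
  have hsub : D.support ⊆ S := by
    intro P hP
    rw [hS, Set.Finite.mem_toFinset]
    exact s27z_support_fixed θ hD hm hP
  rw [Finset.mem_coe, Finset.mem_finsuppAntidiag]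
  refine ⟨?_, hsub⟩
  rw [← hm, Finsupp.sum_of_support_subset D hsub (fun _ n => n) (fun _ _ => rfl)]

/-- the `Finset` of stable effective divisors of degree `m`. -/
noncomputable def s27z_stab (θ : Equiv.Perm Pt)
    (fin : ∀ n : ℕ, 0 < n → {P : Pt | (θ ^ n) P = P}.Finite) (m : ℕ) : Finset (Pt →₀ ℕ) :=
  (s27z_stable_finite θ fin m).toFinset

theorem s27z_mem_stab {θ : Equiv.Perm Pt}
    {fin : ∀ n : ℕ, 0 < n → {P : Pt | (θ ^ n) P = P}.Finite} {m : ℕ} {D : Pt →₀ ℕ} :
    D ∈ s27z_stab θ fin m ↔ Finsupp.mapDomain θ D = D ∧ (D.sum fun _ n => n) = m := by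
  rw [s27z_stab, Set.Finite.mem_toFinset]
  rfl

theorem s27z_stab_zero (θ : Equiv.Perm Pt)
    (fin : ∀ n : ℕ, 0 < n → {P : Pt | (θ ^ n) P = P}.Finite) : s27z_stab θ fin 0 = {0} := by
  classical
  ext D
  rw [s27z_mem_stab, Finset.mem_singleton]
  constructor
  · rintro ⟨_, h0⟩
    have := s27z_card_support_le D
    rw [h0, Nat.le_zero, Finset.card_eq_zero, Finsupp.support_eq_empty] at this
    exact this
  · rintro rfl
    exact ⟨Finsupp.mapDomain_zero, by simp⟩

end Fin

end Fermat.Agent.Lib.S27
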