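import Mathlib
import Fermat.Agent.Lib.S27.ZIface
import Fermat.Agent.Lib.S27.ZFin

/-!
# Programme Z (S27), brick [ZR]: stable classes of an abstract curve `s27_Dyn`

Mathlib + `ZIface` + `ZFin`.  The class of an effective divisor, its degree and stability, the
Riemann–Roch consequences (`deg W = 2g - 2`, `dim W = g`, `dim C = deg C + 1 - g` beyond `2g - 2`,
`dim C = 0` for non-trivial stable classes of degree `0`), the finiteness of the stable classes of
each degree when there is a fixed point, and the weighted counting identity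
`(q - 1) * Σ_{D stable effective of degree m} w (cls D) = Σ_{C stable of degree m} (q ^ dim C - 1) * w C`.
-/

set_option autoImplicit false

noncomputable section

namespace Fermat.Agent.Lib.S27

open Finset

universe u v

variable {Pt : Type u} {Cl : Type v} [AddCommGroup Cl] (X : s27_Dyn Pt Cl)

/-- the class of an effective divisor. -/
def s27z_clsN (D : Pt →₀ ℕ) : Cl :=
  X.cls (D.mapRange (Nat.cast : ℕ → ℤ) Nat.cast_zero)

/-- the degree of an effective divisor. -/
def s27z_degN (D : Pt →₀ ℕ) : ℕ := D.sum fun _ n => n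

theorem s27z_deg_clsN (D : Pt →₀ ℕ) : X.deg (s27z_clsN X D) = (s27z_degN D : ℤ) := by
  unfold s27z_clsN s27z_degN
  rw [X.deg_cls, Finsupp.sum_mapRange_index (fun _ => rfl), Finsupp.sum, Finsupp.sum,
    Nat.cast_sum]

theorem s27z_map_clsN (D : Pt →₀ ℕ) :
    X.Θ (s27z_clsN X D) = s27z_clsN X (Finsupp.mapDomain X.θ D) := by
  unfold s27z_clsN
  rw [← X.cls_map, Finsupp.mapDomain_mapRange _ _ _ _ (fun x y => Nat.cast_add x y)]

theorem s27z_clsN_add (D E : Pt →₀ ℕ) :
    s27z_clsN X (D + E) = s27z_clsN X D + s27z_clsN X E := by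
  unfold s27z_clsN
  rw [Finsupp.mapRange_add (fun x y => Nat.cast_add x y), map_add]

theorem s27z_clsN_zero : s27z_clsN X (0 : Pt →₀ ℕ) = 0 := by
  unfold s27z_clsN
  rw [Finsupp.mapRange_zero, map_zero]

theorem s27z_degN_eq_zero {D : Pt →₀ ℕ} (h : s27z_degN D = 0) : D = 0 := by
  have := s27z_card_support_le D
  unfold s27z_degN at h
  rw [h, Nat.le_zero, Finset.card_eq_zero, Finsupp.support_eq_empty] at this
  exact this

/-! ### Riemann–Roch consequences -/

theorem s27z_dim_W : X.dim X.W = X.g := by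
  have h := X.rr 0
  rw [sub_zero, X.dim_zero, map_zero] at h
  push_cast at h
  have : (X.dim X.W : ℤ) = X.g := by linarith
  exact_mod_cast this

theorem s27z_deg_W : X.deg X.W = 2 * (X.g : ℤ) - 2 := by
  have h := X.rr X.W
  rw [sub_self, X.dim_zero, s27z_dim_W] at h
  push_cast at h
  linarith

theorem s27z_dim_of_large {C : Cl} (hC : 2 * (X.g : ℤ) - 2 < X.deg C) :
    (X.dim C : ℤ) = X.deg C + 1 - X.g := by
  have h := X.rr C
  have h0 : X.dim (X.W - C) = 0 := by
    apply X.dim_of_neg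
    rw [map_sub, s27z_deg_W]
    linarith
  rw [h0] at h
  simpa using h

theorem s27z_dim_ge (C : Cl) : X.deg C + 1 - X.g ≤ (X.dim C : ℤ) := by
  have h := X.rr C
  have : (0 : ℤ) ≤ (X.dim (X.W - C) : ℤ) := Nat.cast_nonneg _
  linarith

/-- the number of `θ`-stable effective divisors in a `Θ`-stable class (count axiom, `n = 1`). -/
theorem s27z_count_one {C : Cl} (hC : X.Θ C = C) :
    {D : Pt →₀ ℕ | Finsupp.mapDomain (⇑X.θ) D = D ∧ s27z_clsN X D = C}.ncard * (X.q - 1) =
      X.q ^ X.dim C - 1 := by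
  have h := X.count 1 Nat.one_pos C (by simpa using hC)
  simpa [s27z_clsN] using h

/-- a stable class of positive dimension contains a stable effective divisor. -/
theorem s27z_exists_eff {C : Cl} (hC : X.Θ C = C) (hdim : 0 < X.dim C) :
    ∃ D : Pt →₀ ℕ, Finsupp.mapDomain (⇑X.θ) D = D ∧ s27z_clsN X D = C := by
  have h := s27z_count_one X hC
  have hq := X.one_lt_q
  have hpos : 0 < X.q ^ X.dim C - 1 := by
    have : X.q ^ 1 ≤ X.q ^ X.dim C := Nat.pow_le_pow_right (by omega) hdim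
    rw [pow_one] at this
    omega
  have hne : {D : Pt →₀ ℕ | Finsupp.mapDomain (⇑X.θ) D = D ∧ s27z_clsN X D = C}.ncard ≠ 0 := by
    intro h0
    rw [h0, zero_mul] at h
    omega
  obtain ⟨D, hD⟩ := Set.nonempty_of_ncard_ne_zero hne
  exact ⟨D, hD⟩

/-- a stable class of degree `0` and positive dimension is trivial. -/
theorem s27z_eq_zero_of_dim_pos {C : Cl} (hC : X.Θ C = C) (hdeg : X.deg C = 0)
    (hdim : 0 < X.dim C) : C = 0 := by
  obtain ⟨D, _, hDC⟩ := s27z_exists_eff X hC hdim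
  have h1 := s27z_deg_clsN X D
  rw [hDC, hdeg] at h1
  have h2 : s27z_degN D = 0 := by exact_mod_cast h1.symm
  rw [← hDC, s27z_degN_eq_zero h2, s27z_clsN_zero]

theorem s27z_dim_eq_zero {C : Cl} (hC : X.Θ C = C) (hdeg : X.deg C = 0) (hne : C ≠ 0) :
    X.dim C = 0 := by
  by_contra h
  exact hne (s27z_eq_zero_of_dim_pos X hC hdeg (Nat.pos_of_ne_zero h))

/-- stable classes of degree `2g - 2` other than `W` have dimension `g - 1`. -/
theorem s27z_dim_of_top {C : Cl} (hC : X.Θ C = C) (hdeg : X.deg C = 2 * (X.g : ℤ) - 2)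
    (hne : C ≠ X.W) : (X.dim C : ℤ) = X.g - 1 := by
  have h := X.rr C
  have h0 : X.dim (X.W - C) = 0 := by
    apply s27z_dim_eq_zero X
    · rw [map_sub, X.W_fix, hC]
    · rw [map_sub, s27z_deg_W, hdeg, sub_self]
    · intro h; exact hne (sub_eq_zero.mp h).symm
  rw [h0, hdeg] at h
  push_cast at h
  linarith

/-! ### Stable classes of a given degree -/

/-- the `Θ`-stable classes of degree `m`. -/
def s27z_stCls (m : ℤ) : Set Cl := {C | X.Θ C = C ∧ X.deg C = m}

variable {X}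

/-- the class of a fixed point. -/
theorem s27z_pt_fix {P₁ : Pt} (hP₁ : X.θ P₁ = P₁) :
    X.Θ (X.cls (Finsupp.single P₁ 1)) = X.cls (Finsupp.single P₁ 1) := by
  rw [← X.cls_map, Finsupp.mapDomain_single, hP₁]

theorem s27z_pt_deg (P₁ : Pt) : X.deg (X.cls (Finsupp.single P₁ 1)) = 1 := by
  rw [X.deg_cls, Finsupp.sum_single_index rfl]

/-- translation by `m • [P₁]` maps stable classes of degree `d` onto those of degree `d + m`. -/
theorem s27z_stCls_translate {P₁ : Pt} (hP₁ : X.θ P₁ = P₁) (d m : ℤ) :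
    (fun C => C + m • X.cls (Finsupp.single P₁ 1)) '' s27z_stCls X d = s27z_stCls X (d + m) := by
  ext C
  constructor
  · rintro ⟨C', ⟨hC', hd'⟩, rfl⟩
    refine ⟨?_, ?_⟩
    · rw [map_add, map_zsmul, hC', s27z_pt_fix hP₁]
    · rw [map_add, map_zsmul, hd', s27z_pt_deg]; simp
  · rintro ⟨hC, hd⟩
    refine ⟨C - m • X.cls (Finsupp.single P₁ 1), ⟨?_, ?_⟩, by simp⟩
    · rw [map_sub, map_zsmul, hC, s27z_pt_fix hP₁]
    · rw [map_sub, map_zsmul, hd, s27z_pt_deg]; simp

theorem s27z_stCls_finite_g (X : s27_Dyn Pt Cl) : (s27z_stCls X (X.g : ℤ)).Finite := by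
  have hfin := s27z_stable_finite X.θ X.fin X.g
  refine Set.Finite.subset (hfin.image (s27z_clsN X)) ?_
  rintro C ⟨hC, hdeg⟩
  have hdim : 0 < X.dim C := by
    have := s27z_dim_ge X C
    rw [hdeg] at this
    have h1 : (1 : ℤ) ≤ X.dim C := by linarith
    exact_mod_cast h1
  obtain ⟨D, hD, hDC⟩ := s27z_exists_eff X hC hdim
  refine ⟨D, ⟨hD, ?_⟩, hDC⟩
  have h1 := s27z_deg_clsN X D
  rw [hDC, hdeg] at h1
  exact_mod_cast h1.symm

theorem s27z_stCls_finite {P₁ : Pt} (hP₁ : X.θ P₁ = P₁) (m : ℤ) : (s27z_stCls X m).Finite := by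
  have h := s27z_stCls_translate hP₁ (X.g : ℤ) (m - X.g)
  rw [show (X.g : ℤ) + (m - X.g) = m by ring] at h
  rw [← h]
  exact (s27z_stCls_finite_g X).image _

theorem s27z_stCls_ncard {P₁ : Pt} (hP₁ : X.θ P₁ = P₁) (m : ℤ) :
    (s27z_stCls X m).ncard = (s27z_stCls X 0).ncard := by
  have h := s27z_stCls_translate hP₁ 0 m
  rw [zero_add] at h
  rw [← h]
  exact Set.ncard_image_of_injective _ (fun a b hab => add_right_cancel hab)

theorem s27z_zero_mem_stCls (X : s27_Dyn Pt Cl) : (0 : Cl) ∈ s27z_stCls X 0 :=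
  ⟨map_zero _, map_zero _⟩

/-- the class number `h ≠ 0`. -/
theorem s27z_stCls_ncard_ne_zero {P₁ : Pt} (hP₁ : X.θ P₁ = P₁) : (s27z_stCls X 0).ncard ≠ 0 := by
  intro h
  rw [Set.ncard_eq_zero (s27z_stCls_finite hP₁ 0)] at h
  have := s27z_zero_mem_stCls X
  rw [h] at this
  exact this

/-! ### The weighted counting identity -/

/-- **the counting identity**: for any weight `w` on classes with values in a commutative ring,
`(q - 1) * Σ_{D stable effective, deg D = m} w [D] = Σ_{C stable, deg C = m} (q ^ dim C - 1) * w C`. -/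
theorem s27z_count_weighted {P₁ : Pt} (hP₁ : X.θ P₁ = P₁) {R : Type*} [CommRing R] (w : Cl → R)
    (m : ℕ) :
    ((X.q : R) - 1) * ∑ D ∈ s27z_stab X.θ X.fin m, w (s27z_clsN X D) =
      ∑ C ∈ (s27z_stCls_finite hP₁ (m : ℤ)).toFinset, ((X.q : R) ^ X.dim C - 1) * w C := by
  classical
  have hmaps : ∀ D ∈ s27z_stab X.θ X.fin m,
      s27z_clsN X D ∈ (s27z_stCls_finite hP₁ (m : ℤ)).toFinset := by
    intro D hD
    rw [s27z_mem_stab] at hD
    rw [Set.Finite.mem_toFinset]
    refine ⟨?_, ?_⟩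
    · rw [s27z_map_clsN, hD.1]
    · rw [s27z_deg_clsN]; exact_mod_cast hD.2
  rw [← Finset.sum_fiberwise_of_maps_to hmaps, Finset.mul_sum]
  refine Finset.sum_congr rfl fun C hC => ?_
  rw [Set.Finite.mem_toFinset] at hC
  obtain ⟨hCfix, hCdeg⟩ := hC
  have hconst : ∑ D ∈ s27z_stab X.θ X.fin m with s27z_clsN X D = C, w (s27z_clsN X D) =
      ((s27z_stab X.θ X.fin m).filter (fun D => s27z_clsN X D = C)).card • w C := by
    rw [← Finset.sum_const]
    refine Finset.sum_congr rfl fun D hD => ?_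
    rw [(Finset.mem_filter.mp hD).2]
  have hset : (((s27z_stab X.θ X.fin m).filter (fun D => s27z_clsN X D = C) : Finset (Pt →₀ ℕ)) :
      Set (Pt →₀ ℕ)) = {D : Pt →₀ ℕ | Finsupp.mapDomain (⇑X.θ) D = D ∧ s27z_clsN X D = C} := by
    ext D
    simp only [Finset.coe_filter, s27z_mem_stab, Set.mem_ofPred_eq]
    constructor
    · rintro ⟨⟨h1, _⟩, h3⟩; exact ⟨h1, h3⟩
    · rintro ⟨h1, h3⟩
      refine ⟨⟨h1, ?_⟩, h3⟩
      have h4 := s27z_deg_clsN X D
      rw [h3, hCdeg] at h4
      exact_mod_cast h4.symm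
  have hcount := s27z_count_one X hCfix
  rw [← hset, Set.ncard_coe_finset] at hcount
  rw [hconst, nsmul_eq_mul, ← mul_assoc]
  congr 1
  have hq := X.one_lt_q
  have h1 : ((X.q - 1 : ℕ) : R) = (X.q : R) - 1 := by
    rw [Nat.cast_sub (by omega), Nat.cast_one]
  have h2 : ((X.q ^ X.dim C - 1 : ℕ) : R) = (X.q : R) ^ X.dim C - 1 := by
    rw [Nat.cast_sub (Nat.one_le_pow _ _ (by omega)), Nat.cast_pow, Nat.cast_one]
  rw [← h1, ← h2, ← hcount, Nat.cast_mul, mul_comm]

end Fermat.Agent.Lib.S27
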