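import Mathlib
import Fermat.Agent.Lib.S27.ZIface
import Fermat.Agent.Lib.S27.ZFin
import Fermat.Agent.Lib.S27.ZCls

/-!
# Programme Z (S27), brick [ZR]: the rational form of the zeta function of an abstract curve
with a rational point

`X : s27_Dyn Pt Cl`, `P₁` a fixed point of `θ`.  `Z := Σ_m a_m t^m ∈ ℤ⟦t⟧`, `a_m` the number of
`θ`-stable effective divisors of degree `m`; `h` the number of `Θ`-stable classes of degree `0`.
Then `Z * (1 - t) * (1 - q t) = P(t)` with `P ∈ ℤ[t]`, `natDegree P ≤ 2g`, `P.coeff (2g) = q^g`,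
`P.coeff 0 = 1`, `P(1) = h` (`s27z_rational`).
-/

set_option autoImplicit false

noncomputable section

namespace Fermat.Agent.Lib.S27

open Finset

universe u v

/-! ### Formal part -/

/-- the coefficients of `Z * (1 - t) * (1 - c t)`. -/
def s27z_pcoef {R : Type*} [CommRing R] (z : ℕ → R) (c : R) (m : ℕ) : R :=
  z m - (c + 1) * (if 1 ≤ m then z (m - 1) else 0) + c * (if 2 ≤ m then z (m - 2) else 0)

theorem s27z_coeff_zeta_mul {R : Type*} [CommRing R] (z : ℕ → R) (c : R) (m : ℕ) :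
    PowerSeries.coeff m
      (PowerSeries.mk z * (1 - PowerSeries.X) * (1 - PowerSeries.C c * PowerSeries.X)) =
      s27z_pcoef z c m := by
  obtain ⟨d, hd⟩ : ∃ d, d = c + 1 := ⟨_, rfl⟩
  have h : PowerSeries.mk z * (1 - PowerSeries.X) * (1 - PowerSeries.C c * PowerSeries.X) =
      PowerSeries.mk z - PowerSeries.C d * (PowerSeries.mk z * PowerSeries.X ^ 1) +
        PowerSeries.C c * (PowerSeries.mk z * PowerSeries.X ^ 2) := by
    rw [hd, map_add, map_one]; ring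
  rw [h]
  simp only [map_sub, map_add, PowerSeries.coeff_C_mul, PowerSeries.coeff_mul_X_pow',
    PowerSeries.coeff_mk, s27z_pcoef]
  rw [hd]

theorem s27z_pcoef_zero {R : Type*} [CommRing R] (z : ℕ → R) (c : R) :
    s27z_pcoef z c 0 = z 0 := by
  simp [s27z_pcoef]

theorem s27z_pcoef_one {R : Type*} [CommRing R] (z : ℕ → R) (c : R) :
    s27z_pcoef z c 1 = z 1 - (c + 1) * z 0 := by
  simp [s27z_pcoef]

theorem s27z_pcoef_add_two {R : Type*} [CommRing R] (z : ℕ → R) (c : R) (m : ℕ) :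
    s27z_pcoef z c (m + 2) = z (m + 2) - (c + 1) * z (m + 1) + c * z m := by
  simp [s27z_pcoef]

/-- telescoping: the partial sums of the coefficients. -/
theorem s27z_sum_pcoef {R : Type*} [CommRing R] (z : ℕ → R) (c : R) (M : ℕ) :
    ∑ m ∈ range (M + 2), s27z_pcoef z c m = z (M + 1) - c * z M := by
  induction M with
  | zero =>
    rw [Finset.sum_range_succ, Finset.sum_range_one, s27z_pcoef_zero, s27z_pcoef_one]
    ring
  | succ M ih =>
    rw [Finset.sum_range_succ, ih, s27z_pcoef_add_two]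
    ring

/-! ### The counts -/

variable {Pt : Type u} {Cl : Type v} [AddCommGroup Cl] (X : s27_Dyn Pt Cl)

/-- the number of stable effective divisors of degree `m`. -/
def s27z_a (m : ℕ) : ℤ := ((s27z_stab X.θ X.fin m).card : ℤ)

/-- the number of stable classes of degree `0`. -/
def s27z_h : ℕ := (s27z_stCls X 0).ncard

variable {X}

theorem s27z_a_zero : s27z_a X 0 = 1 := by
  rw [s27z_a, s27z_stab_zero, Finset.card_singleton, Nat.cast_one]

theorem s27z_q_sub_one_ne_zero (X : s27_Dyn Pt Cl) : ((X.q : ℤ) - 1) ≠ 0 := by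
  have := X.one_lt_q
  have h : (1 : ℤ) < (X.q : ℤ) := by exact_mod_cast this
  intro h0
  linarith

theorem s27z_card_stCls {P₁ : Pt} (hP₁ : X.θ P₁ = P₁) (m : ℤ) :
    (s27z_stCls_finite hP₁ m).toFinset.card = s27z_h X := by
  rw [← Set.ncard_eq_toFinset_card _ (s27z_stCls_finite hP₁ m), s27z_stCls_ncard hP₁, s27z_h]

/-- the counts beyond `2g - 2`. -/
theorem s27z_a_large {P₁ : Pt} (hP₁ : X.θ P₁ = P₁) (m e : ℕ) (hme : m + 1 = e + X.g)
    (hm : 2 * (X.g : ℤ) - 2 < m) :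
    ((X.q : ℤ) - 1) * s27z_a X m = (s27z_h X : ℤ) * ((X.q : ℤ) ^ e - 1) := by
  have h := s27z_count_weighted hP₁ (fun _ => (1 : ℤ)) m
  simp only [mul_one, Finset.sum_const, nsmul_eq_mul] at h
  rw [s27z_a, h, ← s27z_card_stCls hP₁ (m : ℤ), ← nsmul_eq_mul, ← Finset.sum_const]
  refine Finset.sum_congr rfl fun C hC => ?_
  rw [Set.Finite.mem_toFinset] at hC
  obtain ⟨_, hdeg⟩ := hC
  have hdim := s27z_dim_of_large X (C := C) (by rw [hdeg]; exact hm)
  rw [hdeg] at hdim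
  have : X.dim C = e := by
    have h1 : ((m : ℤ) + 1 : ℤ) = e + X.g := by exact_mod_cast hme
    have h2 : (X.dim C : ℤ) = e := by linarith
    exact_mod_cast h2
  rw [this]

/-- the count at `2g - 2` (`g ≥ 1`). -/
theorem s27z_a_top {P₁ : Pt} (hP₁ : X.θ P₁ = P₁) (g' : ℕ) (hg : X.g = g' + 1) :
    ((X.q : ℤ) - 1) * s27z_a X (2 * g') =
      (X.q : ℤ) ^ (g' + 1) + ((s27z_h X : ℤ) - 1) * (X.q : ℤ) ^ g' - s27z_h X := by
  classical
  have h := s27z_count_weighted hP₁ (fun _ => (1 : ℤ)) (2 * g')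
  simp only [mul_one, Finset.sum_const, nsmul_eq_mul] at h
  have hdegW : X.deg X.W = ((2 * g' : ℕ) : ℤ) := by
    rw [s27z_deg_W, hg]; push_cast; ring
  have hW : X.W ∈ (s27z_stCls_finite hP₁ ((2 * g' : ℕ) : ℤ)).toFinset := by
    rw [Set.Finite.mem_toFinset]
    exact ⟨X.W_fix, hdegW⟩
  rw [s27z_a, h, ← Finset.add_sum_erase _ _ hW, s27z_dim_W, hg]
  have hrest : ∑ C ∈ (s27z_stCls_finite hP₁ ((2 * g' : ℕ) : ℤ)).toFinset.erase X.W,
      ((X.q : ℤ) ^ X.dim C - 1) =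
      ((s27z_stCls_finite hP₁ ((2 * g' : ℕ) : ℤ)).toFinset.erase X.W).card •
        ((X.q : ℤ) ^ g' - 1) := by
    rw [← Finset.sum_const]
    refine Finset.sum_congr rfl fun C hC => ?_
    rw [Finset.mem_erase, Set.Finite.mem_toFinset] at hC
    obtain ⟨hne, hfix, hdeg⟩ := hC
    have hdim := s27z_dim_of_top X hfix (by rw [hdeg, hg]; push_cast; ring) hne
    have : X.dim C = g' := by
      rw [hg] at hdim
      push_cast at hdim
      have h2 : (X.dim C : ℤ) = g' := by linarith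
      exact_mod_cast h2
    rw [this]
  rw [hrest, Finset.card_erase_of_mem hW, s27z_card_stCls hP₁, nsmul_eq_mul]
  have hpos : 1 ≤ s27z_h X := Nat.one_le_iff_ne_zero.mpr (s27z_stCls_ncard_ne_zero hP₁)
  rw [Nat.cast_sub hpos, Nat.cast_one]
  ring

/-! ### The rational form -/

/-- the zeta series `Σ a_m t^m`. -/
def s27z_Z (X : s27_Dyn Pt Cl) : PowerSeries ℤ := PowerSeries.mk (s27z_a X)

/-- the numerator, as a power series. -/
def s27z_num (X : s27_Dyn Pt Cl) : PowerSeries ℤ :=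
  s27z_Z X * (1 - PowerSeries.X) * (1 - PowerSeries.C (X.q : ℤ) * PowerSeries.X)

theorem s27z_coeff_num (X : s27_Dyn Pt Cl) (m : ℕ) :
    PowerSeries.coeff m (s27z_num X) = s27z_pcoef (s27z_a X) (X.q : ℤ) m :=
  s27z_coeff_zeta_mul _ _ _

/-- genus zero: `h = 1`. -/
theorem s27z_h_of_g_zero {P₁ : Pt} (hP₁ : X.θ P₁ = P₁) (hg : X.g = 0) : s27z_h X = 1 := by
  have h := s27z_a_large hP₁ 0 1 (by rw [hg]) (by rw [hg]; norm_num)
  rw [s27z_a_zero, pow_one, mul_one] at h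
  have hne := s27z_q_sub_one_ne_zero X
  have h2 : ((s27z_h X : ℤ) - 1) * ((X.q : ℤ) - 1) = 0 := by linarith
  rcases mul_eq_zero.mp h2 with h3 | h3
  · have : (s27z_h X : ℤ) = 1 := by linarith
    exact_mod_cast this
  · exact absurd h3 hne

/-- the coefficients of the numerator beyond `2g` vanish. -/
theorem s27z_pcoef_large {P₁ : Pt} (hP₁ : X.θ P₁ = P₁) (m : ℕ) (hm : 2 * X.g < m) :
    s27z_pcoef (s27z_a X) (X.q : ℤ) m = 0 := by
  have hne := s27z_q_sub_one_ne_zero X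
  apply (mul_right_inj' hne).mp
  rw [mul_zero]
  match m, hm with
  | 0, hm => omega
  | 1, hm =>
    have hg : X.g = 0 := by omega
    rw [s27z_pcoef_one, mul_sub]
    have h1 := s27z_a_large hP₁ 1 2 (by rw [hg]) (by rw [hg]; norm_num)
    have h0 := s27z_a_large hP₁ 0 1 (by rw [hg]) (by rw [hg]; norm_num)
    rw [h1, show ((X.q : ℤ) - 1) * (((X.q : ℤ) + 1) * s27z_a X 0) =
      ((X.q : ℤ) + 1) * (((X.q : ℤ) - 1) * s27z_a X 0) by ring, h0]
    ring
  | m' + 2, hm =>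
    obtain ⟨e, he⟩ : ∃ e, m' + 1 = e + X.g := ⟨m' + 1 - X.g, by omega⟩
    have hlt : 2 * (X.g : ℤ) - 2 < (m' : ℤ) := by
      have : (2 * X.g : ℤ) < ((m' + 2 : ℕ) : ℤ) := by exact_mod_cast hm
      push_cast at this
      linarith
    have h0 := s27z_a_large hP₁ m' e he hlt
    have h1 := s27z_a_large hP₁ (m' + 1) (e + 1) (by omega) (by push_cast; linarith)
    have h2 := s27z_a_large hP₁ (m' + 2) (e + 2) (by omega) (by push_cast; linarith)
    rw [s27z_pcoef_add_two]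
    have : ((X.q : ℤ) - 1) *
        (s27z_a X (m' + 2) - ((X.q : ℤ) + 1) * s27z_a X (m' + 1) + (X.q : ℤ) * s27z_a X m') =
        ((X.q : ℤ) - 1) * s27z_a X (m' + 2) -
          ((X.q : ℤ) + 1) * (((X.q : ℤ) - 1) * s27z_a X (m' + 1)) +
          (X.q : ℤ) * (((X.q : ℤ) - 1) * s27z_a X m') := by ring
    rw [this, h0, h1, h2]
    ring

/-- the top coefficient of the numerator. -/
theorem s27z_pcoef_top {P₁ : Pt} (hP₁ : X.θ P₁ = P₁) :
    s27z_pcoef (s27z_a X) (X.q : ℤ) (2 * X.g) = (X.q : ℤ) ^ X.g := by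
  rcases Nat.eq_zero_or_pos X.g with hg | hg
  · rw [hg, mul_zero, s27z_pcoef_zero, s27z_a_zero, pow_zero]
  · obtain ⟨g', hg'⟩ : ∃ g', X.g = g' + 1 := ⟨X.g - 1, by omega⟩
    have hne := s27z_q_sub_one_ne_zero X
    apply (mul_right_inj' hne).mp
    rw [hg', show 2 * (g' + 1) = 2 * g' + 2 by ring, s27z_pcoef_add_two]
    have h0 := s27z_a_top hP₁ g' hg'
    have h1 := s27z_a_large hP₁ (2 * g' + 1) (g' + 1) (by omega)
      (by rw [hg']; push_cast; linarith)
    have h2 := s27z_a_large hP₁ (2 * g' + 2) (g' + 2) (by omega)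
      (by rw [hg']; push_cast; linarith)
    have : ((X.q : ℤ) - 1) *
        (s27z_a X (2 * g' + 2) - ((X.q : ℤ) + 1) * s27z_a X (2 * g' + 1) +
          (X.q : ℤ) * s27z_a X (2 * g')) =
        ((X.q : ℤ) - 1) * s27z_a X (2 * g' + 2) -
          ((X.q : ℤ) + 1) * (((X.q : ℤ) - 1) * s27z_a X (2 * g' + 1)) +
          (X.q : ℤ) * (((X.q : ℤ) - 1) * s27z_a X (2 * g')) := by ring
    rw [this, h0, h1, h2]
    ring

/-- the sum of the coefficients of the numerator is the class number. -/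
theorem s27z_sum_pcoef_eq_h {P₁ : Pt} (hP₁ : X.θ P₁ = P₁) :
    ∑ m ∈ range (2 * X.g + 1), s27z_pcoef (s27z_a X) (X.q : ℤ) m = s27z_h X := by
  rcases Nat.eq_zero_or_pos X.g with hg | hg
  · rw [hg, mul_zero, zero_add, Finset.sum_range_one, s27z_pcoef_zero, s27z_a_zero,
      s27z_h_of_g_zero hP₁ hg, Nat.cast_one]
  · obtain ⟨g', hg'⟩ : ∃ g', X.g = g' + 1 := ⟨X.g - 1, by omega⟩
    rw [hg', show 2 * (g' + 1) + 1 = (2 * g' + 1) + 2 by ring, s27z_sum_pcoef]
    have hne := s27z_q_sub_one_ne_zero X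
    apply (mul_right_inj' hne).mp
    have h1 := s27z_a_large hP₁ (2 * g' + 1) (g' + 1) (by omega)
      (by rw [hg']; push_cast; linarith)
    have h2 := s27z_a_large hP₁ (2 * g' + 1 + 1) (g' + 2) (by omega)
      (by rw [hg']; push_cast; linarith)
    have : ((X.q : ℤ) - 1) * (s27z_a X (2 * g' + 1 + 1) - (X.q : ℤ) * s27z_a X (2 * g' + 1)) =
        ((X.q : ℤ) - 1) * s27z_a X (2 * g' + 1 + 1) -
          (X.q : ℤ) * (((X.q : ℤ) - 1) * s27z_a X (2 * g' + 1)) := by ring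
    rw [this, h1, h2]
    ring

/-- the numerator polynomial. -/
def s27z_P (X : s27_Dyn Pt Cl) : Polynomial ℤ := PowerSeries.trunc (2 * X.g + 1) (s27z_num X)

theorem s27z_P_coeff (X : s27_Dyn Pt Cl) (m : ℕ) :
    (s27z_P X).coeff m = if m < 2 * X.g + 1 then s27z_pcoef (s27z_a X) (X.q : ℤ) m else 0 := by
  rw [s27z_P, PowerSeries.coeff_trunc, s27z_coeff_num]

/-- **[ZR] the rational form of the zeta function.** -/
theorem s27z_rational {P₁ : Pt} (hP₁ : X.θ P₁ = P₁) :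
    ((s27z_P X : Polynomial ℤ) : PowerSeries ℤ) = s27z_num X ∧
      (s27z_P X).natDegree ≤ 2 * X.g ∧ (s27z_P X).coeff (2 * X.g) = (X.q : ℤ) ^ X.g ∧
      (s27z_P X).coeff 0 = 1 ∧ (s27z_P X).eval 1 = s27z_h X ∧ s27z_h X ≠ 0 := by
  refine ⟨?_, ?_, ?_, ?_, ?_, s27z_stCls_ncard_ne_zero hP₁⟩
  · ext m
    rw [Polynomial.coeff_coe, s27z_P_coeff, s27z_coeff_num]
    split_ifs with h
    · rfl
    · exact (s27z_pcoef_large hP₁ m (by omega)).symm
  · have := PowerSeries.natDegree_trunc_lt (s27z_num X) (2 * X.g)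
    exact Nat.lt_succ_iff.mp this
  · rw [s27z_P_coeff, if_pos (by omega), s27z_pcoef_top hP₁]
  · rw [s27z_P_coeff, if_pos (by omega), s27z_pcoef_zero, s27z_a_zero]
  · have hdeg := PowerSeries.natDegree_trunc_lt (s27z_num X) (2 * X.g)
    rw [s27z_P, Polynomial.eval_eq_sum_range' hdeg]
    simp only [one_pow, mul_one]
    rw [← s27z_sum_pcoef_eq_h hP₁]
    refine Finset.sum_congr rfl fun m hm => ?_
    have := s27z_P_coeff X m
    rw [s27z_P] at this
    rw [this, if_pos (Finset.mem_range.mp hm)]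

end Fermat.Agent.Lib.S27
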