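import Mathlib
import Fermat.Agent.Lib.S27.ZIface
import Fermat.Agent.Lib.S27.ZIface2
import Fermat.Agent.Lib.S27.ZFin
import Fermat.Agent.Lib.S27.ZCls
import Fermat.Agent.Lib.S27.ZRat

/-!
# Programme Z (S27), brick [ZR]: the contract `s27_ZR` of `ZIface2`

`s27z_ZR : s27_ZR` — the rational form of the zeta function of an abstract curve with a rational
point, in the exact shape of the interface, from `s27z_rational` (`ZRat`).
-/

set_option autoImplicit false

noncomputable section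

namespace Fermat.Agent.Lib.S27

open Finset

universe u v

variable {Pt : Type u} {Cl : Type v} [AddCommGroup Cl]

theorem s27z_eff_eq (θ : Equiv.Perm Pt)
    (fin : ∀ n : ℕ, 0 < n → {P : Pt | (θ ^ n) P = P}.Finite) (m : ℕ) :
    s27_eff θ m = ↑(s27z_stab θ fin m) := by
  ext D
  rw [Finset.mem_coe, s27z_mem_stab]
  rfl

/-- the coefficients of the interface zeta function are the counts `s27z_a`. -/
theorem s27z_A_one (θ : Equiv.Perm Pt)
    (fin : ∀ n : ℕ, 0 < n → {P : Pt | (θ ^ n) P = P}.Finite) (m : ℕ) :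
    s27_A θ (1 : Multiplicative (Pt →₀ ℕ) →* ℤ) m = ((s27z_stab θ fin m).card : ℤ) := by
  unfold s27_A
  rw [s27z_eff_eq θ fin m, finsum_mem_coe_finset]
  simp

theorem s27z_Z_eq (X : s27_Dyn Pt Cl) : s27_Z X.θ = s27z_Z X := by
  unfold s27_Z s27_L s27z_Z
  congr 1
  funext m
  rw [s27z_A_one X.θ X.fin m, s27z_a]

theorem s27z_fix0_one_coe (X : s27_Dyn Pt Cl) : ((X.fix0 1 : AddSubgroup Cl) : Set Cl) = s27z_stCls X 0 := by
  ext C
  show (X.deg C = 0 ∧ (⇑X.Θ)^[1] C = C) ↔ (X.Θ C = C ∧ X.deg C = 0)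
  rw [Function.iterate_one]
  exact and_comm

theorem s27z_card_fix0_one (X : s27_Dyn Pt Cl) : Nat.card ↥(X.fix0 1) = s27z_h X := by
  have h : Nat.card ↥(X.fix0 1) = Nat.card ↥((X.fix0 1 : AddSubgroup Cl) : Set Cl) := rfl
  rw [h, s27z_fix0_one_coe, Nat.card_coe_set_eq, s27z_h]

theorem s27z_finite_fix0_one {X : s27_Dyn Pt Cl} {P₁ : Pt} (hP₁ : X.θ P₁ = P₁) :
    Finite ↥(X.fix0 1) := by
  have h : (((X.fix0 1 : AddSubgroup Cl) : Set Cl)).Finite := by
    rw [s27z_fix0_one_coe]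
    exact s27z_stCls_finite hP₁ 0
  exact h.to_subtype

/-- **CONTRACT [ZR] discharged.** -/
theorem s27z_ZR : s27_ZR.{u, v} := by
  intro Pt Cl _ X P₁ hP₁
  obtain ⟨h1, h2, h3, h4, h5, _⟩ := s27z_rational hP₁
  refine ⟨s27z_finite_fix0_one hP₁, s27z_P X, h2, h3, h4, ?_, ?_⟩
  · rw [h5, s27z_card_fix0_one]
  · rw [h1, s27z_num, s27z_Z_eq, mul_assoc]

end Fermat.Agent.Lib.S27
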