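/-
Programme Z (S27), ARITHMETIC HALF, brick [FI] part 1 (helper7): the `L`-series of a character of
the stable classes.

For `χ : Cl → ℂ` multiplicative on `Θ`-stable classes with `χ 0 = 1` we build a multiplicative
weight `w` on effective divisors with `w D = χ [D]` for every stable `D` (local factor at `P`: a
`d_P`-th root of `χ [orbit of P]`), so that `[EP]` applies:
`s27g_LDeq_chi : s27_LDeq (s27g_L X χ) (s27g_S X χ)`.
-/
import Fermat.Agent.Lib.S27.ZIface2
import Fermat.Agent.Lib.S27.ZFin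
import Fermat.Agent.Lib.S27.ZCls
import Fermat.Agent.Lib.S27.ZRFinal
import Fermat.Agent.Lib.S27.EStab

set_option autoImplicit false

noncomputable section

namespace Fermat.Agent.Lib.S27

open Finset Function

universe u v

variable {Pt : Type u} {Cl : Type v} [AddCommGroup Cl]

/-- the multiplicative weight with local factors `μ`. -/
def s27g_wt (μ : Pt → ℂ) : Multiplicative (Pt →₀ ℕ) →* ℂ where
  toFun D := (Multiplicative.toAdd D).prod fun P n => μ P ^ n
  map_one' := by
    show (0 : Pt →₀ ℕ).prod _ = 1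
    exact Finsupp.prod_zero_index
  map_mul' D E := by
    show (Multiplicative.toAdd D + Multiplicative.toAdd E).prod _ = _
    exact Finsupp.prod_add_index' (fun _ => pow_zero _) (fun _ _ _ => pow_add _ _ _)

theorem s27g_wt_single (μ : Pt → ℂ) (P : Pt) :
    s27g_wt μ (Multiplicative.ofAdd (Finsupp.single P 1)) = μ P := by
  show (Finsupp.single P 1).prod (fun Q n => μ Q ^ n) = _
  rw [Finsupp.prod_single_index (h := fun Q n => μ Q ^ n) (pow_zero _), pow_one]

theorem s27g_wt_sum (μ : Pt → ℂ) {ι : Type*} (s : Finset ι) (f : ι → Pt →₀ ℕ) :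
    s27g_wt μ (Multiplicative.ofAdd (∑ i ∈ s, f i)) =
      ∏ i ∈ s, s27g_wt μ (Multiplicative.ofAdd (f i)) := by
  classical
  induction s using Finset.induction_on with
  | empty =>
    rw [Finset.sum_empty, Finset.prod_empty, ofAdd_zero, map_one]
  | insert a s ha ih =>
    rw [Finset.sum_insert ha, Finset.prod_insert ha, ofAdd_add, map_mul, ih]

theorem s27g_wt_orb (θ : Equiv.Perm Pt) (μ : Pt → ℂ) (P : Pt) :
    s27g_wt μ (Multiplicative.ofAdd (s27_orb θ P)) =
      ∏ i ∈ range (minimalPeriod (⇑θ) P), μ ((θ ^ i) P) := by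
  unfold s27_orb
  rw [s27g_wt_sum]
  exact Finset.prod_congr rfl fun i _ => s27g_wt_single μ _

section Dyn

variable (X : s27_Dyn Pt Cl)

theorem s27g_periodic (P : Pt) : P ∈ periodicPts (⇑X.θ) := by
  obtain ⟨n, hn, hP⟩ := X.per P
  refine mk_mem_periodicPts hn ?_
  rw [IsPeriodicPt, IsFixedPt, Equiv.Perm.iterate_eq_pow]
  exact hP

theorem s27g_period_pos (P : Pt) : 0 < minimalPeriod (⇑X.θ) P :=
  minimalPeriod_pos_of_mem_periodicPts (s27g_periodic X P)

theorem s27g_period_apply (P : Pt) :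
    minimalPeriod (⇑X.θ) (X.θ P) = minimalPeriod (⇑X.θ) P :=
  minimalPeriod_apply (s27g_periodic X P)

/-- the orbit divisor only depends on the orbit. -/
theorem s27g_orb_apply (P : Pt) : s27_orb X.θ (X.θ P) = s27_orb X.θ P := by
  conv_rhs => rw [← s27e_orb_stable X.θ P]
  unfold s27_orb
  rw [s27g_period_apply, Finsupp.mapDomain_finsetSum]
  refine Finset.sum_congr rfl fun i _ => ?_
  rw [Finsupp.mapDomain_single, ← Equiv.Perm.mul_apply, ← Equiv.Perm.mul_apply, ← pow_succ,
    ← pow_succ']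

/-- the local factor at `P`: a `d_P`-th root of `χ [orbit of P]`. -/
def s27g_mu (χ : Cl → ℂ) (P : Pt) : ℂ :=
  (χ (s27z_clsN X (s27_orb X.θ P))) ^ (((minimalPeriod (⇑X.θ) P : ℕ) : ℂ)⁻¹)

theorem s27g_mu_apply (χ : Cl → ℂ) (P : Pt) : s27g_mu X χ (X.θ P) = s27g_mu X χ P := by
  unfold s27g_mu
  rw [s27g_orb_apply, s27g_period_apply]

theorem s27g_mu_pow_apply (χ : Cl → ℂ) (P : Pt) (i : ℕ) :
    s27g_mu X χ ((X.θ ^ i) P) = s27g_mu X χ P := by
  induction i with
  | zero => rfl
  | succ i ih => rw [pow_succ', Equiv.Perm.mul_apply, s27g_mu_apply, ih]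

theorem s27g_mu_pow (χ : Cl → ℂ) (P : Pt) :
    s27g_mu X χ P ^ minimalPeriod (⇑X.θ) P = χ (s27z_clsN X (s27_orb X.θ P)) := by
  unfold s27g_mu
  exact Complex.cpow_nat_inv_pow _ (s27g_period_pos X P).ne'

theorem s27g_wt_mu_orb (χ : Cl → ℂ) (P : Pt) :
    s27g_wt (s27g_mu X χ) (Multiplicative.ofAdd (s27_orb X.θ P)) =
      χ (s27z_clsN X (s27_orb X.θ P)) := by
  rw [s27g_wt_orb, Finset.prod_congr rfl fun i _ => s27g_mu_pow_apply X χ P i,
    Finset.prod_const, Finset.card_range, s27g_mu_pow]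

theorem s27g_clsN_stable {D : Pt →₀ ℕ} (hD : Finsupp.mapDomain (⇑X.θ) D = D) :
    X.Θ (s27z_clsN X D) = s27z_clsN X D := by
  rw [s27z_map_clsN, hD]

/-- **the weight of a stable divisor is the character of its class.** -/
theorem s27g_wt_stable (χ : Cl → ℂ) (h0 : χ 0 = 1)
    (hχ : ∀ C C' : Cl, X.Θ C = C → X.Θ C' = C' → χ (C + C') = χ C * χ C') :
    ∀ (n : ℕ) (D : Pt →₀ ℕ), Finsupp.mapDomain (⇑X.θ) D = D → s27_size D = n →
      s27g_wt (s27g_mu X χ) (Multiplicative.ofAdd D) = χ (s27z_clsN X D) := by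
  intro n
  induction n using Nat.strong_induction_on with
  | _ n ih =>
    intro D hD hn
    by_cases hD0 : D = 0
    · subst hD0
      rw [ofAdd_zero, map_one, s27z_clsN_zero, h0]
    · obtain ⟨P, hP⟩ : ∃ P, D P ≠ 0 := by
        by_contra hcon
        exact hD0 (Finsupp.ext fun Q => not_not.mp fun hQ => hcon ⟨Q, hQ⟩)
      have hle : s27_orb X.θ P ≤ D := by
        have := s27e_nsmul_orb_le X.θ hD (P := P) (i := 1) (Nat.one_le_iff_ne_zero.mpr hP)
        rwa [one_smul] at this
      set E : Pt →₀ ℕ := D - s27_orb X.θ P with hE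
      have hDE : D = s27_orb X.θ P + E := (add_tsub_cancel_of_le hle).symm
      have hEst : Finsupp.mapDomain (⇑X.θ) E = E := by
        apply s27z_stable_of_apply
        intro a
        rw [hE, Finsupp.tsub_apply, Finsupp.tsub_apply, s27e_stable_apply X.θ hD,
          s27e_stable_apply X.θ (s27e_orb_stable X.θ P)]
      have hsize : s27_size E < n := by
        have h1 : s27_size D = s27_size (s27_orb X.θ P) + s27_size E := by
          conv_lhs => rw [hDE]
          exact s27e_deg_add _ _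
        rw [s27e_deg_orb, hn] at h1
        have := s27g_period_pos X P
        omega
      have ihE := ih (s27_size E) hsize E hEst rfl
      rw [hDE, ofAdd_add, map_mul, s27g_wt_mu_orb, ihE, s27z_clsN_add,
        hχ _ _ (s27g_clsN_stable X (s27e_orb_stable X.θ P)) (s27g_clsN_stable X hEst)]

/-- the `L`-series of `χ`. -/
def s27g_L (χ : Cl → ℂ) : PowerSeries ℂ :=
  PowerSeries.mk fun m => ∑ D ∈ s27z_stab X.θ X.fin m, χ (s27z_clsN X D)

/-- the weighted number of points of period dividing `j`. -/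
def s27g_N (χ : Cl → ℂ) (j : ℕ) : ℂ :=
  ∑ᶠ P ∈ {P : Pt | (X.θ ^ j) P = P},
    χ (s27z_clsN X (s27_orb X.θ P)) ^ (j / minimalPeriod (⇑X.θ) P)

/-- the logarithmic derivative of the `L`-series of `χ`. -/
def s27g_S (χ : Cl → ℂ) : PowerSeries ℂ :=
  PowerSeries.mk fun j => if j = 0 then 0 else s27g_N X χ j

/-- **[EP] for characters.** -/
theorem s27g_LDeq_chi (hEP : s27_EP.{u, 0}) (χ : Cl → ℂ) (h0 : χ 0 = 1)
    (hχ : ∀ C C' : Cl, X.Θ C = C → X.Θ C' = C' → χ (C + C') = χ C * χ C') :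
    s27_LDeq (s27g_L X χ) (s27g_S X χ) := by
  have hw := s27g_wt_stable X χ h0 hχ
  have h := (hEP Pt X.θ X.fin ℂ (s27g_wt (s27g_mu X χ))).2
  have hL : s27_L X.θ (s27g_wt (s27g_mu X χ)) = s27g_L X χ := by
    unfold s27_L s27g_L
    congr 1
    funext m
    unfold s27_A
    rw [s27z_eff_eq X.θ X.fin m, finsum_mem_coe_finset]
    refine Finset.sum_congr rfl fun D hD => ?_
    rw [s27z_mem_stab] at hD
    exact hw _ D hD.1 rfl
  have hS : s27_S X.θ (s27g_wt (s27g_mu X χ)) = s27g_S X χ := by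
    unfold s27_S s27g_S
    congr 1
    funext j
    congr 1
    unfold s27_N s27g_N
    refine finsum_mem_congr rfl fun P _ => ?_
    rw [s27g_wt_mu_orb]
  rw [hL, hS] at h
  exact h

end Dyn

end Fermat.Agent.Lib.S27
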