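/-
Programme Z (S27), ARITHMETIC HALF, brick [FI] part 2 (helper7): sums of iterates, the characters
`χ_{ψ,u} : C ↦ u ^ deg C · ψ (C - deg C · c₁)` and the value of their logarithmic derivatives.
-/
import Fermat.Agent.Lib.S27.GFI1

set_option autoImplicit false

noncomputable section

namespace Fermat.Agent.Lib.S27

open Finset Function

universe u v

variable {Pt : Type u} {Cl : Type v} [AddCommGroup Cl]

/-! ## Sums of iterates of an automorphism -/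

section Alg

variable (Θ : Cl ≃+ Cl)

theorem s27g_iter_sum {ι : Type*} (s : Finset ι) (f : ι → Cl) (n : ℕ) :
    (⇑Θ)^[n] (∑ i ∈ s, f i) = ∑ i ∈ s, (⇑Θ)^[n] (f i) := by
  simp only [← s27_addEquivPow_apply]
  exact map_sum _ _ _

theorem s27g_iter_sub (x y : Cl) (n : ℕ) : (⇑Θ)^[n] (x - y) = (⇑Θ)^[n] x - (⇑Θ)^[n] y := by
  simp only [← s27_addEquivPow_apply]
  exact map_sub _ _ _

theorem s27g_iter_add (x y : Cl) (n : ℕ) : (⇑Θ)^[n] (x + y) = (⇑Θ)^[n] x + (⇑Θ)^[n] y := by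
  simp only [← s27_addEquivPow_apply]
  exact map_add _ _ _

theorem s27g_iter_zero (n : ℕ) : (⇑Θ)^[n] (0 : Cl) = 0 := by
  simp only [← s27_addEquivPow_apply]
  exact map_zero _

theorem s27g_iter_mul_period {x : Cl} {d : ℕ} (hx : (⇑Θ)^[d] x = x) (k : ℕ) :
    (⇑Θ)^[k * d] x = x := by
  induction k with
  | zero => simp
  | succ k ih => rw [Nat.succ_mul, Function.iterate_add_apply, hx, ih]

/-- a sum over `k` periods. -/
theorem s27g_sum_iter_period {x : Cl} {d : ℕ} (hx : (⇑Θ)^[d] x = x) (k : ℕ) :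
    ∑ i ∈ range (k * d), (⇑Θ)^[i] x = k • ∑ i ∈ range d, (⇑Θ)^[i] x := by
  induction k with
  | zero => simp
  | succ k ih =>
    rw [Nat.succ_mul, Finset.sum_range_add, ih, succ_nsmul]
    congr 1
    refine Finset.sum_congr rfl fun i _ => ?_
    rw [add_comm (k * d) i, Function.iterate_add_apply, s27g_iter_mul_period Θ hx k]

/-- the norm from level `ℓ e` factors through level `ℓ`. -/
theorem s27g_sum_iter_factor (x : Cl) (ℓ e : ℕ) :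
    ∑ j ∈ range ℓ, (⇑Θ)^[j] (∑ i ∈ range e, (⇑Θ)^[ℓ * i] x) =
      ∑ n ∈ range (ℓ * e), (⇑Θ)^[n] x := by
  induction e with
  | zero => simp
  | succ e ih =>
    rw [Nat.mul_succ, Finset.sum_range_add (fun n => (⇑Θ)^[n] x) (ℓ * e) ℓ, ← ih]
    simp only [Finset.sum_range_succ, s27g_iter_add, Finset.sum_add_distrib]
    congr 1
    refine Finset.sum_congr rfl fun j _ => ?_
    rw [← Function.iterate_add_apply, add_comm]

theorem s27g_iter_norm_fixed {x : Cl} {ℓ e : ℕ} (hx : (⇑Θ)^[ℓ * e] x = x) :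
    (⇑Θ)^[ℓ] (∑ i ∈ range e, (⇑Θ)^[ℓ * i] x) = ∑ i ∈ range e, (⇑Θ)^[ℓ * i] x := by
  rw [s27g_iter_sum]
  have hstep : ∀ i : ℕ, (⇑Θ)^[ℓ] ((⇑Θ)^[ℓ * i] x) = (⇑Θ)^[ℓ * (i + 1)] x := fun i => by
    rw [← Function.iterate_add_apply, Nat.mul_succ, add_comm]
  simp only [hstep]
  have h1 := Finset.sum_range_succ (fun i => (⇑Θ)^[ℓ * i] x) e
  have h2 := Finset.sum_range_succ' (fun i => (⇑Θ)^[ℓ * i] x) e
  simp only [Nat.mul_zero, Function.iterate_zero, id] at h2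
  rw [hx] at h1
  exact add_right_cancel (h2.symm.trans h1)

end Alg

/-! ## The characters -/

section Chi

attribute [local instance] Classical.propDecidable

variable (X : s27_Dyn Pt Cl)

theorem s27g_deg_map (C : Cl) : X.deg (X.Θ C) = X.deg C := by
  obtain ⟨D, rfl⟩ := X.cls_surj C
  rw [← X.cls_map, X.deg_cls, X.deg_cls, Finsupp.sum_mapDomain_index (fun _ => rfl)
    (fun _ _ _ => rfl)]

theorem s27g_deg_iter (C : Cl) (n : ℕ) : X.deg ((⇑X.Θ)^[n] C) = X.deg C := by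
  induction n generalizing C with
  | zero => rfl
  | succ n ih => rw [Function.iterate_succ_apply, ih, s27g_deg_map]

theorem s27g_mem_fix0_one {C : Cl} : C ∈ X.fix0 1 ↔ X.deg C = 0 ∧ X.Θ C = C := by
  show (X.deg C = 0 ∧ (⇑X.Θ)^[1] C = C) ↔ _
  rw [Function.iterate_one]

theorem s27g_mem_fix0 {C : Cl} {n : ℕ} : C ∈ X.fix0 n ↔ X.deg C = 0 ∧ (⇑X.Θ)^[n] C = C :=
  Iff.rfl

/-- extension by `1` of a character of the stable classes of degree zero. -/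
def s27g_ext (ψ : AddChar ↥(X.fix0 1) ℂ) (y : Cl) : ℂ :=
  if h : y ∈ X.fix0 1 then ψ ⟨y, h⟩ else 1

theorem s27g_ext_of_mem (ψ : AddChar ↥(X.fix0 1) ℂ) {y : Cl} (h : y ∈ X.fix0 1) :
    s27g_ext X ψ y = ψ ⟨y, h⟩ := dif_pos h

theorem s27g_ext_one (y : Cl) : s27g_ext X (1 : AddChar ↥(X.fix0 1) ℂ) y = 1 := by
  unfold s27g_ext
  split_ifs <;> rfl

theorem s27g_ext_zero (ψ : AddChar ↥(X.fix0 1) ℂ) : s27g_ext X ψ 0 = 1 := by
  rw [s27g_ext_of_mem X ψ (zero_mem _)]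
  exact ψ.map_zero_eq_one

theorem s27g_ext_add (ψ : AddChar ↥(X.fix0 1) ℂ) {y y' : Cl} (h : y ∈ X.fix0 1)
    (h' : y' ∈ X.fix0 1) : s27g_ext X ψ (y + y') = s27g_ext X ψ y * s27g_ext X ψ y' := by
  rw [s27g_ext_of_mem X ψ (add_mem h h'), s27g_ext_of_mem X ψ h, s27g_ext_of_mem X ψ h',
    ← AddChar.map_add_eq_mul]
  rfl

theorem s27g_ext_nsmul (ψ : AddChar ↥(X.fix0 1) ℂ) {y : Cl} (h : y ∈ X.fix0 1) (k : ℕ) :
    s27g_ext X ψ (k • y) = s27g_ext X ψ y ^ k := by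
  rw [s27g_ext_of_mem X ψ (nsmul_mem h k), s27g_ext_of_mem X ψ h, ← AddChar.map_nsmul_eq_pow]
  rfl

/-- the character `C ↦ u ^ deg C · ψ (C - deg C · c₁)`. -/
def s27g_chi (c₁ : Cl) (ψ : AddChar ↥(X.fix0 1) ℂ) (u : ℂ) (C : Cl) : ℂ :=
  u ^ (X.deg C) * s27g_ext X ψ (C - X.deg C • c₁)

variable {c₁ : Cl} (hc₁ : X.Θ c₁ = c₁) (hd₁ : X.deg c₁ = 1)

include hc₁ hd₁ in
theorem s27g_part_mem {C : Cl} (hC : X.Θ C = C) : C - X.deg C • c₁ ∈ X.fix0 1 := by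
  rw [s27g_mem_fix0_one]
  refine ⟨?_, ?_⟩
  · rw [map_sub, map_zsmul, hd₁, smul_eq_mul, mul_one, sub_self]
  · rw [map_sub, map_zsmul, hC, hc₁]

theorem s27g_chi_zero (ψ : AddChar ↥(X.fix0 1) ℂ) (u : ℂ) : s27g_chi X c₁ ψ u 0 = 1 := by
  unfold s27g_chi
  rw [map_zero, zpow_zero, zero_smul, sub_zero, s27g_ext_zero, mul_one]

include hc₁ hd₁ in
theorem s27g_chi_add (ψ : AddChar ↥(X.fix0 1) ℂ) {u : ℂ} (hu : u ≠ 0) (C C' : Cl)
    (hC : X.Θ C = C) (hC' : X.Θ C' = C') :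
    s27g_chi X c₁ ψ u (C + C') = s27g_chi X c₁ ψ u C * s27g_chi X c₁ ψ u C' := by
  unfold s27g_chi
  have hsplit : C + C' - X.deg (C + C') • c₁ = (C - X.deg C • c₁) + (C' - X.deg C' • c₁) := by
    rw [map_add, add_smul]
    abel
  rw [hsplit, s27g_ext_add X ψ (s27g_part_mem X hc₁ hd₁ hC) (s27g_part_mem X hc₁ hd₁ hC'),
    map_add, zpow_add₀ hu]
  ring

/-! ## The classes `[P] - c₁` and their partial norms -/

/-- the degree-zero class `[P] - c₁`. -/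
def s27g_x (c₁ : Cl) (P : Pt) : Cl := X.cls (Finsupp.single P 1) - c₁

/-- the partial norm `Σ_{i<j} Θ^i ([P] - c₁)`. -/
def s27g_z (c₁ : Cl) (P : Pt) (j : ℕ) : Cl := ∑ i ∈ range j, (⇑X.Θ)^[i] (s27g_x X c₁ P)

include hc₁ in
theorem s27g_iter_x (P : Pt) (i : ℕ) :
    (⇑X.Θ)^[i] (s27g_x X c₁ P) = X.cls (Finsupp.single ((X.θ ^ i) P) 1) - c₁ := by
  unfold s27g_x
  rw [s27g_iter_sub, ← X.cls_map_pow, Finsupp.mapDomain_single,
    Function.iterate_fixed (show IsFixedPt (⇑X.Θ) c₁ from hc₁)]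

include hd₁ in
theorem s27g_x_deg (P : Pt) : X.deg (s27g_x X c₁ P) = 0 := by
  unfold s27g_x
  rw [map_sub, s27z_pt_deg, hd₁, sub_self]

include hc₁ in
theorem s27g_x_period {P : Pt} {j : ℕ} (hP : (X.θ ^ j) P = P) :
    (⇑X.Θ)^[j] (s27g_x X c₁ P) = s27g_x X c₁ P := by
  rw [s27g_iter_x X hc₁, hP]
  rfl

theorem s27g_orb_mapRange (P : Pt) :
    (s27_orb X.θ P).mapRange (Nat.cast : ℕ → ℤ) Nat.cast_zero =
      ∑ i ∈ range (minimalPeriod (⇑X.θ) P), Finsupp.single ((X.θ ^ i) P) (1 : ℤ) := by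
  classical
  ext a
  unfold s27_orb
  rw [Finsupp.mapRange_apply, Finsupp.finsetSum_apply, Finsupp.finsetSum_apply, Nat.cast_sum]
  refine Finset.sum_congr rfl fun i _ => ?_
  rw [Finsupp.single_apply, Finsupp.single_apply]
  split_ifs <;> simp

include hc₁ in
theorem s27g_sum_orb (P : Pt) :
    ∑ i ∈ range (minimalPeriod (⇑X.θ) P), (⇑X.Θ)^[i] (s27g_x X c₁ P) =
      s27z_clsN X (s27_orb X.θ P) - ((minimalPeriod (⇑X.θ) P : ℕ) : ℤ) • c₁ := by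
  simp only [s27g_iter_x X hc₁]
  rw [Finset.sum_sub_distrib, Finset.sum_const, Finset.card_range, ← map_sum, natCast_zsmul]
  unfold s27z_clsN
  rw [s27g_orb_mapRange]

include hc₁ in
theorem s27g_z_eq {P : Pt} {j : ℕ} (hP : (X.θ ^ j) P = P) :
    s27g_z X c₁ P j = (j / minimalPeriod (⇑X.θ) P) •
      (s27z_clsN X (s27_orb X.θ P) - ((minimalPeriod (⇑X.θ) P : ℕ) : ℤ) • c₁) := by
  have hdvd : minimalPeriod (⇑X.θ) P ∣ j := (s27e_periodic_iff X.θ P j).mp hP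
  unfold s27g_z
  conv_lhs => rw [← Nat.div_mul_cancel hdvd]
  rw [s27g_sum_iter_period X.Θ (s27g_x_period X hc₁ (s27e_pow_period X.θ P)), s27g_sum_orb X hc₁]

theorem s27g_deg_orb_cls (P : Pt) :
    X.deg (s27z_clsN X (s27_orb X.θ P)) = ((minimalPeriod (⇑X.θ) P : ℕ) : ℤ) := by
  rw [s27z_deg_clsN]
  congr 1
  exact s27e_deg_orb X.θ P

include hc₁ hd₁ in
/-- the value of `χ_{ψ,u}` on the orbit of a point of period dividing `j`. -/
theorem s27g_chi_orb_pow (ψ : AddChar ↥(X.fix0 1) ℂ) (u : ℂ) {P : Pt} {j : ℕ}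
    (hP : (X.θ ^ j) P = P) :
    s27g_chi X c₁ ψ u (s27z_clsN X (s27_orb X.θ P)) ^ (j / minimalPeriod (⇑X.θ) P) =
      u ^ j * s27g_ext X ψ (s27g_z X c₁ P j) := by
  have hdvd : minimalPeriod (⇑X.θ) P ∣ j := (s27e_periodic_iff X.θ P j).mp hP
  have hst : X.Θ (s27z_clsN X (s27_orb X.θ P)) = s27z_clsN X (s27_orb X.θ P) :=
    s27g_clsN_stable X (s27e_orb_stable X.θ P)
  have hmem := s27g_part_mem X hc₁ hd₁ hst
  rw [s27g_z_eq X hc₁ hP]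
  unfold s27g_chi
  rw [s27g_deg_orb_cls] at hmem ⊢
  rw [mul_pow, zpow_natCast, ← pow_mul, Nat.mul_div_cancel' hdvd, s27g_ext_nsmul X ψ hmem]

include hc₁ hd₁ in
/-- the partial norm at a level divisible by `ℓ` is a norm from level `ℓ`. -/
theorem s27g_z_norm {ℓ e : ℕ} {P : Pt} (hP : (X.θ ^ (ℓ * e)) P = P) :
    ∃ C' ∈ X.fix0 ℓ, ∑ j ∈ range ℓ, (⇑X.Θ)^[j] C' = s27g_z X c₁ P (ℓ * e) := by
  refine ⟨∑ i ∈ range e, (⇑X.Θ)^[ℓ * i] (s27g_x X c₁ P), ?_, ?_⟩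
  · rw [s27g_mem_fix0]
    refine ⟨?_, s27g_iter_norm_fixed X.Θ (s27g_x_period X hc₁ hP)⟩
    rw [map_sum]
    exact Finset.sum_eq_zero fun i _ => by rw [s27g_deg_iter, s27g_x_deg X hd₁]
  · exact s27g_sum_iter_factor X.Θ _ ℓ e

include hc₁ hd₁ in
/-- the weighted number of points for `χ_{ψ,u}`. -/
theorem s27g_N_chi (ψ : AddChar ↥(X.fix0 1) ℂ) (u : ℂ) {j : ℕ} (hj : 0 < j) :
    s27g_N X (s27g_chi X c₁ ψ u) j =
      u ^ j * ∑ P ∈ (X.fin j hj).toFinset, s27g_ext X ψ (s27g_z X c₁ P j) := by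
  unfold s27g_N
  rw [finsum_mem_eq_finite_toFinset_sum _ (X.fin j hj), Finset.mul_sum]
  refine Finset.sum_congr rfl fun P hP => ?_
  rw [Set.Finite.mem_toFinset] at hP
  exact s27g_chi_orb_pow X hc₁ hd₁ ψ u hP

include hc₁ hd₁ in
/-- for a character trivial on the norms from level `ℓ` and `ℓ ∣ j`. -/
theorem s27g_N_chi_dvd {ℓ : ℕ} (ψ : AddChar ↥(X.fix0 1) ℂ)
    (hψ : ∀ C' ∈ X.fix0 ℓ, s27g_ext X ψ (∑ j ∈ range ℓ, (⇑X.Θ)^[j] C') = 1) (u : ℂ) {j : ℕ}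
    (hj : 0 < j) (hℓj : ℓ ∣ j) :
    s27g_N X (s27g_chi X c₁ ψ u) j = u ^ j * ((X.fin j hj).toFinset.card : ℂ) := by
  rw [s27g_N_chi X hc₁ hd₁ ψ u hj]
  congr 1
  rw [Finset.card_eq_sum_ones, Nat.cast_sum]
  refine Finset.sum_congr rfl fun P hP => ?_
  rw [Set.Finite.mem_toFinset] at hP
  obtain ⟨e, rfl⟩ := hℓj
  obtain ⟨C', hC', hnorm⟩ := s27g_z_norm X hc₁ hd₁ hP
  rw [← hnorm, hψ C' hC', Nat.cast_one]

/-- orthogonality for the `ℓ`-th roots of unity. -/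
theorem s27g_sum_pow_root {ζ₀ : ℂ} {ℓ : ℕ} (hℓ : ℓ.Prime) (hζ₀ : IsPrimitiveRoot ζ₀ ℓ) (j : ℕ) :
    ∑ i ∈ range ℓ, (ζ₀ ^ i) ^ j = if ℓ ∣ j then (ℓ : ℂ) else 0 := by
  have hcomm : ∀ i : ℕ, (ζ₀ ^ i) ^ j = (ζ₀ ^ j) ^ i := fun i => pow_right_comm ζ₀ i j
  simp only [hcomm]
  split_ifs with h
  · rw [(hζ₀.pow_eq_one_iff_dvd j).mpr h]
    simp
  · have hcop : j.Coprime ℓ := ((Nat.Prime.coprime_iff_not_dvd hℓ).mpr h).symm
    exact (hζ₀.pow_of_coprime j hcop).geom_sum_eq_zero hℓ.one_lt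

end Chi

end Fermat.Agent.Lib.S27
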