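/-
Programme Z (S27), ARITHMETIC HALF, brick [FI] part 3 (helper7): the product formula
`∏_{ψ ∈ Ψ} ∏_{ζ^ℓ = 1} L(t, χ_{ψ,ζ}) = Z_{θ^ℓ}(t^ℓ) ^ |Ψ|` for a finite set `Ψ` of characters of the
stable classes of degree zero which are trivial on the norms from level `ℓ`.
-/
import Fermat.Agent.Lib.S27.GFI2
import Fermat.Agent.Lib.S27.EEP
import Fermat.Agent.Lib.S27.EPS

set_option autoImplicit false

noncomputable section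

namespace Fermat.Agent.Lib.S27

open Finset Function

universe u v

variable {Pt : Type u} {Cl : Type v} [AddCommGroup Cl]

section Prod

variable (X : s27_Dyn Pt Cl)

/-- the zeta function of the curve over the extension of degree `ℓ`, in the variable `t ^ ℓ`. -/
def s27g_E (ℓ : ℕ) : PowerSeries ℂ :=
  s27_expand ℓ (s27_L (X.θ ^ ℓ) (1 : Multiplicative (Pt →₀ ℕ) →* ℂ))

/-- its logarithmic derivative. -/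
def s27g_SE (ℓ : ℕ) : PowerSeries ℂ :=
  ℓ • s27_expand ℓ (s27_S (X.θ ^ ℓ) (1 : Multiplicative (Pt →₀ ℕ) →* ℂ))

theorem s27g_LDeq_E {ℓ : ℕ} (hℓ : 0 < ℓ) : s27_LDeq (s27g_E X ℓ) (s27g_SE X ℓ) :=
  s27e_LDeq_expand ℓ hℓ (s27e_LDeq_L (X.θ ^ ℓ) (X.pow ℓ hℓ).fin 1)

theorem s27g_N_one {ℓ j : ℕ} (hj : 0 < j) (hℓj : ℓ ∣ j) :
    s27_N (X.θ ^ ℓ) (1 : Multiplicative (Pt →₀ ℕ) →* ℂ) (j / ℓ) =
      ((X.fin j hj).toFinset.card : ℂ) := by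
  unfold s27_N
  simp only [MonoidHom.one_apply, one_pow]
  have hset : {P : Pt | ((X.θ ^ ℓ) ^ (j / ℓ)) P = P} = {P : Pt | (X.θ ^ j) P = P} := by
    rw [← pow_mul, Nat.mul_div_cancel' hℓj]
  rw [hset, finsum_mem_eq_finite_toFinset_sum _ (X.fin j hj)]
  simp

theorem s27g_coeff_SE {ℓ j : ℕ} (hℓ : 0 < ℓ) (hj : 0 < j) :
    PowerSeries.coeff j (s27g_SE X ℓ) =
      if ℓ ∣ j then (ℓ : ℂ) * ((X.fin j hj).toFinset.card : ℂ) else 0 := by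
  unfold s27g_SE s27_expand s27_S
  rw [map_nsmul, PowerSeries.coeff_mk]
  split_ifs with h
  · rw [PowerSeries.coeff_mk]
    have hne : j / ℓ ≠ 0 := by
      obtain ⟨e, rfl⟩ := h
      rw [Nat.mul_div_cancel_left _ hℓ]
      rintro rfl
      simp at hj
    rw [if_neg hne, s27g_N_one X hj h, nsmul_eq_mul]
  · rw [nsmul_zero]

variable {c₁ : Cl} (hc₁ : X.Θ c₁ = c₁) (hd₁ : X.deg c₁ = 1) {ℓ : ℕ} (hℓ : ℓ.Prime) {ζ₀ : ℂ}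
  (hζ₀ : IsPrimitiveRoot ζ₀ ℓ)

include hc₁ hd₁ hℓ hζ₀ in
theorem s27g_sum_N (ψ : AddChar ↥(X.fix0 1) ℂ)
    (hψ : ∀ C' ∈ X.fix0 ℓ, s27g_ext X ψ (∑ j ∈ range ℓ, (⇑X.Θ)^[j] C') = 1) {j : ℕ}
    (hj : 0 < j) :
    ∑ i ∈ range ℓ, s27g_N X (s27g_chi X c₁ ψ (ζ₀ ^ i)) j =
      if ℓ ∣ j then (ℓ : ℂ) * ((X.fin j hj).toFinset.card : ℂ) else 0 := by
  split_ifs with h
  · rw [Finset.sum_congr rfl fun i _ => s27g_N_chi_dvd X hc₁ hd₁ ψ hψ (ζ₀ ^ i) hj h,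
      ← Finset.sum_mul, s27g_sum_pow_root hℓ hζ₀, if_pos h]
  · rw [Finset.sum_congr rfl fun i _ => s27g_N_chi X hc₁ hd₁ ψ (ζ₀ ^ i) hj,
      ← Finset.sum_mul, s27g_sum_pow_root hℓ hζ₀, if_neg h, zero_mul]

include hc₁ hd₁ hℓ hζ₀ in
/-- the sum of the logarithmic derivatives. -/
theorem s27g_sum_S (Ψ : Finset (AddChar ↥(X.fix0 1) ℂ))
    (hΨ : ∀ ψ ∈ Ψ, ∀ C' ∈ X.fix0 ℓ, s27g_ext X ψ (∑ j ∈ range ℓ, (⇑X.Θ)^[j] C') = 1) :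
    ∑ ψ ∈ Ψ, ∑ i ∈ range ℓ, s27g_S X (s27g_chi X c₁ ψ (ζ₀ ^ i)) = Ψ.card • s27g_SE X ℓ := by
  ext j
  simp only [map_sum, map_nsmul]
  rcases Nat.eq_zero_or_pos j with rfl | hj
  · have h0 : PowerSeries.coeff 0 (s27g_SE X ℓ) = 0 := by
      unfold s27g_SE s27_expand s27_S
      rw [map_nsmul, PowerSeries.coeff_mk, if_pos (dvd_zero ℓ), PowerSeries.coeff_mk,
        Nat.zero_div, if_pos rfl, nsmul_zero]
    rw [h0, nsmul_zero]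
    refine Finset.sum_eq_zero fun ψ _ => Finset.sum_eq_zero fun i _ => ?_
    unfold s27g_S
    rw [PowerSeries.coeff_mk, if_pos rfl]
  · have hS : ∀ χ : Cl → ℂ, PowerSeries.coeff j (s27g_S X χ) = s27g_N X χ j := fun χ => by
      unfold s27g_S
      rw [PowerSeries.coeff_mk, if_neg hj.ne']
    simp only [hS]
    rw [Finset.sum_congr rfl fun ψ hψ => s27g_sum_N X hc₁ hd₁ hℓ hζ₀ ψ (hΨ ψ hψ) hj,
      Finset.sum_const, s27g_coeff_SE X hℓ.pos hj]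

include hc₁ hd₁ hℓ hζ₀ in
/-- **the product formula.** -/
theorem s27g_prod_L (Ψ : Finset (AddChar ↥(X.fix0 1) ℂ))
    (hΨ : ∀ ψ ∈ Ψ, ∀ C' ∈ X.fix0 ℓ, s27g_ext X ψ (∑ j ∈ range ℓ, (⇑X.Θ)^[j] C') = 1) :
    ∏ ψ ∈ Ψ, ∏ i ∈ range ℓ, s27g_L X (s27g_chi X c₁ ψ (ζ₀ ^ i)) = s27g_E X ℓ ^ Ψ.card := by
  have hζne : ζ₀ ≠ 0 := hζ₀.ne_zero hℓ.ne_zero
  have h1 : s27_LDeq (∏ ψ ∈ Ψ, ∏ i ∈ range ℓ, s27g_L X (s27g_chi X c₁ ψ (ζ₀ ^ i)))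
      (∑ ψ ∈ Ψ, ∑ i ∈ range ℓ, s27g_S X (s27g_chi X c₁ ψ (ζ₀ ^ i))) :=
    s27e_LDeq_prod Ψ _ _ fun ψ _ => s27e_LDeq_prod (range ℓ) _ _ fun i _ =>
      s27g_LDeq_chi X s27e_EP _ (s27g_chi_zero X ψ _)
        (s27g_chi_add X hc₁ hd₁ ψ (pow_ne_zero i hζne))
  rw [s27g_sum_S X hc₁ hd₁ hℓ hζ₀ Ψ hΨ] at h1
  exact s27e_LDeq_unique h1 (s27e_LDeq_pow (s27g_LDeq_E X hℓ.pos) Ψ.card)

end Prod

end Fermat.Agent.Lib.S27
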