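import Mathlib
import Fermat.Agent.Lib.S27.ZIface
import Fermat.Agent.Lib.S27.ZFin
import Fermat.Agent.Lib.S27.ZCls

/-!
# Programme Z (S27), brick [ZR], character variant (for [FI])

For a weight `w : Cl → R` which is multiplicative on `Θ`-stable classes and non-trivial on the
stable classes of degree `0`, the weighted number of stable effective divisors of degree `m`
vanishes for `m > 2g - 2`: the `L`-series `L(t, χ)` is a polynomial of degree `≤ 2g - 2`.
-/

set_option autoImplicit false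

noncomputable section

namespace Fermat.Agent.Lib.S27

open Finset

universe u v

variable {Pt : Type u} {Cl : Type v} [AddCommGroup Cl] {X : s27_Dyn Pt Cl}

/-- orthogonality: a non-trivial character sums to zero over the stable classes of degree `m`. -/
theorem s27z_char_sum_zero {P₁ : Pt} (hP₁ : X.θ P₁ = P₁) {R : Type*} [CommRing R] [IsDomain R]
    (w : Cl → R)
    (hw : ∀ C C' : Cl, X.Θ C = C → X.Θ C' = C' → w (C + C') = w C * w C')
    {C₀ : Cl} (hC₀ : C₀ ∈ s27z_stCls X 0) (hne : w C₀ ≠ 1) (m : ℤ) :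
    ∑ C ∈ (s27z_stCls_finite hP₁ m).toFinset, w C = 0 := by
  have hshift : ∑ C ∈ (s27z_stCls_finite hP₁ m).toFinset, w (C + C₀) =
      ∑ C ∈ (s27z_stCls_finite hP₁ m).toFinset, w C := by
    refine Finset.sum_nbij' (fun C => C + C₀) (fun C => C - C₀) ?_ ?_ ?_ ?_ ?_
    · intro C hC
      rw [Set.Finite.mem_toFinset] at hC ⊢
      exact ⟨by rw [map_add, hC.1, hC₀.1], by rw [map_add, hC.2, hC₀.2, add_zero]⟩
    · intro C hC
      rw [Set.Finite.mem_toFinset] at hC ⊢
      exact ⟨by rw [map_sub, hC.1, hC₀.1], by rw [map_sub, hC.2, hC₀.2, sub_zero]⟩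
    · intro C _; simp
    · intro C _; simp
    · intro C _; rfl
  have hmul : ∑ C ∈ (s27z_stCls_finite hP₁ m).toFinset, w (C + C₀) =
      (∑ C ∈ (s27z_stCls_finite hP₁ m).toFinset, w C) * w C₀ := by
    rw [Finset.sum_mul]
    refine Finset.sum_congr rfl fun C hC => ?_
    rw [Set.Finite.mem_toFinset] at hC
    exact hw C C₀ hC.1 hC₀.1
  rw [hmul] at hshift
  have h0 : (∑ C ∈ (s27z_stCls_finite hP₁ m).toFinset, w C) * (w C₀ - 1) = 0 := by
    rw [mul_sub, mul_one, hshift, sub_self]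
  rcases mul_eq_zero.mp h0 with h | h
  · exact h
  · exact absurd (sub_eq_zero.mp h) hne

/-- **`L(t, χ)` is a polynomial**: its coefficients of index `> 2g - 2` vanish. -/
theorem s27z_char_vanish_sum {P₁ : Pt} (hP₁ : X.θ P₁ = P₁) {R : Type*} [CommRing R] [IsDomain R]
    (hq : ((X.q : R) - 1) ≠ 0) (w : Cl → R)
    (hw : ∀ C C' : Cl, X.Θ C = C → X.Θ C' = C' → w (C + C') = w C * w C')
    {C₀ : Cl} (hC₀ : C₀ ∈ s27z_stCls X 0) (hne : w C₀ ≠ 1) (m : ℕ)
    (hm : 2 * (X.g : ℤ) - 2 < m) :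
    ∑ D ∈ s27z_stab X.θ X.fin m, w (s27z_clsN X D) = 0 := by
  have h := s27z_count_weighted hP₁ w m
  have hconst : ∑ C ∈ (s27z_stCls_finite hP₁ (m : ℤ)).toFinset,
      ((X.q : R) ^ X.dim C - 1) * w C =
      ((X.q : R) ^ (m + 1 - X.g) - 1) * ∑ C ∈ (s27z_stCls_finite hP₁ (m : ℤ)).toFinset, w C := by
    rw [Finset.mul_sum]
    refine Finset.sum_congr rfl fun C hC => ?_
    rw [Set.Finite.mem_toFinset] at hC
    obtain ⟨_, hdeg⟩ := hC
    have hdim := s27z_dim_of_large X (C := C) (by rw [hdeg]; exact hm)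
    rw [hdeg] at hdim
    have : X.dim C = m + 1 - X.g := by
      have h2 : (X.dim C : ℤ) = ((m + 1 - X.g : ℕ) : ℤ) := by
        rw [hdim, Nat.cast_sub (by omega)]
        push_cast
        ring
      exact_mod_cast h2
    rw [this]
  rw [hconst, s27z_char_sum_zero hP₁ w hw hC₀ hne, mul_zero] at h
  rcases mul_eq_zero.mp h with h1 | h1
  · exact absurd h1 hq
  · exact h1

end Fermat.Agent.Lib.S27
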