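/-
Programme Z (S27), ARITHMETIC HALF, brick [FI] part 4 (helper7): **the first inequality**
`s27g_FI : s27_FI` — the norm from the classes of degree zero fixed by `Θ^ℓ` onto those fixed by
`Θ` is surjective.

If not, there is a character `ψ₀ ≠ 1` of the stable classes of degree zero which is trivial on the
norms.  The product formula for `Ψ = {1}` and `Ψ = {1, ψ₀}` gives
`E = ∏_ζ L(t, χ_{ψ₀,ζ})` with `E = Z_{θ^ℓ}(t^ℓ)`; the right-hand side is a polynomial, while all the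
coefficients of `E` of index divisible by `ℓ` are `≥ 1`.
-/
import Fermat.Agent.Lib.S27.GFI3
import Fermat.Agent.Lib.S27.ZChar

set_option autoImplicit false

noncomputable section

namespace Fermat.Agent.Lib.S27

open Finset Function

universe u v

variable {Pt : Type u} {Cl : Type v} [AddCommGroup Cl]

attribute [local instance] Classical.propDecidable

section Endgame

variable (X : s27_Dyn Pt Cl)

theorem s27g_ext_of_not_mem (ψ : AddChar ↥(X.fix0 1) ℂ) {y : Cl} (h : y ∉ X.fix0 1) :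
    s27g_ext X ψ y = 1 := by
  unfold s27g_ext
  exact dif_neg h

theorem s27g_iter_neg (x : Cl) (n : ℕ) : (⇑X.Θ)^[n] (-x) = -(⇑X.Θ)^[n] x := by
  simp only [← s27_addEquivPow_apply]
  exact map_neg _ _

/-- the norms from level `ℓ`, as a subgroup of the stable classes of degree zero. -/
def s27g_normSub (ℓ : ℕ) : AddSubgroup ↥(X.fix0 1) where
  carrier := {a | ∃ C' ∈ X.fix0 ℓ, ∑ j ∈ range ℓ, (⇑X.Θ)^[j] C' = (a : Cl)}
  zero_mem' := ⟨0, zero_mem _, by simp⟩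
  add_mem' := by
    rintro a b ⟨C, hC, ha⟩ ⟨C', hC', hb⟩
    refine ⟨C + C', add_mem hC hC', ?_⟩
    simp only [s27g_iter_add, Finset.sum_add_distrib, ha, hb]
    rfl
  neg_mem' := by
    rintro a ⟨C, hC, ha⟩
    refine ⟨-C, neg_mem hC, ?_⟩
    simp only [s27g_iter_neg, Finset.sum_neg_distrib, ha]
    rfl

/-- the power series which are polynomials. -/
def s27g_polyRange : Subring (PowerSeries ℂ) :=
  (Polynomial.coeToPowerSeries.ringHom : Polynomial ℂ →+* PowerSeries ℂ).range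

theorem s27g_not_poly {f : PowerSeries ℂ} {ℓ : ℕ} (hℓ : 0 < ℓ)
    (hf : ∀ m : ℕ, PowerSeries.coeff (ℓ * m) f ≠ 0) : f ∉ s27g_polyRange := by
  rintro ⟨p, rfl⟩
  apply hf (p.natDegree + 1)
  rw [Polynomial.coeToPowerSeries.ringHom_apply, Polynomial.coeff_coe]
  apply Polynomial.coeff_eq_zero_of_natDegree_lt
  calc p.natDegree < p.natDegree + 1 := Nat.lt_succ_self _
    _ = 1 * (p.natDegree + 1) := (one_mul _).symm
    _ ≤ ℓ * (p.natDegree + 1) := Nat.mul_le_mul_right _ hℓ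

theorem s27g_poly_of_vanish {f : PowerSeries ℂ} {B : ℕ}
    (hf : ∀ m : ℕ, B ≤ m → PowerSeries.coeff m f = 0) : f ∈ s27g_polyRange := by
  refine ⟨PowerSeries.trunc B f, ?_⟩
  ext m
  rw [Polynomial.coeToPowerSeries.ringHom_apply, Polynomial.coeff_coe, PowerSeries.coeff_trunc]
  split_ifs with h
  · rfl
  · exact (hf m (not_lt.mp h)).symm

theorem s27g_q_sub_one_ne_zero : ((X.q : ℂ) - 1) ≠ 0 := by
  intro h
  have h1 : (X.q : ℂ) = 1 := sub_eq_zero.mp h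
  have h2 : X.q = 1 := by exact_mod_cast h1
  have := X.one_lt_q
  omega

/-- **`L(t, χ_{ψ₀,u})` is a polynomial** for `ψ₀ ≠ 1`. -/
theorem s27g_L_poly {P₁ : Pt} (hP₁ : X.θ P₁ = P₁) (ψ₀ : AddChar ↥(X.fix0 1) ℂ)
    {a : ↥(X.fix0 1)} (ha : ψ₀ a ≠ 1) {u : ℂ} (hu : u ≠ 0) :
    s27g_L X (s27g_chi X (X.cls (Finsupp.single P₁ 1)) ψ₀ u) ∈ s27g_polyRange := by
  have hc₁ := s27z_pt_fix hP₁
  have hd₁ : X.deg (X.cls (Finsupp.single P₁ 1)) = 1 := s27z_pt_deg P₁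
  have ha2 := (s27g_mem_fix0_one X).mp a.2
  apply s27g_poly_of_vanish (B := 2 * X.g)
  intro m hm
  unfold s27g_L
  rw [PowerSeries.coeff_mk]
  refine s27z_char_vanish_sum hP₁ (s27g_q_sub_one_ne_zero X) _
    (s27g_chi_add X hc₁ hd₁ ψ₀ hu) (C₀ := (a : Cl)) ⟨ha2.2, ha2.1⟩ ?_ m (by omega)
  unfold s27g_chi
  rw [ha2.1, zpow_zero, zero_smul, sub_zero, one_mul, s27g_ext_of_mem X ψ₀ a.2]
  exact ha

/-- the coefficients of `E` of index divisible by `ℓ` do not vanish. -/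
theorem s27g_coeff_E_ne_zero {P₁ : Pt} (hP₁ : X.θ P₁ = P₁) {ℓ : ℕ} (hℓ : 0 < ℓ) (m : ℕ) :
    PowerSeries.coeff (ℓ * m) (s27g_E X ℓ) ≠ 0 := by
  unfold s27g_E s27_expand s27_L
  rw [PowerSeries.coeff_mk, if_pos (dvd_mul_right ℓ m), PowerSeries.coeff_mk,
    Nat.mul_div_cancel_left _ hℓ, s27e_A_eq_sum (X.θ ^ ℓ) (X.pow ℓ hℓ).fin]
  simp only [MonoidHom.one_apply, Finset.sum_const, nsmul_eq_mul, mul_one]
  rw [Nat.cast_ne_zero, ← Nat.pos_iff_ne_zero, Finset.card_pos]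
  refine ⟨Finsupp.single P₁ m, ?_⟩
  rw [s27e_mem_stab]
  refine ⟨?_, s27e_deg_single P₁ m⟩
  rw [Finsupp.mapDomain_single]
  congr 1
  exact Equiv.Perm.pow_apply_eq_self_of_apply_eq_self hP₁ ℓ

end Endgame

/-- **CONTRACT [FI] discharged: the first inequality.** -/
theorem s27g_FI : s27_FI.{u, v} := by
  intro Pt Cl _ X P₁ hP₁ ℓ hℓfact
  have hℓ : ℓ.Prime := hℓfact.out
  by_contra hcon
  have hex : ∃ C ∈ X.fix0 1, ∀ C' ∈ X.fix0 ℓ, ∑ j ∈ range ℓ, (⇑X.Θ)^[j] C' ≠ C := by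
    by_contra h2
    apply hcon
    intro C hC
    by_contra h3
    exact h2 ⟨C, hC, fun C' hC' h4 => h3 ⟨C', hC', h4⟩⟩
  obtain ⟨C, hC, hCn⟩ := hex
  have hc₁ := s27z_pt_fix hP₁
  have hd₁ : X.deg (X.cls (Finsupp.single P₁ 1)) = 1 := s27z_pt_deg P₁
  have : Finite ↥(X.fix0 1) := s27z_finite_fix0_one hP₁
  -- a character trivial on the norms, non-trivial at `C`
  set N₀ := s27g_normSub X ℓ with hN₀
  have hnot : (⟨C, hC⟩ : ↥(X.fix0 1)) ∉ N₀ := by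
    rintro ⟨C', hC', h⟩
    exact hCn C' hC' h
  have hne0 : (QuotientAddGroup.mk' N₀ ⟨C, hC⟩ : ↥(X.fix0 1) ⧸ N₀) ≠ 0 := by
    intro h
    exact hnot ((QuotientAddGroup.eq_zero_iff _).mp h)
  obtain ⟨ψQ, hψQ⟩ := AddChar.exists_apply_ne_zero.mpr hne0
  set ψ₀ : AddChar ↥(X.fix0 1) ℂ := ψQ.compAddMonoidHom (QuotientAddGroup.mk' N₀) with hψ₀
  have hψ₀a : ψ₀ ⟨C, hC⟩ ≠ 1 := hψQ
  have hψ₀ne : (1 : AddChar ↥(X.fix0 1) ℂ) ≠ ψ₀ := by
    intro h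
    apply hψ₀a
    rw [← h]
    rfl
  have htriv₀ : ∀ C' ∈ X.fix0 ℓ, s27g_ext X ψ₀ (∑ j ∈ range ℓ, (⇑X.Θ)^[j] C') = 1 := by
    intro C' hC'
    by_cases hmem : (∑ j ∈ range ℓ, (⇑X.Θ)^[j] C') ∈ X.fix0 1
    · rw [s27g_ext_of_mem X ψ₀ hmem, hψ₀, AddChar.compAddMonoidHom_apply]
      have h0 : (QuotientAddGroup.mk' N₀ ⟨_, hmem⟩ : ↥(X.fix0 1) ⧸ N₀) = 0 :=
        (QuotientAddGroup.eq_zero_iff _).mpr ⟨C', hC', rfl⟩
      rw [h0, AddChar.map_zero_eq_one]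
    · exact s27g_ext_of_not_mem X ψ₀ hmem
  have htriv₁ : ∀ C' ∈ X.fix0 ℓ,
      s27g_ext X (1 : AddChar ↥(X.fix0 1) ℂ) (∑ j ∈ range ℓ, (⇑X.Θ)^[j] C') = 1 :=
    fun C' _ => s27g_ext_one X _
  -- the two product formulas
  have hζ₀ := Complex.isPrimitiveRoot_exp ℓ hℓ.ne_zero
  set ζ₀ : ℂ := Complex.exp (2 * Real.pi * Complex.I / ℓ) with hζdef
  have hζne : ζ₀ ≠ 0 := hζ₀.ne_zero hℓ.ne_zero
  have h1 := s27g_prod_L X hc₁ hd₁ hℓ hζ₀ {1} (by
    intro ψ hψ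
    rw [Finset.mem_singleton] at hψ
    subst hψ
    exact htriv₁)
  have h2 := s27g_prod_L X hc₁ hd₁ hℓ hζ₀ {1, ψ₀} (by
    intro ψ hψ
    rw [Finset.mem_insert, Finset.mem_singleton] at hψ
    rcases hψ with rfl | rfl
    · exact htriv₁
    · exact htriv₀)
  rw [Finset.prod_singleton, Finset.card_singleton, pow_one] at h1
  rw [Finset.prod_pair hψ₀ne, Finset.card_pair hψ₀ne, h1, pow_two] at h2
  have hE0 : s27g_E X ℓ ≠ 0 := by
    intro h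
    have := (s27g_LDeq_E X hℓ.pos).2
    rw [h, map_zero] at this
    exact zero_ne_one this
  have h3 := mul_left_cancel₀ hE0 h2
  -- contradiction
  refine s27g_not_poly hℓ.pos (s27g_coeff_E_ne_zero X hP₁ hℓ.pos) ?_
  rw [← h3]
  exact Subring.prod_mem _ fun i _ => s27g_L_poly X hP₁ ψ₀ hψ₀a (pow_ne_zero i hζne)

end Fermat.Agent.Lib.S27
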