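/-
S27 (torsion of `Pic⁰`), block [G] (helper7, prefix `s27g_`), file 2:
auxiliary facts on abelian groups: kernel × image count, the `ℓ`-primary part of a finite
subgroup has order `ℓ ^ v_ℓ(card)`.  Mathlib only.
-/
import Mathlib

set_option autoImplicit false

namespace Fermat.Agent.Lib.S27

variable {T : Type*} [AddCommGroup T]

/-- the `ℓ`-primary part. -/
def s27g_prim (ℓ : ℕ) (T : Type*) [AddCommGroup T] : AddSubgroup T where
  carrier := {x | ∃ a : ℕ, ℓ ^ a • x = 0}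
  zero_mem' := ⟨0, smul_zero _⟩
  add_mem' := by
    rintro x y ⟨a, ha⟩ ⟨b, hb⟩
    refine ⟨a + b, ?_⟩
    have h1 : ℓ ^ (a + b) • x = 0 := by rw [pow_add, mul_comm, mul_smul, ha, smul_zero]
    have h2 : ℓ ^ (a + b) • y = 0 := by rw [pow_add, mul_smul, hb, smul_zero]
    rw [smul_add, h1, h2, add_zero]
  neg_mem' := by
    rintro x ⟨a, ha⟩
    exact ⟨a, by rw [smul_neg, ha, neg_zero]⟩

theorem s27g_mem_prim {ℓ : ℕ} {x : T} : x ∈ s27g_prim ℓ T ↔ ∃ a : ℕ, ℓ ^ a • x = 0 := Iff.rfl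

/-- the `n`-torsion. -/
def s27g_tor (n : ℕ) (T : Type*) [AddCommGroup T] : AddSubgroup T where
  carrier := {x | n • x = 0}
  zero_mem' := smul_zero _
  add_mem' := fun {x y} (hx : n • x = 0) (hy : n • y = 0) =>
    show n • (x + y) = 0 by rw [smul_add, hx, hy, add_zero]
  neg_mem' := fun {x} (hx : n • x = 0) => show n • (-x) = 0 by rw [smul_neg, hx, neg_zero]

theorem s27g_mem_tor {n : ℕ} {x : T} : x ∈ s27g_tor n T ↔ n • x = 0 := Iff.rfl

theorem s27g_tor_le_prim (ℓ k : ℕ) : s27g_tor (ℓ ^ k) T ≤ s27g_prim ℓ T := fun _ hx => ⟨k, hx⟩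

/-- the fixed points of an endomorphism. -/
def s27g_fix (X : Module.End ℤ T) : AddSubgroup T where
  carrier := {x | X x = x}
  zero_mem' := map_zero X
  add_mem' := fun {x y} (hx : X x = x) (hy : X y = y) =>
    show X (x + y) = x + y by rw [map_add, hx, hy]
  neg_mem' := fun {x} (hx : X x = x) => show X (-x) = -x by rw [map_neg, hx]

theorem s27g_mem_fix {X : Module.End ℤ T} {x : T} : x ∈ s27g_fix X ↔ X x = x := Iff.rfl

theorem s27g_fix_pow_le (X : Module.End ℤ T) (k : ℕ) : s27g_fix X ≤ s27g_fix (X ^ k) := by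
  intro x hx
  rw [s27g_mem_fix] at hx ⊢
  induction k with
  | zero => simp
  | succ k ih => rw [pow_succ, Module.End.mul_apply, hx, ih]

/-- kernel × image. -/
theorem s27g_card_ker_mul_card_map (g : T →+ T) (A : AddSubgroup T) :
    Nat.card ↥(A ⊓ g.ker) * Nat.card ↥(A.map g) = Nat.card ↥A := by
  set g' : ↥A →+ T := g.comp A.subtype with hg'
  have h1 : Nat.card ↥g'.ker * g'.ker.index = Nat.card ↥A := AddSubgroup.card_mul_index _
  rw [AddSubgroup.index_ker] at h1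
  have h2 : Nat.card ↥g'.ker = Nat.card ↥(A ⊓ g.ker) := by
    refine Nat.card_congr
      { toFun := fun x => ⟨x.1.1, x.1.2, x.2⟩
        invFun := fun x => ⟨⟨x.1, x.2.1⟩, x.2.2⟩
        left_inv := fun x => rfl
        right_inv := fun x => rfl }
  have h3 : g'.range = A.map g := by
    ext y
    constructor
    · rintro ⟨x, rfl⟩
      exact ⟨x.1, x.2, rfl⟩
    · rintro ⟨x, hx, rfl⟩
      exact ⟨⟨x, hx⟩, rfl⟩
  rw [h2, h3] at h1
  exact h1

/-- a surjective map between subgroups: kernel × target = source. -/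
theorem s27g_card_of_surj (g : T →+ T) (A B K : AddSubgroup T) (hAB : ∀ x ∈ A, g x ∈ B)
    (hsurj : ∀ y ∈ B, ∃ x ∈ A, g x = y) (hK : ∀ x, x ∈ K ↔ x ∈ A ∧ g x = 0) :
    Nat.card ↥K * Nat.card ↥B = Nat.card ↥A := by
  have h1 : A ⊓ g.ker = K := by
    ext x
    rw [AddSubgroup.mem_inf, AddMonoidHom.mem_ker, hK]
  have h2 : A.map g = B := by
    ext y
    constructor
    · rintro ⟨x, hx, rfl⟩
      exact hAB x hx
    · intro hy
      obtain ⟨x, hx, rfl⟩ := hsurj y hy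
      exact ⟨x, hx, rfl⟩
  rw [← h1, ← h2]
  exact s27g_card_ker_mul_card_map g A

/-- multiplication by `n` as an endomorphism. -/
def s27g_mulBy (n : ℕ) (T : Type*) [AddCommGroup T] : T →+ T := nsmulAddMonoidHom n

theorem s27g_mulBy_apply (n : ℕ) (x : T) : s27g_mulBy n T x = n • x := rfl

/-- **the `ℓ`-primary part of a finite subgroup** has order `ℓ ^ v_ℓ(card)`. -/
theorem s27g_card_prim_inf (ℓ : ℕ) [hℓ : Fact ℓ.Prime] (A : AddSubgroup T) [Finite ↥A] :
    Nat.card ↥(s27g_prim ℓ T ⊓ A) = ℓ ^ padicValNat ℓ (Nat.card ↥A) := by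
  classical
  have hN0 : Nat.card ↥A ≠ 0 := Nat.card_pos.ne'
  obtain ⟨a, b, hb, hN⟩ := Nat.exists_eq_pow_mul_and_not_dvd hN0 ℓ hℓ.out.ne_one
  have hb0 : b ≠ 0 := by
    rintro rfl
    exact hb (dvd_zero _)
  have hval : padicValNat ℓ (Nat.card ↥A) = a := by
    rw [hN, padicValNat.mul (pow_ne_zero a hℓ.out.ne_zero) hb0, padicValNat.prime_pow,
      padicValNat.eq_zero_of_not_dvd hb, add_zero]
  rw [hval]
  -- every element of `A` is killed by `card A`
  have hkill : ∀ x ∈ A, (ℓ ^ a * b) • x = 0 := by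
    intro x hx
    have h := card_nsmul_eq_zero' (G := ↥A) (x := ⟨x, hx⟩)
    rw [hN] at h
    exact congrArg Subtype.val h
  -- the primary part is the kernel of `ℓ ^ a`
  have hP : s27g_prim ℓ T ⊓ A = A ⊓ (s27g_mulBy (ℓ ^ a) T).ker := by
    ext x
    rw [AddSubgroup.mem_inf, AddSubgroup.mem_inf, AddMonoidHom.mem_ker, s27g_mulBy_apply]
    constructor
    · rintro ⟨⟨e, he⟩, hxA⟩
      refine ⟨hxA, ?_⟩
      have h1 : addOrderOf x ∣ ℓ ^ e := addOrderOf_dvd_of_nsmul_eq_zero he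
      have h2 : addOrderOf x ∣ ℓ ^ a * b := addOrderOf_dvd_of_nsmul_eq_zero (hkill x hxA)
      obtain ⟨i, hi, hxi⟩ := (Nat.dvd_prime_pow hℓ.out).mp h1
      rw [hxi] at h2
      have h3 : ℓ ^ i ∣ ℓ ^ a :=
        (Nat.Coprime.pow_left i ((Nat.Prime.coprime_iff_not_dvd hℓ.out).mpr hb)).dvd_of_dvd_mul_right
          h2
      rw [← hxi] at h3
      exact addOrderOf_dvd_iff_nsmul_eq_zero.mp h3
    · rintro ⟨hxA, hx⟩
      exact ⟨⟨a, hx⟩, hxA⟩
  rw [hP]
  -- Bezout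
  have hcop : Nat.Coprime (ℓ ^ a) b :=
    Nat.Coprime.pow_left a ((Nat.Prime.coprime_iff_not_dvd hℓ.out).mpr hb)
  -- `ker (ℓ^a) ∩ A = b • A`, `ker b ∩ A = ℓ^a • A`
  have hbez : ∀ x ∈ A, ∃ u v : ℤ, x = u • (ℓ ^ a • x) + v • (b • x) := by
    intro x hx
    refine ⟨Nat.gcdA (ℓ ^ a) b, Nat.gcdB (ℓ ^ a) b, ?_⟩
    have h1 := Nat.gcd_eq_gcd_ab (ℓ ^ a) b
    rw [hcop] at h1
    have h2 : ((1 : ℕ) : ℤ) • x = ((ℓ ^ a : ℕ) * Nat.gcdA (ℓ ^ a) b + (b : ℕ) * Nat.gcdB (ℓ ^ a) b) • x := by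
      rw [h1]
    rw [Nat.cast_one, one_smul, add_smul, mul_comm, mul_smul, mul_comm (b : ℤ), mul_smul,
      natCast_zsmul, natCast_zsmul] at h2
    exact h2
  have hmapb : A.map (s27g_mulBy b T) = A ⊓ (s27g_mulBy (ℓ ^ a) T).ker := by
    ext y
    rw [AddSubgroup.mem_inf, AddMonoidHom.mem_ker, s27g_mulBy_apply]
    constructor
    · rintro ⟨x, hx, rfl⟩
      rw [s27g_mulBy_apply]
      refine ⟨A.nsmul_mem hx b, ?_⟩
      rw [← mul_smul]
      exact hkill x hx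
    · rintro ⟨hy, hy0⟩
      obtain ⟨u, v, huv⟩ := hbez y hy
      rw [hy0, smul_zero, zero_add] at huv
      refine ⟨v • y, A.zsmul_mem hy v, ?_⟩
      rw [s27g_mulBy_apply, smul_comm]
      exact huv.symm
  have hmapl : A.map (s27g_mulBy (ℓ ^ a) T) = A ⊓ (s27g_mulBy b T).ker := by
    ext y
    rw [AddSubgroup.mem_inf, AddMonoidHom.mem_ker, s27g_mulBy_apply]
    constructor
    · rintro ⟨x, hx, rfl⟩
      rw [s27g_mulBy_apply]
      refine ⟨A.nsmul_mem hx _, ?_⟩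
      rw [← mul_smul, mul_comm]
      exact hkill x hx
    · rintro ⟨hy, hy0⟩
      obtain ⟨u, v, huv⟩ := hbez y hy
      rw [hy0, smul_zero, add_zero] at huv
      refine ⟨u • y, A.zsmul_mem hy u, ?_⟩
      rw [s27g_mulBy_apply, smul_comm]
      exact huv.symm
  have hcount := s27g_card_ker_mul_card_map (s27g_mulBy (ℓ ^ a) T) A
  rw [hmapl, hN] at hcount
  set P := A ⊓ (s27g_mulBy (ℓ ^ a) T).ker with hPdef
  set Q := A ⊓ (s27g_mulBy b T).ker with hQdef
  have : Finite ↥P := Finite.of_injective (AddSubgroup.inclusion (inf_le_left : P ≤ A))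
    (AddSubgroup.inclusion_injective _)
  have : Finite ↥Q := Finite.of_injective (AddSubgroup.inclusion (inf_le_left : Q ≤ A))
    (AddSubgroup.inclusion_injective _)
  -- `card P` is a power of `ℓ`
  have hPpow : ∀ r : ℕ, r.Prime → r ∣ Nat.card ↥P → r = ℓ := by
    intro r hr hdvd
    have : Fact r.Prime := ⟨hr⟩
    obtain ⟨x, hx⟩ := exists_prime_addOrderOf_dvd_card' (G := ↥P) r hdvd
    have h1 : (ℓ ^ a) • (x : T) = 0 := by
      have := (AddSubgroup.mem_inf.mp x.2).2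
      rwa [AddMonoidHom.mem_ker, s27g_mulBy_apply] at this
    have h2 : addOrderOf (x : T) = r := by
      rw [← hx]
      exact (AddSubgroup.addOrderOf_coe x)
    have h3 : r ∣ ℓ ^ a := by
      rw [← h2]
      exact addOrderOf_dvd_of_nsmul_eq_zero h1
    exact (Nat.prime_dvd_prime_iff_eq hr hℓ.out).mp (hr.dvd_of_dvd_pow h3)
  have hQnot : ¬ ℓ ∣ Nat.card ↥Q := by
    intro hdvd
    obtain ⟨x, hx⟩ := exists_prime_addOrderOf_dvd_card' (G := ↥Q) ℓ hdvd
    have h1 : b • (x : T) = 0 := by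
      have := (AddSubgroup.mem_inf.mp x.2).2
      rwa [AddMonoidHom.mem_ker, s27g_mulBy_apply] at this
    have h2 : addOrderOf (x : T) = ℓ := by
      rw [← hx]
      exact (AddSubgroup.addOrderOf_coe x)
    apply hb
    rw [← h2]
    exact addOrderOf_dvd_of_nsmul_eq_zero h1
  have hP0 : Nat.card ↥P ≠ 0 := Nat.card_pos.ne'
  have hQ0 : Nat.card ↥Q ≠ 0 := Nat.card_pos.ne'
  have hPeq : Nat.card ↥P = ℓ ^ (Nat.card ↥P).primeFactorsList.length :=
    Nat.eq_prime_pow_of_unique_prime_dvd hP0 (fun {r} hr hdvd => hPpow r hr hdvd)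
  have hv := congrArg (padicValNat ℓ) hcount
  rw [padicValNat.mul hP0 hQ0, padicValNat.eq_zero_of_not_dvd hQnot, add_zero,
    padicValNat.mul (pow_ne_zero a hℓ.out.ne_zero) hb0, padicValNat.prime_pow,
    padicValNat.eq_zero_of_not_dvd hb, add_zero] at hv
  rw [hPeq] at hv ⊢
  rw [padicValNat.prime_pow] at hv
  rw [hv]

end Fermat.Agent.Lib.S27
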