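/-
S27 (torsion of `Pic⁰`), block [G] (helper7, prefix `s27g_`), file 1:
**the matrix form of "lifting the exponent"**.

`M` an integer `d × d` matrix with `ℓ ∤ det M`.  Some power `M ^ n₀` is `≡ 1 mod ℓ²`; for every
multiple `n` of `n₀`:  `det (1 - M ^ (n ℓ)) = det (1 - M ^ n) · ℓ ^ d · u` with `u ≡ 1 mod ℓ`, and
`det (1 - M ^ (n b)) = det (1 - M ^ n) · u'` with `u' ≡ b ^ d mod ℓ`.  Mathlib only.
-/
import Mathlib

set_option autoImplicit false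

namespace Fermat.Agent.Lib.S27

open Matrix Finset

variable {d : ℕ}

/-- a matrix with determinant prime to `ℓ` has a power `≡ 1 mod ℓ²`. -/
theorem s27g_exists_pow_eq (ℓ : ℕ) [hℓ : Fact ℓ.Prime] (M : Matrix (Fin d) (Fin d) ℤ)
    (hM : ¬ (ℓ : ℤ) ∣ M.det) :
    ∃ n₀ : ℕ, 0 < n₀ ∧ ∃ B : Matrix (Fin d) (Fin d) ℤ, M ^ n₀ = 1 + ((ℓ : ℤ) ^ 2) • B := by
  classical
  have : NeZero (ℓ ^ 2) := ⟨pow_ne_zero 2 hℓ.out.ne_zero⟩
  set f : ℤ →+* ZMod (ℓ ^ 2) := Int.castRingHom (ZMod (ℓ ^ 2)) with hf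
  have hdet : IsUnit (f.mapMatrix M).det := by
    have h1 : (f.mapMatrix M).det = f M.det := (RingHom.map_det f M).symm
    rw [h1]
    show IsUnit ((M.det : ℤ) : ZMod (ℓ ^ 2))
    rw [ZMod.coe_int_isUnit_iff_isCoprime]
    have hp : Prime (ℓ : ℤ) := Nat.prime_iff_prime_int.mp hℓ.out
    have h2 : IsCoprime (ℓ : ℤ) M.det := (Prime.coprime_iff_not_dvd hp).mpr hM
    push_cast
    exact h2.pow_left
  have hu : IsUnit (f.mapMatrix M) := (Matrix.isUnit_iff_isUnit_det _).mpr hdet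
  obtain ⟨u, hu'⟩ := hu
  obtain ⟨n₀, hn₀, hpow⟩ := (isOfFinOrder_of_finite u).exists_pow_eq_one
  refine ⟨n₀, hn₀, ?_⟩
  have h3 : f.mapMatrix (M ^ n₀) = 1 := by
    rw [map_pow, ← hu', ← Units.val_pow_eq_pow_val, hpow, Units.val_one]
  have h4 : ∀ i j, ((ℓ : ℤ) ^ 2) ∣ (M ^ n₀ - 1) i j := by
    intro i j
    have h5 : f ((M ^ n₀ - 1) i j) = 0 := by
      have h6 := congrFun (congrFun h3 i) j
      rw [RingHom.mapMatrix_apply, Matrix.map_apply] at h6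
      rw [Matrix.sub_apply, map_sub, h6]
      by_cases hij : i = j
      · subst hij; simp
      · simp [Matrix.one_apply_ne hij]
    have h7 := (ZMod.intCast_zmod_eq_zero_iff_dvd ((M ^ n₀ - 1) i j) (ℓ ^ 2)).mp h5
    exact_mod_cast h7
  choose B hB using h4
  refine ⟨Matrix.of B, ?_⟩
  ext i j
  have := hB i j
  rw [Matrix.sub_apply] at this
  rw [Matrix.add_apply, Matrix.smul_apply, Matrix.of_apply, smul_eq_mul, ← this]
  ring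

/-- powers of `1 + c B`. -/
theorem s27g_pow_eq (c : ℤ) (B : Matrix (Fin d) (Fin d) ℤ) (j : ℕ) :
    ∃ C : Matrix (Fin d) (Fin d) ℤ, (1 + c • B) ^ j = 1 + c • C := by
  induction j with
  | zero => exact ⟨0, by simp⟩
  | succ j ih =>
    obtain ⟨C, hC⟩ := ih
    refine ⟨C + B + c • (C * B), ?_⟩
    rw [pow_succ, hC]
    simp only [add_mul, mul_add, one_mul, mul_one, smul_mul_assoc, mul_smul_comm, smul_add,
      smul_smul]
    abel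

/-- geometric sums of `1 + c B`. -/
theorem s27g_geom_sum_eq (c : ℤ) (B : Matrix (Fin d) (Fin d) ℤ) (b : ℕ) :
    ∃ C : Matrix (Fin d) (Fin d) ℤ,
      ∑ j ∈ range b, (1 + c • B) ^ j = (b : ℤ) • (1 : Matrix (Fin d) (Fin d) ℤ) + c • C := by
  induction b with
  | zero => exact ⟨0, by simp⟩
  | succ b ih =>
    obtain ⟨C, hC⟩ := ih
    obtain ⟨C', hC'⟩ := s27g_pow_eq c B b
    refine ⟨C + C', ?_⟩
    rw [sum_range_succ, hC, hC']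
    simp only [smul_add, Nat.cast_succ, add_smul, one_smul]
    abel

/-- the determinant of `b + c C` is `≡ b ^ d mod c`. -/
theorem s27g_det_add_smul (b c : ℤ) (C : Matrix (Fin d) (Fin d) ℤ) :
    ∃ e : ℤ, (b • (1 : Matrix (Fin d) (Fin d) ℤ) + c • C).det = b ^ d + c * e := by
  classical
  set g : ℤ →+* ℤ ⧸ Ideal.span {c} := Ideal.Quotient.mk (Ideal.span {c}) with hg
  have h1 : g.mapMatrix (b • (1 : Matrix (Fin d) (Fin d) ℤ) + c • C) =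
      (g b) • (1 : Matrix (Fin d) (Fin d) (ℤ ⧸ Ideal.span {c})) := by
    ext i j
    have hc : g c = 0 := Ideal.Quotient.eq_zero_iff_mem.mpr (Ideal.mem_span_singleton_self c)
    rw [RingHom.mapMatrix_apply, Matrix.map_apply, Matrix.add_apply, Matrix.smul_apply,
      Matrix.smul_apply, Matrix.smul_apply, map_add, smul_eq_mul, smul_eq_mul, smul_eq_mul,
      map_mul, map_mul, hc, zero_mul, add_zero]
    by_cases hij : i = j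
    · subst hij
      simp
    · simp [Matrix.one_apply_ne hij]
  have h2 : g (b • (1 : Matrix (Fin d) (Fin d) ℤ) + c • C).det = g (b ^ d) := by
    rw [RingHom.map_det, h1, Matrix.det_smul, Matrix.det_one, mul_one,
      Fintype.card_fin, map_pow]
  have h3 : (b • (1 : Matrix (Fin d) (Fin d) ℤ) + c • C).det - b ^ d ∈ Ideal.span {c} := by
    rw [← Ideal.Quotient.eq_zero_iff_mem, map_sub, h2, sub_self]
  obtain ⟨e, he⟩ := Ideal.mem_span_singleton.mp h3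
  exact ⟨e, by linarith⟩

/-- **the prime-to-`ℓ` step**: for `W ≡ 1 mod ℓ²`, `det (1 - W ^ b) = det (1 - W) · u` with
`u ≡ b ^ d mod ℓ²`. -/
theorem s27g_det_one_sub_pow (c : ℤ) (B : Matrix (Fin d) (Fin d) ℤ) (b : ℕ) :
    ∃ e : ℤ, (1 - (1 + c • B) ^ b).det = (1 - (1 + c • B)).det * ((b : ℤ) ^ d + c * e) := by
  obtain ⟨C, hC⟩ := s27g_geom_sum_eq c B b
  obtain ⟨e, he⟩ := s27g_det_add_smul (b : ℤ) c C
  refine ⟨e, ?_⟩
  have h1 : (1 - (1 + c • B) ^ b) = (∑ j ∈ range b, (1 + c • B) ^ j) * (1 - (1 + c • B)) :=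
    (geom_sum_mul_neg _ _).symm
  rw [h1, Matrix.det_mul, hC, he, mul_comm]

/-- **the `ℓ`-step**: for `W ≡ 1 mod ℓ²`, `det (1 - W ^ ℓ) = det (1 - W) · ℓ ^ d · u` with
`u ≡ 1 mod ℓ`. -/
theorem s27g_det_one_sub_pow_prime (ℓ : ℕ) (B : Matrix (Fin d) (Fin d) ℤ) :
    ∃ e : ℤ, (1 - (1 + ((ℓ : ℤ) ^ 2) • B) ^ ℓ).det =
      (1 - (1 + ((ℓ : ℤ) ^ 2) • B)).det * ((ℓ : ℤ) ^ d * (1 + (ℓ : ℤ) * e)) := by
  obtain ⟨C, hC⟩ := s27g_geom_sum_eq ((ℓ : ℤ) ^ 2) B ℓ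
  obtain ⟨e, he⟩ := s27g_det_add_smul 1 (ℓ : ℤ) C
  refine ⟨e, ?_⟩
  have h1 : (1 - (1 + ((ℓ : ℤ) ^ 2) • B) ^ ℓ) =
      (∑ j ∈ range ℓ, (1 + ((ℓ : ℤ) ^ 2) • B) ^ j) * (1 - (1 + ((ℓ : ℤ) ^ 2) • B)) :=
    (geom_sum_mul_neg _ _).symm
  have h2 : ((ℓ : ℤ) • (1 : Matrix (Fin d) (Fin d) ℤ) + ((ℓ : ℤ) ^ 2) • C) =
      (ℓ : ℤ) • ((1 : ℤ) • (1 : Matrix (Fin d) (Fin d) ℤ) + (ℓ : ℤ) • C) := by
    rw [smul_add, smul_smul, smul_smul, mul_one, sq]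
  rw [h1, Matrix.det_mul, hC, h2, Matrix.det_smul, he, Fintype.card_fin, one_pow, mul_comm]

/-- the set of exponents `n` with `M ^ n ≡ 1 mod ℓ²` is closed under multiples. -/
theorem s27g_pow_mul_eq (c : ℤ) (M B : Matrix (Fin d) (Fin d) ℤ) (n₀ : ℕ)
    (h : M ^ n₀ = 1 + c • B) (k : ℕ) :
    ∃ C : Matrix (Fin d) (Fin d) ℤ, M ^ (n₀ * k) = 1 + c • C := by
  rw [pow_mul, h]
  exact s27g_pow_eq c B k

/-- the valuation of `det (1 - M ^ n)` under `n ↦ n ℓ`. -/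
theorem s27g_padicValNat_mul_prime (ℓ : ℕ) [hℓ : Fact ℓ.Prime] (M B : Matrix (Fin d) (Fin d) ℤ)
    (n : ℕ) (h : M ^ n = 1 + ((ℓ : ℤ) ^ 2) • B) (h0 : (1 - M ^ n).det ≠ 0) :
    (1 - M ^ (n * ℓ)).det ≠ 0 ∧
      padicValNat ℓ (1 - M ^ (n * ℓ)).det.natAbs = padicValNat ℓ (1 - M ^ n).det.natAbs + d := by
  obtain ⟨e, he⟩ := s27g_det_one_sub_pow_prime ℓ B
  rw [pow_mul, h, he]
  rw [h] at h0
  have hp : Prime (ℓ : ℤ) := Nat.prime_iff_prime_int.mp hℓ.out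
  have hu : ¬ (ℓ : ℤ) ∣ 1 + (ℓ : ℤ) * e := by
    intro hdvd
    have h1 : (ℓ : ℤ) ∣ 1 := (Int.dvd_add_left (dvd_mul_right _ _)).mp hdvd
    exact hp.not_isUnit (isUnit_of_dvd_one h1)
  have hu0 : (1 + (ℓ : ℤ) * e) ≠ 0 := by
    intro h1
    exact hu (h1 ▸ dvd_zero _)
  have hℓ0 : ((ℓ : ℤ) ^ d) ≠ 0 := pow_ne_zero d (Nat.cast_ne_zero.mpr hℓ.out.ne_zero)
  refine ⟨mul_ne_zero h0 (mul_ne_zero hℓ0 hu0), ?_⟩
  rw [Int.natAbs_mul, Int.natAbs_mul, Int.natAbs_pow, Int.natAbs_natCast,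
    padicValNat.mul (Int.natAbs_ne_zero.mpr h0)
      (mul_ne_zero (pow_ne_zero d hℓ.out.ne_zero) (Int.natAbs_ne_zero.mpr hu0)),
    padicValNat.mul (pow_ne_zero d hℓ.out.ne_zero) (Int.natAbs_ne_zero.mpr hu0),
    padicValNat.prime_pow,
    padicValNat.eq_zero_of_not_dvd (fun hd => hu (Int.natCast_dvd.mpr hd)), add_zero]

/-- the valuation of `det (1 - M ^ n)` under `n ↦ n b`, `ℓ ∤ b`. -/
theorem s27g_padicValNat_mul_coprime (ℓ : ℕ) [hℓ : Fact ℓ.Prime] (M B : Matrix (Fin d) (Fin d) ℤ)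
    (n b : ℕ) (hb : ¬ ℓ ∣ b) (h : M ^ n = 1 + ((ℓ : ℤ) ^ 2) • B) (h0 : (1 - M ^ n).det ≠ 0) :
    (1 - M ^ (n * b)).det ≠ 0 ∧
      padicValNat ℓ (1 - M ^ (n * b)).det.natAbs = padicValNat ℓ (1 - M ^ n).det.natAbs := by
  obtain ⟨e, he⟩ := s27g_det_one_sub_pow ((ℓ : ℤ) ^ 2) B b
  rw [pow_mul, h, he]
  rw [h] at h0
  have hp : Prime (ℓ : ℤ) := Nat.prime_iff_prime_int.mp hℓ.out
  have hu : ¬ (ℓ : ℤ) ∣ (b : ℤ) ^ d + (ℓ : ℤ) ^ 2 * e := by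
    intro hdvd
    have h1 : (ℓ : ℤ) ∣ (b : ℤ) ^ d :=
      (Int.dvd_add_left (Dvd.dvd.mul_right (dvd_pow_self _ two_ne_zero) _)).mp hdvd
    have h2 : (ℓ : ℤ) ∣ (b : ℤ) := hp.dvd_of_dvd_pow h1
    exact hb (Int.natCast_dvd_natCast.mp h2)
  have hu0 : ((b : ℤ) ^ d + (ℓ : ℤ) ^ 2 * e) ≠ 0 := by
    intro h1
    exact hu (h1 ▸ dvd_zero _)
  refine ⟨mul_ne_zero h0 hu0, ?_⟩
  rw [Int.natAbs_mul, padicValNat.mul (Int.natAbs_ne_zero.mpr h0) (Int.natAbs_ne_zero.mpr hu0),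
    padicValNat.eq_zero_of_not_dvd (fun hd => hu (Int.natCast_dvd.mpr hd)), add_zero]

end Fermat.Agent.Lib.S27
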