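/-
S27 (torsion of `Pic⁰`), block [G] (helper7, prefix `s27g_`), file 3: **THEOREM G**.

`T` an abelian group, `f` an endomorphism, `ℓ` a prime, `M` an integer `d × d` matrix with
`ℓ ∤ det M`, such that
 (i)   every element of `T` is fixed by some `f ^ n`, `n > 0`;
 (ii)  for `n > 0` the group of fixed points of `f ^ n` is finite of order `|det (1 - M ^ n)|`;
 (iii) the norms `Σ_{j<ℓ} (f ^ n) ^ j : Fix (f ^ (n ℓ)) → Fix (f ^ n)` are onto.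
Then `T` has exactly `ℓ ^ (d e)` elements killed by `ℓ ^ e`.
-/
import Fermat.Agent.Lib.S27.GMat
import Fermat.Agent.Lib.S27.GAux

set_option autoImplicit false
set_option linter.unusedSectionVars false
set_option linter.unusedVariables false

namespace Fermat.Agent.Lib.S27

open Matrix Finset

variable {T : Type*} [AddCommGroup T] {d : ℕ}

/-- the hypotheses of Theorem G. -/
structure s27g_Hyp (ℓ : ℕ) (M : Matrix (Fin d) (Fin d) ℤ) (f : Module.End ℤ T) : Prop where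
  per : ∀ x : T, ∃ n : ℕ, 0 < n ∧ (f ^ n) x = x
  fin : ∀ n : ℕ, 0 < n → Finite ↥(s27g_fix (f ^ n))
  card : ∀ n : ℕ, 0 < n → Nat.card ↥(s27g_fix (f ^ n)) = (1 - M ^ n).det.natAbs
  norm : ∀ n : ℕ, 0 < n → ∀ x ∈ s27g_fix (f ^ n), ∃ y ∈ s27g_fix (f ^ (n * ℓ)),
    (∑ j ∈ range ℓ, (f ^ n) ^ j) y = x

section

variable {ℓ : ℕ} [hℓ : Fact ℓ.Prime] {M : Matrix (Fin d) (Fin d) ℤ} {f : Module.End ℤ T}

theorem s27g_det_ne_zero (H : s27g_Hyp ℓ M f) (n : ℕ) (hn : 0 < n) : (1 - M ^ n).det ≠ 0 := by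
  intro h0
  have h1 := H.card n hn
  rw [h0, Int.natAbs_zero] at h1
  have := H.fin n hn
  exact (Nat.card_pos (α := ↥(s27g_fix (f ^ n)))).ne' h1

/-- endomorphisms preserve the primary part. -/
theorem s27g_end_mem_prim (g : Module.End ℤ T) {x : T} (hx : x ∈ s27g_prim ℓ T) :
    g x ∈ s27g_prim ℓ T := by
  obtain ⟨a, ha⟩ := hx
  exact ⟨a, by rw [← map_nsmul, ha, map_zero]⟩

/-- the level `n₀ ℓ ^ m`. -/
def s27g_lev (ℓ n₀ m : ℕ) : ℕ := n₀ * ℓ ^ m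

theorem s27g_lev_pos {n₀ : ℕ} (hn₀ : 0 < n₀) (m : ℕ) : 0 < s27g_lev ℓ n₀ m :=
  Nat.mul_pos hn₀ (pow_pos hℓ.out.pos m)

theorem s27g_lev_succ (n₀ m : ℕ) : s27g_lev ℓ n₀ (m + 1) = s27g_lev ℓ n₀ m * ℓ := by
  unfold s27g_lev
  rw [pow_succ, mul_assoc]

/-- the groups `G_m`. -/
def s27g_G (ℓ : ℕ) (f : Module.End ℤ T) (n₀ m : ℕ) : AddSubgroup T :=
  s27g_prim ℓ T ⊓ s27g_fix (f ^ s27g_lev ℓ n₀ m)

theorem s27g_fix_le_mul (f : Module.End ℤ T) (n k : ℕ) :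
    s27g_fix (f ^ n) ≤ s27g_fix (f ^ (n * k)) := by
  rw [pow_mul]
  exact s27g_fix_pow_le _ k

theorem s27g_G_mono (f : Module.End ℤ T) (n₀ : ℕ) {m m' : ℕ} (h : m ≤ m') :
    s27g_G ℓ f n₀ m ≤ s27g_G ℓ f n₀ m' := by
  obtain ⟨c, rfl⟩ := Nat.exists_eq_add_of_le h
  refine inf_le_inf le_rfl ?_
  have : s27g_lev ℓ n₀ (m + c) = s27g_lev ℓ n₀ m * ℓ ^ c := by
    unfold s27g_lev
    rw [pow_add, mul_assoc]
  rw [this]
  exact s27g_fix_le_mul f _ _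

theorem s27g_G_finite (H : s27g_Hyp ℓ M f) {n₀ : ℕ} (hn₀ : 0 < n₀) (m : ℕ) :
    Finite ↥(s27g_G ℓ f n₀ m) := by
  have := H.fin _ (s27g_lev_pos (ℓ := ℓ) hn₀ m)
  exact Finite.of_injective (AddSubgroup.inclusion (inf_le_right :
    s27g_G ℓ f n₀ m ≤ s27g_fix (f ^ s27g_lev ℓ n₀ m))) (AddSubgroup.inclusion_injective _)

/-- the primary part of the fixed points of `f ^ n`. -/
theorem s27g_card_prim_fix (H : s27g_Hyp ℓ M f) (n : ℕ) (hn : 0 < n) :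
    Nat.card ↥(s27g_prim ℓ T ⊓ s27g_fix (f ^ n)) =
      ℓ ^ padicValNat ℓ (1 - M ^ n).det.natAbs := by
  have := H.fin n hn
  rw [s27g_card_prim_inf ℓ (s27g_fix (f ^ n)), H.card n hn]

variable {n₀ : ℕ} {B₀ : Matrix (Fin d) (Fin d) ℤ}

theorem s27g_lev_matrix (hB₀ : M ^ n₀ = 1 + ((ℓ : ℤ) ^ 2) • B₀) (m : ℕ) :
    ∃ C : Matrix (Fin d) (Fin d) ℤ, M ^ s27g_lev ℓ n₀ m = 1 + ((ℓ : ℤ) ^ 2) • C :=
  s27g_pow_mul_eq _ M B₀ n₀ hB₀ _

/-- **the orders of the `G_m`.** -/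
theorem s27g_card_G (H : s27g_Hyp ℓ M f) (hn₀ : 0 < n₀)
    (hB₀ : M ^ n₀ = 1 + ((ℓ : ℤ) ^ 2) • B₀) (m : ℕ) :
    Nat.card ↥(s27g_G ℓ f n₀ m) =
      ℓ ^ (padicValNat ℓ (1 - M ^ n₀).det.natAbs + d * m) := by
  unfold s27g_G
  rw [s27g_card_prim_fix H _ (s27g_lev_pos hn₀ m)]
  congr 1
  induction m with
  | zero => simp [s27g_lev]
  | succ m ih =>
    obtain ⟨C, hC⟩ := s27g_lev_matrix (ℓ := ℓ) hB₀ m
    have h1 := (s27g_padicValNat_mul_prime ℓ M C _ hC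
      (s27g_det_ne_zero H _ (s27g_lev_pos hn₀ m))).2
    rw [s27g_lev_succ, h1, ih]
    ring

/-- every element of the primary part lies in some `G_m`. -/
theorem s27g_exists_mem_G (H : s27g_Hyp ℓ M f) (hn₀ : 0 < n₀)
    (hB₀ : M ^ n₀ = 1 + ((ℓ : ℤ) ^ 2) • B₀) {x : T} (hx : x ∈ s27g_prim ℓ T) :
    ∃ m : ℕ, x ∈ s27g_G ℓ f n₀ m := by
  obtain ⟨n, hn, hxn⟩ := H.per x
  obtain ⟨a, b, hb, hnab⟩ := Nat.exists_eq_pow_mul_and_not_dvd hn.ne' ℓ hℓ.out.ne_one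
  have hb0 : 0 < b := by
    rcases Nat.eq_zero_or_pos b with h | h
    · exact absurd (h ▸ dvd_zero ℓ) hb
    · exact h
  refine ⟨a, ?_⟩
  -- `x` is fixed by `f ^ (lev a * b)`
  have hlev : s27g_lev ℓ n₀ a * b = n * n₀ := by
    unfold s27g_lev
    rw [hnab]
    ring
  have hx1 : x ∈ s27g_fix (f ^ (s27g_lev ℓ n₀ a * b)) := by
    rw [hlev]
    exact s27g_fix_le_mul f n n₀ hxn
  have hpos : 0 < s27g_lev ℓ n₀ a * b := Nat.mul_pos (s27g_lev_pos hn₀ a) hb0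
  -- the two primary parts coincide
  obtain ⟨C, hC⟩ := s27g_lev_matrix (ℓ := ℓ) hB₀ a
  have hval := (s27g_padicValNat_mul_coprime ℓ M C _ b hb hC
    (s27g_det_ne_zero H _ (s27g_lev_pos hn₀ a))).2
  have hle : s27g_G ℓ f n₀ a ≤ s27g_prim ℓ T ⊓ s27g_fix (f ^ (s27g_lev ℓ n₀ a * b)) :=
    inf_le_inf le_rfl (s27g_fix_le_mul f _ _)
  have hfin : Finite ↥(s27g_prim ℓ T ⊓ s27g_fix (f ^ (s27g_lev ℓ n₀ a * b))) := by
    have := H.fin _ hpos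
    exact Finite.of_injective (AddSubgroup.inclusion (inf_le_right :
      s27g_prim ℓ T ⊓ s27g_fix (f ^ (s27g_lev ℓ n₀ a * b)) ≤ _))
      (AddSubgroup.inclusion_injective _)
  have hcard : Nat.card ↥(s27g_prim ℓ T ⊓ s27g_fix (f ^ (s27g_lev ℓ n₀ a * b))) ≤
      Nat.card ↥(s27g_G ℓ f n₀ a) := by
    unfold s27g_G
    rw [s27g_card_prim_fix H _ hpos, s27g_card_prim_fix H _ (s27g_lev_pos hn₀ a), hval]
  have heq := AddSubgroup.eq_of_le_of_card_ge hle hcard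
  rw [heq]
  exact AddSubgroup.mem_inf.mpr ⟨hx, hx1⟩

/-- finitely many elements of the primary part lie in a common `G_m`. -/
theorem s27g_exists_subset_G (H : s27g_Hyp ℓ M f) (hn₀ : 0 < n₀)
    (hB₀ : M ^ n₀ = 1 + ((ℓ : ℤ) ^ 2) • B₀) (S : Finset T) (hS : ∀ x ∈ S, x ∈ s27g_prim ℓ T) :
    ∃ m : ℕ, ∀ x ∈ S, x ∈ s27g_G ℓ f n₀ m := by
  classical
  induction S using Finset.induction_on with
  | empty => exact ⟨0, fun x hx => absurd hx (Finset.notMem_empty x)⟩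
  | insert a S ha ih =>
    obtain ⟨m, hm⟩ := ih fun x hx => hS x (Finset.mem_insert_of_mem hx)
    obtain ⟨m', hm'⟩ := s27g_exists_mem_G H hn₀ hB₀ (hS a (Finset.mem_insert_self a S))
    refine ⟨max m m', fun x hx => ?_⟩
    rcases Finset.mem_insert.mp hx with rfl | hx
    · exact s27g_G_mono f n₀ (le_max_right m m') hm'
    · exact s27g_G_mono f n₀ (le_max_left m m') (hm x hx)

/-- a finite subgroup of the primary part lies in some `G_m`. -/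
theorem s27g_exists_le_G (H : s27g_Hyp ℓ M f) (hn₀ : 0 < n₀)
    (hB₀ : M ^ n₀ = 1 + ((ℓ : ℤ) ^ 2) • B₀) (A : AddSubgroup T) [Finite ↥A]
    (hA : A ≤ s27g_prim ℓ T) : ∃ m : ℕ, A ≤ s27g_G ℓ f n₀ m := by
  classical
  have hfin : (A : Set T).Finite := Set.toFinite _
  obtain ⟨m, hm⟩ := s27g_exists_subset_G H hn₀ hB₀ hfin.toFinset
    (fun x hx => hA (hfin.mem_toFinset.mp hx))
  exact ⟨m, fun x hx => hm x (hfin.mem_toFinset.mpr hx)⟩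

/-- the norm `ν_m`. -/
def s27g_nu (ℓ : ℕ) (f : Module.End ℤ T) (n₀ m : ℕ) : Module.End ℤ T :=
  ∑ j ∈ range ℓ, (f ^ s27g_lev ℓ n₀ m) ^ j

theorem s27g_nu_mul (f : Module.End ℤ T) (n₀ m : ℕ) :
    s27g_nu ℓ f n₀ m * (f ^ s27g_lev ℓ n₀ m - 1) = f ^ s27g_lev ℓ n₀ (m + 1) - 1 := by
  unfold s27g_nu
  rw [geom_sum_mul, s27g_lev_succ, pow_mul]

theorem s27g_mul_nu (f : Module.End ℤ T) (n₀ m : ℕ) :
    (f ^ s27g_lev ℓ n₀ m - 1) * s27g_nu ℓ f n₀ m = f ^ s27g_lev ℓ n₀ (m + 1) - 1 := by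
  unfold s27g_nu
  rw [mul_geom_sum, s27g_lev_succ, pow_mul]

/-- on fixed points of `X` the norm is multiplication by `ℓ`. -/
theorem s27g_nu_apply_of_fix (f : Module.End ℤ T) (n₀ m : ℕ) {x : T}
    (hx : x ∈ s27g_fix (f ^ s27g_lev ℓ n₀ m)) : s27g_nu ℓ f n₀ m x = ℓ • x := by
  unfold s27g_nu
  rw [LinearMap.sum_apply]
  have h1 : ∀ j ∈ range ℓ, ((f ^ s27g_lev ℓ n₀ m) ^ j) x = x := fun j _ =>
    s27g_fix_pow_le _ j hx
  rw [Finset.sum_congr rfl h1, Finset.sum_const, Finset.card_range]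

/-- the norm maps `G_(m+1)` into `G_m`. -/
theorem s27g_nu_mem (f : Module.End ℤ T) (n₀ m : ℕ) {y : T} (hy : y ∈ s27g_G ℓ f n₀ (m + 1)) :
    s27g_nu ℓ f n₀ m y ∈ s27g_G ℓ f n₀ m := by
  obtain ⟨hy1, hy2⟩ := AddSubgroup.mem_inf.mp hy
  refine AddSubgroup.mem_inf.mpr ⟨s27g_end_mem_prim _ hy1, ?_⟩
  rw [s27g_mem_fix]
  have h1 := congrArg (fun g : Module.End ℤ T => g y) (s27g_mul_nu (ℓ := ℓ) f n₀ m)
  simp only [Module.End.mul_apply, LinearMap.sub_apply, Module.End.one_apply] at h1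
  have h2 : (f ^ s27g_lev ℓ n₀ (m + 1)) y = y := hy2
  rw [h2, sub_self] at h1
  exact sub_eq_zero.mp h1

/-- **the norms are onto on the primary parts.** -/
theorem s27g_nu_surj (H : s27g_Hyp ℓ M f) (hn₀ : 0 < n₀) (m : ℕ) {x : T}
    (hx : x ∈ s27g_G ℓ f n₀ m) :
    ∃ y ∈ s27g_G ℓ f n₀ (m + 1), s27g_nu ℓ f n₀ m y = x := by
  obtain ⟨hx1, hx2⟩ := AddSubgroup.mem_inf.mp hx
  obtain ⟨y₀, hy₀, hy₀x⟩ := H.norm _ (s27g_lev_pos hn₀ m) x hx2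
  rw [← s27g_lev_succ] at hy₀
  obtain ⟨e, he⟩ := hx1
  have hfinA := H.fin _ (s27g_lev_pos (ℓ := ℓ) hn₀ (m + 1))
  set A := s27g_fix (f ^ s27g_lev ℓ n₀ (m + 1)) with hA
  have hN0 : Nat.card ↥A ≠ 0 := Nat.card_pos.ne'
  obtain ⟨a, b, hb, hN⟩ := Nat.exists_eq_pow_mul_and_not_dvd hN0 ℓ hℓ.out.ne_one
  have hkill : (ℓ ^ a * b) • y₀ = 0 := by
    have h := card_nsmul_eq_zero' (G := ↥A) (x := ⟨y₀, hy₀⟩)
    rw [hN] at h
    exact congrArg Subtype.val h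
  rcases Nat.eq_zero_or_pos e with he0 | he0
  · -- `x = 0`
    rw [he0, pow_zero, one_smul] at he
    exact ⟨0, zero_mem _, by rw [map_zero, he]⟩
  · have hcop : Nat.Coprime b (ℓ ^ e) :=
      Nat.Coprime.pow_right e (Nat.Coprime.symm ((Nat.Prime.coprime_iff_not_dvd hℓ.out).mpr hb))
    have h1lt : 1 < ℓ ^ e := Nat.one_lt_pow he0.ne' hℓ.out.one_lt
    obtain ⟨u, -, hu⟩ := Nat.exists_mul_mod_eq_one_of_coprime hcop h1lt
    refine ⟨(b * u) • y₀, AddSubgroup.mem_inf.mpr ⟨⟨a, ?_⟩, A.nsmul_mem hy₀ _⟩, ?_⟩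
    · have h3 : ℓ ^ a • (b * u) • y₀ = u • ((ℓ ^ a * b) • y₀) := by
        rw [← mul_smul, ← mul_smul]
        congr 1
        ring
      rw [h3, hkill, smul_zero]
    · have hy₀x' : s27g_nu ℓ f n₀ m y₀ = x := hy₀x
      rw [map_nsmul, hy₀x']
      have h2 : b * u = ℓ ^ e * (b * u / ℓ ^ e) + 1 := by
        have := Nat.div_add_mod (b * u) (ℓ ^ e)
        rw [hu] at this
        exact this.symm
      rw [h2, add_smul, one_smul, mul_comm, mul_smul, he, smul_zero, zero_add]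

/-- the kernel of the norm on `G_(m+1)`. -/
def s27g_K (ℓ : ℕ) (f : Module.End ℤ T) (n₀ m : ℕ) : AddSubgroup T :=
  s27g_G ℓ f n₀ (m + 1) ⊓ (s27g_nu ℓ f n₀ m).toAddMonoidHom.ker

theorem s27g_card_K (H : s27g_Hyp ℓ M f) (hn₀ : 0 < n₀)
    (hB₀ : M ^ n₀ = 1 + ((ℓ : ℤ) ^ 2) • B₀) (m : ℕ) :
    Nat.card ↥(s27g_K ℓ f n₀ m) = ℓ ^ d := by
  have h1 := s27g_card_of_surj (s27g_nu ℓ f n₀ m).toAddMonoidHom (s27g_G ℓ f n₀ (m + 1))
    (s27g_G ℓ f n₀ m) (s27g_K ℓ f n₀ m) (fun x hx => s27g_nu_mem f n₀ m hx)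
    (fun y hy => s27g_nu_surj H hn₀ m hy) (fun x => by
      unfold s27g_K
      rw [AddSubgroup.mem_inf, AddMonoidHom.mem_ker])
  rw [s27g_card_G H hn₀ hB₀, s27g_card_G H hn₀ hB₀] at h1
  have h2 : ℓ ^ (padicValNat ℓ (1 - M ^ n₀).det.natAbs + d * (m + 1)) =
      ℓ ^ d * ℓ ^ (padicValNat ℓ (1 - M ^ n₀).det.natAbs + d * m) := by
    rw [← pow_add]
    congr 1
    ring
  rw [h2] at h1
  exact Nat.eq_of_mul_eq_mul_right (pow_pos hℓ.out.pos _) h1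

/-- the `ℓ`-torsion inside `G_m` is killed by the norm. -/
theorem s27g_tor_inf_G_le_K (f : Module.End ℤ T) (n₀ m : ℕ) :
    s27g_tor ℓ T ⊓ s27g_G ℓ f n₀ m ≤ s27g_K ℓ f n₀ m := by
  intro x hx
  obtain ⟨hx1, hx2⟩ := AddSubgroup.mem_inf.mp hx
  refine AddSubgroup.mem_inf.mpr ⟨s27g_G_mono f n₀ (Nat.le_succ m) hx2, ?_⟩
  rw [AddMonoidHom.mem_ker]
  show s27g_nu ℓ f n₀ m x = 0
  rw [s27g_nu_apply_of_fix f n₀ m (AddSubgroup.mem_inf.mp hx2).2]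
  exact hx1

/-- **the `ℓ`-torsion is finite, of order at most `ℓ ^ d`.** -/
theorem s27g_tor_finite (H : s27g_Hyp ℓ M f) (hn₀ : 0 < n₀)
    (hB₀ : M ^ n₀ = 1 + ((ℓ : ℤ) ^ 2) • B₀) : Finite ↥(s27g_tor ℓ T) := by
  classical
  by_contra hinf
  rw [not_finite_iff_infinite] at hinf
  have hinf' : (s27g_tor ℓ T : Set T).Infinite := Set.infinite_coe_iff.mp hinf
  obtain ⟨S, hS, hcard⟩ := hinf'.exists_subset_card_eq (ℓ ^ d + 1)
  have hS' : ∀ x ∈ S, x ∈ s27g_prim ℓ T := fun x hx =>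
    s27g_tor_le_prim ℓ 1 (by simpa using hS hx)
  obtain ⟨m, hm⟩ := s27g_exists_subset_G H hn₀ hB₀ S hS'
  have hK : Finite ↥(s27g_K ℓ f n₀ m) :=
    Nat.finite_of_card_ne_zero (by rw [s27g_card_K H hn₀ hB₀]; exact (pow_pos hℓ.out.pos d).ne')
  have hsub : (S : Set T) ⊆ (s27g_K ℓ f n₀ m : Set T) := fun x hx =>
    s27g_tor_inf_G_le_K f n₀ m (AddSubgroup.mem_inf.mpr ⟨hS hx, hm x hx⟩)
  have h1 := Set.ncard_le_ncard hsub (Set.toFinite _)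
  rw [Set.ncard_coe_finset, hcard, ← Nat.card_coe_set_eq] at h1
  have h2 : Nat.card ↥(s27g_K ℓ f n₀ m : Set T) = ℓ ^ d := s27g_card_K H hn₀ hB₀ m
  omega

theorem s27g_tor_le_prim' : s27g_tor ℓ T ≤ s27g_prim ℓ T := fun x hx =>
  ⟨1, by rw [pow_one]; exact hx⟩

/-- the `ℓ²`-torsion is finite. -/
theorem s27g_tor_sq_finite (H : s27g_Hyp ℓ M f) (hn₀ : 0 < n₀)
    (hB₀ : M ^ n₀ = 1 + ((ℓ : ℤ) ^ 2) • B₀) : Finite ↥(s27g_tor (ℓ ^ 2) T) := by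
  have hV := s27g_tor_finite H hn₀ hB₀
  have h1 := s27g_card_ker_mul_card_map (s27g_mulBy ℓ T) (s27g_tor (ℓ ^ 2) T)
  have hker : (s27g_tor (ℓ ^ 2) T ⊓ (s27g_mulBy ℓ T).ker) ≤ s27g_tor ℓ T := fun x hx => by
    have := (AddSubgroup.mem_inf.mp hx).2
    rwa [AddMonoidHom.mem_ker, s27g_mulBy_apply] at this
  have hmap : (s27g_tor (ℓ ^ 2) T).map (s27g_mulBy ℓ T) ≤ s27g_tor ℓ T := by
    rintro y ⟨x, hx, rfl⟩
    show ℓ • (ℓ • x) = 0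
    rw [← mul_smul, ← sq]
    exact hx
  have hf1 : Finite ↥(s27g_tor (ℓ ^ 2) T ⊓ (s27g_mulBy ℓ T).ker) :=
    Finite.of_injective (AddSubgroup.inclusion hker) (AddSubgroup.inclusion_injective _)
  have hf2 : Finite ↥((s27g_tor (ℓ ^ 2) T).map (s27g_mulBy ℓ T)) :=
    Finite.of_injective (AddSubgroup.inclusion hmap) (AddSubgroup.inclusion_injective _)
  refine Nat.finite_of_card_ne_zero ?_
  rw [← h1]
  exact mul_ne_zero Nat.card_pos.ne' Nat.card_pos.ne'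

/-- **`ℓ · G_(m+1) ⊆ G_m`** as soon as `G_m` contains the `ℓ²`-torsion. -/
theorem s27g_smul_mem_G (f : Module.End ℤ T) (n₀ m : ℕ)
    (hW : s27g_tor (ℓ ^ 2) T ≤ s27g_G ℓ f n₀ m) {y : T} (hy : y ∈ s27g_G ℓ f n₀ (m + 1)) :
    ℓ • y ∈ s27g_G ℓ f n₀ m := by
  obtain ⟨hy1, hy2⟩ := AddSubgroup.mem_inf.mp hy
  set X : Module.End ℤ T := f ^ s27g_lev ℓ n₀ m with hX
  set u : T := X y - y with hu
  have hu_prim : u ∈ s27g_prim ℓ T := sub_mem (s27g_end_mem_prim X hy1) hy1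
  have hνu : s27g_nu ℓ f n₀ m u = 0 := by
    have h1 := congrArg (fun g : Module.End ℤ T => g y) (s27g_nu_mul (ℓ := ℓ) f n₀ m)
    simp only [Module.End.mul_apply, LinearMap.sub_apply, Module.End.one_apply] at h1
    have h2 : (f ^ s27g_lev ℓ n₀ (m + 1)) y = y := hy2
    rw [h2, sub_self] at h1
    exact h1
  -- `ℓ u = 0`
  have hℓu : ℓ • u = 0 := by
    classical
    have hex : ∃ e : ℕ, ℓ ^ e • u = 0 := hu_prim
    set e := Nat.find hex with he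
    have hee : ℓ ^ e • u = 0 := Nat.find_spec hex
    have hmin : ∀ e' < e, ¬ ℓ ^ e' • u = 0 := fun e' h => Nat.find_min hex h
    rcases Nat.lt_or_ge e 2 with h2 | h2
    · interval_cases e
      · rw [pow_zero, one_smul] at hee
        rw [hee, smul_zero]
      · rwa [pow_one] at hee
    · exfalso
      set u' : T := ℓ ^ (e - 2) • u with hu'
      have hu'W : u' ∈ s27g_tor (ℓ ^ 2) T := by
        show ℓ ^ 2 • u' = 0
        rw [hu', ← mul_smul, ← pow_add]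
        have : 2 + (e - 2) = e := by omega
        rw [this]
        exact hee
      have hu'G := hW hu'W
      have h3 : s27g_nu ℓ f n₀ m u' = ℓ • u' :=
        s27g_nu_apply_of_fix f n₀ m (AddSubgroup.mem_inf.mp hu'G).2
      have h4 : s27g_nu ℓ f n₀ m u' = 0 := by
        rw [hu', map_nsmul, hνu, smul_zero]
      rw [h4] at h3
      have h5 : ℓ ^ (e - 1) • u = 0 := by
        have : ℓ ^ (e - 1) = ℓ * ℓ ^ (e - 2) := by
          rw [← pow_succ']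
          congr 1
          omega
        rw [this, mul_smul]
        exact h3.symm
      exact hmin (e - 1) (by omega) h5
  refine AddSubgroup.mem_inf.mpr ⟨(s27g_prim ℓ T).nsmul_mem hy1 ℓ, ?_⟩
  rw [s27g_mem_fix]
  show X (ℓ • y) = ℓ • y
  have h6 : X y = u + y := by rw [hu]; abel
  rw [map_nsmul, h6, smul_add, hℓu, zero_add]

/-- **the step**: once `G_m` contains the `ℓ²`-torsion, `ℓ · G_(m+1) = G_m` and the `ℓ`-torsion
has exactly `ℓ ^ d` elements. -/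
theorem s27g_step (H : s27g_Hyp ℓ M f) (hn₀ : 0 < n₀)
    (hB₀ : M ^ n₀ = 1 + ((ℓ : ℤ) ^ 2) • B₀) (m : ℕ)
    (hV : s27g_tor ℓ T ≤ s27g_G ℓ f n₀ m) (hW : s27g_tor (ℓ ^ 2) T ≤ s27g_G ℓ f n₀ m) :
    Nat.card ↥(s27g_tor ℓ T) = ℓ ^ d ∧
      (s27g_G ℓ f n₀ (m + 1)).map (s27g_mulBy ℓ T) = s27g_G ℓ f n₀ m := by
  have h1 := s27g_card_ker_mul_card_map (s27g_mulBy ℓ T) (s27g_G ℓ f n₀ (m + 1))
  have hker : s27g_G ℓ f n₀ (m + 1) ⊓ (s27g_mulBy ℓ T).ker = s27g_tor ℓ T := by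
    ext x
    rw [AddSubgroup.mem_inf, AddMonoidHom.mem_ker, s27g_mulBy_apply]
    constructor
    · rintro ⟨-, h⟩
      exact h
    · intro h
      exact ⟨s27g_G_mono f n₀ (Nat.le_succ m) (hV h), h⟩
  have hmap_le : (s27g_G ℓ f n₀ (m + 1)).map (s27g_mulBy ℓ T) ≤ s27g_G ℓ f n₀ m := by
    rintro z ⟨y, hy, rfl⟩
    exact s27g_smul_mem_G f n₀ m hW hy
  have hGfin := s27g_G_finite H hn₀ m
  have hKfin : Finite ↥(s27g_K ℓ f n₀ m) :=
    Nat.finite_of_card_ne_zero (by rw [s27g_card_K H hn₀ hB₀]; exact (pow_pos hℓ.out.pos d).ne')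
  have hVK : s27g_tor ℓ T ≤ s27g_K ℓ f n₀ m := fun x hx =>
    s27g_tor_inf_G_le_K f n₀ m (AddSubgroup.mem_inf.mpr ⟨hx, hV hx⟩)
  have ha : Nat.card ↥(s27g_tor ℓ T) ≤ ℓ ^ d := by
    rw [← s27g_card_K H hn₀ hB₀ m]
    exact AddSubgroup.card_le_of_le hVK
  have hb : Nat.card ↥((s27g_G ℓ f n₀ (m + 1)).map (s27g_mulBy ℓ T)) ≤
      ℓ ^ (padicValNat ℓ (1 - M ^ n₀).det.natAbs + d * m) := by
    rw [← s27g_card_G H hn₀ hB₀ m]
    exact AddSubgroup.card_le_of_le hmap_le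
  rw [hker, s27g_card_G H hn₀ hB₀] at h1
  have h2 : ℓ ^ (padicValNat ℓ (1 - M ^ n₀).det.natAbs + d * (m + 1)) =
      ℓ ^ d * ℓ ^ (padicValNat ℓ (1 - M ^ n₀).det.natAbs + d * m) := by
    rw [← pow_add]
    congr 1
    ring
  rw [h2] at h1
  have hBpos : 0 < ℓ ^ (padicValNat ℓ (1 - M ^ n₀).det.natAbs + d * m) := pow_pos hℓ.out.pos _
  have hApos : 0 < ℓ ^ d := pow_pos hℓ.out.pos _
  have haeq : Nat.card ↥(s27g_tor ℓ T) = ℓ ^ d := by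
    rcases lt_or_eq_of_le ha with hlt | heq
    · exfalso
      have h3 : Nat.card ↥(s27g_tor ℓ T) *
          Nat.card ↥((s27g_G ℓ f n₀ (m + 1)).map (s27g_mulBy ℓ T)) <
          ℓ ^ d * ℓ ^ (padicValNat ℓ (1 - M ^ n₀).det.natAbs + d * m) :=
        calc _ ≤ Nat.card ↥(s27g_tor ℓ T) *
              ℓ ^ (padicValNat ℓ (1 - M ^ n₀).det.natAbs + d * m) := Nat.mul_le_mul_left _ hb
          _ < _ := Nat.mul_lt_mul_of_pos_right hlt hBpos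
      omega
    · exact heq
  refine ⟨haeq, ?_⟩
  rw [haeq] at h1
  have hbeq := Nat.eq_of_mul_eq_mul_left hApos h1
  refine AddSubgroup.eq_of_le_of_card_ge hmap_le ?_
  rw [hbeq, s27g_card_G H hn₀ hB₀]

/-- **THEOREM G** (endomorphism form). -/
theorem s27g_card_tor (H : s27g_Hyp ℓ M f) (hM : ¬ (ℓ : ℤ) ∣ M.det) (e : ℕ) :
    Nat.card ↥(s27g_tor (ℓ ^ e) T) = ℓ ^ (d * e) := by
  obtain ⟨n₀, hn₀, B₀, hB₀⟩ := s27g_exists_pow_eq ℓ M hM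
  have hVfin := s27g_tor_finite H hn₀ hB₀
  have hWfin := s27g_tor_sq_finite H hn₀ hB₀
  obtain ⟨m₁, hm₁⟩ := s27g_exists_le_G H hn₀ hB₀ (s27g_tor ℓ T) s27g_tor_le_prim'
  obtain ⟨m₂, hm₂⟩ := s27g_exists_le_G H hn₀ hB₀ (s27g_tor (ℓ ^ 2) T) (s27g_tor_le_prim ℓ 2)
  set m₀ := max m₁ m₂ with hm₀
  have hV : ∀ m, m₀ ≤ m → s27g_tor ℓ T ≤ s27g_G ℓ f n₀ m := fun m hm =>
    hm₁.trans (s27g_G_mono f n₀ ((le_max_left m₁ m₂).trans hm))
  have hW : ∀ m, m₀ ≤ m → s27g_tor (ℓ ^ 2) T ≤ s27g_G ℓ f n₀ m := fun m hm =>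
    hm₂.trans (s27g_G_mono f n₀ ((le_max_right m₁ m₂).trans hm))
  have hcardV : Nat.card ↥(s27g_tor ℓ T) = ℓ ^ d :=
    (s27g_step H hn₀ hB₀ m₀ (hV m₀ le_rfl) (hW m₀ le_rfl)).1
  -- divisibility of the primary part
  have hdiv : ∀ y ∈ s27g_prim ℓ T, ∃ z ∈ s27g_prim ℓ T, ℓ • z = y := by
    intro y hy
    obtain ⟨m, hm⟩ := s27g_exists_mem_G H hn₀ hB₀ hy
    have hm' : y ∈ s27g_G ℓ f n₀ (max m m₀) := s27g_G_mono f n₀ (le_max_left m m₀) hm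
    have hstep := (s27g_step H hn₀ hB₀ (max m m₀) (hV _ (le_max_right m m₀))
      (hW _ (le_max_right m m₀))).2
    rw [← hstep] at hm'
    obtain ⟨z, hz, hzy⟩ := hm'
    exact ⟨z, (AddSubgroup.mem_inf.mp hz).1, hzy⟩
  induction e with
  | zero =>
    have : s27g_tor (ℓ ^ 0) T = ⊥ := by
      ext x
      rw [s27g_mem_tor, pow_zero, one_smul, AddSubgroup.mem_bot]
    rw [this, mul_zero, pow_zero]
    exact AddSubgroup.card_bot
  | succ e ih =>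
    have h1 := s27g_card_of_surj (s27g_mulBy ℓ T) (s27g_tor (ℓ ^ (e + 1)) T)
      (s27g_tor (ℓ ^ e) T) (s27g_tor ℓ T)
      (fun x hx => by
        show ℓ ^ e • (ℓ • x) = 0
        rw [← mul_smul, ← pow_succ]
        exact hx)
      (fun y hy => by
        obtain ⟨z, -, hz⟩ := hdiv y (s27g_tor_le_prim ℓ e hy)
        refine ⟨z, ?_, hz⟩
        show ℓ ^ (e + 1) • z = 0
        rw [pow_succ, mul_smul, hz]
        exact hy)
      (fun x => by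
        rw [s27g_mem_tor, s27g_mem_tor, s27g_mulBy_apply]
        constructor
        · intro h
          refine ⟨?_, h⟩
          rw [pow_succ, mul_smul, h, smul_zero]
        · exact fun h => h.2)
    rw [← h1, hcardV, ih, ← pow_add]
    congr 1
    ring

end

/-- **THEOREM G** (iterate form, for a homomorphism `φ : T →+ T`). -/
theorem s27g_card_torsion (ℓ : ℕ) [Fact ℓ.Prime] (M : Matrix (Fin d) (Fin d) ℤ)
    (hM : ¬ (ℓ : ℤ) ∣ M.det) (φ : T →+ T)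
    (hper : ∀ x : T, ∃ n : ℕ, 0 < n ∧ (⇑φ)^[n] x = x)
    (hfin : ∀ n : ℕ, 0 < n → {x : T | (⇑φ)^[n] x = x}.Finite)
    (hcard : ∀ n : ℕ, 0 < n → {x : T | (⇑φ)^[n] x = x}.ncard = (1 - M ^ n).det.natAbs)
    (hnorm : ∀ n : ℕ, 0 < n → ∀ x : T, (⇑φ)^[n] x = x →
      ∃ y : T, (⇑φ)^[n * ℓ] y = y ∧ ∑ j ∈ range ℓ, (⇑φ)^[n * j] y = x)
    (e : ℕ) : Nat.card {x : T // ℓ ^ e • x = 0} = ℓ ^ (d * e) := by
  set f : Module.End ℤ T := φ.toIntLinearMap with hf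
  have hfpow : ∀ (n : ℕ) (x : T), (f ^ n) x = (⇑φ)^[n] x := by
    intro n x
    rw [Module.End.pow_apply]
    rfl
  have hfix : ∀ n : ℕ, (s27g_fix (f ^ n) : Set T) = {x : T | (⇑φ)^[n] x = x} := by
    intro n
    ext x
    show (f ^ n) x = x ↔ _
    rw [hfpow]
    rfl
  have H : s27g_Hyp ℓ M f := by
    refine ⟨?_, ?_, ?_, ?_⟩
    · intro x
      obtain ⟨n, hn, hx⟩ := hper x
      exact ⟨n, hn, by rw [hfpow]; exact hx⟩
    · intro n hn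
      have := hfin n hn
      rw [← hfix] at this
      exact this
    · intro n hn
      rw [← hcard n hn, ← hfix]
      exact Nat.card_coe_set_eq (s27g_fix (f ^ n) : Set T)
    · intro n hn x hx
      have hx' : (⇑φ)^[n] x = x := by rw [← hfpow]; exact hx
      obtain ⟨y, hy, hyx⟩ := hnorm n hn x hx'
      refine ⟨y, by show (f ^ (n * ℓ)) y = y; rw [hfpow]; exact hy, ?_⟩
      rw [LinearMap.sum_apply, ← hyx]
      refine Finset.sum_congr rfl fun j _ => ?_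
      rw [← pow_mul, hfpow]
  exact s27g_card_tor H hM e

end Fermat.Agent.Lib.S27
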