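/-
Programme Z (S27), ARITHMETIC HALF, brick [ZASM-b1] (helper7): the abstract machine.

`s27g_dynCount : s27_DynCount'` — for an abstract curve `X : s27_Dyn Pt Cl` with at least one point
and a prime `ℓ ∤ q`, the group of classes of degree zero has exactly `ℓ ^ (2 g e)` elements killed
by `ℓ ^ e`.  (The contract `s27_DynCount` of `ZIface.lean` forgot the point: `Pt = ∅`, `Cl = 0`,
`g = 1` is a legal structure.)  Proof: pass to the power `X.pow n₁` over which the point is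
rational; `h_n = det (1 - M ^ n)` ([ZM]), the first inequality ([FI]) and Theorem G.
-/
import Fermat.Agent.Lib.S27.GMain
import Fermat.Agent.Lib.S27.GFI4
import Fermat.Agent.Lib.S27.EZM

set_option autoImplicit false

noncomputable section

namespace Fermat.Agent.Lib.S27

open Finset Function

universe u v

/-- **CONTRACT [G]+[EP]+[ZR]+[ZM]+[FI] (abstract machine), corrected.** -/
def s27_DynCount' : Prop :=
  ∀ (Pt : Type u) (Cl : Type v) [AddCommGroup Cl] (X : s27_Dyn Pt Cl) (P₀ : Pt) (ℓ : ℕ)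
    [Fact ℓ.Prime] (hℓ : ¬ ℓ ∣ X.q) (e : ℕ),
    Nat.card {x : ↥X.cl0 // ℓ ^ e • x = 0} = ℓ ^ (2 * X.g * e)

variable {Pt : Type u} {Cl : Type v} [AddCommGroup Cl]

section Machine

variable (X : s27_Dyn Pt Cl)

/-- every class is fixed by a power of Frobenius. -/
theorem s27g_cls_periodic (C : Cl) : ∃ n : ℕ, 0 < n ∧ (⇑X.Θ)^[n] C = C := by
  let Per : AddSubgroup Cl :=
    { carrier := {C | ∃ n : ℕ, 0 < n ∧ (⇑X.Θ)^[n] C = C}
      zero_mem' := ⟨1, one_pos, s27g_iter_zero X.Θ 1⟩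
      add_mem' := by
        rintro a b ⟨n, hn, ha⟩ ⟨m, hm, hb⟩
        refine ⟨m * n, Nat.mul_pos hm hn, ?_⟩
        rw [s27g_iter_add, s27g_iter_mul_period X.Θ ha m, mul_comm,
          s27g_iter_mul_period X.Θ hb n]
      neg_mem' := by
        rintro a ⟨n, hn, ha⟩
        exact ⟨n, hn, by rw [s27g_iter_neg, ha]⟩ }
  obtain ⟨D, rfl⟩ := X.cls_surj C
  have hD : X.cls D ∈ Per := by
    rw [← Finsupp.sum_single D, Finsupp.sum, map_sum]
    refine AddSubgroup.sum_mem _ fun P _ => ?_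
    obtain ⟨n, hn, hP⟩ := X.per P
    exact ⟨n, hn, by rw [← X.cls_map_pow, Finsupp.mapDomain_single, hP]⟩
  exact hD

/-- Frobenius on the classes of degree zero. -/
def s27g_phi : ↥X.cl0 →+ ↥X.cl0 :=
  (X.Θ.toAddMonoidHom.comp X.cl0.subtype).codRestrict X.cl0 (fun x => by
    show X.deg (X.Θ (x : Cl)) = 0
    rw [s27g_deg_map]
    exact x.2)

theorem s27g_phi_coe (x : ↥X.cl0) : ((s27g_phi X x : ↥X.cl0) : Cl) = X.Θ (x : Cl) := rfl

theorem s27g_phi_iter_coe (n : ℕ) (x : ↥X.cl0) :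
    (((⇑(s27g_phi X))^[n] x : ↥X.cl0) : Cl) = (⇑X.Θ)^[n] (x : Cl) := by
  induction n with
  | zero => rfl
  | succ n ih =>
    rw [Function.iterate_succ_apply', Function.iterate_succ_apply', s27g_phi_coe, ih]

/-- the fixed points of `φ ^ n` are the classes of degree zero fixed by `Θ ^ n`. -/
def s27g_fixEquiv (n : ℕ) :
    ↥{x : ↥X.cl0 | (⇑(s27g_phi X))^[n] x = x} ≃ ↥(X.fix0 n) where
  toFun x := ⟨(x.1 : Cl), ⟨x.1.2, by
    have := congrArg (fun y : ↥X.cl0 => (y : Cl)) x.2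
    simpa only [s27g_phi_iter_coe] using this⟩⟩
  invFun C := ⟨⟨C.1, C.2.1⟩, by
    apply Subtype.ext
    rw [s27g_phi_iter_coe]
    exact C.2.2⟩
  left_inv x := rfl
  right_inv C := rfl

end Machine

/-- the count for a curve with a rational point. -/
theorem s27g_dynCount_fixed (X : s27_Dyn Pt Cl) (P₁ : Pt) (hP₁ : X.θ P₁ = P₁) (ℓ : ℕ)
    [hℓfact : Fact ℓ.Prime] (hℓ : ¬ ℓ ∣ X.q) (e : ℕ) :
    Nat.card {x : ↥X.cl0 // ℓ ^ e • x = 0} = ℓ ^ (2 * X.g * e) := by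
  have hℓp : ℓ.Prime := hℓfact.out
  obtain ⟨M, hdet, hM⟩ := s27e_ZM s27z_ZR Pt Cl X P₁ hP₁
  have hMdet : ¬ (ℓ : ℤ) ∣ M.det := by
    intro h
    have h2 : (ℓ : ℤ) ∣ ((X.q ^ X.g : ℕ) : ℤ) := by
      rcases hdet with h1 | h1
      · rw [h1] at h
        exact_mod_cast h
      · rw [h1, dvd_neg] at h
        exact_mod_cast h
    exact hℓ (hℓp.dvd_of_dvd_pow (Int.natCast_dvd_natCast.mp h2))
  refine s27g_card_torsion ℓ M hMdet (s27g_phi X) ?_ ?_ ?_ ?_ e
  · -- periodicity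
    intro x
    obtain ⟨n, hn, hx⟩ := s27g_cls_periodic X (x : Cl)
    exact ⟨n, hn, Subtype.ext (by rw [s27g_phi_iter_coe, hx])⟩
  · -- finiteness
    intro n hn
    have hfin := (hM n hn).1
    have : Finite ↥{x : ↥X.cl0 | (⇑(s27g_phi X))^[n] x = x} :=
      Finite.of_equiv _ (s27g_fixEquiv X n).symm
    exact Set.toFinite _
  · -- cardinality
    intro n hn
    have h1 := (hM n hn).2
    rw [← Nat.card_coe_set_eq, Nat.card_congr (s27g_fixEquiv X n)]
    have h2 : ((Nat.card ↥(X.fix0 n) : ℤ)).natAbs = ((1 : Matrix _ _ ℤ) - M ^ n).det.natAbs := by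
      rw [h1]
    rw [← h2, Int.natAbs_natCast]
  · -- norms
    intro n hn x hx
    have hfix : (X.pow n hn).θ P₁ = P₁ := s27e_pow_fix X.θ hP₁ n
    have hxmem : (x : Cl) ∈ (X.pow n hn).fix0 1 := by
      rw [s27e_fix0_pow]
      refine ⟨x.2, ?_⟩
      have := congrArg (fun y : ↥X.cl0 => (y : Cl)) hx
      simpa only [s27g_phi_iter_coe] using this
    obtain ⟨C', hC', hsum⟩ := s27g_FI Pt Cl (X.pow n hn) P₁ hfix ℓ (x : Cl) hxmem
    have hΘ : (⇑(X.pow n hn).Θ) = (⇑X.Θ)^[n] := by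
      funext c
      exact s27_addEquivPow_apply X.Θ n c
    rw [hΘ] at hsum
    obtain ⟨hdeg, hfixC'⟩ := hC'
    rw [hΘ, ← Function.iterate_mul] at hfixC'
    refine ⟨⟨C', hdeg⟩, Subtype.ext ?_, Subtype.ext ?_⟩
    · rw [s27g_phi_iter_coe]
      exact hfixC'
    · rw [AddSubmonoidClass.coe_finsetSum]
      simp only [s27g_phi_iter_coe]
      rw [← hsum]
      refine Finset.sum_congr rfl fun j _ => ?_
      rw [← Function.iterate_mul]

/-- **CONTRACT `s27_DynCount'` discharged.** -/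
theorem s27g_dynCount : s27_DynCount'.{u, v} := by
  intro Pt Cl _ X P₀ ℓ hℓfact hℓ e
  obtain ⟨n₁, hn₁, hP₀⟩ := X.per P₀
  have hq : ¬ ℓ ∣ (X.pow n₁ hn₁).q := fun h => hℓ (hℓfact.out.dvd_of_dvd_pow h)
  exact s27g_dynCount_fixed (X.pow n₁ hn₁) P₀ hP₀ ℓ hq e

end Fermat.Agent.Lib.S27
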