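/-
Programme Z (S27), brick [ZASM-a] (helper6, prefix `s27w_`), part 1: the push-forward of divisors
along a permutation `θ` of the places compatible with a ring automorphism `φ`
(`(θ P).ord (φ y) = P.ord y`): principal divisors, Riemann–Roch spaces, degrees.
-/
import Fermat.Agent.Lib.S27.ZIface2
import Fermat.Agent.Lib.S19.NNonSp
import Fermat.Agent.Lib.S44.RRiemIneq

set_option autoImplicit false

noncomputable section

namespace Fermat.Agent.Lib.S27

open AlgebraicCurve Fermat.Agent.Lib.FF Fermat.Agent.Lib.S19 Fermat.Agent.Lib.S44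

universe u v

variable {k : Type u} {Fb : Type v} [Field k] [Field Fb] [Algebra k Fb]

/-- the push-forward of divisors, as an additive automorphism. -/
def s27w_push (θ : Equiv.Perm (Place k Fb)) : Divisor k Fb ≃+ Divisor k Fb :=
  Finsupp.domCongr θ

theorem s27w_push_eq (θ : Equiv.Perm (Place k Fb)) (D : Divisor k Fb) :
    s27w_push θ D = Finsupp.mapDomain (⇑θ) D := by
  unfold s27w_push
  rw [Finsupp.domCongr_apply, Finsupp.equivMapDomain_eq_mapDomain]

theorem s27w_push_apply (θ : Equiv.Perm (Place k Fb)) (D : Divisor k Fb) (v : Place k Fb) :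
    s27w_push θ D (θ v) = D v := by
  rw [s27w_push_eq, Finsupp.mapDomain_apply θ.injective]

theorem s27w_push_symm_apply (θ : Equiv.Perm (Place k Fb)) (D : Divisor k Fb) (v : Place k Fb) :
    (s27w_push θ).symm D v = D (θ v) := by
  have h := s27w_push_apply θ ((s27w_push θ).symm D) v
  rw [AddEquiv.apply_symm_apply] at h
  exact h.symm

section Compat

variable (φ : Fb ≃+* Fb) (θ : Equiv.Perm (Place k Fb))
  (hord : ∀ (P : Place k Fb) (y : Fb), (θ P).ord (φ y) = P.ord y)

include hord in
theorem s27w_ord_symm (v : Place k Fb) (y : Fb) : v.ord (φ.symm y) = (θ v).ord y := by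
  have := hord v (φ.symm y)
  rw [φ.apply_symm_apply] at this
  exact this.symm

include hord in
/-- `θ_* div y = div (φ y)`. -/
theorem s27w_push_principal {D : Divisor k Fb}
    (hD : D ∈ Divisor.principal (K := k) (F := Fb)) :
    s27w_push θ D ∈ Divisor.principal (K := k) (F := Fb) := by
  obtain ⟨y, hy, hDy⟩ := hD
  refine ⟨φ y, (map_ne_zero_iff φ φ.injective).mpr hy, fun v => ?_⟩
  obtain ⟨w, rfl⟩ := θ.surjective v
  rw [s27w_push_apply, hDy w, hord]

include hord in
theorem s27w_pull_principal {D : Divisor k Fb}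
    (hD : D ∈ Divisor.principal (K := k) (F := Fb)) :
    (s27w_push θ).symm D ∈ Divisor.principal (K := k) (F := Fb) := by
  obtain ⟨y, hy, hDy⟩ := hD
  refine ⟨φ.symm y, (map_ne_zero_iff φ.symm φ.symm.injective).mpr hy, fun v => ?_⟩
  rw [s27w_push_symm_apply, hDy, s27w_ord_symm φ θ hord]

include hord in
theorem s27w_map_principal :
    (Divisor.principal (K := k) (F := Fb)).map
      ((s27w_push θ : Divisor k Fb ≃+ Divisor k Fb) : Divisor k Fb →+ Divisor k Fb) =
      Divisor.principal (K := k) (F := Fb) := by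
  ext D
  rw [AddSubgroup.mem_map]
  constructor
  · rintro ⟨E, hE, rfl⟩
    exact s27w_push_principal φ θ hord hE
  · intro hD
    exact ⟨(s27w_push θ).symm D, s27w_pull_principal φ θ hord hD,
      (s27w_push θ).apply_symm_apply D⟩

include hord in
theorem s27w_mem_L_push {D : Divisor k Fb} {y : Fb} (hy : y ∈ riemannRochSpace D) :
    φ y ∈ riemannRochSpace (s27w_push θ D) := by
  rw [mem_riemannRochSpace_iff] at hy ⊢
  intro v
  obtain ⟨w, rfl⟩ := θ.surjective v
  rcases hy w with h | h
  · left
    rw [h, map_zero]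
  · right
    rw [s27w_push_apply, hord]
    exact h

include hord in
theorem s27w_mem_L_pull {D : Divisor k Fb} {z : Fb}
    (hz : z ∈ riemannRochSpace (s27w_push θ D)) : φ.symm z ∈ riemannRochSpace D := by
  rw [mem_riemannRochSpace_iff] at hz ⊢
  intro w
  rcases hz (θ w) with h | h
  · left
    rw [h, map_zero]
  · right
    rw [s27w_push_apply] at h
    rw [s27w_ord_symm φ θ hord]
    exact h

include hord in
/-- **`ℓ(θ_* D) = ℓ(D)`** (`φ` is semilinear over a bijection `σ` of `k`). -/
theorem s27w_finrank_push (σ : k → k) (hσ : Function.Bijective σ)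
    (hφσ : ∀ c : k, φ (algebraMap k Fb c) = algebraMap k Fb (σ c)) (D : Divisor k Fb) :
    Module.finrank k ↥(riemannRochSpace (s27w_push θ D)) =
      Module.finrank k ↥(riemannRochSpace D) := by
  let j : ↥(riemannRochSpace D) ≃+ ↥(riemannRochSpace (s27w_push θ D)) :=
    { toFun := fun y => ⟨φ y, s27w_mem_L_push φ θ hord y.2⟩
      invFun := fun z => ⟨φ.symm z, s27w_mem_L_pull φ θ hord z.2⟩
      left_inv := fun y => Subtype.ext (φ.symm_apply_apply y)
      right_inv := fun z => Subtype.ext (φ.apply_symm_apply z)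
      map_add' := fun y z => Subtype.ext (map_add φ (y : Fb) (z : Fb)) }
  have hrank := rank_eq_of_equiv_equiv σ j hσ (fun c y => Subtype.ext (by
    show φ ((c • y : ↥(riemannRochSpace D)) : Fb) = σ c • φ (y : Fb)
    rw [Submodule.coe_smul, Algebra.smul_def, map_mul, hφσ, Algebra.smul_def]))
  unfold Module.finrank
  rw [hrank]

end Compat

/-! ### linear equivalence -/

theorem s27w_mk_eq_mk_iff {D E : Divisor k Fb} :
    (QuotientAddGroup.mk D : Pic k Fb) = QuotientAddGroup.mk E ↔
      D - E ∈ Divisor.principal (K := k) (F := Fb) := by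
  rw [QuotientAddGroup.eq]
  have h : D - E = -(-D + E) := by abel
  rw [h, neg_mem_iff]

/-- `ℓ` is constant on classes. -/
theorem s27w_finrank_L_congr {D E : Divisor k Fb}
    (h : D - E ∈ Divisor.principal (K := k) (F := Fb)) :
    Module.finrank k ↥(riemannRochSpace D) = Module.finrank k ↥(riemannRochSpace E) := by
  obtain ⟨z, hz, hDz⟩ := h
  have := s44rm_finrank_L_add_principal hz hDz (D := E)
  rwa [add_sub_cancel] at this

/-- all places of degree one: the degree is the sum of the coefficients. -/
theorem s27w_degree_eq_sum' (hdeg : ∀ Q : Place k Fb, Q.deg = 1) (D : Divisor k Fb) :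
    Divisor.degree D = D.sum fun _ n => n :=
  s19n_degree_eq hdeg D

theorem s27w_degree_push (hdeg : ∀ Q : Place k Fb, Q.deg = 1) (θ : Equiv.Perm (Place k Fb))
    (D : Divisor k Fb) : Divisor.degree (s27w_push θ D) = Divisor.degree D := by
  rw [s27w_degree_eq_sum' hdeg, s27w_degree_eq_sum' hdeg, s27w_push_eq,
    Finsupp.sum_mapDomain_index (fun _ => rfl) (fun _ _ _ => rfl)]

end Fermat.Agent.Lib.S27
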