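/-
Programme Z (S27), brick [DUAL] (helper6, prefix `s27w_`), part 1: the repartition (adele) space:
multiplication by functions, `A(D₁) + A(D₂) = A(D₁ ⊔ D₂)`, degrees of effective divisors.
-/
import Fermat.Agent.Lib.S44.RRiemFull

set_option autoImplicit false

noncomputable section

namespace Fermat.Agent.Lib.S27

open AlgebraicCurve WithZero Fermat.Agent.Lib.S44

variable {K F : Type*} [Field K] [Field F] [Algebra K F]

/-- multiplication by `x ∈ F` on the repartition space, as a `K`-linear map. -/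
def s27w_mul (x : F) : ↥(repartitions K F) →ₗ[K] ↥(repartitions K F) :=
  (LinearMap.lsmul F ↥(repartitions K F) x).restrictScalars K

theorem s27w_mul_apply (x : F) (α : ↥(repartitions K F)) : s27w_mul (K := K) x α = x • α := rfl

theorem s27w_mul_one : s27w_mul (K := K) (F := F) 1 = LinearMap.id := by
  ext α : 1
  rw [s27w_mul_apply, one_smul, LinearMap.id_apply]

theorem s27w_mul_mul (x y : F) :
    s27w_mul (K := K) (x * y) = (s27w_mul x).comp (s27w_mul y) := by
  ext α : 1
  rw [LinearMap.comp_apply, s27w_mul_apply, s27w_mul_apply, s27w_mul_apply, mul_smul]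

theorem s27w_mul_add (x y : F) :
    s27w_mul (K := K) (x + y) = s27w_mul x + s27w_mul y := by
  ext α : 1
  rw [LinearMap.add_apply, s27w_mul_apply, s27w_mul_apply, s27w_mul_apply, add_smul]

theorem s27w_mul_smul (c : K) (x : F) :
    s27w_mul (K := K) (c • x) = c • s27w_mul x := by
  ext α : 1
  rw [LinearMap.smul_apply, s27w_mul_apply, s27w_mul_apply, smul_assoc]

theorem s27w_mul_zero : s27w_mul (K := K) (F := F) 0 = 0 := by
  ext α : 1
  rw [s27w_mul_apply, zero_smul, LinearMap.zero_apply]

/-! ### `A(D₁) + A(D₂) = A(D₁ ⊔ D₂)` -/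

theorem s27w_repartitionsOf_sup_le (D₁ D₂ : Divisor K F) :
    repartitionsOf (D₁ ⊔ D₂) ≤ repartitionsOf D₁ ⊔ repartitionsOf D₂ := by
  classical
  intro α hα
  have hα' : ∀ v : Place K F, v.adicValuation ((α : Place K F → F) v) ≤ exp ((D₁ ⊔ D₂) v) := hα
  set a₁ : Place K F → F := fun v => if D₂ v ≤ D₁ v then (α : Place K F → F) v else 0 with ha₁
  set a₂ : Place K F → F := fun v => if D₂ v ≤ D₁ v then 0 else (α : Place K F → F) v with ha₂
  have h₁ : ∀ v : Place K F, v.adicValuation (a₁ v) ≤ exp (D₁ v) := fun v => by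
    simp only [ha₁]
    split_ifs with h
    · have := hα' v
      rwa [Finsupp.sup_apply, sup_eq_left.mpr h] at this
    · simp
  have h₂ : ∀ v : Place K F, v.adicValuation (a₂ v) ≤ exp (D₂ v) := fun v => by
    simp only [ha₂]
    split_ifs with h
    · simp
    · have := hα' v
      rwa [Finsupp.sup_apply, sup_eq_right.mpr (le_of_lt (not_le.mp h))] at this
  have hm₁ : a₁ ∈ repartitions K F := mem_repartitions_of_forall_le_exp D₁ a₁ h₁
  have hm₂ : a₂ ∈ repartitions K F := mem_repartitions_of_forall_le_exp D₂ a₂ h₂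
  have hsum : α = (⟨a₁, hm₁⟩ : ↥(repartitions K F)) + ⟨a₂, hm₂⟩ := by
    apply Subtype.ext
    funext v
    show (α : Place K F → F) v = a₁ v + a₂ v
    simp only [ha₁, ha₂]
    split_ifs <;> simp
  rw [hsum]
  exact Submodule.add_mem _ (Submodule.mem_sup_left h₁) (Submodule.mem_sup_right h₂)

/-! ### degrees of effective divisors -/

theorem s27w_degree_eq_sum (D : Divisor K F) :
    Divisor.degree D = ∑ v ∈ D.support, D v * (v.deg : ℤ) := by
  unfold Divisor.degree
  rw [Finsupp.liftAddHom_apply, Finsupp.sum]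
  rfl

theorem s27w_degree_nonneg {E : Divisor K F} (hE : 0 ≤ E) : 0 ≤ Divisor.degree E := by
  rw [s27w_degree_eq_sum]
  refine Finset.sum_nonneg fun v _ => mul_nonneg ?_ (Int.natCast_nonneg _)
  exact Finsupp.le_def.mp hE v

theorem s27w_deg_pos (hres : ∀ P : Place K F, Module.Finite K P.ResidueField) (P : Place K F) :
    0 < P.deg := by
  haveI := hres P
  unfold Place.deg
  exact Module.finrank_pos

theorem s27w_degree_pos (hres : ∀ P : Place K F, Module.Finite K P.ResidueField)
    {E : Divisor K F} (hE : 0 ≤ E) (hE0 : E ≠ 0) : 0 < Divisor.degree E := by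
  rw [s27w_degree_eq_sum]
  obtain ⟨v, hv⟩ : ∃ v, E v ≠ 0 := by
    by_contra h
    push_neg at h
    exact hE0 (Finsupp.ext h)
  have hvs : v ∈ E.support := Finsupp.mem_support_iff.mpr hv
  have hpos : 0 < E v := lt_of_le_of_ne (Finsupp.le_def.mp hE v) (Ne.symm hv)
  have hterm : 0 < E v * (v.deg : ℤ) :=
    mul_pos hpos (by exact_mod_cast s27w_deg_pos hres v)
  calc (0 : ℤ) < E v * (v.deg : ℤ) := hterm
    _ ≤ ∑ w ∈ E.support, E w * (w.deg : ℤ) :=
      Finset.single_le_sum (f := fun w => E w * (w.deg : ℤ))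
        (fun w _ => mul_nonneg (Finsupp.le_def.mp hE w) (Int.natCast_nonneg _)) hvs

/-- a divisor of negative degree has `L(D) = 0`. -/
theorem s27w_L_eq_bot_of_degree_neg [HasPrincipalDivisors K F] {D : Divisor K F}
    (hD : Divisor.degree D < 0) : riemannRochSpace D = ⊥ := by
  rw [eq_bot_iff]
  intro f hf
  rw [Submodule.mem_bot]
  by_contra hf0
  obtain ⟨Df, hDf, hdf⟩ := HasPrincipalDivisors.exists_divisor (K := K) f hf0
  have hnn : 0 ≤ D + Df := by
    rw [Finsupp.le_def]
    intro v
    rw [Finsupp.add_apply, hDf v]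
    rcases mem_riemannRochSpace_iff.mp hf v with h | h
    · exact absurd h hf0
    · simp only [Finsupp.coe_zero, Pi.zero_apply]
      omega
  have := s27w_degree_nonneg hnn
  rw [map_add, hdf] at this
  omega

end Fermat.Agent.Lib.S27
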