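/-
Programme Z (S27), brick [DUAL] (helper6, prefix `s27w_`), part 2: Weil differentials.
`Ω(D) = (A(D) + F)^⊥ ⊂ Dual_K(A)`, `dim Ω(D) = h¹(D)`, the action of `F`, `x·Ω(D) ⊂ Ω(D + (x))`.
-/
import Fermat.Agent.Lib.S27.WAdele

set_option autoImplicit false

noncomputable section

namespace Fermat.Agent.Lib.S27

open AlgebraicCurve WithZero Fermat.Agent.Lib.S44

variable {K F : Type*} [Field K] [Field F] [Algebra K F]

/-- the Weil differentials vanishing on `A(D) + F`. -/
def s27w_Omega (D : Divisor K F) : Submodule K (Module.Dual K ↥(repartitions K F)) :=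
  (repartitionsOf D ⊔ principalRepartitions K F).dualAnnihilator

theorem s27w_mem_Omega {D : Divisor K F} {ω : Module.Dual K ↥(repartitions K F)} :
    ω ∈ s27w_Omega D ↔ ∀ α ∈ repartitionsOf D ⊔ principalRepartitions K F, ω α = 0 :=
  Submodule.mem_dualAnnihilator _

theorem s27w_Omega_anti {D D' : Divisor K F} (h : D ≤ D') : s27w_Omega D' ≤ s27w_Omega D :=
  Submodule.dualAnnihilator_anti (sup_le_sup_right (repartitionsOf_mono h) _)

theorem s27w_finite_Omega (D : Divisor K F) [Module.Finite K (H1 D)] :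
    Module.Finite K ↥(s27w_Omega D) :=
  Module.Finite.equiv
    (Submodule.dualQuotEquivDualAnnihilator (repartitionsOf D ⊔ principalRepartitions K F))

/-- `dim Ω(D) = h¹(D)`. -/
theorem s27w_finrank_Omega (D : Divisor K F) [Module.Finite K (H1 D)] :
    Module.finrank K ↥(s27w_Omega D) = Module.finrank K (H1 D) := by
  unfold s27w_Omega
  rw [← (Submodule.dualQuotEquivDualAnnihilator
    (repartitionsOf D ⊔ principalRepartitions K F)).finrank_eq, Subspace.dual_finrank_eq]

/-- `Ω(D) = 0` when `A(D) + F = A`. -/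
theorem s27w_Omega_eq_bot {D : Divisor K F} (h : Subsingleton (H1 D)) : s27w_Omega D = ⊥ := by
  have htop : repartitionsOf D ⊔ principalRepartitions K F = ⊤ :=
    Submodule.Quotient.subsingleton_iff.mp h
  rw [eq_bot_iff]
  intro ω hω
  rw [Submodule.mem_bot]
  ext α
  rw [s27w_mem_Omega] at hω
  exact hω α (by rw [htop]; trivial)

/-! ### the action of `F` -/

/-- `(x·ω)(α) = ω(xα)`. -/
def s27w_act (x : F) (ω : Module.Dual K ↥(repartitions K F)) :
    Module.Dual K ↥(repartitions K F) :=
  ω.comp (s27w_mul x)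

theorem s27w_act_apply (x : F) (ω : Module.Dual K ↥(repartitions K F))
    (α : ↥(repartitions K F)) : s27w_act x ω α = ω (x • α) := rfl

theorem s27w_act_one (ω : Module.Dual K ↥(repartitions K F)) : s27w_act 1 ω = ω := by
  ext α
  rw [s27w_act_apply, one_smul]

theorem s27w_act_mul (x y : F) (ω : Module.Dual K ↥(repartitions K F)) :
    s27w_act (x * y) ω = s27w_act y (s27w_act x ω) := by
  ext α
  rw [s27w_act_apply, s27w_act_apply, s27w_act_apply, mul_smul]

theorem s27w_act_zero (ω : Module.Dual K ↥(repartitions K F)) : s27w_act 0 ω = 0 := by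
  ext α
  rw [s27w_act_apply, zero_smul, map_zero, LinearMap.zero_apply]

/-- the action, `K`-linear in the function. -/
def s27w_actL (ω : Module.Dual K ↥(repartitions K F)) :
    F →ₗ[K] Module.Dual K ↥(repartitions K F) where
  toFun x := s27w_act x ω
  map_add' x y := by
    ext α
    rw [LinearMap.add_apply, s27w_act_apply, s27w_act_apply, s27w_act_apply, add_smul, map_add]
  map_smul' c x := by
    ext α
    rw [RingHom.id_apply, LinearMap.smul_apply, s27w_act_apply, s27w_act_apply, smul_assoc,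
      map_smul]

theorem s27w_actL_apply (ω : Module.Dual K ↥(repartitions K F)) (x : F) :
    s27w_actL ω x = s27w_act x ω := rfl

theorem s27w_act_sub (x : F) (ω ω' : Module.Dual K ↥(repartitions K F)) :
    s27w_act x (ω - ω') = s27w_act x ω - s27w_act x ω' := by
  ext α
  rw [LinearMap.sub_apply, s27w_act_apply, s27w_act_apply, s27w_act_apply, LinearMap.sub_apply]

/-- cancellation: `x·ω = 0`, `x ≠ 0` ⇒ `ω = 0`. -/
theorem s27w_eq_zero_of_act {x : F} (hx : x ≠ 0) {ω : Module.Dual K ↥(repartitions K F)}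
    (h : s27w_act x ω = 0) : ω = 0 := by
  have := congrArg (s27w_act x⁻¹) h
  rw [← s27w_act_mul, mul_inv_cancel₀ hx, s27w_act_one] at this
  rw [this]
  ext α
  rw [s27w_act_apply, LinearMap.zero_apply, LinearMap.zero_apply]

/-- `x·Ω(D) ⊂ Ω(D + (x))`. -/
theorem s27w_act_mem {x : F} (hx : x ≠ 0) {D Dx : Divisor K F}
    (hDx : ∀ v : Place K F, Dx v = v.ord x) {ω : Module.Dual K ↥(repartitions K F)}
    (hω : ω ∈ s27w_Omega D) : s27w_act x ω ∈ s27w_Omega (D + Dx) := by
  rw [s27w_mem_Omega] at hω ⊢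
  intro α hα
  rw [s27w_act_apply]
  exact hω _ (s44rm_smul_mem_sup hx hDx hα)

/-- `L(E)·Ω(D) ⊂ Ω(D − E)`. -/
theorem s27w_act_mem_of_mem_L [HasPrincipalDivisors K F] {x : F} {D E : Divisor K F}
    (hx : x ∈ riemannRochSpace E) {ω : Module.Dual K ↥(repartitions K F)}
    (hω : ω ∈ s27w_Omega D) : s27w_act x ω ∈ s27w_Omega (D - E) := by
  rcases eq_or_ne x 0 with rfl | hx0
  · rw [s27w_act_zero]
    exact Submodule.zero_mem _
  obtain ⟨Dx, hDx, -⟩ := HasPrincipalDivisors.exists_divisor (K := K) x hx0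
  refine s27w_Omega_anti ?_ (s27w_act_mem hx0 hDx hω)
  rw [Finsupp.le_def]
  intro v
  rw [Finsupp.sub_apply, Finsupp.add_apply, hDx v]
  have := ((mem_riemannRochSpace_iff.mp hx) v).resolve_left hx0
  omega

end Fermat.Agent.Lib.S27
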