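/-
Programme Z (S27), brick [DUAL] (helper6, prefix `s27w_`), part 3: the DUALITY THEOREM
`h¹(D) = ℓ(W − D)` and the Riemann–Roch theorem (Stichtenoth 1.5), abstractly from Riemann's
theorem in Weil's form.
-/
import Fermat.Agent.Lib.S27.WDiff

set_option autoImplicit false

noncomputable section

namespace Fermat.Agent.Lib.S27

open AlgebraicCurve WithZero Fermat.Agent.Lib.S44

variable {K F : Type*} [Field K] [Field F] [Algebra K F] [HasPrincipalDivisors K F]

/-- the standing hypotheses: Riemann's theorem in Weil's form. -/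
structure s27w_Riemann (K F : Type*) [Field K] [Field F] [Algebra K F] : Prop where
  res : ∀ P : Place K F, Module.Finite K P.ResidueField
  finL : ∀ D : Divisor K F, Module.Finite K ↥(riemannRochSpace D)
  finH : ∀ D : Divisor K F, Module.Finite K (H1 D)
  rr : ∀ D : Divisor K F,
    (Module.finrank K ↥(riemannRochSpace D) : ℤ) - Module.finrank K (H1 D) =
      Divisor.degree D + 1 - genusFF K F
  large : ∃ c : ℤ, ∀ D : Divisor K F, c ≤ Divisor.degree D → Subsingleton (H1 D)

variable (hR : s27w_Riemann K F)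

include hR in
/-- `h¹(D) = ℓ(D) − deg D − 1 + g`. -/
theorem s27w_h1_eq (D : Divisor K F) :
    (Module.finrank K (H1 D) : ℤ) =
      Module.finrank K ↥(riemannRochSpace D) - Divisor.degree D - 1 + genusFF K F := by
  have := hR.rr D
  omega

include hR in
/-- Riemann's inequality. -/
theorem s27w_riemann_ineq (D : Divisor K F) :
    Divisor.degree D + 1 - genusFF K F ≤ Module.finrank K ↥(riemannRochSpace D) := by
  have := hR.rr D
  have : (0 : ℤ) ≤ Module.finrank K (H1 D) := Int.natCast_nonneg _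
  omega

theorem s27w_degree_nsmul_single (P₀ : Place K F) (n : ℕ) :
    Divisor.degree (n • Finsupp.single P₀ (1 : ℤ)) = (n : ℤ) * P₀.deg := by
  rw [map_nsmul, Divisor.degree_single, one_mul, nsmul_eq_mul]

include hR in
/-- **`dim_F Ω = 1`**: every Weil differential is a multiple of a given non-zero one. -/
theorem s27w_exists_eq_act (P₀ : Place K F) {D₁ D₂ : Divisor K F}
    {ω₁ ω₂ : Module.Dual K ↥(repartitions K F)} (h₁ : ω₁ ∈ s27w_Omega D₁)
    (h₂ : ω₂ ∈ s27w_Omega D₂) (hne : ω₁ ≠ 0) : ∃ x : F, ω₂ = s27w_act x ω₁ := by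
  have hd : (1 : ℤ) ≤ P₀.deg := by exact_mod_cast s27w_deg_pos hR.res P₀
  set g : ℕ := genusFF K F with hg
  set n : ℕ := 3 * g + (Divisor.degree D₁).natAbs + (Divisor.degree D₂).natAbs + 1 with hn
  set B : Divisor K F := n • Finsupp.single P₀ (1 : ℤ) with hB
  have hdegB : Divisor.degree B = (n : ℤ) * P₀.deg := s27w_degree_nsmul_single P₀ n
  haveI := hR.finL (D₁ + B)
  haveI := hR.finL (D₂ + B)
  haveI := hR.finH (-B)
  haveI := s27w_finite_Omega (-B)
  -- the two maps into `Ω(−B)`
  have hm₁ : ∀ x : ↥(riemannRochSpace (D₁ + B)), s27w_act (x : F) ω₁ ∈ s27w_Omega (-B) :=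
    fun x => by
      have := s27w_act_mem_of_mem_L x.2 h₁
      rwa [show D₁ - (D₁ + B) = -B from by abel] at this
  have hm₂ : ∀ x : ↥(riemannRochSpace (D₂ + B)), s27w_act (x : F) (-ω₂) ∈ s27w_Omega (-B) :=
    fun x => by
      have := s27w_act_mem_of_mem_L x.2 (Submodule.neg_mem _ h₂)
      rwa [show D₂ - (D₂ + B) = -B from by abel] at this
  let φ₁ : ↥(riemannRochSpace (D₁ + B)) →ₗ[K] ↥(s27w_Omega (-B)) :=
    LinearMap.codRestrict _ ((s27w_actL ω₁).comp (riemannRochSpace (D₁ + B)).subtype) hm₁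
  let φ₂ : ↥(riemannRochSpace (D₂ + B)) →ₗ[K] ↥(s27w_Omega (-B)) :=
    LinearMap.codRestrict _ ((s27w_actL (-ω₂)).comp (riemannRochSpace (D₂ + B)).subtype) hm₂
  let ψ : (↥(riemannRochSpace (D₁ + B)) × ↥(riemannRochSpace (D₂ + B))) →ₗ[K]
      ↥(s27w_Omega (-B)) := φ₁.coprod φ₂
  -- dimension count
  have hdim : Module.finrank K ↥(s27w_Omega (-B)) <
      Module.finrank K (↥(riemannRochSpace (D₁ + B)) × ↥(riemannRochSpace (D₂ + B))) := by
    rw [Module.finrank_prod, s27w_finrank_Omega]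
    have hneg : Divisor.degree (-B) < 0 := by
      rw [map_neg, hdegB]
      have : (0 : ℤ) < (n : ℤ) * P₀.deg := by
        have : (1 : ℤ) ≤ n := by
          rw [hn]; push_cast
          have := abs_nonneg (Divisor.degree D₁)
          have := abs_nonneg (Divisor.degree D₂)
          omega
        nlinarith
      omega
    have hL0 : Module.finrank K ↥(riemannRochSpace (-B)) = 0 := by
      rw [s27w_L_eq_bot_of_degree_neg hneg]
      exact finrank_bot K F
    have h1 := s27w_h1_eq hR (-B)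
    rw [hL0, map_neg, hdegB] at h1
    have i1 := s27w_riemann_ineq hR (D₁ + B)
    have i2 := s27w_riemann_ineq hR (D₂ + B)
    rw [map_add, hdegB] at i1 i2
    have hnd : (n : ℤ) ≤ (n : ℤ) * P₀.deg := by nlinarith [Int.natCast_nonneg n]
    have hn' : (n : ℤ) = 3 * g + |Divisor.degree D₁| + |Divisor.degree D₂| + 1 := by
      rw [hn]; push_cast; rw [Int.abs_eq_natAbs, Int.abs_eq_natAbs]
    have a1 := neg_abs_le (Divisor.degree D₁)
    have a2 := neg_abs_le (Divisor.degree D₂)
    have : (Module.finrank K (H1 (-B)) : ℤ) <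
        (Module.finrank K ↥(riemannRochSpace (D₁ + B)) : ℤ) +
          Module.finrank K ↥(riemannRochSpace (D₂ + B)) := by
      rw [← hg] at h1 i1 i2
      push_cast at h1
      linarith
    exact_mod_cast this
  have hker : LinearMap.ker ψ ≠ ⊥ :=
    LinearMap.ker_ne_bot_of_finrank_lt (K := K)
      (V := ↥(riemannRochSpace (D₁ + B)) × ↥(riemannRochSpace (D₂ + B)))
      (V₂ := ↥(s27w_Omega (-B))) (f := ψ) hdim
  obtain ⟨⟨x₁, x₂⟩, hxk, hx0⟩ := (Submodule.ne_bot_iff _).mp hker
  rw [LinearMap.mem_ker] at hxk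
  have heq : s27w_act (x₁ : F) ω₁ = s27w_act (x₂ : F) ω₂ := by
    have := congrArg (fun z : ↥(s27w_Omega (-B)) => (z : Module.Dual K ↥(repartitions K F))) hxk
    simp only [ψ, φ₁, φ₂, LinearMap.coprod_apply, Submodule.coe_add,
      LinearMap.codRestrict_apply, LinearMap.comp_apply,
      Submodule.subtype_apply, s27w_actL_apply, Submodule.coe_zero] at this
    have hneg : s27w_act (x₂ : F) (-ω₂) = -s27w_act (x₂ : F) ω₂ := by
      ext α
      rw [s27w_act_apply, LinearMap.neg_apply, LinearMap.neg_apply, s27w_act_apply]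
    rw [hneg] at this
    exact add_neg_eq_zero.mp this
  have hx₂ : (x₂ : F) ≠ 0 := by
    intro h
    rw [h, s27w_act_zero] at heq
    have hx₁ : (x₁ : F) ≠ 0 := by
      intro h'
      apply hx0
      exact Prod.ext (Subtype.ext h') (Subtype.ext h)
    exact hne (s27w_eq_zero_of_act hx₁ heq)
  refine ⟨(x₂ : F)⁻¹ * x₁, ?_⟩
  rw [mul_comm, s27w_act_mul, heq, ← s27w_act_mul, mul_inv_cancel₀ hx₂, s27w_act_one]

end Fermat.Agent.Lib.S27
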