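/-
Programme Z (S27), brick [DUAL] (helper6, prefix `s27w_`), part 4: the divisor of a Weil
differential, `L(W − D) ≃ Ω(D)`, and the DUALITY THEOREM `h¹(D) = ℓ(W − D)`.
-/
import Fermat.Agent.Lib.S27.WDual

set_option autoImplicit false

noncomputable section

namespace Fermat.Agent.Lib.S27

open AlgebraicCurve WithZero Fermat.Agent.Lib.S44

variable {K F : Type*} [Field K] [Field F] [Algebra K F] [HasPrincipalDivisors K F]

/-- `Ω(D₁) ∩ Ω(D₂) ⊂ Ω(D₁ ⊔ D₂)`. -/
theorem s27w_mem_Omega_sup {D₁ D₂ : Divisor K F} {ω : Module.Dual K ↥(repartitions K F)}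
    (h₁ : ω ∈ s27w_Omega D₁) (h₂ : ω ∈ s27w_Omega D₂) : ω ∈ s27w_Omega (D₁ ⊔ D₂) := by
  rw [s27w_mem_Omega] at h₁ h₂ ⊢
  intro α hα
  obtain ⟨a, ha, p, hp, rfl⟩ := Submodule.mem_sup.mp hα
  obtain ⟨a₁, ha₁, a₂, ha₂, rfl⟩ := Submodule.mem_sup.mp (s27w_repartitionsOf_sup_le D₁ D₂ ha)
  rw [map_add, map_add, h₁ a₁ (Submodule.mem_sup_left ha₁), h₂ a₂ (Submodule.mem_sup_left ha₂),
    h₁ p (Submodule.mem_sup_right hp), add_zero, add_zero]

variable (hR : s27w_Riemann K F)

include hR in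
/-- **the divisor of a non-zero Weil differential**: the largest `W` with `ω ∈ Ω(W)`. -/
theorem s27w_exists_max {D₀ : Divisor K F} {ω : Module.Dual K ↥(repartitions K F)}
    (h₀ : ω ∈ s27w_Omega D₀) (hne : ω ≠ 0) :
    ∃ W : Divisor K F, ω ∈ s27w_Omega W ∧ ∀ D : Divisor K F, ω ∈ s27w_Omega D → D ≤ W := by
  obtain ⟨c, hc⟩ := hR.large
  have hbd : ∀ D : Divisor K F, ω ∈ s27w_Omega D → Divisor.degree D < c := by
    intro D hD
    by_contra hlt
    have := s27w_Omega_eq_bot (hc D (not_lt.mp hlt))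
    rw [this, Submodule.mem_bot] at hD
    exact hne hD
  obtain ⟨z, ⟨W, hW, hWz⟩, hzmax⟩ :=
    Int.exists_greatest_of_bdd (P := fun z => ∃ D : Divisor K F, ω ∈ s27w_Omega D ∧
      Divisor.degree D = z) ⟨c, fun z ⟨D, hD, hz⟩ => by rw [← hz]; exact (hbd D hD).le⟩
      ⟨_, D₀, h₀, rfl⟩
  refine ⟨W, hW, fun D hD => ?_⟩
  have hsup := s27w_mem_Omega_sup hD hW
  have hle : Divisor.degree (D ⊔ W) ≤ z := hzmax _ ⟨_, hsup, rfl⟩
  by_contra hnle
  have hE : (0 : Divisor K F) ≤ D ⊔ W - W := sub_nonneg.mpr le_sup_right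
  have hE0 : D ⊔ W - W ≠ 0 := by
    intro h
    apply hnle
    rw [sub_eq_zero] at h
    exact sup_eq_right.mp h
  have := s27w_degree_pos hR.res hE hE0
  rw [map_sub, hWz] at this
  omega

include hR in
/-- **`L(W − D) ≃ Ω(D)`**, `x ↦ x·ω`, for `W` the divisor of `ω ≠ 0`. -/
theorem s27w_finrank_L_eq (P₀ : Place K F) {W : Divisor K F}
    {ω : Module.Dual K ↥(repartitions K F)} (hW : ω ∈ s27w_Omega W) (hne : ω ≠ 0)
    (hmax : ∀ D : Divisor K F, ω ∈ s27w_Omega D → D ≤ W) (D : Divisor K F) :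
    Module.finrank K ↥(riemannRochSpace (W - D)) = Module.finrank K (H1 D) := by
  haveI := hR.finH D
  rw [← s27w_finrank_Omega D]
  have hm : ∀ x : ↥(riemannRochSpace (W - D)), s27w_act (x : F) ω ∈ s27w_Omega D := fun x => by
    have := s27w_act_mem_of_mem_L x.2 hW
    rwa [show W - (W - D) = D from by abel] at this
  let φ : ↥(riemannRochSpace (W - D)) →ₗ[K] ↥(s27w_Omega D) :=
    LinearMap.codRestrict _ ((s27w_actL ω).comp (riemannRochSpace (W - D)).subtype) hm
  have hφ : ∀ x : ↥(riemannRochSpace (W - D)),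
      ((φ x : ↥(s27w_Omega D)) : Module.Dual K ↥(repartitions K F)) = s27w_act (x : F) ω :=
    fun x => rfl
  have hinj : Function.Injective φ := by
    intro x y hxy
    by_contra hxy'
    have h1 : s27w_act (x : F) ω = s27w_act (y : F) ω := by
      rw [← hφ x, ← hφ y, hxy]
    have h2 : s27w_act ((x : F) - (y : F)) ω = 0 := by
      rw [← s27w_actL_apply, map_sub, s27w_actL_apply, s27w_actL_apply, h1, sub_self]
    exact hne (s27w_eq_zero_of_act (fun h => hxy' (Subtype.ext (sub_eq_zero.mp h))) h2)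
  have hsurj : Function.Surjective φ := by
    intro ω'
    rcases eq_or_ne (ω' : Module.Dual K ↥(repartitions K F)) 0 with h0 | h0
    · refine ⟨0, ?_⟩
      rw [map_zero]
      exact Subtype.ext h0.symm
    obtain ⟨x, hx⟩ := s27w_exists_eq_act hR P₀ hW ω'.2 hne
    have hx0 : x ≠ 0 := by
      rintro rfl
      rw [s27w_act_zero] at hx
      exact h0 hx
    obtain ⟨Dx, hDx, -⟩ := HasPrincipalDivisors.exists_divisor (K := K) x⁻¹ (inv_ne_zero hx0)
    have hω : ω = s27w_act x⁻¹ (ω' : Module.Dual K ↥(repartitions K F)) := by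
      rw [hx, ← s27w_act_mul, mul_inv_cancel₀ hx0, s27w_act_one]
    have hmem : ω ∈ s27w_Omega (D + Dx) := by
      rw [hω]
      exact s27w_act_mem (inv_ne_zero hx0) hDx ω'.2
    have hle := hmax _ hmem
    have hxL : x ∈ riemannRochSpace (W - D) := by
      rw [mem_riemannRochSpace_iff]
      intro v
      right
      have := Finsupp.le_def.mp hle v
      rw [Finsupp.add_apply, hDx v, Place.ord_inv] at this
      rw [Finsupp.sub_apply]
      omega
    refine ⟨⟨x, hxL⟩, Subtype.ext ?_⟩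
    rw [hφ, hx]
  exact (LinearEquiv.ofBijective φ ⟨hinj, hsurj⟩).finrank_eq

include hR in
/-- there is a non-zero Weil differential. -/
theorem s27w_exists_ne_zero (P₀ : Place K F) :
    ∃ (D₀ : Divisor K F) (ω : Module.Dual K ↥(repartitions K F)), ω ∈ s27w_Omega D₀ ∧ ω ≠ 0 := by
  have hd : (1 : ℤ) ≤ P₀.deg := by exact_mod_cast s27w_deg_pos hR.res P₀
  set B : Divisor K F := 2 • Finsupp.single P₀ (1 : ℤ) with hB
  have hdegB : Divisor.degree B = ((2 : ℕ) : ℤ) * P₀.deg := s27w_degree_nsmul_single P₀ 2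
  have := hR.finH (-B)
  have := s27w_finite_Omega (-B)
  have hneg : Divisor.degree (-B) < 0 := by
    rw [map_neg, hdegB]
    push_cast
    omega
  have hL0 : Module.finrank K ↥(riemannRochSpace (-B)) = 0 := by
    rw [s27w_L_eq_bot_of_degree_neg hneg]
    exact finrank_bot K F
  have h1 := s27w_h1_eq hR (-B)
  rw [hL0, map_neg, hdegB] at h1
  push_cast at h1
  have hpos : 0 < Module.finrank K ↥(s27w_Omega (-B)) := by
    rw [s27w_finrank_Omega]
    have : (0 : ℤ) < Module.finrank K (H1 (-B)) := by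
      have := Int.natCast_nonneg (genusFF K F)
      omega
    exact_mod_cast this
  obtain ⟨ω, hω⟩ := (Module.finrank_pos_iff_exists_ne_zero (R := K)
    (M := ↥(s27w_Omega (-B)))).mp hpos
  exact ⟨-B, ω, ω.2, fun h => hω (Subtype.ext h)⟩

include hR in
/-- **DUALITY**: there is a (canonical) divisor `W` with `h¹(D) = ℓ(W − D)` for all `D`. -/
theorem s27w_duality_aux (P₀ : Place K F) :
    ∃ W : Divisor K F, ∀ D : Divisor K F,
      Module.finrank K (H1 D) = Module.finrank K ↥(riemannRochSpace (W - D)) := by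
  obtain ⟨D₀, ω, h₀, hne⟩ := s27w_exists_ne_zero hR P₀
  obtain ⟨W, hW, hmax⟩ := s27w_exists_max hR h₀ hne
  exact ⟨W, fun D => (s27w_finrank_L_eq hR P₀ hW hne hmax D).symm⟩

end Fermat.Agent.Lib.S27
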