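/-
Programme Z (S27), brick [DUAL] (helper6, prefix `s27w_`), part 5: the RIEMANN–ROCH THEOREM
`ℓ(D) − ℓ(W − D) = deg D + 1 − g`, `deg W = 2g − 2`, `ℓ(W) = g`, and the uniqueness of the
canonical class.  Abstract form (hypotheses = Riemann's theorem in Weil's form, as delivered by
the landed `s44rm_sep_*`) and the form for separably generated function fields over an
algebraically closed field.
-/
import Fermat.Agent.Lib.S27.WCanon

set_option autoImplicit false

noncomputable section

namespace Fermat.Agent.Lib.S27

open AlgebraicCurve WithZero Fermat.Agent.Lib.S44 Fermat.Agent.Lib.FF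

variable {K F : Type*} [Field K] [Field F] [Algebra K F] [HasPrincipalDivisors K F]

/-- **DUALITY** (abstract form). -/
theorem s27w_duality (hres : ∀ P : Place K F, Module.Finite K P.ResidueField) (P₀ : Place K F)
    (hfinL : ∀ D : Divisor K F, Module.Finite K ↥(riemannRochSpace D))
    (hfinH : ∀ D : Divisor K F, Module.Finite K (H1 D))
    (hrr : ∀ D : Divisor K F,
      (Module.finrank K ↥(riemannRochSpace D) : ℤ) - Module.finrank K (H1 D) =
        Divisor.degree D + 1 - genusFF K F)
    (hlarge : ∃ c : ℤ, ∀ D : Divisor K F, c ≤ Divisor.degree D → Subsingleton (H1 D)) :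
    ∃ W : Divisor K F, ∀ D : Divisor K F,
      Module.finrank K (H1 D) = Module.finrank K ↥(riemannRochSpace (W - D)) :=
  s27w_duality_aux ⟨hres, hfinL, hfinH, hrr, hlarge⟩ P₀

/-- **RIEMANN–ROCH** (abstract form). -/
theorem s27w_rr (hres : ∀ P : Place K F, Module.Finite K P.ResidueField) (P₀ : Place K F)
    (hfinL : ∀ D : Divisor K F, Module.Finite K ↥(riemannRochSpace D))
    (hfinH : ∀ D : Divisor K F, Module.Finite K (H1 D))
    (hrr : ∀ D : Divisor K F,
      (Module.finrank K ↥(riemannRochSpace D) : ℤ) - Module.finrank K (H1 D) =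
        Divisor.degree D + 1 - genusFF K F)
    (hlarge : ∃ c : ℤ, ∀ D : Divisor K F, c ≤ Divisor.degree D → Subsingleton (H1 D)) :
    ∃ W : Divisor K F, ∀ D : Divisor K F,
      (Module.finrank K ↥(riemannRochSpace D) : ℤ) -
          (Module.finrank K ↥(riemannRochSpace (W - D)) : ℤ) =
        Divisor.degree D + 1 - genusFF K F := by
  obtain ⟨W, hW⟩ := s27w_duality hres P₀ hfinL hfinH hrr hlarge
  exact ⟨W, fun D => by rw [← hW D]; exact hrr D⟩

/-! ### consequences of the Riemann–Roch formula -/

section Consequences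

variable {g : ℕ} {W : Divisor K F}
  (hW : ∀ D : Divisor K F, (Module.finrank K ↥(riemannRochSpace D) : ℤ) -
    (Module.finrank K ↥(riemannRochSpace (W - D)) : ℤ) = Divisor.degree D + 1 - g)

include hW in
/-- `deg W = 2g − 2`. -/
theorem s27w_degree_canonical : Divisor.degree W = 2 * (g : ℤ) - 2 := by
  have h0 := hW 0
  have h1 := hW W
  rw [sub_zero] at h0
  rw [sub_self] at h1
  rw [map_zero] at h0
  omega

include hW in
/-- `ℓ(W) = g` (given `ℓ(0) = 1`). -/
theorem s27w_finrank_canonical (hL0 : Module.finrank K ↥(riemannRochSpace (0 : Divisor K F)) = 1) :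
    Module.finrank K ↥(riemannRochSpace W) = g := by
  have h0 := hW 0
  rw [sub_zero, map_zero, hL0] at h0
  have : (Module.finrank K ↥(riemannRochSpace W) : ℤ) = g := by
    push_cast at h0
    omega
  exact_mod_cast this

include hW in
/-- **uniqueness of the canonical class**: two divisors satisfying the Riemann–Roch formula
differ by a principal divisor. -/
theorem s27w_canonical_unique (hres : ∀ P : Place K F, Module.Finite K P.ResidueField)
    (hL0 : Module.finrank K ↥(riemannRochSpace (0 : Divisor K F)) = 1) {W' : Divisor K F}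
    (hW' : ∀ D : Divisor K F, (Module.finrank K ↥(riemannRochSpace D) : ℤ) -
      (Module.finrank K ↥(riemannRochSpace (W' - D)) : ℤ) = Divisor.degree D + 1 - g) :
    W - W' ∈ Divisor.principal (K := K) (F := F) := by
  have hd := s27w_degree_canonical hW
  have hd' := s27w_degree_canonical hW'
  have hl' := s27w_finrank_canonical hW' hL0
  have h := hW W'
  rw [hl', hd'] at h
  have hpos : 0 < Module.finrank K ↥(riemannRochSpace (W - W')) := by
    have : (0 : ℤ) < Module.finrank K ↥(riemannRochSpace (W - W')) := by omega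
    exact_mod_cast this
  obtain ⟨x, hx⟩ : ∃ x : ↥(riemannRochSpace (W - W')), x ≠ 0 := by
    by_contra hall
    push_neg at hall
    haveI : Subsingleton ↥(riemannRochSpace (W - W')) :=
      ⟨fun a b => by rw [hall a, hall b]⟩
    rw [Module.finrank_zero_of_subsingleton] at hpos
    exact lt_irrefl _ hpos
  have hx0 : (x : F) ≠ 0 := fun h => hx (Subtype.ext h)
  obtain ⟨Dx, hDx, hdx⟩ := HasPrincipalDivisors.exists_divisor (K := K) (x : F) hx0
  -- `(x) + W − W' ≥ 0` of degree zero, hence zero
  have hnn : (0 : Divisor K F) ≤ Dx + (W - W') := by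
    rw [Finsupp.le_def]
    intro v
    rw [Finsupp.add_apply, hDx v]
    have := ((mem_riemannRochSpace_iff.mp x.2) v).resolve_left hx0
    rw [Finsupp.sub_apply] at this ⊢
    simp only [Finsupp.coe_zero, Pi.zero_apply]
    omega
  have hdeg0 : Divisor.degree (Dx + (W - W')) = 0 := by
    rw [map_add, map_sub, hdx, hd, hd']
    ring
  have hzero : Dx + (W - W') = 0 := by
    by_contra hne
    have := s27w_degree_pos hres hnn hne
    omega
  rw [Divisor.mem_principal]
  refine ⟨(x : F)⁻¹, inv_ne_zero hx0, fun v => ?_⟩
  have := congrArg (fun E : Divisor K F => E v) hzero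
  simp only [Finsupp.add_apply, Finsupp.coe_zero, Pi.zero_apply] at this
  rw [Place.ord_inv, ← hDx v]
  omega

end Consequences

end Fermat.Agent.Lib.S27
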