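/-
Programme Z (S27), brick [DUAL] (helper6, prefix `s27w_`), part 6: the contract `s27_Dual` of
`ZIface.lean`, and the function-field forms of Riemann–Roch (separably generated function fields
over an algebraically closed field, any characteristic).
-/
import Fermat.Agent.Lib.S27.WMain
import Fermat.Agent.Lib.S27.ZIface
import Fermat.Agent.Lib.S44.RRiemIneq

set_option autoImplicit false

noncomputable section

namespace Fermat.Agent.Lib.S27

open AlgebraicCurve IntermediateField Fermat.Agent.Lib.S44 Fermat.Agent.Lib.FF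
  Fermat.Agent.Lib.S19

universe u v

section FF

variable {K : Type u} {F : Type v} [Field K] [Field F] [Algebra K F] [HasPrincipalDivisors K F]
  [IsAlgClosed K]

/-- Riemann's theorem in Weil's form for a separably generated function field (landed
`s44rm_sep_*`). -/
theorem s27w_riemann_of_sep (x : F) [FFGen K x] [Algebra.IsSeparable K⟮x⟯ F] :
    s27w_Riemann K F where
  res := s44rm_finite_residue x
  finL := s44rm_sep_finite_L x
  finH := s44rm_sep_finite_H1 x
  rr := s44rm_sep_riemann x
  large := by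
    obtain ⟨c, hc⟩ := s44rm_sep_riemann_large (K := K) x
    exact ⟨c, fun D hD => (hc D hD).1⟩

/-- `ℓ(0) = 1`. -/
theorem s27w_finrank_L_zero (hR : s27w_Riemann K F) :
    Module.finrank K ↥(riemannRochSpace (0 : Divisor K F)) = 1 := by
  have h := hR.rr 0
  rw [map_zero] at h
  have h2 : Module.finrank K (H1 (0 : Divisor K F)) = genusFF K F := rfl
  rw [h2] at h
  have : (Module.finrank K ↥(riemannRochSpace (0 : Divisor K F)) : ℤ) = 1 := by omega
  exact_mod_cast this

/-- **RIEMANN–ROCH for separably generated function fields** with `g = genusFF K F`, and the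
invariants of the canonical divisor. -/
theorem s27w_rr_of_sep (x : F) [FFGen K x] [Algebra.IsSeparable K⟮x⟯ F] :
    ∃ W : Divisor K F,
      (∀ D : Divisor K F, (Module.finrank K ↥(riemannRochSpace D) : ℤ) -
          (Module.finrank K ↥(riemannRochSpace (W - D)) : ℤ) =
        Divisor.degree D + 1 - genusFF K F) ∧
      (∀ D : Divisor K F,
        Module.finrank K (H1 D) = Module.finrank K ↥(riemannRochSpace (W - D))) ∧
      Divisor.degree W = 2 * (genusFF K F : ℤ) - 2 ∧
      Module.finrank K ↥(riemannRochSpace W) = genusFF K F := by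
  have hR := s27w_riemann_of_sep (K := K) x
  obtain ⟨P₀⟩ := s44rm_nonempty_place (K := K) x
  obtain ⟨W, hW⟩ := s27w_duality_aux hR P₀
  have hrr : ∀ D : Divisor K F, (Module.finrank K ↥(riemannRochSpace D) : ℤ) -
      (Module.finrank K ↥(riemannRochSpace (W - D)) : ℤ) =
        Divisor.degree D + 1 - genusFF K F := fun D => by rw [← hW D]; exact hR.rr D
  exact ⟨W, hrr, hW, s27w_degree_canonical hrr,
    s27w_finrank_canonical hrr (s27w_finrank_L_zero hR)⟩

/-- the genus of `s19_Riemann` is `genusFF`. -/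
theorem s27w_genus_eq (x : F) [FFGen K x] [Algebra.IsSeparable K⟮x⟯ F] {g : ℕ}
    (hg : s19_Riemann K F g) : g = genusFF K F := by
  obtain ⟨c, hc⟩ := hg.large
  obtain ⟨c', hc'⟩ := s44rm_sep_riemann_large (K := K) x
  obtain ⟨P₀⟩ := s44rm_nonempty_place (K := K) x
  have hd : (1 : ℤ) ≤ P₀.deg := by
    exact_mod_cast s27w_deg_pos (s44rm_finite_residue (K := K) x) P₀
  set n : ℕ := c.natAbs + c'.natAbs with hn
  set B : Divisor K F := n • Finsupp.single P₀ (1 : ℤ) with hB
  have hdegB : Divisor.degree B = (n : ℤ) * P₀.deg := s27w_degree_nsmul_single P₀ n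
  have hnd : (n : ℤ) ≤ (n : ℤ) * P₀.deg := by nlinarith [Int.natCast_nonneg n]
  have hn' : (n : ℤ) = |c| + |c'| := by
    rw [hn]; push_cast; rw [Int.abs_eq_natAbs, Int.abs_eq_natAbs]
  have a1 := le_abs_self c
  have a2 := le_abs_self c'
  have b1 := abs_nonneg c
  have b2 := abs_nonneg c'
  have e1 := hc B (by rw [hdegB]; linarith)
  have e2 := (hc' B (by rw [hdegB]; linarith)).2
  have : (g : ℤ) = genusFF K F := by linarith
  exact_mod_cast this

end FF

/-- **CONTRACT [DUAL]** of `ZIface.lean`. -/
theorem s27w_dual : s27_Dual.{u, v} := by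
  intro k Fb _ _ _ _ g hF
  haveI := hF.pd
  obtain ⟨x, hx, hsep⟩ := hF.gen
  haveI := hx
  haveI := hsep
  obtain ⟨W, hrr, -, -, -⟩ := s27w_rr_of_sep (K := k) x
  refine ⟨W, fun D => ?_⟩
  rw [hrr D, s27w_genus_eq (K := k) x hF.riemann]

/-- the same with the invariants of `W` and its uniqueness up to principal divisors. -/
theorem s27w_dual_full (k : Type u) (Fb : Type v) [Field k] [Field Fb] [Algebra k Fb]
    [IsAlgClosed k] (g : ℕ) (hF : s27_FF k Fb g) :
    ∃ W : Divisor k Fb,
      (∀ D : Divisor k Fb, (Module.finrank k ↥(riemannRochSpace D) : ℤ) -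
          (Module.finrank k ↥(riemannRochSpace (W - D)) : ℤ) = Divisor.degree D + 1 - g) ∧
      Divisor.degree W = 2 * (g : ℤ) - 2 ∧
      Module.finrank k ↥(riemannRochSpace W) = g ∧
      Module.finrank k ↥(riemannRochSpace (0 : Divisor k Fb)) = 1 ∧
      ∀ W' : Divisor k Fb,
        (∀ D : Divisor k Fb, (Module.finrank k ↥(riemannRochSpace D) : ℤ) -
          (Module.finrank k ↥(riemannRochSpace (W' - D)) : ℤ) = Divisor.degree D + 1 - g) →
        W' - W ∈ Divisor.principal (K := k) (F := Fb) := by
  haveI := hF.pd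
  obtain ⟨x, hx, hsep⟩ := hF.gen
  haveI := hx
  haveI := hsep
  have hR := s27w_riemann_of_sep (K := k) x
  have hgen := s27w_genus_eq (K := k) x hF.riemann
  obtain ⟨W, hrr, -, hdeg, hl⟩ := s27w_rr_of_sep (K := k) x
  rw [← hgen] at hdeg hl
  have hrr' : ∀ D : Divisor k Fb, (Module.finrank k ↥(riemannRochSpace D) : ℤ) -
      (Module.finrank k ↥(riemannRochSpace (W - D)) : ℤ) = Divisor.degree D + 1 - g :=
    fun D => by rw [hrr D, hgen]
  exact ⟨W, hrr', hdeg, hl, s27w_finrank_L_zero hR, fun W' hW' =>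
    s27w_canonical_unique hW' hR.res (s27w_finrank_L_zero hR) hrr'⟩

end Fermat.Agent.Lib.S27
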