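/-
Programme Z (S27), brick [ZASM-a] (helper6, prefix `s27w_`), part 2: a function field over `𝔽̄_p`
with a Frobenius structure carries an abstract curve structure `s27_Dyn` on `(Place, Pic)`:
`s27_DynExists` from `s27_FrobExists` + `s27_ZB` + Riemann–Roch duality.
-/
import Fermat.Agent.Lib.S27.WAsmPush
import Fermat.Agent.Lib.S27.WIface

set_option autoImplicit false

noncomputable section

namespace Fermat.Agent.Lib.S27

open AlgebraicCurve Fermat.Agent.Lib.FF Fermat.Agent.Lib.S19 Fermat.Agent.Lib.S44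

universe u v

section Asm

variable {p : ℕ} {k : Type u} {Fb : Type v} [Field k] [Field Fb] [Algebra k Fb]

/-- the Riemann–Roch dimension of a class. -/
def s27w_dim (C : Pic k Fb) : ℕ :=
  Module.finrank k ↥(riemannRochSpace (Quotient.out C : Divisor k Fb))

theorem s27w_mk_out (C : Pic k Fb) :
    (QuotientAddGroup.mk (Quotient.out C : Divisor k Fb) : Pic k Fb) = C :=
  QuotientAddGroup.out_eq' C

theorem s27w_dim_mk (D : Divisor k Fb) :
    s27w_dim (QuotientAddGroup.mk D : Pic k Fb) = Module.finrank k ↥(riemannRochSpace D) :=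
  s27w_finrank_L_congr (s27w_mk_eq_mk_iff.mp (s27w_mk_out _))

variable (Φ : s27_Frob p k Fb)

/-- Frobenius on `Pic`. -/
def s27w_Theta : Pic k Fb ≃+ Pic k Fb :=
  QuotientAddGroup.congr _ _ (s27w_push Φ.θ) (s27w_map_principal Φ.φ Φ.θ Φ.ord_map)

theorem s27w_Theta_mk (D : Divisor k Fb) :
    s27w_Theta Φ (QuotientAddGroup.mk D) = QuotientAddGroup.mk (s27w_push Φ.θ D) := rfl

theorem s27w_Theta_iterate_mk (n : ℕ) (D : Divisor k Fb) :
    (⇑(s27w_Theta Φ))^[n] (QuotientAddGroup.mk D) =
      QuotientAddGroup.mk (Finsupp.mapDomain (⇑(Φ.θ ^ n)) D) := by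
  induction n with
  | zero => simp
  | succ n ih =>
    rw [Function.iterate_succ_apply', ih, s27w_Theta_mk, s27w_push_eq, ← Finsupp.mapDomain_comp,
      pow_succ', Equiv.Perm.coe_mul]

end Asm

/-- **[ZASM-a]**: `s27_DynExists` from the Frobenius structure, the counting and duality. -/
theorem s27w_dynExists (hA : s27_FrobExists.{u, v}) (hB : s27_ZB.{u, v}) :
    s27_DynExists.{u, v} := by
  intro p _ k Fb _ _ _ hk g hF
  obtain ⟨Φ⟩ := hA p k Fb hk g hF
  obtain ⟨hac, hchar, hper⟩ := hk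
  haveI := hac
  haveI := hchar
  haveI : ExpChar k p := ExpChar.prime (Fact.out : p.Prime)
  haveI := hF.pd
  obtain ⟨W₀, hrr, -, -, hl0, huniq⟩ := s27w_dual_full k Fb g hF
  -- the semilinearity of `φ`
  have hσbij : Function.Bijective (fun c : k => c ^ (p ^ Φ.f)) := by
    have := (iterateFrobeniusEquiv k p Φ.f).bijective
    have h2 : (⇑(iterateFrobeniusEquiv k p Φ.f) : k → k) = fun c : k => c ^ (p ^ Φ.f) := by
      funext c
      exact iterateFrobeniusEquiv_def k p Φ.f c
    rwa [h2] at this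
  have hfin : ∀ D : Divisor k Fb,
      Module.finrank k ↥(riemannRochSpace (s27w_push Φ.θ D)) =
        Module.finrank k ↥(riemannRochSpace D) :=
    s27w_finrank_push Φ.φ Φ.θ Φ.ord_map _ hσbij Φ.map_k
  have hdegpush : ∀ D : Divisor k Fb, Divisor.degree (s27w_push Φ.θ D) = Divisor.degree D :=
    s27w_degree_push hF.deg1 Φ.θ
  have hdegmk : ∀ D : Divisor k Fb,
      s27_picDeg k Fb hF.pd (QuotientAddGroup.mk D) = Divisor.degree D := fun D => rfl
  -- the canonical class is fixed
  have hWfix : s27w_Theta Φ (QuotientAddGroup.mk W₀) = QuotientAddGroup.mk W₀ := by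
    rw [s27w_Theta_mk, s27w_mk_eq_mk_iff]
    refine huniq _ fun D => ?_
    set E : Divisor k Fb := (s27w_push Φ.θ).symm D with hE
    have hD : D = s27w_push Φ.θ E := by rw [hE, AddEquiv.apply_symm_apply]
    have h1 : s27w_push Φ.θ W₀ - D = s27w_push Φ.θ (W₀ - E) := by rw [hD, map_sub]
    rw [h1, hfin, hD, hfin, hdegpush]
    exact hrr E
  refine ⟨{
    θ := Φ.θ
    per := Φ.per_pl
    fin := Φ.fin_pl
    Θ := s27w_Theta Φ
    cls := QuotientAddGroup.mk' _
    cls_surj := QuotientAddGroup.mk'_surjective _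
    cls_map := fun D => by
      show (QuotientAddGroup.mk (Finsupp.mapDomain (⇑Φ.θ) D) : Pic k Fb) =
        s27w_Theta Φ (QuotientAddGroup.mk D)
      rw [s27w_Theta_mk, s27w_push_eq]
    deg := s27_picDeg k Fb hF.pd
    deg_cls := fun D => by
      show s27_picDeg k Fb hF.pd (QuotientAddGroup.mk D) = _
      rw [hdegmk]
      exact s27w_degree_eq_sum' hF.deg1 D
    q := p ^ Φ.f
    one_lt_q := Nat.one_lt_pow Φ.f_pos.ne' (Fact.out : p.Prime).one_lt
    g := g
    dim := s27w_dim
    W := QuotientAddGroup.mk W₀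
    W_fix := hWfix
    dim_map := fun C => by
      rw [← s27w_mk_out C, s27w_Theta_mk, s27w_dim_mk, s27w_dim_mk, hfin]
    rr := fun C => by
      rw [← s27w_mk_out C, ← QuotientAddGroup.mk_sub, s27w_dim_mk, s27w_dim_mk, hdegmk]
      exact hrr _
    dim_of_neg := fun C hC => by
      rw [← s27w_mk_out C] at hC ⊢
      rw [hdegmk] at hC
      rw [s27w_dim_mk, s27w_L_eq_bot_of_degree_neg hC]
      exact finrank_bot k Fb
    dim_zero := by
      have : (0 : Pic k Fb) = QuotientAddGroup.mk (0 : Divisor k Fb) := rfl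
      rw [this, s27w_dim_mk]
      exact hl0
    count := fun n hn C hC => by
      set D₀ : Divisor k Fb := Quotient.out C with hD₀
      have hC₀ : (QuotientAddGroup.mk D₀ : Pic k Fb) = C := s27w_mk_out C
      have hstab : Finsupp.mapDomain (⇑(Φ.θ ^ n)) D₀ - D₀ ∈
          Divisor.principal (K := k) (F := Fb) := by
        rw [← s27w_mk_eq_mk_iff, ← s27w_Theta_iterate_mk, hC₀]
        exact hC
      have := hB p k Fb ⟨hac, hchar, hper⟩ g hF Φ n hn D₀ hstab
      have hset : {D : Place k Fb →₀ ℕ | Finsupp.mapDomain (⇑(Φ.θ ^ n)) D = D ∧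
          (QuotientAddGroup.mk' (Divisor.principal (K := k) (F := Fb)))
            (D.mapRange (Nat.cast : ℕ → ℤ) Nat.cast_zero) = C} =
          {D : Place k Fb →₀ ℕ | Finsupp.mapDomain (⇑(Φ.θ ^ n)) D = D ∧
            s27_toDiv D - D₀ ∈ Divisor.principal (K := k) (F := Fb)} := by
        ext D
        simp only [Set.mem_setOf_eq]
        refine and_congr_right fun _ => ?_
        rw [← s27w_mk_eq_mk_iff, hC₀]
        rfl
      rw [hset]
      exact this }, fun D => rfl, rfl, rfl, Φ.f, Φ.f_pos, rfl⟩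

end Fermat.Agent.Lib.S27
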