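import Mathlib

/-!
# Programme Z (S27), brick `L`: semilinear (Lang / Galois) descent

Mathlib-only.  `k` a field, `σ : k →+* k` a ring endomorphism, `V` a `k`-module and
`φ : V →+ V` a `σ`-semilinear additive map.  If `w` is fixed by `φ^[n]` (`n > 0`) and the
maps `σ^[i]`, `i < n`, are pairwise distinct on `{a | σ^[n] a = a}`, then `w` is a `k`-linear
combination of `φ`-fixed vectors (`s27l_mem_span_fixed`).  A family of `φ`-fixed vectors which is
linearly independent over the fixed field of `σ` stays independent over `k`
(`s27l_linearIndependent`).  Consequently `finrank k₀ V^φ = finrank k V` and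
`#V^φ = (#k₀) ^ finrank k V` (`s27l_finrank_fixed`, `s27l_card_fixed`).
-/

namespace Fermat.Agent.Lib.S27

open Finset

section Descent

variable {k : Type*} [Field k] {V : Type*} [AddCommGroup V] [Module k V]

/-- `φ` is `σ`-semilinear. -/
def s27l_Semilinear (σ : k →+* k) (φ : V →+ V) : Prop :=
  ∀ (a : k) (v : V), φ (a • v) = σ a • φ v

theorem s27l_iterate_smul {σ : k →+* k} {φ : V →+ V} (hφ : s27l_Semilinear σ φ)
    (i : ℕ) (a : k) (v : V) : φ^[i] (a • v) = σ^[i] a • φ^[i] v := by
  induction i with
  | zero => rfl
  | succ i ih =>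
    rw [Function.iterate_succ_apply', Function.iterate_succ_apply',
      Function.iterate_succ_apply', ih, hφ]

theorem s27l_sum_shift {A : Type*} [AddCommGroup A] (f : ℕ → A) (n : ℕ) (h : f n = f 0) :
    ∑ i ∈ range n, f (i + 1) = ∑ i ∈ range n, f i := by
  have h1 := Finset.sum_range_succ' f n
  have h2 := Finset.sum_range_succ f n
  rw [h1, h] at h2
  exact add_right_cancel h2

/-- The "trace" `∑_{i<n} φ^[i] (a • w)` is `φ`-fixed when `φ^[n] w = w` and `σ^[n] a = a`. -/
theorem s27l_trace_fixed {σ : k →+* k} {φ : V →+ V} (hφ : s27l_Semilinear σ φ)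
    {n : ℕ} {w : V} (hw : φ^[n] w = w) {a : k} (ha : σ^[n] a = a) :
    φ (∑ i ∈ range n, φ^[i] (a • w)) = ∑ i ∈ range n, φ^[i] (a • w) := by
  rw [map_sum]
  have h := s27l_sum_shift (fun i => φ^[i] (a • w)) n
    (by simp only [s27l_iterate_smul hφ, hw, ha, Function.iterate_zero, id_eq])
  simpa only [Function.iterate_succ_apply'] using h

/-- **Descent, spanning part.**  A vector fixed by `φ^[n]` lies in the `k`-span of the
`φ`-fixed vectors, provided the `σ^[i]`, `i < n`, are pairwise distinct on the fixed points of
`σ^[n]`. -/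
theorem s27l_mem_span_fixed {σ : k →+* k} {φ : V →+ V} (hφ : s27l_Semilinear σ φ)
    {n : ℕ} (hn : 0 < n)
    (hdist : ∀ i < n, ∀ j < n, i ≠ j → ∃ a : k, σ^[n] a = a ∧ σ^[i] a ≠ σ^[j] a)
    {w : V} (hw : φ^[n] w = w) :
    w ∈ Submodule.span k {v : V | φ v = v} := by
  by_contra hnot
  obtain ⟨f, hfw, hfP⟩ := Submodule.exists_dual_map_eq_bot_of_notMem hnot inferInstance
  have hf0 : ∀ v : V, φ v = v → f v = 0 := by
    intro v hv
    have hmem : f v ∈ Submodule.map f (Submodule.span k {v : V | φ v = v}) :=
      Submodule.mem_map_of_mem (Submodule.subset_span hv)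
    rw [hfP] at hmem
    simpa using hmem
  let G : Submonoid k :=
    { carrier := {a | σ^[n] a = a}
      mul_mem' := by
        intro a b ha hb
        change σ^[n] a = a at ha
        change σ^[n] b = b at hb
        change σ^[n] (a * b) = a * b
        rw [iterate_map_mul, ha, hb]
      one_mem' := by
        change σ^[n] 1 = 1
        exact iterate_map_one σ n }
  let χ : Fin n → (G →* k) := fun i =>
    { toFun := fun a => σ^[(i : ℕ)] (a : k)
      map_one' := by
        show σ^[(i : ℕ)] ((1 : G) : k) = 1
        rw [Submonoid.coe_one]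
        exact iterate_map_one σ i
      map_mul' := by
        intro a b
        show σ^[(i : ℕ)] ((a * b : G) : k) = σ^[(i : ℕ)] (a : k) * σ^[(i : ℕ)] (b : k)
        rw [Submonoid.coe_mul, iterate_map_mul] }
  have hχ : Function.Injective χ := by
    intro i j hij
    by_contra hne
    have hne' : (i : ℕ) ≠ (j : ℕ) := fun h => hne (Fin.ext h)
    obtain ⟨a, ha, hne2⟩ := hdist i i.2 j j.2 hne'
    apply hne2
    have := DFunLike.congr_fun hij (⟨a, ha⟩ : G)
    exact this
  have hli := (linearIndependent_monoidHom G k).comp χ hχ
  rw [Fintype.linearIndependent_iff] at hli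
  have hzero := hli (fun i => f (φ^[(i : ℕ)] w)) (by
    funext a
    have ha : σ^[n] (a : k) = a := a.2
    have h1 := hf0 _ (s27l_trace_fixed hφ hw ha)
    rw [map_sum] at h1
    simp only [s27l_iterate_smul hφ, map_smul, smul_eq_mul] at h1
    rw [← Fin.sum_univ_eq_sum_range (fun i => σ^[i] (a : k) * f (φ^[i] w)) n] at h1
    simp only [Function.comp_apply, Finset.sum_apply, Pi.smul_apply, smul_eq_mul, Pi.zero_apply]
    rw [← h1]
    refine Finset.sum_congr rfl fun i _ => ?_
    exact mul_comm _ _)
  exact hfw (hzero ⟨0, hn⟩)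

/-- The fixed field of `σ`. -/
abbrev s27l_fixedField (σ : k →+* k) : Subfield k := σ.eqLocusField (RingHom.id k)

theorem s27l_mem_fixedField {σ : k →+* k} {a : k} : a ∈ s27l_fixedField σ ↔ σ a = a := Iff.rfl

/-- The `φ`-fixed vectors, as a module over the fixed field of `σ`. -/
def s27l_fixedSubmodule (σ : k →+* k) (φ : V →+ V) (hφ : s27l_Semilinear σ φ) :
    Submodule (s27l_fixedField σ) V where
  carrier := {v | φ v = v}
  add_mem' := by
    intro a b ha hb
    change φ a = a at ha
    change φ b = b at hb
    change φ (a + b) = a + b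
    rw [map_add, ha, hb]
  zero_mem' := map_zero φ
  smul_mem' := by
    intro a v hv
    change φ v = v at hv
    show φ ((a : k) • v) = (a : k) • v
    rw [hφ, hv, s27l_mem_fixedField.mp a.2]

theorem s27l_mem_fixedSubmodule {σ : k →+* k} {φ : V →+ V} (hφ : s27l_Semilinear σ φ) {v : V} :
    v ∈ s27l_fixedSubmodule σ φ hφ ↔ φ v = v := Iff.rfl

/-- **Descent, independence part.**  `φ`-fixed vectors that are independent over the fixed field
of `σ` are independent over `k`. -/
theorem s27l_linearIndependent {σ : k →+* k} {φ : V →+ V} (hφ : s27l_Semilinear σ φ)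
    {ι : Type*} (v : ι → V) (hv : ∀ i, φ (v i) = v i)
    (hli : LinearIndependent (s27l_fixedField σ) v) : LinearIndependent k v := by
  classical
  rw [linearIndependent_iff']
  intro s
  induction s using Finset.induction_on with
  | empty => intro g _ i hi; simp at hi
  | insert j t hjt ih =>
    intro g hg
    rw [Finset.sum_insert hjt] at hg
    by_cases hgj : g j = 0
    · rw [hgj, zero_smul, zero_add] at hg
      have := ih g hg
      intro i hi
      rcases Finset.mem_insert.mp hi with rfl | hi
      · exact hgj
      · exact this i hi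
    · exfalso
      -- normalise
      set h : ι → k := fun i => (g j)⁻¹ * g i with hh
      have hsum : v j + ∑ i ∈ t, h i • v i = 0 := by
        have := congrArg (fun x => (g j)⁻¹ • x) hg
        simp only [smul_add, smul_zero, Finset.smul_sum, smul_smul] at this
        rw [inv_mul_cancel₀ hgj, one_smul] at this
        exact this
      have hsum2 : v j + ∑ i ∈ t, σ (h i) • v i = 0 := by
        have := congrArg φ hsum
        rw [map_add, map_sum, map_zero, hv j] at this
        have hφ' : ∀ (a : k) (x : V), φ (a • x) = σ a • φ x := hφ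
        simpa only [hφ', hv] using this
      have hdiff : ∑ i ∈ t, (σ (h i) - h i) • v i = 0 := by
        simp only [sub_smul, Finset.sum_sub_distrib]
        have e1 : ∑ i ∈ t, σ (h i) • v i = - v j := by
          rw [eq_neg_iff_add_eq_zero, add_comm]; exact hsum2
        have e2 : ∑ i ∈ t, h i • v i = - v j := by
          rw [eq_neg_iff_add_eq_zero, add_comm]; exact hsum
        rw [e1, e2, sub_self]
      have hfix : ∀ i ∈ t, σ (h i) = h i := fun i hi => sub_eq_zero.mp (ih _ hdiff i hi)
      -- coefficients in the fixed field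
      let h₀ : ι → s27l_fixedField σ := fun i =>
        if hi : σ (h i) = h i then ⟨h i, hi⟩ else 0
      have hh₀ : ∀ i ∈ t, ((h₀ i : s27l_fixedField σ) : k) = h i := by
        intro i hi
        simp only [h₀, dif_pos (hfix i hi)]
      let c : ι → s27l_fixedField σ := fun i => if i = j then 1 else h₀ i
      have hc : ∑ i ∈ insert j t, c i • v i = 0 := by
        rw [Finset.sum_insert hjt]
        have : c j • v j = v j := by simp only [c, if_pos, one_smul]
        rw [this, ← hsum]
        congr 1
        refine Finset.sum_congr rfl fun i hi => ?_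
        have hij : i ≠ j := fun h => hjt (h ▸ hi)
        simp only [c, if_neg hij]
        show ((h₀ i : s27l_fixedField σ) : k) • v i = h i • v i
        rw [hh₀ i hi]
      have := linearIndependent_iff'.mp hli (insert j t) c hc j (Finset.mem_insert_self j t)
      simp only [c, if_pos] at this
      exact one_ne_zero this

/-- **Descent, dimension.**  If every vector is `φ`-periodic and the powers of `σ` are
distinct on the periodic scalars, then the fixed vectors have the same dimension over the fixed
field as `V` has over `k`. -/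
theorem s27l_finrank_fixed {σ : k →+* k} {φ : V →+ V} (hφ : s27l_Semilinear σ φ)
    (hper : ∀ w : V, ∃ n, 0 < n ∧ φ^[n] w = w)
    (hdist : ∀ n i j, i < n → j < n → i ≠ j → ∃ a : k, σ^[n] a = a ∧ σ^[i] a ≠ σ^[j] a) :
    Module.finrank (s27l_fixedField σ) (s27l_fixedSubmodule σ φ hφ) = Module.finrank k V := by
  classical
  set k₀ := s27l_fixedField σ
  set W := s27l_fixedSubmodule σ φ hφ
  let b := Module.Free.chooseBasis k₀ W
  let v : Module.Free.ChooseBasisIndex k₀ W → V := fun i => (b i : V)
  have hv : ∀ i, φ (v i) = v i := fun i => (b i).2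
  have hli₀ : LinearIndependent k₀ v :=
    b.linearIndependent.map' W.subtype (Submodule.ker_subtype W)
  have hli : LinearIndependent k v := s27l_linearIndependent hφ v hv hli₀
  have hsp : ⊤ ≤ Submodule.span k (Set.range v) := by
    intro w _
    obtain ⟨n, hn, hw⟩ := hper w
    have h1 := s27l_mem_span_fixed hφ hn (fun i hi j hj hij => hdist n i j hi hj hij) hw
    refine Submodule.span_le.mpr ?_ h1
    intro x hx
    have hxW : x ∈ W := hx
    have h2 : (⟨x, hxW⟩ : W) ∈ Submodule.span k₀ (Set.range b) := b.mem_span _
    have key : ∀ y : W, y ∈ Submodule.span k₀ (Set.range b) →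
        (y : V) ∈ Submodule.span k (Set.range v) := by
      intro y hy
      induction hy using Submodule.span_induction with
      | mem y hy =>
        obtain ⟨i, rfl⟩ := hy
        exact Submodule.subset_span ⟨i, rfl⟩
      | zero => simp
      | add y z _ _ hy hz =>
        rw [Submodule.coe_add]; exact Submodule.add_mem _ hy hz
      | smul a y _ hy =>
        rw [Submodule.coe_smul]
        exact Submodule.smul_mem _ (a : k) hy
    exact key _ h2
  let b' : Module.Basis _ k V := Module.Basis.mk hli hsp
  rw [Module.finrank_eq_nat_card_basis b, Module.finrank_eq_nat_card_basis b']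

/-- **Descent, counting.**  `#V^φ = (#k₀) ^ dim_k V`. -/
theorem s27l_card_fixed {σ : k →+* k} {φ : V →+ V} (hφ : s27l_Semilinear σ φ)
    (hper : ∀ w : V, ∃ n, 0 < n ∧ φ^[n] w = w)
    (hdist : ∀ n i j, i < n → j < n → i ≠ j → ∃ a : k, σ^[n] a = a ∧ σ^[i] a ≠ σ^[j] a)
    [Module.Finite k V] :
    Nat.card {v : V // φ v = v} = Nat.card (s27l_fixedField σ) ^ Module.finrank k V := by
  classical
  rw [← s27l_finrank_fixed hφ hper hdist]
  set k₀ := s27l_fixedField σ
  set W := s27l_fixedSubmodule σ φ hφ
  have hfin : Module.Finite k₀ W := by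
    by_contra hnf
    have h0 : Module.finrank k₀ W = 0 := Module.finrank_of_not_finite hnf
    -- then `finrank k V = 0`, so `V` is trivial, so `W` is trivial, hence finite
    have h1 : Module.finrank k V = 0 := by
      rw [← s27l_finrank_fixed hφ hper hdist]; exact h0
    have hsub : Subsingleton V := Module.finrank_zero_iff.mp h1
    apply hnf
    have : Subsingleton W := inferInstance
    infer_instance
  exact Module.natCard_eq_pow_finrank (K := k₀) (V := W)

end Descent

end Fermat.Agent.Lib.S27
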