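import Mathlib
import Fermat.Agent.Lib.S27.LDescent

/-!
# Programme Z (S27), brick `L`: the `q`-Frobenius of an algebraically closed field of
characteristic `p` satisfies the hypotheses of the descent lemmas of `LDescent`

Mathlib-only (plus `LDescent`).
-/

namespace Fermat.Agent.Lib.S27

open Polynomial

theorem s27l_iterate_pow {K : Type*} [Monoid K] (σ : K → K) (q : ℕ) (hσ : ∀ a, σ a = a ^ q)
    (n : ℕ) (a : K) : σ^[n] a = a ^ (q ^ n) := by
  induction n with
  | zero => simp
  | succ n ih => rw [Function.iterate_succ_apply', ih, hσ, ← pow_mul, ← pow_succ]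

section Roots

variable (K : Type*) [Field K]

/-- The solutions of `a ^ N = a` are finite in number. -/
theorem s27l_finite_pow_eq (N : ℕ) (hN : 1 < N) : Finite {a : K // a ^ N = a} := by
  classical
  have hne : (X ^ N - X : K[X]) ≠ 0 := FiniteField.X_pow_card_sub_X_ne_zero K hN
  have : {a : K | a ^ N = a} ⊆ ((X ^ N - X : K[X]).roots.toFinset : Set K) := by
    intro a ha
    have ha' : a ^ N = a := ha
    simp [hne, ha']
  exact Set.Finite.subset (Finset.finite_toSet _) this

variable [IsAlgClosed K] (p : ℕ) [Fact p.Prime] [CharP K p]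

/-- In an algebraically closed field of characteristic `p`, `a ^ (p ^ m) = a` has exactly `p ^ m`
solutions. -/
theorem s27l_card_pow_eq (m : ℕ) (hm : 0 < m) :
    Nat.card {a : K // a ^ (p ^ m) = a} = p ^ m := by
  classical
  have hp1 : 1 < p := (Fact.out : p.Prime).one_lt
  have hsep : (X ^ (p ^ m) - X : K[X]).Separable :=
    galois_poly_separable p (p ^ m) (dvd_pow_self p hm.ne')
  have hdeg : (X ^ (p ^ m) - X : K[X]).natDegree = p ^ m :=
    FiniteField.X_pow_card_pow_sub_X_natDegree_eq K hm.ne' hp1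
  have hne : (X ^ (p ^ m) - X : K[X]) ≠ 0 :=
    FiniteField.X_pow_card_pow_sub_X_ne_zero K hm.ne' hp1
  have h1 := card_rootSet_eq_natDegree (K := K) hsep (IsAlgClosed.splits _)
  rw [hdeg] at h1
  have h2 : Nat.card {a : K // a ^ (p ^ m) = a}
      = Nat.card ((X ^ (p ^ m) - X : K[X]).rootSet K) := by
    refine Nat.card_congr (Equiv.subtypeEquivRight fun a => ?_)
    rw [mem_rootSet]
    simp [hne, sub_eq_zero]
  rw [h2, Nat.card_eq_fintype_card, h1]

end Roots

section Frob

variable (K : Type*) [Field K] (p : ℕ) [Fact p.Prime] [CharP K p]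

/-- **Distinctness of the powers of the `q`-Frobenius on `𝔽_{qⁿ}`**, the hypothesis `hdist`
of `s27l_mem_span_fixed`. -/
theorem s27l_frob_hdist [IsAlgClosed K] (f : ℕ) (hf : 0 < f) (σ : K →+* K)
    (hσ : ∀ a, σ a = a ^ (p ^ f)) :
    ∀ n i j, i < n → j < n → i ≠ j → ∃ a : K, σ^[n] a = a ∧ σ^[i] a ≠ σ^[j] a := by
  have key : ∀ n i j, i < n → j < n → i < j → ∃ a : K, σ^[n] a = a ∧ σ^[i] a ≠ σ^[j] a := by
    intro n i j _ hj hij
    obtain ⟨d, rfl⟩ : ∃ d, j = i + d := ⟨j - i, by omega⟩
    have hd : 0 < d := by omega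
    have hdn : d < n := by omega
    -- a solution of `a^(q^n) = a` which is not a solution of `a^(q^d) = a`
    have hex : ∃ a : K, a ^ (p ^ (f * n)) = a ∧ a ^ (p ^ (f * d)) ≠ a := by
      by_contra hcon
      push Not at hcon
      have hfn : 0 < f * n := Nat.mul_pos hf (by omega)
      have hfd : 0 < f * d := Nat.mul_pos hf hd
      have hp1 : 1 < p := (Fact.out : p.Prime).one_lt
      have hfin : Finite {a : K // a ^ (p ^ (f * d)) = a} :=
        s27l_finite_pow_eq K _ (Nat.one_lt_pow hfd.ne' hp1)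
      have hle := Nat.card_le_card_of_injective
        (fun a : {a : K // a ^ (p ^ (f * n)) = a} =>
          (⟨a.1, hcon a.1 a.2⟩ : {a : K // a ^ (p ^ (f * d)) = a}))
        (fun a b hab => Subtype.ext (by simpa using congrArg Subtype.val hab))
      rw [s27l_card_pow_eq K p _ hfn, s27l_card_pow_eq K p _ hfd] at hle
      have hlt : p ^ (f * d) < p ^ (f * n) :=
        Nat.pow_lt_pow_right hp1 (Nat.mul_lt_mul_of_pos_left hdn hf)
      omega
    obtain ⟨a, han, had⟩ := hex
    refine ⟨a, ?_, ?_⟩
    · rw [s27l_iterate_pow σ _ hσ, ← pow_mul]; exact han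
    · intro heq
      rw [Function.iterate_add_apply] at heq
      have hinj : Function.Injective σ^[i] := (σ.injective).iterate i
      have := hinj heq
      rw [s27l_iterate_pow σ _ hσ, ← pow_mul] at this
      exact had this.symm
  intro n i j hi hj hij
  rcases lt_or_gt_of_ne hij with h | h
  · exact key n i j hi hj h
  · obtain ⟨a, ha, hne⟩ := key n j i hj hi h
    exact ⟨a, ha, hne.symm⟩

/-- The fixed field of the `q`-Frobenius of an algebraically closed field has `q` elements. -/
theorem s27l_card_fixedField [IsAlgClosed K] (f : ℕ) (hf : 0 < f) (σ : K →+* K)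
    (hσ : ∀ a, σ a = a ^ (p ^ f)) : Nat.card (s27l_fixedField σ) = p ^ f := by
  rw [← s27l_card_pow_eq K p f hf]
  refine Nat.card_congr (Equiv.subtypeEquivRight fun a => ?_)
  rw [s27l_mem_fixedField, hσ]

omit [Fact p.Prime] in
/-- An element of a finite subfield is Frobenius-periodic. -/
theorem s27l_pow_eq_of_mem_finite (E : Subfield K) [Finite E] {a : K} (ha : a ∈ E) :
    ∃ m, 0 < m ∧ a ^ (p ^ m) = a := by
  classical
  let _ : Fintype E := Fintype.ofFinite E
  have : CharP E p := by
    refine (RingHom.charP_iff (E.subtype) E.subtype_injective p).mpr inferInstance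
  obtain ⟨m, -, hm⟩ := FiniteField.card E p
  refine ⟨m, m.pos, ?_⟩
  have h1 := FiniteField.pow_card (⟨a, ha⟩ : E)
  rw [hm] at h1
  have := congrArg (E.subtype) h1
  simpa using this

omit [Fact p.Prime] [CharP K p] in
/-- An element algebraic over the prime field is periodic for the `q`-Frobenius. -/
theorem s27l_frob_periodic_of_pow_eq (f : ℕ) (σ : K →+* K)
    (hσ : ∀ a, σ a = a ^ (p ^ f)) {a : K} {m : ℕ} (hm : 0 < m) (ha : a ^ (p ^ m) = a) :
    ∃ n, 0 < n ∧ σ^[n] a = a := by
  refine ⟨m, hm, ?_⟩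
  rw [s27l_iterate_pow σ _ hσ, ← pow_mul, mul_comm, pow_mul]
  have := s27l_iterate_pow (fun x : K => x ^ (p ^ m)) (p ^ m) (fun _ => rfl) f a
  rw [← this]
  exact Function.iterate_fixed ha f

theorem s27l_frob_periodic [Algebra (ZMod p) K] (f : ℕ) (σ : K →+* K)
    (hσ : ∀ a, σ a = a ^ (p ^ f)) {a : K} (ha : IsAlgebraic (ZMod p) a) :
    ∃ n, 0 < n ∧ σ^[n] a = a := by
  have hint : IsIntegral (ZMod p) a := ha.isIntegral
  have : FiniteDimensional (ZMod p) (IntermediateField.adjoin (ZMod p) {a}) :=
    IntermediateField.adjoin.finiteDimensional hint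
  have : Finite (IntermediateField.adjoin (ZMod p) {a}) :=
    Module.finite_of_finite (ZMod p)
  have : Finite (IntermediateField.adjoin (ZMod p) {a}).toSubfield := ‹_›
  obtain ⟨m, hm, hpow⟩ := s27l_pow_eq_of_mem_finite K p
    (IntermediateField.adjoin (ZMod p) {a}).toSubfield
    (IntermediateField.mem_adjoin_simple_self (ZMod p) a)
  exact s27l_frob_periodic_of_pow_eq K p f σ hσ hm hpow

end Frob

end Fermat.Agent.Lib.S27
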