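import Mathlib
import Fermat.Agent.Lib.S27.LDescent

/-!
# Programme Z (S27), brick `L`: Hilbert 90 for a periodic field endomorphism

Mathlib-only (plus `LDescent`).  `F` a field, `φ : F →+* F`.  If the maps `φ^[i]`, `i < n`, are
pairwise distinct on the fixed points of `φ^[n]` and `f ∈ F` has "norm" `∏_{i<n} φ^[i] f = 1`,
then `f = g / φ g` for some `g ≠ 0` (`s27l_hilbert90`).
-/

namespace Fermat.Agent.Lib.S27

open Finset

section Hilbert

variable {F : Type*} [Field F]

/-- The twisted Frobenius `v ↦ f * φ v`. -/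
def s27l_twist (φ : F →+* F) (f : F) : F →+ F :=
  (AddMonoidHom.mulLeft f).comp φ.toAddMonoidHom

theorem s27l_twist_apply (φ : F →+* F) (f v : F) : s27l_twist φ f v = f * φ v := rfl

theorem s27l_twist_semilinear (φ : F →+* F) (f : F) : s27l_Semilinear φ (s27l_twist φ f) := by
  intro a v
  simp only [s27l_twist_apply, smul_eq_mul, map_mul]
  ring

/-- The partial norms `N_m f = ∏_{i<m} φ^[i] f`. -/
def s27l_norm (φ : F →+* F) (m : ℕ) (f : F) : F := ∏ i ∈ range m, φ^[i] f

theorem s27l_norm_zero (φ : F →+* F) (f : F) : s27l_norm φ 0 f = 1 := by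
  simp [s27l_norm]

theorem s27l_norm_succ (φ : F →+* F) (m : ℕ) (f : F) :
    s27l_norm φ (m + 1) f = f * φ (s27l_norm φ m f) := by
  unfold s27l_norm
  rw [Finset.prod_range_succ', map_prod, mul_comm]
  simp only [Function.iterate_succ_apply', Function.iterate_zero, id_eq]

theorem s27l_twist_iterate (φ : F →+* F) (f : F) (m : ℕ) (v : F) :
    (s27l_twist φ f)^[m] v = s27l_norm φ m f * φ^[m] v := by
  induction m with
  | zero => simp [s27l_norm_zero]
  | succ m ih =>
    rw [Function.iterate_succ_apply', ih, s27l_twist_apply, s27l_norm_succ,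
      Function.iterate_succ_apply', map_mul, mul_assoc]

/-- **Hilbert 90** for a field endomorphism: a norm-one element is of the form `g / φ g`. -/
theorem s27l_hilbert90 (φ : F →+* F) {n : ℕ} (hn : 0 < n)
    (hdist : ∀ i < n, ∀ j < n, i ≠ j → ∃ a : F, φ^[n] a = a ∧ φ^[i] a ≠ φ^[j] a)
    {f : F} (hf : s27l_norm φ n f = 1) :
    ∃ g : F, g ≠ 0 ∧ f * φ g = g := by
  have h1 : (s27l_twist φ f)^[n] (1 : F) = 1 := by
    rw [s27l_twist_iterate, hf, one_mul]
    exact iterate_map_one φ n
  have hmem := s27l_mem_span_fixed (s27l_twist_semilinear φ f) hn hdist h1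
  by_contra hcon
  push Not at hcon
  have hzero : {v : F | s27l_twist φ f v = v} ⊆ ({0} : Set F) := by
    intro v hv
    by_contra hv0
    exact hv0 (by
      by_contra hne
      exact hcon v hne hv)
  have : (1 : F) ∈ Submodule.span F ({0} : Set F) := Submodule.span_mono hzero hmem
  rw [Submodule.span_zero_singleton] at this
  exact one_ne_zero ((Submodule.mem_bot F).mp this)

/-- Norms of a `φ^[n]`-fixed element along multiples of `n`. -/
theorem s27l_norm_mul (φ : F →+* F) (n t : ℕ) (f : F) :
    s27l_norm φ (n * t) f = ∏ s ∈ range t, φ^[n * s] (s27l_norm φ n f) := by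
  induction t with
  | zero => simp [s27l_norm_zero]
  | succ t ih =>
    rw [Finset.prod_range_succ, ← ih]
    unfold s27l_norm
    rw [Nat.mul_succ, Finset.prod_range_add]
    congr 1
    have hpow : ∀ x : F, φ^[n * t] x = (φ ^ (n * t)) x := fun x => by rw [RingHom.coe_pow]
    rw [hpow, map_prod]
    refine Finset.prod_congr rfl fun i _ => ?_
    rw [← hpow, ← Function.iterate_add_apply]

end Hilbert

end Fermat.Agent.Lib.S27
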