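import Mathlib
import Fermat.Agent.Lib.S27.LDescent

/-!
# Programme Z (S27), brick [ZB], algebraic core: counting the stable lines of a semilinear map

Mathlib + `LDescent`.  `V` a finite-dimensional `k`-space, `Ψ : V →+ V` a `σ`-semilinear map all of
whose orbits are finite (and the descent hypothesis `hdist` on `σ`), `Q` the cardinality of the
fixed field of `σ`, and Lang's theorem for `𝔾_m` (`hLang`).  If `π : V → T` classifies the nonzero
vectors up to nonzero scalars, then the number of classes `π y` with `Ψ y ∈ kˣ y`, times `Q - 1`,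
is `Q ^ dim V - 1` (`s27z_count_lines`).
-/

set_option autoImplicit false

noncomputable section

namespace Fermat.Agent.Lib.S27

section Lines

variable {k : Type*} [Field k] {V : Type*} [AddCommGroup V] [Module k V] {T : Type*}

/-- the classes of `Ψ`-stable lines. -/
def s27z_stableLines (Ψ : V →+ V) (π : V → T) : Set T :=
  {t | ∃ y : V, y ≠ 0 ∧ π y = t ∧ ∃ c : k, c ≠ 0 ∧ Ψ y = c • y}

theorem s27z_exists_fixed_rep {σ : k →+* k} {Ψ : V →+ V} (hΨ : s27l_Semilinear σ Ψ)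
    (hLang : ∀ c : k, c ≠ 0 → ∃ b : k, b ≠ 0 ∧ σ b * c = b)
    {π : V → T}
    (hπ : ∀ y y' : V, y ≠ 0 → y' ≠ 0 → (π y = π y' ↔ ∃ b : k, b ≠ 0 ∧ y' = b • y))
    {t : T} (ht : t ∈ s27z_stableLines (k := k) Ψ π) :
    ∃ y : V, y ≠ 0 ∧ π y = t ∧ Ψ y = y := by
  obtain ⟨y₀, hy₀, hπy₀, c, hc, hΨy₀⟩ := ht
  obtain ⟨b, hb, hbc⟩ := hLang c hc
  have hne : b • y₀ ≠ 0 := smul_ne_zero hb hy₀
  refine ⟨b • y₀, hne, ?_, ?_⟩
  · rw [← hπy₀]
    exact ((hπ y₀ (b • y₀) hy₀ hne).mpr ⟨b, hb, rfl⟩).symm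
  · rw [hΨ, hΨy₀, smul_smul, hbc]

/-- **counting the stable lines.** -/
theorem s27z_count_lines {σ : k →+* k} {Ψ : V →+ V} (hΨ : s27l_Semilinear σ Ψ)
    (hper : ∀ w : V, ∃ n, 0 < n ∧ Ψ^[n] w = w)
    (hdist : ∀ n i j, i < n → j < n → i ≠ j → ∃ a : k, σ^[n] a = a ∧ σ^[i] a ≠ σ^[j] a)
    [Module.Finite k V] (Q : ℕ) (hQ : Nat.card (s27l_fixedField σ) = Q) (hQ1 : 1 < Q)
    (hLang : ∀ c : k, c ≠ 0 → ∃ b : k, b ≠ 0 ∧ σ b * c = b)
    (π : V → T)
    (hπ : ∀ y y' : V, y ≠ 0 → y' ≠ 0 → (π y = π y' ↔ ∃ b : k, b ≠ 0 ∧ y' = b • y)) :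
    (s27z_stableLines (k := k) Ψ π).ncard * (Q - 1) = Q ^ Module.finrank k V - 1 := by
  classical
  set k₀ := s27l_fixedField σ with hk₀
  have hfin₀ : Finite k₀ := Nat.finite_of_card_ne_zero (by rw [hQ]; omega)
  -- the fixed vectors
  have hcard := s27l_card_fixed hΨ hper hdist
  rw [hQ] at hcard
  set Sfix : Set V := {v | Ψ v = v} with hSfix
  have hSfix_card : Sfix.ncard = Q ^ Module.finrank k V := by
    rw [← hcard, ← Nat.card_coe_set_eq]
    rfl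
  have h0mem : (0 : V) ∈ Sfix := map_zero Ψ
  have hS_card : (Sfix \ {0}).ncard = Q ^ Module.finrank k V - 1 := by
    rw [Set.ncard_sdiff_singleton_of_mem h0mem, hSfix_card]
  -- a section
  have hsec : ∀ t : ↥(s27z_stableLines (k := k) Ψ π), ∃ y : V, y ≠ 0 ∧ π y = t ∧ Ψ y = y :=
    fun t => s27z_exists_fixed_rep hΨ hLang hπ t.2
  choose s hs0 hsπ hsΨ using hsec
  -- the bijection
  let f : ↥(s27z_stableLines (k := k) Ψ π) × k₀ˣ → ↥(Sfix \ {0}) := fun tb =>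
    ⟨(((tb.2 : k₀ˣ) : k₀) : k) • s tb.1, by
      refine ⟨?_, ?_⟩
      · show Ψ _ = _
        rw [hΨ, hsΨ, s27l_mem_fixedField.mp ((tb.2 : k₀ˣ) : k₀).2]
      · rw [Set.mem_singleton_iff]
        refine smul_ne_zero ?_ (hs0 tb.1)
        intro h
        have : ((tb.2 : k₀ˣ) : k₀) = 0 := Subtype.ext h
        exact (Units.ne_zero tb.2) this⟩
  have hunit_ne : ∀ b : k₀ˣ, (((b : k₀ˣ) : k₀) : k) ≠ 0 := by
    intro b h
    have : ((b : k₀ˣ) : k₀) = 0 := Subtype.ext h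
    exact (Units.ne_zero b) this
  have hfπ : ∀ tb, π ((f tb : ↥(Sfix \ {0})) : V) = (tb.1 : T) := by
    intro tb
    rw [← hsπ tb.1]
    exact ((hπ (s tb.1) _ (hs0 tb.1) (smul_ne_zero (hunit_ne tb.2) (hs0 tb.1))).mpr
      ⟨_, hunit_ne tb.2, rfl⟩).symm
  have hinj : Function.Injective f := by
    rintro ⟨t, b⟩ ⟨t', b'⟩ hff
    have h1 : (t : T) = t' := by
      rw [← hfπ (t, b), ← hfπ (t', b'), hff]
    have ht : t = t' := Subtype.ext h1
    subst ht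
    have h2 : (((b : k₀ˣ) : k₀) : k) • s t = (((b' : k₀ˣ) : k₀) : k) • s t :=
      congrArg Subtype.val hff
    have h3 : (((b : k₀ˣ) : k₀) : k) = (((b' : k₀ˣ) : k₀) : k) := by
      have := sub_eq_zero.mpr h2
      rw [← sub_smul] at this
      rcases smul_eq_zero.mp this with h | h
      · exact sub_eq_zero.mp h
      · exact absurd h (hs0 t)
    have h4 : b = b' := Units.ext (Subtype.ext h3)
    rw [h4]
  have hsurj : Function.Surjective f := by
    rintro ⟨y, hyfix, hy0⟩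
    have hy0' : y ≠ 0 := by simpa using hy0
    have hyΨ : Ψ y = y := hyfix
    have ht : π y ∈ s27z_stableLines (k := k) Ψ π :=
      ⟨y, hy0', rfl, 1, one_ne_zero, by rw [one_smul, hyΨ]⟩
    obtain ⟨b, hb, hyb⟩ := (hπ (s ⟨π y, ht⟩) y (hs0 _) hy0').mp (hsπ ⟨π y, ht⟩)
    have hbfix : σ b = b := by
      have h1 : σ b • s ⟨π y, ht⟩ = b • s ⟨π y, ht⟩ := by
        calc σ b • s ⟨π y, ht⟩ = σ b • Ψ (s ⟨π y, ht⟩) := by rw [hsΨ]
          _ = Ψ (b • s ⟨π y, ht⟩) := (hΨ b (s ⟨π y, ht⟩)).symm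
          _ = Ψ y := congrArg Ψ hyb.symm
          _ = y := hyΨ
          _ = b • s ⟨π y, ht⟩ := hyb
      have := sub_eq_zero.mpr h1
      rw [← sub_smul] at this
      rcases smul_eq_zero.mp this with h | h
      · exact sub_eq_zero.mp h
      · exact absurd h (hs0 _)
    let b₀ : k₀ := ⟨b, s27l_mem_fixedField.mpr hbfix⟩
    have hb₀ : b₀ ≠ 0 := fun h => hb (congrArg Subtype.val h)
    refine ⟨(⟨π y, ht⟩, Units.mk0 b₀ hb₀), ?_⟩
    apply Subtype.ext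
    show (((Units.mk0 b₀ hb₀ : k₀ˣ) : k₀) : k) • s ⟨π y, ht⟩ = y
    rw [Units.val_mk0]
    exact hyb.symm
  have hcongr := Nat.card_congr (Equiv.ofBijective f ⟨hinj, hsurj⟩)
  rw [Nat.card_prod, Nat.card_coe_set_eq, Nat.card_coe_set_eq, Nat.card_units, hQ, hS_card]
    at hcongr
  exact hcongr

end Lines

end Fermat.Agent.Lib.S27
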