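import Mathlib
import Fermat.Agent.Lib.FF.FFBasicPlace
import Fermat.Agent.Lib.S44.RRiemIneq
import Fermat.Agent.Lib.S27.ZIface
import Fermat.Agent.Lib.S27.ZIface2

/-!
# Programme Z (S27), brick [ZB], divisor side

`k` algebraically closed, `Fb / k` with `s27_FF k Fb g`.  The principal divisor `s27z_div y` of a
function, functions with the same divisor differ by a constant (`L(0) = k`), the push-forward of a
principal divisor under a pair `(ψ, ϑ)` with `(ϑ P).ord (ψ y) = P.ord y`, effective divisors as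
divisors.
-/

set_option autoImplicit false

noncomputable section

namespace Fermat.Agent.Lib.S27

open AlgebraicCurve Fermat.Agent.Lib.FF Fermat.Agent.Lib.S44

universe u v

variable {k : Type u} {Fb : Type v} [Field k] [Field Fb] [Algebra k Fb]

/-! ### principal divisors -/

open Classical in
/-- the principal divisor of a function (`0` for `y = 0`). -/
def s27z_div (hpd : HasPrincipalDivisors k Fb) (y : Fb) : Divisor k Fb :=
  if hy : y = 0 then 0 else Classical.choose (hpd.exists_divisor y hy)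

open Classical in
theorem s27z_div_apply (hpd : HasPrincipalDivisors k Fb) (y : Fb) (v : Place k Fb) :
    s27z_div hpd y v = v.ord y := by
  unfold s27z_div
  split_ifs with hy
  · rw [hy, Place.ord_zero]; rfl
  · exact (Classical.choose_spec (hpd.exists_divisor y hy)).1 v

theorem s27z_div_mul (hpd : HasPrincipalDivisors k Fb) {y z : Fb} (hy : y ≠ 0) (hz : z ≠ 0) :
    s27z_div hpd (y * z) = s27z_div hpd y + s27z_div hpd z := by
  ext v
  rw [Finsupp.add_apply, s27z_div_apply, s27z_div_apply, s27z_div_apply, v.ord_mul hy hz]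

theorem s27z_div_const (hpd : HasPrincipalDivisors k Fb) (c : k) :
    s27z_div hpd (algebraMap k Fb c) = 0 := by
  ext v
  rw [s27z_div_apply, ff_ord_algebraMap]; rfl

theorem s27z_div_const_mul (hpd : HasPrincipalDivisors k Fb) (c : k) (hc : c ≠ 0) (y : Fb) :
    s27z_div hpd (algebraMap k Fb c * y) = s27z_div hpd y := by
  rcases eq_or_ne y 0 with rfl | hy
  · rw [mul_zero]
  · rw [s27z_div_mul hpd (by simpa using hc) hy, s27z_div_const, zero_add]

theorem s27z_mem_principal_iff (hpd : HasPrincipalDivisors k Fb) {D : Divisor k Fb} :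
    D ∈ Divisor.principal (K := k) (F := Fb) ↔ ∃ y : Fb, y ≠ 0 ∧ D = s27z_div hpd y := by
  constructor
  · rintro ⟨y, hy, hD⟩
    refine ⟨y, hy, ?_⟩
    ext v
    rw [hD v, s27z_div_apply]
  · rintro ⟨y, hy, rfl⟩
    exact ⟨y, hy, fun v => s27z_div_apply hpd y v⟩

/-- **`L(0) = k`**: a nonzero function with trivial divisor is a nonzero constant. -/
theorem s27z_const_of_div_eq_zero [IsAlgClosed k] {g : ℕ} (hF : s27_FF k Fb g) {y : Fb}
    (hy : y ≠ 0) (hdiv : s27z_div hF.pd y = 0) : ∃ c : k, c ≠ 0 ∧ y = algebraMap k Fb c := by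
  obtain ⟨x, hx, hsep⟩ := hF.gen
  have := hx
  have := hsep
  have := hF.pd
  have hL := s44rm_L_zero (K := k) (F := Fb) x
  have hmem : y ∈ riemannRochSpace (0 : Divisor k Fb) := by
    rw [mem_riemannRochSpace_iff]
    intro v
    right
    have := s27z_div_apply hF.pd y v
    rw [hdiv] at this
    simp only [Finsupp.coe_zero, Pi.zero_apply] at this ⊢
    omega
  rw [hL, Submodule.mem_span_singleton] at hmem
  obtain ⟨c, hc⟩ := hmem
  rw [Algebra.smul_def, mul_one] at hc
  refine ⟨c, ?_, hc.symm⟩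
  rintro rfl
  rw [map_zero] at hc
  exact hy hc.symm

/-- functions with the same divisor differ by a nonzero constant. -/
theorem s27z_div_eq_iff [IsAlgClosed k] {g : ℕ} (hF : s27_FF k Fb g) {y y' : Fb}
    (hy : y ≠ 0) (hy' : y' ≠ 0) :
    s27z_div hF.pd y = s27z_div hF.pd y' ↔ ∃ b : k, b ≠ 0 ∧ y' = algebraMap k Fb b * y := by
  constructor
  · intro h
    have hne : y' * y⁻¹ ≠ 0 := mul_ne_zero hy' (inv_ne_zero hy)
    have hdiv : s27z_div hF.pd (y' * y⁻¹) = 0 := by
      ext v
      rw [s27z_div_apply, v.ord_mul hy' (inv_ne_zero hy), v.ord_inv, ← s27z_div_apply hF.pd,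
        ← s27z_div_apply hF.pd y, h]
      simp
    obtain ⟨b, hb, hyb⟩ := s27z_const_of_div_eq_zero hF hne hdiv
    refine ⟨b, hb, ?_⟩
    rw [← hyb, mul_assoc, inv_mul_cancel₀ hy, mul_one]
  · rintro ⟨b, hb, rfl⟩
    rw [s27z_div_const_mul hF.pd b hb]

/-! ### push-forward -/

/-- the push-forward of a principal divisor. -/
theorem s27z_map_div (hpd : HasPrincipalDivisors k Fb) (ψ : Fb →+* Fb)
    (ϑ : Equiv.Perm (Place k Fb)) (hord : ∀ (P : Place k Fb) (y : Fb), (ϑ P).ord (ψ y) = P.ord y)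
    (y : Fb) : Finsupp.mapDomain (⇑ϑ) (s27z_div hpd y) = s27z_div hpd (ψ y) := by
  ext v
  obtain ⟨v', rfl⟩ := ϑ.surjective v
  rw [Finsupp.mapDomain_apply ϑ.injective, s27z_div_apply, s27z_div_apply, hord]

/-! ### effective divisors -/

theorem s27z_toDiv_apply (D : Place k Fb →₀ ℕ) (v : Place k Fb) :
    s27_toDiv D v = (D v : ℤ) := by
  unfold s27_toDiv
  rw [Finsupp.mapRange_apply]

theorem s27z_toDiv_injective :
    Function.Injective (s27_toDiv : (Place k Fb →₀ ℕ) → Divisor k Fb) := by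
  intro D E h
  ext v
  have := DFunLike.congr_fun h v
  rw [s27z_toDiv_apply, s27z_toDiv_apply] at this
  exact_mod_cast this

theorem s27z_toDiv_map (ϑ : Equiv.Perm (Place k Fb)) (D : Place k Fb →₀ ℕ) :
    s27_toDiv (Finsupp.mapDomain (⇑ϑ) D) = Finsupp.mapDomain (⇑ϑ) (s27_toDiv D) := by
  unfold s27_toDiv
  rw [Finsupp.mapDomain_mapRange _ _ _ _ (fun x y => Nat.cast_add x y)]

/-- the effective divisor with given nonnegative values. -/
def s27z_toEff (D : Divisor k Fb) : Place k Fb →₀ ℕ :=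
  D.mapRange Int.toNat Int.toNat_zero

theorem s27z_toDiv_toEff {D : Divisor k Fb} (hD : ∀ v, 0 ≤ D v) : s27_toDiv (s27z_toEff D) = D := by
  ext v
  rw [s27z_toDiv_apply, s27z_toEff, Finsupp.mapRange_apply, Int.toNat_of_nonneg (hD v)]

theorem s27z_toEff_toDiv (D : Place k Fb →₀ ℕ) : s27z_toEff (s27_toDiv D) = D := by
  ext v
  rw [s27z_toEff, Finsupp.mapRange_apply, s27z_toDiv_apply, Int.toNat_natCast]

/-- membership in `L(D₀)` for nonzero functions. -/
theorem s27z_mem_L_iff (hpd : HasPrincipalDivisors k Fb) {D₀ : Divisor k Fb} {y : Fb}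
    (hy : y ≠ 0) :
    y ∈ riemannRochSpace D₀ ↔ ∀ v, 0 ≤ (D₀ + s27z_div hpd y) v := by
  rw [mem_riemannRochSpace_iff]
  refine forall_congr' fun v => ?_
  rw [Finsupp.add_apply, s27z_div_apply]
  constructor
  · rintro (h | h)
    · exact absurd h hy
    · omega
  · intro h
    right
    omega

end Fermat.Agent.Lib.S27
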