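import Mathlib
import Fermat.Agent.Lib.S27.LDescent
import Fermat.Agent.Lib.S27.LFrob
import Fermat.Agent.Lib.S27.LHilbert
import Fermat.Agent.Lib.S27.ZBDiv

/-!
# Programme Z (S27), brick [ZB]: normalisation of the function `u` with
`div u = ϑ_* D₀ - D₀`

For a pair `(ψ, ϑ)` (field endomorphism, permutation of the places) with
`(ϑ P).ord (ψ y) = P.ord y`, `ψ c = c ^ (p ^ e)` on constants, all places periodic: if
`ϑ_* D₀ - D₀` is principal then it is the divisor of a function `u` with `N_m u = 1` for some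
`m > 0` (`s27z_exists_normalised`).
-/

set_option autoImplicit false

noncomputable section

namespace Fermat.Agent.Lib.S27

open AlgebraicCurve Fermat.Agent.Lib.FF Finset

universe u v

variable {k : Type u} {Fb : Type v} [Field k] [Field Fb] [Algebra k Fb]

/-- a common period for finitely many places. -/
theorem s27z_common_period {Pt : Type*} (ϑ : Equiv.Perm Pt)
    (hper : ∀ P : Pt, ∃ m : ℕ, 0 < m ∧ (ϑ ^ m) P = P) (s : Finset Pt) :
    ∃ m : ℕ, 0 < m ∧ ∀ P ∈ s, (ϑ ^ m) P = P := by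
  classical
  induction s using Finset.induction_on with
  | empty => exact ⟨1, Nat.one_pos, fun P hP => absurd hP (Finset.notMem_empty P)⟩
  | insert a s _ ih =>
    obtain ⟨m, hm, hms⟩ := ih
    obtain ⟨m', hm', hma⟩ := hper a
    refine ⟨m * m', Nat.mul_pos hm hm', fun P hP => ?_⟩
    rcases Finset.mem_insert.mp hP with rfl | hP
    · rw [mul_comm, pow_mul]
      exact Equiv.Perm.pow_apply_eq_self_of_apply_eq_self hma m
    · rw [pow_mul]
      exact Equiv.Perm.pow_apply_eq_self_of_apply_eq_self (hms P hP) m'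

/-- a divisor is fixed by a permutation fixing its support pointwise. -/
theorem s27z_mapDomain_eq_self {Pt M : Type*} [AddCommMonoid M] (f : Pt → Pt) (D : Pt →₀ M)
    (h : ∀ P ∈ D.support, f P = P) : Finsupp.mapDomain f D = D := by
  have h1 : Finsupp.mapDomain f D = Finsupp.mapDomain id D :=
    Finsupp.mapDomain_congr (fun P hP => h P hP)
  rw [h1, Finsupp.mapDomain_id]

/-- some power of `ϑ` fixes a given divisor. -/
theorem s27z_exists_pow_fix {Pt M : Type*} [AddCommMonoid M] (ϑ : Equiv.Perm Pt)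
    (hper : ∀ P : Pt, ∃ m : ℕ, 0 < m ∧ (ϑ ^ m) P = P) (D : Pt →₀ M) :
    ∃ m : ℕ, 0 < m ∧ Finsupp.mapDomain (⇑(ϑ ^ m)) D = D := by
  obtain ⟨m, hm, h⟩ := s27z_common_period ϑ hper D.support
  exact ⟨m, hm, s27z_mapDomain_eq_self _ D h⟩

section Norm

variable (hpd : HasPrincipalDivisors k Fb) (ψ : Fb →+* Fb) (ϑ : Equiv.Perm (Place k Fb))
  (hord : ∀ (P : Place k Fb) (y : Fb), (ϑ P).ord (ψ y) = P.ord y)

theorem s27z_norm_ne_zero {u : Fb} (hu : u ≠ 0) (m : ℕ) : s27l_norm ψ m u ≠ 0 := by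
  unfold s27l_norm
  rw [Finset.prod_ne_zero_iff]
  intro i _
  have hinj : Function.Injective (⇑ψ)^[i] := ψ.injective.iterate i
  intro h
  apply hu
  apply hinj
  rw [h, iterate_map_zero]

include hord in
/-- the divisor of the partial norms. -/
theorem s27z_div_norm {D₀ : Divisor k Fb} {u : Fb} (hu : u ≠ 0)
    (hdiv : s27z_div hpd u = Finsupp.mapDomain (⇑ϑ) D₀ - D₀) (m : ℕ) :
    s27z_div hpd (s27l_norm ψ m u) = Finsupp.mapDomain (⇑(ϑ ^ m)) D₀ - D₀ := by
  induction m with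
  | zero =>
    rw [s27l_norm_zero, pow_zero]
    have : s27z_div hpd (1 : Fb) = 0 := by
      have := s27z_div_const hpd (1 : k)
      rwa [map_one] at this
    rw [this, Equiv.Perm.coe_one, Finsupp.mapDomain_id, sub_self]
  | succ m ih =>
    have hne : s27l_norm ψ m u ≠ 0 := s27z_norm_ne_zero ψ hu m
    have hne' : ψ (s27l_norm ψ m u) ≠ 0 := by
      intro h
      exact hne (ψ.injective (by rw [h, map_zero]))
    rw [s27l_norm_succ, s27z_div_mul hpd hu hne', ← s27z_map_div hpd ψ ϑ hord, ih, hdiv,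
      pow_succ', Equiv.Perm.coe_mul, Finsupp.mapDomain_comp]
    have hsub : Finsupp.mapDomain (⇑ϑ) (Finsupp.mapDomain (⇑(ϑ ^ m)) D₀ - D₀) =
        Finsupp.mapDomain (⇑ϑ) (Finsupp.mapDomain (⇑(ϑ ^ m)) D₀) - Finsupp.mapDomain (⇑ϑ) D₀ :=
      map_sub (Finsupp.mapDomain.addMonoidHom (M := ℤ) (⇑ϑ)) _ _
    rw [hsub]
    abel

end Norm

section Const

variable (p : ℕ) {e : ℕ} (ψ : Fb →+* Fb)
  (hψk : ∀ c : k, ψ (algebraMap k Fb c) = algebraMap k Fb (c ^ (p ^ e)))

include hψk in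
theorem s27z_iterate_const (i : ℕ) (c : k) :
    (⇑ψ)^[i] (algebraMap k Fb c) = algebraMap k Fb (c ^ ((p ^ e) ^ i)) := by
  induction i with
  | zero => simp
  | succ i ih => rw [Function.iterate_succ_apply', ih, hψk, ← pow_mul, ← pow_succ]

include hψk in
theorem s27z_norm_const (m : ℕ) (c : k) :
    s27l_norm ψ m (algebraMap k Fb c) = algebraMap k Fb (c ^ (∑ i ∈ range m, (p ^ e) ^ i)) := by
  unfold s27l_norm
  rw [← Finset.prod_pow_eq_pow_sum, map_prod]
  exact Finset.prod_congr rfl fun i _ => s27z_iterate_const p ψ hψk i c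

theorem s27z_norm_mul_apply (m : ℕ) (a b : Fb) :
    s27l_norm ψ m (a * b) = s27l_norm ψ m a * s27l_norm ψ m b := by
  unfold s27l_norm
  rw [← Finset.prod_mul_distrib]
  exact Finset.prod_congr rfl fun i _ => iterate_map_mul ψ i a b

end Const

/-- **normalisation**: `ϑ_* D₀ - D₀` is the divisor of a function of norm `1`. -/
theorem s27z_exists_normalised (p : ℕ) [Fact p.Prime] [IsAlgClosed k] [CharP k p] {g : ℕ}
    (hF : s27_FF k Fb g) {e : ℕ} (ψ : Fb →+* Fb) (ϑ : Equiv.Perm (Place k Fb))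
    (hψk : ∀ c : k, ψ (algebraMap k Fb c) = algebraMap k Fb (c ^ (p ^ e)))
    (hord : ∀ (P : Place k Fb) (y : Fb), (ϑ P).ord (ψ y) = P.ord y)
    (hϑper : ∀ P : Place k Fb, ∃ m : ℕ, 0 < m ∧ (ϑ ^ m) P = P)
    (D₀ : Divisor k Fb)
    (hD₀ : Finsupp.mapDomain (⇑ϑ) D₀ - D₀ ∈ Divisor.principal (K := k) (F := Fb)) :
    ∃ u : Fb, u ≠ 0 ∧ s27z_div hF.pd u = Finsupp.mapDomain (⇑ϑ) D₀ - D₀ ∧
      ∃ m : ℕ, 0 < m ∧ s27l_norm ψ m u = 1 := by
  obtain ⟨u₀, hu₀, hdiv₀⟩ := (s27z_mem_principal_iff hF.pd).mp hD₀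
  obtain ⟨m, hm, hfix⟩ := s27z_exists_pow_fix ϑ hϑper D₀
  have hN := s27z_div_norm hF.pd ψ ϑ hord hu₀ hdiv₀.symm m
  rw [hfix, sub_self] at hN
  obtain ⟨c, hc, hNc⟩ := s27z_const_of_div_eq_zero hF (s27z_norm_ne_zero ψ hu₀ m) hN
  have hE : 0 < ∑ i ∈ range m, (p ^ e) ^ i := by
    have h0 : 0 ∈ range m := Finset.mem_range.mpr hm
    have := Finset.single_le_sum (f := fun i => (p ^ e) ^ i) (fun i _ => Nat.zero_le _) h0
    simp only [pow_zero] at this
    omega
  obtain ⟨b, hb⟩ := IsAlgClosed.exists_pow_nat_eq (c⁻¹) hE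
  have hb0 : b ≠ 0 := by
    rintro rfl
    rw [zero_pow hE.ne'] at hb
    exact (inv_ne_zero hc) hb.symm
  refine ⟨algebraMap k Fb b * u₀, mul_ne_zero (by simpa using hb0) hu₀, ?_, m, hm, ?_⟩
  · rw [s27z_div_const_mul hF.pd b hb0, hdiv₀]
  · rw [s27z_norm_mul_apply, s27z_norm_const p ψ hψk, hb, hNc, ← map_mul, inv_mul_cancel₀ hc,
      map_one]

end Fermat.Agent.Lib.S27
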