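import Mathlib
import Fermat.Agent.Lib.S27.LDescent
import Fermat.Agent.Lib.S27.LFrob
import Fermat.Agent.Lib.S27.LHilbert
import Fermat.Agent.Lib.S27.ZBAlg
import Fermat.Agent.Lib.S27.ZBDiv
import Fermat.Agent.Lib.S27.ZBNorm

/-!
# Programme Z (S27), brick [ZB]: counting the stable effective divisors in a stable class

For a pair `(ψ, ϑ)` (field endomorphism of `Fb`, permutation of its places) with
`(ϑ P).ord (ψ y) = P.ord y`, `ψ c = c ^ (p ^ e)` on the constants, all functions and all places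
periodic: if `ϑ_* D₀ - D₀` is principal, then the number of `ϑ`-stable effective divisors linearly
equivalent to `D₀`, times `p ^ e - 1`, is `(p ^ e) ^ ℓ(D₀) - 1` (`s27z_zb_core`).
-/

set_option autoImplicit false

noncomputable section

namespace Fermat.Agent.Lib.S27

open AlgebraicCurve Fermat.Agent.Lib.FF Finset

universe u v

variable {k : Type u} {Fb : Type v} [Field k] [Field Fb] [Algebra k Fb]

/-! ### the twisted Frobenius on a stable subspace -/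

/-- the twisted Frobenius `y ↦ u * ψ y` on a subspace it preserves. -/
def s27z_twistOn (V : Submodule k Fb) (ψ : Fb →+* Fb) (u : Fb)
    (hmem : ∀ y ∈ V, u * ψ y ∈ V) : ↥V →+ ↥V where
  toFun y := ⟨u * ψ (y : Fb), hmem y y.2⟩
  map_zero' := Subtype.ext (by simp)
  map_add' a b := Subtype.ext (by simp [mul_add])

theorem s27z_twistOn_coe (V : Submodule k Fb) (ψ : Fb →+* Fb) (u : Fb)
    (hmem : ∀ y ∈ V, u * ψ y ∈ V) (y : ↥V) :
    ((s27z_twistOn V ψ u hmem y : ↥V) : Fb) = u * ψ (y : Fb) := rfl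

theorem s27z_twistOn_iterate (V : Submodule k Fb) (ψ : Fb →+* Fb) (u : Fb)
    (hmem : ∀ y ∈ V, u * ψ y ∈ V) (j : ℕ) (y : ↥V) :
    (((s27z_twistOn V ψ u hmem)^[j] y : ↥V) : Fb) = s27l_norm ψ j u * (⇑ψ)^[j] (y : Fb) := by
  rw [← s27l_twist_iterate]
  induction j with
  | zero => rfl
  | succ j ih =>
    rw [Function.iterate_succ_apply', Function.iterate_succ_apply', s27z_twistOn_coe, ih,
      s27l_twist_apply]

/-- periodicity of the twisted Frobenius when `u` has norm one. -/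
theorem s27z_twistOn_periodic (V : Submodule k Fb) (ψ : Fb →+* Fb) (u : Fb)
    (hmem : ∀ y ∈ V, u * ψ y ∈ V) (hψper : ∀ y : Fb, ∃ m : ℕ, 0 < m ∧ (⇑ψ)^[m] y = y)
    {m : ℕ} (hm : 0 < m) (hnorm : s27l_norm ψ m u = 1) (y : ↥V) :
    ∃ j : ℕ, 0 < j ∧ (s27z_twistOn V ψ u hmem)^[j] y = y := by
  obtain ⟨t, ht, hy⟩ := hψper (y : Fb)
  refine ⟨m * t, Nat.mul_pos hm ht, Subtype.ext ?_⟩
  rw [s27z_twistOn_iterate, s27l_norm_mul, hnorm]
  have h1 : ∏ s ∈ range t, (⇑ψ)^[m * s] (1 : Fb) = 1 :=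
    Finset.prod_eq_one fun s _ => iterate_map_one ψ (m * s)
  rw [h1, one_mul, mul_comm m t, Function.iterate_mul]
  exact Function.iterate_fixed hy m

/-! ### the core count -/

section Core

variable {g : ℕ} (hF : s27_FF k Fb g) (ψ : Fb →+* Fb) (ϑ : Equiv.Perm (Place k Fb))
  (hord : ∀ (P : Place k Fb) (y : Fb), (ϑ P).ord (ψ y) = P.ord y)
  (D₀ : Divisor k Fb) {u : Fb} (hu : u ≠ 0)
  (hdiv : s27z_div hF.pd u = Finsupp.mapDomain (⇑ϑ) D₀ - D₀)

include hord hu hdiv in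
/-- `D₀ + div (u ψ y) = ϑ_* (D₀ + div y)`. -/
theorem s27z_div_twist {y : Fb} (hy : y ≠ 0) :
    D₀ + s27z_div hF.pd (u * ψ y) = Finsupp.mapDomain (⇑ϑ) (D₀ + s27z_div hF.pd y) := by
  have hψy : ψ y ≠ 0 := fun h => hy (ψ.injective (by rw [h, map_zero]))
  rw [s27z_div_mul hF.pd hu hψy, hdiv, ← s27z_map_div hF.pd ψ ϑ hord, Finsupp.mapDomain_add]
  abel

include hord hu hdiv in
/-- the twisted Frobenius preserves `L(D₀)`. -/
theorem s27z_twist_mem (y : Fb) (hy : y ∈ riemannRochSpace D₀) :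
    u * ψ y ∈ riemannRochSpace D₀ := by
  rcases eq_or_ne y 0 with rfl | hy0
  · rw [map_zero, mul_zero]; exact Submodule.zero_mem _
  have hψy : ψ y ≠ 0 := fun h => hy0 (ψ.injective (by rw [h, map_zero]))
  rw [s27z_mem_L_iff hF.pd (mul_ne_zero hu hψy), s27z_div_twist hF ψ ϑ hord D₀ hu hdiv hy0]
  intro v
  obtain ⟨v', rfl⟩ := ϑ.surjective v
  rw [Finsupp.mapDomain_apply ϑ.injective]
  exact (s27z_mem_L_iff hF.pd hy0).mp hy v'

end Core

/-- **[ZB], core form.** -/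
theorem s27z_zb_core (p : ℕ) [Fact p.Prime] [IsAlgClosed k] [CharP k p] {g : ℕ}
    (hF : s27_FF k Fb g) {e : ℕ} (he : 0 < e) (ψ : Fb →+* Fb) (ϑ : Equiv.Perm (Place k Fb))
    (hψk : ∀ c : k, ψ (algebraMap k Fb c) = algebraMap k Fb (c ^ (p ^ e)))
    (hψper : ∀ y : Fb, ∃ m : ℕ, 0 < m ∧ (⇑ψ)^[m] y = y)
    (hord : ∀ (P : Place k Fb) (y : Fb), (ϑ P).ord (ψ y) = P.ord y)
    (hϑper : ∀ P : Place k Fb, ∃ m : ℕ, 0 < m ∧ (ϑ ^ m) P = P)
    (D₀ : Divisor k Fb)
    (hD₀ : Finsupp.mapDomain (⇑ϑ) D₀ - D₀ ∈ Divisor.principal (K := k) (F := Fb)) :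
    {D : Place k Fb →₀ ℕ | Finsupp.mapDomain (⇑ϑ) D = D ∧
        s27_toDiv D - D₀ ∈ Divisor.principal (K := k) (F := Fb)}.ncard * (p ^ e - 1) =
      (p ^ e) ^ Module.finrank k ↥(riemannRochSpace D₀) - 1 := by
  classical
  obtain ⟨u, hu, hdiv, m, hm, hnorm⟩ :=
    s27z_exists_normalised p hF ψ ϑ hψk hord hϑper D₀ hD₀
  have hmem := s27z_twist_mem hF ψ ϑ hord D₀ hu hdiv
  set V : Submodule k Fb := riemannRochSpace D₀ with hV
  have : Module.Finite k ↥V := hF.riemann.fin D₀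
  set Ψ : ↥V →+ ↥V := s27z_twistOn V ψ u hmem with hΨdef
  set σ : k →+* k := iterateFrobenius k p e with hσdef
  have hσ : ∀ a : k, σ a = a ^ (p ^ e) := fun a => iterateFrobenius_def p e a
  have hsemi : s27l_Semilinear σ Ψ := by
    intro a y
    apply Subtype.ext
    show u * ψ ((a • y : ↥V) : Fb) = ((σ a • Ψ y : ↥V) : Fb)
    rw [Submodule.coe_smul, Submodule.coe_smul, Algebra.smul_def, Algebra.smul_def, map_mul, hψk,
      hσ, s27z_twistOn_coe]
    ring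
  have hper : ∀ w : ↥V, ∃ n, 0 < n ∧ (⇑Ψ)^[n] w = w :=
    fun w => s27z_twistOn_periodic V ψ u hmem hψper hm hnorm w
  have hdist := s27l_frob_hdist k p e he σ hσ
  have hQ := s27l_card_fixedField k p e he σ hσ
  have hp1 : 1 < p := (Fact.out : p.Prime).one_lt
  have hQ1 : 1 < p ^ e := Nat.one_lt_pow he.ne' hp1
  have hLang : ∀ c : k, c ≠ 0 → ∃ b : k, b ≠ 0 ∧ σ b * c = b := by
    intro c hc
    obtain ⟨b, hb⟩ := IsAlgClosed.exists_pow_nat_eq (c⁻¹) (show 0 < p ^ e - 1 by omega)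
    have hb0 : b ≠ 0 := by
      rintro rfl
      rw [zero_pow (by omega)] at hb
      exact (inv_ne_zero hc) hb.symm
    refine ⟨b, hb0, ?_⟩
    rw [hσ, show p ^ e = (p ^ e - 1) + 1 by omega, pow_succ, hb, mul_comm c⁻¹ b, mul_assoc,
      inv_mul_cancel₀ hc, mul_one]
  -- the classifying map
  let π : ↥V → (Place k Fb →₀ ℕ) := fun y => s27z_toEff (D₀ + s27z_div hF.pd (y : Fb))
  have hcoe_ne : ∀ y : ↥V, y ≠ 0 → (y : Fb) ≠ 0 := fun y hy h => hy (Subtype.ext h)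
  have hnonneg : ∀ y : ↥V, y ≠ 0 → ∀ v, 0 ≤ (D₀ + s27z_div hF.pd (y : Fb)) v :=
    fun y hy => (s27z_mem_L_iff hF.pd (hcoe_ne y hy)).mp y.2
  have hπdiv : ∀ y : ↥V, y ≠ 0 → s27_toDiv (π y) = D₀ + s27z_div hF.pd (y : Fb) :=
    fun y hy => s27z_toDiv_toEff (hnonneg y hy)
  have hπ : ∀ y y' : ↥V, y ≠ 0 → y' ≠ 0 → (π y = π y' ↔ ∃ b : k, b ≠ 0 ∧ y' = b • y) := by
    intro y y' hy hy'
    constructor
    · intro h
      have h1 : D₀ + s27z_div hF.pd (y : Fb) = D₀ + s27z_div hF.pd (y' : Fb) := by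
        rw [← hπdiv y hy, ← hπdiv y' hy', h]
      have h2 := add_left_cancel h1
      obtain ⟨b, hb, hyb⟩ := (s27z_div_eq_iff hF (hcoe_ne y hy) (hcoe_ne y' hy')).mp h2
      refine ⟨b, hb, Subtype.ext ?_⟩
      rw [Submodule.coe_smul, Algebra.smul_def]
      exact hyb
    · rintro ⟨b, hb, rfl⟩
      show s27z_toEff _ = s27z_toEff _
      rw [Submodule.coe_smul, Algebra.smul_def, s27z_div_const_mul hF.pd b hb]
  have hcount := s27z_count_lines hsemi hper hdist (p ^ e) hQ hQ1 hLang π hπ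
  rw [← hcount]
  congr 2
  -- identification of the two sets
  ext D
  constructor
  · rintro ⟨hDfix, hDprinc⟩
    obtain ⟨y', hy', hDy'⟩ := (s27z_mem_principal_iff hF.pd).mp hDprinc
    have hDeq : s27_toDiv D = D₀ + s27z_div hF.pd y' := by rw [← hDy']; abel
    have hy'mem : y' ∈ V := by
      rw [hV, s27z_mem_L_iff hF.pd hy', ← hDeq]
      intro v
      rw [s27z_toDiv_apply]
      exact Nat.cast_nonneg _
    have hyV0 : (⟨y', hy'mem⟩ : ↥V) ≠ 0 := fun h => hy' (congrArg Subtype.val h)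
    refine ⟨⟨y', hy'mem⟩, hyV0, ?_, ?_⟩
    · show s27z_toEff (D₀ + s27z_div hF.pd y') = D
      rw [← hDeq, s27z_toEff_toDiv]
    · have hψy' : ψ y' ≠ 0 := fun h => hy' (ψ.injective (by rw [h, map_zero]))
      have h1 : s27z_div hF.pd y' = s27z_div hF.pd (u * ψ y') := by
        have h2 := s27z_div_twist hF ψ ϑ hord D₀ hu hdiv hy'
        rw [← hDeq, ← s27z_toDiv_map, hDfix, hDeq] at h2
        exact (add_left_cancel h2).symm
      obtain ⟨c, hc, hcy⟩ := (s27z_div_eq_iff hF hy' (mul_ne_zero hu hψy')).mp h1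
      refine ⟨c, hc, Subtype.ext ?_⟩
      show u * ψ y' = ((c • (⟨y', hy'mem⟩ : ↥V) : ↥V) : Fb)
      rw [Submodule.coe_smul, Algebra.smul_def]
      exact hcy
  · rintro ⟨y, hy, rfl, c, hc, hΨy⟩
    have hy0 := hcoe_ne y hy
    have hψy : ψ (y : Fb) ≠ 0 := fun h => hy0 (ψ.injective (by rw [h, map_zero]))
    have hcoe : u * ψ (y : Fb) = algebraMap k Fb c * (y : Fb) := by
      have := congrArg Subtype.val hΨy
      rw [Submodule.coe_smul, Algebra.smul_def] at this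
      exact this
    refine ⟨?_, ?_⟩
    · apply s27z_toDiv_injective
      rw [s27z_toDiv_map, hπdiv y hy, ← s27z_div_twist hF ψ ϑ hord D₀ hu hdiv hy0, hcoe,
        s27z_div_const_mul hF.pd c hc]
    · rw [hπdiv y hy, add_sub_cancel_left]
      exact (s27z_mem_principal_iff hF.pd).mpr ⟨y, hy0, rfl⟩

end Fermat.Agent.Lib.S27
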