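import Mathlib
import Fermat.Agent.Lib.S27.ZIface
import Fermat.Agent.Lib.S27.ZIface2
import Fermat.Agent.Lib.S27.ZBNorm
import Fermat.Agent.Lib.S27.ZBGeom

/-!
# Programme Z (S27), brick [ZB]: the contract `s27_ZB` of `ZIface2`

`s27z_ZB : s27_ZB` — Hilbert 90 counting of the `θⁿ`-stable effective divisors in a `θⁿ`-stable
class of a function field over `𝔽̄_p` with a Frobenius structure, from `s27z_zb_core` applied to
`(φⁿ, θⁿ)`.
-/

set_option autoImplicit false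

noncomputable section

namespace Fermat.Agent.Lib.S27

open AlgebraicCurve Finset

universe u v

variable {p : ℕ} {k : Type u} {Fb : Type v} [Field k] [Field Fb] [Algebra k Fb]

theorem s27z_frob_ord_pow (Φ : s27_Frob p k Fb) (n : ℕ) (P : Place k Fb) (y : Fb) :
    ((Φ.θ ^ n) P).ord ((⇑Φ.φ)^[n] y) = P.ord y := by
  induction n with
  | zero => rfl
  | succ n ih =>
    rw [pow_succ', Equiv.Perm.mul_apply, Function.iterate_succ_apply', Φ.ord_map, ih]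

theorem s27z_frob_per_pow (Φ : s27_Frob p k Fb) (n : ℕ) (y : Fb) :
    ∃ m : ℕ, 0 < m ∧ ((⇑Φ.φ)^[n])^[m] y = y := by
  obtain ⟨t, ht, hy⟩ := Φ.per y
  refine ⟨t, ht, ?_⟩
  rw [← Function.iterate_mul, mul_comm, Function.iterate_mul]
  exact Function.iterate_fixed hy n

theorem s27z_frob_per_pl_pow (Φ : s27_Frob p k Fb) (n : ℕ) (P : Place k Fb) :
    ∃ m : ℕ, 0 < m ∧ ((Φ.θ ^ n) ^ m) P = P := by
  obtain ⟨t, ht, hP⟩ := Φ.per_pl P
  refine ⟨t, ht, ?_⟩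
  rw [← pow_mul, mul_comm, pow_mul]
  exact Equiv.Perm.pow_apply_eq_self_of_apply_eq_self hP n

/-- **CONTRACT [ZB] discharged.** -/
theorem s27z_ZB : s27_ZB.{u, v} := by
  intro p _ k Fb _ _ _ hk g hF Φ n hn D₀ hD₀
  obtain ⟨hac, hchar, _⟩ := hk
  have := hac
  have := hchar
  set ψ : Fb →+* Fb := (Φ.φ : Fb →+* Fb) ^ n with hψdef
  have hψcoe : (⇑ψ : Fb → Fb) = (⇑Φ.φ)^[n] := by
    rw [hψdef, RingHom.coe_pow]
    rfl
  have hψk : ∀ c : k, ψ (algebraMap k Fb c) = algebraMap k Fb (c ^ (p ^ (Φ.f * n))) := by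
    intro c
    rw [hψcoe, pow_mul]
    exact s27z_iterate_const p (Φ.φ : Fb →+* Fb) Φ.map_k n c
  have hψper : ∀ y : Fb, ∃ m : ℕ, 0 < m ∧ (⇑ψ)^[m] y = y := by
    intro y
    rw [hψcoe]
    exact s27z_frob_per_pow Φ n y
  have hord : ∀ (P : Place k Fb) (y : Fb), ((Φ.θ ^ n) P).ord (ψ y) = P.ord y := by
    intro P y
    rw [hψcoe]
    exact s27z_frob_ord_pow Φ n P y
  have hcore := s27z_zb_core p hF (Nat.mul_pos Φ.f_pos hn) ψ (Φ.θ ^ n) hψk hψper hord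
    (s27z_frob_per_pl_pow Φ n) D₀ hD₀
  rw [pow_mul] at hcore
  rw [pow_mul]
  exact hcore

end Fermat.Agent.Lib.S27
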