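/-
Programme Z (S27), ARITHMETIC HALF, brick [ZASM-b2] (helper7): **the output of the half**,
`s27g_finCount : s27_FinCount` — over `k = 𝔽̄_p`, a function field `Fb / k` of genus `g` has exactly
`ℓ ^ (2 g e)` divisor classes of degree zero killed by `ℓ ^ e` (`ℓ ≠ p`).

Assembly: `s27_DynExists` (helper6's `s27w_dynExists` on helper1's `s27d_frobExists` and helper3's
`s27z_ZB`) gives the abstract curve on `(Place k Fb, Pic k Fb)`; `s27g_dynCount` counts the torsion
of `ker deg ⊆ Pic`; `Pic⁰ = degZero ⧸ principal` is identified with `ker deg`.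
-/
import Fermat.Agent.Lib.S27.GAsm1
import Fermat.Agent.Lib.S27.WAsm
import Fermat.Agent.Lib.S27.DFrob
import Fermat.Agent.Lib.S27.ZBFinal

set_option autoImplicit false

noncomputable section

namespace Fermat.Agent.Lib.S27

open AlgebraicCurve Fermat.Agent.Lib.FF Fermat.Agent.Lib.S19

universe u v

section Bridge

variable (k : Type u) (Fb : Type v) [Field k] [Field Fb] [Algebra k Fb]

/-- `Pic⁰ → Pic`. -/
def s27g_iota : Pic0 k Fb →+ Pic k Fb :=
  QuotientAddGroup.lift _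
    ((QuotientAddGroup.mk' (Divisor.principal (K := k) (F := Fb))).comp
      (Divisor.degZero (K := k) (F := Fb)).subtype)
    (by
      intro x hx
      rw [AddSubgroup.mem_addSubgroupOf] at hx
      rw [AddMonoidHom.mem_ker]
      exact (QuotientAddGroup.eq_zero_iff _).mpr hx)

theorem s27g_iota_mk (D : ↥(Divisor.degZero (K := k) (F := Fb))) :
    s27g_iota k Fb (Pic0.mk D) = QuotientAddGroup.mk (D : Divisor k Fb) := rfl

theorem s27g_iota_injective : Function.Injective (s27g_iota k Fb) := by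
  rw [injective_iff_map_eq_zero]
  intro t ht
  obtain ⟨D, rfl⟩ := Pic0.mk_surjective t
  rw [s27g_iota_mk, QuotientAddGroup.eq_zero_iff] at ht
  exact (QuotientAddGroup.eq_zero_iff _).mpr (AddSubgroup.mem_addSubgroupOf.mpr ht)

theorem s27g_picDeg_iota (hpd : HasPrincipalDivisors k Fb) (t : Pic0 k Fb) :
    s27_picDeg k Fb hpd (s27g_iota k Fb t) = 0 := by
  obtain ⟨D, rfl⟩ := Pic0.mk_surjective t
  exact D.2

theorem s27g_exists_iota (hpd : HasPrincipalDivisors k Fb) {C : Pic k Fb}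
    (hC : s27_picDeg k Fb hpd C = 0) : ∃ t : Pic0 k Fb, s27g_iota k Fb t = C := by
  obtain ⟨D, rfl⟩ := QuotientAddGroup.mk_surjective C
  exact ⟨Pic0.mk ⟨D, hC⟩, rfl⟩

end Bridge

/-- **THE OUTPUT OF THE ARITHMETIC HALF.** -/
theorem s27g_finCount : s27_FinCount.{u, v} := by
  intro p hp k Fb _ _ _ hk g hF ℓ hℓfact hℓp e
  obtain ⟨X, hcls, hdeg, hg, f, hf, hq⟩ :=
    s27w_dynExists s27d_frobExists s27z_ZB p k Fb hk g hF
  -- a point
  obtain ⟨x, hx, hsep⟩ := hF.gen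
  have hac : IsAlgClosed k := hk.1
  obtain ⟨P₀⟩ := Fermat.Agent.Lib.S44.s44rm_nonempty_place (K := k) x
  have hℓq : ¬ ℓ ∣ X.q := by
    rw [hq]
    intro h
    exact hℓp ((Nat.prime_dvd_prime_iff_eq hℓfact.out hp.out).mp (hℓfact.out.dvd_of_dvd_pow h))
  have hcount := s27g_dynCount (Place k Fb) (Pic k Fb) X P₀ ℓ hℓq e
  rw [hg] at hcount
  rw [← hcount]
  have hmem : ∀ t : Pic0 k Fb, s27g_iota k Fb t ∈ X.cl0 := by
    intro t
    show X.deg (s27g_iota k Fb t) = 0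
    rw [hdeg]
    exact s27g_picDeg_iota k Fb hF.pd t
  have htor : ∀ t : Pic0 k Fb, t ∈ Pic0.torsion k Fb (ℓ ^ e) ↔ ℓ ^ e • s27g_iota k Fb t = 0 := by
    intro t
    rw [Pic0.mem_torsion, natCast_zsmul, ← map_nsmul]
    constructor
    · intro h
      rw [h, map_zero]
    · intro h
      exact s27g_iota_injective k Fb (by rw [h, map_zero])
  refine Nat.card_congr (Equiv.ofBijective
    (fun t : ↥(Pic0.torsion k Fb (ℓ ^ e)) =>
      (⟨⟨s27g_iota k Fb t.1, hmem t.1⟩, Subtype.ext ((htor t.1).mp t.2)⟩ :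
        {x : ↥X.cl0 // ℓ ^ e • x = 0})) ⟨?_, ?_⟩)
  · intro t t' h
    have h1 : s27g_iota k Fb t.1 = s27g_iota k Fb t'.1 :=
      congrArg (fun y : {x : ↥X.cl0 // ℓ ^ e • x = 0} => ((y.1 : ↥X.cl0) : Pic k Fb)) h
    exact Subtype.ext (s27g_iota_injective k Fb h1)
  · rintro ⟨⟨C, hC⟩, h⟩
    have hC' : s27_picDeg k Fb hF.pd C = 0 := by
      rw [← hdeg]
      exact hC
    obtain ⟨t, rfl⟩ := s27g_exists_iota k Fb hF.pd hC'
    have h2 : ℓ ^ e • s27g_iota k Fb t = 0 := congrArg (fun y : ↥X.cl0 => (y : Pic k Fb)) h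
    exact ⟨⟨t, (htor t).mpr h2⟩, rfl⟩

end Fermat.Agent.Lib.S27
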