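/-
Programme Z (S27), reduction half, brick [GR-D] part 7 (helper9, prefix `s27j_`): a local generator
of a height-one prime of a Dedekind domain (Mathlib only).

`s27j_ded_local` : `π` a uniformiser at `v`, `a ∈ v`: then `d * a = n * π` with `d ∉ v`.
-/
import Mathlib

set_option autoImplicit false
set_option linter.unusedSectionVars false
set_option linter.unusedVariables false

noncomputable section

namespace Fermat.Agent.Lib.S27

open IsDedekindDomain

/-- a uniformiser generates the prime locally. -/
theorem s27j_ded_local {D : Type*} [CommRing D] [IsDedekindDomain D] (v : HeightOneSpectrum D)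
    {π a : D} (hπ : v.intValuation π = WithZero.exp (-1 : ℤ)) (ha : a ∈ v.asIdeal) :
    ∃ d n : D, d ∉ v.asIdeal ∧ d * a = n * π := by
  have hπ0 : π ≠ 0 := by
    rintro rfl
    rw [map_zero] at hπ
    exact WithZero.exp_ne_zero hπ.symm
  have hπF : algebraMap D (FractionRing D) π ≠ 0 := by
    intro h0
    exact hπ0 ((IsFractionRing.injective D (FractionRing D)) (by rw [h0, map_zero]))
  have ha1 : v.intValuation a ≤ WithZero.exp (-((1 : ℕ) : ℤ)) := by
    rw [HeightOneSpectrum.intValuation_le_pow_iff_mem, pow_one]
    exact ha
  have hval : v.valuation (FractionRing D)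
      (algebraMap D (FractionRing D) a / algebraMap D (FractionRing D) π) ≤ 1 := by
    rw [map_div₀, HeightOneSpectrum.valuation_of_algebraMap,
      HeightOneSpectrum.valuation_of_algebraMap, hπ]
    have h0 : (0 : WithZero (Multiplicative ℤ)) < WithZero.exp (-1 : ℤ) := WithZero.exp_pos
    rw [div_le_one₀ h0]
    simpa using ha1
  obtain ⟨n, d, hnd⟩ := v.exists_primeCompl_mul_eq_of_integer _ hval
  refine ⟨d, n, d.2, ?_⟩
  apply IsFractionRing.injective D (FractionRing D)
  rw [map_mul, map_mul, ← hnd]
  field_simp

end Fermat.Agent.Lib.S27
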