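/-
Programme Z (S27), reduction half, brick [GR-D] part 8 (helper9, prefix `s27j_`): LOCAL GENERATORS
LIFT.  `R̄` a Dedekind domain, `P` an integral place, `𝔫 = s27j_pt P` its point on the special fibre:

`s27j_local_gen` : there are `τ, s ∈ R_A` with `τ(P) = 0`, `ord_𝔫 τ̄ = 1`, `s̄ ∉ 𝔫`, and
`s · ker(ev_P) ⊆ τ R_A`  (a uniformiser of the special fibre at `𝔫` lifts to a function cutting out
the section `P` in a neighbourhood of `𝔫`).
-/
import Fermat.Agent.Lib.S27.JKer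
import Fermat.Agent.Lib.S27.JDed

set_option autoImplicit false
set_option linter.unusedSectionVars false
set_option linter.unusedVariables false
set_option linter.style.haveILetI false
set_option linter.overlappingInstances false

noncomputable section

namespace Fermat.Agent.Lib.S27

open AlgebraicCurve Fermat.Agent.Lib.FF Fermat.Agent.Lib.S44 Fermat.Agent.Lib.S19
  Fermat.Agent.Lib.S37 Polynomial IsLocalRing IsDedekindDomain

variable {K F : Type} [Field K] [Field F] [Algebra K F] [IsAlgClosed K] [CharZero K] {x : F}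
  [FFGen K x] {W : s27r_WD K F x} {A : ValuationSubring K}
  [hdom : IsDomain (s27r_Rbar W A)] [hded : IsDedekindDomain (s27r_Rbar W A)]

/-- the preimage in the model of a point of the special fibre. -/
def s27j_N (𝔫 : HeightOneSpectrum (s27r_Rbar W A)) : Ideal ↥(s27r_RA W A) :=
  Ideal.comap (s27r_mk W A) 𝔫.asIdeal

instance s27j_N_isPrime (𝔫 : HeightOneSpectrum (s27r_Rbar W A)) : (s27j_N 𝔫).IsPrime :=
  Ideal.comap_isPrime _ _

theorem s27j_mem_N (𝔫 : HeightOneSpectrum (s27r_Rbar W A)) (f : ↥(s27r_RA W A)) :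
    f ∈ s27j_N 𝔫 ↔ s27r_mk W A f ∈ 𝔫.asIdeal := Iff.rfl

theorem s27j_mk_eq_zero_iff (f : ↥(s27r_RA W A)) : s27r_mk W A f = 0 ↔ f ∈ s27r_mRA W A :=
  Ideal.Quotient.eq_zero_iff_mem

theorem s27j_mRA_le_N (𝔫 : HeightOneSpectrum (s27r_Rbar W A)) : s27r_mRA W A ≤ s27j_N 𝔫 := by
  intro f hf
  rw [s27j_mem_N, (s27j_mk_eq_zero_iff f).mpr hf]
  exact Ideal.zero_mem _

theorem s27j_pt_asIdeal (hW : s27r_WProps W) (hsc : s27r_SCUnit W A) {P : Place K F}
    (hP : s27j_Int W A P) :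
    (s27j_pt hW hsc hP).asIdeal = RingHom.ker (s27j_phi hsc hP) := rfl

/-- **local generators lift.** -/
theorem s27j_local_gen (hW : s27r_WProps W) (hsc : s27r_SCUnit W A) {P : Place K F}
    (hP : s27j_Int W A P) :
    ∃ τ s : ↥(s27r_RA W A), s27j_evRA hsc hP τ = 0 ∧
      (Place.ofHeightOneSpectrum (K := ResidueField ↥A) (s27j_pt hW hsc hP)).ord
        (s27j_clW W A τ) = 1 ∧
      s27r_mk W A s ∉ (s27j_pt hW hsc hP).asIdeal ∧
      ∀ g : ↥(s27r_RA W A), s27j_evRA hsc hP g = 0 → ∃ g₁ : ↥(s27r_RA W A), s * g = τ * g₁ := by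
  classical
  set 𝔫 := s27j_pt hW hsc hP with h𝔫
  obtain ⟨π, hπ⟩ := 𝔫.intValuation_exists_uniformizer
  have hπmem : π ∈ 𝔫.asIdeal := by
    rw [← HeightOneSpectrum.intValuation_lt_one_iff_mem, hπ, ← WithZero.exp_zero,
      WithZero.exp_lt_exp]
    norm_num
  have hker : 𝔫.asIdeal = Ideal.map (s27r_mk W A) (s27j_I hsc hP) := by
    rw [h𝔫, s27j_pt_asIdeal, s27j_ker_phi]
  have hsurj : Function.Surjective (s27r_mk W A) := Ideal.Quotient.mk_surjective
  rw [hker] at hπmem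
  obtain ⟨τ, hτI, hτ⟩ := (Ideal.mem_map_iff_of_surjective _ hsurj).mp hπmem
  have hloc : ∀ j, ∃ s u : ↥(s27r_RA W A), s ∉ s27j_N 𝔫 ∧
      s * s27j_gam hsc hP j - u * τ ∈ s27r_mRA W A := by
    intro j
    have hj : s27r_mk W A (s27j_gam hsc hP j) ∈ 𝔫.asIdeal := by
      rw [hker]
      exact Ideal.mem_map_of_mem _ (Ideal.subset_span ⟨j, rfl⟩)
    obtain ⟨d, n, hd, hdn⟩ := s27j_ded_local 𝔫 hπ hj
    obtain ⟨s, rfl⟩ := hsurj d
    obtain ⟨u, rfl⟩ := hsurj n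
    refine ⟨s, u, hd, ?_⟩
    rw [← s27j_mk_eq_zero_iff, map_sub, map_mul, map_mul, hτ]
    exact sub_eq_zero.mpr hdn
  obtain ⟨s, hs, hall⟩ := s27j_cramer (s27j_gam hsc hP) (s27r_mRA W A) (s27j_N 𝔫)
    (s27j_mRA_le_N 𝔫) τ (s27j_hMgam hW hsc hP) hτI hloc
  refine ⟨τ, s, (s27j_mem_I_iff hsc hP τ).mp hτI, ?_, hs, fun g hg => ?_⟩
  · rw [s37d_ord_ofHeightOneSpectrum, s27j_clW_eq, HeightOneSpectrum.valuation_of_algebraMap,
      hτ, hπ, WithZero.log_exp]
    norm_num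
  · have h1 := hall g ((s27j_mem_I_iff hsc hP g).mpr hg)
    obtain ⟨a, ha⟩ := Ideal.mem_span_singleton'.mp h1
    exact ⟨a, by rw [← ha, mul_comm]⟩

end Fermat.Agent.Lib.S27
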