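/-
Programme Z (S27), reduction half, brick [GR-D] part 9 (helper9, prefix `s27j_`): EXISTENCE OF A ZERO
ON THE DISC.  `R̄` a Dedekind domain, `𝔫` a point of the special fibre, `f ∈ R_A ∖ 𝔪R_A` with
`f̄ ∈ 𝔫`:

`s27j_exists_zero` : there is an integral place `P` of the generic fibre with `s27j_pt P = 𝔫` and
`f(P) = 0`.

(Chevalley: a valuation ring of `F` containing `R_A`, in which `f` is a non-unit and every element
of `(R_A ∖ 𝔑) · (A ∖ 0)` is a unit; it contains `K`, hence is a place by `s17i_val`.)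
-/
import Fermat.Agent.Lib.S27.JLocal
import Fermat.Agent.Lib.S17.IVal

set_option autoImplicit false
set_option linter.unusedSectionVars false
set_option linter.unusedVariables false
set_option linter.style.haveILetI false
set_option linter.overlappingInstances false

noncomputable section

namespace Fermat.Agent.Lib.S27

open AlgebraicCurve Fermat.Agent.Lib.FF Fermat.Agent.Lib.S44 Fermat.Agent.Lib.S19
  Fermat.Agent.Lib.S37 Fermat.Agent.Lib.S17 Polynomial IsLocalRing IsDedekindDomain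

variable {K F : Type} [Field K] [Field F] [Algebra K F] [IsAlgClosed K] [CharZero K] {x : F}
  [FFGen K x] {W : s27r_WD K F x} {A : ValuationSubring K}

theorem s27j_inv_notMem_of_nonunits (V : ValuationSubring F) {y : F} (hy : y ∈ V.nonunits)
    (hy0 : y ≠ 0) : y⁻¹ ∉ V := by
  obtain ⟨hyV, hmax⟩ := ValuationSubring.mem_nonunits_iff_exists_mem_maximalIdeal.mp hy
  intro hinv
  rw [mem_maximalIdeal, mem_nonunits_iff] at hmax
  apply hmax
  exact IsUnit.of_mul_eq_one (⟨y⁻¹, hinv⟩ : ↥V) (Subtype.ext (mul_inv_cancel₀ hy0))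

theorem s27j_coe_ne_zero {g : ↥(s27r_RA W A)} (hg : g ≠ 0) : (g : F) ≠ 0 :=
  fun h => hg (Subtype.ext h)

/-- a function of the model with a zero at `P` is not a unit at `P`. -/
theorem s27j_inv_notMem_of_evK (hsc : s27r_SCUnit W A) (P : Place K F) (hne : P ≠ W.vinf)
    {g : ↥(s27r_RA W A)} (hg0 : g ≠ 0) (hg : s27j_evK hsc P hne g = 0) :
    ((g : F))⁻¹ ∉ P.toValuationSubring := by
  intro hinv
  have h1 : s27j_toP hsc P hne g ∈ maximalIdeal ↥P.toValuationSubring :=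
    (s37pv_ev_eq_zero_iff x P _).mp hg
  rw [mem_maximalIdeal, mem_nonunits_iff] at h1
  apply h1
  exact IsUnit.of_mul_eq_one (⟨((g : F))⁻¹, hinv⟩ : ↥P.toValuationSubring)
    (Subtype.ext (mul_inv_cancel₀ (s27j_coe_ne_zero hg0)))

variable [hdom : IsDomain (s27r_Rbar W A)] [hded : IsDedekindDomain (s27r_Rbar W A)]

/-- the multiplicative set `(R_A ∖ 𝔑) · (A ∖ 0)`. -/
def s27j_S (𝔫 : HeightOneSpectrum (s27r_Rbar W A)) : Submonoid ↥(s27r_RA W A) where
  carrier := {z | ∃ (s : ↥(s27r_RA W A)) (a : ↥A), s ∉ s27j_N 𝔫 ∧ a ≠ 0 ∧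
    z = s * s27r_constA W A a}
  one_mem' := ⟨1, 1, (Ideal.ne_top_iff_one _).mp (s27j_N_isPrime 𝔫).ne_top, one_ne_zero,
    by rw [map_one, mul_one]⟩
  mul_mem' := by
    rintro _ _ ⟨s, a, hs, ha, rfl⟩ ⟨s', a', hs', ha', rfl⟩
    refine ⟨s * s', a * a', fun h => ?_, mul_ne_zero ha ha', ?_⟩
    · rcases (s27j_N_isPrime 𝔫).mem_or_mem h with h1 | h1
      · exact hs h1
      · exact hs' h1
    · rw [map_mul]
      ring

theorem s27j_mem_S_of_notMem (𝔫 : HeightOneSpectrum (s27r_Rbar W A)) {s : ↥(s27r_RA W A)}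
    (hs : s ∉ s27j_N 𝔫) : s ∈ s27j_S 𝔫 :=
  ⟨s, 1, hs, one_ne_zero, by rw [map_one, mul_one]⟩

/-- no multiple of `f` lies in the multiplicative set. -/
theorem s27j_disj (hW : s27r_WProps W) (hsc : s27r_SCUnit W A)
    (𝔫 : HeightOneSpectrum (s27r_Rbar W A)) (f : ↥(s27r_RA W A)) (hf : f ∉ s27r_mRA W A)
    (hfn : f ∈ s27j_N 𝔫) (g : ↥(s27r_RA W A)) : f * g ∉ s27j_S 𝔫 := by
  rintro ⟨s, a, hs, ha, hfg⟩
  have hsm : s ∉ s27r_mRA W A := fun h => hs (s27j_mRA_le_N 𝔫 h)
  have hprime : (s27r_mRA W A).IsPrime := s27j_isPrime_mRA hW hsc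
  have haK : (a : K) ≠ 0 := fun h => ha (Subtype.ext h)
  have hs0 : (s : F) ≠ 0 := by
    intro h
    apply hsm
    have : s = 0 := Subtype.ext h
    rw [this]
    exact Ideal.zero_mem _
  have hfgF : (f : F) * (g : F) = (s : F) * algebraMap K F (a : K) := by
    have := congrArg (fun z : ↥(s27r_RA W A) => (z : F)) hfg
    simpa using this
  have hgF : (g : F) ≠ 0 := by
    intro h
    rw [h, mul_zero] at hfgF
    exact mul_ne_zero hs0 ((_root_.map_ne_zero _).mpr haK) hfgF.symm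
  obtain ⟨c₀, hc₀, a', ha', hred⟩ := s27j_scaleB hW A (s27j_RA_le_B hsc g.2) hgF
  have hg' : s27r_PsiA W A a' ∉ s27r_mRA W A := fun h =>
    hred ((s27r_mem_mRA_iff hW hsc a').mp h)
  set e : K := c₀ * (a : K) with he
  have he0 : e ≠ 0 := mul_ne_zero hc₀ haK
  have heq : (f : F) * ((s27r_PsiA W A a' : ↥(s27r_RA W A)) : F) =
      algebraMap K F e * (s : F) := by
    rw [s27r_PsiA_coe, ha', he, map_mul]
    calc (f : F) * (algebraMap K F c₀ * (g : F))
        = algebraMap K F c₀ * ((f : F) * (g : F)) := by ring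
      _ = algebraMap K F c₀ * algebraMap K F (a : K) * (s : F) := by rw [hfgF]; ring
  by_cases hinv : e⁻¹ ∈ A
  · apply hs
    have : s = s27r_constA W A ⟨e⁻¹, hinv⟩ * (f * s27r_PsiA W A a') := by
      apply Subtype.ext
      rw [Subring.coe_mul, Subring.coe_mul, heq, s27r_constA_coe]
      simp only
      rw [map_inv₀, ← mul_assoc, inv_mul_cancel₀ ((_root_.map_ne_zero _).mpr he0), one_mul]
    rw [this]
    exact Ideal.mul_mem_left _ _ (Ideal.mul_mem_right _ _ hfn)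
  · have heA : e ∈ A := (A.mem_or_inv_mem e).resolve_right hinv
    have hem := s27j_mem_maximalIdeal_of_inv_notMem heA hinv
    have : f * s27r_PsiA W A a' = s27r_constA W A ⟨e, heA⟩ * s := by
      apply Subtype.ext
      rw [Subring.coe_mul, Subring.coe_mul, heq, s27r_constA_coe]
    have hmem : f * s27r_PsiA W A a' ∈ s27r_mRA W A := by
      rw [this]
      exact Ideal.mul_mem_right _ _ (s27j_constA_mem_mRA hem)
    rcases hprime.mem_or_mem hmem with h1 | h1
    · exact hf h1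
    · exact hg' h1

/-- **existence of a zero on the disc.** -/
theorem s27j_exists_zero (hW : s27r_WProps W) (hsc : s27r_SCUnit W A)
    (𝔫 : HeightOneSpectrum (s27r_Rbar W A)) (f : ↥(s27r_RA W A)) (hf : f ∉ s27r_mRA W A)
    (hfn : s27r_mk W A f ∈ 𝔫.asIdeal) :
    ∃ (P : Place K F) (hP : s27j_Int W A P), s27j_pt hW hsc hP = 𝔫 ∧
      s27j_evRA hsc hP f = 0 := by
  classical
  have hf0 : f ≠ 0 := by
    rintro rfl
    exact hf (Ideal.zero_mem _)
  obtain ⟨V, hRV, hfV, hSV⟩ := s27j_exists_val (s27r_RA W A) (s27j_S 𝔫) f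
    (s27j_disj hW hsc 𝔫 f hf hfn)
  have h1N : (1 : ↥(s27r_RA W A)) ∉ s27j_N 𝔫 :=
    (Ideal.ne_top_iff_one _).mp (s27j_N_isPrime 𝔫).ne_top
  have hK : ∀ a : K, algebraMap K F a ∈ V := by
    intro a
    rcases A.mem_or_inv_mem a with h | h
    · exact hRV (s27r_constA W A ⟨a, h⟩)
    · rcases eq_or_ne a 0 with rfl | ha0
      · rw [map_zero]
        exact V.zero_mem
      have hz : (1 : ↥(s27r_RA W A)) * s27r_constA W A ⟨a⁻¹, h⟩ ∈ s27j_S 𝔫 :=
        ⟨1, ⟨a⁻¹, h⟩, h1N, fun h0 => inv_ne_zero ha0 (congrArg (fun z : ↥A => (z : K)) h0), rfl⟩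
      have := hSV _ hz
      rw [one_mul, s27r_constA_coe] at this
      simp only at this
      rwa [map_inv₀, inv_inv] at this
  have hVtop : V ≠ ⊤ := by
    intro htop
    apply s27j_inv_notMem_of_nonunits V hfV (s27j_coe_ne_zero hf0)
    rw [htop]
    exact ValuationSubring.mem_top _
  obtain ⟨P, hPV⟩ := s17i_val x V hK hVtop
  subst hPV
  have hne : P ≠ W.vinf := by
    rintro rfl
    exact s44rc_not_mem_vinf W.vinf (s27j_ord_x_neg W) (hRV ⟨x, s27r_x_mem W A⟩)
  -- units of the multiplicative set do not vanish at `P`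
  have hZ : ∀ g : ↥(s27r_RA W A), g ∉ s27j_N 𝔫 → s27j_evK hsc P hne g ≠ 0 := by
    intro g hg hev
    have hg0 : g ≠ 0 := by
      rintro rfl
      exact hg (Ideal.zero_mem _)
    exact s27j_inv_notMem_of_evK hsc P hne hg0 hev (hSV g (s27j_mem_S_of_notMem 𝔫 hg))
  have hfev : s27j_evK hsc P hne f = 0 := by
    obtain ⟨hfP, hmax⟩ := ValuationSubring.mem_nonunits_iff_exists_mem_maximalIdeal.mp hfV
    exact (s37pv_ev_eq_zero_iff x P _).mpr hmax
  have hInt : s27j_Int W A P := by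
    by_contra hnot
    have hx : x ∈ P.toValuationSubring := W.x_mem P hne
    have hxv : s37pv_ev x P ⟨x, hx⟩ ∉ A := fun h => hnot ⟨hx, h⟩
    set xv : K := s37pv_ev x P ⟨x, hx⟩ with hxvdef
    have hxv0 : xv ≠ 0 := by
      intro h0
      rw [h0] at hxv
      exact hxv A.zero_mem
    have hcA : xv⁻¹ ∈ A := (A.mem_or_inv_mem xv).resolve_left hxv
    have hcm : (⟨xv⁻¹, hcA⟩ : ↥A) ∈ maximalIdeal ↥A :=
      s27j_mem_maximalIdeal_of_inv_notMem hcA (by rw [inv_inv]; exact hxv)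
    set g : ↥(s27r_RA W A) := 1 - s27r_constA W A ⟨xv⁻¹, hcA⟩ * ⟨x, s27r_x_mem W A⟩ with hg
    have hgmk : s27r_mk W A g = 1 := by
      rw [hg, map_sub, map_one, map_mul,
        (s27j_mk_eq_zero_iff _).mpr (s27j_constA_mem_mRA hcm), zero_mul, sub_zero]
    have hgN : g ∉ s27j_N 𝔫 := by
      rw [s27j_mem_N, hgmk]
      exact (Ideal.ne_top_iff_one _).mp 𝔫.isPrime.ne_top
    apply hZ g hgN
    rw [hg, map_sub, map_one, map_mul, s27j_evK_const]
    have : s27j_evK hsc P hne ⟨x, s27r_x_mem W A⟩ = xv := rfl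
    rw [this]
    simp only
    rw [inv_mul_cancel₀ hxv0, sub_self]
  refine ⟨P, hInt, ?_, ?_⟩
  · apply HeightOneSpectrum.ext
    rw [s27j_pt_asIdeal]
    refine Ideal.IsMaximal.eq_of_le (s27j_ker_isMaximal hsc hInt) 𝔫.isPrime.ne_top ?_
    intro gb hgb
    obtain ⟨g, rfl⟩ := Ideal.Quotient.mk_surjective gb
    by_contra hgn
    rw [RingHom.mem_ker] at hgb
    have h1 : s27j_phi hsc hInt (s27r_mk W A g) = residue ↥A (s27j_evRA hsc hInt g) :=
      s27j_phi_mk hsc hInt g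
    have hc : s27j_evRA hsc hInt g ∈ maximalIdeal ↥A := by
      rw [← residue_eq_zero_iff, ← h1]
      exact hgb
    set g₀ : ↥(s27r_RA W A) := g - s27r_constA W A (s27j_evRA hsc hInt g) with hg₀
    have hg₀mk : s27r_mk W A g₀ = s27r_mk W A g := by
      rw [hg₀, map_sub, (s27j_mk_eq_zero_iff _).mpr (s27j_constA_mem_mRA hc), sub_zero]
    have hg₀N : g₀ ∉ s27j_N 𝔫 := by
      rw [s27j_mem_N, hg₀mk]
      exact hgn
    apply hZ g₀ hg₀N
    have h2 : s27j_evRA hsc hInt g₀ = 0 := by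
      rw [hg₀, map_sub, s27j_evRA_const, sub_self]
    have h3 := congrArg (fun z : ↥A => (z : K)) h2
    simpa using h3
  · apply Subtype.ext
    rw [s27j_evRA_coe]
    exact hfev

end Fermat.Agent.Lib.S27
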