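/-
Programme Z (S27), reduction half, brick [GR-D] part 11 (helper9, prefix `s27j_`): COUNTING ZEROS ON
A DISC.  `R̄` a Dedekind domain, `𝔫` a point of the special fibre, `Q` its place:

`s27j_count` : for `f ∈ R_A ∖ 𝔪R_A`, the zeros of `f` on the disc of `𝔫` (counted with
multiplicities) are as many as `ord_Q f̄`  (induction on `ord_Q f̄`: a zero exists, `s27j_exists_zero`,
and can be divided out locally, `s27j_local_gen`).
-/
import Fermat.Agent.Lib.S27.JExist
import Fermat.Agent.Lib.S27.JDiv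

set_option autoImplicit false
set_option linter.unusedSectionVars false
set_option linter.unusedVariables false
set_option linter.style.haveILetI false
set_option linter.overlappingInstances false

noncomputable section

namespace Fermat.Agent.Lib.S27

open AlgebraicCurve Fermat.Agent.Lib.FF Fermat.Agent.Lib.S44 Fermat.Agent.Lib.S19
  Fermat.Agent.Lib.S37 Fermat.Agent.Lib.S17 Polynomial IsLocalRing IsDedekindDomain

variable {K F : Type} [Field K] [Field F] [Algebra K F] [IsAlgClosed K] [CharZero K] {x : F}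
  [FFGen K x] {W : s27r_WD K F x} {A : ValuationSubring K}

/-! ### orders of functions of the model at places of the generic fibre -/

theorem s27j_ord_nonneg (hsc : s27r_SCUnit W A) (P : Place K F) (hne : P ≠ W.vinf)
    {g : ↥(s27r_RA W A)} (hg0 : g ≠ 0) : 0 ≤ P.ord (g : F) :=
  (ff_mem_iff_ord_nonneg P (s27j_coe_ne_zero hg0)).mp (s27j_RA_le_B hsc g.2 P hne)

theorem s27j_ord_pos_iff (hsc : s27r_SCUnit W A) (P : Place K F) (hne : P ≠ W.vinf)
    {g : ↥(s27r_RA W A)} (hg0 : g ≠ 0) :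
    0 < P.ord (g : F) ↔ s27j_evK hsc P hne g = 0 := by
  rw [ff_ord_pos_iff P (s27j_coe_ne_zero hg0)]
  constructor
  · rintro ⟨-, hinv⟩
    unfold s27j_evK
    rw [RingHom.comp_apply, s37pv_ev_eq_zero_iff, mem_maximalIdeal, mem_nonunits_iff]
    intro hu
    exact hinv (ff_inv_mem_of_isUnit P hu)
  · intro hev
    exact ⟨s27j_RA_le_B hsc g.2 P hne, s27j_inv_notMem_of_evK hsc P hne hg0 hev⟩

theorem s27j_evK_eq_zero_iff (hsc : s27r_SCUnit W A) {P : Place K F} (hP : s27j_Int W A P)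
    (g : ↥(s27r_RA W A)) :
    s27j_evK hsc P (s27j_ne_vinf hP) g = 0 ↔ s27j_evRA hsc hP g = 0 := by
  constructor
  · intro h
    apply Subtype.ext
    rw [s27j_evRA_coe]
    exact h
  · intro h
    rw [← s27j_evRA_coe hsc hP, h]
    rfl

/-- **places `≠ vinf` are separated by the model.** -/
theorem s27j_place_eq_of_ker_le (hW : s27r_WProps W) (hsc : s27r_SCUnit W A) {P P₀ : Place K F}
    (hne : P ≠ W.vinf) (hne₀ : P₀ ≠ W.vinf)
    (h : ∀ g : ↥(s27r_RA W A), s27j_evK hsc P₀ hne₀ g = 0 → s27j_evK hsc P hne g = 0) :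
    P = P₀ := by
  have hx : x ∈ P.toValuationSubring := W.x_mem P hne
  have hx₀ : x ∈ P₀.toValuationSubring := W.x_mem P₀ hne₀
  have hle : (ff_primeOf P₀ hx₀).asIdeal ≤ (ff_primeOf P hx).asIdeal := by
    intro b hb
    rcases eq_or_ne b 0 with rfl | hb0
    · exact Ideal.zero_mem _
    have hbF : (b : F) ≠ 0 := fun h0 => hb0 (Subtype.ext h0)
    have hbB : (b : F) ∈ s44rc_B W.vinf :=
      (s44rc_mem_B_iff_mem_ffB W.vinf W.x_mem (s27j_ord_x_neg W) _).mpr b.2
    obtain ⟨c, hc0, a, ha, -⟩ := s27j_scaleB hW A hbB hbF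
    have key : ∀ (Q : Place K F) (hQ : Q ≠ W.vinf) (hxQ : x ∈ Q.toValuationSubring),
        s27j_evK hsc Q hQ (s27r_PsiA W A a) = c * s37pv_ev x Q (ff_BtoO Q hxQ b) := by
      intro Q hQ hxQ
      unfold s27j_evK
      rw [RingHom.comp_apply]
      have : s27j_toP hsc Q hQ (s27r_PsiA W A a) =
          algebraMap K Q.toValuationSubring c * ff_BtoO Q hxQ b :=
        Subtype.ext (by rw [s27j_toP_coe, s27r_PsiA_coe, ha]; rfl)
      rw [this, map_mul, s37pv_ev_algebraMap]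
    have h0 : s27j_evK hsc P₀ hne₀ (s27r_PsiA W A a) = 0 := by
      rw [key P₀ hne₀ hx₀, (s37pv_ev_eq_zero_iff x P₀ _).mpr hb, mul_zero]
    have h1 := h _ h0
    rw [key P hne hx] at h1
    have h2 := (mul_eq_zero.mp h1).resolve_left hc0
    exact (s37pv_ev_eq_zero_iff x P _).mp h2
  have heq : ff_primeOf P₀ hx₀ = ff_primeOf P hx :=
    HeightOneSpectrum.ext
      ((ff_primeOf P₀ hx₀).isMaximal.eq_of_le (ff_primeOf P hx).isPrime.ne_top hle)
  rw [← ff_placeOf_primeOf P hx, ← ff_placeOf_primeOf P₀ hx₀, heq]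

variable [hdom : IsDomain (s27r_Rbar W A)] [hded : IsDedekindDomain (s27r_Rbar W A)]

/-! ### orders at the places of the special fibre -/

theorem s27j_ordQ_pos_iff (𝔫 : HeightOneSpectrum (s27r_Rbar W A)) {g : s27r_Rbar W A}
    (hg : g ≠ 0) :
    0 < (Place.ofHeightOneSpectrum (K := ResidueField ↥A) 𝔫).ord
      (algebraMap (s27r_Rbar W A) (s27r_Fb W A) g) ↔ g ∈ 𝔫.asIdeal := by
  have h := s37d_mem_primeOf (K := ResidueField ↥A) (F := s27r_Fb W A)
    (Place.ofHeightOneSpectrum (K := ResidueField ↥A) 𝔫) (fun r => 𝔫.valuation_le_one r) g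
  rw [s37d_primeOf_ofHeightOneSpectrum] at h
  rw [h]
  constructor
  · exact Or.inr
  · rintro (h0 | h1)
    · exact absurd h0 hg
    · exact h1

theorem s27j_ordQ_nonneg (𝔫 : HeightOneSpectrum (s27r_Rbar W A)) {g : s27r_Rbar W A}
    (hg : g ≠ 0) :
    0 ≤ (Place.ofHeightOneSpectrum (K := ResidueField ↥A) 𝔫).ord
      (algebraMap (s27r_Rbar W A) (s27r_Fb W A) g) := by
  have hg' : algebraMap (s27r_Rbar W A) (s27r_Fb W A) g ≠ 0 := by
    intro h0
    exact hg ((IsFractionRing.injective (s27r_Rbar W A) (s27r_Fb W A)) (by rw [h0, map_zero]))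
  exact (ff_mem_iff_ord_nonneg _ hg').mp
    (s37d_algebraMap_mem_ofHeightOneSpectrum (K := ResidueField ↥A) 𝔫 g)

theorem s27j_clW_ne_zero {f : ↥(s27r_RA W A)} (hf : f ∉ s27r_mRA W A) : s27j_clW W A f ≠ 0 :=
  fun h => hf ((s27j_cl_eq_zero_iff f).mp h)

theorem s27j_mk_ne_zero {f : ↥(s27r_RA W A)} (hf : f ∉ s27r_mRA W A) : s27r_mk W A f ≠ 0 :=
  fun h => hf ((s27j_mk_eq_zero_iff f).mp h)

theorem s27j_ordQ_eq_zero (𝔫 : HeightOneSpectrum (s27r_Rbar W A)) {s : ↥(s27r_RA W A)}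
    (hs : s27r_mk W A s ∉ 𝔫.asIdeal) :
    (Place.ofHeightOneSpectrum (K := ResidueField ↥A) 𝔫).ord (s27j_clW W A s) = 0 := by
  have hs0 : s27r_mk W A s ≠ 0 := by
    intro h
    apply hs
    rw [h]
    exact Ideal.zero_mem _
  have h1 := s27j_ordQ_nonneg 𝔫 hs0
  have h2 := (s27j_ordQ_pos_iff 𝔫 hs0).not.mpr hs
  rw [s27j_clW_eq]
  omega

/-! ### the fibres of the reduction of places -/

theorem s27j_r_eq_iff (hW : s27r_WProps W) (hsc : s27r_SCUnit W A)
    (Pinf : Place (ResidueField ↥A) (s27r_Fb W A))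
    (hPinf : ∀ 𝔫 : HeightOneSpectrum (s27r_Rbar W A),
      Place.ofHeightOneSpectrum (K := ResidueField ↥A) 𝔫 ≠ Pinf)
    (𝔫 : HeightOneSpectrum (s27r_Rbar W A)) (P : Place K F) :
    s27j_r hW hsc Pinf P = Place.ofHeightOneSpectrum (K := ResidueField ↥A) 𝔫 ↔
      ∃ hP : s27j_Int W A P, s27j_pt hW hsc hP = 𝔫 := by
  constructor
  · intro h
    by_cases hP : s27j_Int W A P
    · rw [s27j_r_of_int hW hsc Pinf hP] at h
      exact ⟨hP, s37d_ofHeightOneSpectrum_injective (K := ResidueField ↥A) h⟩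
    · rw [s27j_r_of_not_int hW hsc Pinf hP] at h
      exact absurd h.symm (hPinf 𝔫)
  · rintro ⟨hP, rfl⟩
    exact s27j_r_of_int hW hsc Pinf hP

theorem s27j_evRA_ne_zero (hW : s27r_WProps W) (hsc : s27r_SCUnit W A) {P : Place K F}
    (hP : s27j_Int W A P) {s : ↥(s27r_RA W A)}
    (hs : s27r_mk W A s ∉ (s27j_pt hW hsc hP).asIdeal) : s27j_evRA hsc hP s ≠ 0 := by
  intro h0
  apply hs
  rw [s27j_pt_asIdeal, RingHom.mem_ker, s27j_phi_mk, h0, map_zero]

section Count

variable [HasPrincipalDivisors K F]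

/-- a function whose reduction does not vanish at `𝔫` has no zero on the disc of `𝔫`. -/
theorem s27j_count_zero (hW : s27r_WProps W) (hsc : s27r_SCUnit W A)
    (Pinf : Place (ResidueField ↥A) (s27r_Fb W A))
    (hPinf : ∀ 𝔫 : HeightOneSpectrum (s27r_Rbar W A),
      Place.ofHeightOneSpectrum (K := ResidueField ↥A) 𝔫 ≠ Pinf)
    (𝔫 : HeightOneSpectrum (s27r_Rbar W A)) (f : ↥(s27r_RA W A))
    (hmk : s27r_mk W A f ∉ 𝔫.asIdeal) :
    Finsupp.mapDomain (s27j_r hW hsc Pinf) (s27j_div K (f : F))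
      (Place.ofHeightOneSpectrum (K := ResidueField ↥A) 𝔫) = 0 := by
  have hf0 : f ≠ 0 := by
    rintro rfl
    apply hmk
    rw [map_zero]
    exact Ideal.zero_mem _
  apply s27j_mapDomain_eq_zero
  intro P hrP
  obtain ⟨hP, hpt⟩ := (s27j_r_eq_iff hW hsc Pinf hPinf 𝔫 P).mp hrP
  rw [s27j_div_apply]
  have hne := s27j_ne_vinf hP
  have hev : s27j_evK hsc P hne f ≠ 0 := by
    intro h0
    have h1 := (s27j_evK_eq_zero_iff hsc hP f).mp h0
    rw [← hpt] at hmk
    exact s27j_evRA_ne_zero hW hsc hP hmk h1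
  have h1 := s27j_ord_nonneg hsc P hne hf0
  have h2 := (s27j_ord_pos_iff hsc P hne hf0).not.mpr hev
  omega

/-- a local generator has exactly one simple zero on its disc. -/
theorem s27j_count_tau (hW : s27r_WProps W) (hsc : s27r_SCUnit W A)
    (Pinf : Place (ResidueField ↥A) (s27r_Fb W A))
    (hPinf : ∀ 𝔫 : HeightOneSpectrum (s27r_Rbar W A),
      Place.ofHeightOneSpectrum (K := ResidueField ↥A) 𝔫 ≠ Pinf)
    {P₀ : Place K F} (hP₀ : s27j_Int W A P₀) (τ s : ↥(s27r_RA W A))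
    (hτev : s27j_evRA hsc hP₀ τ = 0) (hτ0 : τ ≠ 0)
    (hs : s27r_mk W A s ∉ (s27j_pt hW hsc hP₀).asIdeal)
    (hall : ∀ g : ↥(s27r_RA W A), s27j_evRA hsc hP₀ g = 0 →
      ∃ g₁ : ↥(s27r_RA W A), s * g = τ * g₁) :
    Finsupp.mapDomain (s27j_r hW hsc Pinf) (s27j_div K (τ : F))
      (Place.ofHeightOneSpectrum (K := ResidueField ↥A) (s27j_pt hW hsc hP₀)) = 1 := by
  have hne₀ := s27j_ne_vinf hP₀
  have hs0 : s ≠ 0 := by
    rintro rfl
    apply hs
    rw [map_zero]
    exact Ideal.zero_mem _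
  rw [s27j_mapDomain_eq_single _ _ _ P₀ (s27j_r_of_int hW hsc Pinf hP₀), s27j_div_apply]
  · -- the order of `τ` at `P₀` is one
    obtain ⟨u, huB, hu1⟩ := s44rc_exists_unif W.vinf W.x_mem (s27j_ord_x_neg W) P₀ hne₀
    have hu0 : u ≠ 0 := by
      rintro rfl
      rw [Place.ord_zero] at hu1
      omega
    obtain ⟨c, hc0, a, ha, -⟩ := s27j_scaleB hW A huB hu0
    have hcF : algebraMap K F c ≠ 0 := (_root_.map_ne_zero _).mpr hc0
    have hu'F : ((s27r_PsiA W A a : ↥(s27r_RA W A)) : F) = algebraMap K F c * u := by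
      rw [s27r_PsiA_coe, ha]
    have hu'ord : P₀.ord ((s27r_PsiA W A a : ↥(s27r_RA W A)) : F) = 1 := by
      rw [hu'F, P₀.ord_mul hcF hu0, ff_ord_algebraMap, hu1]
      norm_num
    have hu'0 : s27r_PsiA W A a ≠ 0 := by
      intro h
      rw [h] at hu'ord
      simp at hu'ord
    have hu'ev : s27j_evRA hsc hP₀ (s27r_PsiA W A a) = 0 :=
      (s27j_evK_eq_zero_iff hsc hP₀ _).mp
        ((s27j_ord_pos_iff hsc P₀ hne₀ hu'0).mp (by rw [hu'ord]; norm_num))
    obtain ⟨u₁, hu₁⟩ := hall _ hu'ev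
    have hsord : P₀.ord (s : F) = 0 := by
      have h1 := s27j_ord_nonneg hsc P₀ hne₀ hs0
      have h2 := (s27j_ord_pos_iff hsc P₀ hne₀ hs0).not.mpr
        (fun h => s27j_evRA_ne_zero hW hsc hP₀ hs ((s27j_evK_eq_zero_iff hsc hP₀ s).mp h))
      omega
    have hF : (s : F) * ((s27r_PsiA W A a : ↥(s27r_RA W A)) : F) = (τ : F) * (u₁ : F) := by
      have := congrArg (fun z : ↥(s27r_RA W A) => (z : F)) hu₁
      simpa using this
    have hu₁0 : u₁ ≠ 0 := by
      rintro rfl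
      rw [ZeroMemClass.coe_zero, mul_zero] at hF
      exact mul_ne_zero (s27j_coe_ne_zero hs0) (s27j_coe_ne_zero hu'0) hF
    have hτord := (s27j_ord_pos_iff hsc P₀ hne₀ hτ0).mpr ((s27j_evK_eq_zero_iff hsc hP₀ τ).mpr hτev)
    have hu₁ord := s27j_ord_nonneg hsc P₀ hne₀ hu₁0
    have h3 := congrArg P₀.ord hF
    rw [P₀.ord_mul (s27j_coe_ne_zero hs0) (s27j_coe_ne_zero hu'0),
      P₀.ord_mul (s27j_coe_ne_zero hτ0) (s27j_coe_ne_zero hu₁0), hsord, hu'ord] at h3
    omega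
  · -- no other zero on the disc
    intro P hrP hPne
    obtain ⟨hP, hpt⟩ := (s27j_r_eq_iff hW hsc Pinf hPinf _ P).mp hrP
    rw [s27j_div_apply]
    by_contra hne0
    have hne := s27j_ne_vinf hP
    have hpos : 0 < P.ord (τ : F) :=
      lt_of_le_of_ne (s27j_ord_nonneg hsc P hne hτ0) (Ne.symm hne0)
    have hτP : s27j_evRA hsc hP τ = 0 :=
      (s27j_evK_eq_zero_iff hsc hP τ).mp ((s27j_ord_pos_iff hsc P hne hτ0).mp hpos)
    have hsP : s27j_evRA hsc hP s ≠ 0 := by
      apply s27j_evRA_ne_zero hW hsc hP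
      rw [hpt]
      exact hs
    apply hPne
    apply s27j_place_eq_of_ker_le hW hsc hne hne₀
    intro g hg
    obtain ⟨g₁, hg₁⟩ := hall g ((s27j_evK_eq_zero_iff hsc hP₀ g).mp hg)
    have h4 := congrArg (s27j_evRA hsc hP) hg₁
    rw [map_mul, map_mul, hτP, zero_mul] at h4
    exact (s27j_evK_eq_zero_iff hsc hP g).mpr ((mul_eq_zero.mp h4).resolve_left hsP)

/-- **counting zeros on a disc**: the number of zeros of `f` on the disc of `𝔫` is the order of
the reduction of `f` at `𝔫`. -/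
theorem s27j_count (hW : s27r_WProps W) (hsc : s27r_SCUnit W A)
    (Pinf : Place (ResidueField ↥A) (s27r_Fb W A))
    (hPinf : ∀ 𝔫 : HeightOneSpectrum (s27r_Rbar W A),
      Place.ofHeightOneSpectrum (K := ResidueField ↥A) 𝔫 ≠ Pinf)
    (𝔫 : HeightOneSpectrum (s27r_Rbar W A)) :
    ∀ (m : ℕ) (f : ↥(s27r_RA W A)), f ∉ s27r_mRA W A →
      (Place.ofHeightOneSpectrum (K := ResidueField ↥A) 𝔫).ord (s27j_clW W A f) = (m : ℤ) →
      Finsupp.mapDomain (s27j_r hW hsc Pinf) (s27j_div K (f : F))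
        (Place.ofHeightOneSpectrum (K := ResidueField ↥A) 𝔫) = (m : ℤ) := by
  intro m
  induction m with
  | zero =>
    intro f hf hord
    rw [Nat.cast_zero]
    apply s27j_count_zero hW hsc Pinf hPinf
    intro hmem
    have h1 := (s27j_ordQ_pos_iff 𝔫 (s27j_mk_ne_zero hf)).mpr hmem
    rw [← s27j_clW_eq, hord] at h1
    simp at h1
  | succ m ih =>
    intro f hf hord
    have hmem : s27r_mk W A f ∈ 𝔫.asIdeal := by
      apply (s27j_ordQ_pos_iff 𝔫 (s27j_mk_ne_zero hf)).mp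
      rw [← s27j_clW_eq, hord]
      positivity
    obtain ⟨P₀, hP₀, hpt, hev⟩ := s27j_exists_zero hW hsc 𝔫 f hf hmem
    subst hpt
    obtain ⟨τ, s, hτev, hτord, hs, hall⟩ := s27j_local_gen hW hsc hP₀
    obtain ⟨f₁, hf₁⟩ := hall f hev
    have hprime : (s27r_mRA W A).IsPrime := s27j_isPrime_mRA hW hsc
    have hs0 : s ≠ 0 := by
      rintro rfl
      apply hs
      rw [map_zero]
      exact Ideal.zero_mem _
    have hsm : s ∉ s27r_mRA W A := fun h =>
      hs ((s27j_mem_N _ s).mp (s27j_mRA_le_N (s27j_pt hW hsc hP₀) h))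
    have hτ0 : τ ≠ 0 := by
      rintro rfl
      rw [map_zero, Place.ord_zero] at hτord
      omega
    have hf0 : f ≠ 0 := by
      rintro rfl
      exact hf (Ideal.zero_mem _)
    have hf₁m : f₁ ∉ s27r_mRA W A := by
      intro h
      have h1 : s * f ∈ s27r_mRA W A := by
        rw [hf₁]
        exact Ideal.mul_mem_left _ _ h
      rcases hprime.mem_or_mem h1 with h2 | h2
      · exact hsm h2
      · exact hf h2
    have hf₁0 : f₁ ≠ 0 := by
      rintro rfl
      exact hf₁m (Ideal.zero_mem _)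
    have hτm : τ ∉ s27r_mRA W A := by
      intro h
      have h1 : s * f ∈ s27r_mRA W A := by
        rw [hf₁]
        exact Ideal.mul_mem_right _ _ h
      rcases hprime.mem_or_mem h1 with h2 | h2
      · exact hsm h2
      · exact hf h2
    -- orders at `Q`
    have hcl : s27j_clW W A s * s27j_clW W A f = s27j_clW W A τ * s27j_clW W A f₁ := by
      rw [← map_mul, ← map_mul, hf₁]
    have hordeq := congrArg
      (Place.ofHeightOneSpectrum (K := ResidueField ↥A) (s27j_pt hW hsc hP₀)).ord hcl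
    rw [Place.ord_mul _ (s27j_clW_ne_zero hsm) (s27j_clW_ne_zero hf),
      Place.ord_mul _ (s27j_clW_ne_zero hτm) (s27j_clW_ne_zero hf₁m),
      s27j_ordQ_eq_zero _ hs, hτord, hord] at hordeq
    have ih1 := ih f₁ hf₁m (by push_cast at hordeq ⊢; omega)
    have hNs := s27j_count_zero hW hsc Pinf hPinf (s27j_pt hW hsc hP₀) s hs
    have hNτ := s27j_count_tau hW hsc Pinf hPinf hP₀ τ s hτev hτ0 hs hall
    have hF : (s : F) * (f : F) = (τ : F) * (f₁ : F) := by
      have := congrArg (fun z : ↥(s27r_RA W A) => (z : F)) hf₁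
      simpa using this
    have hdiv : s27j_div K (s : F) + s27j_div K (f : F) =
        s27j_div K (τ : F) + s27j_div K (f₁ : F) := by
      rw [← s27j_div_mul (s27j_coe_ne_zero hs0) (s27j_coe_ne_zero hf0),
        ← s27j_div_mul (s27j_coe_ne_zero hτ0) (s27j_coe_ne_zero hf₁0), hF]
    have hN := congrArg (fun D : Divisor K F => Finsupp.mapDomain (s27j_r hW hsc Pinf) D
      (Place.ofHeightOneSpectrum (K := ResidueField ↥A) (s27j_pt hW hsc hP₀))) hdiv
    simp only [Finsupp.mapDomain_add, Finsupp.add_apply] at hN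
    rw [hNs, hNτ, ih1] at hN
    push_cast
    omega

end Count

end Fermat.Agent.Lib.S27
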