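/-
Programme Z (S27), reduction half, brick [GR-D] part 12 (helper9, prefix `s27j_`): CONSERVATION OF
NUMBER for the reduction data `(s27j_OW, s27j_redW, s27j_r)` of the model.

Hypotheses (besides `hW`, `hsc`): `R̄` a Dedekind domain, both function fields have principal
divisors of degree zero, the places of the special fibre have degree one, every place `≠ Pinf` of
the special fibre contains `R̄`, and `Pinf` does not.

* `s27j_cons_fin` : conservation at the finite places, for every `y ∈ O` with non-zero reduction;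
* `s27j_cons : s27j_Cons hW hsc Pinf` : the field `cons` of `s19_RD` (the place at infinity by
  comparing degrees);
* `s27j_finW` : the field `fin` of `s19_RD`.
-/
import Fermat.Agent.Lib.S27.JCount

set_option autoImplicit false
set_option linter.unusedSectionVars false
set_option linter.unusedVariables false
set_option linter.style.haveILetI false
set_option linter.overlappingInstances false

noncomputable section

namespace Fermat.Agent.Lib.S27

open AlgebraicCurve Fermat.Agent.Lib.FF Fermat.Agent.Lib.S44 Fermat.Agent.Lib.S19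
  Fermat.Agent.Lib.S37 Fermat.Agent.Lib.S17 Polynomial IsLocalRing IsDedekindDomain

variable {K F : Type} [Field K] [Field F] [Algebra K F] [IsAlgClosed K] [CharZero K] {x : F}
  [FFGen K x] {W : s27r_WD K F x} {A : ValuationSubring K}
  [hdom : IsDomain (s27r_Rbar W A)] [hded : IsDedekindDomain (s27r_Rbar W A)]

/-- the field `fin` of `s19_RD`. -/
theorem s27j_finW [HasPrincipalDivisors K F] (y : F) (hy : y ≠ 0) :
    {P : Place K F | P.ord y ≠ 0}.Finite :=
  s27j_fin K y

variable [HasPrincipalDivisors K F]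

/-- counting zeros on a disc, without the auxiliary natural number. -/
theorem s27j_count' (hW : s27r_WProps W) (hsc : s27r_SCUnit W A)
    (Pinf : Place (ResidueField ↥A) (s27r_Fb W A))
    (hPinf : ∀ 𝔫 : HeightOneSpectrum (s27r_Rbar W A),
      Place.ofHeightOneSpectrum (K := ResidueField ↥A) 𝔫 ≠ Pinf)
    (𝔫 : HeightOneSpectrum (s27r_Rbar W A)) (f : ↥(s27r_RA W A)) (hf : f ∉ s27r_mRA W A) :
    Finsupp.mapDomain (s27j_r hW hsc Pinf) (s27j_div K (f : F))
        (Place.ofHeightOneSpectrum (K := ResidueField ↥A) 𝔫) =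
      (Place.ofHeightOneSpectrum (K := ResidueField ↥A) 𝔫).ord (s27j_clW W A f) := by
  have h0 := s27j_ordQ_nonneg 𝔫 (s27j_mk_ne_zero hf)
  rw [← s27j_clW_eq] at h0
  obtain ⟨m, hm⟩ := Int.eq_ofNat_of_zero_le h0
  rw [hm]
  exact s27j_count hW hsc Pinf hPinf 𝔫 m f hf hm

/-- **conservation of number at the finite places.** -/
theorem s27j_cons_fin (hW : s27r_WProps W) (hsc : s27r_SCUnit W A)
    (Pinf : Place (ResidueField ↥A) (s27r_Fb W A))
    (hPinf : ∀ 𝔫 : HeightOneSpectrum (s27r_Rbar W A),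
      Place.ofHeightOneSpectrum (K := ResidueField ↥A) 𝔫 ≠ Pinf)
    (y : F) (hy : y ∈ s27j_OW hW hsc) (hy0 : s27j_redW hW hsc ⟨y, hy⟩ ≠ 0)
    (𝔫 : HeightOneSpectrum (s27r_Rbar W A)) :
    Finsupp.mapDomain (s27j_r hW hsc Pinf) (s27j_div K y)
        (Place.ofHeightOneSpectrum (K := ResidueField ↥A) 𝔫) =
      (Place.ofHeightOneSpectrum (K := ResidueField ↥A) 𝔫).ord (s27j_redW hW hsc ⟨y, hy⟩) := by
  obtain ⟨f, g, hg, hyg⟩ := (s27j_mem_OW hW hsc y).mp hy
  have hred := s27j_redW_eq hW hsc ⟨y, hy⟩ f g hg hyg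
  have hf : f ∉ s27r_mRA W A := by
    intro hf
    apply hy0
    exact (s27j_red_eq_zero_iff (s27j_gd hW hsc) ⟨y, hy⟩ f g hg hyg).mpr hf
  have hg0 : g ≠ 0 := by
    rintro rfl
    exact hg (Ideal.zero_mem _)
  have hgF : (g : F) ≠ 0 := s27j_coe_ne_zero hg0
  have hyF : y ≠ 0 := by
    rintro rfl
    apply hf
    have : f = 0 := Subtype.ext (by rw [← hyg, zero_mul]; rfl)
    rw [this]
    exact Ideal.zero_mem _
  have hdiv : s27j_div K y + s27j_div K (g : F) = s27j_div K (f : F) := by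
    rw [← s27j_div_mul hyF hgF, hyg]
  have hN := congrArg (fun D : Divisor K F => Finsupp.mapDomain (s27j_r hW hsc Pinf) D
    (Place.ofHeightOneSpectrum (K := ResidueField ↥A) 𝔫)) hdiv
  simp only [Finsupp.mapDomain_add, Finsupp.add_apply] at hN
  rw [s27j_count' hW hsc Pinf hPinf 𝔫 g hg, s27j_count' hW hsc Pinf hPinf 𝔫 f hf] at hN
  have hmul : s27j_redW hW hsc ⟨y, hy⟩ * s27j_clW W A g = s27j_clW W A f := by
    rw [hred, div_mul_cancel₀ _ (s27j_clW_ne_zero hg)]
  have hord := congrArg (Place.ofHeightOneSpectrum (K := ResidueField ↥A) 𝔫).ord hmul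
  rw [Place.ord_mul _ hy0 (s27j_clW_ne_zero hg)] at hord
  omega

variable [HasPrincipalDivisors (ResidueField ↥A) (s27r_Fb W A)]

/-- **conservation of number** for the reduction of the model. -/
theorem s27j_cons (hW : s27r_WProps W) (hsc : s27r_SCUnit W A)
    (Pinf : Place (ResidueField ↥A) (s27r_Fb W A))
    (hdegb : ∀ Q : Place (ResidueField ↥A) (s27r_Fb W A), Q.deg = 1)
    (hfin : ∀ Q : Place (ResidueField ↥A) (s27r_Fb W A), Q ≠ Pinf → ∀ yb : s27r_Rbar W A,
      algebraMap (s27r_Rbar W A) (s27r_Fb W A) yb ∈ Q.toValuationSubring)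
    (hinf : ∃ yb : s27r_Rbar W A,
      algebraMap (s27r_Rbar W A) (s27r_Fb W A) yb ∉ Pinf.toValuationSubring) :
    s27j_Cons hW hsc Pinf := by
  have hPinf : ∀ 𝔫 : HeightOneSpectrum (s27r_Rbar W A),
      Place.ofHeightOneSpectrum (K := ResidueField ↥A) 𝔫 ≠ Pinf := by
    intro 𝔫 h
    obtain ⟨yb, hyb⟩ := hinf
    apply hyb
    rw [← h]
    exact s37d_algebraMap_mem_ofHeightOneSpectrum (K := ResidueField ↥A) 𝔫 yb
  intro y hy hy0 Dv hDv Q
  have hDv' : Dv = s27j_div K y := s27j_div_unique Dv hDv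
  rw [hDv']
  have hfinQ : ∀ Q : Place (ResidueField ↥A) (s27r_Fb W A), Q ≠ Pinf →
      Finsupp.mapDomain (s27j_r hW hsc Pinf) (s27j_div K y) Q =
        Q.ord (s27j_redW hW hsc ⟨y, hy⟩) := by
    intro Q hQ
    have h1 := s37d_ofHeightOneSpectrum_primeOf (K := ResidueField ↥A) Q (hfin Q hQ)
    rw [← h1]
    exact s27j_cons_fin hW hsc Pinf hPinf y hy hy0 _
  by_cases hQ : Q = Pinf
  · rw [hQ]
    have hdegF : ∀ P : Place K F, P.deg = 1 := fun P => s37dg_deg_eq_one x P
    have h2 := s27j_eq_of_degree hdegb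
      (Finsupp.mapDomain (s27j_r hW hsc Pinf) (s27j_div K y))
      (s27j_div (ResidueField ↥A) (s27j_redW hW hsc ⟨y, hy⟩)) Pinf
      (by rw [s27j_degree_mapDomain hdegF hdegb, s27j_div_degree, s27j_div_degree])
      (fun Q hQ => by rw [hfinQ Q hQ, s27j_div_apply])
    rw [h2, s27j_div_apply]
  · exact hfinQ Q hQ

end Fermat.Agent.Lib.S27
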