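/-
Programme S27 (torsion of the Jacobian of an arbitrary curve), brick [CAS] (helper5, prefix
`s27c_`): **Cassels' embedding**.  A field `K` of characteristic `0` with a finite transcendence
basis over `ℚ` embeds into `PadicAlgCl p` for a suitable prime `p` (as large as we wish) in such
a way that finitely many prescribed non-zero elements become units.  Pulling back the norm gives a
non-archimedean absolute value on `K` whose residue field is algebraic over `𝔽_p`.
Mathlib only.
-/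
import Mathlib

set_option autoImplicit false
set_option linter.style.haveILetI false

noncomputable section

namespace Fermat.Agent.Lib.S27

open Polynomial

theorem s27c_uncountable_nat_bool : Uncountable (ℕ → Bool) := by
  rw [← Cardinal.aleph0_lt_mk_iff]
  have h : Cardinal.mk (ℕ → Bool) = 2 ^ Cardinal.aleph0 := by simp
  rw [h]
  exact Cardinal.cantor _

theorem s27c_uncountable_padic (p : ℕ) [Fact p.Prime] : Uncountable ℚ_[p] := by
  obtain ⟨f, -, -, hf⟩ := Perfect.exists_nat_bool_injection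
    (PerfectSpace.univ_perfect (α := ℚ_[p])) Set.univ_nonempty
  haveI := s27c_uncountable_nat_bool
  exact hf.uncountable

/-- a transcendence basis of `ℚ_p` over `ℚ` is infinite. -/
theorem s27c_infinite_basis (p : ℕ) [Fact p.Prime] (s : Set ℚ_[p])
    (hs : IsTranscendenceBasis ℚ (Subtype.val : s → ℚ_[p])) : s.Infinite := by
  intro hfin
  haveI : Uncountable ℚ_[p] := s27c_uncountable_padic p
  have halg : Algebra.IsAlgebraic (Algebra.adjoin ℚ (Set.range (Subtype.val : s → ℚ_[p]))) ℚ_[p] :=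
    hs.isAlgebraic
  haveI : Finite s := hfin
  haveI : Countable (MvPolynomial s ℚ) := by
    rw [← Cardinal.mk_le_aleph0_iff]
    refine le_trans MvPolynomial.cardinalMk_le_max ?_
    simp
  haveI : Countable (Algebra.adjoin ℚ (Set.range (Subtype.val : s → ℚ_[p]))) := by
    have e := hs.1.aevalEquiv
    exact Countable.of_equiv _ e.toEquiv
  have hle := Algebra.IsAlgebraic.cardinalMk_le_max
    (Algebra.adjoin ℚ (Set.range (Subtype.val : s → ℚ_[p]))) ℚ_[p]
  have h1 : Cardinal.mk (Algebra.adjoin ℚ (Set.range (Subtype.val : s → ℚ_[p]))) ≤ Cardinal.aleph0 :=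
    Cardinal.mk_le_aleph0
  have h2 : Cardinal.aleph0 < Cardinal.mk ℚ_[p] := Cardinal.aleph0_lt_mk
  have h3 : Cardinal.mk ℚ_[p] ≤ Cardinal.aleph0 := le_trans hle (max_le h1 le_rfl)
  exact absurd h2 (not_lt.mpr h3)
/-- algebraic independence is preserved by an invertible affine change of the family. -/
theorem s27c_algInd_affine {ι R A : Type*} [Field R] [CommRing A] [Algebra R A]
    (u : ι → A) (hu : AlgebraicIndependent R u) (a b : ι → R) (hb : ∀ i, b i ≠ 0) :
    AlgebraicIndependent R (fun i => algebraMap R A (a i) + algebraMap R A (b i) * u i) := by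
  rw [algebraicIndependent_iff] at hu ⊢
  intro P hP
  -- ψ : X_i ↦ a_i + b_i X_i and its inverse
  set g : ι → MvPolynomial ι R := fun i => MvPolynomial.C (a i) + MvPolynomial.C (b i) * MvPolynomial.X i
    with hg
  set g' : ι → MvPolynomial ι R := fun i =>
    MvPolynomial.C ((b i)⁻¹) * (MvPolynomial.X i - MvPolynomial.C (a i)) with hg'
  have h1 : MvPolynomial.aeval u (MvPolynomial.bind₁ g P) = 0 := by
    rw [MvPolynomial.aeval_bind₁]
    have : (fun i => MvPolynomial.aeval u (g i)) =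
        fun i => algebraMap R A (a i) + algebraMap R A (b i) * u i := by
      funext i
      simp [hg]
    rw [this]
    exact hP
  have h2 := hu _ h1
  have h3 : MvPolynomial.bind₁ g' (MvPolynomial.bind₁ g P) = P := by
    rw [MvPolynomial.bind₁_bind₁]
    have : (fun i => MvPolynomial.bind₁ g' (g i)) = MvPolynomial.X := by
      funext i
      simp only [hg, hg', map_add, map_mul, MvPolynomial.bind₁_C_right, MvPolynomial.bind₁_X_right]
      rw [← mul_assoc, ← MvPolynomial.C_mul, mul_inv_cancel₀ (hb i), MvPolynomial.C_1, one_mul]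
      ring
    rw [this, MvPolynomial.bind₁_X_left]
    rfl
  rw [← h3, h2, map_zero]

/-- an algebraically independent family of `p`-adic integers in prescribed residue classes. -/
theorem s27c_exists_indep (p : ℕ) [Fact p.Prime] (ι : Type) [Fintype ι] (c : ι → ℤ) :
    ∃ τ : ι → ℚ_[p], AlgebraicIndependent ℚ τ ∧ (∀ i, ‖τ i - (c i : ℚ_[p])‖ < 1) ∧
      ∀ i, ‖τ i‖ ≤ 1 := by
  classical
  obtain ⟨s, hs⟩ := exists_isTranscendenceBasis ℚ ℚ_[p]
  have hinf := s27c_infinite_basis p s hs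
  obtain ⟨T, hTs, hTcard⟩ := hinf.exists_subset_card_eq (Fintype.card ι)
  have e : ι ≃ T := Fintype.equivOfCardEq (by rw [Fintype.card_coe, hTcard])
  set j : ι → s := fun i => ⟨(e i : ℚ_[p]), hTs (e i).2⟩ with hj
  have hjinj : Function.Injective j := by
    intro i i' h
    have : ((e i : T) : ℚ_[p]) = (e i' : T) := congrArg (fun z : s => (z : ℚ_[p])) h
    exact e.injective (Subtype.ext this)
  set u : ι → ℚ_[p] := fun i => (j i : ℚ_[p]) with hu
  have hui : AlgebraicIndependent ℚ u := hs.1.comp j hjinj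
  have hp1 : (1 : ℝ) < p := by exact_mod_cast (Fact.out : p.Prime).one_lt
  have hm : ∀ i, ∃ m : ℕ, ‖u i‖ < (p : ℝ) ^ m := fun i => pow_unbounded_of_one_lt _ hp1
  choose m hm using hm
  refine ⟨fun i => algebraMap ℚ ℚ_[p] (c i : ℚ) + algebraMap ℚ ℚ_[p] ((p : ℚ) ^ (m i + 1)) * u i,
    s27c_algInd_affine u hui _ _ (fun i => pow_ne_zero _ (by exact_mod_cast (Fact.out : p.Prime).ne_zero)),
    ?_, ?_⟩
  · intro i
    have h0 : algebraMap ℚ ℚ_[p] (c i : ℚ) = (c i : ℚ_[p]) := by simp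
    beta_reduce
    rw [h0, add_sub_cancel_left, norm_mul]
    have h1 : ‖algebraMap ℚ ℚ_[p] ((p : ℚ) ^ (m i + 1))‖ = ((p : ℝ) ^ (m i + 1))⁻¹ := by
      rw [map_pow, map_natCast, norm_pow, Padic.norm_p, inv_pow]
    rw [h1]
    have hpos : (0 : ℝ) < (p : ℝ) ^ (m i + 1) := by positivity
    rw [inv_mul_lt_iff₀ hpos, mul_one]
    calc ‖u i‖ < (p : ℝ) ^ m i := hm i
      _ ≤ (p : ℝ) ^ (m i + 1) := pow_le_pow_right₀ hp1.le (Nat.le_succ _)
  · intro i
    have h0 : algebraMap ℚ ℚ_[p] (c i : ℚ) = (c i : ℚ_[p]) := by simp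
    beta_reduce
    rw [h0]
    refine le_trans (Padic.nonarchimedean _ _) (max_le (Padic.norm_int_le_one _) ?_)
    rw [norm_mul]
    have h1 : ‖algebraMap ℚ ℚ_[p] ((p : ℚ) ^ (m i + 1))‖ = ((p : ℝ) ^ (m i + 1))⁻¹ := by
      rw [map_pow, map_natCast, norm_pow, Padic.norm_p, inv_pow]
    rw [h1]
    have hpos : (0 : ℝ) < (p : ℝ) ^ (m i + 1) := by positivity
    rw [inv_mul_le_iff₀ hpos, mul_one]
    calc ‖u i‖ ≤ (p : ℝ) ^ m i := (hm i).le
      _ ≤ (p : ℝ) ^ (m i + 1) := pow_le_pow_right₀ hp1.le (Nat.le_succ _)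

/-- extension of an embedding of a transcendence basis to an embedding of the field. -/
theorem s27c_exists_embedding {K : Type} [Field K] [CharZero K] {Ω : Type} [Field Ω]
    [IsAlgClosed Ω] [CharZero Ω] {ι : Type} (t : ι → K) (ht : IsTranscendenceBasis ℚ t)
    (τ : ι → Ω) (hτ : AlgebraicIndependent ℚ τ) :
    ∃ φ : K →+* Ω, ∀ i, φ (t i) = τ i := by
  set B : Subalgebra ℚ K := Algebra.adjoin ℚ (Set.range t) with hB
  have e : MvPolynomial ι ℚ ≃ₐ[ℚ] B := ht.1.aevalEquiv
  have he : ∀ P : MvPolynomial ι ℚ, ((ht.1.aevalEquiv P : B) : K) = MvPolynomial.aeval t P :=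
    fun P => ht.1.algebraMap_aevalEquiv P
  set f : B →ₐ[ℚ] Ω := (MvPolynomial.aeval τ).comp (ht.1.aevalEquiv.symm : B →ₐ[ℚ] MvPolynomial ι ℚ)
    with hf
  have hfinj : Function.Injective f := by
    rw [hf]
    have hinj : Function.Injective (MvPolynomial.aeval τ : MvPolynomial ι ℚ →ₐ[ℚ] Ω) := hτ
    exact hinj.comp ht.1.aevalEquiv.symm.injective
  letI : Algebra B Ω := f.toRingHom.toAlgebra
  haveI : Module.IsTorsionFree B K :=
    Module.isTorsionFree_iff_algebraMap_injective.mpr Subtype.val_injective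
  haveI : Module.IsTorsionFree B Ω :=
    Module.isTorsionFree_iff_algebraMap_injective.mpr hfinj
  haveI : Algebra.IsAlgebraic B K := ht.isAlgebraic
  let ψ : K →ₐ[B] Ω := IsAlgClosed.lift
  refine ⟨ψ.toRingHom, fun i => ?_⟩
  have hti : t i ∈ B := Algebra.subset_adjoin ⟨i, rfl⟩
  have h1 : ψ (algebraMap B K ⟨t i, hti⟩) = algebraMap B Ω ⟨t i, hti⟩ := ψ.commutes _
  have h2 : algebraMap B Ω ⟨t i, hti⟩ = f ⟨t i, hti⟩ := rfl
  have h3 : (⟨t i, hti⟩ : B) = ht.1.aevalEquiv (MvPolynomial.X i) := by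
    apply Subtype.ext
    rw [he, MvPolynomial.aeval_X]
  show ψ (t i) = τ i
  have h4 : algebraMap B K ⟨t i, hti⟩ = t i := rfl
  rw [← h4, h1, h2, h3, hf]
  simp

/-- every element of `K` satisfies a non-trivial polynomial relation with coefficients in
`ℤ[t]`. -/
theorem s27c_exists_int_rel {K : Type} [Field K] [CharZero K] {ι : Type} (t : ι → K)
    (ht : IsTranscendenceBasis ℚ t) (s : K) :
    ∃ P : Polynomial (MvPolynomial ι ℤ), P ≠ 0 ∧
      Polynomial.eval₂ ((MvPolynomial.aeval t : MvPolynomial ι ℤ →ₐ[ℤ] K) :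
        MvPolynomial ι ℤ →+* K) s P = 0 := by
  set B : Subalgebra ℚ K := Algebra.adjoin ℚ (Set.range t) with hB
  letI a1 : Algebra (MvPolynomial ι ℚ) K :=
    ((MvPolynomial.aeval t : MvPolynomial ι ℚ →ₐ[ℚ] K) : MvPolynomial ι ℚ →+* K).toAlgebra
  letI a2 : Algebra (MvPolynomial ι ℤ) K :=
    ((MvPolynomial.aeval t : MvPolynomial ι ℤ →ₐ[ℤ] K) : MvPolynomial ι ℤ →+* K).toAlgebra
  letI a3 : Algebra (MvPolynomial ι ℤ) (MvPolynomial ι ℚ) := MvPolynomial.algebraMvPolynomial
  haveI : IsScalarTower (MvPolynomial ι ℤ) (MvPolynomial ι ℚ) K := by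
    refine IsScalarTower.of_algebraMap_eq fun f => ?_
    show MvPolynomial.aeval t f = MvPolynomial.aeval t (MvPolynomial.map (algebraMap ℤ ℚ) f)
    rw [MvPolynomial.aeval_map_algebraMap]
  haveI : Algebra.IsAlgebraic (MvPolynomial ι ℤ) (MvPolynomial ι ℚ) := by
    haveI := MvPolynomial.isLocalization (σ := ι) (nonZeroDivisors ℤ) ℚ
    exact IsLocalization.isAlgebraic _ (Submonoid.map MvPolynomial.C (nonZeroDivisors ℤ))
  have hB_alg : IsAlgebraic B s := (ht.isAlgebraic : Algebra.IsAlgebraic B K).isAlgebraic s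
  have h1 : IsAlgebraic (MvPolynomial ι ℚ) s := by
    refine IsAlgebraic.of_ringHom_of_comp_eq (S := B) (B := K)
      (f := ((ht.1.aevalEquiv : MvPolynomial ι ℚ ≃ₐ[ℚ] B) : MvPolynomial ι ℚ →+* B))
      (g := RingHom.id K) (a := s) hB_alg ?_ (fun _ _ h => h) ?_
    · exact ht.1.aevalEquiv.surjective
    · ext P
      · simp
      · simp
        show t P = MvPolynomial.aeval t (MvPolynomial.X P)
        rw [MvPolynomial.aeval_X]
  have h2 : IsAlgebraic (MvPolynomial ι ℤ) s := IsAlgebraic.restrictScalars _ h1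
  obtain ⟨P, hP0, hP⟩ := h2
  exact ⟨P, hP0, hP⟩

section Ultra

variable {L : Type} [NormedField L] [IsUltrametricDist L]

/-- integer polynomials in elements of norm `≤ 1` have norm `≤ 1`. -/
theorem s27c_norm_aeval_le_one {ι : Type} (τ : ι → L) (hτ : ∀ i, ‖τ i‖ ≤ 1)
    (g : MvPolynomial ι ℤ) : ‖MvPolynomial.aeval τ g‖ ≤ 1 := by
  induction g using MvPolynomial.induction_on with
  | C a =>
    rw [MvPolynomial.aeval_C]
    simpa using IsUltrametricDist.norm_intCast_le_one L a
  | add p q hp hq =>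
    rw [map_add]
    exact le_trans (IsUltrametricDist.norm_add_le_max _ _) (max_le hp hq)
  | mul_X p i hp =>
    rw [map_mul, MvPolynomial.aeval_X, norm_mul]
    exact mul_le_one₀ hp (norm_nonneg _) (hτ i)

/-- integer polynomials are compatible with congruences modulo the open unit ball. -/
theorem s27c_norm_aeval_sub_lt_one {ι : Type} (τ c : ι → L) (hτ : ∀ i, ‖τ i‖ ≤ 1)
    (hc : ∀ i, ‖c i‖ ≤ 1) (hτc : ∀ i, ‖τ i - c i‖ < 1) (g : MvPolynomial ι ℤ) :
    ‖MvPolynomial.aeval τ g - MvPolynomial.aeval c g‖ < 1 := by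
  induction g using MvPolynomial.induction_on with
  | C a =>
    rw [MvPolynomial.aeval_C, MvPolynomial.aeval_C, sub_self, norm_zero]
    exact one_pos
  | add p q hp hq =>
    rw [map_add, map_add, add_sub_add_comm]
    exact lt_of_le_of_lt (IsUltrametricDist.norm_add_le_max _ _) (max_lt hp hq)
  | mul_X p i hp =>
    rw [map_mul, map_mul, MvPolynomial.aeval_X, MvPolynomial.aeval_X]
    have e : MvPolynomial.aeval τ p * τ i - MvPolynomial.aeval c p * c i
        = (MvPolynomial.aeval τ p - MvPolynomial.aeval c p) * τ i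
          + MvPolynomial.aeval c p * (τ i - c i) := by ring
    rw [e]
    refine lt_of_le_of_lt (IsUltrametricDist.norm_add_le_max _ _) (max_lt ?_ ?_)
    · rw [norm_mul]
      calc ‖MvPolynomial.aeval τ p - MvPolynomial.aeval c p‖ * ‖τ i‖
          ≤ ‖MvPolynomial.aeval τ p - MvPolynomial.aeval c p‖ * 1 :=
            mul_le_mul_of_nonneg_left (hτ i) (norm_nonneg _)
        _ < 1 := by rw [mul_one]; exact hp
    · rw [norm_mul]
      calc ‖MvPolynomial.aeval c p‖ * ‖τ i - c i‖
          ≤ 1 * ‖τ i - c i‖ :=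
            mul_le_mul_of_nonneg_right (s27c_norm_aeval_le_one c hc p) (norm_nonneg _)
        _ < 1 := by rw [one_mul]; exact hτc i

/-- a root of a polynomial with coefficients of norm `≤ 1` and leading coefficient of norm `1`
has norm `≤ 1`. -/
theorem s27c_norm_root_le_one (P : L[X]) (hlc : ‖P.leadingCoeff‖ = 1)
    (hco : ∀ n, ‖P.coeff n‖ ≤ 1) (σ : L) (hσ : P.eval σ = 0) : ‖σ‖ ≤ 1 := by
  by_contra hgt
  push Not at hgt
  set d := P.natDegree with hd
  have hev : P.eval σ = ∑ n ∈ Finset.range (d + 1), P.coeff n * σ ^ n :=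
    Polynomial.eval_eq_sum_range σ
  rw [hσ, Finset.sum_range_succ] at hev
  have hlead : P.coeff d * σ ^ d = -∑ n ∈ Finset.range d, P.coeff n * σ ^ n := by
    linear_combination -hev
  have hn1 : ‖P.coeff d * σ ^ d‖ = ‖σ‖ ^ d := by
    rw [norm_mul, norm_pow]
    have : P.coeff d = P.leadingCoeff := rfl
    rw [this, hlc, one_mul]
  have hσ0 : (0 : ℝ) ≤ ‖σ‖ := norm_nonneg _
  rcases Nat.eq_zero_or_pos d with hd0 | hdpos
  · rw [hd0, Finset.range_zero, Finset.sum_empty, neg_zero] at hlead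
    have : ‖P.coeff 0 * σ ^ 0‖ = 0 := by rw [hlead, norm_zero]
    rw [hd0] at hn1
    rw [hn1, pow_zero] at this
    exact one_ne_zero this
  · have hbound : ‖∑ n ∈ Finset.range d, P.coeff n * σ ^ n‖ ≤ ‖σ‖ ^ (d - 1) := by
      refine IsUltrametricDist.norm_sum_le_of_forall_le_of_nonneg (by positivity) fun n hn => ?_
      rw [Finset.mem_range] at hn
      rw [norm_mul, norm_pow]
      calc ‖P.coeff n‖ * ‖σ‖ ^ n ≤ 1 * ‖σ‖ ^ n :=
            mul_le_mul_of_nonneg_right (hco n) (by positivity)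
        _ = ‖σ‖ ^ n := one_mul _
        _ ≤ ‖σ‖ ^ (d - 1) := pow_le_pow_right₀ hgt.le (by omega)
    rw [hlead, norm_neg] at hn1
    rw [hn1] at hbound
    have : ‖σ‖ ^ d = ‖σ‖ ^ (d - 1) * ‖σ‖ := by
      rw [← pow_succ]
      congr 1
      omega
    rw [this] at hbound
    have hpos : (0 : ℝ) < ‖σ‖ ^ (d - 1) := by positivity
    have : ‖σ‖ ≤ 1 := by
      by_contra h
      push Not at h
      have := mul_lt_mul_of_pos_left h hpos
      rw [mul_one] at this
      exact absurd hbound (not_le.mpr this)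
    exact absurd hgt (not_lt.mpr this)

end Ultra

/-- a `p`-adic number of norm `≤ 1` is congruent to an integer modulo the open unit ball. -/
theorem s27c_exists_int_approx (p : ℕ) [Fact p.Prime] (a : ℚ_[p]) (ha : ‖a‖ ≤ 1) :
    ∃ b : ℤ, ‖a - (b : ℚ_[p])‖ ≤ (p : ℝ)⁻¹ := by
  set z : ℤ_[p] := ⟨a, ha⟩ with hz
  refine ⟨(z.appr 1 : ℕ), ?_⟩
  have h := PadicInt.appr_spec 1 z
  rw [← PadicInt.norm_le_pow_iff_mem_span_pow, PadicInt.norm_def] at h
  have h2 : ‖a - (((z.appr 1 : ℕ) : ℤ) : ℚ_[p])‖ ≤ (p : ℝ) ^ (-((1 : ℕ) : ℤ)) := by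
    have h3 : ((z - (z.appr 1 : ℕ) : ℤ_[p]) : ℚ_[p]) = a - (((z.appr 1 : ℕ) : ℤ) : ℚ_[p]) := by
      push_cast
      rfl
    rw [← h3]
    exact h
  simpa using h2

/-- **the residue field of `PadicAlgCl p` is algebraic over `𝔽_p`**: every element of norm `≤ 1`
is a root, modulo the open unit ball, of a monic integer polynomial. -/
theorem s27c_residue_algebraic (p : ℕ) [Fact p.Prime] (y : PadicAlgCl p) (hy : ‖y‖ ≤ 1) :
    ∃ q : ℤ[X], q.Monic ∧ ‖aeval y q‖ < 1 := by
  set m : ℚ_[p][X] := minpoly ℚ_[p] y with hm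
  have hmonic : m.Monic := minpoly.monic (Algebra.IsIntegral.isIntegral y)
  have hsv : spectralValue m ≤ 1 := by
    have := PadicAlgCl.spectralNorm_eq p y
    unfold spectralNorm at this
    rw [this]
    exact hy
  have hco : ∀ n, ‖m.coeff n‖ ≤ 1 := (spectralValue_le_one_iff hmonic).mp hsv
  choose b hb using fun n => s27c_exists_int_approx p (m.coeff n) (hco n)
  set d := m.natDegree with hd
  set q : ℤ[X] := X ^ d + ∑ n ∈ Finset.range d, C (b n) * X ^ n with hq
  have hmem : (∑ n ∈ Finset.range d, C (b n) * X ^ n : ℤ[X]) ∈ Polynomial.degreeLT ℤ d :=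
    Submodule.sum_mem _ fun n hn => Polynomial.mem_degreeLT.mpr
      (lt_of_le_of_lt (Polynomial.degree_C_mul_X_pow_le n (b n))
        (by exact_mod_cast Finset.mem_range.mp hn))
  have hqdeg : (∑ n ∈ Finset.range d, C (b n) * X ^ n : ℤ[X]).degree < (d : WithBot ℕ) :=
    Polynomial.mem_degreeLT.mp hmem
  have hqmonic : q.Monic := by
    rw [hq]
    exact Polynomial.monic_X_pow_add hqdeg
  refine ⟨q, hqmonic, ?_⟩
  -- `q(y) = q(y) - m(y)`
  have hmy : aeval y m = 0 := minpoly.aeval _ _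
  have hm_exp : aeval y m = y ^ d + ∑ n ∈ Finset.range d, algebraMap ℚ_[p] (PadicAlgCl p) (m.coeff n) * y ^ n := by
    rw [Polynomial.aeval_eq_sum_range, Finset.sum_range_succ, add_comm]
    congr 1
    · have : m.coeff m.natDegree = 1 := hmonic
      rw [← hd] at this
      rw [this, one_smul]
    · refine Finset.sum_congr rfl fun n _ => ?_
      rw [Algebra.smul_def]
  have hq_exp : aeval y q = y ^ d + ∑ n ∈ Finset.range d, ((b n : ℤ) : PadicAlgCl p) * y ^ n := by
    rw [hq]
    simp [map_sum]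
  have hdiff : aeval y q = ∑ n ∈ Finset.range d,
      (((b n : ℤ) : PadicAlgCl p) - algebraMap ℚ_[p] (PadicAlgCl p) (m.coeff n)) * y ^ n := by
    have : aeval y q = aeval y q - aeval y m := by rw [hmy, sub_zero]
    rw [this, hq_exp, hm_exp, add_sub_add_left_eq_sub, ← Finset.sum_sub_distrib]
    refine Finset.sum_congr rfl fun n _ => ?_
    ring
  rw [hdiff]
  -- each term has norm `< 1`; ultrametric
  have hterm : ∀ n ∈ Finset.range d,
      ‖(((b n : ℤ) : PadicAlgCl p) - algebraMap ℚ_[p] (PadicAlgCl p) (m.coeff n)) * y ^ n‖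
        ≤ (p : ℝ)⁻¹ := by
    intro n _
    have e1 : ((b n : ℤ) : PadicAlgCl p) - algebraMap ℚ_[p] (PadicAlgCl p) (m.coeff n)
        = algebraMap ℚ_[p] (PadicAlgCl p) ((b n : ℚ_[p]) - m.coeff n) := by
      rw [map_sub, map_intCast]
    rw [norm_mul, norm_pow, e1, PadicAlgCl.norm_extends, norm_sub_rev]
    calc ‖m.coeff n - (b n : ℚ_[p])‖ * ‖y‖ ^ n ≤ (p : ℝ)⁻¹ * 1 :=
          mul_le_mul (hb n) (pow_le_one₀ (norm_nonneg _) hy) (by positivity) (by positivity)
      _ = (p : ℝ)⁻¹ := mul_one _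
  have hp1 : (1 : ℝ) < p := by exact_mod_cast (Fact.out : p.Prime).one_lt
  refine lt_of_le_of_lt
    (IsUltrametricDist.norm_sum_le_of_forall_le_of_nonneg (by positivity) hterm) ?_
  exact inv_lt_one_of_one_lt₀ hp1

section Ultra2

variable {L : Type} [NormedField L] [IsUltrametricDist L]

omit [IsUltrametricDist L] in
theorem s27c_aeval_intCast {ι : Type} (c : ι → ℤ) (g : MvPolynomial ι ℤ) :
    MvPolynomial.aeval (fun i => ((c i : ℤ) : L)) g = ((MvPolynomial.eval c g : ℤ) : L) := by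
  induction g using MvPolynomial.induction_on with
  | C a => simp
  | add p q hp hq => simp [hp, hq]
  | mul_X p i hp => simp [hp]

/-- ultrametric: a small perturbation does not change a norm equal to `1`. -/
theorem s27c_norm_eq_one_of_sub_lt {x y : L} (hy : ‖y‖ = 1) (hxy : ‖x - y‖ < 1) : ‖x‖ = 1 := by
  apply le_antisymm
  · have : x = (x - y) + y := by ring
    rw [this]
    exact le_trans (IsUltrametricDist.norm_add_le_max _ _) (max_le hxy.le hy.le)
  · by_contra h
    push Not at h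
    have : y = (y - x) + x := by ring
    have h2 : ‖y‖ < 1 := by
      rw [this]
      refine lt_of_le_of_lt (IsUltrametricDist.norm_add_le_max _ _) (max_lt ?_ h)
      rw [norm_sub_rev]
      exact hxy
    rw [hy] at h2
    exact lt_irrefl _ h2

end Ultra2

/-- **[CAS] Cassels' embedding, in the form of an absolute value.**  `K` of characteristic `0`
with a finite transcendence basis `t` over `ℚ`, `S` a finite set of non-zero elements, `M` a
bound: there are a prime `p > M` and a non-archimedean absolute value on `K` with `|p| < 1`,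
`|s| = 1` on `S`, whose residue field is algebraic over `𝔽_p` (every element of the unit ball is
a root modulo the open unit ball of a monic integer polynomial). -/
theorem s27c_cassels (K : Type) [Field K] [CharZero K] (ι : Type) [Fintype ι] (t : ι → K)
    (ht : IsTranscendenceBasis ℚ t) (S : Finset K) (hS : ∀ s ∈ S, s ≠ 0) (M : ℕ) :
    ∃ (p : ℕ) (abv : AbsoluteValue K ℝ), p.Prime ∧ M < p ∧
      (∀ x y, abv (x + y) ≤ max (abv x) (abv y)) ∧ abv (p : K) < 1 ∧ (∀ s ∈ S, abv s = 1) ∧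
      ∀ x : K, abv x ≤ 1 → ∃ q : ℤ[X], q.Monic ∧ abv (aeval x q) < 1 := by
  classical
  set φt : MvPolynomial ι ℤ →+* K :=
    ((MvPolynomial.aeval t : MvPolynomial ι ℤ →ₐ[ℤ] K) : MvPolynomial ι ℤ →+* K) with hφt
  -- relations for the elements of `S` and their inverses
  set S' : Finset K := S ∪ S.image (fun s => s⁻¹) with hS'
  choose P hP0 hPs using fun s : K => s27c_exists_int_rel t ht s
  set G : MvPolynomial ι ℤ := ∏ s ∈ S', (P s).leadingCoeff with hG
  have hG0 : G ≠ 0 := by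
    rw [hG, Finset.prod_ne_zero_iff]
    intro s _
    exact Polynomial.leadingCoeff_ne_zero.mpr (hP0 s)
  obtain ⟨c, hc⟩ : ∃ c : ι → ℤ, MvPolynomial.eval c G ≠ 0 := by
    by_contra h
    push Not at h
    exact hG0 (MvPolynomial.funext fun x => by rw [h x, map_zero])
  set N : ℤ := MvPolynomial.eval c G with hN
  obtain ⟨p, hpM, hp⟩ := Nat.exists_infinite_primes (max M N.natAbs + 1)
  haveI : Fact p.Prime := ⟨hp⟩
  have hMp : M < p := lt_of_lt_of_le (Nat.lt_succ_of_le (le_max_left _ _)) hpM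
  have hNp : N.natAbs < p := lt_of_lt_of_le (Nat.lt_succ_of_le (le_max_right _ _)) hpM
  have hpN : ¬ (p : ℤ) ∣ N := by
    intro hdvd
    have h1 : p ∣ N.natAbs := Int.natCast_dvd.mp hdvd
    have h2 : 0 < N.natAbs := Int.natAbs_pos.mpr hc
    exact absurd (Nat.le_of_dvd h2 h1) (not_le.mpr hNp)
  -- the `p`-adic point
  obtain ⟨τ₀, hτ₀ind, hτ₀c, hτ₀1⟩ := s27c_exists_indep p ι c
  set Ωp := PadicAlgCl p with hΩp
  set τ : ι → Ωp := fun i => algebraMap ℚ_[p] Ωp (τ₀ i) with hτ
  have hτind : AlgebraicIndependent ℚ τ := by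
    have := hτ₀ind.map' (f := IsScalarTower.toAlgHom ℚ ℚ_[p] Ωp)
      (FaithfulSMul.algebraMap_injective ℚ_[p] Ωp)
    exact this
  have hτ1 : ∀ i, ‖τ i‖ ≤ 1 := fun i => by
    rw [hτ]
    beta_reduce
    rw [PadicAlgCl.norm_extends]
    exact hτ₀1 i
  set cΩ : ι → Ωp := fun i => ((c i : ℤ) : Ωp) with hcΩ
  have hcΩ1 : ∀ i, ‖cΩ i‖ ≤ 1 := fun i => IsUltrametricDist.norm_intCast_le_one Ωp (c i)
  have hτc : ∀ i, ‖τ i - cΩ i‖ < 1 := fun i => by
    have e : τ i - cΩ i = algebraMap ℚ_[p] Ωp (τ₀ i - (c i : ℚ_[p])) := by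
      rw [map_sub, map_intCast]
    rw [e, PadicAlgCl.norm_extends]
    exact hτ₀c i
  obtain ⟨φ, hφ⟩ := s27c_exists_embedding t ht τ hτind
  have hφinj : Function.Injective φ := φ.injective
  have hcomp : ∀ g : MvPolynomial ι ℤ, φ (φt g) = MvPolynomial.aeval τ g := by
    intro g
    induction g using MvPolynomial.induction_on with
    | C a => simp [hφt]
    | add p q hp hq => rw [map_add, map_add, map_add, hp, hq]
    | mul_X p i hp =>
      rw [map_mul, map_mul, map_mul, hp, MvPolynomial.aeval_X]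
      congr 1
      rw [hφt]
      show φ (MvPolynomial.aeval t (MvPolynomial.X i)) = τ i
      rw [MvPolynomial.aeval_X, hφ]
  -- the leading coefficients become units
  have hunit : ∀ s ∈ S', ‖MvPolynomial.aeval τ (P s).leadingCoeff‖ = 1 := by
    intro s hs
    refine s27c_norm_eq_one_of_sub_lt (y := MvPolynomial.aeval cΩ (P s).leadingCoeff) ?_
      (s27c_norm_aeval_sub_lt_one τ cΩ hτ1 hcΩ1 hτc _)
    have e0 : MvPolynomial.aeval cΩ (P s).leadingCoeff
        = ((MvPolynomial.eval c (P s).leadingCoeff : ℤ) : Ωp) :=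
      s27c_aeval_intCast (L := Ωp) c (P s).leadingCoeff
    rw [e0]
    have hdvd : MvPolynomial.eval c (P s).leadingCoeff ∣ N := by
      rw [hN, hG, MvPolynomial.eval_prod]
      exact Finset.dvd_prod_of_mem (fun s => MvPolynomial.eval c (P s).leadingCoeff) hs
    have hnd : ¬ (p : ℤ) ∣ MvPolynomial.eval c (P s).leadingCoeff :=
      fun h => hpN (dvd_trans h hdvd)
    have e : ((MvPolynomial.eval c (P s).leadingCoeff : ℤ) : Ωp)
        = algebraMap ℚ_[p] Ωp ((MvPolynomial.eval c (P s).leadingCoeff : ℤ) : ℚ_[p]) := by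
      rw [map_intCast]
    rw [e, PadicAlgCl.norm_extends]
    by_contra hne
    have hlt : ‖((MvPolynomial.eval c (P s).leadingCoeff : ℤ) : ℚ_[p])‖ < 1 :=
      lt_of_le_of_ne (Padic.norm_int_le_one _) hne
    exact hnd (Padic.norm_intCast_lt_one_iff.mp hlt)
  have hint : ∀ s ∈ S', ‖φ s‖ ≤ 1 := by
    intro s hs
    set Q : Ωp[X] := (P s).map (φ.comp φt) with hQ
    have hlc0 : (φ.comp φt) (P s).leadingCoeff ≠ 0 := by
      rw [RingHom.comp_apply, hcomp]
      intro h0
      have := hunit s hs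
      rw [h0, norm_zero] at this
      exact zero_ne_one this
    have hlc : ‖Q.leadingCoeff‖ = 1 := by
      rw [hQ, Polynomial.leadingCoeff_map_of_leadingCoeff_ne_zero _ hlc0, RingHom.comp_apply, hcomp]
      exact hunit s hs
    have hco : ∀ n, ‖Q.coeff n‖ ≤ 1 := by
      intro n
      rw [hQ, Polynomial.coeff_map, RingHom.comp_apply, hcomp]
      exact s27c_norm_aeval_le_one τ hτ1 _
    refine s27c_norm_root_le_one Q hlc hco (φ s) ?_
    rw [hQ, Polynomial.eval_map, ← Polynomial.hom_eval₂, hPs s, map_zero]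
  -- the absolute value
  refine ⟨p, (NormedField.toAbsoluteValue Ωp).comp hφinj, hp, hMp, ?_, ?_, ?_, ?_⟩
  · intro x y
    show ‖φ (x + y)‖ ≤ max ‖φ x‖ ‖φ y‖
    rw [map_add]
    exact IsUltrametricDist.norm_add_le_max _ _
  · show ‖φ (p : K)‖ < 1
    rw [map_natCast]
    have e : ((p : ℕ) : Ωp) = algebraMap ℚ_[p] Ωp (p : ℚ_[p]) := by rw [map_natCast]
    rw [e, PadicAlgCl.norm_extends]
    exact Padic.norm_p_lt_one
  · intro s hs
    show ‖φ s‖ = 1
    have h1 : ‖φ s‖ ≤ 1 := hint s (Finset.mem_union_left _ hs)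
    have h2 : ‖φ s⁻¹‖ ≤ 1 :=
      hint s⁻¹ (Finset.mem_union_right _ (Finset.mem_image_of_mem _ hs))
    have h3 : ‖φ s‖ * ‖φ s⁻¹‖ = 1 := by
      rw [← norm_mul, ← map_mul, mul_inv_cancel₀ (hS s hs), map_one, norm_one]
    nlinarith [norm_nonneg (φ s), norm_nonneg (φ s⁻¹)]
  · intro x hx
    have hx' : ‖φ x‖ ≤ 1 := hx
    obtain ⟨q, hqm, hq⟩ := s27c_residue_algebraic p (φ x) hx'
    refine ⟨q, hqm, ?_⟩
    show ‖φ (aeval x q)‖ < 1
    have : φ (aeval x q) = aeval (φ x) q :=
      (Polynomial.aeval_algHom_apply φ.toIntAlgHom x q).symm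
    rw [this]
    exact hq

end Fermat.Agent.Lib.S27
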