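/-
Programme Z (S27), REDUCTION HALF ([CAS] + [GR] + [SP]): INTERFACE (architect: helper5), v1.

Goal of the half: `s27_Red` — a function field `F / K` (`K` algebraically closed of characteristic
`0` with a finite transcendence basis over `ℚ`) has, for every prime `ℓ`, a GOOD REDUCTION
`Fb / k` over `k = 𝔽̄_p` (`p ≠ ℓ`) of the same genus with the same number of `ℓ^e`-torsion classes.

  [CAS] (`CCassels.lean`, done)  Cassels' embedding: a non-archimedean absolute value on `K`,
        residue characteristic `p` as large as we wish, prescribed finite set of units, residue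
        field algebraic over `𝔽_p`.
  [GR]  `s27_GR`: off a finite bad set `S ⊂ K^×` and for `p > N`, the unit ball `A` of such an
        absolute value carries an `s19_Curve` package (`FW := ⊤`) for `F` with special fibre of
        the same genus, with a separating coordinate.
  [SP]  `s27_SP`: an `s19_Curve` package over the unit ball of a non-archimedean absolute value,
        `ℓ ∈ A^×` ⇒ `#Pic⁰(F)[ℓ^e] = #Pic⁰(Fb)[ℓ^e]` (the kernel of specialization is uniquely
        `ℓ`-divisible: Newton statement with `ℓ`-fold zeros; reduction is onto on classes).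
-/
import Fermat.Agent.Lib.S27.ZIface

set_option autoImplicit false
set_option linter.unusedSectionVars false
set_option linter.unusedVariables false

noncomputable section

namespace Fermat.Agent.Lib.S27

open AlgebraicCurve Fermat.Agent.Lib.FF Fermat.Agent.Lib.S19 Polynomial

/-- **CONTRACT [GR] (good reduction of an arbitrary curve at a generic place).**
`x₀` is any coordinate; the contract chooses its own coordinate `x` (one pole, totally ramified),
a finite set `S` of non-zero constants which have to be units, and a bound `N` for the residue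
characteristic. -/
def s27_GR : Prop :=
  ∀ (K F : Type) [Field K] [Field F] [Algebra K F] [IsAlgClosed K] [CharZero K] (x₀ : F)
    [FFGen K x₀],
    ∃ (x : F) (_ : FFGen K x) (S : Finset K) (N : ℕ), (∀ s ∈ S, s ≠ 0) ∧
      ∀ (p : ℕ) [Fact p.Prime] (A : ValuationSubring K) (abv : AbsoluteValue K ℝ),
        N < p → (∀ a b : K, abv (a + b) ≤ max (abv a) (abv b)) →
        (∀ a : K, a ∈ A ↔ abv a ≤ 1) → abv (p : K) < 1 → (∀ s ∈ S, abv s = 1) →
        ∃ (Fb : Type) (_ : Field Fb) (_ : Algebra (IsLocalRing.ResidueField ↥A) Fb)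
          (O : ValuationSubring F) (red : ↥O →+* Fb)
          (r : Place K F → Place (IsLocalRing.ResidueField ↥A) Fb) (l : ↥A),
          s19_Curve x A (IsLocalRing.residue ↥A) O red r ⊤ l (genusFF K F) ∧
          ∃ xb : Fb, FFGen (IsLocalRing.ResidueField ↥A) xb ∧
            Algebra.IsSeparable
              (IntermediateField.adjoin (IsLocalRing.ResidueField ↥A) ({xb} : Set Fb)) Fb

/-- **CONTRACT [SP] (specialization of `ℓ`-power torsion).** -/
def s27_SP : Prop :=
  ∀ (K F k Fb : Type) [Field K] [Field F] [Algebra K F] [IsAlgClosed K] [CharZero K] [Field k]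
    [IsAlgClosed k] [Field Fb] [Algebra k Fb] (x : F) [FFGen K x] (A : ValuationSubring K)
    (π : ↥A →+* k) (O : ValuationSubring F) (red : ↥O →+* Fb) (r : Place K F → Place k Fb)
    (l : ↥A) (g : ℕ), s19_Curve x A π O red r ⊤ l g →
    ∀ (abv : AbsoluteValue K ℝ), (∀ a b : K, abv (a + b) ≤ max (abv a) (abv b)) →
      (∀ a : K, a ∈ A ↔ abv a ≤ 1) → ∀ (ℓ : ℕ) [Fact ℓ.Prime], IsUnit ((ℓ : ℕ) : ↥A) →
      ∀ e : ℕ, Nat.card ↥(Pic0.torsion K F (ℓ ^ e)) = Nat.card ↥(Pic0.torsion k Fb (ℓ ^ e))

/-- **THE OUTPUT OF THE REDUCTION HALF.** -/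
def s27_Red : Prop :=
  ∀ (K F : Type) [Field K] [Field F] [Algebra K F] [IsAlgClosed K] [CharZero K] (x : F)
    [FFGen K x] (ι : Type) [Fintype ι] (t : ι → K), IsTranscendenceBasis ℚ t →
    ∀ (ℓ : ℕ) [Fact ℓ.Prime],
    ∃ (p : ℕ) (_ : Fact p.Prime) (k Fb : Type) (_ : Field k) (_ : Field Fb) (_ : Algebra k Fb),
      ℓ ≠ p ∧ s27_IsFpBar p k ∧ s27_FF k Fb (genusFF K F) ∧
      ∀ e : ℕ, Nat.card ↥(Pic0.torsion K F (ℓ ^ e)) = Nat.card ↥(Pic0.torsion k Fb (ℓ ^ e))

/-- **S27 over small constant fields in `Type`** (= `s27_Red` + helper7's `s27_FinCount`); the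
passage to arbitrary universes and arbitrary constant fields is [BC] (helper2). -/
def s27_Small0 : Prop :=
  ∀ (K F : Type) [Field K] [Field F] [Algebra K F] [IsAlgClosed K] [CharZero K] (x : F)
    [FFGen K x] (ι : Type) [Fintype ι] (t : ι → K), IsTranscendenceBasis ℚ t →
    ∀ (ℓ : ℕ) [Fact ℓ.Prime] (e : ℕ),
    Nat.card ↥(Pic0.torsion K F (ℓ ^ e)) = ℓ ^ (2 * genusFF K F * e)

/-- the glue: `s27_Red` + `s27_FinCount` ⇒ `s27_Small0`. -/
theorem s27_small0_of (hR : s27_Red) (hF : s27_FinCount.{0, 0}) : s27_Small0 := by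
  intro K F _ _ _ _ _ x _ ι _ t ht ℓ _ e
  obtain ⟨p, hp, k, Fb, ik, iFb, ia, hℓp, hk, hFF, hcard⟩ := hR K F x ι t ht ℓ
  rw [hcard e]
  exact hF p k Fb hk (genusFF K F) hFF ℓ hℓp e

end Fermat.Agent.Lib.S27
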