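/-
Programme Z (S27), reduction half: the GLUE `s27_GR → s27_SP → s27_Red` (helper5, prefix `s27r_`).
Cassels' absolute value (`s27c_cassels`) makes the bad set of [GR] and the prime `ℓ` units; its unit
ball is the valuation ring; the residue field is an algebraic closure of `𝔽_p`.
-/
import Fermat.Agent.Lib.S27.RIface
import Fermat.Agent.Lib.S27.CCassels
import Fermat.Agent.Lib.S18.NResidue

set_option autoImplicit false
set_option linter.unusedSectionVars false
set_option linter.unusedVariables false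
set_option linter.style.haveILetI false

noncomputable section

namespace Fermat.Agent.Lib.S27

open AlgebraicCurve Fermat.Agent.Lib.FF Fermat.Agent.Lib.S19 Fermat.Agent.Lib.S18 Polynomial

/-- the unit ball of a non-archimedean absolute value. -/
def s27r_ball {K : Type} [Field K] (abv : AbsoluteValue K ℝ)
    (hna : ∀ a b : K, abv (a + b) ≤ max (abv a) (abv b)) : ValuationSubring K where
  carrier := {a | abv a ≤ 1}
  mul_mem' := fun {a b} ha hb => by
    show abv (a * b) ≤ 1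
    rw [map_mul]
    exact mul_le_one₀ ha (abv.nonneg b) hb
  one_mem' := by
    show abv 1 ≤ 1
    rw [map_one]
  add_mem' := fun {a b} ha hb => le_trans (hna a b) (max_le ha hb)
  zero_mem' := by
    show abv 0 ≤ 1
    rw [map_zero]
    exact zero_le_one
  neg_mem' := fun {a} ha => by
    show abv (-a) ≤ 1
    rw [abv.map_neg]
    exact ha
  mem_or_inv_mem' := fun a => by
    by_cases h : abv a ≤ 1
    · exact Or.inl h
    · right
      push Not at h
      show abv a⁻¹ ≤ 1
      rw [map_inv₀]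
      exact inv_le_one_of_one_le₀ h.le

theorem s27r_mem_ball {K : Type} [Field K] (abv : AbsoluteValue K ℝ)
    (hna : ∀ a b : K, abv (a + b) ≤ max (abv a) (abv b)) (a : K) :
    a ∈ s27r_ball abv hna ↔ abv a ≤ 1 := Iff.rfl

/-- an element of a field of characteristic `p` which is a root of a monic integer polynomial is
fixed by a power of the Frobenius. -/
theorem s27r_frob_periodic {k : Type} [Field k] (p : ℕ) [Fact p.Prime] [CharP k p] (c : k)
    (q : ℤ[X]) (hq : q.Monic) (hc : aeval c q = 0) : ∃ n : ℕ, 0 < n ∧ c ^ (p ^ n) = c := by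
  letI : Algebra (ZMod p) k := ZMod.algebra k p
  have hint : IsIntegral (ZMod p) c := by
    refine ⟨q.map (Int.castRingHom (ZMod p)), hq.map _, ?_⟩
    rw [Polynomial.eval₂_map]
    have : (algebraMap (ZMod p) k).comp (Int.castRingHom (ZMod p)) = algebraMap ℤ k :=
      RingHom.ext_int _ _
    rw [this]
    exact hc
  haveI : FiniteDimensional (ZMod p) (IntermediateField.adjoin (ZMod p) ({c} : Set k)) :=
    IntermediateField.adjoin.finiteDimensional hint
  haveI : Finite (IntermediateField.adjoin (ZMod p) ({c} : Set k)) :=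
    Module.finite_of_finite (ZMod p)
  letI : Fintype (IntermediateField.adjoin (ZMod p) ({c} : Set k)) := Fintype.ofFinite _
  haveI : CharP (IntermediateField.adjoin (ZMod p) ({c} : Set k)) p :=
    charP_of_injective_algebraMap (algebraMap (ZMod p) _).injective p
  obtain ⟨n, hn⟩ := FiniteField.card (IntermediateField.adjoin (ZMod p) ({c} : Set k)) p
  have hmem : c ∈ IntermediateField.adjoin (ZMod p) ({c} : Set k) :=
    IntermediateField.mem_adjoin_simple_self _ c
  have h1 := FiniteField.pow_card (⟨c, hmem⟩ : IntermediateField.adjoin (ZMod p) ({c} : Set k))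
  rw [hn.2] at h1
  refine ⟨n, n.pos, ?_⟩
  have := congrArg (fun z : IntermediateField.adjoin (ZMod p) ({c} : Set k) => (z : k)) h1
  simpa using this

/-- **the reduction half, assembled.** -/
theorem s27r_red_of (hGR : s27_GR) (hSP : s27_SP) : s27_Red := by
  intro K F _ _ _ _ _ x₀ _ ι _ t ht ℓ hℓ
  classical
  obtain ⟨x, hx, S, N, hS, hgr⟩ := hGR K F x₀
  haveI := hx
  have hℓ0 : ((ℓ : ℕ) : K) ≠ 0 := by exact_mod_cast hℓ.out.ne_zero
  obtain ⟨p, abv, hp, hMp, hna, hpabv, hSu, hres⟩ :=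
    s27c_cassels K ι t ht (insert ((ℓ : ℕ) : K) S)
      (fun s hs => by
        rcases Finset.mem_insert.mp hs with rfl | h
        · exact hℓ0
        · exact hS s h) (max N ℓ)
  haveI : Fact p.Prime := ⟨hp⟩
  have hNp : N < p := lt_of_le_of_lt (le_max_left _ _) hMp
  have hℓp : ℓ ≠ p := (lt_of_le_of_lt (le_max_right _ _) hMp).ne
  set A : ValuationSubring K := s27r_ball abv hna with hA
  have hmemA : ∀ a : K, a ∈ A ↔ abv a ≤ 1 := fun a => Iff.rfl
  obtain ⟨Fb, iFb, ia, O, red, r, l, hC, xb, hxb, hsep⟩ := hgr p A abv hNp hna hmemA hpabv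
    (fun s hs => hSu s (Finset.mem_insert_of_mem hs))
  haveI : IsAlgClosed (IsLocalRing.ResidueField ↥A) := s18n_isAlgClosed_residueField A
  -- the residue characteristic
  have hpmem : ((p : ℕ) : K) ∈ A := (hmemA _).mpr hpabv.le
  have hp0 : ((p : ℕ) : IsLocalRing.ResidueField ↥A) = 0 := by
    have h1 : ((p : ℕ) : ↥A) = ⟨((p : ℕ) : K), hpmem⟩ := Subtype.ext (by simp)
    have h2 : IsLocalRing.residue ↥A ((p : ℕ) : ↥A) = 0 := by
      rw [IsLocalRing.residue_eq_zero_iff, IsLocalRing.mem_maximalIdeal, mem_nonunits_iff, h1]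
      intro hu
      have hinv : (((p : ℕ) : K))⁻¹ ∈ A := by
        obtain ⟨u, hu⟩ := hu
        have h3 : ((u : ↥A) : K) = ((p : ℕ) : K) := by rw [hu]
        have h4 : (((u⁻¹ : (↥A)ˣ) : ↥A) : K) * ((u : ↥A) : K) = 1 := by
          rw [← Subring.coe_mul]
          simp
        rw [h3] at h4
        have h5 : (((u⁻¹ : (↥A)ˣ) : ↥A) : K) = (((p : ℕ) : K))⁻¹ :=
          eq_inv_of_mul_eq_one_left h4
        exact h5 ▸ ((u⁻¹ : (↥A)ˣ) : ↥A).2
      have h5 : abv (((p : ℕ) : K))⁻¹ ≤ 1 := (hmemA _).mp hinv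
      rw [map_inv₀] at h5
      have h6 : (1 : ℝ) < (abv ((p : ℕ) : K))⁻¹ := by
        have hpos : 0 < abv ((p : ℕ) : K) := abv.pos (by exact_mod_cast hp.ne_zero)
        exact (one_lt_inv₀ hpos).mpr hpabv
      exact absurd h5 (not_le.mpr h6)
    rwa [map_natCast] at h2
  haveI hchar : CharP (IsLocalRing.ResidueField ↥A) p := (CharP.charP_iff_prime_eq_zero hp).mpr hp0
  have hfp : s27_IsFpBar p (IsLocalRing.ResidueField ↥A) := by
    refine ⟨inferInstance, hchar, fun c => ?_⟩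
    obtain ⟨a, rfl⟩ := IsLocalRing.residue_surjective c
    obtain ⟨q, hqm, hq⟩ := hres (a : K) ((hmemA _).mp a.2)
    refine s27r_frob_periodic p _ q hqm ?_
    -- `q (residue a) = residue (q a) = 0`
    have h1 : aeval (IsLocalRing.residue ↥A a) q = IsLocalRing.residue ↥A (aeval a q) :=
      Polynomial.aeval_algHom_apply (IsLocalRing.residue ↥A).toIntAlgHom a q
    refine h1.trans ?_
    rw [IsLocalRing.residue_eq_zero_iff, IsLocalRing.mem_maximalIdeal, mem_nonunits_iff]
    intro hu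
    have h2 : ((aeval a q : ↥A) : K) = aeval (a : K) q :=
      (Polynomial.aeval_algHom_apply (A.subtype).toIntAlgHom a q).symm
    obtain ⟨u, hu⟩ := hu
    have h4 : (((u⁻¹ : (↥A)ˣ) : ↥A) : K) * ((u : ↥A) : K) = 1 := by
      rw [← Subring.coe_mul]
      simp
    rw [hu, h2] at h4
    have h5 : abv (((u⁻¹ : (↥A)ˣ) : ↥A) : K) ≤ 1 := (hmemA _).mp ((u⁻¹ : (↥A)ˣ) : ↥A).2
    have h6 : abv ((((u⁻¹ : (↥A)ˣ) : ↥A) : K) * aeval (a : K) q) = 1 := by rw [h4, map_one]
    rw [map_mul] at h6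
    have h7 : abv ((((u⁻¹ : (↥A)ˣ) : ↥A) : K)) * abv (aeval (a : K) q) < 1 := by
      calc abv ((((u⁻¹ : (↥A)ˣ) : ↥A) : K)) * abv (aeval (a : K) q)
          ≤ 1 * abv (aeval (a : K) q) := mul_le_mul_of_nonneg_right h5 (abv.nonneg _)
        _ < 1 := by rw [one_mul]; exact hq
    rw [h6] at h7
    exact lt_irrefl _ h7
  have hFF : s27_FF (IsLocalRing.ResidueField ↥A) Fb (genusFF K F) :=
    ⟨hC.pdFb, hC.degFb, hC.rrFb, xb, hxb, hsep⟩
  -- `ℓ` is a unit of `A`
  have hℓu : IsUnit ((ℓ : ℕ) : ↥A) := by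
    have h1 : abv ((ℓ : ℕ) : K) = 1 := hSu _ (Finset.mem_insert_self _ _)
    have hmem : ((ℓ : ℕ) : K) ∈ A := (hmemA _).mpr h1.le
    have hinv : (((ℓ : ℕ) : K))⁻¹ ∈ A := by
      rw [hmemA, map_inv₀, h1, inv_one]
    refine ⟨⟨⟨((ℓ : ℕ) : K), hmem⟩, ⟨(((ℓ : ℕ) : K))⁻¹, hinv⟩, ?_, ?_⟩, ?_⟩
    · apply Subtype.ext
      show ((ℓ : ℕ) : K) * (((ℓ : ℕ) : K))⁻¹ = 1
      exact mul_inv_cancel₀ hℓ0
    · apply Subtype.ext
      show (((ℓ : ℕ) : K))⁻¹ * ((ℓ : ℕ) : K) = 1
      exact inv_mul_cancel₀ hℓ0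
    · apply Subtype.ext
      simp
  exact ⟨p, ⟨hp⟩, IsLocalRing.ResidueField ↥A, Fb, inferInstance, iFb, ia, hℓp, hfp, hFF,
    fun e => hSP K F (IsLocalRing.ResidueField ↥A) Fb x A (IsLocalRing.residue ↥A) O red r l
      (genusFF K F) hC abv hna hmemA ℓ hℓu e⟩

end Fermat.Agent.Lib.S27
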