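/-
Programme Z (S27), reduction half, brick [GR-D] part 1 (helper9, prefix `s27j_`): THE GAUSS RING,
abstract form (Mathlib only).

`A ⊆ K` a valuation ring, `F / K` a field extension, `R ⊆ F` a subring containing the constants of
`A` with fraction field `F`, `𝔭` a prime ideal of `R` such that every non-zero element of `R` can be
scaled by a constant of `K` into `R ∖ 𝔭` (`s27j_GD`).  Then

* `s27j_O` : the localisation `O = {f / g | f, g ∈ R, g ∉ 𝔭}` is a VALUATION subring of `F`;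
* `s27j_red : O →+* FractionRing (R ⧸ 𝔭)`, `f / g ↦ f̄ / ḡ` (`s27j_red_eq`), with kernel
  `{f / g | f ∈ 𝔭}` (`s27j_red_eq_zero_iff`), `s27j_inv_mem` (elements with non-zero reduction are
  units of `O`), `s27j_red_coe` (`red f = f̄` for `f ∈ R`);
* `s27j_gv` : every non-zero `y ∈ F` has a constant multiple which is a unit of `O`.
-/
import Mathlib

set_option autoImplicit false
set_option linter.unusedSectionVars false
set_option linter.unusedVariables false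

noncomputable section

namespace Fermat.Agent.Lib.S27

variable {K F : Type*} [Field K] [Field F] [Algebra K F]

/-- **an abstract Gauss datum**: the hypotheses on `(A, R, 𝔭)`. -/
structure s27j_GD (A : ValuationSubring K) (R : Subring F) (𝔭 : Ideal ↥R) : Prop where
  const_mem : ∀ a : ↥A, algebraMap K F (a : K) ∈ R
  frac : ∀ y : F, ∃ f g : ↥R, (g : F) ≠ 0 ∧ y * (g : F) = (f : F)
  scale : ∀ f : ↥R, (f : F) ≠ 0 →
    ∃ c : K, c ≠ 0 ∧ ∃ h : algebraMap K F c * (f : F) ∈ R, (⟨_, h⟩ : ↥R) ∉ 𝔭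

variable {A : ValuationSubring K} {R : Subring F} {𝔭 : Ideal ↥R} [h𝔭 : 𝔭.IsPrime]

theorem s27j_one_notMem : (1 : ↥R) ∉ 𝔭 := (Ideal.ne_top_iff_one 𝔭).mp h𝔭.ne_top

theorem s27j_coe_ne_zero_of_notMem {g : ↥R} (hg : g ∉ 𝔭) : (g : F) ≠ 0 := by
  intro h0
  apply hg
  have : g = 0 := Subtype.ext h0
  rw [this]
  exact 𝔭.zero_mem

/-- **the Gauss ring** `O = R_𝔭 ⊆ F`. -/
def s27j_O (h : s27j_GD A R 𝔭) : ValuationSubring F where
  carrier := {y | ∃ f g : ↥R, g ∉ 𝔭 ∧ y * (g : F) = (f : F)}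
  mul_mem' := by
    rintro y y' ⟨f, g, hg, hy⟩ ⟨f', g', hg', hy'⟩
    refine ⟨f * f', g * g', fun hmem => ?_, ?_⟩
    · rcases h𝔭.mem_or_mem hmem with h1 | h1
      · exact hg h1
      · exact hg' h1
    · rw [Subring.coe_mul, Subring.coe_mul, ← hy, ← hy']
      ring
  one_mem' := ⟨1, 1, s27j_one_notMem, by simp⟩
  add_mem' := by
    rintro y y' ⟨f, g, hg, hy⟩ ⟨f', g', hg', hy'⟩
    refine ⟨f * g' + f' * g, g * g', fun hmem => ?_, ?_⟩
    · rcases h𝔭.mem_or_mem hmem with h1 | h1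
      · exact hg h1
      · exact hg' h1
    · rw [Subring.coe_add, Subring.coe_mul, Subring.coe_mul, Subring.coe_mul, ← hy, ← hy']
      ring
  zero_mem' := ⟨0, 1, s27j_one_notMem, by simp⟩
  neg_mem' := by
    rintro y ⟨f, g, hg, hy⟩
    exact ⟨-f, g, hg, by rw [Subring.coe_neg, ← hy]; ring⟩
  mem_or_inv_mem' := by
    intro y
    rcases eq_or_ne y 0 with rfl | hy0
    · exact Or.inl ⟨0, 1, s27j_one_notMem, by simp⟩
    obtain ⟨f, g, hg0, hy⟩ := h.frac y
    have hf0 : (f : F) ≠ 0 := by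
      rw [← hy]
      exact mul_ne_zero hy0 hg0
    obtain ⟨cf, hcf, hfm, hfp⟩ := h.scale f hf0
    obtain ⟨cg, hcg, hgm, hgp⟩ := h.scale g hg0
    -- `y = (cg / cf) * (f' / g')`
    rcases A.mem_or_inv_mem (cg / cf) with hc | hc
    · left
      refine ⟨⟨_, h.const_mem ⟨_, hc⟩⟩ * ⟨_, hfm⟩, ⟨_, hgm⟩, hgp, ?_⟩
      rw [Subring.coe_mul]
      simp only
      rw [map_div₀]
      have h1 : algebraMap K F cf ≠ 0 := (map_ne_zero _).mpr hcf
      field_simp
      rw [← hy]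
      ring
    · right
      refine ⟨⟨_, h.const_mem ⟨_, hc⟩⟩ * ⟨_, hgm⟩, ⟨_, hfm⟩, hfp, ?_⟩
      rw [Subring.coe_mul]
      simp only
      rw [map_inv₀, map_div₀]
      have h1 : algebraMap K F cf ≠ 0 := (map_ne_zero _).mpr hcf
      have h2 : algebraMap K F cg ≠ 0 := (map_ne_zero _).mpr hcg
      rw [← hy]
      field_simp

theorem s27j_mem_O (h : s27j_GD A R 𝔭) (y : F) :
    y ∈ s27j_O h ↔ ∃ f g : ↥R, g ∉ 𝔭 ∧ y * (g : F) = (f : F) := Iff.rfl

theorem s27j_coe_mem_O (h : s27j_GD A R 𝔭) (f : ↥R) : (f : F) ∈ s27j_O h :=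
  ⟨f, 1, s27j_one_notMem, by simp⟩

/-- a numerator of an element of the Gauss ring. -/
def s27j_num (h : s27j_GD A R 𝔭) (y : ↥(s27j_O h)) : ↥R := Classical.choose y.2

/-- a denominator of an element of the Gauss ring. -/
def s27j_den (h : s27j_GD A R 𝔭) (y : ↥(s27j_O h)) : ↥R :=
  Classical.choose (Classical.choose_spec y.2)

theorem s27j_den_notMem (h : s27j_GD A R 𝔭) (y : ↥(s27j_O h)) : s27j_den h y ∉ 𝔭 :=
  (Classical.choose_spec (Classical.choose_spec y.2)).1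

theorem s27j_mul_den (h : s27j_GD A R 𝔭) (y : ↥(s27j_O h)) :
    (y : F) * (s27j_den h y : F) = (s27j_num h y : F) :=
  (Classical.choose_spec (Classical.choose_spec y.2)).2

/-- the class of an element of `R` in the fraction field of `R ⧸ 𝔭`. -/
def s27j_cl (𝔭 : Ideal ↥R) : ↥R →+* FractionRing (↥R ⧸ 𝔭) :=
  (algebraMap (↥R ⧸ 𝔭) (FractionRing (↥R ⧸ 𝔭))).comp (Ideal.Quotient.mk 𝔭)

theorem s27j_cl_eq_zero_iff (f : ↥R) : s27j_cl 𝔭 f = 0 ↔ f ∈ 𝔭 := by
  unfold s27j_cl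
  rw [RingHom.comp_apply, map_eq_zero_iff _ (IsFractionRing.injective _ _),
    Ideal.Quotient.eq_zero_iff_mem]

/-- the reduction of the Gauss ring, as a function. -/
def s27j_redFun (h : s27j_GD A R 𝔭) (y : ↥(s27j_O h)) : FractionRing (↥R ⧸ 𝔭) :=
  s27j_cl 𝔭 (s27j_num h y) / s27j_cl 𝔭 (s27j_den h y)

/-- the reduction can be computed with any fraction. -/
theorem s27j_redFun_eq (h : s27j_GD A R 𝔭) (y : ↥(s27j_O h)) (f g : ↥R) (hg : g ∉ 𝔭)
    (hy : (y : F) * (g : F) = (f : F)) : s27j_redFun h y = s27j_cl 𝔭 f / s27j_cl 𝔭 g := by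
  unfold s27j_redFun
  have hd := s27j_den_notMem h y
  have h1 : s27j_cl 𝔭 (s27j_den h y) ≠ 0 := fun h0 => hd ((s27j_cl_eq_zero_iff _).mp h0)
  have h2 : s27j_cl 𝔭 g ≠ 0 := fun h0 => hg ((s27j_cl_eq_zero_iff _).mp h0)
  rw [div_eq_div_iff h1 h2, ← map_mul, ← map_mul]
  congr 1
  apply Subtype.ext
  rw [Subring.coe_mul, Subring.coe_mul, ← s27j_mul_den h y, ← hy]
  ring

/-- **the reduction map of the Gauss ring.** -/
def s27j_red (h : s27j_GD A R 𝔭) : ↥(s27j_O h) →+* FractionRing (↥R ⧸ 𝔭) where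
  toFun := s27j_redFun h
  map_one' := by
    rw [s27j_redFun_eq h 1 1 1 s27j_one_notMem (by simp), map_one, div_one]
  map_mul' := by
    intro y y'
    have hg := s27j_den_notMem h y
    have hg' := s27j_den_notMem h y'
    rw [s27j_redFun_eq h (y * y') (s27j_num h y * s27j_num h y') (s27j_den h y * s27j_den h y')
      (fun hmem => (h𝔭.mem_or_mem hmem).elim hg hg')
      (by
        have e1 := s27j_mul_den h y
        have e2 := s27j_mul_den h y'
        push_cast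
        rw [← e1, ← e2]
        ring)]
    unfold s27j_redFun
    rw [map_mul, map_mul, div_mul_div_comm]
  map_zero' := by
    rw [s27j_redFun_eq h 0 0 1 s27j_one_notMem (by simp), map_zero, zero_div]
  map_add' := by
    intro y y'
    have hg := s27j_den_notMem h y
    have hg' := s27j_den_notMem h y'
    have h1 : s27j_cl 𝔭 (s27j_den h y) ≠ 0 := fun h0 => hg ((s27j_cl_eq_zero_iff _).mp h0)
    have h2 : s27j_cl 𝔭 (s27j_den h y') ≠ 0 := fun h0 => hg' ((s27j_cl_eq_zero_iff _).mp h0)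
    rw [s27j_redFun_eq h (y + y')
      (s27j_num h y * s27j_den h y' + s27j_num h y' * s27j_den h y) (s27j_den h y * s27j_den h y')
      (fun hmem => (h𝔭.mem_or_mem hmem).elim hg hg')
      (by
        have e1 := s27j_mul_den h y
        have e2 := s27j_mul_den h y'
        push_cast
        rw [← e1, ← e2]
        ring)]
    unfold s27j_redFun
    rw [map_add, map_mul, map_mul, map_mul, div_add_div _ _ h1 h2]
    congr 1
    ring

theorem s27j_red_eq (h : s27j_GD A R 𝔭) (y : ↥(s27j_O h)) (f g : ↥R) (hg : g ∉ 𝔭)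
    (hy : (y : F) * (g : F) = (f : F)) : s27j_red h y = s27j_cl 𝔭 f / s27j_cl 𝔭 g :=
  s27j_redFun_eq h y f g hg hy

/-- the reduction of an element of `R`. -/
theorem s27j_red_coe (h : s27j_GD A R 𝔭) (f : ↥R) :
    s27j_red h ⟨(f : F), s27j_coe_mem_O h f⟩ = s27j_cl 𝔭 f := by
  rw [s27j_red_eq h _ f 1 s27j_one_notMem (by simp), map_one, div_one]

theorem s27j_red_eq_zero_iff (h : s27j_GD A R 𝔭) (y : ↥(s27j_O h)) (f g : ↥R) (hg : g ∉ 𝔭)
    (hy : (y : F) * (g : F) = (f : F)) : s27j_red h y = 0 ↔ f ∈ 𝔭 := by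
  have h2 : s27j_cl 𝔭 g ≠ 0 := fun h0 => hg ((s27j_cl_eq_zero_iff _).mp h0)
  rw [s27j_red_eq h y f g hg hy, div_eq_zero_iff, s27j_cl_eq_zero_iff]
  exact ⟨fun h1 => h1.resolve_right h2, Or.inl⟩

/-- elements with non-zero reduction are units of the Gauss ring. -/
theorem s27j_inv_mem (h : s27j_GD A R 𝔭) (y : ↥(s27j_O h)) (hy : s27j_red h y ≠ 0) :
    ((y : F))⁻¹ ∈ s27j_O h := by
  have hn : s27j_num h y ∉ 𝔭 := fun hmem =>
    hy ((s27j_red_eq_zero_iff h y _ _ (s27j_den_notMem h y) (s27j_mul_den h y)).mpr hmem)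
  refine ⟨s27j_den h y, s27j_num h y, hn, ?_⟩
  have h1 := s27j_mul_den h y
  have hn0 : (s27j_num h y : F) ≠ 0 := s27j_coe_ne_zero_of_notMem hn
  have hy0 : (y : F) ≠ 0 := by
    intro h0
    rw [h0, zero_mul] at h1
    exact hn0 h1.symm
  rw [← h1]
  field_simp

/-- **the Gauss valuation has the value group of `A`**: every non-zero element of `F` has a
constant multiple which is a unit of the Gauss ring. -/
theorem s27j_gv (h : s27j_GD A R 𝔭) (y : F) (hy0 : y ≠ 0) :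
    ∃ c : K, c ≠ 0 ∧ ∃ hm : algebraMap K F c * y ∈ s27j_O h,
      s27j_red h ⟨_, hm⟩ ≠ 0 ∧ (algebraMap K F c * y)⁻¹ ∈ s27j_O h := by
  obtain ⟨f, g, hg0, hy⟩ := h.frac y
  have hf0 : (f : F) ≠ 0 := by
    rw [← hy]
    exact mul_ne_zero hy0 hg0
  obtain ⟨cf, hcf, hfm, hfp⟩ := h.scale f hf0
  obtain ⟨cg, hcg, hgm, hgp⟩ := h.scale g hg0
  have h1 : algebraMap K F cf ≠ 0 := (map_ne_zero _).mpr hcf
  have h2 : algebraMap K F cg ≠ 0 := (map_ne_zero _).mpr hcg
  have hrep : algebraMap K F (cf / cg) * y * ((⟨_, hgm⟩ : ↥R) : F) = ((⟨_, hfm⟩ : ↥R) : F) := by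
    simp only
    rw [map_div₀, ← hy]
    field_simp
  have hm : algebraMap K F (cf / cg) * y ∈ s27j_O h := ⟨⟨_, hfm⟩, ⟨_, hgm⟩, hgp, hrep⟩
  have hred : s27j_red h ⟨_, hm⟩ ≠ 0 := by
    intro h0
    exact hfp ((s27j_red_eq_zero_iff h ⟨_, hm⟩ _ _ hgp hrep).mp h0)
  exact ⟨cf / cg, div_ne_zero hcf hcg, hm, hred, s27j_inv_mem h ⟨_, hm⟩ hred⟩

end Fermat.Agent.Lib.S27
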