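/-
Programme Z (S27), reduction half, brick [GR-C] part 1 (helper5, prefix `s27r_`):
THE BASIS OF THE MODEL.  `s27r_Phi W a = Σ_i a_i(x) w_i`; under `s27r_WProps W` (independence and
the degree bounds of the structure constants, from [GR-A]) the coefficients are unique, products are
computed by the structure constants, and for a valuation ring `A` making the structure constants
integral (`s27r_SCUnit`) the model `R_A` is the set of combinations with coefficients in `A[X]`.
-/
import Fermat.Agent.Lib.S27.RModel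

set_option autoImplicit false
set_option linter.unusedSectionVars false
set_option linter.unusedVariables false
set_option linter.style.haveILetI false

noncomputable section

namespace Fermat.Agent.Lib.S27

open AlgebraicCurve Fermat.Agent.Lib.FF Fermat.Agent.Lib.S44 Polynomial IsLocalRing

variable {K F : Type} [Field K] [Field F] [Algebra K F] {x : F}

/-- the combination with coefficients `a`. -/
def s27r_Phi (W : s27r_WD K F x) (a : Fin W.n → K[X]) : F := ∑ i, aeval x (a i) * W.w i

/-- **what [GR-A] proves about Weierstrass data**: independence of the basis and the degree bounds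
of the structure constants. -/
structure s27r_WProps (W : s27r_WD K F x) : Prop where
  ind : ∀ a : Fin W.n → K[X], s27r_Phi W a = 0 → a = 0
  sc_deg : ∀ i j k, s27r_sc W i j k ≠ 0 →
    W.n * (s27r_sc W i j k).natDegree + W.h k ≤ W.h i + W.h j
  sc_top : ∀ i j, ∃ k, s27r_sc W i j k ≠ 0 ∧
    W.n * (s27r_sc W i j k).natDegree + W.h k = W.h i + W.h j

variable (W : s27r_WD K F x)

theorem s27r_Phi_zero : s27r_Phi W 0 = 0 := by
  simp [s27r_Phi]

theorem s27r_Phi_add (a b : Fin W.n → K[X]) : s27r_Phi W (a + b) = s27r_Phi W a + s27r_Phi W b := by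
  simp only [s27r_Phi, Pi.add_apply, map_add, add_mul, Finset.sum_add_distrib]

theorem s27r_Phi_neg (a : Fin W.n → K[X]) : s27r_Phi W (-a) = -s27r_Phi W a := by
  simp only [s27r_Phi, Pi.neg_apply, map_neg, neg_mul, Finset.sum_neg_distrib]

theorem s27r_Phi_sub (a b : Fin W.n → K[X]) : s27r_Phi W (a - b) = s27r_Phi W a - s27r_Phi W b := by
  rw [sub_eq_add_neg, s27r_Phi_add, s27r_Phi_neg, ← sub_eq_add_neg]

theorem s27r_Phi_smul (p : K[X]) (a : Fin W.n → K[X]) :
    s27r_Phi W (p • a) = aeval x p * s27r_Phi W a := by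
  simp only [s27r_Phi, Pi.smul_apply, smul_eq_mul, map_mul, Finset.mul_sum, mul_assoc]

theorem s27r_Phi_sum {ι : Type*} (s : Finset ι) (a : ι → Fin W.n → K[X]) :
    s27r_Phi W (∑ j ∈ s, a j) = ∑ j ∈ s, s27r_Phi W (a j) := by
  classical
  induction s using Finset.induction_on with
  | empty => simp [s27r_Phi_zero]
  | insert j s hj ih => rw [Finset.sum_insert hj, Finset.sum_insert hj, s27r_Phi_add, ih]

theorem s27r_Phi_single (i : Fin W.n) (p : K[X]) :
    s27r_Phi W (Pi.single i p) = aeval x p * W.w i := by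
  classical
  unfold s27r_Phi
  rw [Finset.sum_eq_single i]
  · rw [Pi.single_eq_same]
  · intro j _ hj
    rw [Pi.single_eq_of_ne hj, map_zero, zero_mul]
  · intro h
    exact absurd (Finset.mem_univ i) h

theorem s27r_aeval_mem_B (p : K[X]) : aeval x p ∈ s44rc_B W.vinf := by
  rw [← Polynomial.aeval_subalgebra_coe p (s44rc_B W.vinf) ⟨x, W.x_mem⟩]
  exact (aeval (⟨x, W.x_mem⟩ : ↥(s44rc_B W.vinf)) p).2

theorem s27r_Phi_mem_B (a : Fin W.n → K[X]) : s27r_Phi W a ∈ s44rc_B W.vinf :=
  Subalgebra.sum_mem _ fun i _ => Subalgebra.mul_mem _ (s27r_aeval_mem_B W _) (W.w_mem i)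

theorem s27r_Phi_coef {f : F} (hf : f ∈ s44rc_B W.vinf) : s27r_Phi W (s27r_coef W f) = f :=
  (s27r_coef_spec W hf).symm

variable {W}

theorem s27r_Phi_injective (hW : s27r_WProps W) : Function.Injective (s27r_Phi W) := by
  intro a b hab
  have := hW.ind (a - b) (by rw [s27r_Phi_sub, hab, sub_self])
  exact sub_eq_zero.mp this

theorem s27r_coef_Phi (hW : s27r_WProps W) (a : Fin W.n → K[X]) :
    s27r_coef W (s27r_Phi W a) = a :=
  s27r_Phi_injective hW (s27r_Phi_coef W (s27r_Phi_mem_B W a))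

theorem s27r_coef_add (hW : s27r_WProps W) {f g : F} (hf : f ∈ s44rc_B W.vinf)
    (hg : g ∈ s44rc_B W.vinf) : s27r_coef W (f + g) = s27r_coef W f + s27r_coef W g := by
  apply s27r_Phi_injective hW
  rw [s27r_Phi_coef W (Subalgebra.add_mem _ hf hg), s27r_Phi_add, s27r_Phi_coef W hf,
    s27r_Phi_coef W hg]

variable (W)

/-- the product of two combinations. -/
def s27r_star (a b : Fin W.n → K[X]) : Fin W.n → K[X] :=
  fun k => ∑ i, ∑ j, a i * b j * s27r_sc W i j k

theorem s27r_w_mul (i j : Fin W.n) : W.w i * W.w j = s27r_Phi W (s27r_sc W i j) :=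
  (s27r_Phi_coef W (Subalgebra.mul_mem _ (W.w_mem i) (W.w_mem j))).symm

theorem s27r_Phi_mul (a b : Fin W.n → K[X]) :
    s27r_Phi W a * s27r_Phi W b = s27r_Phi W (s27r_star W a b) := by
  unfold s27r_Phi s27r_star
  rw [Finset.sum_mul_sum]
  have h1 : ∀ i j, aeval x (a i) * W.w i * (aeval x (b j) * W.w j) =
      ∑ k, aeval x (a i * b j * s27r_sc W i j k) * W.w k := by
    intro i j
    have : aeval x (a i) * W.w i * (aeval x (b j) * W.w j) =
        aeval x (a i) * aeval x (b j) * (W.w i * W.w j) := by ring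
    rw [this, s27r_w_mul, s27r_Phi, Finset.mul_sum]
    refine Finset.sum_congr rfl fun k _ => ?_
    rw [map_mul, map_mul]
    ring
  simp only [h1]
  -- reorder the sums
  have h2 : ∀ k, aeval x (∑ i, ∑ j, a i * b j * s27r_sc W i j k) * W.w k =
      ∑ i, ∑ j, aeval x (a i * b j * s27r_sc W i j k) * W.w k := by
    intro k
    rw [map_sum, Finset.sum_mul]
    refine Finset.sum_congr rfl fun i _ => ?_
    rw [map_sum, Finset.sum_mul]
  simp only [h2]
  have h3 : ∀ i, ∑ j, ∑ k, aeval x (a i * b j * s27r_sc W i j k) * W.w k =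
      ∑ k, ∑ j, aeval x (a i * b j * s27r_sc W i j k) * W.w k := fun i => Finset.sum_comm
  simp only [h3]
  exact Finset.sum_comm

/-! ### Integral coefficients -/

variable (A : ValuationSubring K)

/-- the combination with coefficients in `A[X]`. -/
def s27r_Psi (a : Fin W.n → (↥A)[X]) : F := s27r_Phi W fun i => (a i).map A.subtype

theorem s27r_Psi_zero : s27r_Psi W A 0 = 0 := by
  unfold s27r_Psi
  have : (fun i : Fin W.n => ((0 : Fin W.n → (↥A)[X]) i).map A.subtype) = 0 := by
    funext i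
    simp
  rw [this, s27r_Phi_zero]

theorem s27r_Psi_add (a b : Fin W.n → (↥A)[X]) :
    s27r_Psi W A (a + b) = s27r_Psi W A a + s27r_Psi W A b := by
  unfold s27r_Psi
  rw [← s27r_Phi_add]
  congr 1
  funext i
  simp

theorem s27r_Psi_neg (a : Fin W.n → (↥A)[X]) : s27r_Psi W A (-a) = -s27r_Psi W A a := by
  unfold s27r_Psi
  rw [← s27r_Phi_neg]
  congr 1
  funext i
  simp

theorem s27r_Psi_sub (a b : Fin W.n → (↥A)[X]) :
    s27r_Psi W A (a - b) = s27r_Psi W A a - s27r_Psi W A b := by
  rw [sub_eq_add_neg, s27r_Psi_add, s27r_Psi_neg, ← sub_eq_add_neg]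

theorem s27r_Psi_smul (p : (↥A)[X]) (a : Fin W.n → (↥A)[X]) :
    s27r_Psi W A (p • a) = aeval x (p.map A.subtype) * s27r_Psi W A a := by
  unfold s27r_Psi
  rw [← s27r_Phi_smul]
  congr 1
  funext i
  simp

theorem s27r_Psi_single (i : Fin W.n) (p : (↥A)[X]) :
    s27r_Psi W A (Pi.single i p) = aeval x (p.map A.subtype) * W.w i := by
  classical
  unfold s27r_Psi
  rw [← s27r_Phi_single]
  congr 1
  funext j
  by_cases hj : j = i
  · subst hj
    simp
  · simp [Pi.single_eq_of_ne hj]

variable {W A}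

theorem s27r_Psi_injective (hW : s27r_WProps W) : Function.Injective (s27r_Psi W A) := by
  intro a b hab
  have h1 := s27r_Phi_injective hW hab
  funext i
  have h2 := congrFun h1 i
  exact Polynomial.map_injective _ A.subtype_injective h2

theorem s27r_exists_scA (hsc : s27r_SCUnit W A) (i j k : Fin W.n) :
    ∃ q : (↥A)[X], q.map A.subtype = s27r_sc W i j k := by
  have : s27r_sc W i j k ∈ Polynomial.lifts A.subtype := by
    rw [Polynomial.lifts_iff_coeff_lifts]
    intro m
    rcases hsc i j k m with h | h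
    · exact ⟨0, by rw [h, map_zero]⟩
    · exact ⟨⟨_, h.1⟩, rfl⟩
  exact this

/-- the integral structure constants. -/
def s27r_scA (hsc : s27r_SCUnit W A) (i j k : Fin W.n) : (↥A)[X] :=
  Classical.choose (s27r_exists_scA hsc i j k)

theorem s27r_scA_map (hsc : s27r_SCUnit W A) (i j k : Fin W.n) :
    (s27r_scA hsc i j k).map A.subtype = s27r_sc W i j k :=
  Classical.choose_spec (s27r_exists_scA hsc i j k)

/-- the product on integral coefficients. -/
def s27r_starA (hsc : s27r_SCUnit W A) (a b : Fin W.n → (↥A)[X]) : Fin W.n → (↥A)[X] :=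
  fun k => ∑ i, ∑ j, a i * b j * s27r_scA hsc i j k

theorem s27r_Psi_mul (hsc : s27r_SCUnit W A) (a b : Fin W.n → (↥A)[X]) :
    s27r_Psi W A a * s27r_Psi W A b = s27r_Psi W A (s27r_starA hsc a b) := by
  unfold s27r_Psi
  rw [s27r_Phi_mul]
  congr 1
  funext k
  simp only [s27r_star, s27r_starA, Polynomial.map_sum, Polynomial.map_mul, s27r_scA_map]

variable (W A)

theorem s27r_aeval_map_mem_RA (q : (↥A)[X]) : aeval x (q.map A.subtype) ∈ s27r_RA W A := by
  induction q using Polynomial.induction_on with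
  | C a =>
    rw [Polynomial.map_C, aeval_C]
    exact s27r_const_mem W A a
  | add p q hp hq =>
    rw [Polynomial.map_add, map_add]
    exact Subring.add_mem _ hp hq
  | monomial m a _ =>
    rw [Polynomial.map_mul, Polynomial.map_C, Polynomial.map_pow, Polynomial.map_X, map_mul,
      aeval_C, map_pow, aeval_X]
    exact Subring.mul_mem _ (s27r_const_mem W A a) (Subring.pow_mem _ (s27r_x_mem W A) _)

theorem s27r_Psi_mem_RA (a : Fin W.n → (↥A)[X]) : s27r_Psi W A a ∈ s27r_RA W A := by
  unfold s27r_Psi s27r_Phi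
  exact Subring.sum_mem _ fun i _ =>
    Subring.mul_mem _ (s27r_aeval_map_mem_RA W A _) (s27r_w_mem W A i)

variable {W A}

/-- **the model is the set of combinations with integral coefficients.** -/
theorem s27r_mem_RA_iff (hsc : s27r_SCUnit W A) {f : F} :
    f ∈ s27r_RA W A ↔ ∃ a : Fin W.n → (↥A)[X], s27r_Psi W A a = f := by
  classical
  constructor
  · intro hf
    unfold s27r_RA at hf
    induction hf using Subring.closure_induction with
    | mem y hy =>
      rcases hy with (⟨c, hc, rfl⟩ | hy) | ⟨i, rfl⟩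
      · refine ⟨Pi.single ⟨0, W.hn⟩ (C ⟨c, hc⟩), ?_⟩
        rw [s27r_Psi_single, Polynomial.map_C, aeval_C, W.w_zero, mul_one]
        rfl
      · rw [Set.mem_singleton_iff] at hy
        subst hy
        refine ⟨Pi.single ⟨0, W.hn⟩ X, ?_⟩
        rw [s27r_Psi_single, Polynomial.map_X, aeval_X, W.w_zero, mul_one]
      · refine ⟨Pi.single i 1, ?_⟩
        rw [s27r_Psi_single, Polynomial.map_one, map_one, one_mul]
    | zero => exact ⟨0, s27r_Psi_zero W A⟩
    | one =>
      refine ⟨Pi.single ⟨0, W.hn⟩ 1, ?_⟩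
      rw [s27r_Psi_single, Polynomial.map_one, map_one, one_mul, W.w_zero]
    | add y z _ _ hy hz =>
      obtain ⟨a, rfl⟩ := hy
      obtain ⟨b, rfl⟩ := hz
      exact ⟨a + b, s27r_Psi_add W A a b⟩
    | neg y _ hy =>
      obtain ⟨a, rfl⟩ := hy
      exact ⟨-a, s27r_Psi_neg W A a⟩
    | mul y z _ _ hy hz =>
      obtain ⟨a, rfl⟩ := hy
      obtain ⟨b, rfl⟩ := hz
      exact ⟨s27r_starA hsc a b, (s27r_Psi_mul hsc a b).symm⟩
  · rintro ⟨a, rfl⟩
    exact s27r_Psi_mem_RA W A a

/-! ### Reduction of the coefficients -/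

variable (W A)

/-- reduction of integral coefficients. -/
def s27r_redA (a : Fin W.n → (↥A)[X]) : Fin W.n → (ResidueField ↥A)[X] :=
  fun i => (a i).map (residue ↥A)

theorem s27r_redA_add (a b : Fin W.n → (↥A)[X]) :
    s27r_redA W A (a + b) = s27r_redA W A a + s27r_redA W A b := by
  funext i
  simp [s27r_redA]

theorem s27r_redA_zero : s27r_redA W A 0 = 0 := by
  funext i
  simp [s27r_redA]

theorem s27r_redA_neg (a : Fin W.n → (↥A)[X]) : s27r_redA W A (-a) = -s27r_redA W A a := by
  funext i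
  simp [s27r_redA]

theorem s27r_redA_surjective : Function.Surjective (s27r_redA W A) := by
  intro b
  choose a ha using fun i => Polynomial.map_surjective (residue ↥A) residue_surjective (b i)
  exact ⟨a, funext ha⟩

/-- evaluation of integral polynomials at `x`, inside the model. -/
def s27r_evA : (↥A)[X] →+* ↥(s27r_RA W A) :=
  Polynomial.eval₂RingHom (s27r_constA W A) ⟨x, s27r_x_mem W A⟩

theorem s27r_evA_coe (q : (↥A)[X]) : ((s27r_evA W A q : ↥(s27r_RA W A)) : F) =
    aeval x (q.map A.subtype) := by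
  induction q using Polynomial.induction_on with
  | C a =>
    rw [Polynomial.map_C, aeval_C]
    simp [s27r_evA]
  | add p q hp hq =>
    rw [map_add, Subring.coe_add, hp, hq, Polynomial.map_add, map_add]
  | monomial m a _ =>
    rw [map_mul, map_pow, Subring.coe_mul, Subring.coe_pow, Polynomial.map_mul, Polynomial.map_C,
      Polynomial.map_pow, Polynomial.map_X, map_mul, aeval_C, map_pow, aeval_X]
    simp [s27r_evA]

theorem s27r_evA_mem_mRA {q : (↥A)[X]} (hq : q.map (residue ↥A) = 0) :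
    s27r_evA W A q ∈ s27r_mRA W A := by
  have h1 : q ∈ RingHom.ker (Polynomial.mapRingHom (residue ↥A)) := hq
  rw [Polynomial.ker_mapRingHom, ker_residue] at h1
  have h2 : s27r_evA W A q ∈ Ideal.map (s27r_evA W A) (Ideal.map C (maximalIdeal ↥A)) :=
    Ideal.mem_map_of_mem _ h1
  rw [Ideal.map_map] at h2
  have h3 : (s27r_evA W A).comp C = s27r_constA W A := by
    ext a
    simp [s27r_evA]
  rw [h3] at h2
  exact h2

/-- the element of the model with integral coefficients `a`. -/
def s27r_PsiA (a : Fin W.n → (↥A)[X]) : ↥(s27r_RA W A) :=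
  ∑ i, s27r_evA W A (a i) * ⟨W.w i, s27r_w_mem W A i⟩

theorem s27r_PsiA_coe (a : Fin W.n → (↥A)[X]) :
    ((s27r_PsiA W A a : ↥(s27r_RA W A)) : F) = s27r_Psi W A a := by
  unfold s27r_PsiA s27r_Psi s27r_Phi
  rw [AddSubmonoidClass.coe_finsetSum]
  refine Finset.sum_congr rfl fun i _ => ?_
  rw [Subring.coe_mul, s27r_evA_coe]

theorem s27r_PsiA_mem_mRA {a : Fin W.n → (↥A)[X]} (ha : s27r_redA W A a = 0) :
    s27r_PsiA W A a ∈ s27r_mRA W A :=
  Ideal.sum_mem _ fun i _ => Ideal.mul_mem_right _ _ (s27r_evA_mem_mRA W A (congrFun ha i))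

variable {W A}

/-- the reduced structure constants. -/
def s27r_scb (hsc : s27r_SCUnit W A) (i j k : Fin W.n) : (ResidueField ↥A)[X] :=
  (s27r_scA hsc i j k).map (residue ↥A)

/-- the product on reduced coefficients. -/
def s27r_starb (hsc : s27r_SCUnit W A) (a b : Fin W.n → (ResidueField ↥A)[X]) :
    Fin W.n → (ResidueField ↥A)[X] :=
  fun k => ∑ i, ∑ j, a i * b j * s27r_scb hsc i j k

theorem s27r_redA_starA (hsc : s27r_SCUnit W A) (a b : Fin W.n → (↥A)[X]) :
    s27r_redA W A (s27r_starA hsc a b) = s27r_starb hsc (s27r_redA W A a) (s27r_redA W A b) := by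
  funext k
  simp only [s27r_redA, s27r_starA, s27r_starb, s27r_scb, Polynomial.map_sum, Polynomial.map_mul]

theorem s27r_starb_zero_right (hsc : s27r_SCUnit W A) (a : Fin W.n → (ResidueField ↥A)[X]) :
    s27r_starb hsc a 0 = 0 := by
  funext k
  simp [s27r_starb]

theorem s27r_starb_zero_left (hsc : s27r_SCUnit W A) (b : Fin W.n → (ResidueField ↥A)[X]) :
    s27r_starb hsc 0 b = 0 := by
  funext k
  simp [s27r_starb]

theorem s27r_exists_PsiA (hsc : s27r_SCUnit W A) (f : ↥(s27r_RA W A)) :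
    ∃ a : Fin W.n → (↥A)[X], s27r_PsiA W A a = f := by
  obtain ⟨a, ha⟩ := (s27r_mem_RA_iff hsc).mp f.2
  exact ⟨a, Subtype.ext ((s27r_PsiA_coe W A a).trans ha)⟩

theorem s27r_PsiA_injective (hW : s27r_WProps W) : Function.Injective (s27r_PsiA W A) := by
  intro a b hab
  apply s27r_Psi_injective (A := A) hW
  rw [← s27r_PsiA_coe, ← s27r_PsiA_coe, hab]

theorem s27r_PsiA_zero : s27r_PsiA W A 0 = 0 :=
  Subtype.ext ((s27r_PsiA_coe W A 0).trans (s27r_Psi_zero W A))

theorem s27r_PsiA_add (a b : Fin W.n → (↥A)[X]) :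
    s27r_PsiA W A (a + b) = s27r_PsiA W A a + s27r_PsiA W A b := by
  apply Subtype.ext
  rw [Subring.coe_add, s27r_PsiA_coe, s27r_PsiA_coe, s27r_PsiA_coe, s27r_Psi_add]

theorem s27r_PsiA_neg (a : Fin W.n → (↥A)[X]) : s27r_PsiA W A (-a) = -s27r_PsiA W A a := by
  apply Subtype.ext
  rw [Subring.coe_neg, s27r_PsiA_coe, s27r_PsiA_coe, s27r_Psi_neg]

theorem s27r_PsiA_mul (hsc : s27r_SCUnit W A) (a b : Fin W.n → (↥A)[X]) :
    s27r_PsiA W A a * s27r_PsiA W A b = s27r_PsiA W A (s27r_starA hsc a b) := by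
  apply Subtype.ext
  rw [Subring.coe_mul, s27r_PsiA_coe, s27r_PsiA_coe, s27r_PsiA_coe, s27r_Psi_mul hsc]

theorem s27r_PsiA_single (i : Fin W.n) (q : (↥A)[X]) :
    s27r_PsiA W A (Pi.single i q) = s27r_evA W A q * ⟨W.w i, s27r_w_mem W A i⟩ := by
  apply Subtype.ext
  rw [s27r_PsiA_coe, s27r_Psi_single, Subring.coe_mul, s27r_evA_coe]

/-- **`𝔪 R_A` is the set of combinations with coefficients in `𝔪[X]`.** -/
theorem s27r_mem_mRA_iff (hW : s27r_WProps W) (hsc : s27r_SCUnit W A) (a : Fin W.n → (↥A)[X]) :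
    s27r_PsiA W A a ∈ s27r_mRA W A ↔ s27r_redA W A a = 0 := by
  classical
  refine ⟨fun h => ?_, s27r_PsiA_mem_mRA W A⟩
  have key : ∀ f ∈ s27r_mRA W A, ∃ a', s27r_PsiA W A a' = f ∧ s27r_redA W A a' = 0 := by
    intro f hf
    unfold s27r_mRA at hf
    rw [Ideal.map] at hf
    induction hf using Submodule.span_induction with
    | mem y hy =>
      obtain ⟨c, hc, rfl⟩ := hy
      refine ⟨Pi.single ⟨0, W.hn⟩ (C c), ?_, ?_⟩
      · rw [s27r_PsiA_single]
        apply Subtype.ext
        rw [Subring.coe_mul, s27r_evA_coe, Polynomial.map_C, aeval_C]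
        show _ * W.w ⟨0, W.hn⟩ = _
        rw [W.w_zero, mul_one]
        rfl
      · funext i
        by_cases hi : i = ⟨0, W.hn⟩
        · subst hi
          have : residue ↥A c = 0 := (residue_eq_zero_iff c).mpr hc
          simp [s27r_redA, this]
        · simp [s27r_redA, Pi.single_eq_of_ne hi]
    | zero => exact ⟨0, s27r_PsiA_zero, s27r_redA_zero W A⟩
    | add y z _ _ hy hz =>
      obtain ⟨a₁, rfl, h₁⟩ := hy
      obtain ⟨a₂, rfl, h₂⟩ := hz
      exact ⟨a₁ + a₂, s27r_PsiA_add a₁ a₂, by rw [s27r_redA_add, h₁, h₂, add_zero]⟩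
    | smul r y _ hy =>
      obtain ⟨a₁, rfl, h₁⟩ := hy
      obtain ⟨b, rfl⟩ := s27r_exists_PsiA hsc r
      refine ⟨s27r_starA hsc b a₁, ?_, ?_⟩
      · rw [smul_eq_mul, s27r_PsiA_mul hsc]
      · rw [s27r_redA_starA, h₁, s27r_starb_zero_right]
  obtain ⟨a', ha', h0⟩ := key _ h
  rw [← s27r_PsiA_injective hW ha']
  exact h0

/-! ### The basis of the special fibre -/

variable (W A)

/-- the combination with coefficients `b` in the special fibre. -/
def s27r_Phib (b : Fin W.n → (ResidueField ↥A)[X]) : s27r_Rbar W A :=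
  ∑ i, aeval (s27r_xb W A) (b i) * s27r_wb W A i

theorem s27r_Phib_add (b b' : Fin W.n → (ResidueField ↥A)[X]) :
    s27r_Phib W A (b + b') = s27r_Phib W A b + s27r_Phib W A b' := by
  simp only [s27r_Phib, Pi.add_apply, map_add, add_mul, Finset.sum_add_distrib]

theorem s27r_Phib_zero : s27r_Phib W A 0 = 0 := by
  simp [s27r_Phib]

theorem s27r_mk_evA (q : (↥A)[X]) :
    s27r_mk W A (s27r_evA W A q) = aeval (s27r_xb W A) (q.map (residue ↥A)) := by
  induction q using Polynomial.induction_on with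
  | C a =>
    rw [Polynomial.map_C, aeval_C]
    have : s27r_evA W A (C a) = s27r_constA W A a := by simp [s27r_evA]
    rw [this]
    rfl
  | add p q hp hq =>
    rw [map_add, map_add, hp, hq, Polynomial.map_add, map_add]
  | monomial m a _ =>
    rw [map_mul, map_pow, map_mul, map_pow, Polynomial.map_mul, Polynomial.map_C,
      Polynomial.map_pow, Polynomial.map_X, map_mul, aeval_C, map_pow, aeval_X]
    have h1 : s27r_evA W A (C a) = s27r_constA W A a := by simp [s27r_evA]
    have h2 : s27r_evA W A X = ⟨x, s27r_x_mem W A⟩ := by simp [s27r_evA]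
    rw [h1, h2]
    rfl

theorem s27r_Phib_redA (a : Fin W.n → (↥A)[X]) :
    s27r_Phib W A (s27r_redA W A a) = s27r_mk W A (s27r_PsiA W A a) := by
  unfold s27r_Phib s27r_PsiA s27r_redA
  rw [map_sum]
  refine Finset.sum_congr rfl fun i _ => ?_
  rw [map_mul, s27r_mk_evA]
  rfl

variable {W A}

theorem s27r_Phib_surjective (hsc : s27r_SCUnit W A) : Function.Surjective (s27r_Phib W A) := by
  intro y
  obtain ⟨f, rfl⟩ := Ideal.Quotient.mk_surjective y
  obtain ⟨a, rfl⟩ := s27r_exists_PsiA hsc f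
  exact ⟨s27r_redA W A a, s27r_Phib_redA W A a⟩

theorem s27r_Phib_eq_zero_iff (hW : s27r_WProps W) (hsc : s27r_SCUnit W A)
    (b : Fin W.n → (ResidueField ↥A)[X]) : s27r_Phib W A b = 0 ↔ b = 0 := by
  constructor
  · intro h
    obtain ⟨a, rfl⟩ := s27r_redA_surjective W A b
    rw [s27r_Phib_redA] at h
    have h1 : s27r_PsiA W A a ∈ s27r_mRA W A := Ideal.Quotient.eq_zero_iff_mem.mp h
    exact (s27r_mem_mRA_iff hW hsc a).mp h1
  · rintro rfl
    exact s27r_Phib_zero W A

theorem s27r_Phib_injective (hW : s27r_WProps W) (hsc : s27r_SCUnit W A) :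
    Function.Injective (s27r_Phib W A) := by
  intro b b' h
  have h1 : s27r_Phib W A (b - b') = 0 := by
    have := s27r_Phib_add W A (b - b') b'
    rw [sub_add_cancel] at this
    rw [h] at this
    exact (add_eq_right.mp this.symm)
  exact sub_eq_zero.mp ((s27r_Phib_eq_zero_iff hW hsc _).mp h1)

theorem s27r_Phib_mul (hsc : s27r_SCUnit W A) (b b' : Fin W.n → (ResidueField ↥A)[X]) :
    s27r_Phib W A b * s27r_Phib W A b' = s27r_Phib W A (s27r_starb hsc b b') := by
  obtain ⟨a, rfl⟩ := s27r_redA_surjective W A b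
  obtain ⟨a', rfl⟩ := s27r_redA_surjective W A b'
  rw [s27r_Phib_redA, s27r_Phib_redA, ← map_mul, s27r_PsiA_mul hsc, ← s27r_redA_starA,
    s27r_Phib_redA]

end Fermat.Agent.Lib.S27
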