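/-
Programme Z (S27), reduction half, brick [GR-C] part 2 (helper5, prefix `s27r_`):
THE SPECIAL FIBRE IS A DOMAIN.  The reduced structure constants satisfy the same degree bounds, the
top one has the exact degree; hence the weighted degree `max (n·deg b_i + h_i)` is additive for the
product `s27r_starb` and `s27r_Rbar W A` is a domain.
-/
import Fermat.Agent.Lib.S27.RBasis

set_option autoImplicit false
set_option linter.unusedSectionVars false
set_option linter.unusedVariables false
set_option linter.style.haveILetI false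

noncomputable section

namespace Fermat.Agent.Lib.S27

open AlgebraicCurve Fermat.Agent.Lib.FF Fermat.Agent.Lib.S44 Polynomial IsLocalRing

variable {K F : Type} [Field K] [Field F] [Algebra K F] {x : F}
  {W : s27r_WD K F x} {A : ValuationSubring K}

/-- a polynomial over `A` all of whose coefficients are zero or units keeps its degree modulo the
maximal ideal. -/
theorem s27r_natDegree_map_residue {q : (↥A)[X]} (hq : ∀ m, q.coeff m = 0 ∨ IsUnit (q.coeff m)) :
    (q.map (residue ↥A)).natDegree = q.natDegree ∧ (q.map (residue ↥A) = 0 ↔ q = 0) := by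
  by_cases h0 : q = 0
  · subst h0
    simp
  have hlc : q.leadingCoeff ≠ 0 := leadingCoeff_ne_zero.mpr h0
  have hu : IsUnit q.leadingCoeff := (hq q.natDegree).resolve_left hlc
  have hres : residue ↥A q.leadingCoeff ≠ 0 := by
    intro h
    rw [residue_eq_zero_iff] at h
    exact (mem_maximalIdeal _).mp h hu
  refine ⟨natDegree_map_of_leadingCoeff_ne_zero _ hres, ?_⟩
  constructor
  · intro h
    exfalso
    have h1 : (q.map (residue ↥A)).coeff q.natDegree = 0 := by rw [h, coeff_zero]
    rw [coeff_map] at h1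
    exact hres h1
  · intro h
    exact absurd h h0

theorem s27r_scA_coeff (hsc : s27r_SCUnit W A) (i j k : Fin W.n) (m : ℕ) :
    (s27r_scA hsc i j k).coeff m = 0 ∨ IsUnit ((s27r_scA hsc i j k).coeff m) := by
  have h1 : (((s27r_scA hsc i j k).coeff m : ↥A) : K) = (s27r_sc W i j k).coeff m := by
    rw [← s27r_scA_map hsc i j k, coeff_map]
    rfl
  by_cases hz : (s27r_sc W i j k).coeff m = 0
  · left
    apply Subtype.ext
    rw [h1, hz]
    rfl
  · right
    have h3 : ((s27r_sc W i j k).coeff m)⁻¹ ∈ A := ((hsc i j k m).resolve_left hz).2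
    refine ⟨⟨(s27r_scA hsc i j k).coeff m, ⟨_, h3⟩, ?_, ?_⟩, rfl⟩
    · apply Subtype.ext
      show (((s27r_scA hsc i j k).coeff m : ↥A) : K) * _ = 1
      rw [h1]
      exact mul_inv_cancel₀ hz
    · apply Subtype.ext
      show _ * (((s27r_scA hsc i j k).coeff m : ↥A) : K) = 1
      rw [h1]
      exact inv_mul_cancel₀ hz

theorem s27r_scb_natDegree (hsc : s27r_SCUnit W A) (i j k : Fin W.n) :
    (s27r_scb hsc i j k).natDegree = (s27r_sc W i j k).natDegree := by
  unfold s27r_scb
  rw [(s27r_natDegree_map_residue (s27r_scA_coeff hsc i j k)).1, ← s27r_scA_map hsc i j k,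
    natDegree_map_eq_of_injective A.subtype_injective]

theorem s27r_scb_eq_zero_iff (hsc : s27r_SCUnit W A) (i j k : Fin W.n) :
    s27r_scb hsc i j k = 0 ↔ s27r_sc W i j k = 0 := by
  unfold s27r_scb
  rw [(s27r_natDegree_map_residue (s27r_scA_coeff hsc i j k)).2, ← s27r_scA_map hsc i j k,
    Polynomial.map_eq_zero_iff A.subtype_injective]

/-- distinct indices have distinct weights. -/
theorem s27r_weight_injective (W : s27r_WD K F x) {i j : Fin W.n} {d e : ℕ}
    (h : W.n * d + W.h i = W.n * e + W.h j) : i = j := by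
  have h1 : (W.n * d + W.h i) % W.n = (W.n * e + W.h j) % W.n := by rw [h]
  rw [Nat.mul_add_mod, Nat.mul_add_mod, W.h_mod, W.h_mod] at h1
  exact Fin.ext h1

/-- the weighted degree of the `i`-th component. -/
def s27r_wt (W : s27r_WD K F x) {R : Type} [Semiring R] (b : Fin W.n → R[X]) (i : Fin W.n) : ℕ :=
  W.n * (b i).natDegree + W.h i

/-- a non-zero vector of polynomials has a component of maximal weight. -/
theorem s27r_exists_top (W : s27r_WD K F x) {R : Type} [Semiring R] {b : Fin W.n → R[X]}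
    (hb : b ≠ 0) : ∃ i₁, b i₁ ≠ 0 ∧ ∀ i, b i ≠ 0 → s27r_wt W b i ≤ s27r_wt W b i₁ := by
  classical
  have hne : (Finset.univ.filter fun i => b i ≠ 0).Nonempty := by
    by_contra h
    rw [Finset.not_nonempty_iff_eq_empty] at h
    apply hb
    funext i
    by_contra hi
    have : i ∈ Finset.univ.filter fun i => b i ≠ 0 := Finset.mem_filter.mpr ⟨Finset.mem_univ _, hi⟩
    rw [h] at this
    exact absurd this (Finset.notMem_empty i)
  obtain ⟨i₁, hi₁, hmax⟩ := Finset.exists_max_image _ (s27r_wt W b) hne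
  exact ⟨i₁, (Finset.mem_filter.mp hi₁).2, fun i hi =>
    hmax i (Finset.mem_filter.mpr ⟨Finset.mem_univ _, hi⟩)⟩

/-- **the weighted degree is additive** for the product of the special fibre. -/
theorem s27r_starb_top (hW : s27r_WProps W) (hsc : s27r_SCUnit W A)
    {b b' : Fin W.n → (ResidueField ↥A)[X]} {i₁ j₁ : Fin W.n} (hi₁ : b i₁ ≠ 0) (hj₁ : b' j₁ ≠ 0)
    (hmax : ∀ i, b i ≠ 0 → s27r_wt W b i ≤ s27r_wt W b i₁)
    (hmax' : ∀ j, b' j ≠ 0 → s27r_wt W b' j ≤ s27r_wt W b' j₁) :
    (∃ k₀, s27r_starb hsc b b' k₀ ≠ 0 ∧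
      s27r_wt W (s27r_starb hsc b b') k₀ = s27r_wt W b i₁ + s27r_wt W b' j₁) ∧
    ∀ k, s27r_starb hsc b b' k ≠ 0 →
      s27r_wt W (s27r_starb hsc b b') k ≤ s27r_wt W b i₁ + s27r_wt W b' j₁ := by
  classical
  have hn := W.hn
  -- bound for a single term
  have hterm : ∀ i j k, b i * b' j * s27r_scb hsc i j k ≠ 0 →
      W.n * (b i * b' j * s27r_scb hsc i j k).natDegree + W.h k ≤ s27r_wt W b i + s27r_wt W b' j := by
    intro i j k h
    have h1 : b i ≠ 0 := fun h0 => h (by rw [h0, zero_mul, zero_mul])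
    have h2 : b' j ≠ 0 := fun h0 => h (by rw [h0, mul_zero, zero_mul])
    have h3 : s27r_scb hsc i j k ≠ 0 := fun h0 => h (by rw [h0, mul_zero])
    rw [natDegree_mul (mul_ne_zero h1 h2) h3, natDegree_mul h1 h2, s27r_scb_natDegree]
    have h4 := hW.sc_deg i j k (fun h0 => h3 ((s27r_scb_eq_zero_iff hsc i j k).mpr h0))
    unfold s27r_wt
    nlinarith
  refine ⟨?_, ?_⟩
  · obtain ⟨k₀, hk₀, hk₀deg⟩ := hW.sc_top i₁ j₁
    have hscb0 : s27r_scb hsc i₁ j₁ k₀ ≠ 0 := fun h0 => hk₀ ((s27r_scb_eq_zero_iff hsc _ _ _).mp h0)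
    set D : ℕ := (b i₁).natDegree + (b' j₁).natDegree + (s27r_scb hsc i₁ j₁ k₀).natDegree with hD
    have hDw : W.n * D + W.h k₀ = s27r_wt W b i₁ + s27r_wt W b' j₁ := by
      rw [hD, s27r_scb_natDegree]
      unfold s27r_wt
      nlinarith
    have hmain0 : b i₁ * b' j₁ * s27r_scb hsc i₁ j₁ k₀ ≠ 0 :=
      mul_ne_zero (mul_ne_zero hi₁ hj₁) hscb0
    have hmaindeg : (b i₁ * b' j₁ * s27r_scb hsc i₁ j₁ k₀).natDegree = D := by
      rw [natDegree_mul (mul_ne_zero hi₁ hj₁) hscb0, natDegree_mul hi₁ hj₁]
    -- the other terms have smaller degree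
    have hother : ∀ i j, (i, j) ≠ (i₁, j₁) →
        (b i * b' j * s27r_scb hsc i j k₀).coeff D = 0 := by
      intro i j hij
      by_cases h0 : b i * b' j * s27r_scb hsc i j k₀ = 0
      · rw [h0, coeff_zero]
      apply coeff_eq_zero_of_natDegree_lt
      have h1 := hterm i j k₀ h0
      have hbi : b i ≠ 0 := fun h => h0 (by rw [h, zero_mul, zero_mul])
      have hbj : b' j ≠ 0 := fun h => h0 (by rw [h, mul_zero, zero_mul])
      have h2 := hmax i hbi
      have h3 := hmax' j hbj
      have hstrict : s27r_wt W b i + s27r_wt W b' j < s27r_wt W b i₁ + s27r_wt W b' j₁ := by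
        by_cases hii : i = i₁
        · subst hii
          have hjj : j ≠ j₁ := fun h => hij (by rw [h])
          have : s27r_wt W b' j ≠ s27r_wt W b' j₁ := fun h => hjj (s27r_weight_injective W h)
          omega
        · have : s27r_wt W b i ≠ s27r_wt W b i₁ := fun h => hii (s27r_weight_injective W h)
          omega
      have h4 : W.n * (b i * b' j * s27r_scb hsc i j k₀).natDegree < W.n * D := by omega
      exact lt_of_mul_lt_mul_left h4 (Nat.zero_le _)
    have hcoeff : (s27r_starb hsc b b' k₀).coeff D =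
        (b i₁ * b' j₁ * s27r_scb hsc i₁ j₁ k₀).leadingCoeff := by
      unfold s27r_starb
      rw [finsetSum_coeff, Finset.sum_eq_single i₁]
      · rw [finsetSum_coeff, Finset.sum_eq_single j₁]
        · rw [leadingCoeff, hmaindeg]
        · intro j _ hj
          exact hother i₁ j (fun h => hj (Prod.ext_iff.mp h).2)
        · intro h
          exact absurd (Finset.mem_univ _) h
      · intro i _ hi
        rw [finsetSum_coeff]
        exact Finset.sum_eq_zero fun j _ => hother i j (fun h => hi (Prod.ext_iff.mp h).1)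
      · intro h
        exact absurd (Finset.mem_univ _) h
    have hne : s27r_starb hsc b b' k₀ ≠ 0 := by
      intro h0
      rw [h0, coeff_zero] at hcoeff
      exact leadingCoeff_ne_zero.mpr hmain0 hcoeff.symm
    refine ⟨k₀, hne, ?_⟩
    -- the degree is exactly `D`
    have hle : (s27r_starb hsc b b' k₀).natDegree ≤ D := by
      unfold s27r_starb
      refine natDegree_sum_le_of_forall_le _ _ fun i _ => ?_
      refine natDegree_sum_le_of_forall_le _ _ fun j _ => ?_
      by_cases h0 : b i * b' j * s27r_scb hsc i j k₀ = 0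
      · rw [h0, natDegree_zero]
        exact Nat.zero_le _
      have h1 := hterm i j k₀ h0
      have hbi : b i ≠ 0 := fun h => h0 (by rw [h, zero_mul, zero_mul])
      have hbj : b' j ≠ 0 := fun h => h0 (by rw [h, mul_zero, zero_mul])
      have h2 := hmax i hbi
      have h3 := hmax' j hbj
      have h4 : W.n * (b i * b' j * s27r_scb hsc i j k₀).natDegree ≤ W.n * D := by omega
      exact le_of_mul_le_mul_left h4 hn
    have hge : D ≤ (s27r_starb hsc b b' k₀).natDegree := by
      apply le_natDegree_of_ne_zero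
      rw [hcoeff]
      exact leadingCoeff_ne_zero.mpr hmain0
    unfold s27r_wt at hDw ⊢
    rw [le_antisymm hle hge]
    exact hDw
  · intro k hk
    have hle : W.n * (s27r_starb hsc b b' k).natDegree + W.h k ≤
        s27r_wt W b i₁ + s27r_wt W b' j₁ := by
      -- some term of maximal degree is non-zero
      have : ∃ i j, b i * b' j * s27r_scb hsc i j k ≠ 0 ∧
          (s27r_starb hsc b b' k).natDegree ≤ (b i * b' j * s27r_scb hsc i j k).natDegree := by
        by_contra hcon
        push Not at hcon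
        apply hk
        -- every coefficient at the top degree vanishes
        have hlc : (s27r_starb hsc b b' k).coeff (s27r_starb hsc b b' k).natDegree = 0 := by
          unfold s27r_starb
          rw [finsetSum_coeff]
          refine Finset.sum_eq_zero fun i _ => ?_
          rw [finsetSum_coeff]
          refine Finset.sum_eq_zero fun j _ => ?_
          by_cases h0 : b i * b' j * s27r_scb hsc i j k = 0
          · rw [h0, coeff_zero]
          · exact coeff_eq_zero_of_natDegree_lt (hcon i j h0)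
        exact leadingCoeff_eq_zero.mp hlc
      obtain ⟨i, j, h0, hdeg⟩ := this
      have h1 := hterm i j k h0
      have hbi : b i ≠ 0 := fun h => h0 (by rw [h, zero_mul, zero_mul])
      have hbj : b' j ≠ 0 := fun h => h0 (by rw [h, mul_zero, zero_mul])
      have h2 := hmax i hbi
      have h3 := hmax' j hbj
      have h4 : W.n * (s27r_starb hsc b b' k).natDegree ≤
          W.n * (b i * b' j * s27r_scb hsc i j k).natDegree := Nat.mul_le_mul_left _ hdeg
      omega
    exact hle

theorem s27r_starb_eq_zero (hW : s27r_WProps W) (hsc : s27r_SCUnit W A)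
    {b b' : Fin W.n → (ResidueField ↥A)[X]} (h : s27r_starb hsc b b' = 0) : b = 0 ∨ b' = 0 := by
  by_contra hcon
  push Not at hcon
  obtain ⟨i₁, hi₁, hmax⟩ := s27r_exists_top W hcon.1
  obtain ⟨j₁, hj₁, hmax'⟩ := s27r_exists_top W hcon.2
  obtain ⟨⟨k₀, hk₀, -⟩, -⟩ := s27r_starb_top hW hsc hi₁ hj₁ hmax hmax'
  exact hk₀ (by rw [h]; rfl)

theorem s27r_Phib_one : s27r_Phib W A (Pi.single ⟨0, W.hn⟩ 1) = 1 := by
  classical
  unfold s27r_Phib
  rw [Finset.sum_eq_single ⟨0, W.hn⟩]
  · rw [Pi.single_eq_same, map_one, one_mul]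
    unfold s27r_wb
    have : (⟨W.w ⟨0, W.hn⟩, s27r_w_mem W A ⟨0, W.hn⟩⟩ : ↥(s27r_RA W A)) = 1 :=
      Subtype.ext W.w_zero
    rw [this, map_one]
  · intro j _ hj
    rw [Pi.single_eq_of_ne hj, map_zero, zero_mul]
  · intro h
    exact absurd (Finset.mem_univ _) h

/-- **the special fibre is a domain.** -/
theorem s27r_isDomain_Rbar (hW : s27r_WProps W) (hsc : s27r_SCUnit W A) :
    IsDomain (s27r_Rbar W A) := by
  classical
  haveI : Nontrivial (s27r_Rbar W A) := by
    refine ⟨⟨1, 0, ?_⟩⟩
    rw [← s27r_Phib_one (W := W) (A := A)]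
    intro h
    have h1 := (s27r_Phib_eq_zero_iff hW hsc _).mp h
    have h2 := congrFun h1 ⟨0, W.hn⟩
    rw [Pi.single_eq_same] at h2
    exact one_ne_zero h2
  haveI : NoZeroDivisors (s27r_Rbar W A) := by
    refine ⟨fun {y y'} h => ?_⟩
    obtain ⟨b, rfl⟩ := s27r_Phib_surjective hsc y
    obtain ⟨b', rfl⟩ := s27r_Phib_surjective hsc y'
    rw [s27r_Phib_mul hsc, s27r_Phib_eq_zero_iff hW hsc] at h
    rcases s27r_starb_eq_zero hW hsc h with h | h
    · left
      rw [h, s27r_Phib_zero]
    · right
      rw [h, s27r_Phib_zero]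
  exact NoZeroDivisors.to_isDomain _

end Fermat.Agent.Lib.S27
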