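/-
Programme Z (S27), reduction half, brick [GR-D] part 3 (helper9, prefix `s27j_`): THE GAUSS RING OF
THE MODEL.  For Weierstrass data `W` (with `hW : s27r_WProps W`) and a valuation ring `A` making the
structure constants integral (`hsc : s27r_SCUnit W A`):

* `s27j_scaleB` : every non-zero function regular off `vinf` has a constant multiple in
  `R_A ∖ 𝔪R_A` (divide by the largest coefficient);
* `s27j_gd` : `(A, R_A, 𝔪R_A)` is an abstract Gauss datum (`JGauss.lean`);
* `s27j_OW`, `s27j_redW : O →+* Fb` : the Gauss ring and its reduction; `s27j_rd_*` : the fields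
  `unit_of_ne`, `const_mem`, `red_const`, `inv_mem` of `s19_RD`; `s27j_gvW` : the field `gv` of
  `s19_Curve`.
-/
import Fermat.Agent.Lib.S27.RDomain
import Fermat.Agent.Lib.S27.JGauss
import Fermat.Agent.Lib.S19.SGaussAbs

set_option autoImplicit false
set_option linter.unusedSectionVars false
set_option linter.unusedVariables false
set_option linter.style.haveILetI false

noncomputable section

namespace Fermat.Agent.Lib.S27

open AlgebraicCurve Fermat.Agent.Lib.FF Fermat.Agent.Lib.S44 Fermat.Agent.Lib.S19 Polynomial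
  IsLocalRing

variable {K F : Type} [Field K] [Field F] [Algebra K F] {x : F} {W : s27r_WD K F x}
  {A : ValuationSubring K}

theorem s27j_isPrime_mRA (hW : s27r_WProps W) (hsc : s27r_SCUnit W A) :
    (s27r_mRA W A).IsPrime := by
  haveI := s27r_isDomain_Rbar hW hsc
  exact (Ideal.Quotient.isDomain_iff_prime _).mp inferInstance

/-- the model consists of functions regular off `vinf`. -/
theorem s27j_RA_le_B (hsc : s27r_SCUnit W A) {f : F} (hf : f ∈ s27r_RA W A) :
    f ∈ s44rc_B W.vinf := by
  obtain ⟨a, rfl⟩ := (s27r_mem_RA_iff hsc).mp hf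
  exact s27r_Phi_mem_B W _

/-- **scaling**: a non-zero function regular off `vinf` has a constant multiple in
`R_A ∖ 𝔪 R_A`. -/
theorem s27j_scaleB (hW : s27r_WProps W) (A : ValuationSubring K) {b : F}
    (hb : b ∈ s44rc_B W.vinf) (hb0 : b ≠ 0) :
    ∃ c : K, c ≠ 0 ∧ ∃ a : Fin W.n → (↥A)[X],
      s27r_Psi W A a = algebraMap K F c * b ∧ s27r_redA W A a ≠ 0 := by
  classical
  set a₀ := s27r_coef W b with ha₀
  have hΦ : s27r_Phi W a₀ = b := s27r_Phi_coef W hb
  have ha₀0 : a₀ ≠ 0 := by
    intro h0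
    rw [h0, s27r_Phi_zero] at hΦ
    exact hb0 hΦ.symm
  set d : ℕ := Finset.univ.sup fun i => (a₀ i).natDegree with hd
  have hdeg : ∀ i, (a₀ i).natDegree ≤ d := fun i =>
    Finset.le_sup (f := fun i => (a₀ i).natDegree) (Finset.mem_univ i)
  set v : Fin W.n × Fin (d + 1) → K := fun p => (a₀ p.1).coeff p.2 with hv
  have hv0 : v ≠ 0 := by
    obtain ⟨i, hi⟩ : ∃ i, a₀ i ≠ 0 := by
      by_contra h
      push Not at h
      exact ha₀0 (funext h)
    intro h0
    have := congrFun h0 (i, ⟨(a₀ i).natDegree, Nat.lt_succ_of_le (hdeg i)⟩)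
    simp only [hv, Pi.zero_apply] at this
    exact hi (Polynomial.leadingCoeff_eq_zero.mp this)
  obtain ⟨j₀, hj₀, hmax⟩ := s19s_exists_max_coord A v hv0
  set c : K := (v j₀)⁻¹ with hc
  have hc0 : c ≠ 0 := inv_ne_zero hj₀
  have hcoef : ∀ i m, c * (a₀ i).coeff m ∈ A := by
    intro i m
    by_cases hm : m < d + 1
    · have := hmax (i, ⟨m, hm⟩)
      simp only [hv] at this
      rw [hc, mul_comm, ← div_eq_mul_inv]
      exact this
    · have : (a₀ i).coeff m = 0 :=
        Polynomial.coeff_eq_zero_of_natDegree_lt (lt_of_le_of_lt (hdeg i) (by omega))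
      rw [this, mul_zero]
      exact A.zero_mem
  have hlift : ∀ i, ∃ q : (↥A)[X], q.map A.subtype = C c * a₀ i := by
    intro i
    have : C c * a₀ i ∈ Polynomial.lifts A.subtype := by
      rw [Polynomial.lifts_iff_coeff_lifts]
      intro m
      rw [Polynomial.coeff_C_mul]
      exact ⟨⟨_, hcoef i m⟩, rfl⟩
    exact this
  choose a ha using hlift
  refine ⟨c, hc0, a, ?_, ?_⟩
  · unfold s27r_Psi
    have h1 : (fun i => (a i).map A.subtype) = C c • a₀ := by
      funext i
      rw [ha i, Pi.smul_apply, smul_eq_mul]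
    rw [h1, s27r_Phi_smul, aeval_C, hΦ]
  · intro h0
    have h1 := congrFun h0 j₀.1
    have h2 := congrArg (fun q : (ResidueField ↥A)[X] => q.coeff j₀.2) h1
    simp only [s27r_redA, Pi.zero_apply, Polynomial.coeff_map, Polynomial.coeff_zero] at h2
    have h3 : ((a j₀.1).coeff j₀.2 : ↥A) = 1 := by
      apply Subtype.ext
      have h4 : (((a j₀.1).coeff j₀.2 : ↥A) : K) = ((a j₀.1).map A.subtype).coeff j₀.2 := by
        rw [Polynomial.coeff_map]
        rfl
      rw [h4, ha, Polynomial.coeff_C_mul, hc]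
      exact inv_mul_cancel₀ hj₀
    rw [h3, map_one] at h2
    exact one_ne_zero h2

variable [CharZero K] [FFGen K x]

/-- **the model is an abstract Gauss datum.** -/
theorem s27j_gd (hW : s27r_WProps W) (hsc : s27r_SCUnit W A) :
    s27j_GD A (s27r_RA W A) (s27r_mRA W A) where
  const_mem := s27r_const_mem W A
  frac := by
    intro y
    have hord : W.vinf.ord x < 0 := by
      rw [W.ord_x]
      have := W.hn
      omega
    obtain ⟨b, b', hb', hy⟩ := IsFractionRing.div_surjective (A := ffB K x) y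
    have hbB : ((b : ffB K x) : F) ∈ s44rc_B W.vinf :=
      (s44rc_mem_B_iff_mem_ffB W.vinf W.x_mem hord _).mpr b.2
    have hb'B : ((b' : ffB K x) : F) ∈ s44rc_B W.vinf :=
      (s44rc_mem_B_iff_mem_ffB W.vinf W.x_mem hord _).mpr b'.2
    have hb'0 : ((b' : ffB K x) : F) ≠ 0 := by
      intro h0
      have : b' = 0 := Subtype.ext h0
      rw [this] at hb'
      exact zero_notMem_nonZeroDivisors hb'
    have hy' : y * ((b' : ffB K x) : F) = ((b : ffB K x) : F) := by
      rw [← hy]
      have e1 : algebraMap (ffB K x) F b' = ((b' : ffB K x) : F) := rfl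
      have e2 : algebraMap (ffB K x) F b = ((b : ffB K x) : F) := rfl
      rw [e1, e2]
      field_simp
    by_cases hb0 : ((b : ffB K x) : F) = 0
    · refine ⟨0, 1, by simp, ?_⟩
      have : y = 0 := by
        rw [hb0] at hy'
        exact (mul_eq_zero.mp hy').resolve_right hb'0
      simp [this]
    obtain ⟨c, hc0, a, ha, -⟩ := s27j_scaleB hW A hbB hb0
    obtain ⟨c', hc'0, a', ha', -⟩ := s27j_scaleB hW A hb'B hb'0
    have hcF : algebraMap K F c ≠ 0 := (_root_.map_ne_zero _).mpr hc0
    have hc'F : algebraMap K F c' ≠ 0 := (_root_.map_ne_zero _).mpr hc'0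
    rcases A.mem_or_inv_mem (c' / c) with h | h
    · -- `y = ((c'/c) (c b)) / (c' b')`
      refine ⟨s27r_constA W A ⟨_, h⟩ * s27r_PsiA W A a, s27r_PsiA W A a', ?_, ?_⟩
      · rw [s27r_PsiA_coe, ha']
        exact mul_ne_zero hc'F hb'0
      · rw [Subring.coe_mul, s27r_PsiA_coe, s27r_PsiA_coe, ha, ha', s27r_constA_coe]
        simp only
        rw [map_div₀, ← hy']
        field_simp
    · refine ⟨s27r_PsiA W A a, s27r_constA W A ⟨_, h⟩ * s27r_PsiA W A a', ?_, ?_⟩
      · rw [Subring.coe_mul, s27r_PsiA_coe, ha', s27r_constA_coe]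
        simp only
        rw [map_inv₀, map_div₀]
        exact mul_ne_zero (inv_ne_zero (div_ne_zero hc'F hcF)) (mul_ne_zero hc'F hb'0)
      · rw [Subring.coe_mul, s27r_PsiA_coe, s27r_PsiA_coe, ha, ha', s27r_constA_coe]
        simp only
        rw [map_inv₀, map_div₀, ← hy']
        field_simp
  scale := by
    intro f hf0
    obtain ⟨c, hc0, a, ha, hred⟩ := s27j_scaleB hW A (s27j_RA_le_B hsc f.2) hf0
    refine ⟨c, hc0, ?_, ?_⟩
    · rw [← ha]
      exact s27r_Psi_mem_RA W A a
    · have h1 : (⟨algebraMap K F c * (f : F), by rw [← ha]; exact s27r_Psi_mem_RA W A a⟩ :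
          ↥(s27r_RA W A)) = s27r_PsiA W A a :=
        Subtype.ext (by rw [s27r_PsiA_coe]; exact ha.symm)
      rw [h1, s27r_mem_mRA_iff hW hsc]
      exact hred

end Fermat.Agent.Lib.S27
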