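/-
Programme Z (S27), reduction half, brick [GR-D] part 4 (helper9, prefix `s27j_`): INTEGRAL POINTS
OF THE MODEL AND THEIR REDUCTION.

`s27j_Int W A P` : the place `P` is integral (`x` is regular at `P` with value in `A`);
`s27j_evK` : evaluation `R_A →+* K` at a place `≠ vinf`; at an integral place all values lie in `A`
(`s27j_evK_mem`, from the multiplication table: the largest `w_i(P)` is a combination of the
quotients `w_k(P) / w_{i₀}(P)`), whence `s27j_evRA : R_A →+* A` and the point of the special fibre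
`s27j_phi : R̄ →+* k`; its kernel is a non-zero prime (`s27j_pt`, a height-one prime when `R̄` is a
Dedekind domain), and **the reduction of places** `s27j_r` sends an integral place to the place of
`s27j_pt` and every other place to the place at infinity of the special fibre.
-/
import Fermat.Agent.Lib.S27.JModel
import Fermat.Agent.Lib.S37.PValue
import Fermat.Agent.Lib.S37.DDict

set_option autoImplicit false
set_option linter.unusedSectionVars false
set_option linter.unusedVariables false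
set_option linter.style.haveILetI false

noncomputable section

namespace Fermat.Agent.Lib.S27

open AlgebraicCurve Fermat.Agent.Lib.FF Fermat.Agent.Lib.S44 Fermat.Agent.Lib.S19
  Fermat.Agent.Lib.S37 Polynomial IsLocalRing IsDedekindDomain

variable {K F : Type} [Field K] [Field F] [Algebra K F] [IsAlgClosed K] [CharZero K] {x : F}
  [FFGen K x]

/-- **integral places**: `x` is regular at `P` and its value lies in `A`. -/
def s27j_Int (_W : s27r_WD K F x) (A : ValuationSubring K) (P : Place K F) : Prop :=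
  ∃ h : x ∈ P.toValuationSubring, s37pv_ev x P ⟨x, h⟩ ∈ A

variable {W : s27r_WD K F x} {A : ValuationSubring K}

theorem s27j_ord_x_neg (W : s27r_WD K F x) : W.vinf.ord x < 0 := by
  rw [W.ord_x]
  have := W.hn
  omega

theorem s27j_ne_vinf {P : Place K F} (hP : s27j_Int W A P) : P ≠ W.vinf := by
  rintro rfl
  obtain ⟨h, -⟩ := hP
  exact s44rc_not_mem_vinf W.vinf (s27j_ord_x_neg W) h

/-- the model inside the valuation ring of a place `≠ vinf`. -/
def s27j_toP (hsc : s27r_SCUnit W A) (P : Place K F) (hP : P ≠ W.vinf) :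
    ↥(s27r_RA W A) →+* ↥P.toValuationSubring :=
  (s27r_RA W A).subtype.codRestrict P.toValuationSubring fun f => s27j_RA_le_B hsc f.2 P hP

@[simp] theorem s27j_toP_coe (hsc : s27r_SCUnit W A) (P : Place K F) (hP : P ≠ W.vinf)
    (f : ↥(s27r_RA W A)) : ((s27j_toP hsc P hP f : ↥P.toValuationSubring) : F) = (f : F) := rfl

/-- **evaluation of the model at a place `≠ vinf`.** -/
def s27j_evK (hsc : s27r_SCUnit W A) (P : Place K F) (hP : P ≠ W.vinf) :
    ↥(s27r_RA W A) →+* K :=
  (s37pv_ev x P).comp (s27j_toP hsc P hP)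

theorem s27j_evK_const (hsc : s27r_SCUnit W A) (P : Place K F) (hP : P ≠ W.vinf) (a : ↥A) :
    s27j_evK hsc P hP (s27r_constA W A a) = (a : K) := by
  unfold s27j_evK
  rw [RingHom.comp_apply]
  have : s27j_toP hsc P hP (s27r_constA W A a) = algebraMap K P.toValuationSubring (a : K) :=
    Subtype.ext rfl
  rw [this, s37pv_ev_algebraMap]

/-- the value of `x`. -/
def s27j_xval (hsc : s27r_SCUnit W A) (P : Place K F) (hP : P ≠ W.vinf) : K :=
  s27j_evK hsc P hP ⟨x, s27r_x_mem W A⟩

/-- the values of the `w i`. -/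
def s27j_wval (hsc : s27r_SCUnit W A) (P : Place K F) (hP : P ≠ W.vinf) (i : Fin W.n) : K :=
  s27j_evK hsc P hP ⟨W.w i, s27r_w_mem W A i⟩

theorem s27j_xval_eq (hsc : s27r_SCUnit W A) (P : Place K F) (hP : P ≠ W.vinf) :
    s27j_xval hsc P hP = s37pv_ev x P ⟨x, W.x_mem P hP⟩ := rfl

theorem s27j_xval_mem (hsc : s27r_SCUnit W A) {P : Place K F} (hP : s27j_Int W A P) :
    s27j_xval hsc P (s27j_ne_vinf hP) ∈ A := by
  obtain ⟨h, hA⟩ := hP
  exact hA

theorem s27j_evK_evA (hsc : s27r_SCUnit W A) (P : Place K F) (hP : P ≠ W.vinf) (q : (↥A)[X]) :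
    s27j_evK hsc P hP (s27r_evA W A q) = Polynomial.eval₂ A.subtype (s27j_xval hsc P hP) q := by
  unfold s27r_evA
  rw [Polynomial.coe_eval₂RingHom, Polynomial.hom_eval₂]
  congr 1
  ext a
  exact s27j_evK_const hsc P hP a

theorem s27j_eval₂_mem (q : (↥A)[X]) {c : K} (hc : c ∈ A) : Polynomial.eval₂ A.subtype c q ∈ A := by
  have h := Polynomial.hom_eval₂ q (RingHom.id ↥A) A.subtype (⟨c, hc⟩ : ↥A)
  rw [RingHom.comp_id] at h
  have h2 : (A.subtype ⟨c, hc⟩ : K) = c := rfl
  rw [h2] at h
  rw [← h]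
  exact Subtype.mem _

theorem s27j_evK_PsiA (hsc : s27r_SCUnit W A) (P : Place K F) (hP : P ≠ W.vinf)
    (a : Fin W.n → (↥A)[X]) :
    s27j_evK hsc P hP (s27r_PsiA W A a) =
      ∑ i, Polynomial.eval₂ A.subtype (s27j_xval hsc P hP) (a i) * s27j_wval hsc P hP i := by
  unfold s27r_PsiA
  rw [map_sum]
  refine Finset.sum_congr rfl fun i _ => ?_
  rw [map_mul, s27j_evK_evA]
  rfl

/-- the multiplication table inside the model. -/
theorem s27j_w_mul (hsc : s27r_SCUnit W A) (i j : Fin W.n) :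
    (⟨W.w i, s27r_w_mem W A i⟩ : ↥(s27r_RA W A)) * ⟨W.w j, s27r_w_mem W A j⟩ =
      s27r_PsiA W A (s27r_scA hsc i j) := by
  apply Subtype.ext
  rw [Subring.coe_mul, s27r_PsiA_coe]
  simp only
  rw [s27r_w_mul]
  unfold s27r_Psi
  congr 1
  funext k
  exact (s27r_scA_map hsc i j k).symm

/-- **at an integral place the `w i` have integral values.** -/
theorem s27j_wval_mem (hsc : s27r_SCUnit W A) {P : Place K F} (hP : s27j_Int W A P)
    (i : Fin W.n) : s27j_wval hsc P (s27j_ne_vinf hP) i ∈ A := by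
  classical
  set hne := s27j_ne_vinf hP
  set β : Fin W.n → K := s27j_wval hsc P hne with hβ
  have hβ0 : β ⟨0, W.hn⟩ = 1 := by
    have h1 : (⟨W.w ⟨0, W.hn⟩, s27r_w_mem W A ⟨0, W.hn⟩⟩ : ↥(s27r_RA W A)) = 1 :=
      Subtype.ext W.w_zero
    show s27j_evK hsc P hne _ = 1
    rw [h1, map_one]
  have hβne : β ≠ 0 := by
    intro h0
    have := congrFun h0 ⟨0, W.hn⟩
    rw [hβ0] at this
    exact one_ne_zero this
  obtain ⟨i₀, hi₀, hmax⟩ := s19s_exists_max_coord A β hβne
  have hrel : β i₀ * β i₀ = ∑ k, Polynomial.eval₂ A.subtype (s27j_xval hsc P hne)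
      (s27r_scA hsc i₀ i₀ k) * β k := by
    have h1 := congrArg (s27j_evK hsc P hne) (s27j_w_mul hsc i₀ i₀)
    rw [map_mul, s27j_evK_PsiA] at h1
    exact h1
  have hi₀A : β i₀ ∈ A := by
    have h2 : β i₀ = ∑ k, Polynomial.eval₂ A.subtype (s27j_xval hsc P hne)
        (s27r_scA hsc i₀ i₀ k) * (β k / β i₀) := by
      have h3 : ∑ k, Polynomial.eval₂ A.subtype (s27j_xval hsc P hne)
          (s27r_scA hsc i₀ i₀ k) * (β k / β i₀) = (β i₀ * β i₀) / β i₀ := by
        rw [hrel, Finset.sum_div]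
        refine Finset.sum_congr rfl fun k _ => ?_
        rw [mul_div_assoc]
      rw [h3, mul_div_assoc, div_self hi₀, mul_one]
    rw [h2]
    exact A.toSubring.sum_mem fun k _ =>
      A.mul_mem _ _ (s27j_eval₂_mem _ (s27j_xval_mem hsc hP)) (hmax k)
  have : β i = β i / β i₀ * β i₀ := by
    rw [div_mul_cancel₀ _ hi₀]
  rw [this]
  exact A.mul_mem _ _ (hmax i) hi₀A

/-- **at an integral place the whole model has integral values.** -/
theorem s27j_evK_mem (hsc : s27r_SCUnit W A) {P : Place K F} (hP : s27j_Int W A P)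
    (f : ↥(s27r_RA W A)) : s27j_evK hsc P (s27j_ne_vinf hP) f ∈ A := by
  obtain ⟨a, rfl⟩ := s27r_exists_PsiA hsc f
  rw [s27j_evK_PsiA]
  exact A.toSubring.sum_mem fun i _ =>
    A.mul_mem _ _ (s27j_eval₂_mem _ (s27j_xval_mem hsc hP)) (s27j_wval_mem hsc hP i)

/-- **evaluation at an integral place**, with values in `A`. -/
def s27j_evRA (hsc : s27r_SCUnit W A) {P : Place K F} (hP : s27j_Int W A P) :
    ↥(s27r_RA W A) →+* ↥A :=
  (s27j_evK hsc P (s27j_ne_vinf hP)).codRestrict A.toSubring (s27j_evK_mem hsc hP)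

@[simp] theorem s27j_evRA_coe (hsc : s27r_SCUnit W A) {P : Place K F} (hP : s27j_Int W A P)
    (f : ↥(s27r_RA W A)) :
    ((s27j_evRA hsc hP f : ↥A) : K) = s27j_evK hsc P (s27j_ne_vinf hP) f := rfl

theorem s27j_evRA_const (hsc : s27r_SCUnit W A) {P : Place K F} (hP : s27j_Int W A P) (a : ↥A) :
    s27j_evRA hsc hP (s27r_constA W A a) = a :=
  Subtype.ext (s27j_evK_const hsc P (s27j_ne_vinf hP) a)

/-- **the point of the special fibre below an integral place.** -/
def s27j_phi (hsc : s27r_SCUnit W A) {P : Place K F} (hP : s27j_Int W A P) :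
    s27r_Rbar W A →+* ResidueField ↥A :=
  Ideal.Quotient.lift (s27r_mRA W A) ((residue ↥A).comp (s27j_evRA hsc hP)) (by
    intro f hf
    have hle : s27r_mRA W A ≤ RingHom.ker ((residue ↥A).comp (s27j_evRA hsc hP)) := by
      unfold s27r_mRA
      rw [Ideal.map_le_iff_le_comap]
      intro a ha
      rw [Ideal.mem_comap, RingHom.mem_ker, RingHom.comp_apply, s27j_evRA_const,
        residue_eq_zero_iff]
      exact ha
    exact hle hf)

theorem s27j_phi_mk (hsc : s27r_SCUnit W A) {P : Place K F} (hP : s27j_Int W A P)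
    (f : ↥(s27r_RA W A)) :
    s27j_phi hsc hP (s27r_mk W A f) = residue ↥A (s27j_evRA hsc hP f) := rfl

theorem s27j_phi_algebraMap (hsc : s27r_SCUnit W A) {P : Place K F} (hP : s27j_Int W A P)
    (c : ResidueField ↥A) :
    s27j_phi hsc hP (algebraMap (ResidueField ↥A) (s27r_Rbar W A) c) = c := by
  obtain ⟨a, rfl⟩ := residue_surjective c
  rw [s27r_algebraMap_residue, s27j_phi_mk, s27j_evRA_const]

theorem s27j_phi_surjective (hsc : s27r_SCUnit W A) {P : Place K F} (hP : s27j_Int W A P) :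
    Function.Surjective (s27j_phi hsc hP) := fun c =>
  ⟨algebraMap (ResidueField ↥A) (s27r_Rbar W A) c, s27j_phi_algebraMap hsc hP c⟩

instance s27j_ker_isMaximal (hsc : s27r_SCUnit W A) {P : Place K F} (hP : s27j_Int W A P) :
    (RingHom.ker (s27j_phi hsc hP)).IsMaximal :=
  RingHom.ker_isMaximal_of_surjective _ (s27j_phi_surjective hsc hP)

/-- the kernel of the point is not zero: it contains `x̄ - ā`. -/
theorem s27j_ker_ne_bot (hW : s27r_WProps W) (hsc : s27r_SCUnit W A) {P : Place K F}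
    (hP : s27j_Int W A P) : RingHom.ker (s27j_phi hsc hP) ≠ ⊥ := by
  classical
  intro hbot
  set α : ↥A := s27j_evRA hsc hP ⟨x, s27r_x_mem W A⟩ with hα
  -- `x - α` is in the kernel of the evaluation, and not in `𝔪 R_A`
  set a : Fin W.n → (↥A)[X] := Pi.single ⟨0, W.hn⟩ (X - C α) with ha
  have h1 : s27r_PsiA W A a = ⟨x, s27r_x_mem W A⟩ - s27r_constA W A α := by
    rw [ha, s27r_PsiA_single]
    have h2 : (⟨W.w ⟨0, W.hn⟩, s27r_w_mem W A ⟨0, W.hn⟩⟩ : ↥(s27r_RA W A)) = 1 :=
      Subtype.ext W.w_zero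
    rw [h2, mul_one]
    simp [s27r_evA]
  have h3 : s27r_mk W A (s27r_PsiA W A a) ∈ RingHom.ker (s27j_phi hsc hP) := by
    rw [RingHom.mem_ker, s27j_phi_mk, h1, map_sub, s27j_evRA_const, ← hα, sub_self, map_zero]
  rw [hbot, Ideal.mem_bot] at h3
  have h4 : s27r_PsiA W A a ∈ s27r_mRA W A := Ideal.Quotient.eq_zero_iff_mem.mp h3
  rw [s27r_mem_mRA_iff hW hsc] at h4
  have h5 := congrFun h4 ⟨0, W.hn⟩
  have h6 := congrArg (fun q : (ResidueField ↥A)[X] => q.coeff 1) h5
  simp [s27r_redA, ha, Polynomial.coeff_X, Polynomial.coeff_C] at h6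

variable [hdom : IsDomain (s27r_Rbar W A)] [hded : IsDedekindDomain (s27r_Rbar W A)]

/-- **the height-one prime of the special fibre below an integral place.** -/
def s27j_pt (hW : s27r_WProps W) (hsc : s27r_SCUnit W A) {P : Place K F} (hP : s27j_Int W A P) :
    HeightOneSpectrum (s27r_Rbar W A) where
  asIdeal := RingHom.ker (s27j_phi hsc hP)
  isPrime := (s27j_ker_isMaximal hsc hP).isPrime
  ne_bot := s27j_ker_ne_bot hW hsc hP

open Classical in
/-- **the reduction of places**: an integral place goes to the place of its point of the special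
fibre, every other place to the place at infinity. -/
def s27j_r (hW : s27r_WProps W) (hsc : s27r_SCUnit W A)
    (Pinf : Place (ResidueField ↥A) (s27r_Fb W A)) (P : Place K F) :
    Place (ResidueField ↥A) (s27r_Fb W A) :=
  if hP : s27j_Int W A P then
    Place.ofHeightOneSpectrum (K := ResidueField ↥A) (s27j_pt hW hsc hP)
  else Pinf

theorem s27j_r_of_int (hW : s27r_WProps W) (hsc : s27r_SCUnit W A)
    (Pinf : Place (ResidueField ↥A) (s27r_Fb W A)) {P : Place K F} (hP : s27j_Int W A P) :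
    s27j_r hW hsc Pinf P =
      Place.ofHeightOneSpectrum (K := ResidueField ↥A) (s27j_pt hW hsc hP) := by
  unfold s27j_r
  rw [dif_pos hP]

theorem s27j_r_of_not_int (hW : s27r_WProps W) (hsc : s27r_SCUnit W A)
    (Pinf : Place (ResidueField ↥A) (s27r_Fb W A)) {P : Place K F} (hP : ¬ s27j_Int W A P) :
    s27j_r hW hsc Pinf P = Pinf := by
  unfold s27j_r
  rw [dif_neg hP]

end Fermat.Agent.Lib.S27
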