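/-
Programme Z (S27), reduction half, brick [GR-D] part 5 (helper9, prefix `s27j_`): THE DATA OF THE
REDUCTION `(O, red, r)` of the model, closed names (interface between the two halves of [GR-D]).

* `s27j_OW hW hsc : ValuationSubring F` — the Gauss ring of the model `R_A` (localisation at `𝔪R_A`);
* `s27j_redW hW hsc : O →+* Fb` — its reduction, `Fb = s27r_Fb W A = FractionRing R̄`;
* `s27j_r hW hsc Pinf : Place K F → Place k Fb` (JPoints) — the reduction of places;
* `s27j_Cons hW hsc Pinf : Prop` — the field `cons` of `s19_RD` for these data.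
-/
import Fermat.Agent.Lib.S27.JPoints

set_option autoImplicit false
set_option linter.unusedSectionVars false
set_option linter.unusedVariables false
set_option linter.style.haveILetI false
set_option linter.overlappingInstances false

noncomputable section

namespace Fermat.Agent.Lib.S27

open AlgebraicCurve Fermat.Agent.Lib.FF Fermat.Agent.Lib.S44 Fermat.Agent.Lib.S19
  Fermat.Agent.Lib.S37 Polynomial IsLocalRing IsDedekindDomain

variable {K F : Type} [Field K] [Field F] [Algebra K F] [CharZero K] {x : F}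
  [FFGen K x] {W : s27r_WD K F x} {A : ValuationSubring K} [IsDomain (s27r_Rbar W A)]

instance s27j_isPrime_of_isDomain : (s27r_mRA W A).IsPrime :=
  (Ideal.Quotient.isDomain_iff_prime _).mp inferInstance

/-- **the Gauss ring of the model.** -/
def s27j_OW (hW : s27r_WProps W) (hsc : s27r_SCUnit W A) : ValuationSubring F :=
  s27j_O (s27j_gd hW hsc)

/-- **the reduction of the Gauss ring of the model.** -/
def s27j_redW (hW : s27r_WProps W) (hsc : s27r_SCUnit W A) :
    ↥(s27j_OW hW hsc) →+* s27r_Fb W A :=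
  s27j_red (s27j_gd hW hsc)

theorem s27j_mem_OW (hW : s27r_WProps W) (hsc : s27r_SCUnit W A) (y : F) :
    y ∈ s27j_OW hW hsc ↔
      ∃ f g : ↥(s27r_RA W A), g ∉ s27r_mRA W A ∧ y * (g : F) = (f : F) := Iff.rfl

/-- the class of an element of the model in `Fb`. -/
def s27j_clW (W : s27r_WD K F x) (A : ValuationSubring K) : ↥(s27r_RA W A) →+* s27r_Fb W A :=
  s27j_cl (s27r_mRA W A)

theorem s27j_clW_eq (f : ↥(s27r_RA W A)) :
    s27j_clW W A f = algebraMap (s27r_Rbar W A) (s27r_Fb W A) (s27r_mk W A f) := rfl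

theorem s27j_redW_eq (hW : s27r_WProps W) (hsc : s27r_SCUnit W A) (y : ↥(s27j_OW hW hsc))
    (f g : ↥(s27r_RA W A)) (hg : g ∉ s27r_mRA W A) (hy : (y : F) * (g : F) = (f : F)) :
    s27j_redW hW hsc y = s27j_clW W A f / s27j_clW W A g :=
  s27j_red_eq (s27j_gd hW hsc) y f g hg hy

theorem s27j_coe_mem_OW (hW : s27r_WProps W) (hsc : s27r_SCUnit W A) (f : ↥(s27r_RA W A)) :
    (f : F) ∈ s27j_OW hW hsc :=
  s27j_coe_mem_O (s27j_gd hW hsc) f

theorem s27j_redW_coe (hW : s27r_WProps W) (hsc : s27r_SCUnit W A) (f : ↥(s27r_RA W A)) :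
    s27j_redW hW hsc ⟨(f : F), s27j_coe_mem_OW hW hsc f⟩ = s27j_clW W A f :=
  s27j_red_coe (s27j_gd hW hsc) f

variable [IsAlgClosed K] [IsDedekindDomain (s27r_Rbar W A)]

/-- **conservation of number** for the reduction data of the model (the field `cons` of
`s19_RD`). -/
def s27j_Cons (hW : s27r_WProps W) (hsc : s27r_SCUnit W A)
    (Pinf : Place (ResidueField ↥A) (s27r_Fb W A)) : Prop :=
  ∀ (y : F) (hy : y ∈ s27j_OW hW hsc), s27j_redW hW hsc ⟨y, hy⟩ ≠ 0 →
    ∀ Dv : Divisor K F, (∀ P, Dv P = P.ord y) →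
      ∀ Q, Finsupp.mapDomain (s27j_r hW hsc Pinf) Dv Q = Q.ord (s27j_redW hW hsc ⟨y, hy⟩)

end Fermat.Agent.Lib.S27
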