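/-
Programme Z (S27), reduction half, brick [GR-D]/[SC] (helper8): Gauss-orthonormal bases for the
Gauss ring of the model (the field `sc` of `s19_Curve`).
-/
import Fermat.Agent.Lib.S27.JDefs

set_option autoImplicit false
set_option linter.unusedSectionVars false
set_option linter.unusedVariables false

noncomputable section

namespace Fermat.Agent.Lib.S27

open AlgebraicCurve Fermat.Agent.Lib.FF Fermat.Agent.Lib.S44 Fermat.Agent.Lib.S19
  Polynomial IsLocalRing

variable {K F : Type} [Field K] [Field F] [Algebra K F] [CharZero K] {x : F}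
  [FFGen K x] {W : s27r_WD K F x} {A : ValuationSubring K} [IsDomain (s27r_Rbar W A)]

/-- the monomials `x^m w_l`, `m ≤ M`. -/
def s27e_mono (W : s27r_WD K F x) (M : ℕ) (j : Fin W.n × Fin (M + 1)) : F :=
  x ^ (j.2 : ℕ) * W.w j.1

/-- the monomials in the model. -/
def s27e_monoA (W : s27r_WD K F x) (A : ValuationSubring K) (M : ℕ) (j : Fin W.n × Fin (M + 1)) :
    ↥(s27r_RA W A) :=
  ⟨x, s27r_x_mem W A⟩ ^ (j.2 : ℕ) * ⟨W.w j.1, s27r_w_mem W A j.1⟩

theorem s27e_monoA_coe (M : ℕ) (j : Fin W.n × Fin (M + 1)) :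
    ((s27e_monoA W A M j : ↥(s27r_RA W A)) : F) = s27e_mono W M j := by
  unfold s27e_monoA s27e_mono
  rw [Subring.coe_mul, Subring.coe_pow]

/-- a polynomial of degree `≤ M` evaluated at `x` times `w_l` is in the span of the monomials. -/
theorem s27e_aeval_mul_w_mem_span (M : ℕ) (p : K[X]) (hp : p.natDegree ≤ M) (l : Fin W.n) :
    aeval x p * W.w l ∈ Submodule.span K (Set.range (s27e_mono W M)) := by
  rw [aeval_eq_sum_range, Finset.sum_mul]
  refine Submodule.sum_mem _ fun m hm => ?_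
  rw [smul_mul_assoc]
  refine Submodule.smul_mem _ _ (Submodule.subset_span ?_)
  have hm' : m < M + 1 := by
    have := Finset.mem_range.mp hm
    omega
  exact ⟨(l, ⟨m, hm'⟩), rfl⟩

/-- the elements of the model with coefficients of degree `≤ M` are in the span of the
monomials. -/
theorem s27e_Psi_mem_span (M : ℕ) (a : Fin W.n → (↥A)[X]) (ha : ∀ l, (a l).natDegree ≤ M) :
    s27r_Psi W A a ∈ Submodule.span K (Set.range (s27e_mono W M)) := by
  unfold s27r_Psi s27r_Phi
  refine Submodule.sum_mem _ fun l _ => ?_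
  exact s27e_aeval_mul_w_mem_span M _ ((natDegree_map_le).trans (ha l)) l

/-- the class of a monomial in the special fibre. -/
theorem s27e_mk_monoA (M : ℕ) (j : Fin W.n × Fin (M + 1)) :
    s27r_mk W A (s27e_monoA W A M j) = s27r_xb W A ^ (j.2 : ℕ) * s27r_wb W A j.1 := by
  unfold s27e_monoA s27r_xb s27r_wb
  rw [map_mul, map_pow]

/-- the coefficient family attached to a family of constants indexed by the monomials. -/
def s27e_polyOf (W : s27r_WD K F x) (A : ValuationSubring K) (M : ℕ)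
    (g : Fin W.n × Fin (M + 1) → ResidueField ↥A) : Fin W.n → (ResidueField ↥A)[X] :=
  fun l => ∑ m : Fin (M + 1), C (g (l, m)) * X ^ (m : ℕ)

theorem s27e_polyOf_coeff (M : ℕ) (g : Fin W.n × Fin (M + 1) → ResidueField ↥A) (l : Fin W.n)
    (m₀ : Fin (M + 1)) : (s27e_polyOf W A M g l).coeff (m₀ : ℕ) = g (l, m₀) := by
  unfold s27e_polyOf
  rw [finsetSum_coeff, Finset.sum_eq_single m₀]
  · rw [coeff_C_mul, coeff_X_pow, if_pos rfl, mul_one]
  · intro m _ hm
    rw [coeff_C_mul, coeff_X_pow, if_neg, mul_zero]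
    exact fun h => hm (Fin.ext h.symm)
  · intro h
    exact absurd (Finset.mem_univ m₀) h

theorem s27e_Phib_polyOf (M : ℕ) (g : Fin W.n × Fin (M + 1) → ResidueField ↥A) :
    s27r_Phib W A (s27e_polyOf W A M g) =
      ∑ j, algebraMap (ResidueField ↥A) (s27r_Rbar W A) (g j) *
        (s27r_xb W A ^ (j.2 : ℕ) * s27r_wb W A j.1) := by
  unfold s27r_Phib s27e_polyOf
  rw [Fintype.sum_prod_type]
  refine Finset.sum_congr rfl fun l _ => ?_
  rw [map_sum, Finset.sum_mul]
  refine Finset.sum_congr rfl fun m _ => ?_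
  rw [map_mul, aeval_C, map_pow, aeval_X, mul_assoc]

/-- **the reductions of the monomials are linearly independent over the residue field.** -/
theorem s27e_mono_indep (hW : s27r_WProps W) (hsc : s27r_SCUnit W A) (M : ℕ)
    (g : Fin W.n × Fin (M + 1) → ResidueField ↥A)
    (h : ∑ j, algebraMap (ResidueField ↥A) (s27r_Fb W A) (g j) *
      s27j_clW W A (s27e_monoA W A M j) = 0) : ∀ j, g j = 0 := by
  have h1 : algebraMap (s27r_Rbar W A) (s27r_Fb W A) (s27r_Phib W A (s27e_polyOf W A M g)) = 0 := by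
    rw [s27e_Phib_polyOf, map_sum, ← h]
    refine Finset.sum_congr rfl fun j _ => ?_
    rw [map_mul, ← IsScalarTower.algebraMap_apply, s27j_clW_eq, s27e_mk_monoA]
  have h2 : s27r_Phib W A (s27e_polyOf W A M g) = 0 :=
    (map_eq_zero_iff _ (IsFractionRing.injective (s27r_Rbar W A) (s27r_Fb W A))).mp h1
  have h3 := (s27r_Phib_eq_zero_iff hW hsc _).mp h2
  rintro ⟨l, m₀⟩
  rw [← s27e_polyOf_coeff M g l m₀, congrFun h3 l]
  rfl

/-- every element of the model is in the span of the monomials of bounded degree. -/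
theorem s27e_RA_mem_span (hsc : s27r_SCUnit W A) (f : ↥(s27r_RA W A)) :
    ∃ M : ℕ, ∀ M' : ℕ, M ≤ M' → (f : F) ∈ Submodule.span K (Set.range (s27e_mono W M')) := by
  obtain ⟨a, ha⟩ := (s27r_mem_RA_iff hsc).mp f.2
  refine ⟨Finset.univ.sup fun l => (a l).natDegree, fun M' hM' => ?_⟩
  rw [← ha]
  refine s27e_Psi_mem_span M' a fun l => le_trans ?_ hM'
  exact Finset.le_sup (f := fun l => (a l).natDegree) (Finset.mem_univ l)

/-- **a common Gauss-unit denominator**: finitely many functions can be written with one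
denominator in `R_A ∖ 𝔪R_A` and numerators in the span of finitely many monomials. -/
theorem s27e_common_den (hW : s27r_WProps W) (hsc : s27r_SCUnit W A) (n : ℕ) (b : Fin n → F) :
    ∃ g' : ↥(s27r_RA W A), g' ∉ s27r_mRA W A ∧ ∃ M : ℕ, ∀ i,
      b i * (g' : F) ∈ Submodule.span K (Set.range (s27e_mono W M)) := by
  classical
  have hGD := s27j_gd hW hsc
  choose f g hg0 hfg using fun i => hGD.frac (b i)
  have hG0 : ((∏ i, g i : ↥(s27r_RA W A)) : F) ≠ 0 := by
    have h1 : ((∏ i, g i : ↥(s27r_RA W A)) : F) = ∏ i, (g i : F) :=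
      map_prod (s27r_RA W A).subtype g Finset.univ
    rw [h1]
    exact Finset.prod_ne_zero_iff.mpr fun i _ => hg0 i
  obtain ⟨c, hc0, hm, hnot⟩ := hGD.scale (∏ i, g i) hG0
  refine ⟨⟨_, hm⟩, hnot, ?_⟩
  -- the numerators
  set β : Fin n → ↥(s27r_RA W A) := fun i => f i * ∏ j ∈ Finset.univ.erase i, g j with hβ
  have hbG : ∀ i, b i * ((∏ i, g i : ↥(s27r_RA W A)) : F) = (β i : F) := by
    intro i
    rw [← Finset.mul_prod_erase Finset.univ g (Finset.mem_univ i), hβ]
    simp only
    rw [Subring.coe_mul, Subring.coe_mul, ← hfg i]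
    ring
  choose M hM using fun i => s27e_RA_mem_span hsc (β i)
  refine ⟨Finset.univ.sup M, fun i => ?_⟩
  have h1 : b i * (algebraMap K F c * ((∏ i, g i : ↥(s27r_RA W A)) : F)) = c • (β i : F) := by
    rw [Algebra.smul_def, ← hbG i]
    ring
  show b i * (algebraMap K F c * ((∏ i, g i : ↥(s27r_RA W A)) : F)) ∈ _
  rw [h1]
  exact Submodule.smul_mem _ _
    (hM i _ (Finset.le_sup (f := M) (Finset.mem_univ i)))

/-- integral constants are Gauss-integral and reduce to constants. -/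
theorem s27e_hconst (hW : s27r_WProps W) (hsc : s27r_SCUnit W A) (a : ↥A) :
    ∃ h : algebraMap K F (a : K) ∈ s27j_OW hW hsc,
      s27j_redW hW hsc ⟨_, h⟩ =
        algebraMap (ResidueField ↥A) (s27r_Fb W A) (residue ↥A a) := by
  refine ⟨s27j_coe_mem_OW hW hsc (s27r_constA W A a), ?_⟩
  have h1 := s27j_redW_coe hW hsc (s27r_constA W A a)
  rw [s27j_clW_eq, ← s27r_algebraMap_residue, ← IsScalarTower.algebraMap_apply] at h1
  exact h1

/-- **[SC]: Gauss-orthonormal bases** (the field `sc` of `s19_Curve` for the Gauss ring of the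
model). -/
theorem s27e_sc (hW : s27r_WProps W) (hsc : s27r_SCUnit W A) :
    ∀ (n : ℕ) (b : Fin n → F), LinearIndependent K b →
      ∃ b' : Fin n → F, Submodule.span K (Set.range b') = Submodule.span K (Set.range b) ∧
        ∃ hb' : ∀ i, b' i ∈ s27j_OW hW hsc,
          LinearIndependent (ResidueField ↥A) fun i => s27j_redW hW hsc ⟨b' i, hb' i⟩ := by
  classical
  intro n b hb
  obtain ⟨g', hg', M, hM⟩ := s27e_common_den hW hsc n b
  have hg'0 : (g' : F) ≠ 0 := s27j_coe_ne_zero_of_notMem hg'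
  -- the numerators
  set β : Fin n → F := fun i => b i * (g' : F) with hβ
  have hβind : LinearIndependent K β := by
    have hinj : Function.Injective (LinearMap.mulRight K (g' : F)) := by
      intro y z hyz
      exact mul_right_cancel₀ hg'0 hyz
    exact hb.map' (LinearMap.mulRight K (g' : F)) (LinearMap.ker_eq_bot.mpr hinj)
  -- the monomials are in the Gauss ring
  have he : ∀ j, s27e_mono W M j ∈ s27j_OW hW hsc := by
    intro j
    rw [← s27e_monoA_coe (A := A)]
    exact s27j_coe_mem_OW hW hsc _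
  have hred_e : ∀ j, s27j_redW hW hsc ⟨s27e_mono W M j, he j⟩ =
      s27j_clW W A (s27e_monoA W A M j) := by
    intro j
    rw [← s27j_redW_coe hW hsc (s27e_monoA W A M j)]
    congr 1
  obtain ⟨β', hspan, hβ'O, hβ'ind⟩ := s19s_sc_abs A (s27j_OW hW hsc) (residue ↥A)
    (s27j_redW hW hsc) (algebraMap (ResidueField ↥A) (s27r_Fb W A)) (s27e_hconst hW hsc)
    (s27e_mono W M) he
    (by
      intro g hg
      apply s27e_mono_indep hW hsc M g
      rw [← hg]
      exact Finset.sum_congr rfl fun j _ => by rw [hred_e])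
    n β hβind hM
  -- divide by the denominator
  have hg'O : (g' : F) ∈ s27j_OW hW hsc := s27j_coe_mem_OW hW hsc g'
  have hredg' : s27j_redW hW hsc ⟨(g' : F), hg'O⟩ ≠ 0 := by
    rw [s27j_redW_coe hW hsc g']
    exact fun h0 => hg' ((s27j_cl_eq_zero_iff g').mp h0)
  have hinvO : ((g' : F))⁻¹ ∈ s27j_OW hW hsc :=
    s27j_inv_mem (s27j_gd hW hsc) ⟨(g' : F), hg'O⟩ hredg'
  have hρ : s27j_redW hW hsc ⟨((g' : F))⁻¹, hinvO⟩ ≠ 0 := by
    intro h0
    have h1 : (⟨((g' : F))⁻¹, hinvO⟩ : ↥(s27j_OW hW hsc)) * ⟨(g' : F), hg'O⟩ = 1 :=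
      Subtype.ext (inv_mul_cancel₀ hg'0)
    have h2 := congrArg (s27j_redW hW hsc) h1
    rw [map_mul, h0, zero_mul, map_one] at h2
    exact zero_ne_one h2
  refine ⟨fun i => β' i * ((g' : F))⁻¹, ?_, fun i => (s27j_OW hW hsc).mul_mem _ _ (hβ'O i) hinvO, ?_⟩
  · have h1 : (fun i => β' i * ((g' : F))⁻¹) = LinearMap.mulRight K ((g' : F))⁻¹ ∘ β' := rfl
    have h2 : b = LinearMap.mulRight K ((g' : F))⁻¹ ∘ β := by
      funext i
      simp only [Function.comp_apply, LinearMap.mulRight_apply, hβ]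
      rw [mul_assoc, mul_inv_cancel₀ hg'0, mul_one]
    rw [h1, Set.range_comp, ← Submodule.map_span, hspan, Submodule.map_span, ← Set.range_comp,
      ← h2]
  · rw [Fintype.linearIndependent_iff]
    intro c hc
    apply hβ'ind c
    have h3 : ∀ i, s27j_redW hW hsc
        ⟨β' i * ((g' : F))⁻¹, (s27j_OW hW hsc).mul_mem _ _ (hβ'O i) hinvO⟩ =
        s27j_redW hW hsc ⟨β' i, hβ'O i⟩ * s27j_redW hW hsc ⟨((g' : F))⁻¹, hinvO⟩ := by
      intro i
      rw [← map_mul]
      rfl
    have h4 : (∑ i, algebraMap (ResidueField ↥A) (s27r_Fb W A) (c i) *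
        s27j_redW hW hsc ⟨β' i, hβ'O i⟩) * s27j_redW hW hsc ⟨((g' : F))⁻¹, hinvO⟩ = 0 := by
      rw [← hc, Finset.sum_mul]
      refine Finset.sum_congr rfl fun i _ => ?_
      rw [h3, Algebra.smul_def, mul_assoc]
    exact (mul_eq_zero.mp h4).resolve_right hρ

end Fermat.Agent.Lib.S27
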