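/-
Programme Z (S27), reduction half, brick [GR-C6] (helper7, prefix `s27g_`): THE WEIGHTED DEGREE
`δ̄` ON THE SPECIAL FIBRE AND ITS VALUATION.

For Weierstrass data `W` and a valuation ring `A ⊆ K` at which the structure constants are units,
`s27r_Phib W A : (Fin n → k[X]) → R̄` is bijective (`RBasis`).  Here:

* `s27g_deltab W b = max { n · deg (b i) + h i | b i ≠ 0 }` (`0` for `b = 0`);
  it is additive for the product `s27r_starb` (`s27g_deltab_starb`), ultrametric
  (`s27g_deltab_add_le`), `δ̄ (1) = 0`;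
* `s27g_coefb hsc y` : the coefficients of `y ∈ R̄`;
* `s27g_v0 hW hsc : Valuation R̄ ℤᵐ⁰`, `v₀ (Phib b) = exp (δ̄ b)` for `b ≠ 0`.
-/
import Fermat.Agent.Lib.S27.RDomain

set_option autoImplicit false
set_option linter.unusedSectionVars false
set_option linter.unusedVariables false

noncomputable section

namespace Fermat.Agent.Lib.S27

open AlgebraicCurve Fermat.Agent.Lib.FF Fermat.Agent.Lib.S44 Polynomial IsLocalRing WithZero

variable {K F : Type} [Field K] [Field F] [Algebra K F] {x : F}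

section Delta

variable (W : s27r_WD K F x) {R : Type} [Semiring R]

/-- the weighted degree `δ̄`. -/
def s27g_deltab (b : Fin W.n → R[X]) : ℕ := by
  classical
  exact Finset.univ.sup fun i => if b i = 0 then 0 else s27r_wt W b i

theorem s27g_wt_le_deltab (b : Fin W.n → R[X]) {i : Fin W.n} (hi : b i ≠ 0) :
    s27r_wt W b i ≤ s27g_deltab W b := by
  classical
  unfold s27g_deltab
  have h := Finset.le_sup (f := fun i => if b i = 0 then 0 else s27r_wt W b i) (Finset.mem_univ i)
  rw [if_neg hi] at h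
  exact h

theorem s27g_deltab_le (b : Fin W.n → R[X]) (m : ℕ) (h : ∀ i, b i ≠ 0 → s27r_wt W b i ≤ m) :
    s27g_deltab W b ≤ m := by
  classical
  unfold s27g_deltab
  refine Finset.sup_le fun i _ => ?_
  by_cases hi : b i = 0
  · rw [if_pos hi]; exact Nat.zero_le _
  · rw [if_neg hi]; exact h i hi

theorem s27g_deltab_zero : s27g_deltab W (0 : Fin W.n → R[X]) = 0 :=
  Nat.le_zero.mp (s27g_deltab_le W 0 0 fun i hi => absurd rfl hi)

theorem s27g_deltab_eq_of_top {b : Fin W.n → R[X]} {i₁ : Fin W.n} (hi₁ : b i₁ ≠ 0)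
    (hmax : ∀ i, b i ≠ 0 → s27r_wt W b i ≤ s27r_wt W b i₁) :
    s27g_deltab W b = s27r_wt W b i₁ :=
  le_antisymm (s27g_deltab_le W b _ hmax) (s27g_wt_le_deltab W b hi₁)

theorem s27g_exists_deltab_eq {b : Fin W.n → R[X]} (hb : b ≠ 0) :
    ∃ i₁, b i₁ ≠ 0 ∧ s27r_wt W b i₁ = s27g_deltab W b ∧
      ∀ i, b i ≠ 0 → s27r_wt W b i ≤ s27r_wt W b i₁ := by
  obtain ⟨i₁, hi₁, hmax⟩ := s27r_exists_top W hb
  exact ⟨i₁, hi₁, (s27g_deltab_eq_of_top W hi₁ hmax).symm, hmax⟩

/-- `δ̄` is ultrametric. -/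
theorem s27g_deltab_add_le {R : Type} [Ring R] (b b' : Fin W.n → R[X]) :
    s27g_deltab W (b + b') ≤ max (s27g_deltab W b) (s27g_deltab W b') := by
  refine s27g_deltab_le W _ _ fun i hi => ?_
  by_cases h1 : b i = 0
  · have h2 : b' i ≠ 0 := by
      intro h2; apply hi; rw [Pi.add_apply, h1, h2, add_zero]
    have : s27r_wt W (b + b') i = s27r_wt W b' i := by
      unfold s27r_wt; rw [Pi.add_apply, h1, zero_add]
    rw [this]
    exact le_trans (s27g_wt_le_deltab W b' h2) (le_max_right _ _)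
  by_cases h2 : b' i = 0
  · have : s27r_wt W (b + b') i = s27r_wt W b i := by
      unfold s27r_wt; rw [Pi.add_apply, h2, add_zero]
    rw [this]
    exact le_trans (s27g_wt_le_deltab W b h1) (le_max_left _ _)
  have h3 := s27g_wt_le_deltab W b h1
  have h4 := s27g_wt_le_deltab W b' h2
  have h5 : (b i + b' i).natDegree ≤ max (b i).natDegree (b' i).natDegree :=
    natDegree_add_le _ _
  unfold s27r_wt at h3 h4 ⊢
  rw [Pi.add_apply]
  rcases le_total (b i).natDegree (b' i).natDegree with h6 | h6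
  · rw [max_eq_right h6] at h5
    refine le_trans ?_ (le_trans h4 (le_max_right _ _))
    exact Nat.add_le_add_right (Nat.mul_le_mul_left _ h5) _
  · rw [max_eq_left h6] at h5
    refine le_trans ?_ (le_trans h3 (le_max_left _ _))
    exact Nat.add_le_add_right (Nat.mul_le_mul_left _ h5) _

theorem s27g_deltab_neg {R : Type} [Ring R] (b : Fin W.n → R[X]) :
    s27g_deltab W (-b) = s27g_deltab W b := by
  have key : ∀ c : Fin W.n → R[X], s27g_deltab W (-c) ≤ s27g_deltab W c := by
    intro c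
    refine s27g_deltab_le W _ _ fun i hi => ?_
    have hi' : c i ≠ 0 := by
      intro h; apply hi; rw [Pi.neg_apply, h, neg_zero]
    have : s27r_wt W (-c) i = s27r_wt W c i := by
      unfold s27r_wt; rw [Pi.neg_apply, natDegree_neg]
    rw [this]
    exact s27g_wt_le_deltab W c hi'
  refine le_antisymm (key b) ?_
  have := key (-b)
  rwa [neg_neg] at this

/-- the pole order of `w 0 = 1` is `0`. -/
theorem s27g_h_zero : W.h ⟨0, W.hn⟩ = 0 := by
  have h1 := W.ord_w ⟨0, W.hn⟩
  rw [W.w_zero, Place.ord_one] at h1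
  omega

theorem s27g_deltab_single (i : Fin W.n) {p : R[X]} (hp : p ≠ 0) :
    s27g_deltab W (Pi.single i p) = W.n * p.natDegree + W.h i := by
  classical
  have h1 : (Pi.single i p : Fin W.n → R[X]) i ≠ 0 := by rw [Pi.single_eq_same]; exact hp
  rw [s27g_deltab_eq_of_top W h1]
  · unfold s27r_wt; rw [Pi.single_eq_same]
  · intro j hj
    by_cases hji : j = i
    · rw [hji]
    · exact absurd (Pi.single_eq_of_ne (M := fun _ => R[X]) hji p) hj

theorem s27g_deltab_one [Nontrivial R] :
    s27g_deltab W (Pi.single ⟨0, W.hn⟩ (1 : R[X])) = 0 := by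
  rw [s27g_deltab_single W _ one_ne_zero, natDegree_one, mul_zero, zero_add, s27g_h_zero]

end Delta

section Val

variable {W : s27r_WD K F x} {A : ValuationSubring K}

/-- `δ̄` is additive for the product of the special fibre. -/
theorem s27g_deltab_starb (hW : s27r_WProps W) (hsc : s27r_SCUnit W A)
    {b b' : Fin W.n → (ResidueField ↥A)[X]} (hb : b ≠ 0) (hb' : b' ≠ 0) :
    s27g_deltab W (s27r_starb hsc b b') = s27g_deltab W b + s27g_deltab W b' := by
  obtain ⟨i₁, hi₁, e₁, hmax⟩ := s27g_exists_deltab_eq W hb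
  obtain ⟨j₁, hj₁, e₂, hmax'⟩ := s27g_exists_deltab_eq W hb'
  obtain ⟨⟨k₀, hk₀, hk₀'⟩, hle⟩ := s27r_starb_top hW hsc hi₁ hj₁ hmax hmax'
  rw [← e₁, ← e₂, ← hk₀']
  exact s27g_deltab_eq_of_top W hk₀ fun k hk => by rw [hk₀']; exact hle k hk

/-- the coefficients of an element of the special fibre. -/
def s27g_coefb (hsc : s27r_SCUnit W A) (y : s27r_Rbar W A) : Fin W.n → (ResidueField ↥A)[X] :=
  Classical.choose (s27r_Phib_surjective hsc y)

theorem s27g_Phib_coefb (hsc : s27r_SCUnit W A) (y : s27r_Rbar W A) :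
    s27r_Phib W A (s27g_coefb hsc y) = y :=
  Classical.choose_spec (s27r_Phib_surjective hsc y)

theorem s27g_coefb_Phib (hW : s27r_WProps W) (hsc : s27r_SCUnit W A)
    (b : Fin W.n → (ResidueField ↥A)[X]) : s27g_coefb hsc (s27r_Phib W A b) = b :=
  s27r_Phib_injective hW hsc (s27g_Phib_coefb hsc _)

theorem s27g_coefb_zero (hW : s27r_WProps W) (hsc : s27r_SCUnit W A) :
    s27g_coefb hsc (0 : s27r_Rbar W A) = 0 := by
  have := s27g_coefb_Phib hW hsc 0
  rwa [s27r_Phib_zero] at this

theorem s27g_coefb_eq_zero_iff (hW : s27r_WProps W) (hsc : s27r_SCUnit W A)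
    (y : s27r_Rbar W A) : s27g_coefb hsc y = 0 ↔ y = 0 := by
  constructor
  · intro h
    rw [← s27g_Phib_coefb hsc y, h, s27r_Phib_zero]
  · rintro rfl
    exact s27g_coefb_zero hW hsc

theorem s27g_coefb_one (hW : s27r_WProps W) (hsc : s27r_SCUnit W A) :
    s27g_coefb hsc (1 : s27r_Rbar W A) = Pi.single ⟨0, W.hn⟩ 1 := by
  have := s27g_coefb_Phib hW hsc (Pi.single ⟨0, W.hn⟩ 1)
  rwa [s27r_Phib_one] at this

theorem s27g_coefb_add (hW : s27r_WProps W) (hsc : s27r_SCUnit W A) (y y' : s27r_Rbar W A) :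
    s27g_coefb hsc (y + y') = s27g_coefb hsc y + s27g_coefb hsc y' := by
  apply s27r_Phib_injective hW hsc
  rw [s27g_Phib_coefb, s27r_Phib_add, s27g_Phib_coefb, s27g_Phib_coefb]

theorem s27g_coefb_mul (hW : s27r_WProps W) (hsc : s27r_SCUnit W A) (y y' : s27r_Rbar W A) :
    s27g_coefb hsc (y * y') = s27r_starb hsc (s27g_coefb hsc y) (s27g_coefb hsc y') := by
  apply s27r_Phib_injective hW hsc
  rw [s27g_Phib_coefb, ← s27r_Phib_mul, s27g_Phib_coefb, s27g_Phib_coefb]

/-- the weighted degree of an element of the special fibre. -/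
def s27g_deg (hsc : s27r_SCUnit W A) (y : s27r_Rbar W A) : ℕ := s27g_deltab W (s27g_coefb hsc y)

theorem s27g_deg_Phib (hW : s27r_WProps W) (hsc : s27r_SCUnit W A)
    (b : Fin W.n → (ResidueField ↥A)[X]) : s27g_deg hsc (s27r_Phib W A b) = s27g_deltab W b := by
  unfold s27g_deg; rw [s27g_coefb_Phib hW hsc]

/-- **the valuation at infinity on the coordinate ring of the special fibre.** -/
def s27g_v0 (hW : s27r_WProps W) (hsc : s27r_SCUnit W A) : Valuation (s27r_Rbar W A) ℤᵐ⁰ := by
  classical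
  exact
  { toFun := fun y => if y = 0 then 0 else exp ((s27g_deg hsc y : ℕ) : ℤ)
    map_zero' := if_pos rfl
    map_one' := by
      have := s27r_isDomain_Rbar hW hsc
      rw [if_neg one_ne_zero]
      unfold s27g_deg
      rw [s27g_coefb_one hW hsc, s27g_deltab_one]
      rfl
    map_mul' := by
      intro y y'
      have := s27r_isDomain_Rbar hW hsc
      by_cases hy : y = 0
      · rw [hy, zero_mul, if_pos rfl, zero_mul]
      by_cases hy' : y' = 0
      · rw [hy', mul_zero, if_pos rfl, mul_zero]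
      rw [if_neg hy, if_neg hy', if_neg (mul_ne_zero hy hy'), ← exp_add]
      unfold s27g_deg
      rw [s27g_coefb_mul hW hsc, s27g_deltab_starb hW hsc
        (fun h => hy ((s27g_coefb_eq_zero_iff hW hsc y).mp h))
        (fun h => hy' ((s27g_coefb_eq_zero_iff hW hsc y').mp h))]
      push_cast
      rfl
    map_add_le_max' := by
      intro y y'
      by_cases hy : y = 0
      · rw [hy, zero_add]; exact le_max_right _ _
      by_cases hy' : y' = 0
      · rw [hy', add_zero]; exact le_max_left _ _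
      by_cases hyy : y + y' = 0
      · rw [if_pos hyy]; exact zero_le
      rw [if_neg hy, if_neg hy', if_neg hyy]
      have h1 : s27g_deg hsc (y + y') ≤ max (s27g_deg hsc y) (s27g_deg hsc y') := by
        unfold s27g_deg
        rw [s27g_coefb_add hW hsc]
        exact s27g_deltab_add_le W _ _
      rcases le_total (s27g_deg hsc y) (s27g_deg hsc y') with h2 | h2
      · rw [max_eq_right h2] at h1
        refine le_trans ?_ (le_max_right _ _)
        rw [exp_le_exp]; exact_mod_cast h1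
      · rw [max_eq_left h2] at h1
        refine le_trans ?_ (le_max_left _ _)
        rw [exp_le_exp]; exact_mod_cast h1 }

theorem s27g_v0_apply (hW : s27r_WProps W) (hsc : s27r_SCUnit W A) {y : s27r_Rbar W A}
    (hy : y ≠ 0) : s27g_v0 hW hsc y = exp ((s27g_deg hsc y : ℕ) : ℤ) := by
  classical
  show (if y = 0 then (0 : ℤᵐ⁰) else exp ((s27g_deg hsc y : ℕ) : ℤ)) = _
  rw [if_neg hy]

theorem s27g_v0_Phib (hW : s27r_WProps W) (hsc : s27r_SCUnit W A)
    {b : Fin W.n → (ResidueField ↥A)[X]} (hb : b ≠ 0) :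
    s27g_v0 hW hsc (s27r_Phib W A b) = exp ((s27g_deltab W b : ℕ) : ℤ) := by
  rw [s27g_v0_apply hW hsc (fun h => hb ((s27r_Phib_eq_zero_iff hW hsc b).mp h)),
    s27g_deg_Phib hW hsc]

theorem s27g_v0_eq_zero_iff (hW : s27r_WProps W) (hsc : s27r_SCUnit W A) (y : s27r_Rbar W A) :
    s27g_v0 hW hsc y = 0 ↔ y = 0 := by
  constructor
  · intro h
    by_contra hy
    rw [s27g_v0_apply hW hsc hy] at h
    exact exp_ne_zero h
  · rintro rfl
    exact map_zero _

theorem s27g_one_le_v0 (hW : s27r_WProps W) (hsc : s27r_SCUnit W A) {y : s27r_Rbar W A}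
    (hy : y ≠ 0) : 1 ≤ s27g_v0 hW hsc y := by
  rw [s27g_v0_apply hW hsc hy, ← exp_zero, exp_le_exp]
  exact Int.natCast_nonneg _

end Val

end Fermat.Agent.Lib.S27
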