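/-
Programme Z (S27), reduction half, brick [GR-C6] (helper7, prefix `s27g_`): THE POINT AT INFINITY
OF THE SPECIAL FIBRE.

With `[IsDomain (s27r_Rbar W A)]` (provided by `s27r_isDomain_Rbar hW hsc`), `Fb = Frac R̄`:

* `s27g_vinf hW hsc : Valuation Fb ℤᵐ⁰`, the extension of `s27g_v0` (`s27g_vinf_algebraMap`);
* **`s27g_Pinf hW hsc : Place k Fb`**, its valuation ring;
* `s27g_tinf W A : Fb := w̄_{n-1} / x̄ ^ ((h_{n-1} + 1) / n)`, `v∞ (tinf) = exp (-1)`;
* **`s27g_Pinf_ord : Pinf.ord f = -(log (v∞ f))`**, `s27g_Pinf_ord_Phib : Pinf.ord (Phib b) = -δ̄ b`,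
  `s27g_Pinf_ord_tinf : Pinf.ord tinf = 1`, `s27g_Pinf_ord_xb : Pinf.ord x̄ = -n`,
  `s27g_Pinf_ord_wb : Pinf.ord w̄_i = -(h i)`.
-/
import Fermat.Agent.Lib.S27.GInf1
import Fermat.Agent.Lib.S29.BPPlace
import Fermat.Agent.Lib.FF.Squeeze

set_option autoImplicit false
set_option linter.unusedSectionVars false
set_option linter.unusedVariables false

noncomputable section

namespace Fermat.Agent.Lib.S27

open AlgebraicCurve Fermat.Agent.Lib.FF Fermat.Agent.Lib.S44 Fermat.Agent.Lib.S29 Polynomial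
  IsLocalRing WithZero

variable {K F : Type} [Field K] [Field F] [Algebra K F] {x : F}

section Basic

variable (W : s27r_WD K F x) (A : ValuationSubring K)

theorem s27g_wb_zero : s27r_wb W A ⟨0, W.hn⟩ = 1 := by
  unfold s27r_wb
  have : (⟨W.w ⟨0, W.hn⟩, s27r_w_mem W A ⟨0, W.hn⟩⟩ : ↥(s27r_RA W A)) = 1 :=
    Subtype.ext W.w_zero
  rw [this, map_one]

theorem s27g_Phib_single (i : Fin W.n) (p : (ResidueField ↥A)[X]) :
    s27r_Phib W A (Pi.single i p) = aeval (s27r_xb W A) p * s27r_wb W A i := by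
  classical
  unfold s27r_Phib
  rw [Finset.sum_eq_single i]
  · rw [Pi.single_eq_same]
  · intro j _ hj
    rw [Pi.single_eq_of_ne hj, map_zero, zero_mul]
  · intro h
    exact absurd (Finset.mem_univ _) h

theorem s27g_Phib_single_zero (p : (ResidueField ↥A)[X]) :
    s27r_Phib W A (Pi.single ⟨0, W.hn⟩ p) = aeval (s27r_xb W A) p := by
  rw [s27g_Phib_single, s27g_wb_zero, mul_one]

theorem s27g_Phib_const (c : ResidueField ↥A) :
    s27r_Phib W A (Pi.single ⟨0, W.hn⟩ (C c)) = algebraMap _ (s27r_Rbar W A) c := by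
  rw [s27g_Phib_single_zero, aeval_C]

theorem s27g_Phib_X : s27r_Phib W A (Pi.single ⟨0, W.hn⟩ X) = s27r_xb W A := by
  rw [s27g_Phib_single_zero, aeval_X]

theorem s27g_Phib_wb (i : Fin W.n) : s27r_Phib W A (Pi.single i 1) = s27r_wb W A i := by
  rw [s27g_Phib_single, map_one, one_mul]

end Basic

variable {W : s27r_WD K F x} {A : ValuationSubring K}

theorem s27g_v0_const (hW : s27r_WProps W) (hsc : s27r_SCUnit W A) {c : ResidueField ↥A}
    (hc : c ≠ 0) : s27g_v0 hW hsc (algebraMap _ (s27r_Rbar W A) c) = 1 := by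
  classical
  rw [← s27g_Phib_const, s27g_v0_Phib hW hsc, s27g_deltab_single W _ (C_ne_zero.mpr hc),
    natDegree_C, mul_zero, zero_add, s27g_h_zero]
  · rfl
  · intro h
    have := congrFun h ⟨0, W.hn⟩
    rw [Pi.single_eq_same] at this
    exact C_ne_zero.mpr hc this

theorem s27g_v0_xb (hW : s27r_WProps W) (hsc : s27r_SCUnit W A) :
    s27g_v0 hW hsc (s27r_xb W A) = exp (W.n : ℤ) := by
  classical
  rw [← s27g_Phib_X, s27g_v0_Phib hW hsc, s27g_deltab_single W _ X_ne_zero,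
    natDegree_X, mul_one, s27g_h_zero, add_zero]
  intro h
  have := congrFun h ⟨0, W.hn⟩
  rw [Pi.single_eq_same] at this
  exact X_ne_zero this

theorem s27g_v0_wb (hW : s27r_WProps W) (hsc : s27r_SCUnit W A) (i : Fin W.n) :
    s27g_v0 hW hsc (s27r_wb W A i) = exp (W.h i : ℤ) := by
  classical
  rw [← s27g_Phib_wb, s27g_v0_Phib hW hsc, s27g_deltab_single W _ one_ne_zero,
    natDegree_one, mul_zero, zero_add]
  intro h
  have := congrFun h i
  rw [Pi.single_eq_same] at this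
  exact one_ne_zero this

variable [IsDomain (s27r_Rbar W A)]

/-- **the valuation at infinity of the function field of the special fibre.** -/
def s27g_vinf (hW : s27r_WProps W) (hsc : s27r_SCUnit W A) : Valuation (s27r_Fb W A) ℤᵐ⁰ :=
  (s27g_v0 hW hsc).extendToLocalization (S := nonZeroDivisors (s27r_Rbar W A)) (by
    intro s hs
    rw [Ideal.mem_primeCompl_iff, Valuation.mem_supp_iff, s27g_v0_eq_zero_iff]
    exact nonZeroDivisors.ne_zero hs) (s27r_Fb W A)

theorem s27g_vinf_algebraMap (hW : s27r_WProps W) (hsc : s27r_SCUnit W A) (y : s27r_Rbar W A) :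
    s27g_vinf hW hsc (algebraMap (s27r_Rbar W A) (s27r_Fb W A) y) = s27g_v0 hW hsc y :=
  Valuation.extendToLocalization_apply_map_apply _ _ _ y

theorem s27g_vinf_Phib (hW : s27r_WProps W) (hsc : s27r_SCUnit W A)
    {b : Fin W.n → (ResidueField ↥A)[X]} (hb : b ≠ 0) :
    s27g_vinf hW hsc (algebraMap (s27r_Rbar W A) (s27r_Fb W A) (s27r_Phib W A b)) =
      exp ((s27g_deltab W b : ℕ) : ℤ) := by
  rw [s27g_vinf_algebraMap, s27g_v0_Phib hW hsc hb]

theorem s27g_vinf_const (hW : s27r_WProps W) (hsc : s27r_SCUnit W A) (c : ResidueField ↥A) :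
    s27g_vinf hW hsc (algebraMap (ResidueField ↥A) (s27r_Fb W A) c) ≤ 1 := by
  rw [IsScalarTower.algebraMap_apply (ResidueField ↥A) (s27r_Rbar W A) (s27r_Fb W A),
    s27g_vinf_algebraMap]
  by_cases hc : c = 0
  · rw [hc, map_zero, map_zero]; exact zero_le
  · rw [s27g_v0_const hW hsc hc]

variable (W A) in
/-- **the uniformiser at infinity** `w̄_{n-1} / x̄ ^ ((h_{n-1} + 1) / n)`. -/
def s27g_tinf : s27r_Fb W A :=
  algebraMap (s27r_Rbar W A) (s27r_Fb W A) (s27r_wb W A ⟨W.n - 1, Nat.sub_lt W.hn Nat.one_pos⟩) /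
    algebraMap (s27r_Rbar W A) (s27r_Fb W A) (s27r_xb W A) ^
      ((W.h ⟨W.n - 1, Nat.sub_lt W.hn Nat.one_pos⟩ + 1) / W.n)

theorem s27g_vinf_tinf (hW : s27r_WProps W) (hsc : s27r_SCUnit W A) :
    s27g_vinf hW hsc (s27g_tinf W A) = exp (-1 : ℤ) := by
  unfold s27g_tinf
  rw [map_div₀, map_pow, s27g_vinf_algebraMap, s27g_vinf_algebraMap, s27g_v0_wb, s27g_v0_xb,
    ← exp_nsmul, ← exp_sub]
  congr 1
  set i : Fin W.n := ⟨W.n - 1, Nat.sub_lt W.hn Nat.one_pos⟩ with hi
  have h1 := W.h_mod i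
  have hn := W.hn
  have h2 : (W.h i + 1) % W.n = 0 := by
    rw [Nat.add_mod, h1]
    show (W.n - 1 + 1 % W.n) % W.n = 0
    rcases Nat.lt_or_ge 1 W.n with h3 | h3
    · rw [Nat.mod_eq_of_lt h3, Nat.sub_add_cancel hn, Nat.mod_self]
    · have : W.n = 1 := le_antisymm h3 hn
      rw [this]
  have h3 : W.n * ((W.h i + 1) / W.n) = W.h i + 1 := Nat.mul_div_cancel' (Nat.dvd_of_mod_eq_zero h2)
  rw [nsmul_eq_mul]
  have h4 : ((W.n : ℤ)) * (((W.h i + 1) / W.n : ℕ) : ℤ) = (W.h i : ℤ) + 1 := by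
    exact_mod_cast h3
  rw [mul_comm] at h4
  linarith

/-- **the point at infinity of the special fibre.** -/
def s27g_Pinf (hW : s27r_WProps W) (hsc : s27r_SCUnit W A) :
    Place (ResidueField ↥A) (s27r_Fb W A) where
  toValuationSubring := (s27g_vinf hW hsc).valuationSubring
  algebraMap_mem' := fun c =>
    (Valuation.mem_valuationSubring_iff _ _).mpr (s27g_vinf_const hW hsc c)
  ne_top' := by
    intro htop
    have h1 : (s27g_tinf W A)⁻¹ ∈ (s27g_vinf hW hsc).valuationSubring := by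
      rw [htop]; exact ValuationSubring.mem_top _
    rw [Valuation.mem_valuationSubring_iff, map_inv₀, s27g_vinf_tinf, ← exp_neg, neg_neg,
      ← exp_zero, exp_le_exp] at h1
    omega
  isPrincipalIdealRing' := s29bp_isPrincipalIdealRing_valuationSubring _

theorem s27g_Pinf_toValuationSubring (hW : s27r_WProps W) (hsc : s27r_SCUnit W A) :
    (s27g_Pinf hW hsc).toValuationSubring = (s27g_vinf hW hsc).valuationSubring := rfl

theorem s27g_tinf_ne_zero (hW : s27r_WProps W) (hsc : s27r_SCUnit W A) : s27g_tinf W A ≠ 0 := by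
  intro h
  have := s27g_vinf_tinf hW hsc
  rw [h, map_zero] at this
  exact exp_ne_zero this.symm

/-- **the order at infinity is the valuation `v∞`** (the value group is all of `ℤ`). -/
theorem s27g_Pinf_ord (hW : s27r_WProps W) (hsc : s27r_SCUnit W A) (f : s27r_Fb W A) :
    (s27g_Pinf hW hsc).ord f = -(log (s27g_vinf hW hsc f)) := by
  obtain ⟨m, hm, hprop⟩ := ffs_exists_proportional (s27g_vinf hW hsc) (s27g_Pinf hW hsc) rfl
  have h1 := hprop _ (s27g_tinf_ne_zero hW hsc)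
  rw [s27g_vinf_tinf, log_exp, neg_neg] at h1
  have hm1 : m = 1 := by
    have h2 : m ∣ 1 := ⟨_, h1⟩
    exact Int.eq_one_of_dvd_one hm.le h2
  by_cases hf : f = 0
  · rw [hf, Place.ord_zero, map_zero, log_zero, neg_zero]
  · rw [hprop f hf, hm1, one_mul]

theorem s27g_Pinf_ord_tinf (hW : s27r_WProps W) (hsc : s27r_SCUnit W A) :
    (s27g_Pinf hW hsc).ord (s27g_tinf W A) = 1 := by
  rw [s27g_Pinf_ord, s27g_vinf_tinf, log_exp, neg_neg]

theorem s27g_Pinf_ord_Phib (hW : s27r_WProps W) (hsc : s27r_SCUnit W A)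
    {b : Fin W.n → (ResidueField ↥A)[X]} (hb : b ≠ 0) :
    (s27g_Pinf hW hsc).ord (algebraMap (s27r_Rbar W A) (s27r_Fb W A) (s27r_Phib W A b)) =
      -((s27g_deltab W b : ℕ) : ℤ) := by
  rw [s27g_Pinf_ord, s27g_vinf_Phib hW hsc hb, log_exp]

theorem s27g_Pinf_ord_xb (hW : s27r_WProps W) (hsc : s27r_SCUnit W A) :
    (s27g_Pinf hW hsc).ord (algebraMap (s27r_Rbar W A) (s27r_Fb W A) (s27r_xb W A)) =
      -(W.n : ℤ) := by
  rw [s27g_Pinf_ord, s27g_vinf_algebraMap, s27g_v0_xb, log_exp]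

theorem s27g_Pinf_ord_wb (hW : s27r_WProps W) (hsc : s27r_SCUnit W A) (i : Fin W.n) :
    (s27g_Pinf hW hsc).ord (algebraMap (s27r_Rbar W A) (s27r_Fb W A) (s27r_wb W A i)) =
      -(W.h i : ℤ) := by
  rw [s27g_Pinf_ord, s27g_vinf_algebraMap, s27g_v0_wb, log_exp]

/-- elements of the coordinate ring have no zero at infinity. -/
theorem s27g_Pinf_ord_algebraMap_nonpos (hW : s27r_WProps W) (hsc : s27r_SCUnit W A)
    (y : s27r_Rbar W A) :
    (s27g_Pinf hW hsc).ord (algebraMap (s27r_Rbar W A) (s27r_Fb W A) y) ≤ 0 := by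
  by_cases hy : y = 0
  · rw [hy, map_zero, Place.ord_zero]
  · obtain ⟨b, rfl⟩ := s27r_Phib_surjective hsc y
    have hb : b ≠ 0 := fun h => hy (by rw [h, s27r_Phib_zero])
    rw [s27g_Pinf_ord_Phib hW hsc hb]
    omega

end Fermat.Agent.Lib.S27
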