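/-
Programme Z (S27), reduction half, brick [GR-C7](b) (helper7, prefix `s27g_`): THE POINT AT
INFINITY IS THE ONLY POLE OF `x̄`, AND EVERY OTHER PLACE OF THE SPECIAL FIBRE CONTAINS `R̄`.

Hypotheses (from [GR-C4], helper2): `k` algebraically closed, `x̄` a separating coordinate of `Fb`
of degree `W.n`.

* `s27g_ord_xb_nonneg` : `Q ≠ Pinf → 0 ≤ Q.ord x̄` (the fibre sum of the poles of `x̄` is `n`,
  and `Pinf` alone contributes `n`);
* **`s27g_algebraMap_mem_place`** : `Q ≠ Pinf → algebraMap R̄ Fb y ∈ Q.toValuationSubring`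
  (`R̄` is integral over `k[x̄]`);
* `s27g_ne_Pinf_of_le` : a place containing `R̄` is not `Pinf`.
-/
import Fermat.Agent.Lib.S27.GInf2
import Fermat.Agent.Lib.S44.RSepFF

set_option autoImplicit false
set_option linter.unusedSectionVars false
set_option linter.unusedVariables false

noncomputable section

namespace Fermat.Agent.Lib.S27

open AlgebraicCurve Fermat.Agent.Lib.FF Fermat.Agent.Lib.S44 Fermat.Agent.Lib.S29 Polynomial
  IsLocalRing WithZero IntermediateField

variable {K F : Type} [Field K] [Field F] [Algebra K F] {x : F}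
variable {W : s27r_WD K F x} {A : ValuationSubring K} [IsDomain (s27r_Rbar W A)]

local notation "xF" => algebraMap (s27r_Rbar W A) (s27r_Fb W A) (s27r_xb W A)

theorem s27g_xF_ne_zero (hW : s27r_WProps W) (hsc : s27r_SCUnit W A) :
    algebraMap (s27r_Rbar W A) (s27r_Fb W A) (s27r_xb W A) ≠ 0 := by
  intro h
  have h1 := s27g_Pinf_ord_xb hW hsc
  rw [h, Place.ord_zero] at h1
  have := W.hn
  omega

/-- the point at infinity is not a place of the coordinate ring. -/
theorem s27g_ne_Pinf_of_le (hW : s27r_WProps W) (hsc : s27r_SCUnit W A)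
    (Q : Place (ResidueField ↥A) (s27r_Fb W A))
    (hQ : algebraMap (s27r_Rbar W A) (s27r_Fb W A) (s27r_xb W A) ∈ Q.toValuationSubring) :
    Q ≠ s27g_Pinf hW hsc := by
  rintro rfl
  rw [ffs_mem_iff_ord_nonneg _ (s27g_xF_ne_zero hW hsc), s27g_Pinf_ord_xb] at hQ
  have := W.hn
  omega

section Poles

variable [IsAlgClosed (ResidueField ↥A)]
  [FFGen (ResidueField ↥A) (algebraMap (s27r_Rbar W A) (s27r_Fb W A) (s27r_xb W A))]
  [Algebra.IsSeparable
    (ResidueField ↥A)⟮algebraMap (s27r_Rbar W A) (s27r_Fb W A) (s27r_xb W A)⟯ (s27r_Fb W A)]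

/-- **the point at infinity is the only pole of `x̄`.** -/
theorem s27g_ord_xb_nonneg (hW : s27r_WProps W) (hsc : s27r_SCUnit W A)
    (hdeg : Module.finrank
      (ResidueField ↥A)⟮algebraMap (s27r_Rbar W A) (s27r_Fb W A) (s27r_xb W A)⟯ (s27r_Fb W A) = W.n)
    (Q : Place (ResidueField ↥A) (s27r_Fb W A)) (hQ : Q ≠ s27g_Pinf hW hsc) :
    0 ≤ Q.ord (algebraMap (s27r_Rbar W A) (s27r_Fb W A) (s27r_xb W A)) := by
  classical
  obtain ⟨P, hP, hsum⟩ := s44rq_fibreSum_poles (ResidueField ↥A)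
    (algebraMap (s27r_Rbar W A) (s27r_Fb W A) (s27r_xb W A))
  rw [hdeg] at hsum
  have hn := W.hn
  have hPinf : s27g_Pinf hW hsc ∈ P := (hP _).mpr (by rw [s27g_Pinf_ord_xb]; omega)
  by_contra hneg
  rw [not_le] at hneg
  have hQP : Q ∈ P.erase (s27g_Pinf hW hsc) :=
    Finset.mem_erase.mpr ⟨hQ, (hP Q).mpr hneg⟩
  have h1 := Finset.add_sum_erase P
    (fun v => v.ord (algebraMap (s27r_Rbar W A) (s27r_Fb W A) (s27r_xb W A))) hPinf
  have h2 := Finset.add_sum_erase (P.erase (s27g_Pinf hW hsc))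
    (fun v => v.ord (algebraMap (s27r_Rbar W A) (s27r_Fb W A) (s27r_xb W A))) hQP
  have h3 : ∑ v ∈ (P.erase (s27g_Pinf hW hsc)).erase Q,
      v.ord (algebraMap (s27r_Rbar W A) (s27r_Fb W A) (s27r_xb W A)) ≤ 0 := by
    refine Finset.sum_nonpos fun v hv => ?_
    have : v ∈ P := Finset.mem_of_mem_erase (Finset.mem_of_mem_erase hv)
    exact ((hP v).mp this).le
  rw [s27g_Pinf_ord_xb] at h1
  omega

/-- **every place other than the point at infinity contains the coordinate ring.** -/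
theorem s27g_algebraMap_mem_place (hW : s27r_WProps W) (hsc : s27r_SCUnit W A)
    (hdeg : Module.finrank
      (ResidueField ↥A)⟮algebraMap (s27r_Rbar W A) (s27r_Fb W A) (s27r_xb W A)⟯ (s27r_Fb W A) = W.n)
    (Q : Place (ResidueField ↥A) (s27r_Fb W A)) (hQ : Q ≠ s27g_Pinf hW hsc)
    (y : s27r_Rbar W A) :
    algebraMap (s27r_Rbar W A) (s27r_Fb W A) y ∈ Q.toValuationSubring := by
  classical
  have hx : algebraMap (s27r_Rbar W A) (s27r_Fb W A) (s27r_xb W A) ∈ Q.toValuationSubring :=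
    (ffs_mem_iff_ord_nonneg Q (s27g_xF_ne_zero hW hsc)).mpr (s27g_ord_xb_nonneg hW hsc hdeg Q hQ)
  let _ : Algebra (ResidueField ↥A)[X] (s27r_Rbar W A) :=
    (aeval (s27r_xb W A) :
      (ResidueField ↥A)[X] →ₐ[ResidueField ↥A] s27r_Rbar W A).toRingHom.toAlgebra
  have hsmul : ∀ (p : (ResidueField ↥A)[X]) (z : s27r_Rbar W A),
      p • z = aeval (s27r_xb W A) p * z := fun p z => rfl
  have hfin : Module.Finite (ResidueField ↥A)[X] (s27r_Rbar W A) := by
    refine ⟨⟨Finset.univ.image (s27r_wb W A), ?_⟩⟩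
    rw [eq_top_iff]
    intro z _
    obtain ⟨b, rfl⟩ := s27r_Phib_surjective hsc z
    unfold s27r_Phib
    refine Submodule.sum_mem _ fun i _ => ?_
    rw [← hsmul]
    refine Submodule.smul_mem _ _ (Submodule.subset_span ?_)
    rw [Finset.coe_image]
    exact ⟨i, Finset.mem_coe.mpr (Finset.mem_univ i), rfl⟩
  have hint : IsIntegral (ResidueField ↥A)[X] y := IsIntegral.of_finite _ y
  let φ : (ResidueField ↥A)[X] →+* ↥Q.toValuationSubring :=
    (aeval (⟨_, hx⟩ : ↥Q.toValuationSubring) :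
      (ResidueField ↥A)[X] →ₐ[ResidueField ↥A] ↥Q.toValuationSubring).toRingHom
  have hcomp : (algebraMap ↥Q.toValuationSubring (s27r_Fb W A)).comp φ =
      (algebraMap (s27r_Rbar W A) (s27r_Fb W A)).comp
        (algebraMap (ResidueField ↥A)[X] (s27r_Rbar W A)) := by
    apply Polynomial.ringHom_ext
    · intro c
      show ((aeval (⟨_, hx⟩ : ↥Q.toValuationSubring) (C c) : ↥Q.toValuationSubring) :
        s27r_Fb W A) = algebraMap (s27r_Rbar W A) (s27r_Fb W A) (aeval (s27r_xb W A) (C c))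
      rw [aeval_C, aeval_C, Place.coe_algebraMap,
        ← IsScalarTower.algebraMap_apply (ResidueField ↥A) (s27r_Rbar W A) (s27r_Fb W A)]
    · show ((aeval (⟨_, hx⟩ : ↥Q.toValuationSubring) X : ↥Q.toValuationSubring) :
        s27r_Fb W A) = algebraMap (s27r_Rbar W A) (s27r_Fb W A) (aeval (s27r_xb W A) X)
      rw [aeval_X, aeval_X]
  have h1 : IsIntegral ↥Q.toValuationSubring (algebraMap (s27r_Rbar W A) (s27r_Fb W A) y) :=
    IsIntegral.map_of_comp_eq φ (algebraMap (s27r_Rbar W A) (s27r_Fb W A)) hcomp hint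
  obtain ⟨z, hz⟩ := IsIntegrallyClosed.isIntegral_iff.mp h1
  rw [← hz]
  exact z.2

end Poles

end Fermat.Agent.Lib.S27
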