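/-
Programme Z (S27), reduction half, brick [GR] (good reduction of an arbitrary curve at a generic
place): CORE DEFINITIONS (architect: helper5, prefix `s27r_`).

* `s27r_WD K F x` : WEIERSTRASS DATA of `F / K` for the coordinate `x`: a place `vinf` which is the
  only pole of `x` (of order `n`), functions `w i` (`i < n`) regular outside `vinf` with pole orders
  `h i ≡ i mod n`, `w 0 = 1`, such that every function regular outside `vinf` is a `K[x]`-combination
  of the `w i`.  (The `h i` are then the minimal pole orders in their classes; the `x^j w_i` form a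
  `K`-basis of `B = s44rc_B vinf` on which the pole order is injective.)
* `s27r_coef W f` : the coefficients of `f ∈ B` in the basis.
* for a valuation ring `A ⊆ K`: the MODEL `s27r_RA W A ⊆ F` (subring generated by `A`, `x`, `w i`),
  its ideal `s27r_mRA W A = 𝔪_A · R_A`, the SPECIAL FIBRE `s27r_Rbar W A = R_A ⧸ 𝔪 R_A` (an algebra
  over the residue field of `A`) and `s27r_Fb W A = FractionRing (s27r_Rbar W A)`.
All definitions are hypothesis-free; the theorems about them need the bad set to consist of units.
-/
import Fermat.Agent.Lib.S44.RRiemKCor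

set_option autoImplicit false
set_option linter.unusedSectionVars false
set_option linter.unusedVariables false

noncomputable section

namespace Fermat.Agent.Lib.S27

open AlgebraicCurve Fermat.Agent.Lib.FF Fermat.Agent.Lib.S44 Polynomial IsLocalRing

/-- **Weierstrass data** of a function field for a coordinate with a single pole. -/
structure s27r_WD (K F : Type) [Field K] [Field F] [Algebra K F] (x : F) where
  /-- the point at infinity -/
  vinf : Place K F
  /-- the degree of `x` -/
  n : ℕ
  hn : 0 < n
  /-- the pole orders of the basis -/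
  h : Fin n → ℕ
  /-- the basis over `K[x]` -/
  w : Fin n → F
  x_mem : x ∈ s44rc_B vinf
  ord_x : vinf.ord x = -(n : ℤ)
  w_mem : ∀ i, w i ∈ s44rc_B vinf
  ord_w : ∀ i, vinf.ord (w i) = -(h i : ℤ)
  h_mod : ∀ i, h i % n = (i : ℕ)
  w_zero : w ⟨0, hn⟩ = 1
  span : ∀ f ∈ s44rc_B vinf, ∃ a : Fin n → K[X], f = ∑ i, aeval x (a i) * w i

variable {K F : Type} [Field K] [Field F] [Algebra K F] {x : F}

/-- the coefficients of a function regular outside `vinf` (`0` for the other functions). -/
def s27r_coef (W : s27r_WD K F x) (f : F) : Fin W.n → K[X] := by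
  classical
  exact if hf : f ∈ s44rc_B W.vinf then Classical.choose (W.span f hf) else 0

theorem s27r_coef_spec (W : s27r_WD K F x) {f : F} (hf : f ∈ s44rc_B W.vinf) :
    f = ∑ i, aeval x (s27r_coef W f i) * W.w i := by
  unfold s27r_coef
  rw [dif_pos hf]
  exact Classical.choose_spec (W.span f hf)

variable (W : s27r_WD K F x) (A : ValuationSubring K)

/-- **the integral model** `R_A`: the subring of `F` generated by `A`, `x` and the `w i`. -/
def s27r_RA : Subring F :=
  Subring.closure ((fun a : K => algebraMap K F a) '' (A : Set K) ∪ {x} ∪ Set.range W.w)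

theorem s27r_const_mem (a : ↥A) : algebraMap K F (a : K) ∈ s27r_RA W A :=
  Subring.subset_closure (Or.inl (Or.inl ⟨(a : K), a.2, rfl⟩))

theorem s27r_x_mem : x ∈ s27r_RA W A :=
  Subring.subset_closure (Or.inl (Or.inr rfl))

theorem s27r_w_mem (i : Fin W.n) : W.w i ∈ s27r_RA W A :=
  Subring.subset_closure (Or.inr ⟨i, rfl⟩)

/-- the constants of `A` in the model. -/
def s27r_constA : ↥A →+* ↥(s27r_RA W A) :=
  ((algebraMap K F).comp A.subtype).codRestrict (s27r_RA W A) (s27r_const_mem W A)

@[simp] theorem s27r_constA_coe (a : ↥A) : ((s27r_constA W A a : ↥(s27r_RA W A)) : F) =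
    algebraMap K F (a : K) := rfl

/-- `𝔪_A · R_A`. -/
def s27r_mRA : Ideal ↥(s27r_RA W A) := Ideal.map (s27r_constA W A) (maximalIdeal ↥A)

/-- **the coordinate ring of the special fibre.** -/
abbrev s27r_Rbar : Type := ↥(s27r_RA W A) ⧸ s27r_mRA W A

/-- the reduction map of the model. -/
def s27r_mk : ↥(s27r_RA W A) →+* s27r_Rbar W A := Ideal.Quotient.mk (s27r_mRA W A)

/-- the special fibre is an algebra over the residue field. -/
def s27r_kToRbar : ResidueField ↥A →+* s27r_Rbar W A :=
  Ideal.Quotient.lift (maximalIdeal ↥A) ((s27r_mk W A).comp (s27r_constA W A)) (by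
    intro a ha
    rw [RingHom.comp_apply]
    exact Ideal.Quotient.eq_zero_iff_mem.mpr (Ideal.mem_map_of_mem _ ha))

instance s27r_algRbar : Algebra (ResidueField ↥A) (s27r_Rbar W A) :=
  (s27r_kToRbar W A).toAlgebra

theorem s27r_algebraMap_residue (a : ↥A) :
    algebraMap (ResidueField ↥A) (s27r_Rbar W A) (residue ↥A a) =
      s27r_mk W A (s27r_constA W A a) := rfl

/-- the coordinate of the special fibre. -/
def s27r_xb : s27r_Rbar W A := s27r_mk W A ⟨x, s27r_x_mem W A⟩

/-- the basis of the special fibre. -/
def s27r_wb (i : Fin W.n) : s27r_Rbar W A := s27r_mk W A ⟨W.w i, s27r_w_mem W A i⟩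

/-- **the function field of the special fibre** (a field as soon as `s27r_Rbar` is a domain). -/
abbrev s27r_Fb : Type := FractionRing (s27r_Rbar W A)

/-- the structure constants `w_i w_j = Σ_k c_{ijk}(x) w_k`. -/
def s27r_sc (i j : Fin W.n) : Fin W.n → K[X] := s27r_coef W (W.w i * W.w j)

/-- **the first half of the bad set**: the non-zero coefficients of the structure constants. -/
def s27r_scSet : Finset K := by
  classical
  exact Finset.univ.biUnion fun i : Fin W.n => Finset.univ.biUnion fun j : Fin W.n =>
    Finset.univ.biUnion fun k : Fin W.n => (s27r_sc W i j k).support.image (s27r_sc W i j k).coeff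

theorem s27r_mem_scSet {c : K} : c ∈ s27r_scSet W ↔
    ∃ i j k m, (s27r_sc W i j k).coeff m = c ∧ c ≠ 0 := by
  classical
  unfold s27r_scSet
  simp only [Finset.mem_biUnion, Finset.mem_univ, true_and, Finset.mem_image,
    Polynomial.mem_support_iff]
  constructor
  · rintro ⟨i, j, k, m, hm, rfl⟩
    exact ⟨i, j, k, m, rfl, hm⟩
  · rintro ⟨i, j, k, m, rfl, hm⟩
    exact ⟨i, j, k, m, hm, rfl⟩

/-- the structure constants are integral with unit (or zero) coefficients. -/
def s27r_SCUnit : Prop :=
  ∀ i j k m, (s27r_sc W i j k).coeff m = 0 ∨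
    ((s27r_sc W i j k).coeff m ∈ A ∧ ((s27r_sc W i j k).coeff m)⁻¹ ∈ A)

end Fermat.Agent.Lib.S27
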