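/-
Programme Z (S27), reduction half, brick [GR-A] (helper6, prefix `s27w_`), part (A2):
the coefficient calculus of Weierstrass data `W : s27r_WD K F x`.
The monomials `x^j w_i` have pairwise distinct pole orders `n j + h i` at `vinf`, hence the pole
order of `Σ_i a_i(x) w_i` is the largest `n · deg a_i + h i`, the representation is unique,
`s27r_coef` is additive and `K[x]`-linear, and the structure constants are triangular.
-/
import Fermat.Agent.Lib.S27.RModel

set_option autoImplicit false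

noncomputable section

namespace Fermat.Agent.Lib.S27

open AlgebraicCurve Fermat.Agent.Lib.FF Fermat.Agent.Lib.S44 Polynomial

variable {K F : Type} [Field K] [Field F] [Algebra K F]

/-! ### generalities on `ord` -/

theorem s27w_ord_pow (v : Place K F) (f : F) (m : ℕ) : v.ord (f ^ m) = (m : ℤ) * v.ord f := by
  rw [← zpow_natCast, v.ord_zpow]

/-- the order of a polynomial in a function with a pole. -/
theorem s27w_ord_aeval (v : Place K F) {x : F} (hx : v.ord x < 0) {a : K[X]} (ha : a ≠ 0) :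
    v.ord (aeval x a) = (a.natDegree : ℤ) * v.ord x := by
  induction' hd : a.natDegree using Nat.strong_induction_on with d ih generalizing a
  have hx0 : x ≠ 0 := by
    rintro rfl
    rw [Place.ord_zero] at hx
    exact lt_irrefl _ hx
  have hlc : a.leadingCoeff ≠ 0 := leadingCoeff_ne_zero.mpr ha
  have hc0 : algebraMap K F a.leadingCoeff ≠ 0 := by simpa using hlc
  have hT0 : algebraMap K F a.leadingCoeff * x ^ d ≠ 0 := mul_ne_zero hc0 (pow_ne_zero _ hx0)
  have hT : v.ord (algebraMap K F a.leadingCoeff * x ^ d) = (d : ℤ) * v.ord x := by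
    rw [v.ord_mul hc0 (pow_ne_zero _ hx0), ff_ord_algebraMap, zero_add, s27w_ord_pow]
  have hdecomp : aeval x a = aeval x a.eraseLead + algebraMap K F a.leadingCoeff * x ^ d := by
    conv_lhs => rw [← eraseLead_add_C_mul_X_pow a]
    rw [map_add, map_mul, aeval_C, map_pow, aeval_X, hd]
  rw [hdecomp]
  by_cases hE : aeval x a.eraseLead = 0
  · rw [hE, zero_add, hT]
  · have hel : a.eraseLead ≠ 0 := by
      intro h
      rw [h, map_zero] at hE
      exact hE rfl
    have hlt : a.eraseLead.natDegree < d := by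
      rcases eraseLead_natDegree_lt_or_eraseLead_eq_zero a with h | h
      · rw [← hd]; exact h
      · exact absurd h hel
    have hEord := ih _ hlt hel rfl
    have hlt' : ((a.eraseLead.natDegree : ℕ) : ℤ) + 1 ≤ (d : ℤ) := by exact_mod_cast hlt
    rw [add_comm, s44rc_ord_add_of_lt v hT0 hE (by rw [hT, hEord]; nlinarith), hT]

/-- a finite sum of non-zero functions with pairwise distinct orders: the order of the sum is the
smallest order, and the sum is not zero. -/
theorem s27w_ord_sum_of_injOn (v : Place K F) {ι : Type*} (s : Finset ι) (hs : s.Nonempty)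
    (f : ι → F) (hne : ∀ i ∈ s, f i ≠ 0)
    (hinj : ∀ i ∈ s, ∀ j ∈ s, v.ord (f i) = v.ord (f j) → i = j) :
    ∑ i ∈ s, f i ≠ 0 ∧ v.ord (∑ i ∈ s, f i) = s.inf' hs fun i => v.ord (f i) := by
  classical
  induction hs using Finset.Nonempty.cons_induction with
  | singleton a =>
    rw [Finset.sum_singleton, Finset.inf'_singleton]
    exact ⟨hne a (Finset.mem_singleton_self a), rfl⟩
  | cons a s ha hs ih =>
    obtain ⟨h1, h2⟩ := ih (fun i hi => hne i (Finset.mem_cons_of_mem hi))
      (fun i hi j hj => hinj i (Finset.mem_cons_of_mem hi) j (Finset.mem_cons_of_mem hj))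
    have hfa : f a ≠ 0 := hne a (Finset.mem_cons_self a s)
    obtain ⟨j, hj, hjinf⟩ := Finset.exists_mem_eq_inf' hs fun i => v.ord (f i)
    have hneq : v.ord (f a) ≠ s.inf' hs fun i => v.ord (f i) := by
      rw [hjinf]
      intro h
      have := hinj a (Finset.mem_cons_self a s) j (Finset.mem_cons_of_mem hj) h
      exact ha (this ▸ hj)
    rw [Finset.sum_cons, Finset.inf'_cons hs]
    rcases lt_or_gt_of_ne hneq with hlt | hgt
    · have h3 := s44rc_ord_add_of_lt v hfa h1 (by rw [h2]; exact hlt)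
      refine ⟨fun h0 => ?_, by rw [h3, min_eq_left hlt.le]⟩
      have h4 : ∑ i ∈ s, f i = -f a := by
        rw [← sub_eq_zero, sub_neg_eq_add, add_comm]; exact h0
      have h5 : v.ord (-f a) = v.ord (f a) := by
        have hm1 : (-1 : F) = algebraMap K F (-1) := by rw [map_neg, map_one]
        rw [neg_eq_neg_one_mul, v.ord_mul (neg_ne_zero.mpr one_ne_zero) hfa, hm1,
          ff_ord_algebraMap, zero_add]
      rw [h4, h5] at h2
      exact hneq h2
    · have h3 := s44rc_ord_add_of_lt v h1 hfa (by rw [h2]; exact hgt)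
      rw [add_comm] at h3
      refine ⟨fun h0 => ?_, by rw [h3, h2, min_eq_right hgt.le]⟩
      have h4 : ∑ i ∈ s, f i = -f a := by
        rw [← sub_eq_zero, sub_neg_eq_add, add_comm]; exact h0
      have h5 : v.ord (-f a) = v.ord (f a) := by
        have hm1 : (-1 : F) = algebraMap K F (-1) := by rw [map_neg, map_one]
        rw [neg_eq_neg_one_mul, v.ord_mul (neg_ne_zero.mpr one_ne_zero) hfa, hm1,
          ff_ord_algebraMap, zero_add]
      rw [h4, h5] at h2
      exact hneq h2


/-- variant: the order of the sum is the order of a term of smallest order. -/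
theorem s27w_ord_sum_exists (v : Place K F) {ι : Type*} (s : Finset ι) (hs : s.Nonempty)
    (f : ι → F) (hne : ∀ i ∈ s, f i ≠ 0)
    (hinj : ∀ i ∈ s, ∀ j ∈ s, v.ord (f i) = v.ord (f j) → i = j) :
    ∑ i ∈ s, f i ≠ 0 ∧ ∃ i₀ ∈ s, (∀ j ∈ s, v.ord (f i₀) ≤ v.ord (f j)) ∧
      v.ord (∑ i ∈ s, f i) = v.ord (f i₀) := by
  obtain ⟨h1, h2⟩ := s27w_ord_sum_of_injOn v s hs f hne hinj
  obtain ⟨j, hj, hjinf⟩ := Finset.exists_mem_eq_inf' hs fun i => v.ord (f i)
  refine ⟨h1, j, hj, fun i hi => ?_, by rw [h2, hjinf]⟩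
  rw [← hjinf]
  exact Finset.inf'_le _ hi

/-! ### Weierstrass data -/

section WD

open Classical

variable {x : F} (W : s27r_WD K F x)

theorem s27w_ord_x_neg : W.vinf.ord x < 0 := by
  rw [W.ord_x]
  have := W.hn
  omega

include W in
theorem s27w_x_ne_zero : x ≠ 0 := by
  rintro rfl
  have := s27w_ord_x_neg W
  rw [Place.ord_zero] at this
  exact lt_irrefl _ this

include W in
theorem s27w_transcendental : Transcendental K x :=
  s44rc_transcendental W.vinf (s27w_ord_x_neg W)

include W in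
theorem s27w_aeval_ne_zero {a : K[X]} (ha : a ≠ 0) : aeval x a ≠ 0 := fun h =>
  ha ((transcendental_iff_injective.mp (s27w_transcendental W)) (by rw [h, map_zero]))

theorem s27w_h_zero : W.h ⟨0, W.hn⟩ = 0 := by
  have := W.ord_w ⟨0, W.hn⟩
  rw [W.w_zero, Place.ord_one] at this
  omega

theorem s27w_w_ne_zero (i : Fin W.n) : W.w i ≠ 0 := by
  intro h0
  have h1 := W.ord_w i
  rw [h0, Place.ord_zero] at h1
  have h2 := W.h_mod i
  have h3 : W.h i = 0 := by omega
  rw [h3, Nat.zero_mod] at h2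
  have h4 : i = ⟨0, W.hn⟩ := Fin.ext h2.symm
  rw [h4, W.w_zero] at h0
  exact one_ne_zero h0

/-- the weight (pole order) of the term `a(x) w_i`. -/
def s27w_wt (a : K[X]) (i : Fin W.n) : ℕ := W.n * a.natDegree + W.h i

theorem s27w_term_ne_zero {a : K[X]} (ha : a ≠ 0) (i : Fin W.n) : aeval x a * W.w i ≠ 0 :=
  mul_ne_zero (s27w_aeval_ne_zero W ha) (s27w_w_ne_zero W i)

/-- **(i)** the pole order of a monomial term. -/
theorem s27w_ord_term {a : K[X]} (ha : a ≠ 0) (i : Fin W.n) :
    W.vinf.ord (aeval x a * W.w i) = -((s27w_wt W a i : ℕ) : ℤ) := by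
  rw [W.vinf.ord_mul (s27w_aeval_ne_zero W ha) (s27w_w_ne_zero W i),
    s27w_ord_aeval W.vinf (s27w_ord_x_neg W) ha, W.ord_x, W.ord_w, s27w_wt]
  push_cast
  ring

theorem s27w_wt_mod (a : K[X]) (i : Fin W.n) : s27w_wt W a i % W.n = (i : ℕ) := by
  rw [s27w_wt, Nat.mul_add_mod, W.h_mod]

/-- distinct indices have distinct weights. -/
theorem s27w_wt_inj {a b : K[X]} {i j : Fin W.n} (h : s27w_wt W a i = s27w_wt W b j) : i = j := by
  apply Fin.ext
  rw [← s27w_wt_mod W a i, ← s27w_wt_mod W b j, h]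

/-- the pole order of `Σ_i a_i(x) w_i`: the largest weight of a non-zero term. -/
def s27w_delta (a : Fin W.n → K[X]) : ℕ :=
  Finset.univ.sup fun i => if a i = 0 then 0 else s27w_wt W (a i) i

theorem s27w_wt_le_delta (a : Fin W.n → K[X]) {i : Fin W.n} (hi : a i ≠ 0) :
    s27w_wt W (a i) i ≤ s27w_delta W a := by
  have := Finset.le_sup (f := fun i => if a i = 0 then 0 else s27w_wt W (a i) i)
    (Finset.mem_univ i)
  unfold s27w_delta
  rw [if_neg hi] at this
  exact this

theorem s27w_exists_delta {a : Fin W.n → K[X]} (ha : a ≠ 0) :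
    ∃ i, a i ≠ 0 ∧ s27w_wt W (a i) i = s27w_delta W a := by
  have hne : (Finset.univ : Finset (Fin W.n)).Nonempty := ⟨⟨0, W.hn⟩, Finset.mem_univ _⟩
  obtain ⟨i, -, hi⟩ := Finset.exists_mem_eq_sup Finset.univ hne
    fun i => if a i = 0 then 0 else s27w_wt W (a i) i
  by_cases h0 : a i = 0
  · rw [if_pos h0] at hi
    obtain ⟨j, hj⟩ : ∃ j, a j ≠ 0 := by
      by_contra hall
      push_neg at hall
      exact ha (funext hall)
    refine ⟨j, hj, le_antisymm (s27w_wt_le_delta W a hj) ?_⟩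
    show s27w_delta W a ≤ _
    unfold s27w_delta
    rw [hi]
    exact Nat.zero_le _
  · rw [if_neg h0] at hi
    exact ⟨i, h0, hi.symm⟩

/-- the index of the leading term is unique. -/
theorem s27w_delta_unique {a : Fin W.n → K[X]} {i j : Fin W.n}
    (hi : s27w_wt W (a i) i = s27w_delta W a) (hj : s27w_wt W (a j) j = s27w_delta W a) : i = j :=
  s27w_wt_inj W (hi.trans hj.symm)

/-- the combination with coefficients `a`. -/
def s27w_comb (a : Fin W.n → K[X]) : F := ∑ i, aeval x (a i) * W.w i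

theorem s27w_comb_eq_sum_filter (a : Fin W.n → K[X]) :
    s27w_comb W a = ∑ i ∈ Finset.univ.filter (fun i => a i ≠ 0), aeval x (a i) * W.w i := by
  unfold s27w_comb
  rw [Finset.sum_filter_of_ne]
  intro i _ hi h0
  rw [h0, map_zero, zero_mul] at hi
  exact hi rfl

/-- **(ii)** the pole order of a non-zero combination, and it is not zero. -/
theorem s27w_comb_ne_zero_and_ord {a : Fin W.n → K[X]} (ha : a ≠ 0) :
    s27w_comb W a ≠ 0 ∧ W.vinf.ord (s27w_comb W a) = -((s27w_delta W a : ℕ) : ℤ) := by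
  classical
  obtain ⟨i₁, hi₁, hi₁δ⟩ := s27w_exists_delta W ha
  set s : Finset (Fin W.n) := Finset.univ.filter (fun i => a i ≠ 0) with hs
  have hsne : s.Nonempty := ⟨i₁, Finset.mem_filter.mpr ⟨Finset.mem_univ _, hi₁⟩⟩
  have hmem : ∀ i, i ∈ s ↔ a i ≠ 0 := fun i => by
    rw [hs, Finset.mem_filter]; exact ⟨fun h => h.2, fun h => ⟨Finset.mem_univ _, h⟩⟩
  obtain ⟨h1, i₀, hi₀, hmin, hord⟩ := s27w_ord_sum_exists W.vinf s hsne
    (fun i => aeval x (a i) * W.w i)
    (fun i hi => s27w_term_ne_zero W ((hmem i).mp hi) i)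
    (fun i hi j hj h => by
      rw [s27w_ord_term W ((hmem i).mp hi), s27w_ord_term W ((hmem j).mp hj)] at h
      exact s27w_wt_inj W (by exact_mod_cast neg_injective h))
  rw [s27w_comb_eq_sum_filter]
  refine ⟨h1, ?_⟩
  rw [hord, s27w_ord_term W ((hmem i₀).mp hi₀)]
  have h2 := hmin i₁ ((hmem i₁).mpr hi₁)
  rw [s27w_ord_term W ((hmem i₀).mp hi₀), s27w_ord_term W hi₁] at h2
  have h3 := s27w_wt_le_delta W a ((hmem i₀).mp hi₀)
  have h4 : s27w_wt W (a i₁) i₁ ≤ s27w_wt W (a i₀) i₀ := by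
    have : ((s27w_wt W (a i₁) i₁ : ℕ) : ℤ) ≤ ((s27w_wt W (a i₀) i₀ : ℕ) : ℤ) := by omega
    exact_mod_cast this
  have h5 : s27w_wt W (a i₀) i₀ = s27w_delta W a := le_antisymm h3 (hi₁δ ▸ h4)
  rw [h5]

theorem s27w_comb_ne_zero {a : Fin W.n → K[X]} (ha : a ≠ 0) : s27w_comb W a ≠ 0 :=
  (s27w_comb_ne_zero_and_ord W ha).1

theorem s27w_ord_comb {a : Fin W.n → K[X]} (ha : a ≠ 0) :
    W.vinf.ord (s27w_comb W a) = -((s27w_delta W a : ℕ) : ℤ) :=
  (s27w_comb_ne_zero_and_ord W ha).2

theorem s27w_comb_zero : s27w_comb W (0 : Fin W.n → K[X]) = 0 := by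
  unfold s27w_comb
  simp

theorem s27w_comb_add (a b : Fin W.n → K[X]) :
    s27w_comb W (a + b) = s27w_comb W a + s27w_comb W b := by
  unfold s27w_comb
  rw [← Finset.sum_add_distrib]
  refine Finset.sum_congr rfl fun i _ => ?_
  rw [Pi.add_apply, map_add, add_mul]

theorem s27w_comb_sub (a b : Fin W.n → K[X]) :
    s27w_comb W (a - b) = s27w_comb W a - s27w_comb W b := by
  unfold s27w_comb
  rw [← Finset.sum_sub_distrib]
  refine Finset.sum_congr rfl fun i _ => ?_
  rw [Pi.sub_apply, map_sub, sub_mul]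

/-- multiplication by a polynomial in `x`. -/
theorem s27w_comb_mul (p : K[X]) (a : Fin W.n → K[X]) :
    s27w_comb W (fun i => p * a i) = aeval x p * s27w_comb W a := by
  unfold s27w_comb
  rw [Finset.mul_sum]
  refine Finset.sum_congr rfl fun i _ => ?_
  rw [map_mul, mul_assoc]

theorem s27w_comb_single (p : K[X]) (i : Fin W.n) :
    s27w_comb W (Pi.single i p) = aeval x p * W.w i := by
  classical
  unfold s27w_comb
  rw [Finset.sum_eq_single i]
  · rw [Pi.single_eq_same]
  · intro j _ hj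
    rw [Pi.single_eq_of_ne hj, map_zero, zero_mul]
  · intro h
    exact absurd (Finset.mem_univ i) h

/-- **uniqueness of the coefficients.** -/
theorem s27w_comb_injective : Function.Injective (s27w_comb W) := by
  intro a b h
  by_contra hab
  have h1 : a - b ≠ 0 := sub_ne_zero.mpr hab
  have h2 := s27w_comb_ne_zero W h1
  rw [s27w_comb_sub, h, sub_self] at h2
  exact h2 rfl

theorem s27w_comb_eq_zero_iff {a : Fin W.n → K[X]} : s27w_comb W a = 0 ↔ a = 0 := by
  constructor
  · intro h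
    exact s27w_comb_injective W (h.trans (s27w_comb_zero W).symm)
  · rintro rfl
    exact s27w_comb_zero W

theorem s27w_aeval_mem_B (p : K[X]) : aeval x p ∈ s44rc_B W.vinf := by
  have := Polynomial.aeval_subalgebra_coe p (s44rc_B W.vinf) ⟨x, W.x_mem⟩
  rw [← this]
  exact (aeval (⟨x, W.x_mem⟩ : ↥(s44rc_B W.vinf)) p).2

theorem s27w_comb_mem_B (a : Fin W.n → K[X]) : s27w_comb W a ∈ s44rc_B W.vinf :=
  Subalgebra.sum_mem _ fun i _ =>
    Subalgebra.mul_mem _ (s27w_aeval_mem_B W (a i)) (W.w_mem i)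

theorem s27w_comb_coef {f : F} (hf : f ∈ s44rc_B W.vinf) : s27w_comb W (s27r_coef W f) = f :=
  (s27r_coef_spec W hf).symm

/-- **the coefficients of a combination.** -/
theorem s27w_coef_comb (a : Fin W.n → K[X]) : s27r_coef W (s27w_comb W a) = a :=
  s27w_comb_injective W (s27w_comb_coef W (s27w_comb_mem_B W a))

theorem s27w_coef_eq_iff {f : F} (hf : f ∈ s44rc_B W.vinf) (a : Fin W.n → K[X]) :
    s27r_coef W f = a ↔ f = s27w_comb W a := by
  constructor
  · rintro rfl
    exact (s27w_comb_coef W hf).symm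
  · rintro rfl
    exact s27w_coef_comb W a

theorem s27w_coef_zero : s27r_coef W (0 : F) = 0 := by
  rw [← s27w_comb_zero W, s27w_coef_comb]

theorem s27w_coef_add {f g : F} (hf : f ∈ s44rc_B W.vinf) (hg : g ∈ s44rc_B W.vinf) :
    s27r_coef W (f + g) = s27r_coef W f + s27r_coef W g := by
  rw [s27w_coef_eq_iff W (Subalgebra.add_mem _ hf hg), s27w_comb_add, s27w_comb_coef W hf,
    s27w_comb_coef W hg]

theorem s27w_coef_sub {f g : F} (hf : f ∈ s44rc_B W.vinf) (hg : g ∈ s44rc_B W.vinf) :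
    s27r_coef W (f - g) = s27r_coef W f - s27r_coef W g := by
  rw [s27w_coef_eq_iff W (Subalgebra.sub_mem _ hf hg), s27w_comb_sub, s27w_comb_coef W hf,
    s27w_comb_coef W hg]

/-- `K[x]`-linearity. -/
theorem s27w_coef_aeval_mul (p : K[X]) {f : F} (hf : f ∈ s44rc_B W.vinf) :
    s27r_coef W (aeval x p * f) = fun i => p * s27r_coef W f i := by
  rw [s27w_coef_eq_iff W (Subalgebra.mul_mem _ (s27w_aeval_mem_B W p) hf), s27w_comb_mul,
    s27w_comb_coef W hf]

theorem s27w_coef_const_mul (c : K) {f : F} (hf : f ∈ s44rc_B W.vinf) :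
    s27r_coef W (algebraMap K F c * f) = fun i => C c * s27r_coef W f i := by
  have := s27w_coef_aeval_mul W (C c) hf
  rwa [aeval_C] at this

theorem s27w_coef_smul (c : K) {f : F} (hf : f ∈ s44rc_B W.vinf) :
    s27r_coef W (c • f) = fun i => C c * s27r_coef W f i := by
  rw [Algebra.smul_def]
  exact s27w_coef_const_mul W c hf

theorem s27w_coef_x_mul {f : F} (hf : f ∈ s44rc_B W.vinf) :
    s27r_coef W (x * f) = fun i => X * s27r_coef W f i := by
  have := s27w_coef_aeval_mul W X hf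
  rwa [aeval_X] at this

theorem s27w_coef_aeval_mul_w (p : K[X]) (i : Fin W.n) :
    s27r_coef W (aeval x p * W.w i) = Pi.single i p := by
  rw [← s27w_comb_single, s27w_coef_comb]

theorem s27w_coef_w (i : Fin W.n) : s27r_coef W (W.w i) = Pi.single i 1 := by
  have := s27w_coef_aeval_mul_w W 1 i
  rwa [map_one, one_mul] at this

theorem s27w_coef_one : s27r_coef W (1 : F) = Pi.single (⟨0, W.hn⟩ : Fin W.n) 1 := by
  rw [← W.w_zero]
  exact s27w_coef_w W _

theorem s27w_coef_const (c : K) : s27r_coef W (algebraMap K F c) = Pi.single (⟨0, W.hn⟩ : Fin W.n) (C c) := by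
  have := s27w_coef_aeval_mul_w W (C c) ⟨0, W.hn⟩
  rwa [aeval_C, W.w_zero, mul_one] at this

theorem s27w_coef_x : s27r_coef W x = Pi.single (⟨0, W.hn⟩ : Fin W.n) X := by
  have := s27w_coef_aeval_mul_w W X ⟨0, W.hn⟩
  rwa [aeval_X, W.w_zero, mul_one] at this

/-- the pole order of a function of `B` in terms of its coefficients. -/
theorem s27w_ord_eq_delta {f : F} (hf : f ∈ s44rc_B W.vinf) (hf0 : f ≠ 0) :
    W.vinf.ord f = -((s27w_delta W (s27r_coef W f) : ℕ) : ℤ) := by
  have hne : s27r_coef W f ≠ 0 := by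
    intro h
    apply hf0
    rw [← s27w_comb_coef W hf, h, s27w_comb_zero]
  have := s27w_ord_comb W hne
  rwa [s27w_comb_coef W hf] at this

/-! ### (iii) the structure constants -/

theorem s27w_comb_sc (i j : Fin W.n) : s27w_comb W (s27r_sc W i j) = W.w i * W.w j :=
  s27w_comb_coef W (Subalgebra.mul_mem _ (W.w_mem i) (W.w_mem j))

theorem s27w_sc_ne_zero (i j : Fin W.n) : s27r_sc W i j ≠ 0 := by
  intro h
  have := s27w_comb_sc W i j
  rw [h, s27w_comb_zero] at this
  exact mul_ne_zero (s27w_w_ne_zero W i) (s27w_w_ne_zero W j) this.symm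

/-- the weight of the product `w_i w_j`. -/
theorem s27w_delta_sc (i j : Fin W.n) : s27w_delta W (s27r_sc W i j) = W.h i + W.h j := by
  have h1 := s27w_ord_comb W (s27w_sc_ne_zero W i j)
  rw [s27w_comb_sc, W.vinf.ord_mul (s27w_w_ne_zero W i) (s27w_w_ne_zero W j), W.ord_w,
    W.ord_w] at h1
  have : ((s27w_delta W (s27r_sc W i j) : ℕ) : ℤ) = ((W.h i + W.h j : ℕ) : ℤ) := by
    push_cast
    omega
  exact_mod_cast this

/-- **triangularity**: `n · deg c_{ijk} + h k ≤ h i + h j`. -/
theorem s27w_sc_wt_le (i j k : Fin W.n) (hk : s27r_sc W i j k ≠ 0) :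
    W.n * (s27r_sc W i j k).natDegree + W.h k ≤ W.h i + W.h j := by
  rw [← s27w_delta_sc]
  exact s27w_wt_le_delta W _ hk

/-- **the leading structure constant**: equality for exactly one `k`. -/
theorem s27w_sc_top (i j : Fin W.n) :
    ∃ k, s27r_sc W i j k ≠ 0 ∧ W.n * (s27r_sc W i j k).natDegree + W.h k = W.h i + W.h j ∧
      ∀ k', s27r_sc W i j k' ≠ 0 →
        W.n * (s27r_sc W i j k').natDegree + W.h k' = W.h i + W.h j → k' = k := by
  obtain ⟨k, hk, hkδ⟩ := s27w_exists_delta W (s27w_sc_ne_zero W i j)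
  rw [s27w_delta_sc] at hkδ
  exact ⟨k, hk, hkδ, fun k' _ hk'δ => s27w_wt_inj W (hk'δ.trans hkδ.symm)⟩

/-- the leading coefficient of a non-zero structure constant belongs to the bad set. -/
theorem s27w_leadingCoeff_mem_scSet (i j k : Fin W.n) (hk : s27r_sc W i j k ≠ 0) :
    (s27r_sc W i j k).leadingCoeff ∈ s27r_scSet W :=
  (s27r_mem_scSet W).mpr ⟨i, j, k, _, rfl, leadingCoeff_ne_zero.mpr hk⟩

theorem s27w_coeff_mem_scSet (i j k : Fin W.n) (m : ℕ) (hm : (s27r_sc W i j k).coeff m ≠ 0) :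
    (s27r_sc W i j k).coeff m ∈ s27r_scSet W :=
  (s27r_mem_scSet W).mpr ⟨i, j, k, m, rfl, hm⟩

end WD

end Fermat.Agent.Lib.S27
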