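/-
Programme Z (S27), reduction half, brick [GR-A] (helper6, prefix `s27w_`), parts (A2)(iv),(v):
for Weierstrass data `W : s27r_WD K F x`: `FFGen K x`, `[F : K(x)] = n`, `B = ffB K x`, and
`dim L(m · vinf) = #{(i, j) | n j + h i ≤ m}`.
-/
import Fermat.Agent.Lib.S27.WGrCoef
import Fermat.Prelude.Def_AlgebraicCurve_Repartitions

set_option autoImplicit false

noncomputable section

namespace Fermat.Agent.Lib.S27

open AlgebraicCurve Fermat.Agent.Lib.FF Fermat.Agent.Lib.S44 Polynomial IntermediateField

variable {K F : Type} [Field K] [Field F] [Algebra K F] {x : F}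

/-! ### (iv) the coordinate `x` -/

section Gen

variable [CharZero K] (W : s27r_WD K F x)

include W in
/-- `x` is a generator (given any generator `x₀`). -/
theorem s27w_ffgen (x₀ : F) [FFGen K x₀] : FFGen K x :=
  s44rc_gen x₀ W.vinf (s27w_ord_x_neg W)

/-- `B` is the integral closure of `K[x]`. -/
theorem s27w_mem_B_iff_mem_ffB [FFGen K x] (U : F) : U ∈ s44rc_B W.vinf ↔ U ∈ ffB K x :=
  s44rc_mem_B_iff_mem_ffB W.vinf W.x_mem (s27w_ord_x_neg W) U

/-- the residue field of a place is `K` (`K` algebraically closed). -/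
theorem s27w_hres [IsAlgClosed K] [FFGen K x] (v : Place K F) :
    ∀ y ∈ v.toValuationSubring, ∃ c : K,
      y - algebraMap K F c ∈ v.toValuationSubring.nonunits := by
  intro y hy
  obtain ⟨c, hc | hc⟩ := ff_exists_const_sub_mem K x v hy
  · refine ⟨c, ?_⟩
    rw [hc, sub_self, ValuationSubring.mem_nonunits_iff_or]
    exact Or.inl rfl
  · refine ⟨c, ?_⟩
    have hne : y - algebraMap K F c ≠ 0 := by
      intro h
      rw [h, Place.ord_zero] at hc
      exact lt_irrefl _ hc
    rw [ValuationSubring.mem_nonunits_iff_or]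
    right
    exact ((ff_ord_pos_iff v hne).mp hc).2

/-- `[F : K(x)] = n`. -/
theorem s27w_finrank [IsAlgClosed K] [FFGen K x] : Module.finrank K⟮x⟯ F = W.n := by
  have h := s44rc_finrank W.vinf (s27w_hres (x := x) W.vinf) W.x_mem (s27w_ord_x_neg W)
  rw [W.ord_x, neg_neg] at h
  exact_mod_cast h

end Gen

/-! ### (v) the dimension of `L(m · vinf)` -/

section Dim

variable (W : s27r_WD K F x)

/-- the number of `j` with `n j + h i ≤ m`. -/
def s27w_cnt (m : ℕ) (i : Fin W.n) : ℕ := if W.h i ≤ m then (m - W.h i) / W.n + 1 else 0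

/-- the number of monomials `x^j w_i` of pole order `≤ m`. -/
def s27w_count (m : ℕ) : ℕ := ∑ i, s27w_cnt W m i

theorem s27w_wt_le_iff (m : ℕ) (a : K[X]) (ha : a ≠ 0) (i : Fin W.n) :
    s27w_wt W a i ≤ m ↔ a.natDegree < s27w_cnt W m i := by
  have hn := W.hn
  unfold s27w_wt s27w_cnt
  split_ifs with h
  · rw [Nat.lt_succ_iff, Nat.le_div_iff_mul_le hn]
    constructor
    · intro h1
      have : a.natDegree * W.n = W.n * a.natDegree := Nat.mul_comm _ _
      omega
    · intro h1
      have : a.natDegree * W.n = W.n * a.natDegree := Nat.mul_comm _ _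
      omega
  · constructor
    · intro h1
      omega
    · intro h1
      exact absurd h1 (Nat.not_lt_zero _)

theorem s27w_delta_le_iff (m : ℕ) (a : Fin W.n → K[X]) :
    s27w_delta W a ≤ m ↔ ∀ i, a i ≠ 0 → s27w_wt W (a i) i ≤ m := by
  classical
  constructor
  · intro h i hi
    exact (s27w_wt_le_delta W a hi).trans h
  · intro h
    unfold s27w_delta
    rw [Finset.sup_le_iff]
    intro i _
    split_ifs with h0
    · exact Nat.zero_le _
    · exact h i h0

open Classical in
theorem s27w_single_apply (m : ℕ) (v : Place K F) :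
    (m • Finsupp.single W.vinf (1 : ℤ)) v = if v = W.vinf then (m : ℤ) else 0 := by
  classical
  rw [Finsupp.smul_apply, Finsupp.single_apply]
  split_ifs with h1 h2 h2
  · simp
  · exact absurd h1.symm h2
  · exact absurd h2.symm h1
  · simp

/-- `L(m · vinf) ⊆ B`. -/
theorem s27w_mem_B_of_mem_L {m : ℕ} {f : F}
    (hf : f ∈ riemannRochSpace (m • Finsupp.single W.vinf (1 : ℤ))) : f ∈ s44rc_B W.vinf := by
  intro v hv
  rcases eq_or_ne f 0 with rfl | hf0
  · exact v.toValuationSubring.zero_mem
  have := ((mem_riemannRochSpace_iff.mp hf) v).resolve_left hf0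
  rw [s27w_single_apply, if_neg hv, neg_zero] at this
  exact (ff_mem_iff_ord_nonneg v hf0).mpr this

/-- membership in `L(m · vinf)` in terms of the coefficients. -/
theorem s27w_comb_mem_L_iff (m : ℕ) (a : Fin W.n → K[X]) :
    s27w_comb W a ∈ riemannRochSpace (m • Finsupp.single W.vinf (1 : ℤ)) ↔
      s27w_delta W a ≤ m ∨ a = 0 := by
  constructor
  · intro h
    by_cases ha : a = 0
    · exact Or.inr ha
    left
    have h1 := ((mem_riemannRochSpace_iff.mp h) W.vinf).resolve_left (s27w_comb_ne_zero W ha)
    rw [s27w_single_apply, if_pos rfl, s27w_ord_comb W ha] at h1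
    have : ((s27w_delta W a : ℕ) : ℤ) ≤ (m : ℤ) := by omega
    exact_mod_cast this
  · rintro (h | rfl)
    · by_cases ha : a = 0
      · rw [ha, s27w_comb_zero]
        exact Submodule.zero_mem _
      rw [mem_riemannRochSpace_iff]
      intro v
      right
      by_cases hv : v = W.vinf
      · subst hv
        rw [s27w_single_apply, if_pos rfl, s27w_ord_comb W ha]
        have : ((s27w_delta W a : ℕ) : ℤ) ≤ (m : ℤ) := by exact_mod_cast h
        omega
      · rw [s27w_single_apply, if_neg hv, neg_zero]
        exact (ff_mem_iff_ord_nonneg v (s27w_comb_ne_zero W ha)).mp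
          (s27w_comb_mem_B W a v hv)
    · rw [s27w_comb_zero]
      exact Submodule.zero_mem _

/-- the parametrisation of `L(m · vinf)` by coefficient vectors of bounded degrees. -/
def s27w_param (m : ℕ) : (∀ i : Fin W.n, ↥(degreeLT K (s27w_cnt W m i))) →ₗ[K] F where
  toFun a := s27w_comb W fun i => (a i : K[X])
  map_add' a b := by
    rw [← s27w_comb_add]
    rfl
  map_smul' c a := by
    rw [RingHom.id_apply, Algebra.smul_def, ← aeval_C (R := K) x c, ← s27w_comb_mul]
    congr 1
    funext i
    show ((c • a i : ↥(degreeLT K (s27w_cnt W m i))) : K[X]) = C c * (a i : K[X])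
    rw [Submodule.coe_smul, smul_eq_C_mul]

theorem s27w_param_injective (m : ℕ) : Function.Injective (s27w_param W m) := by
  intro a b h
  have := s27w_comb_injective W h
  funext i
  exact Subtype.ext (congrFun this i)

theorem s27w_range_param (m : ℕ) :
    LinearMap.range (s27w_param W m) = riemannRochSpace (m • Finsupp.single W.vinf (1 : ℤ)) := by
  ext f
  constructor
  · rintro ⟨a, rfl⟩
    show s27w_comb W (fun i => (a i : K[X])) ∈ _
    rw [s27w_comb_mem_L_iff, s27w_delta_le_iff]
    left
    intro i hi
    rw [s27w_wt_le_iff W m _ hi]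
    have h1 := (a i).2
    rw [mem_degreeLT] at h1
    exact (natDegree_lt_iff_degree_lt hi).mpr h1
  · intro hf
    have hfB := s27w_mem_B_of_mem_L W hf
    have hf' := hf
    rw [← s27w_comb_coef W hfB, s27w_comb_mem_L_iff, s27w_delta_le_iff] at hf'
    have hmem : ∀ i, s27r_coef W f i ∈ degreeLT K (s27w_cnt W m i) := by
      intro i
      rw [mem_degreeLT]
      by_cases h0 : s27r_coef W f i = 0
      · rw [h0, degree_zero]
        exact WithBot.bot_lt_coe _
      · rcases hf' with h | h
        · exact (natDegree_lt_iff_degree_lt h0).mp ((s27w_wt_le_iff W m _ h0 i).mp (h i h0))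
        · exact absurd (congrFun h i) h0
    exact ⟨fun i => ⟨s27r_coef W f i, hmem i⟩, s27w_comb_coef W hfB⟩

/-- **(v)** `dim L(m · vinf) = #{(i, j) | n j + h i ≤ m}`. -/
theorem s27w_finrank_L (m : ℕ) :
    Module.finrank K ↥(riemannRochSpace (m • Finsupp.single W.vinf (1 : ℤ))) =
      s27w_count W m := by
  rw [← s27w_range_param, LinearMap.finrank_range_of_inj (s27w_param_injective W m),
    Module.finrank_pi_fintype]
  unfold s27w_count
  refine Finset.sum_congr rfl fun i _ => ?_
  rw [(degreeLTEquiv K (s27w_cnt W m i)).finrank_eq, Module.finrank_fin_fun]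

/-- `L(m · vinf)` is finite-dimensional. -/
theorem s27w_finite_L (m : ℕ) :
    Module.Finite K ↥(riemannRochSpace (m • Finsupp.single W.vinf (1 : ℤ))) := by
  rw [← s27w_range_param]
  haveI : ∀ i : Fin W.n, Module.Finite K ↥(degreeLT K (s27w_cnt W m i)) := fun i =>
    Module.Finite.equiv (degreeLTEquiv K (s27w_cnt W m i)).symm
  exact Module.Finite.range _

/-- the count as the cardinality of a set of pairs. -/
theorem s27w_count_eq_card (m : ℕ) :
    s27w_count W m = ((Finset.univ (α := Fin W.n) ×ˢ Finset.range (m + 1)).filter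
      fun p => W.n * p.2 + W.h p.1 ≤ m).card := by
  classical
  have hn := W.hn
  unfold s27w_count
  rw [Finset.card_filter, Finset.sum_product]
  refine Finset.sum_congr rfl fun i _ => ?_
  rw [← Finset.card_filter]
  unfold s27w_cnt
  split_ifs with h
  · have : (Finset.range (m + 1)).filter (fun j => W.n * j + W.h i ≤ m) =
        Finset.range ((m - W.h i) / W.n + 1) := by
      ext j
      rw [Finset.mem_filter, Finset.mem_range, Finset.mem_range]
      have h1 : j * W.n = W.n * j := Nat.mul_comm _ _
      have h4 : j ≤ (m - W.h i) / W.n ↔ j * W.n ≤ m - W.h i := Nat.le_div_iff_mul_le hn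
      constructor
      · rintro ⟨-, h2⟩
        have : j ≤ (m - W.h i) / W.n := h4.mpr (by omega)
        omega
      · intro h2
        have h5 : j * W.n ≤ m - W.h i := h4.mp (by omega)
        have h3 : j ≤ W.n * j := Nat.le_mul_of_pos_left j hn
        constructor <;> omega
    rw [this, Finset.card_range]
  · have : (Finset.range (m + 1)).filter (fun j => W.n * j + W.h i ≤ m) = ∅ := by
      rw [Finset.filter_eq_empty_iff]
      intro j _
      omega
    rw [this, Finset.card_empty]

end Dim

end Fermat.Agent.Lib.S27
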