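/-
Programme Z (S27), reduction half, brick [GR-C7](c) (helper7, prefix `s27g_`): THE SPACES
`L(m · Pinf)` OF THE SPECIAL FIBRE AND THE EQUALITY OF THE GENERA.

Hypotheses: those of `GInf3` ([GR-C4]: `k` algebraically closed, `x̄` a separating coordinate of
degree `W.n`) and `[IsDedekindDomain R̄]` ([JAC]).

* `s27g_mem_range_of_mem_L` : `L(m · Pinf) ⊆ R̄`;
* `s27g_Phib_mem_L_iff` : `Phib b ∈ L(m · Pinf) ↔ δ̄ b ≤ m ∨ b = 0`;
* `s27g_param hsc m`, `s27g_range_param`, **`s27g_finrank_L : dim_k L(m · Pinf) = s27w_count W m`**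
  (the same count as `s27w_finrank_L` over `K`);
* **`s27g_genus_eq`**, **`s27g_riemann_Fb : s19_Riemann k Fb (genusFF K F)`**.
-/
import Fermat.Agent.Lib.S27.GInf3
import Fermat.Agent.Lib.S27.WGrDim
import Fermat.Agent.Lib.S19.EGenus

set_option autoImplicit false
set_option linter.unusedSectionVars false
set_option linter.unusedVariables false

noncomputable section

namespace Fermat.Agent.Lib.S27

open AlgebraicCurve Fermat.Agent.Lib.FF Fermat.Agent.Lib.S44 Fermat.Agent.Lib.S29
  Fermat.Agent.Lib.S19 Fermat.Agent.Lib.S37 Polynomial IsLocalRing WithZero IntermediateField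

variable {K F : Type} [Field K] [Field F] [Algebra K F] {x : F}

/-- the count of `j` with `n j + h i ≤ m`, arithmetic form. -/
theorem s27g_cnt_iff (W : s27r_WD K F x) (m d : ℕ) (i : Fin W.n) :
    W.n * d + W.h i ≤ m ↔ d < s27w_cnt W m i := by
  have hn := W.hn
  unfold s27w_cnt
  split_ifs with h
  · rw [Nat.lt_succ_iff, Nat.le_div_iff_mul_le hn]
    have : d * W.n = W.n * d := Nat.mul_comm _ _
    constructor <;> intro h1 <;> omega
  · constructor
    · intro h1; omega
    · intro h1; exact absurd h1 (Nat.not_lt_zero _)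

variable {W : s27r_WD K F x} {A : ValuationSubring K}

/-- `δ̄ b ≤ m` componentwise. -/
theorem s27g_deltab_le_iff (m : ℕ) (b : Fin W.n → (ResidueField ↥A)[X]) :
    (s27g_deltab W b ≤ m ∨ b = 0) ↔ ∀ i, b i ∈ degreeLT (ResidueField ↥A) (s27w_cnt W m i) := by
  constructor
  · intro h i
    rw [mem_degreeLT]
    by_cases h0 : b i = 0
    · rw [h0, degree_zero]; exact WithBot.bot_lt_coe _
    · rcases h with h | h
      · have h1 := (s27g_wt_le_deltab W b h0).trans h
        unfold s27r_wt at h1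
        exact (natDegree_lt_iff_degree_lt h0).mp ((s27g_cnt_iff W m _ i).mp h1)
      · exact absurd (congrFun h i) h0
  · intro h
    left
    refine s27g_deltab_le W b m fun i hi => ?_
    have h1 := h i
    rw [mem_degreeLT] at h1
    unfold s27r_wt
    exact (s27g_cnt_iff W m _ i).mpr ((natDegree_lt_iff_degree_lt hi).mpr h1)

theorem s27g_Phib_smul (c : ResidueField ↥A) (b : Fin W.n → (ResidueField ↥A)[X]) :
    s27r_Phib W A (fun i => C c * b i) = algebraMap _ (s27r_Rbar W A) c * s27r_Phib W A b := by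
  unfold s27r_Phib
  rw [Finset.mul_sum]
  refine Finset.sum_congr rfl fun i _ => ?_
  rw [map_mul, aeval_C, mul_assoc]

section L

variable [IsDedekindDomain (s27r_Rbar W A)]

open Classical in
theorem s27g_single_apply (hW : s27r_WProps W) (hsc : s27r_SCUnit W A) (m : ℕ)
    (v : Place (ResidueField ↥A) (s27r_Fb W A)) :
    (m • Finsupp.single (s27g_Pinf hW hsc) (1 : ℤ)) v =
      if v = s27g_Pinf hW hsc then (m : ℤ) else 0 := by
  classical
  rw [Finsupp.smul_apply, Finsupp.single_apply]
  split_ifs with h1 h2 h2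
  · simp
  · exact absurd h1.symm h2
  · exact absurd h2.symm h1
  · simp

/-- **`L(m · Pinf)` is contained in the coordinate ring** (`R̄` is the intersection of its
localisations at the height-one primes, which are places different from `Pinf`). -/
theorem s27g_mem_range_of_mem_L (hW : s27r_WProps W) (hsc : s27r_SCUnit W A) {m : ℕ}
    {f : s27r_Fb W A}
    (hf : f ∈ riemannRochSpace (m • Finsupp.single (s27g_Pinf hW hsc) (1 : ℤ))) :
    ∃ y : s27r_Rbar W A, algebraMap (s27r_Rbar W A) (s27r_Fb W A) y = f := by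
  classical
  refine IsDedekindDomain.HeightOneSpectrum.mem_integers_of_valuation_le_one (s27r_Fb W A) f
    fun 𝔭 => ?_
  rcases eq_or_ne f 0 with rfl | hf0
  · rw [map_zero]; exact zero_le
  set Q : Place (ResidueField ↥A) (s27r_Fb W A) :=
    Place.ofHeightOneSpectrum (K := ResidueField ↥A) 𝔭 with hQdef
  have hQ : Q ≠ s27g_Pinf hW hsc := by
    refine s27g_ne_Pinf_of_le hW hsc Q ?_
    show _ ∈ (𝔭.valuation (s27r_Fb W A)).valuationSubring
    rw [Valuation.mem_valuationSubring_iff]
    exact 𝔭.valuation_le_one _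
  have h1 := ((mem_riemannRochSpace_iff.mp hf) Q).resolve_left hf0
  rw [s27g_single_apply, if_neg hQ, neg_zero] at h1
  have h2 : f ∈ Q.toValuationSubring := (ffs_mem_iff_ord_nonneg Q hf0).mpr h1
  exact (Valuation.mem_valuationSubring_iff _ _).mp h2

variable [IsAlgClosed (ResidueField ↥A)]
  [FFGen (ResidueField ↥A) (algebraMap (s27r_Rbar W A) (s27r_Fb W A) (s27r_xb W A))]
  [Algebra.IsSeparable
    (ResidueField ↥A)⟮algebraMap (s27r_Rbar W A) (s27r_Fb W A) (s27r_xb W A)⟯ (s27r_Fb W A)]

/-- membership in `L(m · Pinf)` in terms of the coefficients. -/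
theorem s27g_Phib_mem_L_iff (hW : s27r_WProps W) (hsc : s27r_SCUnit W A)
    (hdeg : Module.finrank
      (ResidueField ↥A)⟮algebraMap (s27r_Rbar W A) (s27r_Fb W A) (s27r_xb W A)⟯ (s27r_Fb W A) = W.n)
    (m : ℕ) (b : Fin W.n → (ResidueField ↥A)[X]) :
    algebraMap (s27r_Rbar W A) (s27r_Fb W A) (s27r_Phib W A b) ∈
      riemannRochSpace (m • Finsupp.single (s27g_Pinf hW hsc) (1 : ℤ)) ↔
      s27g_deltab W b ≤ m ∨ b = 0 := by
  have hne : ∀ b : Fin W.n → (ResidueField ↥A)[X], b ≠ 0 →
      algebraMap (s27r_Rbar W A) (s27r_Fb W A) (s27r_Phib W A b) ≠ 0 := by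
    intro b hb h
    rw [map_eq_zero_iff _ (IsFractionRing.injective (s27r_Rbar W A) (s27r_Fb W A)),
      s27r_Phib_eq_zero_iff hW hsc] at h
    exact hb h
  constructor
  · intro h
    by_cases hb : b = 0
    · exact Or.inr hb
    left
    have h1 := ((mem_riemannRochSpace_iff.mp h) (s27g_Pinf hW hsc)).resolve_left (hne b hb)
    rw [s27g_single_apply, if_pos rfl, s27g_Pinf_ord_Phib hW hsc hb] at h1
    have : ((s27g_deltab W b : ℕ) : ℤ) ≤ (m : ℤ) := by omega
    exact_mod_cast this
  · rintro (h | rfl)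
    · by_cases hb : b = 0
      · rw [hb, s27r_Phib_zero, map_zero]
        exact Submodule.zero_mem _
      rw [mem_riemannRochSpace_iff]
      intro v
      right
      by_cases hv : v = s27g_Pinf hW hsc
      · subst hv
        rw [s27g_single_apply, if_pos rfl, s27g_Pinf_ord_Phib hW hsc hb]
        have : ((s27g_deltab W b : ℕ) : ℤ) ≤ (m : ℤ) := by exact_mod_cast h
        omega
      · rw [s27g_single_apply, if_neg hv, neg_zero]
        exact (ffs_mem_iff_ord_nonneg v (hne b hb)).mp
          (s27g_algebraMap_mem_place hW hsc hdeg v hv _)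
    · rw [s27r_Phib_zero, map_zero]
      exact Submodule.zero_mem _

/-- the parametrisation of `L(m · Pinf)` by coefficient vectors of bounded degrees. -/
def s27g_param (W : s27r_WD K F x) (A : ValuationSubring K) [IsDomain (s27r_Rbar W A)] (m : ℕ) :
    (∀ i : Fin W.n, ↥(degreeLT (ResidueField ↥A) (s27w_cnt W m i))) →ₗ[ResidueField ↥A]
      s27r_Fb W A where
  toFun a := algebraMap (s27r_Rbar W A) (s27r_Fb W A)
    (s27r_Phib W A fun i => (a i : (ResidueField ↥A)[X]))
  map_add' a b := by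
    rw [← map_add, ← s27r_Phib_add]
    rfl
  map_smul' c a := by
    rw [RingHom.id_apply, Algebra.smul_def,
      IsScalarTower.algebraMap_apply (ResidueField ↥A) (s27r_Rbar W A) (s27r_Fb W A),
      ← map_mul, ← s27g_Phib_smul]
    congr 2
    funext i
    show ((c • a i : ↥(degreeLT (ResidueField ↥A) (s27w_cnt W m i))) : (ResidueField ↥A)[X]) =
      C c * (a i : (ResidueField ↥A)[X])
    rw [Submodule.coe_smul, smul_eq_C_mul]

theorem s27g_param_injective (hW : s27r_WProps W) (hsc : s27r_SCUnit W A) (m : ℕ) :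
    Function.Injective (s27g_param W A m) := by
  intro a b h
  have h1 := s27r_Phib_injective hW hsc
    (IsFractionRing.injective (s27r_Rbar W A) (s27r_Fb W A) h)
  funext i
  exact Subtype.ext (congrFun h1 i)

theorem s27g_range_param (hW : s27r_WProps W) (hsc : s27r_SCUnit W A)
    (hdeg : Module.finrank
      (ResidueField ↥A)⟮algebraMap (s27r_Rbar W A) (s27r_Fb W A) (s27r_xb W A)⟯ (s27r_Fb W A) = W.n)
    (m : ℕ) :
    LinearMap.range (s27g_param W A m) =
      riemannRochSpace (m • Finsupp.single (s27g_Pinf hW hsc) (1 : ℤ)) := by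
  ext f
  constructor
  · rintro ⟨a, rfl⟩
    show algebraMap (s27r_Rbar W A) (s27r_Fb W A)
      (s27r_Phib W A fun i => (a i : (ResidueField ↥A)[X])) ∈ _
    rw [s27g_Phib_mem_L_iff hW hsc hdeg, s27g_deltab_le_iff]
    exact fun i => (a i).2
  · intro hf
    obtain ⟨y, rfl⟩ := s27g_mem_range_of_mem_L hW hsc hf
    obtain ⟨b, rfl⟩ := s27r_Phib_surjective hsc y
    rw [s27g_Phib_mem_L_iff hW hsc hdeg, s27g_deltab_le_iff] at hf
    exact ⟨fun i => ⟨b i, hf i⟩, rfl⟩

/-- **`dim_k L(m · Pinf) = #{(i, j) | n j + h i ≤ m}`**, the same count as over `K`. -/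
theorem s27g_finrank_L (hW : s27r_WProps W) (hsc : s27r_SCUnit W A)
    (hdeg : Module.finrank
      (ResidueField ↥A)⟮algebraMap (s27r_Rbar W A) (s27r_Fb W A) (s27r_xb W A)⟯ (s27r_Fb W A) = W.n)
    (m : ℕ) :
    Module.finrank (ResidueField ↥A)
      ↥(riemannRochSpace (m • Finsupp.single (s27g_Pinf hW hsc) (1 : ℤ))) = s27w_count W m := by
  rw [← s27g_range_param hW hsc hdeg,
    LinearMap.finrank_range_of_inj (s27g_param_injective hW hsc m), Module.finrank_pi_fintype]
  unfold s27w_count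
  refine Finset.sum_congr rfl fun i _ => ?_
  rw [(degreeLTEquiv (ResidueField ↥A) (s27w_cnt W m i)).finrank_eq, Module.finrank_fin_fun]

/-- the two curves have the same `dim L(m · ∞)`. -/
theorem s27g_finrank_L_eq (hW : s27r_WProps W) (hsc : s27r_SCUnit W A)
    (hdeg : Module.finrank
      (ResidueField ↥A)⟮algebraMap (s27r_Rbar W A) (s27r_Fb W A) (s27r_xb W A)⟯ (s27r_Fb W A) = W.n)
    (m : ℕ) :
    Module.finrank K ↥(riemannRochSpace (m • Finsupp.single W.vinf (1 : ℤ))) =
      Module.finrank (ResidueField ↥A)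
        ↥(riemannRochSpace (m • Finsupp.single (s27g_Pinf hW hsc) (1 : ℤ))) := by
  rw [s27w_finrank_L, s27g_finrank_L hW hsc hdeg]

/-- **the special fibre has the genus of the generic fibre** (abstract form: any two genera for
which Riemann's theorem holds). -/
theorem s27g_genus_eq [IsAlgClosed K] [FFGen K x] (hW : s27r_WProps W) (hsc : s27r_SCUnit W A)
    (hdeg : Module.finrank
      (ResidueField ↥A)⟮algebraMap (s27r_Rbar W A) (s27r_Fb W A) (s27r_xb W A)⟯ (s27r_Fb W A) = W.n)
    {g g' : ℕ} (hRK : s19_Riemann K F g) (hRk : s19_Riemann (ResidueField ↥A) (s27r_Fb W A) g') :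
    g = g' := by
  refine (s19e_genus_eq_of_finrank_eq hRK hRk (Finsupp.single W.vinf (1 : ℤ))
    (Finsupp.single (s27g_Pinf hW hsc) (1 : ℤ)) ?_ ?_ 0
    fun m _ => s27g_finrank_L_eq hW hsc hdeg m).1
  · rw [Divisor.degree_single, s37dg_deg_eq_one x W.vinf]; norm_num
  · rw [Divisor.degree_single, s37dg_deg_eq_one
      (algebraMap (s27r_Rbar W A) (s27r_Fb W A) (s27r_xb W A)) (s27g_Pinf hW hsc)]
    norm_num

/-- **Riemann's theorem for the special fibre with the genus of the generic fibre.** -/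
theorem s27g_riemann_Fb [IsAlgClosed K] [FFGen K x] (hW : s27r_WProps W) (hsc : s27r_SCUnit W A)
    (hdeg : Module.finrank
      (ResidueField ↥A)⟮algebraMap (s27r_Rbar W A) (s27r_Fb W A) (s27r_xb W A)⟯ (s27r_Fb W A) = W.n)
    (hRK : s19_Riemann K F (genusFF K F))
    (hRk : s19_Riemann (ResidueField ↥A) (s27r_Fb W A)
      (genusFF (ResidueField ↥A) (s27r_Fb W A))) :
    s19_Riemann (ResidueField ↥A) (s27r_Fb W A) (genusFF K F) := by
  rw [s27g_genus_eq hW hsc hdeg hRK hRk]
  exact hRk

/-- the same with Riemann's theorem of both curves supplied by `s19e_riemann_of_sep`. -/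
theorem s27g_riemann_Fb' [IsAlgClosed K] [CharZero K] [FFGen K x] [HasPrincipalDivisors K F]
    [HasPrincipalDivisors (ResidueField ↥A) (s27r_Fb W A)]
    (hW : s27r_WProps W) (hsc : s27r_SCUnit W A)
    (hdeg : Module.finrank
      (ResidueField ↥A)⟮algebraMap (s27r_Rbar W A) (s27r_Fb W A) (s27r_xb W A)⟯ (s27r_Fb W A) = W.n) :
    s19_Riemann (ResidueField ↥A) (s27r_Fb W A) (genusFF K F) :=
  s27g_riemann_Fb hW hsc hdeg (s19e_riemann_of_sep x)
    (s19e_riemann_of_sep (algebraMap (s27r_Rbar W A) (s27r_Fb W A) (s27r_xb W A)))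

end L

end Fermat.Agent.Lib.S27
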