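/-
Programme Z (S27), reduction half, brick [GR-D] (helper4, prefix `s27s_`): ASSEMBLY of the abstract
curve package `s19_Curve` (with `FW := ⊤`) for the model `R_A` of helper5/helper9
(`s27j_OW`, `s27j_redW`, `s27j_r`), with the deep bricks as named hypotheses:

* `hcons : s27j_Cons hW hsc Pinf` — conservation of number (helper9);
* `hscb` — Gauss-orthonormal bases ([SC]);
* `hparam` — parameters at every place of the special fibre ([PARAM-FIN], [PARAM-INF]);
* `degFb`, `pdFb`, `rrFb` — the special fibre (helper2 (C4), helper7 (C7)).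

Everything else (`unit_of_ne`, `const_mem`, `red_const`, `inv_mem`, `fin`, `pi_surj`, `degF`, `pdF`,
`gv`, `scW`, `rrF`, `fw_inv`, `base`, `ratc`, `ratL`) is proved here.
-/
import Fermat.Agent.Lib.S27.JDefs
import Fermat.Agent.Lib.S19.EGenus
import Fermat.Agent.Lib.S37.IRiemann
import Fermat.Agent.Lib.S17.IVal

set_option autoImplicit false
set_option linter.unusedSectionVars false
set_option linter.unusedVariables false
set_option linter.style.haveILetI false
set_option linter.overlappingInstances false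

noncomputable section

namespace Fermat.Agent.Lib.S27

open AlgebraicCurve Fermat.Agent.Lib.FF Fermat.Agent.Lib.S44 Fermat.Agent.Lib.S19
  Fermat.Agent.Lib.S37 Fermat.Agent.Lib.S17 Polynomial IsLocalRing IsDedekindDomain

variable {K F : Type} [Field K] [Field F] [Algebra K F] [IsAlgClosed K] [CharZero K] {x : F}
  [FFGen K x] {W : s27r_WD K F x} {A : ValuationSubring K} [IsDomain (s27r_Rbar W A)]

/-! ### The easy fields of `s19_RD` -/

/-- the residue map kills exactly the non-units. -/
theorem s27s_unit_of_ne (A : ValuationSubring K) (a : ↥A) (ha : residue ↥A a ≠ 0) :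
    ((a : K))⁻¹ ∈ A := by
  have hu : IsUnit a := by
    by_contra hnu
    exact ha ((residue_eq_zero_iff a).mpr ((mem_maximalIdeal a).mpr hnu))
  exact s17i_inv_mem A hu

theorem s27s_const_mem (hW : s27r_WProps W) (hsc : s27r_SCUnit W A) (c : ↥A) :
    algebraMap K F (c : K) ∈ s27j_OW hW hsc :=
  s27j_coe_mem_OW hW hsc (s27r_constA W A c)

theorem s27s_red_const (hW : s27r_WProps W) (hsc : s27r_SCUnit W A) (c : ↥A) :
    s27j_redW hW hsc ⟨algebraMap K F (c : K), s27s_const_mem hW hsc c⟩ =
      algebraMap (ResidueField ↥A) (s27r_Fb W A) (residue ↥A c) := by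
  have h1 := s27j_redW_coe hW hsc (s27r_constA W A c)
  have h2 : (⟨algebraMap K F (c : K), s27s_const_mem hW hsc c⟩ : ↥(s27j_OW hW hsc)) =
      ⟨((s27r_constA W A c : ↥(s27r_RA W A)) : F), s27j_coe_mem_OW hW hsc _⟩ := rfl
  rw [h2, h1, s27j_clW_eq, ← s27r_algebraMap_residue,
    ← IsScalarTower.algebraMap_apply (ResidueField ↥A) (s27r_Rbar W A) (s27r_Fb W A)]

theorem s27s_inv_mem (hW : s27r_WProps W) (hsc : s27r_SCUnit W A) (y : ↥(s27j_OW hW hsc))
    (hy : s27j_redW hW hsc y ≠ 0) : ((y : F))⁻¹ ∈ s27j_OW hW hsc :=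
  s27j_inv_mem (s27j_gd hW hsc) y hy

/-- divisors of functions have finite support. -/
theorem s27s_fin (x : F) [FFGen K x] (y : F) (hy : y ≠ 0) :
    {P : Place K F | P.ord y ≠ 0}.Finite := by
  obtain ⟨D, hD, -⟩ := s37i_exists_divisor (K := K) x y hy
  have : {P : Place K F | P.ord y ≠ 0} = ↑D.support := by
    ext P
    rw [Set.mem_ofPred_eq, Finset.mem_coe, Finsupp.mem_support_iff, hD]
  rw [this]
  exact D.support.finite_toSet

/-- a finite extension of `K(x)` has principal divisors. -/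
theorem s27s_pd (x : F) [FFGen K x] : HasPrincipalDivisors K F :=
  ⟨fun f hf => s37i_exists_divisor (K := K) x f hf⟩

/-- the Gauss valuation has the value group of `A`. -/
theorem s27s_gv (hW : s27r_WProps W) (hsc : s27r_SCUnit W A) (f : F) (hf : f ≠ 0) :
    ∃ c : K, c ≠ 0 ∧ algebraMap K F c * f ∈ s27j_OW hW hsc ∧
      (algebraMap K F c * f)⁻¹ ∈ s27j_OW hW hsc := by
  obtain ⟨c, hc, hm, -, hinv⟩ := s27j_gv (s27j_gd hW hsc) f hf
  exact ⟨c, hc, hm, hinv⟩

/-! ### The base -/

/-- **the base**: `l = p` is in the maximal ideal and every element of the maximal ideal is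
`p`-adically nilpotent (rank one). -/
theorem s27s_base (A : ValuationSubring K) (abv : AbsoluteValue K ℝ)
    (hA : ∀ a : K, a ∈ A ↔ abv a ≤ 1) (p : ℕ) (hp0 : (p : K) ≠ 0) (hp : abv (p : K) < 1) :
    ∃ hpA : (p : K) ∈ A, s19_Base (⟨(p : K), hpA⟩ : ↥A) (s19a_W A (⊤ : Subring F)) := by
  have hpA : (p : K) ∈ A := (hA _).mpr hp.le
  have hnu : ∀ c : ↥A, c ∈ maximalIdeal ↥A → abv (c : K) < 1 := by
    intro c hc
    by_contra hge
    have h1 : abv (c : K) = 1 := le_antisymm ((hA _).mp c.2) (not_lt.mp hge)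
    have hc0 : (c : K) ≠ 0 := by
      intro h0
      rw [h0, map_zero] at h1
      exact zero_ne_one h1
    have hinv : ((c : K))⁻¹ ∈ A := by
      rw [hA, map_inv₀, h1, inv_one]
    apply (mem_maximalIdeal c).mp hc
    refine ⟨⟨c, ⟨_, hinv⟩, ?_, ?_⟩, rfl⟩
    · apply Subtype.ext
      show (c : K) * (c : K)⁻¹ = 1
      exact mul_inv_cancel₀ hc0
    · apply Subtype.ext
      show (c : K)⁻¹ * (c : K) = 1
      exact inv_mul_cancel₀ hc0
  refine ⟨hpA, ⟨?_, ?_, ?_⟩⟩
  · rw [mem_maximalIdeal, mem_nonunits_iff]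
    intro hu
    have hinv := s17i_inv_mem A hu
    rw [hA, map_inv₀] at hinv
    have hpos : 0 < abv (p : K) := abv.pos hp0
    have : 1 < (abv (p : K))⁻¹ := (one_lt_inv₀ hpos).mpr hp
    exact absurd hinv (not_le.mpr this)
  · intro c hc
    have hpos : 0 < abv (p : K) := abv.pos hp0
    obtain ⟨e, he⟩ := exists_pow_lt_of_lt_one hpos (hnu c hc)
    refine ⟨e, ?_⟩
    have hq : ((c : K) ^ e / (p : K)) ∈ A := by
      rw [hA, map_div₀, map_pow, div_le_one hpos]
      exact he.le
    refine ⟨⟨_, hq⟩, ?_⟩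
    apply Subtype.ext
    show (c : K) ^ e = (p : K) * ((c : K) ^ e / (p : K))
    field_simp
  · intro w hw
    obtain ⟨u, hu⟩ := hw
    have hmem : ((u⁻¹ : (↥A)ˣ) : ↥A) ∈ s19a_W A (⊤ : Subring F) := by
      rw [s19a_mem_W]
      exact Subring.mem_top _
    refine ⟨⟨w, ⟨_, hmem⟩, ?_, ?_⟩, rfl⟩
    · apply Subtype.ext
      show (w : ↥A) * ((u⁻¹ : (↥A)ˣ) : ↥A) = 1
      rw [← hu]
      exact u.mul_inv
    · apply Subtype.ext
      show ((u⁻¹ : (↥A)ˣ) : ↥A) * (w : ↥A) = 1
      rw [← hu]
      exact u.inv_mul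

/-! ### The reduction datum and the curve -/

variable [IsDedekindDomain (s27r_Rbar W A)]

/-- **the reduction datum of the model**, from conservation of number. -/
theorem s27s_rd (hW : s27r_WProps W) (hsc : s27r_SCUnit W A)
    (Pinf : Place (ResidueField ↥A) (s27r_Fb W A)) (hcons : s27j_Cons hW hsc Pinf) :
    s19_RD A (residue ↥A) (s27j_OW hW hsc) (s27j_redW hW hsc) (s27j_r hW hsc Pinf) where
  unit_of_ne := s27s_unit_of_ne A
  const_mem := s27s_const_mem hW hsc
  red_const := s27s_red_const hW hsc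
  inv_mem := s27s_inv_mem hW hsc
  fin := s27s_fin x
  cons := hcons

/-- a finite-dimensional subspace is the span of a finite family. -/
theorem s27s_exists_span (L : Submodule K F) [Module.Finite K ↥L] :
    ∃ (N : ℕ) (b : Fin N → F), Submodule.span K (Set.range b) = L := by
  set B := Module.finBasis K ↥L with hB
  refine ⟨Module.finrank K ↥L, fun i => ((B i : ↥L) : F), ?_⟩
  have h1 : (Set.range fun i => ((B i : ↥L) : F)) = L.subtype '' Set.range B := by
    rw [← Set.range_comp]
    rfl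
  rw [h1, Submodule.span_image, B.span_eq, Submodule.map_top, Submodule.range_subtype]

/-- **THE ASSEMBLY**: the model `R_A` carries the abstract curve package with `FW := ⊤`, given
conservation of number, Gauss-orthonormal bases, parameters and the three facts on the special
fibre. -/
theorem s27s_curve (hW : s27r_WProps W) (hsc : s27r_SCUnit W A)
    (Pinf : Place (ResidueField ↥A) (s27r_Fb W A)) (abv : AbsoluteValue K ℝ)
    (hA : ∀ a : K, a ∈ A ↔ abv a ≤ 1) (p : ℕ) (hp0 : (p : K) ≠ 0) (hp : abv (p : K) < 1)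
    (hcons : s27j_Cons hW hsc Pinf)
    (hscb : ∀ (n : ℕ) (b : Fin n → F), LinearIndependent K b →
      ∃ b' : Fin n → F, Submodule.span K (Set.range b') = Submodule.span K (Set.range b) ∧
        ∃ hb' : ∀ i, b' i ∈ s27j_OW hW hsc,
          LinearIndependent (ResidueField ↥A) fun i => s27j_redW hW hsc ⟨b' i, hb' i⟩)
    (hparam : ∀ Q : Place (ResidueField ↥A) (s27r_Fb W A),
      ∃ t : F, s19a_IsParam (s27j_redW hW hsc) (s27j_r hW hsc Pinf) Q t)
    (degFb : ∀ Q : Place (ResidueField ↥A) (s27r_Fb W A), Q.deg = 1)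
    (pdFb : HasPrincipalDivisors (ResidueField ↥A) (s27r_Fb W A))
    (rrFb : s19_Riemann (ResidueField ↥A) (s27r_Fb W A) (genusFF K F)) :
    ∃ hpA : (p : K) ∈ A,
      s19_Curve x A (residue ↥A) (s27j_OW hW hsc) (s27j_redW hW hsc) (s27j_r hW hsc Pinf) ⊤
        (⟨(p : K), hpA⟩ : ↥A) (genusFF K F) := by
  obtain ⟨hpA, hbase⟩ := s27s_base (F := F) A abv hA p hp0 hp
  haveI : HasPrincipalDivisors K F := s27s_pd x
  have hrrF : s19_Riemann K F (genusFF K F) := s19e_riemann_of_sep x
  refine ⟨hpA, ?_⟩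
  exact
    { rd := s27s_rd hW hsc Pinf hcons
      pi_surj := residue_surjective
      degF := fun P => ff_deg_eq_one K x P
      degFb := degFb
      pdF := inferInstance
      pdFb := pdFb
      gv := s27s_gv hW hsc
      sc := hscb
      scW := fun n b hb _ => by
        obtain ⟨b', h1, hb', h2⟩ := hscb n b hb
        exact ⟨b', h1, fun _ => Subring.mem_top _, hb', h2⟩
      rrF := hrrF
      rrFb := rrFb
      fw_inv := fun _ _ => Subring.mem_top _
      base := hbase
      param := fun Q => by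
        obtain ⟨t, ht⟩ := hparam Q
        exact ⟨t, Subring.mem_top _, ht⟩
      ratc := fun _ _ _ _ _ _ => Subring.mem_top _
      ratL := fun n Q t ht _ m => by
        haveI := hrrF.fin (∑ j, Finsupp.single
          (s19a_pt x (s27s_rd hW hsc Pinf hcons) (ht j) 0) (m j))
        obtain ⟨N, b, hb⟩ := s27s_exists_span (K := K) (riemannRochSpace (∑ j, Finsupp.single
          (s19a_pt x (s27s_rd hW hsc Pinf hcons) (ht j) 0) (m j)))
        exact ⟨N, b, fun _ => Subring.mem_top _, hb⟩ }

end Fermat.Agent.Lib.S27
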