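/-
Programme Z (S27), reduction half, brick [GR-D]/[PARAM-INF] (helper4, prefix `s27s_`): THE PARAMETER
AT THE POINT AT INFINITY of the special fibre.

`t := w_{n-1} / x ^ ((h_{n-1} + 1) / n)` is Gauss-integral, its reduction is helper7's uniformiser
`s27g_tinf` (order `1` at `s27g_Pinf`), it is regular at `vinf` (order `1`) and at every
non-integral place `P ≠ vinf` (there `x(P) ∉ A`, so `x` is a unit at `P`); and no integral place
reduces to `Pinf` (`s27s_r_ne_Pinf`).
-/
import Fermat.Agent.Lib.S27.JDefs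
import Fermat.Agent.Lib.S27.GInf3
import Fermat.Agent.Lib.S19.ADisc

set_option autoImplicit false
set_option linter.unusedSectionVars false
set_option linter.unusedVariables false
set_option linter.style.haveILetI false
set_option linter.overlappingInstances false

noncomputable section

namespace Fermat.Agent.Lib.S27

open AlgebraicCurve Fermat.Agent.Lib.FF Fermat.Agent.Lib.S44 Fermat.Agent.Lib.S19
  Fermat.Agent.Lib.S37 Polynomial IsLocalRing IsDedekindDomain

variable {K F : Type} [Field K] [Field F] [Algebra K F] [IsAlgClosed K] [CharZero K] {x : F}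
  [FFGen K x] {W : s27r_WD K F x} {A : ValuationSubring K} [IsDomain (s27r_Rbar W A)]
  [IsDedekindDomain (s27r_Rbar W A)]

/-- an integral place does not reduce to the point at infinity. -/
theorem s27s_r_ne_Pinf (hW : s27r_WProps W) (hsc : s27r_SCUnit W A) {P : Place K F}
    (hP : s27j_Int W A P) : s27j_r hW hsc (s27g_Pinf hW hsc) P ≠ s27g_Pinf hW hsc := by
  rw [s27j_r_of_int hW hsc _ hP]
  exact s27g_ne_Pinf_of_le hW hsc _ (s37d_algebraMap_mem_ofHeightOneSpectrum _ _)

/-- the places reducing to the point at infinity are the non-integral ones. -/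
theorem s27s_r_eq_Pinf_iff (hW : s27r_WProps W) (hsc : s27r_SCUnit W A) (P : Place K F) :
    s27j_r hW hsc (s27g_Pinf hW hsc) P = s27g_Pinf hW hsc ↔ ¬ s27j_Int W A P := by
  constructor
  · intro h hP
    exact s27s_r_ne_Pinf hW hsc hP h
  · intro h
    exact s27j_r_of_not_int hW hsc _ h

theorem s27s_w_ne_zero (hW : s27r_WProps W) (i : Fin W.n) : W.w i ≠ 0 := by
  classical
  intro h0
  have h1 : s27r_Phi W (Pi.single i 1) = 0 := by
    rw [s27r_Phi_single, map_one, one_mul, h0]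
  have h2 := hW.ind _ h1
  have h3 := congrFun h2 i
  rw [Pi.single_eq_same, Pi.zero_apply] at h3
  exact one_ne_zero h3

theorem s27s_x_ne_zero (W : s27r_WD K F x) : x ≠ 0 := by
  intro h0
  have key : ∀ y : F, y = 0 → W.vinf.ord y = 0 := fun y hy => by rw [hy, Place.ord_zero]
  have h1 := W.ord_x
  rw [key x h0] at h1
  have := W.hn
  omega

/-- **the parameter at infinity.** -/
theorem s27s_param_inf (hW : s27r_WProps W) (hsc : s27r_SCUnit W A) :
    ∃ t : F, s19a_IsParam (s27j_redW hW hsc) (s27j_r hW hsc (s27g_Pinf hW hsc))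
      (s27g_Pinf hW hsc) t := by
  classical
  set i₁ : Fin W.n := ⟨W.n - 1, Nat.sub_lt W.hn Nat.one_pos⟩ with hi₁
  set m : ℕ := (W.h i₁ + 1) / W.n with hm
  have hx0 : x ≠ 0 := s27s_x_ne_zero W
  have hxm0 : x ^ m ≠ 0 := pow_ne_zero _ hx0
  have hw0 : W.w i₁ ≠ 0 := s27s_w_ne_zero hW i₁
  set fw : ↥(s27r_RA W A) := ⟨W.w i₁, s27r_w_mem W A i₁⟩ with hfw
  set gx : ↥(s27r_RA W A) := (⟨x, s27r_x_mem W A⟩ : ↥(s27r_RA W A)) ^ m with hgx
  have hgxcoe : (gx : F) = x ^ m := by
    rw [hgx, SubmonoidClass.coe_pow]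
  have hxb0 : s27r_xb W A ≠ 0 := by
    intro h0
    apply s27g_xF_ne_zero hW hsc
    rw [h0, map_zero]
  have hgxN : gx ∉ s27r_mRA W A := by
    intro hmem
    have h1 : s27r_mk W A gx = 0 := Ideal.Quotient.eq_zero_iff_mem.mpr hmem
    rw [hgx, map_pow] at h1
    exact hxb0 (pow_eq_zero_iff (M₀ := s27r_Rbar W A) (n := m) (a := s27r_xb W A)
      (by
        intro hm0
        rw [hm0, pow_zero] at h1
        exact one_ne_zero h1) |>.mp h1)
  set t : F := W.w i₁ / x ^ m with ht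
  have hy : t * (gx : F) = (fw : F) := by
    rw [hgxcoe, ht, hfw]
    field_simp
  have htO : t ∈ s27j_OW hW hsc := (s27j_mem_OW hW hsc t).mpr ⟨fw, gx, hgxN, hy⟩
  have hred : s27j_redW hW hsc ⟨t, htO⟩ = s27g_tinf W A := by
    rw [s27j_redW_eq hW hsc ⟨t, htO⟩ fw gx hgxN hy, s27j_clW_eq, s27j_clW_eq, hgx, map_pow,
      map_pow]
    rfl
  have hmem : t ∈ s19a_G (s27j_OW hW hsc) (s27j_r hW hsc (s27g_Pinf hW hsc))
      (s27g_Pinf hW hsc) := by
    refine ⟨htO, fun P hP => ?_⟩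
    have hnint : ¬ s27j_Int W A P := (s27s_r_eq_Pinf_iff hW hsc P).mp hP
    by_cases hv : P = W.vinf
    · rw [hv]
      have ht0 : t ≠ 0 := div_ne_zero hw0 hxm0
      rw [ff_mem_iff_ord_nonneg _ ht0, ht, div_eq_mul_inv,
        W.vinf.ord_mul hw0 (inv_ne_zero hxm0), Place.ord_inv, ← zpow_natCast, Place.ord_zpow, W.ord_w, W.ord_x]
      have h1 := W.h_mod i₁
      have hn := W.hn
      have h2 : (W.h i₁ + 1) % W.n = 0 := by
        rw [Nat.add_mod, h1]
        show (W.n - 1 + 1 % W.n) % W.n = 0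
        rcases Nat.lt_or_ge 1 W.n with h3 | h3
        · rw [Nat.mod_eq_of_lt h3, Nat.sub_add_cancel hn, Nat.mod_self]
        · have : W.n = 1 := le_antisymm h3 hn
          rw [this]
      have h3 : W.n * m = W.h i₁ + 1 := Nat.mul_div_cancel' (Nat.dvd_of_mod_eq_zero h2)
      have h4 : ((W.n : ℤ)) * (m : ℤ) = (W.h i₁ : ℤ) + 1 := by exact_mod_cast h3
      nlinarith
    · have hxP : x ∈ P.toValuationSubring := W.x_mem P hv
      have hwP : W.w i₁ ∈ P.toValuationSubring := W.w_mem i₁ P hv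
      have hev : s37pv_ev x P ⟨x, hxP⟩ ∉ A := fun hA => hnint ⟨hxP, hA⟩
      have hev0 : s37pv_ev x P ⟨x, hxP⟩ ≠ 0 := fun h0 => hev (h0 ▸ A.zero_mem)
      have hu : IsUnit (⟨x, hxP⟩ : ↥P.toValuationSubring) := by
        by_contra hnu
        exact hev0 ((s37pv_ev_eq_zero_iff x P _).mpr ((mem_maximalIdeal _).mpr hnu))
      have hinv : x⁻¹ ∈ P.toValuationSubring := ff_inv_mem_of_isUnit P hu
      rw [ht, div_eq_mul_inv, ← inv_pow]
      exact P.toValuationSubring.mul_mem _ _ hwP (pow_mem hinv m)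
  refine ⟨t, ⟨hmem, ?_⟩⟩
  have h1 : (⟨t, (s19a_mem_G.mp hmem).1⟩ : ↥(s27j_OW hW hsc)) = ⟨t, htO⟩ := rfl
  rw [h1, hred]
  exact s27g_Pinf_ord_tinf hW hsc

end Fermat.Agent.Lib.S27
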