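/-
Programme Z (S27), reduction half, brick [GR-D] (helper4, prefix `s27s_`): THE CURVE BRICK
`s27r_CurveBrick` of helper5's `RFinal.lean`, from

* `s27s_ConsBrick` — conservation of number for the model with helper7's point at infinity
  (helper9);
* `s27s_ParamFinBrick` — parameters at the finite places of the special fibre (helper6);

and the closed bricks: the assembly `s27s_curve` (SAsm), `s27s_param_inf` (SParamInf), helper8's
`s27e_sc`, helper2's (C4) and helper7's (C6)/(C7).
-/
import Fermat.Agent.Lib.S27.RFinal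
import Fermat.Agent.Lib.S27.SAsm
import Fermat.Agent.Lib.S27.SParamInf
import Fermat.Agent.Lib.S27.ESc
import Fermat.Agent.Lib.S27.GInf4

set_option autoImplicit false
set_option linter.unusedSectionVars false
set_option linter.unusedVariables false
set_option linter.style.haveILetI false
set_option linter.overlappingInstances false

noncomputable section

namespace Fermat.Agent.Lib.S27

open AlgebraicCurve Fermat.Agent.Lib.FF Fermat.Agent.Lib.S44 Fermat.Agent.Lib.S19
  Fermat.Agent.Lib.S37 Polynomial IsLocalRing IsDedekindDomain IntermediateField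

/-- **the open brick of helper9**: conservation of number for the model, with helper7's point at
infinity. -/
def s27s_ConsBrick : Prop :=
  ∀ (K F : Type) [Field K] [Field F] [Algebra K F] [IsAlgClosed K] [CharZero K] (x : F)
    [FFGen K x] (W : s27r_WD K F x) (hW : s27r_WProps W) (A : ValuationSubring K)
    (hsc : s27r_SCUnit W A) (p : ℕ) [Fact p.Prime] (hNp : W.n < p)
    [IsDomain (s27r_Rbar W A)] [IsDedekindDomain (s27r_Rbar W A)]
    [IsAlgClosed (ResidueField ↥A)] [CharP (ResidueField ↥A) p],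
    s27j_Cons hW hsc (s27g_Pinf hW hsc)

/-- **the open brick of helper6**: parameters at the finite places. -/
def s27s_ParamFinBrick : Prop :=
  ∀ (K F : Type) [Field K] [Field F] [Algebra K F] [IsAlgClosed K] [CharZero K] (x : F)
    [FFGen K x] (W : s27r_WD K F x) (hW : s27r_WProps W) (A : ValuationSubring K)
    (hsc : s27r_SCUnit W A) [IsDomain (s27r_Rbar W A)] [IsDedekindDomain (s27r_Rbar W A)]
    (Pinf : Place (ResidueField ↥A) (s27r_Fb W A))
    (Q : Place (ResidueField ↥A) (s27r_Fb W A)) (hQ : Q ≠ Pinf)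
    (hQR : ∀ y : s27r_Rbar W A,
      algebraMap (s27r_Rbar W A) (s27r_Fb W A) y ∈ Q.toValuationSubring),
    ∃ t : F, s19a_IsParam (s27j_redW hW hsc) (s27j_r hW hsc Pinf) Q t

/-- **THE CURVE BRICK** from the two open bricks. -/
theorem s27s_curveBrick_of (hcons : s27s_ConsBrick) (hpf : s27s_ParamFinBrick) :
    s27r_CurveBrick := by
  intro K F _ _ _ _ _ x _ W hW A hsc abv hna hA p _ hNp hpabv _ _ _ _
  classical
  set Pinf := s27g_Pinf hW hsc with hPinf
  haveI : FFGen (ResidueField ↥A)
      (algebraMap (s27r_Rbar W A) (s27r_Fb W A) (s27r_xb W A)) := s27b_ffGen_xF hW hsc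
  haveI : Algebra.IsSeparable
      ↥(ResidueField ↥A)⟮algebraMap (s27r_Rbar W A) (s27r_Fb W A) (s27r_xb W A)⟯
      (s27r_Fb W A) := s27b_isSeparable_xF hW hsc p hNp
  have hdeg : Module.finrank
      ↥(ResidueField ↥A)⟮algebraMap (s27r_Rbar W A) (s27r_Fb W A) (s27r_xb W A)⟯
      (s27r_Fb W A) = W.n := s27b_finrank_xF hW hsc
  haveI : HasPrincipalDivisors K F := s27s_pd x
  have hRK : s19_Riemann K F (genusFF K F) := s19e_riemann_of_sep x
  have hp0 : ((p : ℕ) : K) ≠ 0 := Nat.cast_ne_zero.mpr (Fact.out : p.Prime).ne_zero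
  have hparam : ∀ Q : Place (ResidueField ↥A) (s27r_Fb W A),
      ∃ t : F, s19a_IsParam (s27j_redW hW hsc) (s27j_r hW hsc Pinf) Q t := by
    intro Q
    by_cases hQ : Q = Pinf
    · rw [hQ]
      exact s27s_param_inf hW hsc
    · exact hpf K F x W hW A hsc Pinf Q hQ
        (fun y => s27g_algebraMap_mem_place hW hsc hdeg Q hQ y)
  obtain ⟨hpA, hC⟩ := s27s_curve hW hsc Pinf abv hA p hp0 hpabv
    (hcons K F x W hW A hsc p hNp) (s27e_sc hW hsc) hparam (s27b_deg_eq_one_Fb hW hsc)
    (s27b_hasPrincipalDivisors_Fb hW hsc p hNp)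
    (s27g_riemann_Fb hW hsc hdeg hRK (s27b_riemann_Fb hW hsc p hNp))
  refine ⟨s27j_OW hW hsc, s27j_redW hW hsc, s27j_r hW hsc Pinf, ?_⟩
  have hl : (((p : ℕ) : ↥A)) = ⟨((p : ℕ) : K), hpA⟩ := Subtype.ext (by simp)
  rw [hl]
  exact hC

end Fermat.Agent.Lib.S27
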