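/-
Programme Z (S27), brick [SP] (helper4, prefix `s27s_`), file 5:
THE LIMIT PACKAGE for the `ℓ`-fold-zero system (generalises `Lib/S17/YLimit`).  `K` a field with a
non-archimedean real absolute value `abv`, `A` its unit ball.  From the Newton sequence of `SSys`
we build, in the Cauchy completion `CauSeq.Completion.Cauchy abv`, the limit package `s27s_Limit`
of `SAlg`; then `s27s_lfold_zeros`: exact `ℓ`-fold zeros on a family of discs.
-/
import Fermat.Agent.Lib.S27.SAlg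
import Fermat.Agent.Lib.S17.YLimit

set_option autoImplicit false
set_option linter.unusedSectionVars false
set_option linter.unusedVariables false

noncomputable section

namespace Fermat.Agent.Lib.S27

open IsLocalRing Fermat.Agent.Lib.S19 Fermat.Agent.Lib.S17 CauSeq CauSeq.Completion

universe u

section seq

variable {K : Type u} [Field K] {A : ValuationSubring K} (abv : AbsoluteValue K ℝ)
  (hna : ∀ x y, abv (x + y) ≤ max (abv x) (abv y)) (hA : ∀ x : K, x ∈ A ↔ abv x ≤ 1)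
  {W : Subring ↥A} {ι : Type*} [Fintype ι] [DecidableEq ι]
  {G : ι → Type*} [∀ i, CommRing (G i)] [∀ i, Algebra ↥A (G i)] (D : ∀ i, s19_Disc ↥A W (G i))
  (L : ℕ) (ψ0 : ∀ i, G i) (ψ : ι × Fin L → ∀ i, G i)
  {d₀ : ↥A} {z : ℕ → s27s_Ix ι L → ↥(maximalIdeal ↥A)} (N : s27s_NSeq D L ψ0 ψ d₀ z)

include N in
lemma s27s_fast_c (κ : ι × Fin L) :
    s17y_Fast A d₀ fun n => ((z n (Sum.inl κ) : ↥(maximalIdeal ↥A)) : ↥A) :=
  fun n => N.step n (Sum.inl κ)

include N in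
lemma s27s_fast_tc (i : ι) (j : ℕ) (h : G i) :
    s17y_Fast A d₀ fun n => s27s_tc (D i) j (z n (Sum.inr i)) h := fun n =>
  (N.step n (Sum.inr i)).trans (s27s_tc_dvd (D i) j (z (n + 1) (Sum.inr i)) (z n (Sum.inr i)) h)

/-- the sequence of coefficients `c n κ`. -/
def s27s_cSeq (κ : ι × Fin L) : CauSeq K abv :=
  s17y_cau abv hna hA N.d_mem _ (s27s_fast_c D L ψ0 ψ N κ)

/-- the sequence of the `j`-th Taylor coefficients of `h` at `q n i`, as an additive map. -/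
def s27s_tSeq (i : ι) (j : ℕ) : G i →+ CauSeq K abv where
  toFun h := s17y_cau abv hna hA N.d_mem _ (s27s_fast_tc D L ψ0 ψ N i j h)
  map_zero' := CauSeq.ext fun n => by simp [s27s_tc_zero_fun]
  map_add' g h := CauSeq.ext fun n => by simp [s27s_tc_add]

/-- the sequence of values `h (q n i)`, as a ring homomorphism. -/
def s27s_eSeq (i : ι) : G i →+* CauSeq K abv where
  toFun h := s27s_tSeq abv hna hA D L ψ0 ψ N i 0 h
  map_one' := CauSeq.ext fun n => by simp [s27s_tSeq]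
  map_mul' g h := CauSeq.ext fun n => by simp [s27s_tSeq]
  map_zero' := CauSeq.ext fun n => by simp [s27s_tSeq]
  map_add' g h := CauSeq.ext fun n => by simp [s27s_tSeq]

@[simp] lemma s27s_cSeq_apply (κ : ι × Fin L) (n : ℕ) :
    s27s_cSeq abv hna hA D L ψ0 ψ N κ n = (((z n (Sum.inl κ) : ↥(maximalIdeal ↥A)) : ↥A) : K) := rfl

@[simp] lemma s27s_tSeq_apply (i : ι) (j : ℕ) (h : G i) (n : ℕ) :
    s27s_tSeq abv hna hA D L ψ0 ψ N i j h n =
      ((s27s_tc (D i) j (z n (Sum.inr i)) h : ↥A) : K) := rfl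

@[simp] lemma s27s_eSeq_apply (i : ι) (h : G i) (n : ℕ) :
    s27s_eSeq abv hna hA D L ψ0 ψ N i h n = (((D i).ev (z n (Sum.inr i)) h : ↥A) : K) := rfl

/-- the limit coefficient. -/
def s27s_cL (κ : ι × Fin L) : Cauchy abv := mk (s27s_cSeq abv hna hA D L ψ0 ψ N κ)

/-- evaluation at the limit point. -/
def s27s_eL (i : ι) : G i →+* Cauchy abv :=
  (s17y_mkHom abv).comp (s27s_eSeq abv hna hA D L ψ0 ψ N i)

/-- Taylor coefficients at the limit point. -/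
def s27s_dL (i : ι) (j : ℕ) : G i →+ Cauchy abv :=
  (s17y_mkHom abv).toAddMonoidHom.comp (s27s_tSeq abv hna hA D L ψ0 ψ N i j)

lemma s27s_eL_apply (i : ι) (h : G i) :
    s27s_eL abv hna hA D L ψ0 ψ N i h = mk (s27s_eSeq abv hna hA D L ψ0 ψ N i h) := rfl

lemma s27s_dL_apply (i : ι) (j : ℕ) (h : G i) :
    s27s_dL abv hna hA D L ψ0 ψ N i j h = mk (s27s_tSeq abv hna hA D L ψ0 ψ N i j h) := rfl

lemma s27s_dL_zero (i : ι) (h : G i) :
    s27s_dL abv hna hA D L ψ0 ψ N i 0 h = s27s_eL abv hna hA D L ψ0 ψ N i h := rfl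

lemma s27s_eL_const (i : ι) (a : ↥A) :
    s27s_eL abv hna hA D L ψ0 ψ N i (algebraMap ↥A (G i) a) = mk (const abv (a : K)) := by
  rw [s27s_eL_apply]
  congr 1
  exact CauSeq.ext fun n => by simp

lemma s27s_dL_mul (i : ι) (j : ℕ) (g h : G i) :
    s27s_dL abv hna hA D L ψ0 ψ N i j (g * h) =
      ∑ p ∈ Finset.HasAntidiagonal.antidiagonal j,
        s27s_dL abv hna hA D L ψ0 ψ N i p.1 g * s27s_dL abv hna hA D L ψ0 ψ N i p.2 h := by
  have h1 : s27s_tSeq abv hna hA D L ψ0 ψ N i j (g * h) =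
      ∑ p ∈ Finset.HasAntidiagonal.antidiagonal j,
        s27s_tSeq abv hna hA D L ψ0 ψ N i p.1 g * s27s_tSeq abv hna hA D L ψ0 ψ N i p.2 h := by
    refine CauSeq.ext fun n => ?_
    have h2 : ∀ X : CauSeq K abv, X n = s17y_evalHom abv n X := fun X => rfl
    rw [h2 (∑ p ∈ Finset.HasAntidiagonal.antidiagonal j, _), map_sum]
    simp only [map_mul, s17y_evalHom_apply, s27s_tSeq_apply]
    rw [s27s_tc_mul,
      Finset.Nat.sum_antidiagonal_eq_sum_range_succ (fun a b =>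
        (((s27s_tc (D i) a (z n (Sum.inr i)) g : ↥A) : K)) *
          ((s27s_tc (D i) b (z n (Sum.inr i)) h : ↥A) : K)) j]
    push_cast
    rfl
  rw [s27s_dL_apply, h1]
  have h3 : ∀ X : CauSeq K abv, mk X = s17y_mkHom abv X := fun X => rfl
  rw [h3, map_sum]
  simp only [map_mul]
  rfl

lemma s27s_dL_const (i : ι) (j : ℕ) (a : ↥A) :
    s27s_dL abv hna hA D L ψ0 ψ N i (j + 1) (algebraMap ↥A (G i) a) = 0 := by
  rw [s27s_dL_apply]
  have : s27s_tSeq abv hna hA D L ψ0 ψ N i (j + 1) (algebraMap ↥A (G i) a) = 0 :=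
    CauSeq.ext fun n => by simp [s27s_tc_const]
  rw [this]
  rfl

lemma s27s_dL_one_t (i : ι) : s27s_dL abv hna hA D L ψ0 ψ N i 1 (D i).t = 1 := by
  rw [s27s_dL_apply]
  have : s27s_tSeq abv hna hA D L ψ0 ψ N i 1 (D i).t = 1 :=
    CauSeq.ext fun n => by simp [s27s_tc_one_t]
  rw [this]
  rfl

lemma s27s_dL_t (i : ι) (j : ℕ) : s27s_dL abv hna hA D L ψ0 ψ N i (j + 2) (D i).t = 0 := by
  rw [s27s_dL_apply]
  have : s27s_tSeq abv hna hA D L ψ0 ψ N i (j + 2) (D i).t = 0 :=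
    CauSeq.ext fun n => by simp [s27s_tc_t]
  rw [this]
  rfl

/-- the equation of the system with disc `i` and order `j ≤ L`. -/
lemma s27s_exists_eqn (i : ι) (j : ℕ) (hj : j ≤ L) :
    ∃ m : s27s_Ix ι L, ∀ w : s27s_Ix ι L → ↥(maximalIdeal ↥A), s27s_F D L ψ0 ψ w m =
      s27s_tc (D i) j (s27s_qz L w i) (s27s_Psi L ψ0 ψ (s27s_cz L w) i) := by
  rcases Nat.lt_or_eq_of_le hj with hlt | rfl
  · exact ⟨Sum.inl (i, ⟨j, hlt⟩), fun w => rfl⟩
  · exact ⟨Sum.inr i, fun w => rfl⟩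

lemma s27s_dL_eqn (i : ι) (j : ℕ) (hj : j ≤ L) :
    s27s_dL abv hna hA D L ψ0 ψ N i j (ψ0 i) +
      ∑ κ, s27s_cL abv hna hA D L ψ0 ψ N κ * s27s_dL abv hna hA D L ψ0 ψ N i j (ψ κ i) = 0 := by
  obtain ⟨m, hm⟩ := s27s_exists_eqn D L ψ0 ψ i j hj
  set X : CauSeq K abv := s27s_tSeq abv hna hA D L ψ0 ψ N i j (ψ0 i) +
    ∑ κ, s27s_cSeq abv hna hA D L ψ0 ψ N κ * s27s_tSeq abv hna hA D L ψ0 ψ N i j (ψ κ i) with hX
  have h1 : s27s_dL abv hna hA D L ψ0 ψ N i j (ψ0 i) +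
      ∑ κ, s27s_cL abv hna hA D L ψ0 ψ N κ * s27s_dL abv hna hA D L ψ0 ψ N i j (ψ κ i) =
      s17y_mkHom abv X := by
    rw [hX, map_add, map_sum]
    simp only [map_mul]
    rfl
  rw [h1, s17y_mkHom_apply, mk_eq_zero]
  refine s17y_cau_limZero abv hA N.d_mem X (fun n => s27s_F D L ψ0 ψ (z n) m) (fun n => ?_)
    (fun n => N.eqn n m)
  have h2 : X n = s17y_evalHom abv n X := rfl
  rw [h2, hX, map_add, map_sum]
  simp only [map_mul, s17y_evalHom_apply, s27s_tSeq_apply, s27s_cSeq_apply]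
  rw [hm (z n), s27s_tc_Psi]
  push_cast
  rfl

lemma s27s_dL_det_ne
    (hdet : IsUnit (Matrix.det (Matrix.of fun (p κ : ι × Fin L) =>
      s19_tay (D p.1) (p.2 : ℕ) (ψ κ p.1)))) :
    Matrix.det (Matrix.of fun (p κ : ι × Fin L) =>
      s27s_dL abv hna hA D L ψ0 ψ N p.1 (p.2 : ℕ) (ψ κ p.1)) ≠ 0 := by
  classical
  set MS : Matrix (ι × Fin L) (ι × Fin L) (CauSeq K abv) :=
    Matrix.of fun (p κ : ι × Fin L) =>
      s27s_tSeq abv hna hA D L ψ0 ψ N p.1 (p.2 : ℕ) (ψ κ p.1) with hMS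
  have h1 : Matrix.det (Matrix.of fun (p κ : ι × Fin L) =>
      s27s_dL abv hna hA D L ψ0 ψ N p.1 (p.2 : ℕ) (ψ κ p.1)) = s17y_mkHom abv MS.det := by
    rw [RingHom.map_det]
    congr 1
  rw [h1, s17y_mkHom_apply, Ne, mk_eq_zero]
  intro hlim
  obtain ⟨n, hn⟩ := hlim 1 one_pos
  have h2 := hn n le_rfl
  have h3 : MS.det n = ((Matrix.det (Matrix.of fun (p κ : ι × Fin L) =>
      s27s_tc (D p.1) (p.2 : ℕ) (z n (Sum.inr p.1)) (ψ κ p.1)) : ↥A) : K) := by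
    have h4 : MS.det n = s17y_evalHom abv n MS.det := rfl
    rw [h4, RingHom.map_det]
    have h5 : ((Matrix.det (Matrix.of fun (p κ : ι × Fin L) =>
        s27s_tc (D p.1) (p.2 : ℕ) (z n (Sum.inr p.1)) (ψ κ p.1)) : ↥A) : K) =
        A.subtype (Matrix.det (Matrix.of fun (p κ : ι × Fin L) =>
          s27s_tc (D p.1) (p.2 : ℕ) (z n (Sum.inr p.1)) (ψ κ p.1))) := rfl
    rw [h5, RingHom.map_det]
    congr 1
  rw [h3] at h2
  refine s17y_abv_unit abv hA (s27s_isUnit_det_of_congr _ _ hdet fun p κ => ?_) h2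
  simp only [Matrix.of_apply]
  exact s27s_tc_congr_self (D p.1) _ _ _

include N in
lemma s27s_cL_mem (c' : ι × Fin L → K)
    (hc' : ∀ κ, s27s_cL abv hna hA D L ψ0 ψ N κ = mk (const abv (c' κ))) (κ : ι × Fin L) :
    ∃ hc : c' κ ∈ A, (⟨c' κ, hc⟩ : ↥A) ∈ maximalIdeal ↥A := by
  have h1 := hc' κ
  unfold s27s_cL at h1
  rw [mk_eq] at h1
  exact s17y_lim_mem abv hna hA _ (fun n => ((z n (Sum.inl κ) : ↥(maximalIdeal ↥A)) : ↥A))
    (fun n => rfl) (fun n => (z n (Sum.inl κ)).2) _ h1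

/-- if the limit point lies in `K`, it is a point of the disc and the limit Taylor coefficients are
the Taylor coefficients at this point. -/
lemma s27s_dL_alg (i : ι) (x : K)
    (hx : s27s_eL abv hna hA D L ψ0 ψ N i (D i).t = mk (const abv x)) :
    ∃ qq : ↥(maximalIdeal ↥A), ∀ j h,
      s27s_dL abv hna hA D L ψ0 ψ N i j h = mk (const abv ((s27s_tc (D i) j qq h : ↥A) : K)) := by
  rw [s27s_eL_apply, mk_eq] at hx
  have hev : ∀ n, s27s_eSeq abv hna hA D L ψ0 ψ N i (D i).t n =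
      (((z n (Sum.inr i) : ↥(maximalIdeal ↥A)) : ↥A) : K) := by
    intro n
    rw [s27s_eSeq_apply, (D i).ev_t]
  obtain ⟨hxA, hxm⟩ := s17y_lim_mem abv hna hA _
    (fun n => ((z n (Sum.inr i) : ↥(maximalIdeal ↥A)) : ↥A)) hev (fun n => (z n (Sum.inr i)).2) x hx
  set qq : ↥(maximalIdeal ↥A) := ⟨⟨x, hxA⟩, hxm⟩ with hqq
  refine ⟨qq, fun j h => ?_⟩
  rw [s27s_dL_apply, mk_eq]
  refine s17y_limZero_of_le abv _ _ hx fun n => ?_
  rw [CauSeq.sub_apply, CauSeq.sub_apply, CauSeq.const_apply, CauSeq.const_apply, hev,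
    s27s_tSeq_apply]
  have h1 := s17y_abv_le_of_dvd A abv hA (s27s_tc_dvd (D i) j (z n (Sum.inr i)) qq h)
  exact h1

include hna hA N in
/-- **the limit package exists.** -/
theorem s27s_exists_limit [IsAlgClosed K]
    (hdet : IsUnit (Matrix.det (Matrix.of fun (p κ : ι × Fin L) =>
      s19_tay (D p.1) (p.2 : ℕ) (ψ κ p.1)))) :
    ∃ (Lf : Type u) (_ : Field Lf) (_ : Algebra K Lf), Nonempty (s27s_Limit A D L ψ0 ψ Lf) := by
  classical
  let _ : Algebra K (Cauchy abv) := s17y_algebra abv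
  refine ⟨Cauchy abv, inferInstance, s17y_algebra abv, ⟨?_⟩⟩
  exact
    { chat := s27s_cL abv hna hA D L ψ0 ψ N
      e := s27s_eL abv hna hA D L ψ0 ψ N
      d := s27s_dL abv hna hA D L ψ0 ψ N
      d_zero := fun i h => s27s_dL_zero abv hna hA D L ψ0 ψ N i h
      e_const := fun i a => s27s_eL_const abv hna hA D L ψ0 ψ N i a
      d_mul := fun i j g h => s27s_dL_mul abv hna hA D L ψ0 ψ N i j g h
      d_const := fun i j a => s27s_dL_const abv hna hA D L ψ0 ψ N i j a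
      d_one_t := fun i => s27s_dL_one_t abv hna hA D L ψ0 ψ N i
      d_t := fun i j => s27s_dL_t abv hna hA D L ψ0 ψ N i j
      eqn := fun i j hj => s27s_dL_eqn abv hna hA D L ψ0 ψ N i j hj
      det_ne := s27s_dL_det_ne abv hna hA D L ψ0 ψ N hdet
      dich := fun i => by
        by_cases htr : Transcendental K (s27s_eL abv hna hA D L ψ0 ψ N i (D i).t)
        · exact Or.inl htr
        · right
          have halg : IsAlgebraic K (s27s_eL abv hna hA D L ψ0 ψ N i (D i).t) := not_not.mp htr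
          obtain ⟨x, hx⟩ := s17y_mem_range_of_isAlgebraic halg
          exact s27s_dL_alg abv hna hA D L ψ0 ψ N i x hx
      c_mem := fun c' hc' κ => s27s_cL_mem abv hna hA D L ψ0 ψ N c' hc' κ }

end seq

/-- **[AH]_ℓ exact `ℓ`-fold zeros on a family of discs** (`ℓ = L + 1`). -/
theorem s27s_lfold_zeros {K : Type u} [Field K] [IsAlgClosed K] [CharZero K]
    (A : ValuationSubring K) (abv : AbsoluteValue K ℝ)
    (hna : ∀ x y, abv (x + y) ≤ max (abv x) (abv y)) (hA : ∀ x : K, x ∈ A ↔ abv x ≤ 1)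
    (L : ℕ) (hℓ : IsUnit ((L + 1 : ℕ) : ↥A)) (W : Subring ↥A)
    {ι : Type*} [Fintype ι] [DecidableEq ι] (G : ι → Type*) [∀ i, CommRing (G i)]
    [∀ i, IsDomain (G i)] [∀ i, Algebra ↥A (G i)] (D : ∀ i, s19_Disc ↥A W (G i))
    (halg : ∀ i (h : G i), IsAlgebraic ↥(Algebra.adjoin ↥A {(D i).t}) h)
    (ψ0 : ∀ i, G i) (ψ : ι × Fin L → ∀ i, G i)
    (hm : ∀ i j, j ≤ L → s19_tay (D i) j (ψ0 i) ∈ maximalIdeal ↥A)
    (hu : ∀ i, IsUnit (s19_tay (D i) (L + 1) (ψ0 i)))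
    (hdet : IsUnit (Matrix.det (Matrix.of fun (p κ : ι × Fin L) =>
      s19_tay (D p.1) (p.2 : ℕ) (ψ κ p.1)))) :
    ∃ (c : ι × Fin L → ↥(maximalIdeal ↥A)) (q : ι → ↥(maximalIdeal ↥A)), ∀ i, ∃ g' : G i,
      s27s_Psi L ψ0 ψ (fun κ => ((c κ : ↥(maximalIdeal ↥A)) : ↥A)) i =
        ((D i).t - algebraMap ↥A (G i) (q i : ↥A)) ^ (L + 1) * g' := by
  classical
  -- a common divisor of the initial defects
  obtain ⟨d₀, hd₀, hd⟩ := s27s_exists_common_dvd
    ((Finset.univ : Finset (ι × Fin (L + 1))).image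
      fun p : ι × Fin (L + 1) => s19_tay (D p.1) (p.2 : ℕ) (ψ0 p.1))
    (by
      intro x hx
      obtain ⟨p, -, rfl⟩ := Finset.mem_image.mp hx
      exact hm p.1 _ (Nat.lt_succ_iff.mp p.2.2))
  have hd0 : ∀ i j, j ≤ L → d₀ ∣ s19_tay (D i) j (ψ0 i) := fun i j hj =>
    hd _ (Finset.mem_image.mpr ⟨(i, ⟨j, Nat.lt_succ_of_le hj⟩), Finset.mem_univ _, rfl⟩)
  -- Newton
  obtain ⟨z, N⟩ := s27s_sys_newton D L ψ0 ψ hm hu hℓ hdet d₀ hd₀ hd0
  -- the limit package and the algebraicity step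
  obtain ⟨Lf, _, _, ⟨P⟩⟩ := s27s_exists_limit abv hna hA D L ψ0 ψ N hdet
  exact s27s_exact_of_limit halg P

end Fermat.Agent.Lib.S27
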