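/-
Programme Z (S27), brick [SP] (helper4, prefix `s27s_`), file 6:
THE CURVE SIDE of the `ℓ`-fold-zero system (`ℓ = L + 1`; generalises `Lib/S17/ZDisc`, `ZDet`).

Abstract curve with good reduction `hC : s19_Curve …`, coordinate system `𝔰`, `b ∈ 𝔪^g`.
* `s27s_E = divS b + L·divS 0`, multipliers `μ_i = t_i^L (t_i − b_i)`, `μ_i f ∈ G(Q_i)` for
  `f ∈ L(E) ∩ O`; Taylor coefficients of `t^L (t − b)` at the centre;
* `s27s_ker`: for `β 0 = 1, β 1, …, β m ∈ L(E) ∩ O` with independent reductions, a vector `v ∈ k^m`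
  killed by the reduced matrix of the Taylor coefficients of order `< L` of `μ_i β_{j+1}` is zero
  (a kernel vector gives a function of `L_k(Σ Q_i) = k`: non-speciality);
* consequences: `ℓ(E) = g L + 1` (`s27s_finrank_E`), the reduced system is non-degenerate
  (`s27s_hdet`).
-/
import Fermat.Agent.Lib.S17.ZHalf
import Fermat.Agent.Lib.S27.SLimit

set_option autoImplicit false
set_option linter.unusedSectionVars false
set_option linter.unusedVariables false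
set_option linter.style.haveILetI false

noncomputable section

namespace Fermat.Agent.Lib.S27

open AlgebraicCurve Fermat.Agent.Lib.FF Fermat.Agent.Lib.S37 Fermat.Agent.Lib.S19
  Fermat.Agent.Lib.S17 IsLocalRing

/-! ### Abstract Taylor coefficients of `t^L · u` -/

section Abstract

variable {A : Type*} [CommRing A] [IsLocalRing A] {W : Subring A}
  {G : Type*} [CommRing G] [Algebra A G] (D : s19_Disc A W G)

lemma s27s_t_sub_zero : D.t - algebraMap A G ((0 : ↥(maximalIdeal A)) : A) = D.t := by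
  have h0 : ((0 : ↥(maximalIdeal A)) : A) = 0 := rfl
  rw [h0, map_zero, sub_zero]

theorem s27s_tay_pow_mul_lt (L : ℕ) (u : G) (j : ℕ) (hj : j < L) :
    s19_tay D j (D.t ^ L * u) = 0 := by
  have := s27s_tc_pow_mul_lt D L 0 u j hj
  rwa [s27s_t_sub_zero] at this

theorem s27s_tay_pow_mul_add (L : ℕ) (u : G) (m : ℕ) :
    s19_tay D (L + m) (D.t ^ L * u) = s19_tay D m u := by
  have := s27s_tc_pow_mul_add D L 0 u m
  rwa [s27s_t_sub_zero] at this

theorem s27s_tay0_t_sub (b : ↥(maximalIdeal A)) :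
    s19_tay D 0 (D.t - algebraMap A G (b : A)) = -(b : A) := by
  show D.ev 0 (D.t - algebraMap A G (b : A)) = -(b : A)
  rw [map_sub, D.ev_t, AlgHom.commutes]
  have h0 : ((0 : ↥(maximalIdeal A)) : A) = 0 := rfl
  rw [h0, zero_sub]
  rfl

theorem s27s_tay1_t_sub (b : ↥(maximalIdeal A)) :
    s19_tay D 1 (D.t - algebraMap A G (b : A)) = 1 := by
  rw [s19e_tay_succ, s19d_dq_sub, s19d_dq_t, s19d_dq_const, sub_zero]
  show D.ev 0 (1 : G) = 1
  rw [map_one]

/-- the Taylor coefficients of `t^L (t − b)` of order `< L` vanish. -/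
theorem s27s_tay_mu_lt (L : ℕ) (b : ↥(maximalIdeal A)) (j : ℕ) (hj : j < L) :
    s19_tay D j (D.t ^ L * (D.t - algebraMap A G (b : A))) = 0 :=
  s27s_tay_pow_mul_lt D L _ j hj

/-- the Taylor coefficient of `t^L (t − b)` of order `L` is `-b`. -/
theorem s27s_tay_mu_L (L : ℕ) (b : ↥(maximalIdeal A)) :
    s19_tay D L (D.t ^ L * (D.t - algebraMap A G (b : A))) = -(b : A) := by
  have := s27s_tay_pow_mul_add D L (D.t - algebraMap A G (b : A)) 0
  rw [add_zero] at this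
  rw [this, s27s_tay0_t_sub]

/-- the Taylor coefficient of `t^L (t − b)` of order `L + 1` is `1`. -/
theorem s27s_tay_mu_succ (L : ℕ) (b : ↥(maximalIdeal A)) :
    s19_tay D (L + 1) (D.t ^ L * (D.t - algebraMap A G (b : A))) = 1 := by
  rw [s27s_tay_pow_mul_add, s27s_tay1_t_sub]

end Abstract

/-! ### The divisor `E` and the multipliers -/

section Sys

variable {K F k Fb : Type} [Field K] [Field F] [Algebra K F] [IsAlgClosed K] [Field k] [Field Fb]
  [Algebra k Fb] {x : F} [FFGen K x] {A : ValuationSubring K} {π : ↥A →+* k}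
  {O : ValuationSubring F} {red : ↥O →+* Fb} {r : Place K F → Place k Fb} {FW : Subring F}
  {l : ↥A} {g : ℕ} (hC : s19_Curve x A π O red r FW l g) (𝔰 : s19_Sys red r FW g)
  (b : Fin g → ↥(maximalIdeal ↥A)) (L : ℕ)

/-- the divisor `E = divS b + L·divS 0`. -/
def s27s_E : Divisor K F := s19_divS hC 𝔰 b + L • s19_divS hC 𝔰 0

theorem s27s_E_apply (P : Place K F) :
    s27s_E hC 𝔰 b L P = s19_divS hC 𝔰 b P + (L : ℤ) * s19_divS hC 𝔰 0 P := by
  unfold s27s_E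
  rw [Finsupp.add_apply, Finsupp.smul_apply, nsmul_eq_mul]

theorem s27s_E_nonneg (P : Place K F) : 0 ≤ s27s_E hC 𝔰 b L P := by
  rw [s27s_E_apply]
  have h1 := s19f_divS_nonneg hC 𝔰 b P
  have h2 := s19f_divS_nonneg hC 𝔰 0 P
  positivity

theorem s27s_E_degree : Divisor.degree (s27s_E hC 𝔰 b L) = ((L : ℤ) + 1) * (g : ℤ) := by
  unfold s27s_E
  rw [map_add, map_nsmul, s19f_divS_degree, s19f_divS_degree, nsmul_eq_mul]
  ring

theorem s27s_E_map :
    Finsupp.mapDomain r (s27s_E hC 𝔰 b L) =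
      (L + 1) • ∑ i, Finsupp.single (𝔰.Q i) (1 : ℤ) := by
  unfold s27s_E
  rw [Finsupp.mapDomain_add, Finsupp.mapDomain_smul, s19f_divS_map, s19f_divS_map, succ_nsmul,
    add_comm]

/-- the multiplier `t_i^L (t_i − b_i)` on the `i`-th disc. -/
def s27s_mu (i : Fin g) : F :=
  𝔰.t i ^ L * (𝔰.t i - algebraMap K F (((b i : ↥(maximalIdeal ↥A)) : ↥A) : K))

include hC in
theorem s27s_mu_ne_zero (i : Fin g) : s27s_mu 𝔰 b L i ≠ 0 :=
  mul_ne_zero (pow_ne_zero L (s19e_t_ne_zero x hC.rd (𝔰.param i)))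
    (s19a_t_sub_ne_zero x hC.rd (𝔰.param i) (b i))

open Classical in
/-- the order of the multiplier at a point of the `i`-th disc. -/
theorem s27s_mu_ord (i : Fin g) (P : Place K F) (hP : r P = 𝔰.Q i) :
    P.ord (s27s_mu 𝔰 b L i) = s27s_E hC 𝔰 b L P := by
  unfold s27s_mu
  rw [P.ord_mul (pow_ne_zero L (s19e_t_ne_zero x hC.rd (𝔰.param i)))
    (s19a_t_sub_ne_zero x hC.rd (𝔰.param i) (b i)), s19e_ord_pow,
    s19e_ord_t x hC.rd (𝔰.param i) P hP, s19e_ord_t_sub x hC.rd (𝔰.param i) (b i) P hP,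
    s27s_E_apply, s17z_divS_apply hC 𝔰 b i P hP, s17z_divS_apply hC 𝔰 0 i P hP]
  unfold s19_ptS
  rw [add_comm]
  rfl

/-- `μ_i f ∈ G(Q_i)` for `f ∈ L(E) ∩ O`. -/
theorem s27s_mu_mul_mem (i : Fin g) {f : F} (hfO : f ∈ O)
    (hfE : f ∈ riemannRochSpace (s27s_E hC 𝔰 b L)) :
    s27s_mu 𝔰 b L i * f ∈ s19a_G O r (𝔰.Q i) := by
  have htO : 𝔰.t i ∈ O := (s19a_mem_G.mp (𝔰.param i).mem).1
  have hmuO : s27s_mu 𝔰 b L i ∈ O :=
    O.mul_mem _ _ (pow_mem htO L) (sub_mem htO (hC.rd.const_mem (b i : ↥A)))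
  refine ⟨O.mul_mem _ _ hmuO hfO, fun P hP => ?_⟩
  rcases eq_or_ne f 0 with rfl | hf0
  · rw [mul_zero]; exact P.toValuationSubring.zero_mem
  have hmu0 := s27s_mu_ne_zero hC 𝔰 b L i
  rw [ff_mem_iff_ord_nonneg P (mul_ne_zero hmu0 hf0), P.ord_mul hmu0 hf0,
    s27s_mu_ord hC 𝔰 b L i P hP]
  have hfP := (mem_riemannRochSpace_iff.mp hfE P).resolve_left hf0
  linarith

/-! ### The functions `ψ j i = μ_i β_j` -/

variable {m : ℕ} (β : Fin (m + 1) → F) (hβO : ∀ j, β j ∈ O)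
  (hβE : ∀ j, β j ∈ riemannRochSpace (s27s_E hC 𝔰 b L))

/-- `ψ j i = t_i^L (t_i − b_i) β j` as an element of `G(Q_i)`. -/
def s27s_psi (j : Fin (m + 1)) (i : Fin g) : ↥(s19a_G O r (𝔰.Q i)) :=
  ⟨s27s_mu 𝔰 b L i * β j, s27s_mu_mul_mem hC 𝔰 b L i (hβO j) (hβE j)⟩

theorem s27s_psi_coe (j : Fin (m + 1)) (i : Fin g) :
    ((s27s_psi hC 𝔰 b L β hβO hβE j i : ↥(s19a_G O r (𝔰.Q i))) : F) = s27s_mu 𝔰 b L i * β j := rfl

theorem s27s_psi_zero (hβ0 : β 0 = 1) (i : Fin g) :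
    letI := s19a_algebraG hC.rd (𝔰.Q i)
    s27s_psi hC 𝔰 b L β hβO hβE 0 i = (s17z_D hC 𝔰 i).t ^ L *
      ((s17z_D hC 𝔰 i).t - algebraMap ↥A ↥(s19a_G O r (𝔰.Q i)) ((b i : ↥(maximalIdeal ↥A)) : ↥A)) := by
  letI := s19a_algebraG hC.rd (𝔰.Q i)
  apply Subtype.ext
  rw [s27s_psi_coe, hβ0, mul_one]
  rfl

/-- **the kernel lemma**: a vector killed by the reduced matrix of Taylor coefficients of order
`< L` is zero. -/
theorem s27s_ker (hβ0 : β 0 = 1) (hβli : LinearIndependent k fun j => red ⟨β j, hβO j⟩)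
    (v : Fin m → k)
    (hv : letI : ∀ i, Algebra ↥A ↥(s19a_G O r (𝔰.Q i)) := fun i => s19a_algebraG hC.rd (𝔰.Q i)
      ∀ (i : Fin g) (s : ℕ), s < L → ∑ j : Fin m,
        v j * π (s19_tay (s17z_D hC 𝔰 i) s (s27s_psi hC 𝔰 b L β hβO hβE j.succ i)) = 0) :
    v = 0 := by
  letI : ∀ i, Algebra ↥A ↥(s19a_G O r (𝔰.Q i)) := fun i => s19a_algebraG hC.rd (𝔰.Q i)
  classical
  choose lam hlam using fun j => hC.pi_surj (v j)
  set E : Divisor K F := s27s_E hC 𝔰 b L with hE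
  set f : F := ∑ j : Fin m, algebraMap K F ((lam j : ↥A) : K) * β j.succ with hf
  have hfO : f ∈ O :=
    sum_mem fun j _ => O.mul_mem _ _ (hC.rd.const_mem (lam j)) (hβO j.succ)
  have hfE : f ∈ riemannRochSpace E := by
    refine Submodule.sum_mem _ fun j _ => ?_
    rw [← Algebra.smul_def]
    exact Submodule.smul_mem _ _ (hβE j.succ)
  have hredf : red ⟨f, hfO⟩ = ∑ j : Fin m, v j • red ⟨β j.succ, hβO j.succ⟩ := by
    have := s17z_red_comb hC.rd (fun j : Fin m => β j.succ) (fun j => hβO j.succ) lam hfO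
    rw [this]
    exact Finset.sum_congr rfl fun j _ => by rw [hlam j]
  -- the reduction of `f` lies in `L_k(Σ Q_i)`
  have hmem : red ⟨f, hfO⟩ ∈ riemannRochSpace (∑ i, Finsupp.single (𝔰.Q i) (1 : ℤ)) := by
    rw [mem_riemannRochSpace_iff]
    intro Q₀
    by_cases hred0 : red ⟨f, hfO⟩ = 0
    · exact Or.inl hred0
    right
    by_cases hex : ∃ i, 𝔰.Q i = Q₀
    · obtain ⟨i, rfl⟩ := hex
      rw [s19f_D0_apply_self hC 𝔰 i]
      set fG : ↥(s19a_G O r (𝔰.Q i)) := ∑ j : Fin m,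
        algebraMap ↥A ↥(s19a_G O r (𝔰.Q i)) (lam j) *
          s27s_psi hC 𝔰 b L β hβO hβE j.succ i with hfG
      have hfGcoe : (fG : F) = s27s_mu 𝔰 b L i * f := by
        rw [hfG, AddSubmonoidClass.coe_finsetSum, hf, Finset.mul_sum]
        refine Finset.sum_congr rfl fun j _ => ?_
        show algebraMap K F ((lam j : ↥A) : K) * (s27s_mu 𝔰 b L i * β j.succ) = _
        ring
      have htay : ∀ s < L, s19_tay (s17z_D hC 𝔰 i) s fG ∈ maximalIdeal ↥A := by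
        intro s hs
        rw [← s19a_pi_eq_zero_iff hC.rd, hfG, s19e_tay_sum, map_sum, ← hv i s hs]
        refine Finset.sum_congr rfl fun j _ => ?_
        rw [map_mul, hlam j]
      obtain ⟨h', hh'⟩ := s19e_bridge x hC.rd (𝔰.param i) FW hC.fw_inv (𝔰.rat i)
        (hC.ratc (𝔰.Q i) (𝔰.t i) (𝔰.param i) (𝔰.rat i)) L fG htay
      set tb : Fb := red ⟨𝔰.t i, (s19a_mem_G.mp (𝔰.param i).mem).1⟩ with htb
      have htb0 : tb ≠ 0 := s19a_param_red_ne_zero (𝔰.param i)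
      have htO : 𝔰.t i ∈ O := (s19a_mem_G.mp (𝔰.param i).mem).1
      have hsubO : 𝔰.t i - algebraMap K F (((b i : ↥(maximalIdeal ↥A)) : ↥A) : K) ∈ O :=
        sub_mem htO (hC.rd.const_mem (b i : ↥A))
      have hredsub : red ⟨𝔰.t i - algebraMap K F (((b i : ↥(maximalIdeal ↥A)) : ↥A) : K),
          hsubO⟩ = tb :=
        s19a_red_t_sub hC.rd (𝔰.param i) (b i : ↥A)
          ((s19a_pi_eq_zero_iff hC.rd _).mpr (b i).2)
      have hredG : s19e_redG red r (𝔰.Q i) fG = tb ^ L * tb * red ⟨f, hfO⟩ := by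
        rw [s19e_redG_apply]
        have : (⟨(fG : F), s19a_memO fG⟩ : ↥O) =
            ⟨𝔰.t i, htO⟩ ^ L * ⟨𝔰.t i - algebraMap K F (((b i : ↥(maximalIdeal ↥A)) : ↥A) : K),
              hsubO⟩ * ⟨f, hfO⟩ := Subtype.ext hfGcoe
        rw [this, map_mul, map_mul, map_pow, hredsub]
      rw [hredG, mul_assoc] at hh'
      have hh'' : tb * red ⟨f, hfO⟩ = s19e_redG red r (𝔰.Q i) h' :=
        mul_left_cancel₀ (pow_ne_zero L htb0) hh'
      have hlhs0 : tb * red ⟨f, hfO⟩ ≠ 0 := mul_ne_zero htb0 hred0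
      have hh'0 : s19e_redG red r (𝔰.Q i) h' ≠ 0 := by
        rw [← hh'']; exact hlhs0
      have hord := congrArg (𝔰.Q i).ord hh''
      rw [(𝔰.Q i).ord_mul htb0 hred0, htb, (𝔰.param i).ord] at hord
      have := s19e_redG_ord_nonneg x hC.rd (𝔰.param i) h' hh'0
      linarith
    · push Not at hex
      rw [s19f_D0_apply_other hC 𝔰 Q₀ hex]
      have h1 := s19l_red_mem hC.rd E hfO hfE
      rw [hE, s27s_E_map, mem_riemannRochSpace_iff] at h1
      have h2 := (h1 Q₀).resolve_left hred0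
      rw [Finsupp.smul_apply, s19f_D0_apply_other hC 𝔰 Q₀ hex] at h2
      simpa using h2
  -- `L_k(Σ Q_i)` is the line of constants
  have hone : (1 : Fb) ∈ riemannRochSpace (∑ i, Finsupp.single (𝔰.Q i) (1 : ℤ)) :=
    s19n_one_mem (s19f_D0_nonneg hC 𝔰)
  obtain ⟨c, hc⟩ : ∃ c : k, c • (1 : Fb) = red ⟨f, hfO⟩ := by
    have hnz : (⟨1, hone⟩ : ↥(riemannRochSpace (∑ i, Finsupp.single (𝔰.Q i) (1 : ℤ)))) ≠ 0 := by
      intro h0
      exact one_ne_zero (congrArg Subtype.val h0)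
    obtain ⟨c, hc⟩ := (finrank_eq_one_iff_of_nonzero' _ hnz).mp 𝔰.nonsp ⟨red ⟨f, hfO⟩, hmem⟩
    exact ⟨c, congrArg Subtype.val hc⟩
  -- a dependence between the reductions
  have hred0 : red ⟨β 0, hβO 0⟩ = 1 := by
    have : (⟨β 0, hβO 0⟩ : ↥O) = 1 := Subtype.ext hβ0
    rw [this, map_one]
  have hdep : ∑ j : Fin (m + 1), (Fin.cons (-c) v : Fin (m + 1) → k) j • red ⟨β j, hβO j⟩ = 0 := by
    rw [Fin.sum_univ_succ]
    simp only [Fin.cons_zero, Fin.cons_succ]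
    rw [hred0, ← hredf, ← hc, neg_smul, neg_add_cancel]
  have hall := Fintype.linearIndependent_iff.mp hβli _ hdep
  funext j
  have := hall j.succ
  rwa [Fin.cons_succ] at this

end Sys

end Fermat.Agent.Lib.S27
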