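/-
Programme Z (S27), brick [SP] (helper4, prefix `s27s_`), file 7:
CONSEQUENCES OF THE KERNEL LEMMA (`SCurve`):
* `s27s_hdet`: for `β : Fin (g L + 1) → F` (`β 0 = 1`, independent reductions) the reduced system
  of the `ℓ`-fold-zero problem is non-degenerate;
* `s27s_li_of_red`: a family with independent reductions is `K`-linearly independent;
* `s27s_finrank_E`: `ℓ(divS b + L·divS 0) = g L + 1`;
* `s27s_exists_basis`: a Gauss-orthonormal BASIS `β 0 = 1, …, β (g L)` of `L(E)`.
-/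
import Fermat.Agent.Lib.S27.SCurve

set_option autoImplicit false
set_option linter.unusedSectionVars false
set_option linter.unusedVariables false
set_option linter.style.haveILetI false

noncomputable section

namespace Fermat.Agent.Lib.S27

open AlgebraicCurve Fermat.Agent.Lib.FF Fermat.Agent.Lib.S37 Fermat.Agent.Lib.S19
  Fermat.Agent.Lib.S17 IsLocalRing

section Sys

variable {K F k Fb : Type} [Field K] [Field F] [Algebra K F] [IsAlgClosed K] [Field k] [Field Fb]
  [Algebra k Fb] {x : F} [FFGen K x] {A : ValuationSubring K} {π : ↥A →+* k}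
  {O : ValuationSubring F} {red : ↥O →+* Fb} {r : Place K F → Place k Fb} {FW : Subring F}
  {l : ↥A} {g : ℕ} (hC : s19_Curve x A π O red r FW l g) (𝔰 : s19_Sys red r FW g)
  (b : Fin g → ↥(maximalIdeal ↥A)) (L : ℕ)

/-- **the reduced system is non-degenerate.** -/
theorem s27s_hdet (β : Fin (g * L + 1) → F) (hβO : ∀ j, β j ∈ O)
    (hβE : ∀ j, β j ∈ riemannRochSpace (s27s_E hC 𝔰 b L)) (hβ0 : β 0 = 1)
    (hβli : LinearIndependent k fun j => red ⟨β j, hβO j⟩) :
    letI : ∀ i, Algebra ↥A ↥(s19a_G O r (𝔰.Q i)) := fun i => s19a_algebraG hC.rd (𝔰.Q i)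
    IsUnit (Matrix.det (Matrix.of fun (p κ : Fin g × Fin L) =>
      s19_tay (s17z_D hC 𝔰 p.1) (p.2 : ℕ)
        (s27s_psi hC 𝔰 b L β hβO hβE (finProdFinEquiv κ).succ p.1))) := by
  letI : ∀ i, Algebra ↥A ↥(s19a_G O r (𝔰.Q i)) := fun i => s19a_algebraG hC.rd (𝔰.Q i)
  classical
  haveI : IsDomain k := inferInstance
  set M : Matrix (Fin g × Fin L) (Fin g × Fin L) ↥A := Matrix.of fun (p κ : Fin g × Fin L) =>
    s19_tay (s17z_D hC 𝔰 p.1) (p.2 : ℕ)
      (s27s_psi hC 𝔰 b L β hβO hβE (finProdFinEquiv κ).succ p.1) with hM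
  by_contra hnu
  have hπ : π (Matrix.det M) = 0 :=
    (s19a_pi_eq_zero_iff hC.rd _).mpr ((mem_maximalIdeal _).mpr hnu)
  rw [RingHom.map_det] at hπ
  obtain ⟨v', hv'0, hv'⟩ := Matrix.exists_mulVec_eq_zero_iff.mpr hπ
  set v : Fin (g * L) → k := fun j => v' (finProdFinEquiv.symm j) with hv
  have hv0 : v = 0 := by
    refine s27s_ker hC 𝔰 b L β hβO hβE hβ0 hβli v fun i s hs => ?_
    have h1 := congrFun hv' (i, ⟨s, hs⟩)
    rw [Matrix.mulVec, dotProduct, Pi.zero_apply] at h1
    rw [← h1, ← Equiv.sum_comp (finProdFinEquiv (m := g) (n := L))]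
    refine Finset.sum_congr rfl fun κ _ => ?_
    simp only [hv, Equiv.symm_apply_apply]
    rw [mul_comm]
    rfl
  apply hv'0
  funext κ
  have := congrFun hv0 (finProdFinEquiv κ)
  rw [hv] at this
  have h2 : v' (finProdFinEquiv.symm (finProdFinEquiv κ)) = 0 := this
  rwa [Equiv.symm_apply_apply] at h2

include hC in
/-- a family with independent reductions is linearly independent. -/
theorem s27s_li_of_red {n : ℕ} (β : Fin n → F) (hβO : ∀ j, β j ∈ O)
    (hβli : LinearIndependent k fun j => red ⟨β j, hβO j⟩) : LinearIndependent K β := by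
  classical
  rw [Fintype.linearIndependent_iff]
  intro c hc
  by_contra hcon
  push Not at hcon
  have hc0 : c ≠ 0 := by
    intro h0
    obtain ⟨j, hj⟩ := hcon
    exact hj (by rw [h0]; rfl)
  obtain ⟨j₀, hj₀, hmax⟩ := s19s_exists_max_coord A c hc0
  set e : Fin n → ↥A := fun j => ⟨c j / c j₀, hmax j⟩ with he
  have hsum : ∑ j, algebraMap K F ((e j : ↥A) : K) * β j = 0 := by
    have h1 : ∑ j, algebraMap K F ((e j : ↥A) : K) * β j =
        algebraMap K F (c j₀)⁻¹ * ∑ j, c j • β j := by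
      rw [Finset.mul_sum]
      refine Finset.sum_congr rfl fun j _ => ?_
      show algebraMap K F (c j / c j₀) * β j = _
      rw [div_eq_mul_inv, map_mul, Algebra.smul_def]
      ring
    rw [h1, hc, mul_zero]
  have heO : ∑ j, algebraMap K F ((e j : ↥A) : K) * β j ∈ O := by
    rw [hsum]; exact O.zero_mem
  have h2 := s17z_red_comb hC.rd β hβO e heO
  have h3 : red ⟨∑ j, algebraMap K F ((e j : ↥A) : K) * β j, heO⟩ = 0 := by
    have : (⟨∑ j, algebraMap K F ((e j : ↥A) : K) * β j, heO⟩ : ↥O) = 0 := Subtype.ext hsum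
    rw [this, map_zero]
  rw [h3] at h2
  have h4 := Fintype.linearIndependent_iff.mp hβli (fun j => π (e j)) h2.symm j₀
  have h5 : e j₀ = 1 := Subtype.ext (div_self hj₀)
  rw [h5, map_one] at h4
  exact one_ne_zero h4

/-- **the dimension of `L(divS b + L·divS 0)`.** -/
theorem s27s_finrank_E :
    Module.finrank K ↥(riemannRochSpace (s27s_E hC 𝔰 b L)) = g * L + 1 := by
  letI : ∀ i, Algebra ↥A ↥(s19a_G O r (𝔰.Q i)) := fun i => s19a_algebraG hC.rd (𝔰.Q i)
  classical
  set E := s27s_E hC 𝔰 b L with hE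
  have hge : g * L + 1 ≤ Module.finrank K ↥(riemannRochSpace E) := by
    have h1 := hC.rrF.ineq E
    rw [hE, s27s_E_degree] at h1
    have h2 : ((g * L + 1 : ℕ) : ℤ) ≤ (Module.finrank K ↥(riemannRochSpace E) : ℤ) := by
      push_cast
      linarith
    exact_mod_cast h2
  refine le_antisymm ?_ hge
  obtain ⟨m, hm⟩ : ∃ m, Module.finrank K ↥(riemannRochSpace E) = m + 1 :=
    ⟨Module.finrank K ↥(riemannRochSpace E) - 1, by omega⟩
  rw [hm]
  obtain ⟨β, hβO, hβ0, hβE, hβli⟩ :=
    s17z_basis_one hC E (s27s_E_nonneg hC 𝔰 b L) m (by rw [hm])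
  -- the reduced matrix of Taylor coefficients is injective
  set N : Matrix (Fin g × Fin L) (Fin m) k := Matrix.of fun (p : Fin g × Fin L) (j : Fin m) =>
    π (s19_tay (s17z_D hC 𝔰 p.1) (p.2 : ℕ) (s27s_psi hC 𝔰 b L β hβO hβE j.succ p.1)) with hN
  have hinj : Function.Injective N.mulVecLin := by
    rw [injective_iff_map_eq_zero]
    intro v hv
    refine s27s_ker hC 𝔰 b L β hβO hβE hβ0 hβli v fun i s hs => ?_
    have h1 := congrFun hv (i, ⟨s, hs⟩)
    rw [Matrix.mulVecLin_apply, Matrix.mulVec, dotProduct, Pi.zero_apply] at h1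
    rw [← h1]
    refine Finset.sum_congr rfl fun j _ => ?_
    rw [mul_comm]
    rfl
  have h3 := LinearMap.finrank_le_finrank_of_injective hinj
  rw [Module.finrank_fintype_fun_eq_card, Module.finrank_fintype_fun_eq_card, Fintype.card_fin,
    Fintype.card_prod, Fintype.card_fin, Fintype.card_fin] at h3
  omega

/-- **a Gauss-orthonormal basis of `L(E)` containing `1`.** -/
theorem s27s_exists_basis :
    ∃ (β : Fin (g * L + 1) → F) (hβO : ∀ j, β j ∈ O), β 0 = 1 ∧
      (∀ j, β j ∈ riemannRochSpace (s27s_E hC 𝔰 b L)) ∧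
      (LinearIndependent k fun j => red ⟨β j, hβO j⟩) ∧
      ∀ f ∈ riemannRochSpace (s27s_E hC 𝔰 b L), ∃ c : Fin (g * L + 1) → K,
        f = ∑ j, algebraMap K F (c j) * β j := by
  classical
  obtain ⟨β, hβO, hβ0, hβE, hβli⟩ :=
    s17z_basis_one hC (s27s_E hC 𝔰 b L) (s27s_E_nonneg hC 𝔰 b L) (g * L)
      (by rw [s27s_finrank_E])
  refine ⟨β, hβO, hβ0, hβE, hβli, fun f hf => ?_⟩
  haveI := hC.rrF.fin (s27s_E hC 𝔰 b L)
  set β' : Fin (g * L + 1) → ↥(riemannRochSpace (s27s_E hC 𝔰 b L)) := fun j => ⟨β j, hβE j⟩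
    with hβ'
  have hli : LinearIndependent K β' := by
    apply LinearIndependent.of_comp (Submodule.subtype _)
    exact s27s_li_of_red hC β hβO hβli
  have hspan := hli.span_eq_top_of_card_eq_finrank (by
    rw [Fintype.card_fin, s27s_finrank_E])
  have hmem : (⟨f, hf⟩ : ↥(riemannRochSpace (s27s_E hC 𝔰 b L))) ∈
      Submodule.span K (Set.range β') := by
    rw [hspan]; exact Submodule.mem_top
  rw [Submodule.mem_span_range_iff_exists_fun] at hmem
  obtain ⟨c, hc⟩ := hmem
  refine ⟨c, ?_⟩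
  have h1 := congrArg Subtype.val hc
  rw [AddSubmonoidClass.coe_finsetSum] at h1
  have h2 : f = ∑ i, ((c i • β' i : ↥(riemannRochSpace (s27s_E hC 𝔰 b L))) : F) := h1.symm
  rw [h2]
  refine Finset.sum_congr rfl fun j _ => ?_
  rw [Submodule.coe_smul, Algebra.smul_def]

end Sys

end Fermat.Agent.Lib.S27
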