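/-
Programme Z (S27), brick [SP] (helper4, prefix `s27s_`), file 8:
SOUNDNESS AND EXISTENCE: THE KERNEL OF SPECIALIZATION IS `ℓ`-DIVISIBLE (`ℓ = L + 1`; generalises
`Lib/S17/ZHalf`).

* `s27s_div_of_lfold`: a non-zero `f ∈ L(divS b + L·divS 0)` such that `t_i^L (t_i − b_i) f` is
  divisible by `(t_i − q_i)^(L+1)` in `G(Q_i)` for every `i` has divisor
  `(L+1)·divS q − divS b − L·divS 0` (degree count);
* `s27s_J1_div`: `J¹` is `(L+1)`-divisible when `L + 1 ∈ A^×`.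
-/
import Fermat.Agent.Lib.S27.SDet

set_option autoImplicit false
set_option linter.unusedSectionVars false
set_option linter.unusedVariables false
set_option linter.style.haveILetI false

noncomputable section

namespace Fermat.Agent.Lib.S27

open AlgebraicCurve Fermat.Agent.Lib.FF Fermat.Agent.Lib.S37 Fermat.Agent.Lib.S19
  Fermat.Agent.Lib.S17 IsLocalRing

section Sys

variable {K F k Fb : Type} [Field K] [Field F] [Algebra K F] [IsAlgClosed K] [Field k] [Field Fb]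
  [Algebra k Fb] {x : F} [FFGen K x] {A : ValuationSubring K} {π : ↥A →+* k}
  {O : ValuationSubring F} {red : ↥O →+* Fb} {r : Place K F → Place k Fb} {FW : Subring F}
  {l : ↥A} {g : ℕ} (hC : s19_Curve x A π O red r FW l g) (𝔰 : s19_Sys red r FW g)

/-- **soundness**: the divisor of a function with `(L+1)`-fold zeros on the discs. -/
theorem s27s_div_of_lfold (b q : Fin g → ↥(maximalIdeal ↥A)) (L : ℕ) (f : F) (hf0 : f ≠ 0)
    (hfE : f ∈ riemannRochSpace (s27s_E hC 𝔰 b L))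
    (hfac : ∀ i, ∃ g' : ↥(s19a_G O r (𝔰.Q i)), s27s_mu 𝔰 b L i * f =
      (𝔰.t i - algebraMap K F (((q i : ↥(maximalIdeal ↥A)) : ↥A) : K)) ^ (L + 1) * (g' : F))
    (P : Place K F) :
    P.ord f = ((L : ℤ) + 1) * s19_divS hC 𝔰 q P - s27s_E hC 𝔰 b L P := by
  classical
  obtain ⟨Dv, hDv, hDvdeg⟩ := hC.pdF.exists_divisor f hf0
  set E : Divisor K F := s27s_E hC 𝔰 b L with hE
  set Z : Divisor K F := (L + 1) • s19_divS hC 𝔰 q with hZ
  have hZapp : ∀ P', Z P' = ((L : ℤ) + 1) * s19_divS hC 𝔰 q P' := fun P' => by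
    rw [hZ, Finsupp.smul_apply, nsmul_eq_mul]
    push_cast
    ring
  set Wd : Divisor K F := Dv + E - Z with hWd
  have hW0 : ∀ P', 0 ≤ Wd P' := by
    intro P'
    rw [hWd, Finsupp.sub_apply, Finsupp.add_apply, hDv P', hZapp]
    by_cases hex : ∃ i, r P' = 𝔰.Q i
    · obtain ⟨i, hi⟩ := hex
      obtain ⟨g', hg'⟩ := hfac i
      have hmu0 := s27s_mu_ne_zero hC 𝔰 b L i
      have hsub0 := s19a_t_sub_ne_zero x hC.rd (𝔰.param i) (q i)
      have hlhs0 : s27s_mu 𝔰 b L i * f ≠ 0 := mul_ne_zero hmu0 hf0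
      have hg'0 : (g' : F) ≠ 0 := by
        intro h0
        rw [h0, mul_zero] at hg'
        exact hlhs0 hg'
      have hord := congrArg P'.ord hg'
      rw [P'.ord_mul hmu0 hf0, P'.ord_mul (pow_ne_zero (L + 1) hsub0) hg'0, s19e_ord_pow,
        s27s_mu_ord hC 𝔰 b L i P' hi, s19e_ord_t_sub x hC.rd (𝔰.param i) (q i) P' hi] at hord
      have hg'nn : 0 ≤ P'.ord (g' : F) :=
        (ff_mem_iff_ord_nonneg P' hg'0).mp (s19a_memP g' P' hi)
      have hqP : s19_divS hC 𝔰 q P' =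
          (if P' = s19a_pt x hC.rd (𝔰.param i) (q i) then (1 : ℤ) else 0) := by
        rw [s17z_divS_apply hC 𝔰 q i P' hi]
        rfl
      rw [hqP]
      push_cast at hord
      linarith
    · push Not at hex
      rw [s17z_divS_apply_off hC 𝔰 q P' hex, mul_zero, sub_zero]
      have := (mem_riemannRochSpace_iff.mp hfE P').resolve_left hf0
      linarith
  have hWdeg : Divisor.degree Wd = 0 := by
    rw [hWd, map_sub, map_add, hDvdeg, hE, s27s_E_degree, hZ, map_nsmul, s19f_divS_degree,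
      nsmul_eq_mul]
    push_cast
    ring
  have hW := s19e_eq_zero_of_degree hC.degF Wd hW0 hWdeg
  have := congrArg (fun D : Divisor K F => D P) hW
  simp only [hWd, Finsupp.sub_apply, Finsupp.add_apply, Finsupp.zero_apply, hDv P, hZapp] at this
  linarith

end Sys

/-- **the kernel of specialization is `(L+1)`-divisible** (abstract curve with good reduction,
`L + 1` a unit of `A`, `A` the unit ball of a non-archimedean absolute value). -/
theorem s27s_J1_div {K F k Fb : Type} [Field K] [Field F] [Algebra K F] [IsAlgClosed K]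
    [CharZero K] [Field k] [Field Fb] [Algebra k Fb] {x : F} [FFGen K x] {A : ValuationSubring K}
    {π : ↥A →+* k} {O : ValuationSubring F} {red : ↥O →+* Fb} {r : Place K F → Place k Fb}
    {FW : Subring F} {l : ↥A} {g : ℕ} (hC : s19_Curve x A π O red r FW l g)
    (𝔰 : s19_Sys red r FW g) (abv : AbsoluteValue K ℝ)
    (hna : ∀ x y, abv (x + y) ≤ max (abv x) (abv y)) (hA : ∀ x : K, x ∈ A ↔ abv x ≤ 1)
    (L : ℕ) (hℓ : IsUnit ((L + 1 : ℕ) : ↥A)) :
    ∀ y ∈ s19j_J1 (K := K) (F := F) r, ∃ y' ∈ s19j_J1 (K := K) (F := F) r, (L + 1) • y' = y := by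
  intro y hy
  classical
  letI : ∀ i, Algebra ↥A ↥(s19a_G O r (𝔰.Q i)) := fun i => s19a_algebraG hC.rd (𝔰.Q i)
  obtain ⟨b, rfl⟩ := s19j_cls_surj hC 𝔰 y hy
  set E : Divisor K F := s27s_E hC 𝔰 b L with hE
  obtain ⟨β, hβO, hβ0, hβE, hβli, -⟩ := s27s_exists_basis hC 𝔰 b L
  -- the abstract theorem
  obtain ⟨c, q, hcq⟩ := s27s_lfold_zeros A abv hna hA L hℓ (s19a_W A FW)
    (fun i : Fin g => ↥(s19a_G O r (𝔰.Q i))) (s17z_D hC 𝔰) (s17z_halg hC 𝔰)
    (fun i => s27s_psi hC 𝔰 b L β hβO hβE 0 i)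
    (fun κ i => s27s_psi hC 𝔰 b L β hβO hβE (finProdFinEquiv κ).succ i)
    (fun i j hj => by
      rw [s27s_psi_zero hC 𝔰 b L β hβO hβE hβ0 i]
      rcases Nat.lt_or_eq_of_le hj with hlt | rfl
      · rw [s27s_tay_mu_lt _ _ _ _ hlt]
        exact Ideal.zero_mem _
      · rw [s27s_tay_mu_L]
        exact neg_mem (b i).2)
    (fun i => by
      rw [s27s_psi_zero hC 𝔰 b L β hβO hβE hβ0 i, s27s_tay_mu_succ]
      exact isUnit_one)
    (s27s_hdet hC 𝔰 b L β hβO hβE hβ0 hβli)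
  -- the function
  set f : F := β 0 + ∑ κ : Fin g × Fin L,
    algebraMap K F (((c κ : ↥(maximalIdeal ↥A)) : ↥A) : K) * β (finProdFinEquiv κ).succ with hf
  have hfE : f ∈ riemannRochSpace E := by
    refine Submodule.add_mem _ (hβE 0) (Submodule.sum_mem _ fun κ _ => ?_)
    rw [← Algebra.smul_def]
    exact Submodule.smul_mem _ _ (hβE _)
  -- `f ≠ 0`
  set c' : Fin (g * L + 1) → ↥A :=
    Fin.cons 1 (fun j => ((c (finProdFinEquiv.symm j) : ↥(maximalIdeal ↥A)) : ↥A)) with hc'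
  have hfsum : ∑ j, algebraMap K F ((c' j : ↥A) : K) * β j = f := by
    rw [Fin.sum_univ_succ, hf]
    simp only [hc', Fin.cons_zero, Fin.cons_succ]
    congr 1
    · show algebraMap K F (1 : K) * β 0 = β 0
      rw [map_one, one_mul]
    · rw [← Equiv.sum_comp (finProdFinEquiv (m := g) (n := L))]
      refine Finset.sum_congr rfl fun κ _ => ?_
      rw [Equiv.symm_apply_apply]
  have hf0 : f ≠ 0 := by
    intro h0
    have hfO : ∑ j, algebraMap K F ((c' j : ↥A) : K) * β j ∈ O := by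
      rw [hfsum, h0]; exact O.zero_mem
    have h1 := s17z_red_comb hC.rd β hβO c' hfO
    have h2 : red ⟨∑ j, algebraMap K F ((c' j : ↥A) : K) * β j, hfO⟩ = 0 := by
      have : (⟨∑ j, algebraMap K F ((c' j : ↥A) : K) * β j, hfO⟩ : ↥O) = 0 :=
        Subtype.ext (hfsum.trans h0)
      rw [this, map_zero]
    rw [h2] at h1
    have h3 := Fintype.linearIndependent_iff.mp hβli (fun j => π (c' j)) h1.symm 0
    simp only [hc', Fin.cons_zero, map_one] at h3
    exact one_ne_zero h3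
  -- the factorizations
  have hfac : ∀ i, ∃ g' : ↥(s19a_G O r (𝔰.Q i)), s27s_mu 𝔰 b L i * f =
      (𝔰.t i - algebraMap K F (((q i : ↥(maximalIdeal ↥A)) : ↥A) : K)) ^ (L + 1) * (g' : F) := by
    intro i
    obtain ⟨g', hg'⟩ := hcq i
    refine ⟨g', ?_⟩
    have h1 := congrArg (Subtype.val : ↥(s19a_G O r (𝔰.Q i)) → F) hg'
    unfold s27s_Psi at h1
    rw [Subring.coe_add, AddSubmonoidClass.coe_finsetSum] at h1
    rw [hf, mul_add, Finset.mul_sum]
    have h2 : ∀ κ : Fin g × Fin L, s27s_mu 𝔰 b L i *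
        (algebraMap K F (((c κ : ↥(maximalIdeal ↥A)) : ↥A) : K) * β (finProdFinEquiv κ).succ) =
        ((algebraMap ↥A ↥(s19a_G O r (𝔰.Q i)) ((c κ : ↥(maximalIdeal ↥A)) : ↥A) *
          s27s_psi hC 𝔰 b L β hβO hβE (finProdFinEquiv κ).succ i :
            ↥(s19a_G O r (𝔰.Q i))) : F) := by
      intro κ
      show _ = algebraMap K F (((c κ : ↥(maximalIdeal ↥A)) : ↥A) : K) *
        (s27s_mu 𝔰 b L i * β (finProdFinEquiv κ).succ)
      ring
    rw [Finset.sum_congr rfl fun κ _ => h2 κ]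
    exact h1
  have hdiv := s27s_div_of_lfold hC 𝔰 b q L f hf0 hfE hfac
  -- conclusion
  refine ⟨s19j_cls hC 𝔰 q, s19j_cls_mem hC 𝔰 q, ?_⟩
  unfold s19j_cls
  have hnsmul : (L + 1) • Pic0.mk (s19j_div hC 𝔰 q) = Pic0.mk ((L + 1) • s19j_div hC 𝔰 q) := rfl
  rw [hnsmul, s19j_mk_eq_mk_iff]
  refine ⟨f, hf0, fun P => ?_⟩
  rw [hdiv P, s27s_E_apply]
  show (((L + 1) • s19j_div hC 𝔰 q : Divisor.degZero (K := K) (F := F)) : Divisor K F) P -
    (s19_divS hC 𝔰 b - s19_divS hC 𝔰 0) P = _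
  rw [AddSubmonoidClass.coe_nsmul, Finsupp.smul_apply, nsmul_eq_mul]
  show ((L + 1 : ℕ) : ℤ) * (s19_divS hC 𝔰 q - s19_divS hC 𝔰 0) P - _ = _
  simp only [Finsupp.sub_apply]
  push_cast
  ring

end Fermat.Agent.Lib.S27
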