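/-
Programme Z (S27), brick [SP] (helper4, prefix `s27s_`), file 9:
THE KERNEL OF SPECIALIZATION HAS NO `ℓ`-TORSION (`ℓ = L + 1 ∈ A^×`), by the uniqueness of the
solution of the `ℓ`-fold-zero system with `b = 0` (`s27s_sys_unique`).

If `(L+1)·[divS a − divS 0] = 0` then `(L+1)(divS a − divS 0) = div f`; `f ∈ L((L+1)·divS 0)`,
normalised to a Gauss unit with reduction `1`, is `β 0 + Σ c_κ β_κ` with `c_κ ∈ 𝔪` in a
Gauss-orthonormal basis, and `t_i^(L+1) f` is divisible by `(t_i − a_i)^(L+1)` on every disc: so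
`(c, a)` and `(0, 0)` are two solutions of the system, hence `a = 0`.
-/
import Fermat.Agent.Lib.S27.SDiv

set_option autoImplicit false
set_option linter.unusedSectionVars false
set_option linter.unusedVariables false
set_option linter.style.haveILetI false

noncomputable section

namespace Fermat.Agent.Lib.S27

open AlgebraicCurve Fermat.Agent.Lib.FF Fermat.Agent.Lib.S37 Fermat.Agent.Lib.S19
  Fermat.Agent.Lib.S17 IsLocalRing

section Sys

variable {K F k Fb : Type} [Field K] [Field F] [Algebra K F] [IsAlgClosed K] [Field k] [Field Fb]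
  [Algebra k Fb] {x : F} [FFGen K x] {A : ValuationSubring K} {π : ↥A →+* k}
  {O : ValuationSubring F} {red : ↥O →+* Fb} {r : Place K F → Place k Fb} {FW : Subring F}
  {l : ↥A} {g : ℕ} (hC : s19_Curve x A π O red r FW l g) (𝔰 : s19_Sys red r FW g)

/-- a function whose divisor is `(L+1)(divS a − divS 0)` is, up to a constant, `β 0 + Σ c_j β_j`
with `c_j ∈ 𝔪` in a Gauss-orthonormal basis `β` of `L((L+1)·divS 0)` with `β 0 = 1`. -/
theorem s27s_normal_form (a : Fin g → ↥(maximalIdeal ↥A)) (L : ℕ) (f : F) (hf0 : f ≠ 0)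
    (hdiv : ∀ P : Place K F,
      P.ord f = ((L : ℤ) + 1) * (s19_divS hC 𝔰 a P - s19_divS hC 𝔰 0 P))
    (β : Fin (g * L + 1) → F) (hβO : ∀ j, β j ∈ O) (hβ0 : β 0 = 1)
    (hβE : ∀ j, β j ∈ riemannRochSpace (s27s_E hC 𝔰 0 L))
    (hβli : LinearIndependent k fun j => red ⟨β j, hβO j⟩)
    (hspan : ∀ f ∈ riemannRochSpace (s27s_E hC 𝔰 0 L), ∃ c : Fin (g * L + 1) → K,
      f = ∑ j, algebraMap K F (c j) * β j) :
    ∃ (u : K) (c : Fin (g * L) → ↥(maximalIdeal ↥A)), u ≠ 0 ∧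
      algebraMap K F u * f = β 0 + ∑ j : Fin (g * L),
        algebraMap K F (((c j : ↥(maximalIdeal ↥A)) : ↥A) : K) * β j.succ := by
  classical
  -- `f ∈ L(E₀)`
  have hfE : f ∈ riemannRochSpace (s27s_E hC 𝔰 0 L) := by
    rw [mem_riemannRochSpace_iff]
    intro P
    right
    rw [hdiv P, s27s_E_apply]
    have h1 := s19f_divS_nonneg hC 𝔰 a P
    nlinarith [s19f_divS_nonneg hC 𝔰 0 P]
  -- normalise to a Gauss unit
  obtain ⟨u₁, hu₁0, hu₁O, hu₁inv⟩ := hC.gv f hf0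
  set f₁ : F := algebraMap K F u₁ * f with hf₁
  have hf₁0 : f₁ ≠ 0 := mul_ne_zero (by simpa using hu₁0) hf0
  have hred₁ : red ⟨f₁, hu₁O⟩ ≠ 0 := by
    intro h0
    have h1 : (⟨f₁, hu₁O⟩ : ↥O) * ⟨f₁⁻¹, hu₁inv⟩ = 1 := Subtype.ext (mul_inv_cancel₀ hf₁0)
    have h2 := congrArg red h1
    rw [map_mul, h0, zero_mul, map_one] at h2
    exact zero_ne_one h2
  have hf₁E : f₁ ∈ riemannRochSpace (s27s_E hC 𝔰 0 L) := by
    rw [hf₁, ← Algebra.smul_def]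
    exact Submodule.smul_mem _ _ hfE
  have hord₁ : ∀ P : Place K F,
      P.ord f₁ = ((L : ℤ) + 1) * (s19_divS hC 𝔰 a P - s19_divS hC 𝔰 0 P) := by
    intro P
    rw [hf₁, P.ord_mul (by simpa using hu₁0) hf0, ff_ord_algebraMap, zero_add, hdiv P]
  -- the reduction of `f₁` has divisor zero
  have hordred : ∀ Q : Place k Fb, Q.ord (red ⟨f₁, hu₁O⟩) = 0 := by
    intro Q
    set Dv : Divisor K F := (L + 1) • (s19_divS hC 𝔰 a - s19_divS hC 𝔰 0) with hDv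
    have hDvP : ∀ P, Dv P = P.ord f₁ := by
      intro P
      rw [hord₁ P, hDv, Finsupp.smul_apply, Finsupp.sub_apply, nsmul_eq_mul]
      push_cast
      ring
    have h1 := hC.rd.cons f₁ hu₁O hred₁ Dv hDvP Q
    rw [← h1, hDv, Finsupp.mapDomain_smul]
    have h2 : Finsupp.mapDomain r (s19_divS hC 𝔰 a - s19_divS hC 𝔰 0) =
        Finsupp.mapDomain r (s19_divS hC 𝔰 a) - Finsupp.mapDomain r (s19_divS hC 𝔰 0) :=
      map_sub (Finsupp.mapDomain.addMonoidHom r) _ _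
    rw [h2, s19f_divS_map, s19f_divS_map, sub_self, smul_zero]
    rfl
  -- hence it is a constant
  have hmem : red ⟨f₁, hu₁O⟩ ∈ riemannRochSpace (∑ i, Finsupp.single (𝔰.Q i) (1 : ℤ)) := by
    rw [mem_riemannRochSpace_iff]
    intro Q
    right
    rw [hordred Q]
    have := s19f_D0_nonneg hC 𝔰 Q
    linarith
  have hone : (1 : Fb) ∈ riemannRochSpace (∑ i, Finsupp.single (𝔰.Q i) (1 : ℤ)) :=
    s19n_one_mem (s19f_D0_nonneg hC 𝔰)
  obtain ⟨cb, hcb⟩ : ∃ c : k, c • (1 : Fb) = red ⟨f₁, hu₁O⟩ := by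
    have hnz : (⟨1, hone⟩ : ↥(riemannRochSpace (∑ i, Finsupp.single (𝔰.Q i) (1 : ℤ)))) ≠ 0 := by
      intro h0
      exact one_ne_zero (congrArg Subtype.val h0)
    obtain ⟨c, hc⟩ := (finrank_eq_one_iff_of_nonzero' _ hnz).mp 𝔰.nonsp ⟨red ⟨f₁, hu₁O⟩, hmem⟩
    exact ⟨c, congrArg Subtype.val hc⟩
  have hcb0 : cb ≠ 0 := by
    rintro rfl
    rw [zero_smul] at hcb
    exact hred₁ hcb.symm
  -- coordinates in the basis
  obtain ⟨cK, hcK⟩ := hspan f₁ hf₁E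
  have hcA : ∀ j, cK j ∈ A := s17z_coeff_mem hC.rd β hβO hβli cK (by rw [← hcK]; exact hu₁O)
  set cA : Fin (g * L + 1) → ↥A := fun j => ⟨cK j, hcA j⟩ with hcAdef
  have hsumO : ∑ j, algebraMap K F ((cA j : ↥A) : K) * β j ∈ O := by
    show ∑ j, algebraMap K F (cK j) * β j ∈ O
    rw [← hcK]; exact hu₁O
  have hredsum := s17z_red_comb hC.rd β hβO cA hsumO
  have hred0 : red ⟨β 0, hβO 0⟩ = 1 := by
    have : (⟨β 0, hβO 0⟩ : ↥O) = 1 := Subtype.ext hβ0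
    rw [this, map_one]
  have hredeq : red ⟨∑ j, algebraMap K F ((cA j : ↥A) : K) * β j, hsumO⟩ = red ⟨f₁, hu₁O⟩ := by
    congr 1
    exact Subtype.ext hcK.symm
  have hdep : ∑ j : Fin (g * L + 1),
      (π (cA j) - if j = 0 then cb else 0) • red ⟨β j, hβO j⟩ = 0 := by
    simp only [sub_smul, Finset.sum_sub_distrib, ite_smul, zero_smul]
    rw [← hredsum, hredeq, Finset.sum_ite_eq', if_pos (Finset.mem_univ _), hred0, hcb, sub_self]
  have hall := Fintype.linearIndependent_iff.mp hβli _ hdep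
  have hπ0 : π (cA 0) = cb := by
    have := hall 0
    rw [if_pos rfl, sub_eq_zero] at this
    exact this
  have hπj : ∀ j : Fin (g * L), π (cA j.succ) = 0 := by
    intro j
    have := hall j.succ
    rw [if_neg (Fin.succ_ne_zero j), sub_zero] at this
    exact this
  have hc0inv : (cK 0)⁻¹ ∈ A := hC.rd.unit_of_ne (cA 0) (by rw [hπ0]; exact hcb0)
  have hc0ne : cK 0 ≠ 0 := by
    intro h0
    have : cA 0 = 0 := Subtype.ext h0
    rw [this, map_zero] at hπ0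
    exact hcb0 hπ0.symm
  have hcjm : ∀ j : Fin (g * L), cA j.succ ∈ maximalIdeal ↥A := fun j =>
    (s19a_pi_eq_zero_iff hC.rd _).mp (hπj j)
  set c : Fin (g * L) → ↥(maximalIdeal ↥A) := fun j =>
    ⟨⟨(cK 0)⁻¹, hc0inv⟩ * cA j.succ, Ideal.mul_mem_left _ _ (hcjm j)⟩ with hc
  refine ⟨(cK 0)⁻¹ * u₁, c, mul_ne_zero (inv_ne_zero hc0ne) hu₁0, ?_⟩
  rw [map_mul, mul_assoc, ← hf₁, hcK, Fin.sum_univ_succ, mul_add, Finset.mul_sum]
  congr 1
  · rw [← mul_assoc, ← map_mul, inv_mul_cancel₀ hc0ne, map_one, one_mul]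
  · refine Finset.sum_congr rfl fun j _ => ?_
    show _ = algebraMap K F ((cK 0)⁻¹ * cK j.succ) * β j.succ
    rw [map_mul]
    ring

end Sys

/-- **the kernel of specialization has no `(L+1)`-torsion** when `L + 1 ∈ A^×`. -/
theorem s27s_J1_tf {K F k Fb : Type} [Field K] [Field F] [Algebra K F] [IsAlgClosed K]
    [Field k] [Field Fb] [Algebra k Fb] {x : F} [FFGen K x] {A : ValuationSubring K}
    {π : ↥A →+* k} {O : ValuationSubring F} {red : ↥O →+* Fb} {r : Place K F → Place k Fb}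
    {FW : Subring F} {l : ↥A} {g : ℕ} (hC : s19_Curve x A π O red r FW l g)
    (𝔰 : s19_Sys red r FW g) (L : ℕ) (hℓ : IsUnit ((L + 1 : ℕ) : ↥A)) :
    ∀ y ∈ s19j_J1 (K := K) (F := F) r, (L + 1) • y = 0 → y = 0 := by
  intro y hy hy0
  classical
  letI : ∀ i, Algebra ↥A ↥(s19a_G O r (𝔰.Q i)) := fun i => s19a_algebraG hC.rd (𝔰.Q i)
  obtain ⟨a, rfl⟩ := s19j_cls_surj hC 𝔰 y hy
  -- the function
  unfold s19j_cls at hy0
  have hnsmul : (L + 1) • Pic0.mk (s19j_div hC 𝔰 a) = Pic0.mk ((L + 1) • s19j_div hC 𝔰 a) := rfl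
  rw [hnsmul, ← Pic0.mk_zero, s19j_mk_eq_mk_iff] at hy0
  obtain ⟨f, hf0, hfdiv⟩ := hy0
  have hdiv : ∀ P : Place K F,
      P.ord f = ((L : ℤ) + 1) * (s19_divS hC 𝔰 a P - s19_divS hC 𝔰 0 P) := by
    intro P
    rw [← hfdiv P]
    show ((((L + 1) • s19j_div hC 𝔰 a : Divisor.degZero (K := K) (F := F)) : Divisor K F) -
      ((0 : Divisor.degZero (K := K) (F := F)) : Divisor K F)) P = _
    rw [ZeroMemClass.coe_zero, sub_zero, AddSubmonoidClass.coe_nsmul, Finsupp.smul_apply,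
      nsmul_eq_mul]
    show ((L + 1 : ℕ) : ℤ) * (s19_divS hC 𝔰 a - s19_divS hC 𝔰 0) P = _
    rw [Finsupp.sub_apply]
    push_cast
    ring
  -- the basis and the normal form
  obtain ⟨β, hβO, hβ0, hβE, hβli, hspan⟩ := s27s_exists_basis hC 𝔰 0 L
  obtain ⟨u, c, hu0, hnf⟩ := s27s_normal_form hC 𝔰 a L f hf0 hdiv β hβO hβ0 hβE hβli hspan
  set f₂ : F := algebraMap K F u * f with hf₂
  have hf₂0 : f₂ ≠ 0 := mul_ne_zero (by simpa using hu0) hf0
  have hord₂ : ∀ P : Place K F,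
      P.ord f₂ = ((L : ℤ) + 1) * (s19_divS hC 𝔰 a P - s19_divS hC 𝔰 0 P) := by
    intro P
    rw [hf₂, P.ord_mul (by simpa using hu0) hf0, ff_ord_algebraMap, zero_add, hdiv P]
  -- the two points
  set ψ0 : ∀ i, ↥(s19a_G O r (𝔰.Q i)) := fun i => s27s_psi hC 𝔰 0 L β hβO hβE 0 i with hψ0
  set ψ : Fin g × Fin L → ∀ i, ↥(s19a_G O r (𝔰.Q i)) :=
    fun κ i => s27s_psi hC 𝔰 0 L β hβO hβE (finProdFinEquiv κ).succ i with hψ
  set z₂ : s27s_Ix (Fin g) L → ↥(maximalIdeal ↥A) :=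
    Sum.elim (fun κ => c (finProdFinEquiv κ)) a with hz₂
  -- `z₂` is a zero of the system
  have hF₂ : s27s_F (s17z_D hC 𝔰) L ψ0 ψ z₂ = 0 := by
    refine s27s_F_eq_zero_of_dvd (s17z_D hC 𝔰) L ψ0 ψ z₂ fun i => ?_
    -- the quotient
    have htO : 𝔰.t i ∈ O := (s19a_mem_G.mp (𝔰.param i).mem).1
    have hsubO : 𝔰.t i - algebraMap K F (((a i : ↥(maximalIdeal ↥A)) : ↥A) : K) ∈ O :=
      sub_mem htO (hC.rd.const_mem (a i : ↥A))
    have hsub0 := s19a_t_sub_ne_zero x hC.rd (𝔰.param i) (a i)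
    have hredsub : red ⟨𝔰.t i - algebraMap K F (((a i : ↥(maximalIdeal ↥A)) : ↥A) : K),
        hsubO⟩ = red ⟨𝔰.t i, htO⟩ :=
      s19a_red_t_sub hC.rd (𝔰.param i) (a i : ↥A)
        ((s19a_pi_eq_zero_iff hC.rd _).mpr (a i).2)
    have hinvO : (𝔰.t i - algebraMap K F (((a i : ↥(maximalIdeal ↥A)) : ↥A) : K))⁻¹ ∈ O := by
      apply hC.rd.inv_mem ⟨_, hsubO⟩
      rw [hredsub]
      exact s19a_param_red_ne_zero (𝔰.param i)
    -- `f₂ ∈ L(E₀) ∩ O`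
    have hf₂E : f₂ ∈ riemannRochSpace (s27s_E hC 𝔰 0 L) := by
      rw [hnf]
      refine Submodule.add_mem _ (hβE 0) (Submodule.sum_mem _ fun j _ => ?_)
      rw [← Algebra.smul_def]
      exact Submodule.smul_mem _ _ (hβE _)
    have hf₂O : f₂ ∈ O := by
      rw [hnf]
      refine O.add_mem _ _ (hβO 0) (sum_mem fun j _ => ?_)
      exact O.mul_mem _ _ (hC.rd.const_mem _) (hβO _)
    have hμf := s27s_mu_mul_mem hC 𝔰 0 L i hf₂O hf₂E
    set gq : F := s27s_mu 𝔰 0 L i * f₂ *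
      ((𝔰.t i - algebraMap K F (((a i : ↥(maximalIdeal ↥A)) : ↥A) : K))⁻¹) ^ (L + 1) with hgq
    have hgqG : gq ∈ s19a_G O r (𝔰.Q i) := by
      refine ⟨O.mul_mem _ _ hμf.1 (pow_mem hinvO _), fun P hP => ?_⟩
      have hmu0 := s27s_mu_ne_zero hC 𝔰 (0 : Fin g → ↥(maximalIdeal ↥A)) L i
      have hgq0 : gq ≠ 0 :=
        mul_ne_zero (mul_ne_zero hmu0 hf₂0) (pow_ne_zero _ (inv_ne_zero hsub0))
      rw [ff_mem_iff_ord_nonneg P hgq0, hgq, P.ord_mul (mul_ne_zero hmu0 hf₂0)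
        (pow_ne_zero _ (inv_ne_zero hsub0)), P.ord_mul hmu0 hf₂0, s19e_ord_pow, P.ord_inv,
        s27s_mu_ord hC 𝔰 0 L i P hP, hord₂ P, s27s_E_apply,
        s19e_ord_t_sub x hC.rd (𝔰.param i) (a i) P hP, s17z_divS_apply hC 𝔰 a i P hP]
      unfold s19_ptS
      push_cast
      apply le_of_eq
      ring
    refine ⟨⟨gq, hgqG⟩, ?_⟩
    apply Subtype.ext
    -- both sides as elements of `F`
    have hL : ((s27s_Psi L ψ0 ψ (s27s_cz L z₂) i : ↥(s19a_G O r (𝔰.Q i))) : F) =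
        s27s_mu 𝔰 (0 : Fin g → ↥(maximalIdeal ↥A)) L i * f₂ := by
      unfold s27s_Psi
      rw [Subring.coe_add, AddSubmonoidClass.coe_finsetSum, hnf, mul_add, Finset.mul_sum,
        ← Equiv.sum_comp (finProdFinEquiv (m := g) (n := L))]
      congr 1
      refine Finset.sum_congr rfl fun κ _ => ?_
      show algebraMap K F (((c (finProdFinEquiv κ) : ↥(maximalIdeal ↥A)) : ↥A) : K) *
        (s27s_mu 𝔰 (0 : Fin g → ↥(maximalIdeal ↥A)) L i * β (finProdFinEquiv κ).succ) = _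
      ring
    rw [hL]
    show _ = (𝔰.t i - algebraMap K F (((a i : ↥(maximalIdeal ↥A)) : ↥A) : K)) ^ (L + 1) * gq
    rw [hgq, inv_pow]
    field_simp
  -- `0` is a zero of the system
  have hF₀ : s27s_F (s17z_D hC 𝔰) L ψ0 ψ (0 : s27s_Ix (Fin g) L → ↥(maximalIdeal ↥A)) = 0 := by
    refine s27s_F_eq_zero_of_dvd (s17z_D hC 𝔰) L ψ0 ψ 0 fun i => ⟨1, ?_⟩
    have h1 : s27s_cz L (0 : s27s_Ix (Fin g) L → ↥(maximalIdeal ↥A)) =
        (0 : Fin g × Fin L → ↥A) := rfl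
    rw [h1, s27s_Psi_zero, mul_one, hψ0]
    show s27s_psi hC 𝔰 0 L β hβO hβE 0 i = _
    rw [s27s_psi_zero hC 𝔰 0 L β hβO hβE hβ0 i]
    have h2 : s27s_qz L (0 : s27s_Ix (Fin g) L → ↥(maximalIdeal ↥A)) i = 0 := rfl
    rw [h2]
    show (s17z_D hC 𝔰 i).t ^ L * ((s17z_D hC 𝔰 i).t -
      algebraMap ↥A ↥(s19a_G O r (𝔰.Q i)) ((0 : ↥(maximalIdeal ↥A)) : ↥A)) =
      ((s17z_D hC 𝔰 i).t -
        algebraMap ↥A ↥(s19a_G O r (𝔰.Q i)) ((0 : ↥(maximalIdeal ↥A)) : ↥A)) ^ (L + 1)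
    rw [s27s_t_sub_zero, pow_succ]
  -- uniqueness
  have huniq : z₂ = 0 := by
    refine s27s_sys_unique (s17z_D hC 𝔰) L ψ0 ψ ?_ ?_ hℓ ?_ z₂ 0 (hF₂.trans hF₀.symm)
    · intro i j hj1 hjL
      rw [hψ0]
      show s19_tay (s17z_D hC 𝔰 i) j (s27s_psi hC 𝔰 0 L β hβO hβE 0 i) ∈ _
      rw [s27s_psi_zero hC 𝔰 0 L β hβO hβE hβ0 i]
      rcases Nat.lt_or_eq_of_le hjL with hlt | rfl
      · rw [s27s_tay_mu_lt _ _ _ _ hlt]
        exact Ideal.zero_mem _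
      · rw [s27s_tay_mu_L]
        exact neg_mem (0 : ↥(maximalIdeal ↥A)).2
    · intro i
      rw [hψ0]
      show IsUnit (s19_tay (s17z_D hC 𝔰 i) (L + 1) (s27s_psi hC 𝔰 0 L β hβO hβE 0 i))
      rw [s27s_psi_zero hC 𝔰 0 L β hβO hβE hβ0 i, s27s_tay_mu_succ]
      exact isUnit_one
    · exact s27s_hdet hC 𝔰 0 L β hβO hβE hβ0 hβli
  have ha0 : a = 0 := by
    funext i
    have := congrFun huniq (Sum.inr i)
    exact this
  rw [ha0]
  show Pic0.mk (s19j_div hC 𝔰 0) = 0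
  have : s19j_div hC 𝔰 (0 : Fin g → ↥(maximalIdeal ↥A)) = 0 := by
    apply Subtype.ext
    show s19_divS hC 𝔰 0 - s19_divS hC 𝔰 0 = 0
    rw [sub_self]
  rw [this]
  rfl

end Fermat.Agent.Lib.S27
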