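/-
Programme Z (S27), brick [SP] (helper4, prefix `s27s_`), file 10:
SPECIALIZATION OF `ℓ`-POWER TORSION.

* `s27s_exists_sys`: a non-special coordinate system exists (landed `s19n_nonSp`, `s19n_inf`);
* `s27s_spHom`: the specialization homomorphism `Pic⁰(F) →+ Pic⁰(Fb)` induced by the reduction of
  places (`gv` + conservation of number); its kernel is `s19j_J1 r`; it is onto;
* `s27s_spec`: `#Pic⁰(F)[ℓ^e] = #Pic⁰(Fb)[ℓ^e]` for `ℓ ∈ A^×` (the kernel is uniquely
  `ℓ`-divisible: `s27s_J1_div`, `s27s_J1_tf`).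
-/
import Fermat.Agent.Lib.S27.STf
import Fermat.Agent.Lib.S19.NInf

set_option autoImplicit false
set_option linter.unusedSectionVars false
set_option linter.unusedVariables false
set_option linter.style.haveILetI false

noncomputable section

namespace Fermat.Agent.Lib.S27

open AlgebraicCurve Fermat.Agent.Lib.FF Fermat.Agent.Lib.S37 Fermat.Agent.Lib.S19
  Fermat.Agent.Lib.S17 IsLocalRing

section Sys

variable {K F k Fb : Type} [Field K] [Field F] [Algebra K F] [IsAlgClosed K] [Field k] [Field Fb]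
  [Algebra k Fb] {x : F} [FFGen K x] {A : ValuationSubring K} {π : ↥A →+* k}
  {O : ValuationSubring F} {red : ↥O →+* Fb} {r : Place K F → Place k Fb} {FW : Subring F}
  {l : ↥A} {g : ℕ} (hC : s19_Curve x A π O red r FW l g)

include hC in
/-- **a non-special coordinate system exists.** -/
theorem s27s_exists_sys : Nonempty (s19_Sys red r FW g) := by
  obtain ⟨hac, hinfP⟩ := s19n_inf x A π O red r FW l g hC
  haveI := hac
  obtain ⟨Q, hQinj, -, hns⟩ := s19n_nonSp g hC.rrFb hC.pdFb hC.degFb hinfP ∅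
  exact ⟨⟨Q, fun i => Classical.choose (hC.param (Q i)), hQinj,
    fun i => (Classical.choose_spec (hC.param (Q i))).2,
    fun i => (Classical.choose_spec (hC.param (Q i))).1, hns⟩⟩

include hC in
/-- the reduction of a principal divisor is principal. -/
theorem s27s_map_principal (D : Divisor K F) (hD : D ∈ Divisor.principal (K := K) (F := F)) :
    Finsupp.mapDomain r D ∈ Divisor.principal (K := k) (F := Fb) := by
  obtain ⟨f, hf0, hfD⟩ := hD
  obtain ⟨u, hu0, huO, huinv⟩ := hC.gv f hf0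
  set f₁ : F := algebraMap K F u * f with hf₁
  have hf₁0 : f₁ ≠ 0 := mul_ne_zero (by simpa using hu0) hf0
  have hred : red ⟨f₁, huO⟩ ≠ 0 := by
    intro h0
    have h1 : (⟨f₁, huO⟩ : ↥O) * ⟨f₁⁻¹, huinv⟩ = 1 := Subtype.ext (mul_inv_cancel₀ hf₁0)
    have h2 := congrArg red h1
    rw [map_mul, h0, zero_mul, map_one] at h2
    exact zero_ne_one h2
  have hDP : ∀ P, D P = P.ord f₁ := by
    intro P
    rw [hfD P, hf₁, P.ord_mul (by simpa using hu0) hf0, ff_ord_algebraMap, zero_add]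
  exact ⟨red ⟨f₁, huO⟩, hred, fun Q => hC.rd.cons f₁ huO hred D hDP Q⟩

/-- the reduction of degree-zero divisors. -/
def s27s_degZeroMap :
    Divisor.degZero (K := K) (F := F) →+ Divisor.degZero (K := k) (F := Fb) :=
  ((Finsupp.mapDomain.addMonoidHom r).domRestrict _).codRestrict _ fun D => by
    rw [Divisor.mem_degZero]
    show Divisor.degree (Finsupp.mapDomain r (D : Divisor K F)) = 0
    rw [s19l_degree_mapDomain hC.degF hC.degFb]
    exact Divisor.mem_degZero.mp D.2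

theorem s27s_degZeroMap_coe (D : Divisor.degZero (K := K) (F := F)) :
    ((s27s_degZeroMap hC D : Divisor.degZero (K := k) (F := Fb)) : Divisor k Fb) =
      Finsupp.mapDomain r (D : Divisor K F) := rfl

/-- **the specialization homomorphism** `Pic⁰(F) →+ Pic⁰(Fb)`. -/
def s27s_spHom : Pic0 K F →+ Pic0 k Fb :=
  QuotientAddGroup.map _ _ (s27s_degZeroMap hC) (by
    rintro ⟨D, hD0⟩ hD
    simp only [AddSubgroup.mem_comap, AddSubgroup.mem_addSubgroupOf] at hD ⊢
    exact s27s_map_principal hC D hD)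

theorem s27s_spHom_mk (D : Divisor.degZero (K := K) (F := F)) :
    s27s_spHom hC (Pic0.mk D) = Pic0.mk (s27s_degZeroMap hC D) := rfl

/-- the kernel of specialization is `s19j_J1 r`. -/
theorem s27s_spHom_eq_zero_iff (y : Pic0 K F) : s27s_spHom hC y = 0 ↔ y ∈ s19j_J1 r := by
  constructor
  · intro h
    obtain ⟨D, rfl⟩ := Pic0.mk_surjective y
    refine ⟨D, rfl, ?_⟩
    rw [s27s_spHom_mk, ← Pic0.mk_zero] at h
    have h1 := (QuotientAddGroup.eq (s := (Divisor.principal (K := k) (F := Fb)).addSubgroupOf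
      (Divisor.degZero (K := k) (F := Fb)))).mp h
    rw [add_zero, AddSubgroup.mem_addSubgroupOf, NegMemClass.coe_neg, neg_mem_iff] at h1
    exact h1
  · rintro ⟨D, rfl, hD⟩
    rw [s27s_spHom_mk, ← Pic0.mk_zero]
    apply (QuotientAddGroup.eq (s := (Divisor.principal (K := k) (F := Fb)).addSubgroupOf
      (Divisor.degZero (K := k) (F := Fb)))).mpr
    rw [add_zero, AddSubgroup.mem_addSubgroupOf, NegMemClass.coe_neg, neg_mem_iff]
    exact hD

/-- specialization is onto. -/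
theorem s27s_spHom_surjective : Function.Surjective (s27s_spHom hC) := by
  intro yb
  obtain ⟨Db, rfl⟩ := Pic0.mk_surjective yb
  -- a lift of every place
  have hlift : ∀ Q : Place k Fb, ∃ P : Place K F, r P = Q := by
    intro Q
    obtain ⟨t, -, ht⟩ := hC.param Q
    exact ⟨s19a_pt x hC.rd ht 0, s19a_pt_r x hC.rd ht 0⟩
  choose lift hliftr using hlift
  set D : Divisor K F := Finsupp.mapDomain lift (Db : Divisor k Fb) with hD
  have hmap : Finsupp.mapDomain r D = (Db : Divisor k Fb) := by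
    rw [hD, ← Finsupp.mapDomain_comp]
    have : r ∘ lift = id := funext hliftr
    rw [this, Finsupp.mapDomain_id]
  have hdeg : Divisor.degree D = 0 := by
    rw [← s19l_degree_mapDomain (r := r) hC.degF hC.degFb D, hmap]
    exact Divisor.mem_degZero.mp Db.2
  refine ⟨Pic0.mk ⟨D, Divisor.mem_degZero.mpr hdeg⟩, ?_⟩
  rw [s27s_spHom_mk]
  congr 1
  exact Subtype.ext hmap

end Sys

/-- an abelian-group lemma: a surjective homomorphism whose kernel is uniquely `ℓ`-divisible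
induces a bijection on `ℓ^e`-torsion. -/
theorem s27s_torsion_bij {M N : Type*} [AddCommGroup M] [AddCommGroup N] (φ : M →+ N)
    (hφ : Function.Surjective φ) (ℓ : ℕ)
    (hdiv : ∀ y, φ y = 0 → ∃ y', φ y' = 0 ∧ ℓ • y' = y)
    (htf : ∀ y, φ y = 0 → ℓ • y = 0 → y = 0) (e : ℕ) :
    (∀ y, φ y = 0 → (ℓ ^ e) • y = 0 → y = 0) ∧
      ∀ yb : N, (ℓ ^ e) • yb = 0 → ∃ y : M, (ℓ ^ e) • y = 0 ∧ φ y = yb := by
  have hdivE : ∀ e : ℕ, ∀ y, φ y = 0 → ∃ y', φ y' = 0 ∧ (ℓ ^ e) • y' = y := by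
    intro e
    induction e with
    | zero => exact fun y hy => ⟨y, hy, by rw [pow_zero, one_smul]⟩
    | succ e ih =>
      intro y hy
      obtain ⟨y₁, hy₁, h1⟩ := hdiv y hy
      obtain ⟨y₂, hy₂, h2⟩ := ih y₁ hy₁
      exact ⟨y₂, hy₂, by rw [pow_succ', mul_smul, h2, h1]⟩
  have htfE : ∀ e : ℕ, ∀ y, φ y = 0 → (ℓ ^ e) • y = 0 → y = 0 := by
    intro e
    induction e with
    | zero => exact fun y _ h => by rwa [pow_zero, one_smul] at h
    | succ e ih =>
      intro y hy h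
      rw [pow_succ', mul_smul] at h
      have h1 : φ ((ℓ ^ e) • y) = 0 := by rw [map_nsmul, hy, smul_zero]
      exact ih y hy (htf _ h1 h)
  refine ⟨htfE e, fun yb hyb => ?_⟩
  obtain ⟨y₀, rfl⟩ := hφ yb
  have h1 : φ ((ℓ ^ e) • y₀) = 0 := by rw [map_nsmul, hyb]
  obtain ⟨w, hw, hw2⟩ := hdivE e _ h1
  refine ⟨y₀ - w, ?_, ?_⟩
  · rw [smul_sub, hw2, sub_self]
  · rw [map_sub, hw, sub_zero]

/-- **[SP] specialization of `ℓ`-power torsion.** -/
theorem s27s_spec {K F k Fb : Type} [Field K] [Field F] [Algebra K F] [IsAlgClosed K]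
    [CharZero K] [Field k] [Field Fb] [Algebra k Fb] (x : F) [FFGen K x] (A : ValuationSubring K)
    (π : ↥A →+* k) (O : ValuationSubring F) (red : ↥O →+* Fb) (r : Place K F → Place k Fb)
    (FW : Subring F) (l : ↥A) (g : ℕ) (hC : s19_Curve x A π O red r FW l g)
    (abv : AbsoluteValue K ℝ) (hna : ∀ a b : K, abv (a + b) ≤ max (abv a) (abv b))
    (hA : ∀ a : K, a ∈ A ↔ abv a ≤ 1) (ℓ : ℕ) [hℓp : Fact ℓ.Prime]
    (hℓ : IsUnit ((ℓ : ℕ) : ↥A)) (e : ℕ) :
    Nat.card ↥(Pic0.torsion K F (ℓ ^ e)) = Nat.card ↥(Pic0.torsion k Fb (ℓ ^ e)) := by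
  classical
  obtain ⟨𝔰⟩ := s27s_exists_sys hC
  obtain ⟨L, rfl⟩ : ∃ L, ℓ = L + 1 := ⟨ℓ - 1, by have := hℓp.out.pos; omega⟩
  have hdiv : ∀ y, s27s_spHom hC y = 0 → ∃ y', s27s_spHom hC y' = 0 ∧ (L + 1) • y' = y := by
    intro y hy
    obtain ⟨y', hy', h⟩ := s27s_J1_div hC 𝔰 abv hna hA L hℓ y ((s27s_spHom_eq_zero_iff hC y).mp hy)
    exact ⟨y', (s27s_spHom_eq_zero_iff hC y').mpr hy', h⟩
  have htf : ∀ y, s27s_spHom hC y = 0 → (L + 1) • y = 0 → y = 0 := fun y hy h =>
    s27s_J1_tf hC 𝔰 L hℓ y ((s27s_spHom_eq_zero_iff hC y).mp hy) h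
  obtain ⟨hinj, hsurj⟩ := s27s_torsion_bij (s27s_spHom hC) (s27s_spHom_surjective hC) (L + 1) hdiv htf e
  -- the map on torsion
  have hmem : ∀ (K' F' : Type) [Field K'] [Field F'] [Algebra K' F'] (y : Pic0 K' F'),
      y ∈ Pic0.torsion K' F' ((L + 1) ^ e) ↔ ((L + 1) ^ e) • y = 0 := by
    intro K' F' _ _ _ y
    rw [Pic0.mem_torsion, natCast_zsmul]
  let T : ↥(Pic0.torsion K F ((L + 1) ^ e)) → ↥(Pic0.torsion k Fb ((L + 1) ^ e)) := fun y =>
    ⟨s27s_spHom hC (y : Pic0 K F), by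
      rw [hmem, ← map_nsmul, (hmem K F _).mp y.2, map_zero]⟩
  have hT : Function.Bijective T := by
    constructor
    · intro y y' h
      have h1 : s27s_spHom hC (y : Pic0 K F) = s27s_spHom hC (y' : Pic0 K F) :=
        congrArg Subtype.val h
      have h2 : s27s_spHom hC ((y : Pic0 K F) - (y' : Pic0 K F)) = 0 := by
        rw [map_sub, h1, sub_self]
      have h3 : ((L + 1) ^ e) • ((y : Pic0 K F) - (y' : Pic0 K F)) = 0 := by
        rw [nsmul_sub, (hmem K F _).mp y.2, (hmem K F _).mp y'.2, sub_self]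
      exact Subtype.ext (sub_eq_zero.mp (hinj _ h2 h3))
    · intro yb
      obtain ⟨y, hy, hyb⟩ := hsurj (yb : Pic0 k Fb) ((hmem k Fb _).mp yb.2)
      exact ⟨⟨y, (hmem K F y).mpr hy⟩, Subtype.ext hyb⟩
  exact Nat.card_congr (Equiv.ofBijective T hT)

end Fermat.Agent.Lib.S27
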