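/-
Programme Z (S27), brick [SP] (helper4, prefix `s27s_`), file 11:
THE CONTRACT `s27_SP` of the reduction-half interface (`RIface.lean`, architect helper5).
-/
import Fermat.Agent.Lib.S27.SSpec
import Fermat.Agent.Lib.S27.RIface

set_option autoImplicit false

namespace Fermat.Agent.Lib.S27

/-- **[SP]** specialization of `ℓ`-power torsion. -/
theorem s27s_sp : s27_SP := by
  intro K F k Fb _ _ _ _ _ _ _ _ _ x _ A π O red r l g hC abv hna hA ℓ _ hℓ e
  exact s27s_spec x A π O red r ⊤ l g hC abv hna hA ℓ hℓ e

end Fermat.Agent.Lib.S27
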