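/-
Programme Z (S27), reduction half, brick [GR-D] / [PARAM-FIN] (helper6, prefix `s27w_`):
A PARAMETER OF THE DISC OF A FINITE POINT OF THE SPECIAL FIBRE.

For a place `Q ≠ Pinf` of the special fibre whose valuation ring contains `R̄` (a *finite* point),
let `𝔮` be its centre on the Dedekind domain `R̄`; a uniformizer `τ̄ ∈ R̄` of `𝔮` lifts to an
element `t ∈ R_A` of the model.  It is Gauss-integral, regular at every point of the disc of `Q`
(those points are integral, so they are `≠ vinf`, and `R_A ⊆ B`), and its reduction is `τ̄`, a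
uniformizer at `Q`.
-/
import Fermat.Agent.Lib.S27.JDefs
import Fermat.Agent.Lib.S19.ADisc
import Fermat.Agent.Lib.S37.DDict

set_option autoImplicit false
set_option linter.unusedSectionVars false
set_option linter.unusedVariables false
set_option linter.style.haveILetI false
set_option linter.overlappingInstances false

noncomputable section

namespace Fermat.Agent.Lib.S27

open AlgebraicCurve Fermat.Agent.Lib.FF Fermat.Agent.Lib.S44 Fermat.Agent.Lib.S19
  Fermat.Agent.Lib.S37 Polynomial IsLocalRing IsDedekindDomain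

variable {K F : Type} [Field K] [Field F] [Algebra K F] [IsAlgClosed K] [CharZero K] {x : F}
  [FFGen K x] {W : s27r_WD K F x} {A : ValuationSubring K} [IsDomain (s27r_Rbar W A)]
  [IsDedekindDomain (s27r_Rbar W A)]

/-- a point of the disc of a finite point is integral. -/
theorem s27w_int_of_r_eq (hW : s27r_WProps W) (hsc : s27r_SCUnit W A)
    (Pinf : Place (ResidueField ↥A) (s27r_Fb W A))
    {Q : Place (ResidueField ↥A) (s27r_Fb W A)} (hQ : Q ≠ Pinf) {P : Place K F}
    (hP : s27j_r hW hsc Pinf P = Q) : s27j_Int W A P := by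
  by_contra hni
  rw [s27j_r_of_not_int hW hsc Pinf hni] at hP
  exact hQ hP.symm

/-- the elements of the model are regular on the disc of a finite point. -/
theorem s27w_coe_mem_G (hW : s27r_WProps W) (hsc : s27r_SCUnit W A)
    (Pinf : Place (ResidueField ↥A) (s27r_Fb W A))
    {Q : Place (ResidueField ↥A) (s27r_Fb W A)} (hQ : Q ≠ Pinf) (f : ↥(s27r_RA W A)) :
    (f : F) ∈ s19a_G (s27j_OW hW hsc) (s27j_r hW hsc Pinf) Q :=
  ⟨s27j_coe_mem_OW hW hsc f, fun P hP =>
    s27j_RA_le_B hsc f.2 P (s27j_ne_vinf (s27w_int_of_r_eq hW hsc Pinf hQ hP))⟩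

/-- **[PARAM-FIN]** every finite point of the special fibre has a parameter of its disc. -/
theorem s27w_param_fin (hW : s27r_WProps W) (hsc : s27r_SCUnit W A)
    (Pinf : Place (ResidueField ↥A) (s27r_Fb W A))
    (Q : Place (ResidueField ↥A) (s27r_Fb W A)) (hQ : Q ≠ Pinf)
    (hQR : ∀ y : s27r_Rbar W A,
      algebraMap (s27r_Rbar W A) (s27r_Fb W A) y ∈ Q.toValuationSubring) :
    ∃ t : F, s19a_IsParam (s27j_redW hW hsc) (s27j_r hW hsc Pinf) Q t := by
  classical
  have hQeq : Place.ofHeightOneSpectrum (K := ResidueField ↥A) (s37d_primeOf Q hQR) = Q :=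
    s37d_ofHeightOneSpectrum_primeOf Q hQR
  obtain ⟨τ, hτ⟩ := (s37d_primeOf Q hQR).intValuation_exists_uniformizer
  obtain ⟨tA, rfl⟩ := Ideal.Quotient.mk_surjective τ
  have hmem : (tA : F) ∈ s19a_G (s27j_OW hW hsc) (s27j_r hW hsc Pinf) Q :=
    s27w_coe_mem_G hW hsc Pinf hQ tA
  refine ⟨(tA : F), hmem, ?_⟩
  have h1 : s27j_redW hW hsc ⟨(tA : F), (s19a_mem_G.mp hmem).1⟩ =
      algebraMap (s27r_Rbar W A) (s27r_Fb W A) (Ideal.Quotient.mk (s27r_mRA W A) tA) :=
    s27j_redW_coe hW hsc tA
  rw [h1, ← hQeq, s37d_ord_ofHeightOneSpectrum, HeightOneSpectrum.valuation_of_algebraMap, hτ,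
    WithZero.log_exp, neg_neg]

end Fermat.Agent.Lib.S27
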