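/-
Programme Z (S27), REDUCTION HALF, THE END (helper5): `s27r_gr : s27_GR` and
`s27r_small0 : s27_Small0`.

The two bricks of helper4's `SBrick.lean` are closed by helper9's `s27j_cons` (conservation of
number) and helper6's `s27w_param_fin` (parameters at the finite places).
-/
import Fermat.Agent.Lib.S27.SBrick
import Fermat.Agent.Lib.S27.JCons
import Fermat.Agent.Lib.S27.WParam
import Fermat.Agent.Lib.S27.RGlue
import Fermat.Agent.Lib.S27.SSp
import Fermat.Agent.Lib.S27.GAsm2

set_option autoImplicit false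
set_option linter.unusedSectionVars false
set_option linter.unusedVariables false
set_option linter.style.haveILetI false

noncomputable section

namespace Fermat.Agent.Lib.S27

open AlgebraicCurve Fermat.Agent.Lib.FF Fermat.Agent.Lib.S44 Fermat.Agent.Lib.S19
  Fermat.Agent.Lib.S37 Polynomial IsLocalRing IsDedekindDomain IntermediateField

/-- helper6's parameters at the finite places, in the shape of the brick. -/
theorem s27r_paramFinBrick : s27s_ParamFinBrick := by
  intro K F _ _ _ _ _ x _ W hW A hsc _ _ Pinf Q hQ hQR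
  exact s27w_param_fin hW hsc Pinf Q hQ hQR

/-- helper9's conservation of number, in the shape of the brick. -/
theorem s27r_consBrick : s27s_ConsBrick := by
  intro K F _ _ _ _ _ x _ W hW A hsc p _ hNp _ _ _ _
  haveI : FFGen (ResidueField ↥A)
      (algebraMap (s27r_Rbar W A) (s27r_Fb W A) (s27r_xb W A)) := s27b_ffGen_xF hW hsc
  haveI : Algebra.IsSeparable
      ↥(ResidueField ↥A)⟮algebraMap (s27r_Rbar W A) (s27r_Fb W A) (s27r_xb W A)⟯
      (s27r_Fb W A) := s27b_isSeparable_xF hW hsc p hNp
  have hdeg : Module.finrank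
      ↥(ResidueField ↥A)⟮algebraMap (s27r_Rbar W A) (s27r_Fb W A) (s27r_xb W A)⟯
      (s27r_Fb W A) = W.n := s27b_finrank_xF hW hsc
  haveI : HasPrincipalDivisors K F := s27s_pd x
  haveI : HasPrincipalDivisors (ResidueField ↥A) (s27r_Fb W A) :=
    s27b_hasPrincipalDivisors_Fb hW hsc p hNp
  refine s27j_cons hW hsc (s27g_Pinf hW hsc) (s27b_deg_eq_one_Fb hW hsc)
    (fun Q hQ y => s27g_algebraMap_mem_place hW hsc hdeg Q hQ y) ⟨s27r_xb W A, ?_⟩
  intro hmem
  have hx0 : algebraMap (s27r_Rbar W A) (s27r_Fb W A) (s27r_xb W A) ≠ 0 := by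
    intro h0
    have h1 := s27g_Pinf_ord_xb hW hsc
    rw [h0, Place.ord_zero] at h1
    have := W.hn
    omega
  have h2 := (ff_mem_iff_ord_nonneg (s27g_Pinf hW hsc) hx0).mp hmem
  rw [s27g_Pinf_ord_xb hW hsc] at h2
  have := W.hn
  omega

/-- **CONTRACT [GR] PROVED.** -/
theorem s27r_gr : s27_GR :=
  s27r_gr_of (s27s_curveBrick_of s27r_consBrick s27r_paramFinBrick)

/-- **THE OUTPUT OF THE REDUCTION HALF** (+ the arithmetic half): S27 over small constant fields
in `Type`. -/
theorem s27r_small0 : s27_Small0 :=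
  s27_small0_of (s27r_red_of s27r_gr s27s_sp) s27g_finCount

end Fermat.Agent.Lib.S27
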