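/-
(M) node [DIV] (helper5, prefix `s27v_`): DIVISIBILITY of `Pic⁰` of a function field over an
algebraically closed field of characteristic `0` of finite transcendence degree, from the
divisibility of `Pic⁰` over `𝔽̄_p` (contract `s27_DivFp`, [DIV-a]) by the specialisation sequence
`0 → J₁ → Pic⁰(F) → Pic⁰(Fb) → 0` (`s27s_spHom`), whose kernel is `ℓ`-divisible (`s27s_J1_div`).
-/
import Fermat.Agent.Lib.S27.RGr

set_option autoImplicit false
set_option linter.unusedSectionVars false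
set_option linter.unusedVariables false
set_option linter.style.haveILetI false

noncomputable section

namespace Fermat.Agent.Lib.S27

open AlgebraicCurve Fermat.Agent.Lib.FF Fermat.Agent.Lib.S19 Fermat.Agent.Lib.S18 Polynomial

/-- **CONTRACT [DIV-a]**: `Pic⁰` of a function field over `𝔽̄_p` is `ℓ`-divisible (`ℓ ≠ p`). -/
def s27_DivFp : Prop :=
  ∀ (p : ℕ) [Fact p.Prime] (k Fb : Type) [Field k] [Field Fb] [Algebra k Fb]
    (hk : s27_IsFpBar p k) (g : ℕ) (hF : s27_FF k Fb g) (ℓ : ℕ) [Fact ℓ.Prime] (hℓp : ℓ ≠ p)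
    (x : Pic0 k Fb), ∃ y : Pic0 k Fb, ℓ • y = x

/-- **[DIV-b], generic form**: `Pic⁰(F)` is `ℓ`-divisible for a function field `F / K`, `K`
algebraically closed of characteristic `0` with a finite transcendence basis over `ℚ`. -/
theorem s27v_div_of (hD : s27_DivFp) (K F : Type) [Field K] [Field F] [Algebra K F]
    [IsAlgClosed K] [CharZero K] (x₀ : F) [FFGen K x₀] (ι : Type) [Fintype ι] (t : ι → K)
    (ht : IsTranscendenceBasis ℚ t) (ℓ : ℕ) [hℓ : Fact ℓ.Prime] (z : Pic0 K F) :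
    ∃ y : Pic0 K F, ℓ • y = z := by
  classical
  obtain ⟨x, hx, S, N, hS, hgr⟩ := s27r_gr K F x₀
  haveI := hx
  have hℓ0 : ((ℓ : ℕ) : K) ≠ 0 := by exact_mod_cast hℓ.out.ne_zero
  obtain ⟨p, abv, hp, hMp, hna, hpabv, hSu, hres⟩ :=
    s27c_cassels K ι t ht (insert ((ℓ : ℕ) : K) S)
      (fun s hs => by
        rcases Finset.mem_insert.mp hs with rfl | h
        · exact hℓ0
        · exact hS s h) (max N ℓ)
  haveI : Fact p.Prime := ⟨hp⟩
  have hNp : N < p := lt_of_le_of_lt (le_max_left _ _) hMp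
  have hℓp : ℓ ≠ p := (lt_of_le_of_lt (le_max_right _ _) hMp).ne
  set A : ValuationSubring K := s27r_ball abv hna with hA
  have hmemA : ∀ a : K, a ∈ A ↔ abv a ≤ 1 := fun a => Iff.rfl
  obtain ⟨Fb, iFb, ia, O, red, r, l, hC, xb, hxb, hsep⟩ := hgr p A abv hNp hna hmemA hpabv
    (fun s hs => hSu s (Finset.mem_insert_of_mem hs))
  haveI : IsAlgClosed (IsLocalRing.ResidueField ↥A) := s18n_isAlgClosed_residueField A
  -- the residue characteristic
  have hpmem : ((p : ℕ) : K) ∈ A := (hmemA _).mpr hpabv.le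
  have hp0 : ((p : ℕ) : IsLocalRing.ResidueField ↥A) = 0 := by
    have h1 : ((p : ℕ) : ↥A) = ⟨((p : ℕ) : K), hpmem⟩ := Subtype.ext (by simp)
    have h2 : IsLocalRing.residue ↥A ((p : ℕ) : ↥A) = 0 := by
      rw [IsLocalRing.residue_eq_zero_iff, IsLocalRing.mem_maximalIdeal, mem_nonunits_iff, h1]
      intro hu
      have hinv : (((p : ℕ) : K))⁻¹ ∈ A := by
        obtain ⟨u, hu⟩ := hu
        have h3 : ((u : ↥A) : K) = ((p : ℕ) : K) := by rw [hu]
        have h4 : (((u⁻¹ : (↥A)ˣ) : ↥A) : K) * ((u : ↥A) : K) = 1 := by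
          rw [← Subring.coe_mul]
          simp
        rw [h3] at h4
        have h5 : (((u⁻¹ : (↥A)ˣ) : ↥A) : K) = (((p : ℕ) : K))⁻¹ :=
          eq_inv_of_mul_eq_one_left h4
        exact h5 ▸ ((u⁻¹ : (↥A)ˣ) : ↥A).2
      have h5 : abv (((p : ℕ) : K))⁻¹ ≤ 1 := (hmemA _).mp hinv
      rw [map_inv₀] at h5
      have h6 : (1 : ℝ) < (abv ((p : ℕ) : K))⁻¹ := by
        have hpos : 0 < abv ((p : ℕ) : K) := abv.pos (by exact_mod_cast hp.ne_zero)
        exact (one_lt_inv₀ hpos).mpr hpabv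
      exact absurd h5 (not_le.mpr h6)
    rwa [map_natCast] at h2
  haveI hchar : CharP (IsLocalRing.ResidueField ↥A) p := (CharP.charP_iff_prime_eq_zero hp).mpr hp0
  have hfp : s27_IsFpBar p (IsLocalRing.ResidueField ↥A) := by
    refine ⟨inferInstance, hchar, fun c => ?_⟩
    obtain ⟨a, rfl⟩ := IsLocalRing.residue_surjective c
    obtain ⟨q, hqm, hq⟩ := hres (a : K) ((hmemA _).mp a.2)
    refine s27r_frob_periodic p _ q hqm ?_
    have h1 : aeval (IsLocalRing.residue ↥A a) q = IsLocalRing.residue ↥A (aeval a q) :=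
      Polynomial.aeval_algHom_apply (IsLocalRing.residue ↥A).toIntAlgHom a q
    refine h1.trans ?_
    rw [IsLocalRing.residue_eq_zero_iff, IsLocalRing.mem_maximalIdeal, mem_nonunits_iff]
    intro hu
    have h2 : ((aeval a q : ↥A) : K) = aeval (a : K) q :=
      (Polynomial.aeval_algHom_apply (A.subtype).toIntAlgHom a q).symm
    obtain ⟨u, hu⟩ := hu
    have h4 : (((u⁻¹ : (↥A)ˣ) : ↥A) : K) * ((u : ↥A) : K) = 1 := by
      rw [← Subring.coe_mul]
      simp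
    rw [hu, h2] at h4
    have h5 : abv (((u⁻¹ : (↥A)ˣ) : ↥A) : K) ≤ 1 := (hmemA _).mp ((u⁻¹ : (↥A)ˣ) : ↥A).2
    have h6 : abv ((((u⁻¹ : (↥A)ˣ) : ↥A) : K) * aeval (a : K) q) = 1 := by rw [h4, map_one]
    rw [map_mul] at h6
    have h7 : abv ((((u⁻¹ : (↥A)ˣ) : ↥A) : K)) * abv (aeval (a : K) q) < 1 := by
      calc abv ((((u⁻¹ : (↥A)ˣ) : ↥A) : K)) * abv (aeval (a : K) q)
          ≤ 1 * abv (aeval (a : K) q) := mul_le_mul_of_nonneg_right h5 (abv.nonneg _)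
        _ < 1 := by rw [one_mul]; exact hq
    rw [h6] at h7
    exact lt_irrefl _ h7
  have hFF : s27_FF (IsLocalRing.ResidueField ↥A) Fb (genusFF K F) :=
    ⟨hC.pdFb, hC.degFb, hC.rrFb, xb, hxb, hsep⟩
  -- `ℓ` is a unit of `A`
  have hℓu : IsUnit ((ℓ : ℕ) : ↥A) := by
    have h1 : abv ((ℓ : ℕ) : K) = 1 := hSu _ (Finset.mem_insert_self _ _)
    have hmem : ((ℓ : ℕ) : K) ∈ A := (hmemA _).mpr h1.le
    have hinv : (((ℓ : ℕ) : K))⁻¹ ∈ A := by
      rw [hmemA, map_inv₀, h1, inv_one]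
    refine ⟨⟨⟨((ℓ : ℕ) : K), hmem⟩, ⟨(((ℓ : ℕ) : K))⁻¹, hinv⟩, ?_, ?_⟩, ?_⟩
    · apply Subtype.ext
      show ((ℓ : ℕ) : K) * (((ℓ : ℕ) : K))⁻¹ = 1
      exact mul_inv_cancel₀ hℓ0
    · apply Subtype.ext
      show (((ℓ : ℕ) : K))⁻¹ * ((ℓ : ℕ) : K) = 1
      exact inv_mul_cancel₀ hℓ0
    · apply Subtype.ext
      simp
  -- the specialisation sequence
  obtain ⟨𝔰⟩ := s27s_exists_sys hC
  obtain ⟨L, rfl⟩ : ∃ L, ℓ = L + 1 := ⟨ℓ - 1, by have := hℓ.out.pos; omega⟩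
  obtain ⟨yb, hyb⟩ := hD p (IsLocalRing.ResidueField ↥A) Fb hfp (genusFF K F) hFF (L + 1) hℓp
    (s27s_spHom hC z)
  obtain ⟨y₀, hy₀⟩ := s27s_spHom_surjective hC yb
  have hker : s27s_spHom hC (z - (L + 1) • y₀) = 0 := by
    rw [map_sub, map_nsmul, hy₀, hyb, sub_self]
  obtain ⟨y', -, hy'⟩ := s27s_J1_div hC 𝔰 abv hna hmemA L hℓu _
    ((s27s_spHom_eq_zero_iff hC _).mp hker)
  refine ⟨y₀ + y', ?_⟩
  rw [nsmul_add, hy']
  abel

end Fermat.Agent.Lib.S27
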