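/-
(M) node [DIV-a], group-theoretic half (helper5, prefix `s27v_`): a torsion abelian group whose
`ℓ^e`-torsion has `ℓ^{c e}` elements for every `e` is `ℓ`-divisible.  Hence `s27_TorsFp → s27_DivFp`
(with `s27g_finCount`).
-/
import Fermat.Agent.Lib.S27.RDiv

set_option autoImplicit false
set_option linter.unusedSectionVars false
set_option linter.unusedVariables false
set_option linter.style.haveILetI false

noncomputable section

namespace Fermat.Agent.Lib.S27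

open AlgebraicCurve

/-- multiplication by `ℓ` from the `ℓ^{e+1}`-torsion to the `ℓ^e`-torsion. -/
def s27v_mulL {T : Type*} [AddCommGroup T] (ℓ : ℕ) (Tor : ℕ → AddSubgroup T)
    (hmem : ∀ n x, x ∈ Tor n ↔ n • x = 0) (e : ℕ) : ↥(Tor (ℓ ^ (e + 1))) →+ ↥(Tor (ℓ ^ e)) where
  toFun y := ⟨ℓ • (y : T), by
    rw [hmem, ← mul_smul, ← pow_succ]
    exact (hmem _ _).mp y.2⟩
  map_zero' := by
    apply Subtype.ext
    simp
  map_add' y z := by
    apply Subtype.ext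
    simp [smul_add]

/-- the `ℓ`-primary part: multiplication by `ℓ` is onto. -/
theorem s27v_mulL_surjective {T : Type*} [AddCommGroup T] (ℓ : ℕ) (hℓ : ℓ.Prime) (c : ℕ)
    (Tor : ℕ → AddSubgroup T) (hmem : ∀ n x, x ∈ Tor n ↔ n • x = 0)
    (hcount : ∀ e : ℕ, Nat.card ↥(Tor (ℓ ^ e)) = ℓ ^ (c * e)) (e : ℕ) :
    Function.Surjective (s27v_mulL ℓ Tor hmem e) := by
  have hfin : ∀ e : ℕ, Finite ↥(Tor (ℓ ^ e)) := fun e =>
    Nat.finite_of_card_ne_zero (by rw [hcount e]; exact (pow_pos hℓ.pos _).ne')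
  haveI := hfin e
  haveI := hfin (e + 1)
  set f := s27v_mulL ℓ Tor hmem e with hf
  -- the kernel is the `ℓ`-torsion
  have hone : ∀ y : T, y ∈ Tor (ℓ ^ 1) ↔ ℓ • y = 0 := fun y => by rw [hmem, pow_one]
  have hker : Nat.card ↥f.ker = ℓ ^ c := by
    have h1 : Nat.card ↥(Tor (ℓ ^ 1)) = ℓ ^ c := by rw [hcount 1, mul_one]
    rw [← h1]
    refine Nat.card_congr ⟨fun y => ⟨((y : ↥(Tor (ℓ ^ (e + 1)))) : T), ?_⟩,
      fun y => ⟨⟨(y : T), ?_⟩, ?_⟩, fun y => rfl, fun y => rfl⟩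
    · have h2 : f (y : ↥(Tor (ℓ ^ (e + 1)))) = 0 := y.2
      have h3 := congrArg Subtype.val h2
      rw [hone]
      exact h3
    · have h2 : ℓ • (y : T) = 0 := (hone _).mp y.2
      rw [hmem, pow_succ, mul_smul, h2, smul_zero]
    · show f _ = 0
      apply Subtype.ext
      exact (hone _).mp y.2
  have h1 : Nat.card ↥f.ker * f.ker.index = Nat.card ↥(Tor (ℓ ^ (e + 1))) :=
    AddSubgroup.card_mul_index f.ker
  rw [AddSubgroup.index_ker, hker, hcount (e + 1)] at h1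
  have h2 : Nat.card ↥f.range = ℓ ^ (c * e) := by
    apply Nat.eq_of_mul_eq_mul_left (pow_pos hℓ.pos c)
    rw [h1, ← pow_add]
    congr 1
    ring
  have h3 : f.range = ⊤ := by
    apply (AddSubgroup.card_eq_iff_eq_top f.range).mp
    rw [h2, hcount e]
  exact AddMonoidHom.range_eq_top.mp h3

/-- **a torsion group with the right torsion counts is `ℓ`-divisible.** -/
theorem s27v_divisible_of_count {T : Type*} [AddCommGroup T] (ℓ : ℕ) (hℓ : ℓ.Prime) (c : ℕ)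
    (Tor : ℕ → AddSubgroup T) (hmem : ∀ n x, x ∈ Tor n ↔ n • x = 0)
    (htors : ∀ x : T, ∃ n : ℕ, 0 < n ∧ n • x = 0)
    (hcount : ∀ e : ℕ, Nat.card ↥(Tor (ℓ ^ e)) = ℓ ^ (c * e)) (x : T) :
    ∃ y : T, ℓ • y = x := by
  obtain ⟨n, hn0, hn⟩ := htors x
  obtain ⟨e, m, hm, rfl⟩ := Nat.exists_eq_pow_mul_and_not_dvd hn0.ne' ℓ hℓ.ne_one
  have hcop : Nat.Coprime ℓ m := (Nat.Prime.coprime_iff_not_dvd hℓ).mpr hm
  have hcopE : Nat.Coprime (ℓ ^ e) m := Nat.Coprime.pow_left e hcop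
  -- Bezout, twice
  have hb1 : ((ℓ ^ e : ℕ) : ℤ) * Nat.gcdA (ℓ ^ e) m + (m : ℤ) * Nat.gcdB (ℓ ^ e) m = 1 := by
    rw [← Nat.gcd_eq_gcd_ab, hcopE]
    simp
  have hb2 : ((ℓ : ℕ) : ℤ) * Nat.gcdA ℓ m + (m : ℤ) * Nat.gcdB ℓ m = 1 := by
    rw [← Nat.gcd_eq_gcd_ab, hcop]
    simp
  set a := Nat.gcdA (ℓ ^ e) m with ha
  set b := Nat.gcdB (ℓ ^ e) m with hb
  set a' := Nat.gcdA ℓ m with ha'
  set b' := Nat.gcdB ℓ m with hb'
  have hnz : (((ℓ ^ e : ℕ) : ℤ) * (m : ℤ)) • x = 0 := by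
    rw [← Nat.cast_mul, natCast_zsmul]
    exact hn
  -- the prime-to-`ℓ` part
  set x₁ : T := (((ℓ ^ e : ℕ) : ℤ) * a) • x with hx₁
  have hx₁m : (m : ℤ) • x₁ = 0 := by
    rw [hx₁, ← mul_smul, show (m : ℤ) * (((ℓ ^ e : ℕ) : ℤ) * a) = a * (((ℓ ^ e : ℕ) : ℤ) * (m : ℤ)) by
      ring, mul_smul, hnz, smul_zero]
  have hx₁div : ℓ • (a' • x₁) = x₁ := by
    have h1 : x₁ = (((ℓ : ℕ) : ℤ) * a' + (m : ℤ) * b') • x₁ := by rw [hb2, one_smul]
    rw [add_smul, mul_smul, mul_comm (m : ℤ) b', mul_smul, hx₁m, smul_zero, add_zero,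
      natCast_zsmul] at h1
    exact h1.symm
  -- the `ℓ`-primary part
  set x₂ : T := ((m : ℤ) * b) • x with hx₂
  have hx₂mem : x₂ ∈ Tor (ℓ ^ e) := by
    rw [hmem, ← natCast_zsmul, hx₂, ← mul_smul,
      show ((ℓ ^ e : ℕ) : ℤ) * ((m : ℤ) * b) = b * (((ℓ ^ e : ℕ) : ℤ) * (m : ℤ)) by ring, mul_smul,
      hnz, smul_zero]
  obtain ⟨y₂, hy₂⟩ := s27v_mulL_surjective ℓ hℓ c Tor hmem hcount e ⟨x₂, hx₂mem⟩
  have hy₂' : ℓ • (y₂ : T) = x₂ := congrArg Subtype.val hy₂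
  refine ⟨a' • x₁ + (y₂ : T), ?_⟩
  rw [nsmul_add, hx₁div, hy₂', hx₁, hx₂, ← add_smul, hb1, one_smul]

/-- **CONTRACT [DIV-a′]**: `Pic⁰` of a function field over `𝔽̄_p` is a torsion group. -/
def s27_TorsFp : Prop :=
  ∀ (p : ℕ) [Fact p.Prime] (k Fb : Type) [Field k] [Field Fb] [Algebra k Fb]
    (hk : s27_IsFpBar p k) (g : ℕ) (hF : s27_FF k Fb g) (x : Pic0 k Fb),
    ∃ n : ℕ, 0 < n ∧ n • x = 0

/-- **[DIV-a] from the torsion property** (and the count `s27g_finCount`). -/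
theorem s27v_divFp_of (hT : s27_TorsFp) : s27_DivFp := by
  intro p _ k Fb _ _ _ hk g hF ℓ hℓ hℓp x
  refine s27v_divisible_of_count ℓ hℓ.out (2 * g) (fun n => Pic0.torsion k Fb n) ?_
    (hT p k Fb hk g hF) (fun e => s27g_finCount p k Fb hk g hF ℓ hℓp e) x
  intro n y
  rw [Pic0.mem_torsion, natCast_zsmul]

end Fermat.Agent.Lib.S27
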