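/-
(M) node [DIV-a], torsion half (helper5, prefix `s27v_`): the classes of degree `0` of an abstract
curve over a finite field (`s27_Dyn`) form a TORSION group (every divisor is stable under a power of
the Frobenius; the stable classes of degree `0` are finite in number: `s27z_stCls_finite`).  Hence
`s27v_torsFp : s27_TorsFp`, `s27v_divFp : s27_DivFp`.
-/
import Fermat.Agent.Lib.S27.RDivGrp
import Fermat.Agent.Lib.S27.ZCls

set_option autoImplicit false
set_option linter.unusedSectionVars false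
set_option linter.unusedVariables false
set_option linter.style.haveILetI false

noncomputable section

namespace Fermat.Agent.Lib.S27

open AlgebraicCurve Fermat.Agent.Lib.FF Fermat.Agent.Lib.S19

universe u v

section Abstract

variable {Pt : Type u} {Cl : Type v} [AddCommGroup Cl] (X : s27_Dyn Pt Cl)

/-- a power of the Frobenius fixes a given finite set of points pointwise. -/
theorem s27v_common_period (s : Finset Pt) : ∃ n : ℕ, 0 < n ∧ ∀ P ∈ s, (X.θ ^ n) P = P := by
  classical
  have hpow : ∀ (P : Pt) (m : ℕ), (X.θ ^ m) P = P → ∀ j : ℕ, ((X.θ ^ m) ^ j) P = P := by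
    intro P m hP j
    induction j with
    | zero => rfl
    | succ j ih => rw [pow_succ, Equiv.Perm.mul_apply, hP, ih]
  induction s using Finset.induction_on with
  | empty => exact ⟨1, one_pos, fun P hP => absurd hP (Finset.notMem_empty P)⟩
  | insert a s ha ih =>
    obtain ⟨n, hn, hs⟩ := ih
    obtain ⟨m, hm, hP⟩ := X.per a
    refine ⟨m * n, Nat.mul_pos hm hn, fun P hP' => ?_⟩
    rcases Finset.mem_insert.mp hP' with rfl | h
    · rw [pow_mul]
      exact hpow P m hP n
    · rw [mul_comm, pow_mul]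
      exact hpow P n (hs P h) m

/-- **the classes of degree `0` are torsion** (the curve has a point). -/
theorem s27v_dyn_torsion (P₀ : Pt) (C : Cl) (hC : X.deg C = 0) : ∃ m : ℕ, 0 < m ∧ m • C = 0 := by
  classical
  obtain ⟨D, rfl⟩ := X.cls_surj C
  obtain ⟨n, hn, hfix⟩ := s27v_common_period X (insert P₀ D.support)
  set X' : s27_Dyn Pt Cl := X.pow n hn with hX'
  have hP₀ : X'.θ P₀ = P₀ := hfix P₀ (Finset.mem_insert_self _ _)
  have hΘ : X'.Θ (X.cls D) = X.cls D := by
    have h1 : X'.Θ (X'.cls D) = X'.cls (Finsupp.mapDomain X'.θ D) := (X'.cls_map D).symm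
    have h2 : Finsupp.mapDomain (⇑X'.θ) D = D := by
      have h3 : Finsupp.mapDomain (⇑X'.θ) D = Finsupp.mapDomain id D :=
        Finsupp.mapDomain_congr fun P hP => hfix P (Finset.mem_insert_of_mem hP)
      rw [h3, Finsupp.mapDomain_id]
    rw [h2] at h1
    exact h1
  have hfin : (s27z_stCls X' 0).Finite := s27z_stCls_finite hP₀ 0
  have hmem : ∀ m : ℕ, m • X.cls D ∈ s27z_stCls X' 0 := by
    intro m
    refine ⟨?_, ?_⟩
    · rw [map_nsmul, hΘ]
    · show X.deg (m • X.cls D) = 0
      rw [map_nsmul, hC, smul_zero]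
  -- pigeonhole
  have hninj : ¬ Function.Injective fun m : ℕ => m • X.cls D := fun hinj =>
    (Set.infinite_of_injective_forall_mem hinj hmem) hfin
  rw [Function.Injective] at hninj
  push Not at hninj
  obtain ⟨m₁, m₂, heq, hne⟩ := hninj
  have heq' : m₁ • X.cls D = m₂ • X.cls D := heq
  rcases Nat.lt_or_gt_of_ne hne with hlt | hlt
  · refine ⟨m₂ - m₁, Nat.sub_pos_of_lt hlt, ?_⟩
    have h1 : m₂ • X.cls D = (m₂ - m₁) • X.cls D + m₁ • X.cls D := by
      rw [← add_nsmul, Nat.sub_add_cancel hlt.le]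
    rw [← heq'] at h1
    exact (add_eq_right.mp h1.symm)
  · refine ⟨m₁ - m₂, Nat.sub_pos_of_lt hlt, ?_⟩
    have h1 : m₁ • X.cls D = (m₁ - m₂) • X.cls D + m₂ • X.cls D := by
      rw [← add_nsmul, Nat.sub_add_cancel hlt.le]
    rw [heq'] at h1
    exact (add_eq_right.mp h1.symm)

end Abstract

/-- **[DIV-a′]**: `Pic⁰` of a function field over `𝔽̄_p` is a torsion group. -/
theorem s27v_torsFp : s27_TorsFp := by
  intro p hp k Fb _ _ _ hk g hF t
  obtain ⟨X, hcls, hdeg, hg, f, hf, hq⟩ :=
    s27w_dynExists s27d_frobExists s27z_ZB p k Fb hk g hF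
  obtain ⟨x, hx, hsep⟩ := hF.gen
  have hac : IsAlgClosed k := hk.1
  obtain ⟨P₀⟩ := Fermat.Agent.Lib.S44.s44rm_nonempty_place (K := k) x
  have h0 : X.deg (s27g_iota k Fb t) = 0 := by
    rw [hdeg]
    exact s27g_picDeg_iota k Fb hF.pd t
  obtain ⟨m, hm, hmt⟩ := s27v_dyn_torsion X P₀ (s27g_iota k Fb t) h0
  refine ⟨m, hm, s27g_iota_injective k Fb ?_⟩
  rw [map_nsmul, hmt, map_zero]

/-- **[DIV-a] PROVED**: `Pic⁰` of a function field over `𝔽̄_p` is `ℓ`-divisible (`ℓ ≠ p`). -/
theorem s27v_divFp : s27_DivFp := s27v_divFp_of s27v_torsFp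

end Fermat.Agent.Lib.S27
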