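/-
Programme Z (S27), brick [BC] (helper2, prefix `s27b_`): ARTIN'S MINIMAL-SUPPORT LEMMA.
(Mathlib only.)

`K₁ ⊆ K` fields such that the elements of `K` fixed by all `K₁`-automorphisms lie in `K₁`.
A non-zero `K`-subspace of `ι →₀ K` which is stable under the coefficientwise action of
`Aut(K/K₁)` contains a non-zero vector with all coordinates in `K₁` (`s27b_artin`); a vector fixed
by the coefficientwise action has all coordinates in `K₁` (`s27b_coord_mem_of_fixed`).
-/
import Mathlib

set_option autoImplicit false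
set_option linter.style.haveILetI false

noncomputable section

namespace Fermat.Agent.Lib.S27

variable {K₁ K : Type*} [Field K₁] [Field K] [Algebra K₁ K] {ι : Type*}

/-- the coefficientwise action of an automorphism on `ι →₀ K`. -/
def s27b_act (σ : K ≃ₐ[K₁] K) (w : ι →₀ K) : ι →₀ K := w.mapRange σ (map_zero σ)

theorem s27b_act_apply (σ : K ≃ₐ[K₁] K) (w : ι →₀ K) (i : ι) : s27b_act σ w i = σ (w i) := by
  unfold s27b_act
  rw [Finsupp.mapRange_apply]

theorem s27b_act_sub (σ : K ≃ₐ[K₁] K) (w w' : ι →₀ K) :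
    s27b_act σ (w - w') = s27b_act σ w - s27b_act σ w' := by
  ext i
  rw [Finsupp.sub_apply, s27b_act_apply, s27b_act_apply, s27b_act_apply, Finsupp.sub_apply,
    map_sub]

theorem s27b_act_smul (σ : K ≃ₐ[K₁] K) (c : K) (w : ι →₀ K) :
    s27b_act σ (c • w) = σ c • s27b_act σ w := by
  ext i
  rw [s27b_act_apply, Finsupp.smul_apply, Finsupp.smul_apply, s27b_act_apply, smul_eq_mul,
    smul_eq_mul, map_mul]

/-- a vector fixed by the coefficientwise action has its coordinates in `K₁`. -/
theorem s27b_coord_mem_of_fixed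
    (hfix : ∀ c : K, (∀ σ : K ≃ₐ[K₁] K, σ c = c) → c ∈ (algebraMap K₁ K).range)
    (w : ι →₀ K) (hw : ∀ σ : K ≃ₐ[K₁] K, s27b_act σ w = w) (i : ι) :
    w i ∈ (algebraMap K₁ K).range := by
  apply hfix
  intro σ
  have := congrArg (fun u : ι →₀ K => u i) (hw σ)
  simpa [s27b_act_apply] using this

/-- **Artin's lemma**: a non-zero stable subspace contains a non-zero rational vector. -/
theorem s27b_artin
    (hfix : ∀ c : K, (∀ σ : K ≃ₐ[K₁] K, σ c = c) → c ∈ (algebraMap K₁ K).range)
    (W : Submodule K (ι →₀ K))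
    (hW : ∀ (σ : K ≃ₐ[K₁] K) (w : ι →₀ K), w ∈ W → s27b_act σ w ∈ W) (hne : W ≠ ⊥) :
    ∃ w ∈ W, w ≠ 0 ∧ ∀ i, w i ∈ (algebraMap K₁ K).range := by
  classical
  -- a non-zero vector of minimal support
  have hex : ∃ n : ℕ, ∃ w ∈ W, w ≠ 0 ∧ w.support.card = n := by
    obtain ⟨w, hw, hw0⟩ := (Submodule.ne_bot_iff W).mp hne
    exact ⟨_, w, hw, hw0, rfl⟩
  obtain ⟨w, hwW, hw0, hcard⟩ := Nat.find_spec hex
  have hmin : ∀ w' ∈ W, w' ≠ 0 → Nat.find hex ≤ w'.support.card := fun w' hw' hw'0 =>
    Nat.find_min' hex ⟨w', hw', hw'0, rfl⟩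
  -- normalise a coordinate
  obtain ⟨i₀, hi₀⟩ : ∃ i₀, w i₀ ≠ 0 := by
    by_contra h
    rw [not_exists] at h
    exact hw0 (Finsupp.ext fun i => not_not.mp (h i))
  set u : ι →₀ K := (w i₀)⁻¹ • w with hu
  have huW : u ∈ W := W.smul_mem _ hwW
  have hui₀ : u i₀ = 1 := by
    rw [hu, Finsupp.smul_apply, smul_eq_mul, inv_mul_cancel₀ hi₀]
  have hu0 : u ≠ 0 := by
    intro h
    rw [h, Finsupp.zero_apply] at hui₀
    exact zero_ne_one hui₀
  have husupp : u.support = w.support := by
    ext i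
    rw [Finsupp.mem_support_iff, Finsupp.mem_support_iff, hu, Finsupp.smul_apply, smul_eq_mul]
    constructor
    · intro h h'
      exact h (by rw [h', mul_zero])
    · intro h
      exact mul_ne_zero (inv_ne_zero hi₀) h
  refine ⟨u, huW, hu0, s27b_coord_mem_of_fixed hfix u ?_⟩
  intro σ
  by_contra hne'
  have hd : s27b_act σ u - u ∈ W := W.sub_mem (hW σ u huW) huW
  have hd0 : s27b_act σ u - u ≠ 0 := sub_ne_zero.mpr hne'
  have hsub : (s27b_act σ u - u).support ⊆ u.support.erase i₀ := by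
    intro i hi
    rw [Finsupp.mem_support_iff, Finsupp.sub_apply, s27b_act_apply] at hi
    rw [Finset.mem_erase, Finsupp.mem_support_iff]
    constructor
    · rintro rfl
      apply hi
      rw [hui₀, map_one, sub_self]
    · intro h
      apply hi
      rw [h, map_zero, sub_self]
  have h1 := hmin _ hd hd0
  have h2 := Finset.card_le_card hsub
  have h3 : (u.support.erase i₀).card < u.support.card :=
    Finset.card_erase_lt_of_mem (Finsupp.mem_support_iff.mpr (by rw [hui₀]; exact one_ne_zero))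
  rw [husupp, hcard] at h3
  rw [husupp] at h2
  omega

end Fermat.Agent.Lib.S27
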