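/-
Programme Z (S27), brick [BC] (helper2, prefix `s27b_`): THE FIXED FIELD OF `Aut(K/K₁)`.
(Mathlib only.)

* `s27b_exists_aut`  : `K` algebraically closed, `c ∈ K` transcendental over `K₁` ⇒ some
  `σ ∈ Aut(K/K₁)` moves `c`;
* `s27b_mem_range_of_fixed` : `K₁`, `K` algebraically closed: an element of `K` fixed by all
  `K₁`-automorphisms lies in `K₁`.
-/
import Mathlib

set_option autoImplicit false
set_option linter.style.haveILetI false

noncomputable section

namespace Fermat.Agent.Lib.S27

open MvPolynomial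

/-- the shift `X_c ↦ X_c + 1` of a polynomial ring. -/
def s27b_shift {R σ : Type*} [CommRing R] [DecidableEq σ] (c : σ) :
    MvPolynomial σ R ≃ₐ[R] MvPolynomial σ R :=
  AlgEquiv.ofAlgHom (aeval fun b => X b + C (if b = c then 1 else 0))
    (aeval fun b => X b - C (if b = c then 1 else 0))
    (by ext b; simp) (by ext b; simp)

theorem s27b_shift_X {R σ : Type*} [CommRing R] [DecidableEq σ] (c : σ) :
    s27b_shift (R := R) c (X c) = X c + 1 := by
  unfold s27b_shift
  simp

/-- a transcendental element is moved by some automorphism. -/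
theorem s27b_exists_aut {K₁ K : Type*} [Field K₁] [Field K] [Algebra K₁ K] [IsAlgClosed K]
    (c : K) (hc : Transcendental K₁ c) : ∃ σ : K ≃ₐ[K₁] K, σ c ≠ c := by
  classical
  have hind : AlgebraicIndepOn K₁ id ({c} : Set K) := by
    rw [AlgebraicIndepOn]
    haveI : Subsingleton ({c} : Set K) := (Set.subsingleton_singleton (a := c)).coe_sort
    rw [algebraicIndependent_singleton_iff (⟨c, rfl⟩ : ({c} : Set K))]
    exact hc
  obtain ⟨B, hcB, hB⟩ := exists_isTranscendenceBasis_superset hind
  have hcmem : c ∈ B := hcB rfl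
  set v : B → K := fun b => (b : K) with hv
  set A₀ := Algebra.adjoin K₁ (Set.range v) with hA₀
  haveI : IsAlgClosure A₀ K := IsAlgClosed.isAlgClosure_of_transcendence_basis v hB
  set e : A₀ ≃ₐ[K₁] A₀ :=
    hB.1.aevalEquiv.symm.trans ((s27b_shift (R := K₁) (⟨c, hcmem⟩ : B)).trans hB.1.aevalEquiv)
    with he
  set σ₀ : K ≃+* K := IsAlgClosure.equivOfEquiv K K e.toRingEquiv with hσ₀
  have hσ₀A : ∀ a : A₀, σ₀ (algebraMap A₀ K a) = algebraMap A₀ K (e a) := fun a =>
    IsAlgClosure.equivOfEquiv_algebraMap K K e.toRingEquiv a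
  refine ⟨{ σ₀ with
    commutes' := fun r => ?_ }, ?_⟩
  · show σ₀ (algebraMap K₁ K r) = algebraMap K₁ K r
    have h1 : algebraMap K₁ K r = algebraMap A₀ K (algebraMap K₁ A₀ r) := rfl
    rw [h1, hσ₀A, e.commutes]
  · show σ₀ c ≠ c
    have h1 : c = algebraMap A₀ K (hB.1.aevalEquiv (X ⟨c, hcmem⟩)) := by
      rw [AlgebraicIndependent.algebraMap_aevalEquiv, aeval_X]
    have h2 : σ₀ c = c + 1 := by
      conv_lhs => rw [h1]
      rw [hσ₀A, he, AlgEquiv.trans_apply, AlgEquiv.symm_apply_apply, AlgEquiv.trans_apply,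
        s27b_shift_X, AlgebraicIndependent.algebraMap_aevalEquiv, map_add, aeval_X, map_one]
    rw [h2]
    intro h
    exact one_ne_zero (add_left_cancel (a := c) (by rw [h, add_zero]))

/-- the fixed field of `Aut(K/K₁)` is `K₁` (both algebraically closed). -/
theorem s27b_mem_range_of_fixed {K₁ K : Type*} [Field K₁] [Field K] [Algebra K₁ K]
    [IsAlgClosed K₁] [IsAlgClosed K] (c : K) (h : ∀ σ : K ≃ₐ[K₁] K, σ c = c) :
    c ∈ (algebraMap K₁ K).range := by
  by_contra hc
  have htr : Transcendental K₁ c := by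
    intro halg
    apply hc
    apply minpoly.mem_range_of_degree_eq_one
    exact IsAlgClosed.degree_eq_one_of_irreducible K₁ (minpoly.irreducible halg.isIntegral)
  obtain ⟨σ, hσ⟩ := s27b_exists_aut c htr
  exact hσ (h σ)

end Fermat.Agent.Lib.S27
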