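/-
Programme Z (S27), brick [BC] (helper2, prefix `s27b_`): CONSTANT FIELD EXTENSIONS, the algebra.

Setting: a commutative square of fields `K₁ ⊆ K`, `K₁ ⊆ F₁`, `K ⊆ F`, `F₁ ⊆ F` (type classes
`IsScalarTower K₁ K F`, `IsScalarTower K₁ F₁ F`).  `s27b_Ext K₁ F₁ K F` says: `K ⊗[K₁] F₁ → F` is
injective (linear disjointness), `F` is its field of fractions, and the fixed field of
`Aut(K/K₁)` is `K₁`.

* `s27b_mu`      : the multiplication map `K ⊗[K₁] F₁ →ₐ[K] F`;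
* `s27b_sigmaT`  : the action of `σ ∈ Aut(K/K₁)` on `K ⊗[K₁] F₁`;
* `s27b_sigmaF`  : its extension to `F` (`s27b_sigmaF_mu`, `s27b_sigmaF_algebraMap`,
  `s27b_sigmaF_algebraMap₁`);
* `s27b_semi`    : the semilinear automorphism `(σ_F, σ) ∈ SemilinearAut K F`;
* **`s27b_fixed_F`** : an element of `F` fixed by all `σ_F` lies in `F₁`.
-/
import Fermat.Agent.Lib.S27.BFix
import Fermat.Agent.Lib.S27.BArtin
import Fermat.Prelude.Def_AlgebraicCurve_BaseChangeGalois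

set_option autoImplicit false
set_option linter.unusedSectionVars false
set_option linter.unusedVariables false
set_option linter.style.haveILetI false

noncomputable section

namespace Fermat.Agent.Lib.S27

open AlgebraicCurve TensorProduct

variable (K₁ F₁ K F : Type*) [Field K₁] [Field F₁] [Field K] [Field F]
  [Algebra K₁ F₁] [Algebra K F] [Algebra K₁ K] [Algebra F₁ F] [Algebra K₁ F]
  [IsScalarTower K₁ K F] [IsScalarTower K₁ F₁ F]

/-- the multiplication map `K ⊗[K₁] F₁ → F`. -/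
def s27b_mu : K ⊗[K₁] F₁ →ₐ[K] F :=
  Algebra.TensorProduct.productLeftAlgHom (Algebra.ofId K F) (IsScalarTower.toAlgHom K₁ F₁ F)

theorem s27b_mu_tmul (c : K) (f : F₁) :
    s27b_mu K₁ F₁ K F (c ⊗ₜ[K₁] f) = algebraMap K F c * algebraMap F₁ F f := by
  unfold s27b_mu
  simp [Algebra.TensorProduct.productLeftAlgHom]

/-- **a constant field extension.** -/
structure s27b_Ext : Prop where
  inj : Function.Injective (s27b_mu K₁ F₁ K F)
  gen : ∀ f : F, ∃ a b : K ⊗[K₁] F₁, s27b_mu K₁ F₁ K F b ≠ 0 ∧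
    f * s27b_mu K₁ F₁ K F b = s27b_mu K₁ F₁ K F a
  fix : ∀ c : K, (∀ σ : K ≃ₐ[K₁] K, σ c = c) → c ∈ (algebraMap K₁ K).range

variable {K₁ F₁ K F}

/-- the action of `Aut(K/K₁)` on `K ⊗[K₁] F₁`. -/
def s27b_sigmaT (σ : K ≃ₐ[K₁] K) : K ⊗[K₁] F₁ ≃ₐ[K₁] K ⊗[K₁] F₁ :=
  Algebra.TensorProduct.congr σ (AlgEquiv.refl : F₁ ≃ₐ[K₁] F₁)

theorem s27b_sigmaT_tmul (σ : K ≃ₐ[K₁] K) (c : K) (f : F₁) :
    s27b_sigmaT σ (c ⊗ₜ[K₁] f) = σ c ⊗ₜ[K₁] f := by
  unfold s27b_sigmaT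
  rw [Algebra.TensorProduct.congr_apply, Algebra.TensorProduct.map_tmul]
  rfl

section Aut

variable (h : s27b_Ext K₁ F₁ K F)

/-- `F` as an algebra over `K ⊗[K₁] F₁` (NOT an instance). -/
@[reducible] def s27b_algT : Algebra (K ⊗[K₁] F₁) F := (s27b_mu K₁ F₁ K F).toRingHom.toAlgebra

include h in
theorem s27b_isDomainT : IsDomain (K ⊗[K₁] F₁) :=
  Function.Injective.isDomain (s27b_mu K₁ F₁ K F).toRingHom h.inj

include h in
theorem s27b_isFractionRingT :
    @IsFractionRing (K ⊗[K₁] F₁) _ F _ (s27b_algT (K₁ := K₁) (F₁ := F₁) (K := K) (F := F)) := by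
  letI : Algebra (K ⊗[K₁] F₁) F := s27b_algT
  haveI : IsDomain (K ⊗[K₁] F₁) := s27b_isDomainT h
  haveI : FaithfulSMul (K ⊗[K₁] F₁) F :=
    (faithfulSMul_iff_algebraMap_injective _ _).mpr h.inj
  refine IsFractionRing.of_field _ _ fun z => ?_
  obtain ⟨a, b, hb, hab⟩ := h.gen z
  refine ⟨a, b, ?_⟩
  show z = s27b_mu K₁ F₁ K F a / s27b_mu K₁ F₁ K F b
  rw [eq_div_iff hb]
  exact hab

/-- the extension of `σ ∈ Aut(K/K₁)` to `F`, trivial on `F₁`. -/
def s27b_sigmaF (σ : K ≃ₐ[K₁] K) : F ≃+* F :=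
  letI : Algebra (K ⊗[K₁] F₁) F := s27b_algT
  haveI := s27b_isFractionRingT h
  IsFractionRing.ringEquivOfRingEquiv (s27b_sigmaT (F₁ := F₁) σ).toRingEquiv

theorem s27b_sigmaF_mu (σ : K ≃ₐ[K₁] K) (t : K ⊗[K₁] F₁) :
    s27b_sigmaF h σ (s27b_mu K₁ F₁ K F t) = s27b_mu K₁ F₁ K F (s27b_sigmaT σ t) := by
  letI : Algebra (K ⊗[K₁] F₁) F := s27b_algT
  haveI := s27b_isFractionRingT h
  exact IsFractionRing.ringEquivOfRingEquiv_algebraMap (s27b_sigmaT (F₁ := F₁) σ).toRingEquiv t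

theorem s27b_sigmaF_algebraMap (σ : K ≃ₐ[K₁] K) (c : K) :
    s27b_sigmaF h σ (algebraMap K F c) = algebraMap K F (σ c) := by
  have h1 : algebraMap K F c = s27b_mu K₁ F₁ K F (c ⊗ₜ[K₁] (1 : F₁)) := by
    rw [s27b_mu_tmul, map_one, mul_one]
  have h2 : algebraMap K F (σ c) = s27b_mu K₁ F₁ K F (σ c ⊗ₜ[K₁] (1 : F₁)) := by
    rw [s27b_mu_tmul, map_one, mul_one]
  rw [h1, s27b_sigmaF_mu, s27b_sigmaT_tmul, h2]

theorem s27b_sigmaF_algebraMap₁ (σ : K ≃ₐ[K₁] K) (f : F₁) :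
    s27b_sigmaF h σ (algebraMap F₁ F f) = algebraMap F₁ F f := by
  have h1 : algebraMap F₁ F f = s27b_mu K₁ F₁ K F ((1 : K) ⊗ₜ[K₁] f) := by
    rw [s27b_mu_tmul, map_one, one_mul]
  rw [h1, s27b_sigmaF_mu, s27b_sigmaT_tmul, map_one]

/-- the semilinear automorphism `(σ_F, σ)`. -/
def s27b_semi (σ : K ≃ₐ[K₁] K) : SemilinearAut K F :=
  ⟨(s27b_sigmaF h σ, σ.toRingEquiv), fun c => s27b_sigmaF_algebraMap h σ c⟩

theorem s27b_semi_smul (σ : K ≃ₐ[K₁] K) (f : F) : s27b_semi h σ • f = s27b_sigmaF h σ f := rfl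

theorem s27b_semi_baseAut (σ : K ≃ₐ[K₁] K) (c : K) :
    SemilinearAut.baseAut (s27b_semi h σ) c = σ c := rfl

end Aut

/-! ### rational vectors of `K ⊗[K₁] F₁` -/

section Rational

variable {ι : Type*} (b : Module.Basis ι K₁ F₁)

/-- the coordinates of `σ_T t` are the conjugates of the coordinates of `t`. -/
theorem s27b_repr_sigmaT (σ : K ≃ₐ[K₁] K) (t : K ⊗[K₁] F₁) :
    (Algebra.TensorProduct.basis K b).repr (s27b_sigmaT σ t)
      = s27b_act σ ((Algebra.TensorProduct.basis K b).repr t) := by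
  induction t using TensorProduct.induction_on with
  | zero =>
    rw [map_zero, map_zero]
    ext i
    rw [s27b_act_apply, Finsupp.zero_apply, map_zero]
  | tmul c f =>
    rw [s27b_sigmaT_tmul, Algebra.TensorProduct.basis_repr_tmul,
      Algebra.TensorProduct.basis_repr_tmul, s27b_act_smul]
    congr 1
    ext i
    rw [s27b_act_apply, Finsupp.mapRange_apply, AlgEquiv.commutes]
  | add x y hx hy =>
    rw [map_add, map_add, hx, hy, map_add]
    ext i
    rw [s27b_act_apply, Finsupp.add_apply, Finsupp.add_apply, s27b_act_apply, s27b_act_apply,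
      map_add]

/-- a vector with rational coordinates is of the form `1 ⊗ β`. -/
theorem s27b_exists_of_rational (w : ι →₀ K) (hw : ∀ i, w i ∈ (algebraMap K₁ K).range) :
    ∃ β : F₁, (Algebra.TensorProduct.basis K b).repr.symm w = (1 : K) ⊗ₜ[K₁] β := by
  classical
  choose r hr using hw
  refine ⟨∑ i ∈ w.support, r i • b i, ?_⟩
  rw [Module.Basis.repr_symm_apply, Finsupp.linearCombination_apply, Finsupp.sum,
    TensorProduct.tmul_sum]
  refine Finset.sum_congr rfl fun i _ => ?_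
  rw [Algebra.TensorProduct.basis_apply, TensorProduct.smul_tmul', smul_eq_mul, mul_one,
    ← hr i, ← TensorProduct.smul_tmul, Algebra.smul_def, mul_one]

end Rational

/-- **the fixed field of `Aut(K/K₁)` acting on `F` is `F₁`.** -/
theorem s27b_fixed_F (h : s27b_Ext K₁ F₁ K F) (f : F)
    (hf : ∀ σ : K ≃ₐ[K₁] K, s27b_sigmaF h σ f = f) : f ∈ (algebraMap F₁ F).range := by
  classical
  set b := Module.Basis.ofVectorSpace K₁ F₁ with hb
  set B := Algebra.TensorProduct.basis K b with hB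
  -- the module of denominators
  let W : Submodule K (Module.Basis.ofVectorSpaceIndex K₁ F₁ →₀ K) :=
    { carrier := {w | ∃ t' : K ⊗[K₁] F₁,
        s27b_mu K₁ F₁ K F t' = f * s27b_mu K₁ F₁ K F (B.repr.symm w)}
      add_mem' := by
        rintro w w' ⟨t, ht⟩ ⟨t', ht'⟩
        exact ⟨t + t', by rw [map_add, map_add, map_add, ht, ht', mul_add]⟩
      zero_mem' := ⟨0, by rw [map_zero, map_zero, map_zero, mul_zero]⟩
      smul_mem' := by
        rintro c w ⟨t, ht⟩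
        exact ⟨c • t, by rw [map_smul, map_smul, map_smul, ht, mul_smul_comm]⟩ }
  have hWmem : ∀ w, w ∈ W ↔ ∃ t' : K ⊗[K₁] F₁,
      s27b_mu K₁ F₁ K F t' = f * s27b_mu K₁ F₁ K F (B.repr.symm w) := fun w => Iff.rfl
  have hsymm : ∀ (σ : K ≃ₐ[K₁] K) (w : Module.Basis.ofVectorSpaceIndex K₁ F₁ →₀ K),
      B.repr.symm (s27b_act σ w) = s27b_sigmaT σ (B.repr.symm w) := by
    intro σ w
    apply B.repr.injective
    rw [LinearEquiv.apply_symm_apply, s27b_repr_sigmaT, LinearEquiv.apply_symm_apply]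
  have hWstab : ∀ (σ : K ≃ₐ[K₁] K) (w : Module.Basis.ofVectorSpaceIndex K₁ F₁ →₀ K),
      w ∈ W → s27b_act σ w ∈ W := by
    rintro σ w ⟨t', ht'⟩
    refine ⟨s27b_sigmaT σ t', ?_⟩
    rw [hsymm, ← s27b_sigmaF_mu h, ← s27b_sigmaF_mu h, ht', map_mul, hf σ]
  have hWne : W ≠ ⊥ := by
    obtain ⟨a₀, b₀, hb₀, hab⟩ := h.gen f
    intro hbot
    have hmem : B.repr b₀ ∈ W := ⟨a₀, by rw [LinearEquiv.symm_apply_apply, hab]⟩
    rw [hbot, Submodule.mem_bot] at hmem
    apply hb₀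
    have : b₀ = 0 := by
      apply B.repr.injective
      rw [hmem, map_zero]
    rw [this, map_zero]
  obtain ⟨w, ⟨t', ht'⟩, hw0, hwrat⟩ := s27b_artin h.fix W hWstab hWne
  obtain ⟨β, hβ⟩ := s27b_exists_of_rational b w hwrat
  have hβ0 : β ≠ 0 := by
    rintro rfl
    apply hw0
    apply B.repr.symm.injective
    rw [hβ, TensorProduct.tmul_zero, map_zero]
  rw [hβ, s27b_mu_tmul, map_one, one_mul] at ht'
  -- the numerator is rational as well
  have hfix' : ∀ σ : K ≃ₐ[K₁] K, s27b_act σ (B.repr t') = B.repr t' := by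
    intro σ
    rw [← s27b_repr_sigmaT]
    congr 1
    apply h.inj
    rw [← s27b_sigmaF_mu h, ht', map_mul, hf σ, s27b_sigmaF_algebraMap₁]
  obtain ⟨α, hα⟩ := s27b_exists_of_rational b (B.repr t')
    (s27b_coord_mem_of_fixed h.fix _ hfix')
  rw [LinearEquiv.symm_apply_apply] at hα
  rw [hα, s27b_mu_tmul, map_one, one_mul] at ht'
  refine ⟨α / β, ?_⟩
  rw [map_div₀, ht', mul_div_assoc, div_self ((map_ne_zero _).mpr hβ0), mul_one]

end Fermat.Agent.Lib.S27
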