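/-
Programme Z (S27), brick [BC] (helper2, prefix `s27b_`): THE VALUE AT A PLACE WITH RESIDUE FIELD
`K` (universe-polymorphic version of `s17d_val`).
-/
import Mathlib
import Fermat.Prelude.Def_AlgebraicCurve_DivisorClassGroup

set_option autoImplicit false
set_option linter.unusedSectionVars false

noncomputable section

namespace Fermat.Agent.Lib.S27

open AlgebraicCurve IsLocalRing

variable {K F : Type*} [Field K] [Field F] [Algebra K F] (P : Place K F)
  (hs : Function.Surjective (algebraMap K P.ResidueField))

include hs in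
theorem s27b_res_bij : Function.Bijective (algebraMap K P.ResidueField) :=
  ⟨(algebraMap K P.ResidueField).injective, hs⟩

/-- the value at `P` of a function regular at `P`. -/
def s27b_val : ↥P.toValuationSubring →+* K :=
  ((RingEquiv.ofBijective (algebraMap K P.ResidueField) (s27b_res_bij P hs)).symm :
    P.ResidueField →+* K).comp (IsLocalRing.residue ↥P.toValuationSubring)

theorem s27b_algebraMap_val (a : ↥P.toValuationSubring) :
    algebraMap K P.ResidueField (s27b_val P hs a) = IsLocalRing.residue _ a := by
  unfold s27b_val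
  rw [RingHom.comp_apply]
  exact (RingEquiv.ofBijective (algebraMap K P.ResidueField) (s27b_res_bij P hs)).apply_symm_apply _

theorem s27b_val_algebraMap (c : K) :
    s27b_val P hs (algebraMap K ↥P.toValuationSubring c) = c := by
  apply (algebraMap K P.ResidueField).injective
  rw [s27b_algebraMap_val]
  rfl

theorem s27b_val_eq_zero_iff (a : ↥P.toValuationSubring) :
    s27b_val P hs a = 0 ↔ a ∈ maximalIdeal ↥P.toValuationSubring := by
  rw [← IsLocalRing.residue_eq_zero_iff, ← s27b_algebraMap_val P hs a]
  exact (map_eq_zero (algebraMap K P.ResidueField)).symm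

theorem s27b_sub_val_mem (a : ↥P.toValuationSubring) :
    a - algebraMap K ↥P.toValuationSubring (s27b_val P hs a) ∈
      maximalIdeal ↥P.toValuationSubring := by
  rw [← IsLocalRing.residue_eq_zero_iff, map_sub, sub_eq_zero, ← s27b_algebraMap_val P hs a]
  rfl

/-- the value is characterised by `a - c ∈ 𝔪`. -/
theorem s27b_val_eq_iff (a : ↥P.toValuationSubring) (c : K) :
    s27b_val P hs a = c ↔
      a - algebraMap K ↥P.toValuationSubring c ∈ maximalIdeal ↥P.toValuationSubring := by
  rw [← s27b_val_eq_zero_iff P hs, map_sub, s27b_val_algebraMap, sub_eq_zero]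

/-- a unit of the valuation ring has an inverse in it. -/
theorem s27b_inv_mem (O : ValuationSubring F) {a : O} (ha : IsUnit a) : ((a : F))⁻¹ ∈ O := by
  obtain ⟨u, rfl⟩ := ha
  have h4 : (u : O) * ((u⁻¹ : Oˣ) : O) = 1 := u.mul_inv
  have h3 : ((u : O) : F) * (((u⁻¹ : Oˣ) : O) : F) = 1 := congrArg Subtype.val h4
  rw [inv_eq_of_mul_eq_one_right h3]
  exact Subtype.mem _

/-- an element with non-zero value is a unit: its inverse is regular. -/
theorem s27b_inv_mem_of_val_ne_zero (a : ↥P.toValuationSubring) (ha : s27b_val P hs a ≠ 0) :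
    ((a : F))⁻¹ ∈ P.toValuationSubring := by
  apply s27b_inv_mem
  by_contra hu
  apply ha
  rw [s27b_val_eq_zero_iff, mem_maximalIdeal, mem_nonunits_iff]
  exact hu

end Fermat.Agent.Lib.S27
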