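/-
Programme Z (S27), brick [BC] (helper2, prefix `s27b_`): CONSTANT FIELD EXTENSIONS, the places.

A commutative square of fields `K₁ ⊆ K`, `K₁ ⊆ F₁`, `K ⊆ F`, `F₁ ⊆ F`; all places of `F₁ / K₁` and
of `F / K` have residue fields `K₁`, `K` (hypotheses `hs₁`, `hs`).

* `s27b_restr P`        : the restriction of a place of `F` to `F₁` (a valuation subring);
  `s27b_Above P P₁`     : `P ∩ F₁ = P₁`;
* `s27b_val_restr`      : the value at `P` of a function of `F₁` regular at `P₁ = P ∩ F₁` is its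
  value at `P₁`;
* `s27b_unit_of_sum`    : `∑ ℬ_j · n_j` (`ℬ` a `K₁`-basis of `K`, `n_j ∈ O_{P₁}`, some `n_j` a unit)
  is a unit at every place above `P₁`;
* `s27b_normal_form`    : every `f ∈ F^×` is `τ₁ ^ m · u` with `u` a unit at EVERY place above `P₁`.
-/
import Fermat.Agent.Lib.S27.BExt
import Fermat.Agent.Lib.S27.BVal
import Fermat.Agent.Lib.FF.FFBasicPlace

set_option autoImplicit false
set_option linter.unusedSectionVars false
set_option linter.unusedVariables false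
set_option linter.style.haveILetI false

noncomputable section

namespace Fermat.Agent.Lib.S27

open AlgebraicCurve TensorProduct Fermat.Agent.Lib.FF

variable {K₁ F₁ K F : Type*} [Field K₁] [Field F₁] [Field K] [Field F]
  [Algebra K₁ F₁] [Algebra K F] [Algebra K₁ K] [Algebra F₁ F] [Algebra K₁ F]
  [IsScalarTower K₁ K F] [IsScalarTower K₁ F₁ F]

/-- the restriction of a place of `F` to `F₁`. -/
def s27b_restr (F₁ : Type*) [Field F₁] [Algebra F₁ F] (P : Place K F) : ValuationSubring F₁ :=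
  P.toValuationSubring.comap (algebraMap F₁ F)

theorem s27b_mem_restr (P : Place K F) (f : F₁) :
    f ∈ s27b_restr F₁ P ↔ algebraMap F₁ F f ∈ P.toValuationSubring := Iff.rfl

theorem s27b_algebraMap_mem_restr (P : Place K F) (c : K₁) :
    algebraMap K₁ F₁ c ∈ s27b_restr F₁ P := by
  rw [s27b_mem_restr, ← IsScalarTower.algebraMap_apply, IsScalarTower.algebraMap_apply K₁ K F]
  exact P.algebraMap_mem' _

/-- `P` lies above `P₁`. -/
def s27b_Above (P : Place K F) (P₁ : Place K₁ F₁) : Prop :=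
  s27b_restr F₁ P = P₁.toValuationSubring

theorem s27b_Above.mem_iff {P : Place K F} {P₁ : Place K₁ F₁} (h : s27b_Above P P₁) (f : F₁) :
    f ∈ P₁.toValuationSubring ↔ algebraMap F₁ F f ∈ P.toValuationSubring := by
  rw [← h]
  exact s27b_mem_restr P f

section Val

variable (hs : ∀ P : Place K F, Function.Surjective (algebraMap K P.ResidueField))
  (hs₁ : ∀ P₁ : Place K₁ F₁, Function.Surjective (algebraMap K₁ P₁.ResidueField))

/-- the value at `P` of a function of `F₁` regular at `P₁` is its value at `P₁`. -/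
theorem s27b_val_restr {P : Place K F} {P₁ : Place K₁ F₁} (h : s27b_Above P P₁)
    (s : ↥P₁.toValuationSubring) :
    s27b_val P (hs P) ⟨algebraMap F₁ F (s : F₁), (h.mem_iff _).mp s.2⟩
      = algebraMap K₁ K (s27b_val P₁ (hs₁ P₁) s) := by
  set a := s27b_val P₁ (hs₁ P₁) s with ha
  rw [s27b_val_eq_iff]
  -- `d = s - a` is a non-unit at `P₁`
  set d : ↥P₁.toValuationSubring := s - algebraMap K₁ ↥P₁.toValuationSubring a with hd
  have hdm : d ∈ IsLocalRing.maximalIdeal ↥P₁.toValuationSubring :=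
    s27b_sub_val_mem P₁ (hs₁ P₁) s
  have hdF : algebraMap F₁ F (d : F₁) ∈ P.toValuationSubring := (h.mem_iff _).mp d.2
  have heq : (⟨algebraMap F₁ F (s : F₁), (h.mem_iff _).mp s.2⟩ : ↥P.toValuationSubring)
      - algebraMap K ↥P.toValuationSubring (algebraMap K₁ K a)
      = ⟨algebraMap F₁ F (d : F₁), hdF⟩ := by
    apply Subtype.ext
    show algebraMap F₁ F (s : F₁)
      - ((algebraMap K ↥P.toValuationSubring (algebraMap K₁ K a) : ↥P.toValuationSubring) : F)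
      = algebraMap F₁ F (d : F₁)
    rw [Place.coe_algebraMap, ← IsScalarTower.algebraMap_apply,
      IsScalarTower.algebraMap_apply K₁ F₁ F, ← map_sub]
    congr 1
  rw [heq, IsLocalRing.mem_maximalIdeal, mem_nonunits_iff]
  intro hu
  have hinv : (algebraMap F₁ F (d : F₁))⁻¹ ∈ P.toValuationSubring := s27b_inv_mem _ hu
  rw [← map_inv₀] at hinv
  have hinv₁ : ((d : F₁))⁻¹ ∈ P₁.toValuationSubring := (h.mem_iff _).mpr hinv
  rw [IsLocalRing.mem_maximalIdeal, mem_nonunits_iff] at hdm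
  apply hdm
  by_cases hd00 : (d : F₁) = 0
  · exfalso
    have : (⟨algebraMap F₁ F (d : F₁), hdF⟩ : ↥P.toValuationSubring) = 0 := by
      apply Subtype.ext
      show algebraMap F₁ F (d : F₁) = 0
      rw [hd00, map_zero]
    rw [this] at hu
    exact not_isUnit_zero hu
  · refine isUnit_iff_exists_inv.mpr ⟨⟨_, hinv₁⟩, ?_⟩
    apply Subtype.ext
    show (d : F₁) * ((d : F₁))⁻¹ = 1
    exact mul_inv_cancel₀ hd00

end Val

section Normal

variable (hs : ∀ P : Place K F, Function.Surjective (algebraMap K P.ResidueField))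
  (hs₁ : ∀ P₁ : Place K₁ F₁, Function.Surjective (algebraMap K₁ P₁.ResidueField))
  {J : Type*} (ℬ : Module.Basis J K₁ K)

/-- `∑ ℬ_j · n_j` as an element of `F`. -/
def s27b_sumF (n : J →₀ F₁) : F :=
  n.sum fun j f => algebraMap K F (ℬ j) * algebraMap F₁ F f

theorem s27b_mu_eq_sumF [DecidableEq J] (a : K ⊗[K₁] F₁) :
    s27b_mu K₁ F₁ K F a = s27b_sumF ℬ (TensorProduct.equivFinsuppOfBasisLeft ℬ a) := by
  have h := (TensorProduct.equivFinsuppOfBasisLeft (N := F₁) ℬ).symm_apply_apply a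
  conv_lhs => rw [← h]
  rw [TensorProduct.equivFinsuppOfBasisLeft_symm_apply, s27b_sumF, Finsupp.sum, Finsupp.sum,
    map_sum]
  exact Finset.sum_congr rfl fun j _ => s27b_mu_tmul K₁ F₁ K F _ _

include hs hs₁ in
/-- `∑ ℬ_j · n_j`, with all `n_j` regular at `P₁` and one of them a unit, is a unit at every place
above `P₁`. -/
theorem s27b_unit_of_sum {P : Place K F} {P₁ : Place K₁ F₁} (h : s27b_Above P P₁)
    (n : J →₀ F₁) (hn : ∀ j, n j ∈ P₁.toValuationSubring) (j₀ : J) (hj₀ : n j₀ ≠ 0)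
    (hj₀' : (n j₀)⁻¹ ∈ P₁.toValuationSubring) :
    s27b_sumF ℬ n ∈ P.toValuationSubring ∧ (s27b_sumF ℬ n)⁻¹ ∈ P.toValuationSubring := by
  classical
  set U : ↥P.toValuationSubring := ∑ j ∈ n.support,
    algebraMap K ↥P.toValuationSubring (ℬ j) *
      ⟨algebraMap F₁ F (n j), (h.mem_iff _).mp (hn j)⟩ with hU
  have hUF : (U : F) = s27b_sumF ℬ n := by
    rw [hU, s27b_sumF, Finsupp.sum, AddSubmonoidClass.coe_finsetSum]
    refine Finset.sum_congr rfl fun j _ => ?_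
    show ((algebraMap K ↥P.toValuationSubring (ℬ j) : ↥P.toValuationSubring) : F) * _ = _
    rw [Place.coe_algebraMap]
  have hval : s27b_val P (hs P) U = ∑ j ∈ n.support,
      s27b_val P₁ (hs₁ P₁) ⟨n j, hn j⟩ • ℬ j := by
    rw [hU, map_sum]
    refine Finset.sum_congr rfl fun j _ => ?_
    rw [map_mul, s27b_val_algebraMap, s27b_val_restr hs hs₁ h ⟨n j, hn j⟩, Algebra.smul_def,
      mul_comm]
  have hne : s27b_val P (hs P) U ≠ 0 := by
    intro h0
    rw [hval] at h0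
    have hli := ℬ.linearIndependent
    rw [linearIndependent_iff'] at hli
    have hj := hli n.support (fun j => s27b_val P₁ (hs₁ P₁) ⟨n j, hn j⟩) h0 j₀
      (Finsupp.mem_support_iff.mpr hj₀)
    have h1 : s27b_val P₁ (hs₁ P₁) ⟨n j₀, hn j₀⟩ * s27b_val P₁ (hs₁ P₁) ⟨(n j₀)⁻¹, hj₀'⟩ = 1 := by
      rw [← map_mul]
      have : (⟨n j₀, hn j₀⟩ : ↥P₁.toValuationSubring) * ⟨(n j₀)⁻¹, hj₀'⟩ = 1 := by
        apply Subtype.ext
        show n j₀ * (n j₀)⁻¹ = 1
        exact mul_inv_cancel₀ hj₀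
      rw [this, map_one]
    rw [hj, zero_mul] at h1
    exact zero_ne_one h1
  rw [← hUF]
  exact ⟨U.2, s27b_inv_mem_of_val_ne_zero P (hs P) U hne⟩

include hs hs₁ in
/-- normal form of `∑ ℬ_j · n_j` at `P₁`. -/
theorem s27b_normal_form_sum (P₁ : Place K₁ F₁) {τ₁ : F₁} (hτ₁ : P₁.ord τ₁ = 1) (n : J →₀ F₁)
    (hn : n ≠ 0) :
    ∃ (m : ℤ) (u : F), s27b_sumF ℬ n = algebraMap F₁ F τ₁ ^ m * u ∧
      ∀ P : Place K F, s27b_Above P P₁ →
        u ∈ P.toValuationSubring ∧ u⁻¹ ∈ P.toValuationSubring := by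
  classical
  have hτ0 : τ₁ ≠ 0 := by
    rintro rfl
    rw [Place.ord_zero] at hτ₁
    exact zero_ne_one hτ₁
  obtain ⟨j₀, hj₀, hmin⟩ := Finset.exists_min_image n.support (fun j => P₁.ord (n j))
    (Finsupp.support_nonempty_iff.mpr hn)
  set m := P₁.ord (n j₀) with hm
  have hτm0 : τ₁ ^ m ≠ 0 := zpow_ne_zero _ hτ0
  set n' : J →₀ F₁ := n.mapRange (fun f => f * (τ₁ ^ m)⁻¹) (zero_mul _) with hn'
  have hn'j : ∀ j, n' j = n j * (τ₁ ^ m)⁻¹ := fun j => Finsupp.mapRange_apply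
  have hord : ∀ j, n j ≠ 0 → P₁.ord (n' j) = P₁.ord (n j) - m := by
    intro j hj
    rw [hn'j, P₁.ord_mul hj (inv_ne_zero hτm0), P₁.ord_inv, P₁.ord_zpow, hτ₁, mul_one]
    ring
  have hmem : ∀ j, n' j ∈ P₁.toValuationSubring := by
    intro j
    by_cases hj : n j = 0
    · rw [hn'j, hj, zero_mul]
      exact P₁.toValuationSubring.zero_mem
    · have hne : n' j ≠ 0 := by
        rw [hn'j]
        exact mul_ne_zero hj (inv_ne_zero hτm0)
      rw [ff_mem_iff_ord_nonneg P₁ hne, hord j hj]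
      have := hmin j (Finsupp.mem_support_iff.mpr hj)
      omega
  have hj₀0 : n j₀ ≠ 0 := Finsupp.mem_support_iff.mp hj₀
  have hne₀ : n' j₀ ≠ 0 := by
    rw [hn'j]
    exact mul_ne_zero hj₀0 (inv_ne_zero hτm0)
  have hinv₀ : (n' j₀)⁻¹ ∈ P₁.toValuationSubring := by
    rw [ff_mem_iff_ord_nonneg P₁ (inv_ne_zero hne₀), P₁.ord_inv, hord j₀ hj₀0, hm]
    omega
  refine ⟨m, s27b_sumF ℬ n', ?_, fun P hP => s27b_unit_of_sum hs hs₁ ℬ hP n' hmem j₀ hne₀ hinv₀⟩
  have hτF : algebraMap F₁ F τ₁ ^ m ≠ 0 := zpow_ne_zero _ ((map_ne_zero _).mpr hτ0)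
  rw [s27b_sumF, s27b_sumF, hn', Finsupp.sum_mapRange_index (fun j => by rw [map_zero, mul_zero]),
    Finsupp.sum, Finsupp.sum, Finset.mul_sum]
  refine Finset.sum_congr rfl fun j _ => ?_
  rw [map_mul, map_inv₀, map_zpow₀]
  field_simp

include hs hs₁ in
/-- **normal form**: every non-zero function is `τ₁ ^ m · u`, `u` a unit at every place above
`P₁`. -/
theorem s27b_normal_form (h : s27b_Ext K₁ F₁ K F) (P₁ : Place K₁ F₁) {τ₁ : F₁}
    (hτ₁ : P₁.ord τ₁ = 1) (f : F) (hf : f ≠ 0) :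
    ∃ (m : ℤ) (u : F), f = algebraMap F₁ F τ₁ ^ m * u ∧
      ∀ P : Place K F, s27b_Above P P₁ →
        u ∈ P.toValuationSubring ∧ u⁻¹ ∈ P.toValuationSubring := by
  classical
  obtain ⟨a, b, hb, hab⟩ := h.gen f
  have ha : s27b_mu K₁ F₁ K F a ≠ 0 := by
    rw [← hab]
    exact mul_ne_zero hf hb
  set ℬ := Module.Basis.ofVectorSpace K₁ K with hℬ
  have hna : TensorProduct.equivFinsuppOfBasisLeft (N := F₁) ℬ a ≠ 0 := by
    intro h0
    apply ha
    rw [s27b_mu_eq_sumF ℬ, h0, s27b_sumF, Finsupp.sum_zero_index]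
  have hnb : TensorProduct.equivFinsuppOfBasisLeft (N := F₁) ℬ b ≠ 0 := by
    intro h0
    apply hb
    rw [s27b_mu_eq_sumF ℬ, h0, s27b_sumF, Finsupp.sum_zero_index]
  obtain ⟨ma, ua, hua, hPa⟩ := s27b_normal_form_sum hs hs₁ ℬ P₁ hτ₁ _ hna
  obtain ⟨mb, ub, hub, hPb⟩ := s27b_normal_form_sum hs hs₁ ℬ P₁ hτ₁ _ hnb
  rw [← s27b_mu_eq_sumF ℬ] at hua hub
  have hτ0 : τ₁ ≠ 0 := by
    rintro rfl
    rw [Place.ord_zero] at hτ₁
    exact zero_ne_one hτ₁
  have hτF : algebraMap F₁ F τ₁ ≠ 0 := (map_ne_zero _).mpr hτ0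
  have hub0 : ub ≠ 0 := by
    rintro rfl
    rw [mul_zero] at hub
    exact hb hub
  refine ⟨ma - mb, ua * ub⁻¹, ?_, fun P hP => ?_⟩
  · have hf' : f = s27b_mu K₁ F₁ K F a / s27b_mu K₁ F₁ K F b := by
      rw [eq_div_iff hb]
      exact hab
    rw [hf', hua, hub, zpow_sub₀ hτF]
    field_simp
  · obtain ⟨h1, h2⟩ := hPa P hP
    obtain ⟨h3, h4⟩ := hPb P hP
    refine ⟨P.toValuationSubring.mul_mem _ _ h1 h4, ?_⟩
    rw [mul_inv, inv_inv]
    exact P.toValuationSubring.mul_mem _ _ h2 h3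

end Normal

end Fermat.Agent.Lib.S27
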