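/-
Programme Z (S27), brick [BC] (helper2, prefix `s27b_`): CONSTANT FIELD EXTENSIONS, the places above
a place.

For `h : s27b_Ext K₁ F₁ K F`, all places rational (`hs`, `hs₁`):

* `s27b_ord_above`     : `P ∩ F₁ = P₁` ⇒ `ord_P f = ord_{P₁} f` for `f ∈ F₁` (unramified);
* `s27b_above_unique`  : at most one place above `P₁`;
* `s27b_ord_of_restr_top` : a place of `F` trivial on `F₁` sees `F₁^×` as units.
-/
import Fermat.Agent.Lib.S27.BPlace

set_option autoImplicit false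
set_option linter.unusedSectionVars false
set_option linter.unusedVariables false
set_option linter.style.haveILetI false

noncomputable section

namespace Fermat.Agent.Lib.S27

open AlgebraicCurve TensorProduct Fermat.Agent.Lib.FF

variable {K₁ F₁ K F : Type*} [Field K₁] [Field F₁] [Field K] [Field F]
  [Algebra K₁ F₁] [Algebra K F] [Algebra K₁ K] [Algebra F₁ F] [Algebra K₁ F]
  [IsScalarTower K₁ K F] [IsScalarTower K₁ F₁ F]

/-- a unit of the valuation ring has order zero. -/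
theorem s27b_ord_eq_zero_of_unit (P : Place K F) {u : F} (hu : u ∈ P.toValuationSubring)
    (hu' : u⁻¹ ∈ P.toValuationSubring) : P.ord u = 0 := by
  by_cases h0 : u = 0
  · rw [h0, Place.ord_zero]
  · have h1 := (ff_mem_iff_ord_nonneg P h0).mp hu
    have h2 := (ff_mem_iff_ord_nonneg P (inv_ne_zero h0)).mp hu'
    rw [P.ord_inv] at h2
    omega

/-- a function of `F₁` regular at `P₁` is regular at every place above. -/
theorem s27b_ord_nonneg_of_above {P : Place K F} {P₁ : Place K₁ F₁} (h : s27b_Above P P₁)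
    {f : F₁} (hf : f ≠ 0) (hord : 0 ≤ P₁.ord f) : 0 ≤ P.ord (algebraMap F₁ F f) := by
  have h1 : f ∈ P₁.toValuationSubring := (ff_mem_iff_ord_nonneg P₁ hf).mpr hord
  exact (ff_mem_iff_ord_nonneg P ((map_ne_zero _).mpr hf)).mp ((h.mem_iff f).mp h1)

/-- a unit at `P₁` is a unit at every place above. -/
theorem s27b_ord_eq_zero_of_above {P : Place K F} {P₁ : Place K₁ F₁} (h : s27b_Above P P₁)
    {f : F₁} (hf : f ≠ 0) (hord : P₁.ord f = 0) : P.ord (algebraMap F₁ F f) = 0 := by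
  have h1 := s27b_ord_nonneg_of_above h hf (le_of_eq hord.symm)
  have h2 := s27b_ord_nonneg_of_above h (inv_ne_zero hf)
    (by rw [P₁.ord_inv, hord, neg_zero])
  rw [map_inv₀, P.ord_inv] at h2
  omega

section Normal

variable (hs : ∀ P : Place K F, Function.Surjective (algebraMap K P.ResidueField))
  (hs₁ : ∀ P₁ : Place K₁ F₁, Function.Surjective (algebraMap K₁ P₁.ResidueField))

include hs hs₁ in
/-- a uniformizer at `P₁` is a uniformizer at every place above. -/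
theorem s27b_ord_tau (h : s27b_Ext K₁ F₁ K F) {P : Place K F} {P₁ : Place K₁ F₁}
    (hP : s27b_Above P P₁) {τ₁ : F₁} (hτ₁ : P₁.ord τ₁ = 1) :
    P.ord (algebraMap F₁ F τ₁) = 1 := by
  have hτ0 : τ₁ ≠ 0 := by
    rintro rfl
    rw [Place.ord_zero] at hτ₁
    exact zero_ne_one hτ₁
  have hτF : algebraMap F₁ F τ₁ ≠ 0 := (map_ne_zero _).mpr hτ0
  obtain ⟨π, hπ0, hπ⟩ := ff_exists_ord_eq_one P
  obtain ⟨m, u, hu, hPu⟩ := s27b_normal_form hs hs₁ h P₁ hτ₁ π hπ0
  obtain ⟨hu1, hu2⟩ := hPu P hP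
  have hu0 : u ≠ 0 := by
    rintro rfl
    rw [mul_zero] at hu
    exact hπ0 hu
  have h1 : P.ord π = m * P.ord (algebraMap F₁ F τ₁) := by
    rw [hu, P.ord_mul (zpow_ne_zero _ hτF) hu0, P.ord_zpow, s27b_ord_eq_zero_of_unit P hu1 hu2,
      add_zero]
  rw [hπ] at h1
  have h2 : 0 ≤ P.ord (algebraMap F₁ F τ₁) :=
    s27b_ord_nonneg_of_above hP hτ0 (by rw [hτ₁]; exact zero_le_one)
  have h3 : P.ord (algebraMap F₁ F τ₁) ∣ 1 := ⟨m, by rw [h1]; ring⟩
  exact Int.eq_one_of_dvd_one h2 h3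

include hs hs₁ in
/-- **constant field extensions are unramified.** -/
theorem s27b_ord_above (h : s27b_Ext K₁ F₁ K F) {P : Place K F} {P₁ : Place K₁ F₁}
    (hP : s27b_Above P P₁) (f : F₁) : P.ord (algebraMap F₁ F f) = P₁.ord f := by
  by_cases hf : f = 0
  · rw [hf, map_zero, Place.ord_zero, Place.ord_zero]
  obtain ⟨τ₁, hτ0, hτ₁⟩ := ff_exists_ord_eq_one P₁
  obtain ⟨u, hu0, hu, hfu⟩ := ff_exists_eq_mul_zpow P₁ hτ0 hτ₁ hf
  have hτF : algebraMap F₁ F τ₁ ≠ 0 := (map_ne_zero _).mpr hτ0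
  conv_lhs => rw [hfu]
  rw [map_mul, map_zpow₀, P.ord_mul ((map_ne_zero _).mpr hu0) (zpow_ne_zero _ hτF), P.ord_zpow,
    s27b_ord_tau hs hs₁ h hP hτ₁, s27b_ord_eq_zero_of_above hP hu0 hu, zero_add, mul_one]

include hs hs₁ in
/-- **at most one place above `P₁`.** -/
theorem s27b_above_unique (h : s27b_Ext K₁ F₁ K F) {P Q : Place K F} {P₁ : Place K₁ F₁}
    (hP : s27b_Above P P₁) (hQ : s27b_Above Q P₁) : P = Q := by
  apply ff_place_eq_of_le
  intro f hf
  by_cases hf0 : f = 0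
  · rw [hf0]
    exact Q.toValuationSubring.zero_mem
  obtain ⟨τ₁, hτ0, hτ₁⟩ := ff_exists_ord_eq_one P₁
  have hτF : algebraMap F₁ F τ₁ ≠ 0 := (map_ne_zero _).mpr hτ0
  obtain ⟨m, u, hu, hPu⟩ := s27b_normal_form hs hs₁ h P₁ hτ₁ f hf0
  have hu0 : u ≠ 0 := by
    rintro rfl
    rw [mul_zero] at hu
    exact hf0 hu
  have key : ∀ R : Place K F, s27b_Above R P₁ → R.ord f = m := by
    intro R hR
    obtain ⟨hu1, hu2⟩ := hPu R hR
    rw [hu, R.ord_mul (zpow_ne_zero _ hτF) hu0, R.ord_zpow, s27b_ord_tau hs hs₁ h hR hτ₁,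
      s27b_ord_eq_zero_of_unit R hu1 hu2, add_zero, mul_one]
  rw [ff_mem_iff_ord_nonneg Q hf0, key Q hQ, ← key P hP, ← ff_mem_iff_ord_nonneg P hf0]
  exact hf

end Normal

/-- a place of `F` trivial on `F₁` sees the non-zero functions of `F₁` as units. -/
theorem s27b_ord_of_restr_top {P : Place K F} (hP : s27b_restr F₁ P = ⊤) (f : F₁) :
    P.ord (algebraMap F₁ F f) = 0 := by
  have h1 : algebraMap F₁ F f ∈ P.toValuationSubring := by
    rw [← s27b_mem_restr, hP]
    exact ValuationSubring.mem_top _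
  have h2 : (algebraMap F₁ F f)⁻¹ ∈ P.toValuationSubring := by
    rw [← map_inv₀, ← s27b_mem_restr, hP]
    exact ValuationSubring.mem_top _
  exact s27b_ord_eq_zero_of_unit P h1 h2

end Fermat.Agent.Lib.S27
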