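/-
Programme Z (S27), brick [BC] (helper2, prefix `s27b_`): ARTIN'S LEMMA, spanning form.
(Mathlib + `BArtin`.)

A `K`-subspace of `ι →₀ K` stable under the coefficientwise action of `Aut(K/K₁)` (fixed field
`K₁`) is spanned by its vectors with coordinates in `K₁` (`s27b_artin_span`).
-/
import Fermat.Agent.Lib.S27.BArtin

set_option autoImplicit false
set_option linter.style.haveILetI false

noncomputable section

namespace Fermat.Agent.Lib.S27

variable {K₁ K : Type*} [Field K₁] [Field K] [Algebra K₁ K] {ι : Type*}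

theorem s27b_act_support (σ : K ≃ₐ[K₁] K) (w : ι →₀ K) :
    (s27b_act σ w).support = w.support := by
  ext i
  rw [Finsupp.mem_support_iff, Finsupp.mem_support_iff, s27b_act_apply]
  exact not_congr (map_eq_zero_iff σ σ.injective)

/-- **Artin's lemma, spanning form.** -/
theorem s27b_artin_span
    (hfix : ∀ c : K, (∀ σ : K ≃ₐ[K₁] K, σ c = c) → c ∈ (algebraMap K₁ K).range)
    (W : Submodule K (ι →₀ K))
    (hW : ∀ (σ : K ≃ₐ[K₁] K) (w : ι →₀ K), w ∈ W → s27b_act σ w ∈ W) (u : ι →₀ K) (hu : u ∈ W) :
    u ∈ Submodule.span K {w : ι →₀ K | w ∈ W ∧ ∀ i, w i ∈ (algebraMap K₁ K).range} := by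
  classical
  set S : Set (ι →₀ K) := {w : ι →₀ K | w ∈ W ∧ ∀ i, w i ∈ (algebraMap K₁ K).range} with hS
  suffices H : ∀ n : ℕ, ∀ u : ι →₀ K, u ∈ W → u.support.card = n → u ∈ Submodule.span K S from
    H _ u hu rfl
  intro n
  induction n using Nat.strong_induction_on with
  | _ n ih =>
    intro u hu hcard
    by_cases hu0 : u = 0
    · rw [hu0]
      exact Submodule.zero_mem _
    -- the stable subspace of the vectors of `W` supported in `supp u`
    set Wu : Submodule K (ι →₀ K) := W ⊓ Finsupp.supported K K (u.support : Set ι) with hWu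
    have hWu_stab : ∀ (σ : K ≃ₐ[K₁] K) (w : ι →₀ K), w ∈ Wu → s27b_act σ w ∈ Wu := by
      rintro σ w ⟨hw1, hw2⟩
      refine ⟨hW σ w hw1, ?_⟩
      show s27b_act σ w ∈ Finsupp.supported K K (u.support : Set ι)
      rw [Finsupp.mem_supported, s27b_act_support]
      exact (Finsupp.mem_supported K w).mp hw2
    have hWu_ne : Wu ≠ ⊥ := by
      intro hbot
      have : u ∈ Wu := ⟨hu, (Finsupp.mem_supported K u).mpr (le_refl _)⟩
      rw [hbot, Submodule.mem_bot] at this
      exact hu0 this
    obtain ⟨w, ⟨hwW, hwsupp⟩, hw0, hwrat⟩ := s27b_artin hfix Wu hWu_stab hWu_ne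
    have hwsupp' : (w.support : Set ι) ⊆ u.support := (Finsupp.mem_supported K w).mp hwsupp
    obtain ⟨i, hi⟩ : ∃ i, w i ≠ 0 := by
      by_contra hcon
      rw [not_exists] at hcon
      exact hw0 (Finsupp.ext fun i => not_not.mp (hcon i))
    have hiu : i ∈ u.support := hwsupp' (Finsupp.mem_support_iff.mpr hi)
    set c : K := u i / w i with hc
    set u' : ι →₀ K := u - c • w with hu'
    have hu'W : u' ∈ W := W.sub_mem hu (W.smul_mem _ hwW)
    have hsub : u'.support ⊆ u.support.erase i := by
      intro j hj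
      rw [Finsupp.mem_support_iff, hu', Finsupp.sub_apply, Finsupp.smul_apply, smul_eq_mul] at hj
      rw [Finset.mem_erase]
      constructor
      · rintro rfl
        apply hj
        rw [hc, div_mul_cancel₀ _ hi, sub_self]
      · by_contra hju
        have h1 : u j = 0 := Finsupp.notMem_support_iff.mp hju
        have h2 : w j = 0 := by
          by_contra hwj
          exact hju (hwsupp' (Finsupp.mem_support_iff.mpr hwj))
        apply hj
        rw [h1, h2, mul_zero, sub_self]
    have hlt : u'.support.card < n := by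
      have h1 := Finset.card_le_card hsub
      have h2 := Finset.card_erase_lt_of_mem hiu
      omega
    have h1 : u' ∈ Submodule.span K S := ih _ hlt u' hu'W rfl
    have h2 : w ∈ Submodule.span K S := Submodule.subset_span ⟨hwW, hwrat⟩
    have h3 : u = u' + c • w := by
      rw [hu', sub_add_cancel]
    rw [h3]
    exact Submodule.add_mem _ h1 (Submodule.smul_mem _ _ h2)

end Fermat.Agent.Lib.S27
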