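/-
Programme Z (S27), brick [BC] (helper2, prefix `s27b_`): GALOIS DESCENT FOR SUBSPACES OF `F`.

For `h : s27b_Ext K₁ F₁ K F`: a finite-dimensional `K`-subspace `W ⊆ F` stable under all
`σ_F` (`σ ∈ Aut(K/K₁)`) is spanned over `K` by `W ∩ F₁` (`s27b_descent_span`).

Proof: the common denominators of `W` in `K ⊗[K₁] F₁` form a non-zero stable subspace, hence
contain some `1 ⊗ β` (Artin); then `W · β ⊆ K ⊗[K₁] F₁` is stable, hence spanned by rational
vectors (Artin, spanning form).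
-/
import Fermat.Agent.Lib.S27.BExt
import Fermat.Agent.Lib.S27.BArtinSpan

set_option autoImplicit false
set_option linter.unusedSectionVars false
set_option linter.unusedVariables false
set_option linter.style.haveILetI false

noncomputable section

namespace Fermat.Agent.Lib.S27

open AlgebraicCurve TensorProduct

variable {K₁ F₁ K F : Type*} [Field K₁] [Field F₁] [Field K] [Field F]
  [Algebra K₁ F₁] [Algebra K F] [Algebra K₁ K] [Algebra F₁ F] [Algebra K₁ F]
  [IsScalarTower K₁ K F] [IsScalarTower K₁ F₁ F]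

theorem s27b_sigmaT_symm_apply (σ : K ≃ₐ[K₁] K) (t : K ⊗[K₁] F₁) :
    s27b_sigmaT σ (s27b_sigmaT σ.symm t) = t := by
  induction t using TensorProduct.induction_on with
  | zero => rw [map_zero, map_zero]
  | tmul c f => rw [s27b_sigmaT_tmul, s27b_sigmaT_tmul, AlgEquiv.apply_symm_apply]
  | add a b ha hb => rw [map_add, map_add, ha, hb]

theorem s27b_sigmaF_symm_apply (h : s27b_Ext K₁ F₁ K F) (σ : K ≃ₐ[K₁] K) (f : F) :
    s27b_sigmaF h σ (s27b_sigmaF h σ.symm f) = f := by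
  obtain ⟨a, b, hb, hab⟩ := h.gen f
  have hf : f = s27b_mu K₁ F₁ K F a / s27b_mu K₁ F₁ K F b := by
    rw [eq_div_iff hb]
    exact hab
  rw [hf, map_div₀, map_div₀, s27b_sigmaF_mu, s27b_sigmaF_mu, s27b_sigmaF_mu, s27b_sigmaF_mu,
    s27b_sigmaT_symm_apply, s27b_sigmaT_symm_apply]

/-- the coordinates of `σ_T t`, inverse form. -/
theorem s27b_reprsymm_act {ι : Type*} (b : Module.Basis ι K₁ F₁) (σ : K ≃ₐ[K₁] K) (w : ι →₀ K) :
    (Algebra.TensorProduct.basis K b).repr.symm (s27b_act σ w)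
      = s27b_sigmaT σ ((Algebra.TensorProduct.basis K b).repr.symm w) := by
  apply (Algebra.TensorProduct.basis K b).repr.injective
  rw [LinearEquiv.apply_symm_apply, s27b_repr_sigmaT, LinearEquiv.apply_symm_apply]

/-- a common denominator in `F₁` for a finite-dimensional stable subspace. -/
theorem s27b_exists_denominator (h : s27b_Ext K₁ F₁ K F) (W : Submodule K F)
    [Module.Finite K ↥W]
    (hW : ∀ (σ : K ≃ₐ[K₁] K) (f : F), f ∈ W → s27b_sigmaF h σ f ∈ W) :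
    ∃ β : F₁, β ≠ 0 ∧ ∀ f ∈ W, ∃ t : K ⊗[K₁] F₁,
      s27b_mu K₁ F₁ K F t = f * algebraMap F₁ F β := by
  classical
  set b := Module.Basis.ofVectorSpace K₁ F₁ with hb
  set B := Algebra.TensorProduct.basis K b with hB
  let 𝔡 : Submodule K (Module.Basis.ofVectorSpaceIndex K₁ F₁ →₀ K) :=
    { carrier := {w | ∀ f ∈ W, ∃ t : K ⊗[K₁] F₁,
        s27b_mu K₁ F₁ K F t = f * s27b_mu K₁ F₁ K F (B.repr.symm w)}
      add_mem' := by
        intro w w' hw hw' f hf
        obtain ⟨t, ht⟩ := hw f hf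
        obtain ⟨t', ht'⟩ := hw' f hf
        exact ⟨t + t', by rw [map_add, map_add, map_add, ht, ht', mul_add]⟩
      zero_mem' := fun f _ => ⟨0, by rw [map_zero, map_zero, map_zero, mul_zero]⟩
      smul_mem' := by
        intro c w hw f hf
        obtain ⟨t, ht⟩ := hw f hf
        exact ⟨c • t, by rw [map_smul, map_smul, map_smul, ht, mul_smul_comm]⟩ }
  have h𝔡mem : ∀ w, w ∈ 𝔡 ↔ ∀ f ∈ W, ∃ t : K ⊗[K₁] F₁,
      s27b_mu K₁ F₁ K F t = f * s27b_mu K₁ F₁ K F (B.repr.symm w) := fun w => Iff.rfl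
  have h𝔡stab : ∀ (σ : K ≃ₐ[K₁] K) (w : Module.Basis.ofVectorSpaceIndex K₁ F₁ →₀ K),
      w ∈ 𝔡 → s27b_act σ w ∈ 𝔡 := by
    intro σ w hw f hf
    obtain ⟨t, ht⟩ := hw _ (hW σ.symm f hf)
    refine ⟨s27b_sigmaT σ t, ?_⟩
    rw [s27b_reprsymm_act, ← s27b_sigmaF_mu h, ← s27b_sigmaF_mu h, ht, map_mul,
      s27b_sigmaF_symm_apply]
  have h𝔡ne : 𝔡 ≠ ⊥ := by
    -- a finite spanning set of `W`
    obtain ⟨S, hS⟩ := (Module.finite_def.mp (inferInstance : Module.Finite K ↥W))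
    choose a d hd had using fun s : ↥W => h.gen (s : F)
    set D : K ⊗[K₁] F₁ := ∏ s ∈ S, d s with hD
    have hD0 : s27b_mu K₁ F₁ K F D ≠ 0 := by
      rw [hD, map_prod, Finset.prod_ne_zero_iff]
      exact fun s _ => hd s
    have hmemD : B.repr D ∈ 𝔡 := by
      intro f hf
      rw [LinearEquiv.symm_apply_apply]
      have hfS : (⟨f, hf⟩ : ↥W) ∈ Submodule.span K (S : Set ↥W) := by
        rw [hS]
        exact Submodule.mem_top
      have key : ∀ v : ↥W, v ∈ Submodule.span K (S : Set ↥W) → ∃ t : K ⊗[K₁] F₁,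
          s27b_mu K₁ F₁ K F t = (v : F) * s27b_mu K₁ F₁ K F D := by
        intro v hv
        induction hv using Submodule.span_induction with
        | mem s hs =>
          refine ⟨a s * ∏ s' ∈ S.erase s, d s', ?_⟩
          rw [map_mul, ← had s, hD, ← Finset.mul_prod_erase S d hs, map_mul, mul_assoc]
        | zero => exact ⟨0, by rw [map_zero, Submodule.coe_zero, zero_mul]⟩
        | add v v' _ _ hv hv' =>
          obtain ⟨t, ht⟩ := hv
          obtain ⟨t', ht'⟩ := hv'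
          exact ⟨t + t', by rw [map_add, ht, ht', Submodule.coe_add, add_mul]⟩
        | smul c v _ hv =>
          obtain ⟨t, ht⟩ := hv
          exact ⟨c • t, by rw [map_smul, ht, Submodule.coe_smul, smul_mul_assoc]⟩
      exact key ⟨f, hf⟩ hfS
    intro hbot
    rw [hbot, Submodule.mem_bot] at hmemD
    apply hD0
    have : D = 0 := by
      apply B.repr.injective
      rw [hmemD, map_zero]
    rw [this, map_zero]
  obtain ⟨w, hw𝔡, hw0, hwrat⟩ := s27b_artin h.fix 𝔡 h𝔡stab h𝔡ne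
  obtain ⟨β, hβ⟩ := s27b_exists_of_rational b w hwrat
  have hβ0 : β ≠ 0 := by
    rintro rfl
    apply hw0
    apply B.repr.symm.injective
    rw [hβ, TensorProduct.tmul_zero, map_zero]
  refine ⟨β, hβ0, fun f hf => ?_⟩
  obtain ⟨t, ht⟩ := hw𝔡 f hf
  refine ⟨t, ?_⟩
  rw [ht, hβ, s27b_mu_tmul, map_one, one_mul]

/-- **Galois descent**: a finite-dimensional stable subspace of `F` is spanned by its elements
in `F₁`. -/
theorem s27b_descent_span (h : s27b_Ext K₁ F₁ K F) (W : Submodule K F) [Module.Finite K ↥W]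
    (hW : ∀ (σ : K ≃ₐ[K₁] K) (f : F), f ∈ W → s27b_sigmaF h σ f ∈ W) (f : F) (hf : f ∈ W) :
    f ∈ Submodule.span K {g : F | g ∈ W ∧ g ∈ (algebraMap F₁ F).range} := by
  classical
  obtain ⟨β, hβ0, hβ⟩ := s27b_exists_denominator h W hW
  have hβF : algebraMap F₁ F β ≠ 0 := (map_ne_zero _).mpr hβ0
  set b := Module.Basis.ofVectorSpace K₁ F₁ with hb
  set B := Algebra.TensorProduct.basis K b with hB
  let U : Submodule K (Module.Basis.ofVectorSpaceIndex K₁ F₁ →₀ K) :=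
    { carrier := {v | ∃ g ∈ W, s27b_mu K₁ F₁ K F (B.repr.symm v) = g * algebraMap F₁ F β}
      add_mem' := by
        rintro v v' ⟨g, hg, hv⟩ ⟨g', hg', hv'⟩
        exact ⟨g + g', W.add_mem hg hg', by rw [map_add, map_add, hv, hv', add_mul]⟩
      zero_mem' := ⟨0, W.zero_mem, by rw [map_zero, map_zero, zero_mul]⟩
      smul_mem' := by
        rintro c v ⟨g, hg, hv⟩
        exact ⟨c • g, W.smul_mem c hg, by rw [map_smul, map_smul, hv, smul_mul_assoc]⟩ }
  have hUstab : ∀ (σ : K ≃ₐ[K₁] K) (v : Module.Basis.ofVectorSpaceIndex K₁ F₁ →₀ K),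
      v ∈ U → s27b_act σ v ∈ U := by
    rintro σ v ⟨g, hg, hv⟩
    refine ⟨s27b_sigmaF h σ g, hW σ g hg, ?_⟩
    rw [s27b_reprsymm_act, ← s27b_sigmaF_mu h, hv, map_mul, s27b_sigmaF_algebraMap₁]
  -- the map `v ↦ μ(v) / β`
  let Φ : (Module.Basis.ofVectorSpaceIndex K₁ F₁ →₀ K) →ₗ[K] F :=
    (LinearMap.mulRight K ((algebraMap F₁ F β)⁻¹)).comp
      ((s27b_mu K₁ F₁ K F).toLinearMap.comp B.repr.symm.toLinearMap)
  have hΦ : ∀ v, Φ v = s27b_mu K₁ F₁ K F (B.repr.symm v) * (algebraMap F₁ F β)⁻¹ := fun v => rfl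
  have hΦU : ∀ v g, s27b_mu K₁ F₁ K F (B.repr.symm v) = g * algebraMap F₁ F β → Φ v = g := by
    intro v g hv
    rw [hΦ, hv, mul_assoc, mul_inv_cancel₀ hβF, mul_one]
  obtain ⟨t, ht⟩ := hβ f hf
  have hvU : B.repr t ∈ U := ⟨f, hf, by rw [LinearEquiv.symm_apply_apply, ht]⟩
  have hfΦ : f = Φ (B.repr t) := by
    rw [hΦU (B.repr t) f (by rw [LinearEquiv.symm_apply_apply, ht])]
  have hspan := s27b_artin_span h.fix U hUstab (B.repr t) hvU
  have hle : Submodule.span K {w : Module.Basis.ofVectorSpaceIndex K₁ F₁ →₀ K |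
        w ∈ U ∧ ∀ i, w i ∈ (algebraMap K₁ K).range}
      ≤ (Submodule.span K {g : F | g ∈ W ∧ g ∈ (algebraMap F₁ F).range}).comap Φ := by
    rw [Submodule.span_le]
    rintro v ⟨⟨g, hg, hv⟩, hvrat⟩
    show Φ v ∈ Submodule.span K {g : F | g ∈ W ∧ g ∈ (algebraMap F₁ F).range}
    apply Submodule.subset_span
    rw [hΦU v g hv]
    refine ⟨hg, ?_⟩
    obtain ⟨γ, hγ⟩ := s27b_exists_of_rational b v hvrat
    rw [hγ, s27b_mu_tmul, map_one, one_mul] at hv
    refine ⟨γ / β, ?_⟩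
    rw [map_div₀, hv, mul_div_assoc, div_self hβF, mul_one]
  rw [hfΦ]
  exact hle hspan

end Fermat.Agent.Lib.S27
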