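/-
Programme Z (S27), brick [BC] (helper2, prefix `s27b_`): CONSTANT FIELD EXTENSIONS, existence of a
place above a given (rational) place `P₁` of `F₁`.

The ring `A = K · O_{P₁} ≅ K ⊗[K₁] O_{P₁}` (linear disjointness + flatness) has the `K`-point
`c ⊗ o ↦ c · o(P₁)`, so a uniformizer `τ₁` of `P₁` is not a unit of `A`; a valuation ring of `F`
dominating `(A, τ₁)` (Chevalley) is a place (landed `s17i_val`) and lies above `P₁`.
-/
import Fermat.Agent.Lib.S27.BAbove
import Fermat.Agent.Lib.S17.IVal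

set_option autoImplicit false
set_option linter.unusedSectionVars false
set_option linter.unusedVariables false
set_option linter.style.haveILetI false

noncomputable section

namespace Fermat.Agent.Lib.S27

open AlgebraicCurve TensorProduct Fermat.Agent.Lib.FF Fermat.Agent.Lib.S17

variable {K₁ F₁ K F : Type*} [Field K₁] [Field F₁] [Field K] [Field F]
  [Algebra K₁ F₁] [Algebra K F] [Algebra K₁ K] [Algebra F₁ F] [Algebra K₁ F]
  [IsScalarTower K₁ K F] [IsScalarTower K₁ F₁ F]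

/-- the inclusion `O_{P₁} → F₁` as a `K₁`-algebra map. -/
def s27b_incl (P₁ : Place K₁ F₁) : ↥P₁.toValuationSubring →ₐ[K₁] F₁ :=
  IsScalarTower.toAlgHom K₁ ↥P₁.toValuationSubring F₁

theorem s27b_incl_apply (P₁ : Place K₁ F₁) (o : ↥P₁.toValuationSubring) :
    s27b_incl P₁ o = (o : F₁) := rfl

/-- `K ⊗[K₁] O_{P₁} → F`. -/
def s27b_muO (K F : Type*) [Field K] [Field F] [Algebra K F] [Algebra K₁ K] [Algebra F₁ F]
    [Algebra K₁ F] [IsScalarTower K₁ K F] [IsScalarTower K₁ F₁ F] (P₁ : Place K₁ F₁) :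
    K ⊗[K₁] ↥P₁.toValuationSubring →ₐ[K] F :=
  (s27b_mu K₁ F₁ K F).comp (Algebra.TensorProduct.map (AlgHom.id K K) (s27b_incl P₁))

theorem s27b_muO_tmul (P₁ : Place K₁ F₁) (c : K) (o : ↥P₁.toValuationSubring) :
    s27b_muO K F P₁ (c ⊗ₜ[K₁] o) = algebraMap K F c * algebraMap F₁ F (o : F₁) := by
  unfold s27b_muO
  rw [AlgHom.comp_apply, Algebra.TensorProduct.map_tmul, s27b_mu_tmul]
  rfl

theorem s27b_muO_injective (h : s27b_Ext K₁ F₁ K F) (P₁ : Place K₁ F₁) :
    Function.Injective (s27b_muO K F P₁) := by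
  unfold s27b_muO
  rw [AlgHom.coe_comp]
  refine h.inj.comp ?_
  have hinj : Function.Injective ((s27b_incl P₁).toLinearMap.lTensor K) :=
    Module.Flat.lTensor_preserves_injective_linearMap _ (fun a b hab => Subtype.ext hab)
  have heq : ∀ t, Algebra.TensorProduct.map (AlgHom.id K K) (s27b_incl P₁) t
      = (s27b_incl P₁).toLinearMap.lTensor K t := by
    intro t
    induction t using TensorProduct.induction_on with
    | zero => rw [map_zero, map_zero]
    | tmul c o => rw [Algebra.TensorProduct.map_tmul, LinearMap.lTensor_tmul]; rfl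
    | add a b ha hb => rw [map_add, map_add, ha, hb]
  intro a b hab
  rw [heq, heq] at hab
  exact hinj hab

section Ev

variable (hs₁ : ∀ P₁ : Place K₁ F₁, Function.Surjective (algebraMap K₁ P₁.ResidueField))

/-- the value map at `P₁` as a `K₁`-algebra map. -/
def s27b_valA (P₁ : Place K₁ F₁) : ↥P₁.toValuationSubring →ₐ[K₁] K₁ :=
  { s27b_val P₁ (hs₁ P₁) with
    commutes' := fun c => s27b_val_algebraMap P₁ (hs₁ P₁) c }

theorem s27b_valA_apply (P₁ : Place K₁ F₁) (o : ↥P₁.toValuationSubring) :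
    s27b_valA hs₁ P₁ o = s27b_val P₁ (hs₁ P₁) o := rfl

/-- the `K`-point `c ⊗ o ↦ c · o(P₁)` of `K ⊗[K₁] O_{P₁}`. -/
def s27b_ev (K : Type*) [Field K] [Algebra K₁ K] (P₁ : Place K₁ F₁) :
    K ⊗[K₁] ↥P₁.toValuationSubring →ₐ[K] K :=
  Algebra.TensorProduct.productLeftAlgHom (AlgHom.id K K)
    ((Algebra.ofId K₁ K).comp (s27b_valA hs₁ P₁))

theorem s27b_ev_tmul (P₁ : Place K₁ F₁) (c : K) (o : ↥P₁.toValuationSubring) :
    s27b_ev hs₁ K P₁ (c ⊗ₜ[K₁] o) = c * algebraMap K₁ K (s27b_val P₁ (hs₁ P₁) o) := by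
  unfold s27b_ev
  simp [Algebra.TensorProduct.productLeftAlgHom, s27b_valA_apply, Algebra.ofId_apply]

include hs₁ in
/-- **existence of a place above `P₁`.** -/
theorem s27b_exists_above [CharZero K] (x : F) [FFGen K x] (h : s27b_Ext K₁ F₁ K F)
    (P₁ : Place K₁ F₁) : ∃ P : Place K F, s27b_Above P P₁ := by
  obtain ⟨τ₁, hτ0, hτ₁⟩ := ff_exists_ord_eq_one P₁
  have hτmem : τ₁ ∈ P₁.toValuationSubring :=
    (ff_mem_iff_ord_nonneg P₁ hτ0).mpr (by rw [hτ₁]; exact zero_le_one)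
  set τo : ↥P₁.toValuationSubring := ⟨τ₁, hτmem⟩ with hτo
  -- `τ₁` vanishes at `P₁`
  have hval0 : s27b_val P₁ (hs₁ P₁) τo = 0 := by
    rw [s27b_val_eq_zero_iff, IsLocalRing.mem_maximalIdeal, mem_nonunits_iff]
    intro hu
    have hinv : (τ₁)⁻¹ ∈ P₁.toValuationSubring := s27b_inv_mem _ hu
    have := (ff_mem_iff_ord_nonneg P₁ (inv_ne_zero hτ0)).mp hinv
    rw [P₁.ord_inv, hτ₁] at this
    omega
  set A : Subalgebra K F := (s27b_muO K F P₁).range with hA
  have hτA : algebraMap F₁ F τ₁ ∈ A.toSubring := by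
    refine ⟨(1 : K) ⊗ₜ[K₁] τo, ?_⟩
    show s27b_muO K F P₁ ((1 : K) ⊗ₜ[K₁] τo) = _
    rw [s27b_muO_tmul, map_one, one_mul]
  set I : Ideal ↥A.toSubring := Ideal.span {⟨algebraMap F₁ F τ₁, hτA⟩} with hI
  have hItop : I ≠ ⊤ := by
    intro htop
    rw [hI, Ideal.span_singleton_eq_top] at htop
    obtain ⟨⟨b, hb⟩, hb1⟩ := isUnit_iff_exists_inv.mp htop
    obtain ⟨t, ht⟩ := hb
    have h1 : algebraMap F₁ F τ₁ * b = 1 := congrArg Subtype.val hb1
    have h2 : s27b_muO K F P₁ (((1 : K) ⊗ₜ[K₁] τo) * t) = s27b_muO K F P₁ 1 := by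
      rw [map_mul, s27b_muO_tmul, map_one, map_one, one_mul]
      rw [show (s27b_muO K F P₁) t = b from ht]
      exact h1
    have h3 := s27b_muO_injective h P₁ h2
    have h4 := congrArg (s27b_ev hs₁ K P₁) h3
    rw [map_mul, s27b_ev_tmul, hval0, map_zero, mul_zero, zero_mul, map_one] at h4
    exact zero_ne_one h4
  obtain ⟨V, hAV, hIV⟩ := Ideal.image_subset_nonunits_valuationSubring I hItop
  have hK : ∀ a : K, algebraMap K F a ∈ V := fun a => hAV (A.algebraMap_mem a)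
  have hτV : algebraMap F₁ F τ₁ ∈ V.nonunits :=
    hIV ⟨⟨algebraMap F₁ F τ₁, hτA⟩, Ideal.subset_span rfl, rfl⟩
  have hτinv : (algebraMap F₁ F τ₁)⁻¹ ∉ V := by
    have h1 : ((algebraMap F₁ F τ₁)⁻¹)⁻¹ ∈ V.nonunits := by rw [inv_inv]; exact hτV
    exact (V.inv_mem_nonunits_iff.mp h1).resolve_left
      (inv_ne_zero ((map_ne_zero _).mpr hτ0))
  have hVtop : V ≠ ⊤ := by
    intro htop
    apply hτinv
    rw [htop]
    exact ValuationSubring.mem_top _
  obtain ⟨P, hP⟩ := s17i_val x V hK hVtop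
  refine ⟨P, ?_⟩
  have hle : P₁.toValuationSubring ≤ s27b_restr F₁ P := by
    intro f hf
    rw [s27b_mem_restr, hP]
    refine hAV ⟨(1 : K) ⊗ₜ[K₁] (⟨f, hf⟩ : ↥P₁.toValuationSubring), ?_⟩
    show s27b_muO K F P₁ ((1 : K) ⊗ₜ[K₁] (⟨f, hf⟩ : ↥P₁.toValuationSubring)) = _
    rw [s27b_muO_tmul, map_one, one_mul]
  have hne : s27b_restr F₁ P ≠ ⊤ := by
    intro htop
    apply hτinv
    have : τ₁⁻¹ ∈ s27b_restr F₁ P := by
      rw [htop]
      exact ValuationSubring.mem_top _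
    rw [s27b_mem_restr, hP, map_inv₀] at this
    exact this
  exact (ValuationSubring.eq_of_le_of_ne_top _ hle hne).symm

end Ev

end Fermat.Agent.Lib.S27
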