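/-
Programme Z (S27), brick [BC] (helper2, prefix `s27b_`): THE TOP GLUE.

A curve in the sense of the Prelude (`IsCurveOver K F`: `Ω[F⁄K]` free of rank one) which is
essentially of finite type over a field `K` of characteristic `0` has a coordinate:
`∃ x, FFGen K x` (`x` transcendental, `F` finite over `K(x)`).
-/
import Fermat.Agent.Lib.S17.YKaehler
import Fermat.Agent.Lib.FF.FFBasicDedekind
import Fermat.Prelude.Def_AlgebraicCurve_IsCurveOver

set_option autoImplicit false
set_option linter.unusedSectionVars false
set_option linter.unusedVariables false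
set_option linter.style.haveILetI false

noncomputable section

namespace Fermat.Agent.Lib.S27

open AlgebraicCurve IntermediateField Fermat.Agent.Lib.FF Fermat.Agent.Lib.S17

variable {K F : Type*} [Field K] [Field F] [Algebra K F]

/-- in characteristic zero the differential of an algebraic element vanishes. -/
theorem s27b_D_eq_zero_of_isAlgebraic [CharZero K] {x : F} (hx : IsAlgebraic K x) :
    KaehlerDifferential.D K F x = 0 := by
  have hint : IsIntegral K x := hx.isIntegral
  have hsep : (minpoly K x).Separable := (minpoly.irreducible hint).separable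
  have h1 : KaehlerDifferential.D K F (Polynomial.aeval x (minpoly K x)) = 0 := by
    rw [minpoly.aeval, map_zero]
  rw [Derivation.map_aeval] at h1
  have h2 : Polynomial.aeval x (Polynomial.derivative (minpoly K x)) ≠ 0 :=
    hsep.aeval_derivative_ne_zero (minpoly.aeval K x)
  exact (smul_eq_zero.mp h1).resolve_left h2

/-- **the top glue.** -/
theorem s27b_exists_gen [CharZero K] [IsCurveOver K F] [Algebra.EssFiniteType K F] :
    ∃ x : F, FFGen K x := by
  obtain ⟨hfree, hrank⟩ := IsCurveOver.kaehler_free_rank_one (K := K) (F := F)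
  -- a function with non-zero differential
  obtain ⟨x, hx⟩ : ∃ x : F, KaehlerDifferential.D K F x ≠ 0 := by
    by_contra hcon
    have hall : ∀ x : F, KaehlerDifferential.D K F x = 0 := fun x => by
      by_contra hx
      exact hcon ⟨x, hx⟩
    have hspan := KaehlerDifferential.span_range_derivation K F
    have hbot : Submodule.span F (Set.range (KaehlerDifferential.D K F)) = ⊥ := by
      rw [Submodule.span_eq_bot]
      rintro _ ⟨y, rfl⟩
      exact hall y
    rw [hbot] at hspan
    have : Module.finrank F Ω[F⁄K] = 0 := by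
      haveI : Subsingleton Ω[F⁄K] := by
        refine ⟨fun a b => ?_⟩
        have ha : a ∈ (⊤ : Submodule F Ω[F⁄K]) := Submodule.mem_top
        have hb : b ∈ (⊤ : Submodule F Ω[F⁄K]) := Submodule.mem_top
        rw [← hspan, Submodule.mem_bot] at ha hb
        rw [ha, hb]
      exact Module.finrank_zero_of_subsingleton
    omega
  have htr : Transcendental K x := fun halg => hx (s27b_D_eq_zero_of_isAlgebraic halg)
  refine ⟨x, ⟨htr, ?_⟩⟩
  -- every differential is a multiple of `d x`
  have hmul : ∀ ω : Ω[F⁄K], ∃ c : F, c • KaehlerDifferential.D K F x = ω :=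
    (finrank_eq_one_iff_of_nonzero' _ hx).mp hrank
  haveI : CharZero ↥K⟮x⟯ := charZero_of_injective_algebraMap (algebraMap K ↥K⟮x⟯).injective
  -- `F / K(x)` is algebraic
  have halg : ∀ y : F, IsAlgebraic ↥K⟮x⟯ y := by
    intro y
    apply s17y_isAlgebraic_of_D_eq_zero
    obtain ⟨c, hc⟩ := hmul (KaehlerDifferential.D K F y)
    have h1 := congrArg (KaehlerDifferential.map K ↥K⟮x⟯ F F) hc
    rw [map_smul, KaehlerDifferential.map_D, KaehlerDifferential.map_D] at h1
    have h2 : KaehlerDifferential.D ↥K⟮x⟯ F (algebraMap F F x) = 0 := by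
      have : algebraMap F F x = algebraMap ↥K⟮x⟯ F ⟨x, mem_adjoin_simple_self K x⟩ := rfl
      rw [this, Derivation.map_algebraMap]
    rw [h2, smul_zero] at h1
    exact h1.symm
  -- finitely generated + algebraic ⇒ finite
  haveI : Algebra.EssFiniteType ↥K⟮x⟯ F := Algebra.EssFiniteType.of_comp K ↥K⟮x⟯ F
  obtain ⟨s, hs⟩ := IntermediateField.fg_top ↥K⟮x⟯ F
  haveI : FiniteDimensional ↥K⟮x⟯ ↥(adjoin ↥K⟮x⟯ (s : Set F)) :=
    finiteDimensional_adjoin fun y _ => (halg y).isIntegral
  rw [hs] at this
  exact (IntermediateField.topEquiv (F := ↥K⟮x⟯) (E := F)).toLinearEquiv.finiteDimensional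

end Fermat.Agent.Lib.S27
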