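/-
Programme Z (S27), brick [BC] (helper2, prefix `s27b_`): CONTRACTS of the two hand-off bricks.

* `s27b_FinTr K`        : `K` is algebraic over a finitely generated subfield;
* `s27b_ModelExists`    : [BC-MODEL] (helper3) every function field `F / K` with a coordinate `x` is
  a constant field extension (`s27b_Ext`) of a function field `F₁ / K₁`, `K₁ ⊆ K` algebraically
  closed with `s27b_FinTr`, containing a prescribed finite set of constants;
* `s27b_ShrinkExists`   : [BC-UNIV] a function field over a constant field with `s27b_FinTr` is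
  isomorphic to one living in `Type` (universe `0`), with a finite transcendence basis indexed by
  `Fin n`.
-/
import Fermat.Agent.Lib.S27.BExt
import Fermat.Agent.Lib.FF.FFBasicDedekind

set_option autoImplicit false

noncomputable section

namespace Fermat.Agent.Lib.S27

open AlgebraicCurve Fermat.Agent.Lib.FF

/-- `K` is algebraic over a finitely generated subfield. -/
def s27b_FinTr (K : Type*) [Field K] [CharZero K] : Prop :=
  ∃ s : Finset K, Algebra.IsAlgebraic (IntermediateField.adjoin ℚ (s : Set K)) K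

/-- **CONTRACT [BC-MODEL].** -/
def s27b_ModelExists.{u, v} : Prop :=
  ∀ (K : Type u) (F : Type v) [Field K] [Field F] [Algebra K F] [IsAlgClosed K] [CharZero K]
    (x : F) [FFGen K x] (s : Finset K),
    ∃ (K₁ : IntermediateField ℚ K) (F₁ : IntermediateField ↥K₁ F) (x₁ : ↥F₁),
      (∀ c ∈ s, c ∈ K₁) ∧ IsAlgClosed ↥K₁ ∧ s27b_FinTr ↥K₁ ∧ (x₁ : F) = x ∧ FFGen ↥K₁ x₁ ∧
      s27b_Ext ↥K₁ ↥F₁ K F

/-- **CONTRACT [BC-UNIV].** -/
def s27b_ShrinkExists.{u, v} : Prop :=
  ∀ (K₁ : Type u) (F₁ : Type v) [Field K₁] [Field F₁] [Algebra K₁ F₁] [IsAlgClosed K₁]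
    [CharZero K₁] (x₁ : F₁) [FFGen K₁ x₁], s27b_FinTr K₁ →
    ∃ (K' F' : Type) (_ : Field K') (_ : Field F') (_ : Algebra K' F') (_ : IsAlgClosed K')
      (_ : CharZero K') (x' : F') (_ : FFGen K' x') (n : ℕ) (t : Fin n → K')
      (_ : IsTranscendenceBasis ℚ t) (eK : K' ≃+* K₁) (eF : F' ≃+* F₁),
      (∀ c : K', eF (algebraMap K' F' c) = algebraMap K₁ F₁ (eK c)) ∧ eF x' = x₁

end Fermat.Agent.Lib.S27
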