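/-
Programme Z (S27), brick [BC] (helper2, prefix `s27b_`): CONSTANT FIELD EXTENSIONS, the place map
`s27b_up : Place K₁ F₁ → Place K F` and the conorm of divisors.

* `s27b_up`, `s27b_up_above`, `s27b_up_injective`, `s27b_eq_up_of_above`;
* `s27b_semi_smul_up`   : the places `up P₁` are fixed by `Aut(K/K₁)`;
* `s27b_restr_cases`    : a place of `F` is trivial on `F₁` or of the form `up P₁`;
* `s27b_conorm`         : `Divisor K₁ F₁ →+ Divisor K F`, with `s27b_conorm_up`,
  `s27b_conorm_of_top`, `s27b_degree_conorm`, `s27b_conorm_principal`, `s27b_semi_smul_conorm`.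
-/
import Fermat.Agent.Lib.S27.BExist

set_option autoImplicit false
set_option linter.unusedSectionVars false
set_option linter.unusedVariables false
set_option linter.style.haveILetI false

noncomputable section

namespace Fermat.Agent.Lib.S27

open AlgebraicCurve TensorProduct Fermat.Agent.Lib.FF Fermat.Agent.Lib.S17

variable {K₁ F₁ K F : Type*} [Field K₁] [Field F₁] [Field K] [Field F]
  [Algebra K₁ F₁] [Algebra K F] [Algebra K₁ K] [Algebra F₁ F] [Algebra K₁ F]
  [IsScalarTower K₁ K F] [IsScalarTower K₁ F₁ F]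

variable (hs : ∀ P : Place K F, Function.Surjective (algebraMap K P.ResidueField))
  (hs₁ : ∀ P₁ : Place K₁ F₁, Function.Surjective (algebraMap K₁ P₁.ResidueField))
  [CharZero K] (x : F) [FFGen K x] (h : s27b_Ext K₁ F₁ K F)

/-- the place of `F` above a place of `F₁`. -/
def s27b_up (P₁ : Place K₁ F₁) : Place K F := (s27b_exists_above hs₁ x h P₁).choose

theorem s27b_up_above (P₁ : Place K₁ F₁) : s27b_Above (s27b_up hs₁ x h P₁) P₁ :=
  (s27b_exists_above hs₁ x h P₁).choose_spec

theorem s27b_up_injective : Function.Injective (s27b_up hs₁ x h) := by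
  intro P₁ Q₁ hPQ
  apply Place.ext
  rw [← s27b_up_above hs₁ x h P₁, ← s27b_up_above hs₁ x h Q₁, hPQ]

include hs in
theorem s27b_eq_up_of_above {P : Place K F} {P₁ : Place K₁ F₁} (hP : s27b_Above P P₁) :
    P = s27b_up hs₁ x h P₁ :=
  s27b_above_unique hs hs₁ h hP (s27b_up_above hs₁ x h P₁)

include hs in
theorem s27b_ord_up (P₁ : Place K₁ F₁) (f : F₁) :
    (s27b_up hs₁ x h P₁).ord (algebraMap F₁ F f) = P₁.ord f :=
  s27b_ord_above hs hs₁ h (s27b_up_above hs₁ x h P₁) f

omit [CharZero K] in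
/-- the restriction of a place to `F₁` is invariant under `Aut(K/K₁)`. -/
theorem s27b_restr_semi_smul (σ : K ≃ₐ[K₁] K) (P : Place K F) :
    s27b_restr F₁ (s27b_semi h σ • P) = s27b_restr F₁ P := by
  ext f
  rw [s27b_mem_restr, s27b_mem_restr, SemilinearAut.smul_toValuationSubring,
    ValuationSubring.mem_pointwise_smul_iff_inv_smul_mem, SemilinearAut.inv_smul_def]
  have h1 : (SemilinearAut.toRingAut (s27b_semi h σ)).symm (algebraMap F₁ F f)
      = algebraMap F₁ F f := by
    rw [RingEquiv.symm_apply_eq]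
    exact (s27b_sigmaF_algebraMap₁ h σ f).symm
  rw [h1]

include hs in
/-- the places `up P₁` are fixed by `Aut(K/K₁)`. -/
theorem s27b_semi_smul_up (σ : K ≃ₐ[K₁] K) (P₁ : Place K₁ F₁) :
    s27b_semi h σ • s27b_up hs₁ x h P₁ = s27b_up hs₁ x h P₁ := by
  apply s27b_eq_up_of_above hs hs₁ x h
  show s27b_restr F₁ _ = _
  rw [s27b_restr_semi_smul]
  exact s27b_up_above hs₁ x h P₁

include hs in
/-- a place of `F` is trivial on `F₁` or of the form `up P₁`. -/
theorem s27b_restr_cases [CharZero K₁] (x₁ : F₁) [FFGen K₁ x₁] (P : Place K F) :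
    s27b_restr F₁ P = ⊤ ∨ ∃ P₁ : Place K₁ F₁, P = s27b_up hs₁ x h P₁ := by
  by_cases htop : s27b_restr F₁ P = ⊤
  · exact Or.inl htop
  · right
    obtain ⟨P₁, hP₁⟩ := s17i_val x₁ (s27b_restr F₁ P)
      (fun a => s27b_algebraMap_mem_restr (K₁ := K₁) P a) htop
    exact ⟨P₁, s27b_eq_up_of_above hs hs₁ x h hP₁.symm⟩

/-! ### the conorm -/

/-- the conorm `Div(F₁) → Div(F)`. -/
def s27b_conorm : Divisor K₁ F₁ →+ Divisor K F :=
  Finsupp.mapDomain.addMonoidHom (s27b_up hs₁ x h)

theorem s27b_conorm_apply (D : Divisor K₁ F₁) :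
    s27b_conorm hs₁ x h D = Finsupp.mapDomain (s27b_up hs₁ x h) D := rfl

theorem s27b_conorm_single (P₁ : Place K₁ F₁) (n : ℤ) :
    s27b_conorm hs₁ x h (Finsupp.single P₁ n) = Finsupp.single (s27b_up hs₁ x h P₁) n := by
  rw [s27b_conorm_apply, Finsupp.mapDomain_single]

theorem s27b_conorm_up (D : Divisor K₁ F₁) (P₁ : Place K₁ F₁) :
    s27b_conorm hs₁ x h D (s27b_up hs₁ x h P₁) = D P₁ := by
  rw [s27b_conorm_apply]
  exact Finsupp.mapDomain_apply (s27b_up_injective hs₁ x h) D P₁

theorem s27b_conorm_of_notin (D : Divisor K₁ F₁) (P : Place K F)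
    (hP : ∀ P₁ : Place K₁ F₁, P ≠ s27b_up hs₁ x h P₁) :
    s27b_conorm hs₁ x h D P = 0 := by
  rw [s27b_conorm_apply]
  apply Finsupp.mapDomain_of_notMem_range
  rintro ⟨P₁, hP₁⟩
  exact hP P₁ hP₁.symm

include hs in
theorem s27b_conorm_of_top (D : Divisor K₁ F₁) (P : Place K F)
    (hP : s27b_restr F₁ P = ⊤) : s27b_conorm hs₁ x h D P = 0 := by
  apply s27b_conorm_of_notin
  intro P₁ hP₁
  have h1 := s27b_up_above hs₁ x h P₁
  rw [← hP₁] at h1
  exact P₁.ne_top' (by rw [← h1, hP])

/-- the conorm preserves the degree (all places rational). -/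
theorem s27b_degree_conorm (hdeg : ∀ P : Place K F, P.deg = 1)
    (hdeg₁ : ∀ P₁ : Place K₁ F₁, P₁.deg = 1) (D : Divisor K₁ F₁) :
    Divisor.degree (s27b_conorm hs₁ x h D) = Divisor.degree D := by
  induction D using Finsupp.induction with
  | zero => simp only [map_zero]
  | single_add v n D _ _ ih =>
    rw [map_add, map_add, map_add, ih, s27b_conorm_single, Divisor.degree_single,
      Divisor.degree_single, hdeg, hdeg₁]

include hs in
/-- the conorm of a principal divisor is the principal divisor of the same function. -/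
theorem s27b_conorm_principal [CharZero K₁] (x₁ : F₁) [FFGen K₁ x₁] (D : Divisor K₁ F₁) (f : F₁)
    (hD : ∀ v : Place K₁ F₁, D v = v.ord f) (P : Place K F) :
    s27b_conorm hs₁ x h D P = P.ord (algebraMap F₁ F f) := by
  rcases s27b_restr_cases hs hs₁ x h x₁ P with htop | ⟨P₁, rfl⟩
  · rw [s27b_conorm_of_top hs hs₁ x h D P htop, s27b_ord_of_restr_top htop]
  · rw [s27b_conorm_up, s27b_ord_up hs, hD]

include hs in
/-- conorms are fixed by `Aut(K/K₁)`. -/
theorem s27b_semi_smul_conorm (σ : K ≃ₐ[K₁] K) (D : Divisor K₁ F₁) :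
    s27b_semi h σ • s27b_conorm hs₁ x h D = s27b_conorm hs₁ x h D := by
  induction D using Finsupp.induction with
  | zero => rw [map_zero, smul_zero]
  | single_add v n D _ _ ih =>
    rw [map_add, smul_add, ih, s27b_conorm_single, SemilinearAut.smul_single,
      s27b_semi_smul_up hs]

end Fermat.Agent.Lib.S27
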