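/-
Programme Z (S27), brick [BC] (helper2, prefix `s27b_`): CONSTANT FIELD EXTENSIONS, Riemann–Roch
spaces, the genus, principal divisors.

`K₁ ⊆ K` algebraically closed of characteristic `0`, `F₁ / K₁`, `F / K` function fields with
coordinates `x₁`, `x`, `h : s27b_Ext K₁ F₁ K F`; `cn := s27b_cn x x₁ h` the conorm.

* `s27b_L_eq_span`       : `L(cn D) = K · L(D)`;
* `s27b_finrank_L`       : `ℓ_F(cn D) = ℓ_{F₁}(D)`;
* `s27b_genus_eq`        : `genusFF K F = genusFF K₁ F₁`;
* `s27b_cn_mem_principal`, `s27b_principal_reflect` : `cn E` principal `↔ E` principal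
  (for `deg E = 0`).
-/
import Fermat.Agent.Lib.S27.BUp
import Fermat.Agent.Lib.S27.BDescSpan
import Fermat.Agent.Lib.S19.EGenus
import Fermat.Agent.Lib.S19.NNonSp
import Fermat.Agent.Lib.S29.LamDiv
import Fermat.Agent.Lib.FF.FFBasicIface

set_option autoImplicit false
set_option linter.unusedSectionVars false
set_option linter.unusedVariables false
set_option linter.style.haveILetI false

noncomputable section

namespace Fermat.Agent.Lib.S27

open AlgebraicCurve TensorProduct Fermat.Agent.Lib.FF Fermat.Agent.Lib.S17 Fermat.Agent.Lib.S19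
  Fermat.Agent.Lib.S29 Fermat.Agent.Lib.S44

variable {K₁ F₁ K F : Type*} [Field K₁] [Field F₁] [Field K] [Field F]
  [Algebra K₁ F₁] [Algebra K F] [Algebra K₁ K] [Algebra F₁ F] [Algebra K₁ F]
  [IsScalarTower K₁ K F] [IsScalarTower K₁ F₁ F]

/-- `K₁`-independent functions of `F₁` are `K`-independent in `F`. -/
theorem s27b_linearIndependent_alg (h : s27b_Ext K₁ F₁ K F) {ι : Type*} (e : ι → F₁)
    (he : LinearIndependent K₁ e) : LinearIndependent K (fun i => algebraMap F₁ F (e i)) := by
  have h1 : LinearIndependent K (fun i => (1 : K) ⊗ₜ[K₁] e i) :=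
    Module.Flat.linearIndependent_one_tmul he
  have h2 := h1.map' (s27b_mu K₁ F₁ K F).toLinearMap
    (LinearMap.ker_eq_bot.mpr h.inj)
  have h3 : (⇑(s27b_mu K₁ F₁ K F).toLinearMap ∘ fun i => (1 : K) ⊗ₜ[K₁] e i)
      = fun i => algebraMap F₁ F (e i) := by
    funext i
    show s27b_mu K₁ F₁ K F ((1 : K) ⊗ₜ[K₁] e i) = _
    rw [s27b_mu_tmul, map_one, one_mul]
  rw [h3] at h2
  exact h2

section Main

variable [CharZero K] [IsAlgClosed K] (x : F) [FFGen K x]
  [CharZero K₁] [IsAlgClosed K₁] (x₁ : F₁) [FFGen K₁ x₁] (h : s27b_Ext K₁ F₁ K F)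

/-- the conorm, in the function-field setting. -/
def s27b_cn : Divisor K₁ F₁ →+ Divisor K F :=
  s27b_conorm (fun P₁ => ff_residue_surjective K₁ x₁ P₁) x h

/-- the place map, in the function-field setting. -/
def s27b_upP (P₁ : Place K₁ F₁) : Place K F :=
  s27b_up (fun P₁ => ff_residue_surjective K₁ x₁ P₁) x h P₁

theorem s27b_upP_injective : Function.Injective (s27b_upP x x₁ h) :=
  s27b_up_injective (fun P₁ => ff_residue_surjective K₁ x₁ P₁) x h

theorem s27b_cn_single (P₁ : Place K₁ F₁) (n : ℤ) :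
    s27b_cn x x₁ h (Finsupp.single P₁ n) = Finsupp.single (s27b_upP x x₁ h P₁) n :=
  s27b_conorm_single (fun P₁ => ff_residue_surjective K₁ x₁ P₁) x h P₁ n

theorem s27b_cn_upP (D : Divisor K₁ F₁) (P₁ : Place K₁ F₁) :
    s27b_cn x x₁ h D (s27b_upP x x₁ h P₁) = D P₁ :=
  s27b_conorm_up (fun P₁ => ff_residue_surjective K₁ x₁ P₁) x h D P₁

theorem s27b_cn_of_top (D : Divisor K₁ F₁) (P : Place K F) (hP : s27b_restr F₁ P = ⊤) :
    s27b_cn x x₁ h D P = 0 :=
  s27b_conorm_of_top (fun P => ff_residue_surjective K x P) (fun P₁ => ff_residue_surjective K₁ x₁ P₁) x h D P hP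

theorem s27b_cases (P : Place K F) :
    s27b_restr F₁ P = ⊤ ∨ ∃ P₁ : Place K₁ F₁, P = s27b_upP x x₁ h P₁ :=
  s27b_restr_cases (fun P => ff_residue_surjective K x P) (fun P₁ => ff_residue_surjective K₁ x₁ P₁) x h x₁ P

theorem s27b_ord_upP (P₁ : Place K₁ F₁) (f : F₁) :
    (s27b_upP x x₁ h P₁).ord (algebraMap F₁ F f) = P₁.ord f :=
  s27b_ord_up (fun P => ff_residue_surjective K x P) (fun P₁ => ff_residue_surjective K₁ x₁ P₁) x h P₁ f

theorem s27b_degree_cn (D : Divisor K₁ F₁) :
    Divisor.degree (s27b_cn x x₁ h D) = Divisor.degree D :=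
  s27b_degree_conorm (fun P₁ => ff_residue_surjective K₁ x₁ P₁) x h (fun P => ff_deg_eq_one K x P) (fun P₁ => ff_deg_eq_one K₁ x₁ P₁) D

theorem s27b_cn_principal (D : Divisor K₁ F₁) (f : F₁)
    (hD : ∀ v : Place K₁ F₁, D v = v.ord f) (P : Place K F) :
    s27b_cn x x₁ h D P = P.ord (algebraMap F₁ F f) :=
  s27b_conorm_principal (fun P => ff_residue_surjective K x P) (fun P₁ => ff_residue_surjective K₁ x₁ P₁) x h x₁ D f hD P

theorem s27b_semi_smul_cn (σ : K ≃ₐ[K₁] K) (D : Divisor K₁ F₁) :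
    s27b_semi h σ • s27b_cn x x₁ h D = s27b_cn x x₁ h D :=
  s27b_semi_smul_conorm (fun P => ff_residue_surjective K x P) (fun P₁ => ff_residue_surjective K₁ x₁ P₁) x h σ D

/-- the conorm of a principal divisor is principal. -/
theorem s27b_cn_mem_principal {E : Divisor K₁ F₁}
    (hE : E ∈ Divisor.principal (K := K₁) (F := F₁)) :
    s27b_cn x x₁ h E ∈ Divisor.principal (K := K) (F := F) := by
  obtain ⟨f, hf0, hf⟩ := hE
  exact ⟨algebraMap F₁ F f, (map_ne_zero _).mpr hf0, fun P => s27b_cn_principal x x₁ h E f hf P⟩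

/-- `L(cn D)` is stable under `Aut(K/K₁)`. -/
theorem s27b_L_stable (D : Divisor K₁ F₁) (σ : K ≃ₐ[K₁] K) (f : F)
    (hf : f ∈ riemannRochSpace (s27b_cn x x₁ h D)) :
    s27b_sigmaF h σ f ∈ riemannRochSpace (s27b_cn x x₁ h D) := by
  rw [mem_riemannRochSpace_iff] at hf ⊢
  intro P
  set g := s27b_semi h σ with hg
  rcases hf (g⁻¹ • P) with h0 | h1
  · left
    rw [h0, map_zero]
  · right
    have e1 : P.ord (s27b_sigmaF h σ f) = (g⁻¹ • P).ord f := by
      have := SemilinearAut.ord_smul g (g⁻¹ • P) f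
      rw [smul_inv_smul] at this
      exact this
    have e2 : s27b_cn x x₁ h D (g⁻¹ • P) = s27b_cn x x₁ h D P := by
      have := SemilinearAut.divisor_smul_apply g (s27b_cn x x₁ h D) P
      rw [s27b_semi_smul_cn] at this
      exact this.symm
    rw [e1, ← e2]
    exact h1

/-- functions of `F₁`: membership in `L(cn D)` is membership in `L(D)`. -/
theorem s27b_alg_mem_L_iff (D : Divisor K₁ F₁) (g₁ : F₁) :
    algebraMap F₁ F g₁ ∈ riemannRochSpace (s27b_cn x x₁ h D) ↔ g₁ ∈ riemannRochSpace D := by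
  rw [mem_riemannRochSpace_iff, mem_riemannRochSpace_iff]
  constructor
  · intro hg P₁
    rcases hg (s27b_upP x x₁ h P₁) with h0 | h1
    · left
      exact (map_eq_zero _).mp h0
    · right
      rw [s27b_cn_upP, s27b_ord_upP] at h1
      exact h1
  · intro hg P
    by_cases hg0 : g₁ = 0
    · left
      rw [hg0, map_zero]
    right
    rcases s27b_cases x x₁ h P with htop | ⟨P₁, rfl⟩
    · rw [s27b_cn_of_top x x₁ h D P htop, s27b_ord_of_restr_top htop, neg_zero]
    · rw [s27b_cn_upP, s27b_ord_upP]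
      exact (hg P₁).resolve_left hg0

/-- **`L(cn D) = K · L(D)`**, in terms of a family spanning `L(D)`. -/
theorem s27b_L_eq_span (D : Divisor K₁ F₁) {ι : Type*} (e : ι → F₁)
    (he : Submodule.span K₁ (Set.range e) = riemannRochSpace D) :
    riemannRochSpace (s27b_cn x x₁ h D)
      = Submodule.span K (Set.range fun i => algebraMap F₁ F (e i)) := by
  haveI : HasPrincipalDivisors K F := s29l_hasPrincipalDivisors x
  haveI : Module.Finite K ↥(riemannRochSpace (s27b_cn x x₁ h D)) :=
    (s19e_riemann_of_sep x).fin _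
  apply le_antisymm
  · intro f hf
    have h1 := s27b_descent_span h (riemannRochSpace (s27b_cn x x₁ h D))
      (fun σ f hf => s27b_L_stable x x₁ h D σ f hf) f hf
    refine (Submodule.span_le.mpr ?_) h1
    rintro _ ⟨hgL, g₁, rfl⟩
    have hg₁ : g₁ ∈ Submodule.span K₁ (Set.range e) := by
      rw [he]
      exact (s27b_alg_mem_L_iff x x₁ h D g₁).mp hgL
    -- `alg` maps the `K₁`-span into the `K`-span
    have key : ∀ g : F₁, g ∈ Submodule.span K₁ (Set.range e) →
        algebraMap F₁ F g ∈ Submodule.span K (Set.range fun i => algebraMap F₁ F (e i)) := by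
      intro g hg
      induction hg using Submodule.span_induction with
      | mem g hg =>
        obtain ⟨i, rfl⟩ := hg
        exact Submodule.subset_span ⟨i, rfl⟩
      | zero =>
        rw [map_zero]
        exact Submodule.zero_mem _
      | add g g' _ _ hg hg' =>
        rw [map_add]
        exact Submodule.add_mem _ hg hg'
      | smul c g _ hg =>
        rw [Algebra.smul_def, map_mul, ← IsScalarTower.algebraMap_apply,
          IsScalarTower.algebraMap_apply K₁ K F, ← Algebra.smul_def]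
        exact Submodule.smul_mem _ _ hg
    exact key g₁ hg₁
  · rw [Submodule.span_le]
    rintro _ ⟨i, rfl⟩
    apply (s27b_alg_mem_L_iff x x₁ h D (e i)).mpr
    rw [← he]
    exact Submodule.subset_span ⟨i, rfl⟩

/-- **`ℓ_F(cn D) = ℓ_{F₁}(D)`.** -/
theorem s27b_finrank_L (D : Divisor K₁ F₁) :
    Module.finrank K ↥(riemannRochSpace (s27b_cn x x₁ h D))
      = Module.finrank K₁ ↥(riemannRochSpace D) := by
  haveI : HasPrincipalDivisors K₁ F₁ := s29l_hasPrincipalDivisors x₁
  haveI : Module.Finite K₁ ↥(riemannRochSpace D) := (s19e_riemann_of_sep x₁).fin _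
  set n := Module.finrank K₁ ↥(riemannRochSpace D) with hn
  set bs := Module.finBasis K₁ ↥(riemannRochSpace D) with hbs
  set e : Fin n → F₁ := fun i => ((bs i : ↥(riemannRochSpace D)) : F₁) with he
  have heli : LinearIndependent K₁ e :=
    bs.linearIndependent.map' (riemannRochSpace D).subtype (Submodule.ker_subtype _)
  have hespan : Submodule.span K₁ (Set.range e) = riemannRochSpace D := by
    have h1 : Set.range e = (riemannRochSpace D).subtype '' Set.range bs := by
      rw [← Set.range_comp]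
      rfl
    rw [h1, ← Submodule.map_span, bs.span_eq, Submodule.map_top, Submodule.range_subtype]
  rw [s27b_L_eq_span x x₁ h D e hespan,
    finrank_span_eq_card (s27b_linearIndependent_alg h e heli), Fintype.card_fin]

include x x₁ h in
/-- **the genus is invariant under constant field extension.** -/
theorem s27b_genus_eq : genusFF K F = genusFF K₁ F₁ := by
  haveI : HasPrincipalDivisors K₁ F₁ := s29l_hasPrincipalDivisors x₁
  haveI : HasPrincipalDivisors K F := s29l_hasPrincipalDivisors x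
  have hR₁ : s19_Riemann K₁ F₁ (genusFF K₁ F₁) := s19e_riemann_of_sep x₁
  have hR : s19_Riemann K F (genusFF K F) := s19e_riemann_of_sep x
  obtain ⟨P₁⟩ := s44rm_nonempty_place (K := K₁) x₁
  have hB₁ : 0 < Divisor.degree (Finsupp.single P₁ (1 : ℤ)) := by
    rw [Divisor.degree_single, ff_deg_eq_one K₁ x₁ P₁]
    norm_num
  have hB : 0 < Divisor.degree (s27b_cn x x₁ h (Finsupp.single P₁ (1 : ℤ))) := by
    rw [s27b_degree_cn]
    exact hB₁
  exact (s19e_genus_eq_of_finrank_eq hR hR₁ _ _ hB hB₁ 0 (fun n _ => by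
    rw [← map_nsmul, s27b_finrank_L])).1

/-- **a divisor of degree `0` whose conorm is principal is principal.** -/
theorem s27b_principal_reflect {E : Divisor K₁ F₁} (hE0 : Divisor.degree E = 0)
    (hE : s27b_cn x x₁ h E ∈ Divisor.principal (K := K) (F := F)) :
    E ∈ Divisor.principal (K := K₁) (F := F₁) := by
  haveI hpd : HasPrincipalDivisors K₁ F₁ := s29l_hasPrincipalDivisors x₁
  obtain ⟨f, hf0, hf⟩ := hE
  -- `f⁻¹ ∈ L(cn E)`
  have hmem : f⁻¹ ∈ riemannRochSpace (s27b_cn x x₁ h E) := by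
    rw [mem_riemannRochSpace_iff]
    intro P
    right
    rw [Place.ord_inv, hf P]
  have hne : riemannRochSpace (s27b_cn x x₁ h E) ≠ ⊥ := by
    intro hbot
    rw [hbot, Submodule.mem_bot] at hmem
    exact inv_ne_zero hf0 hmem
  have hne₁ : riemannRochSpace E ≠ ⊥ := by
    intro hbot
    have h1 := s27b_finrank_L x x₁ h E
    rw [hbot, finrank_bot] at h1
    haveI : HasPrincipalDivisors K F := s29l_hasPrincipalDivisors x
    haveI : Module.Finite K ↥(riemannRochSpace (s27b_cn x x₁ h E)) :=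
      (s19e_riemann_of_sep x).fin _
    exact hne (Submodule.finrank_eq_zero.mp h1)
  -- a non-zero function in `L(E)`, `deg E = 0`
  obtain ⟨g, hg, hg0⟩ := Submodule.exists_mem_ne_zero_of_ne_bot hne₁
  obtain ⟨Dg, hDg, hdg⟩ := hpd.exists_divisor g hg0
  have hdeg₁ : ∀ P₁ : Place K₁ F₁, P₁.deg = 1 := fun P₁ => ff_deg_eq_one K₁ x₁ P₁
  have hnn : ∀ v, 0 ≤ (E + Dg) v := by
    intro v
    rw [Finsupp.add_apply, hDg v]
    rcases mem_riemannRochSpace_iff.mp hg v with h0 | h1
    · exact absurd h0 hg0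
    · omega
  have hE0' : ∀ v, (E + Dg) v = 0 := fun v => by
    by_contra hne'
    exact s19n_not_pos_of_degree_zero hdeg₁ hnn (by rw [map_add, hE0, hdg, add_zero]) v
      (lt_of_le_of_ne (hnn v) (Ne.symm hne'))
  refine ⟨g⁻¹, inv_ne_zero hg0, fun v => ?_⟩
  rw [Place.ord_inv, ← hDg v]
  have := hE0' v
  rw [Finsupp.add_apply] at this
  omega

end Main

end Fermat.Agent.Lib.S27
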