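/-
Programme Z (S27), brick [BC] (helper2, prefix `s27b_`): CONSTANT FIELD EXTENSIONS, the map on
`Pic⁰` and on torsion.

* `s27b_pic : Pic0 K₁ F₁ →+ Pic0 K F` (conorm), `s27b_pic_injective`;
* `s27b_pic_lift` : a torsion class of `F` represented by a divisor supported on places `up P₁`
  comes from a torsion class of `F₁`;
* `s27b_picT N : Pic0.torsion K₁ F₁ N → Pic0.torsion K F N`, injective.
-/
import Fermat.Agent.Lib.S27.BLspace

set_option autoImplicit false
set_option linter.unusedSectionVars false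
set_option linter.unusedVariables false
set_option linter.style.haveILetI false

noncomputable section

namespace Fermat.Agent.Lib.S27

open AlgebraicCurve TensorProduct Fermat.Agent.Lib.FF

variable {K₁ F₁ K F : Type*} [Field K₁] [Field F₁] [Field K] [Field F]
  [Algebra K₁ F₁] [Algebra K F] [Algebra K₁ K] [Algebra F₁ F] [Algebra K₁ F]
  [IsScalarTower K₁ K F] [IsScalarTower K₁ F₁ F]

variable [CharZero K] [IsAlgClosed K] (x : F) [FFGen K x]
  [CharZero K₁] [IsAlgClosed K₁] (x₁ : F₁) [FFGen K₁ x₁] (h : s27b_Ext K₁ F₁ K F)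

/-- the conorm on divisors of degree zero. -/
def s27b_cn0 : ↥(Divisor.degZero (K := K₁) (F := F₁)) →+ ↥(Divisor.degZero (K := K) (F := F)) :=
  ((s27b_cn x x₁ h).comp (Divisor.degZero (K := K₁) (F := F₁)).subtype).codRestrict _
    (fun D => by
      rw [Divisor.mem_degZero]
      show Divisor.degree (s27b_cn x x₁ h (D : Divisor K₁ F₁)) = 0
      rw [s27b_degree_cn]
      exact D.2)

theorem s27b_coe_cn0 (D : ↥(Divisor.degZero (K := K₁) (F := F₁))) :
    (s27b_cn0 x x₁ h D : Divisor K F) = s27b_cn x x₁ h (D : Divisor K₁ F₁) := rfl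

/-- the conorm on `Pic⁰`. -/
def s27b_pic : Pic0 K₁ F₁ →+ Pic0 K F :=
  QuotientAddGroup.map _ _ (s27b_cn0 x x₁ h) (by
    rintro ⟨D, hD0⟩ hD
    simp only [AddSubgroup.mem_comap, AddSubgroup.mem_addSubgroupOf] at hD ⊢
    exact s27b_cn_mem_principal x x₁ h hD)

theorem s27b_pic_mk (D : ↥(Divisor.degZero (K := K₁) (F := F₁))) :
    s27b_pic x x₁ h (Pic0.mk D) = Pic0.mk (s27b_cn0 x x₁ h D) := rfl

theorem s27b_mk_eq_zero_iff {K F : Type*} [Field K] [Field F] [Algebra K F]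
    (D : ↥(Divisor.degZero (K := K) (F := F))) :
    Pic0.mk D = 0 ↔ (D : Divisor K F) ∈ Divisor.principal (K := K) (F := F) := by
  unfold Pic0.mk
  rw [QuotientAddGroup.eq_zero_iff, AddSubgroup.mem_addSubgroupOf]

/-- **`Pic⁰(F₁) → Pic⁰(F)` is injective.** -/
theorem s27b_pic_injective : Function.Injective (s27b_pic x x₁ h) := by
  rw [injective_iff_map_eq_zero]
  intro c hc
  obtain ⟨D, rfl⟩ := Pic0.mk_surjective c
  rw [s27b_pic_mk, s27b_mk_eq_zero_iff, s27b_coe_cn0] at hc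
  rw [s27b_mk_eq_zero_iff]
  exact s27b_principal_reflect x x₁ h D.2 hc

theorem s27b_pic_mem_torsion {N : ℕ} {c : Pic0 K₁ F₁} (hc : c ∈ Pic0.torsion K₁ F₁ N) :
    s27b_pic x x₁ h c ∈ Pic0.torsion K F N := by
  rw [Pic0.mem_torsion] at hc ⊢
  rw [← map_zsmul, hc, map_zero]

/-- a torsion class represented by a divisor supported on places `up P₁` comes from `F₁`. -/
theorem s27b_pic_lift {N : ℕ} (E' : ↥(Divisor.degZero (K := K) (F := F)))
    (hsupp : ∀ P ∈ (E' : Divisor K F).support, ∃ P₁, P = s27b_upP x x₁ h P₁)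
    (hE' : Pic0.mk E' ∈ Pic0.torsion K F N) :
    ∃ c ∈ Pic0.torsion K₁ F₁ N, s27b_pic x x₁ h c = Pic0.mk E' := by
  classical
  have hinj := s27b_upP_injective x x₁ h
  set E : Divisor K₁ F₁ :=
    Finsupp.comapDomain (s27b_upP x x₁ h) (E' : Divisor K F) hinj.injOn with hE
  have hcn : s27b_cn x x₁ h E = (E' : Divisor K F) := by
    show Finsupp.mapDomain (s27b_upP x x₁ h) E = _
    apply Finsupp.mapDomain_comapDomain _ hinj
    intro P hP
    obtain ⟨P₁, rfl⟩ := hsupp P hP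
    exact ⟨P₁, rfl⟩
  have hdeg : E ∈ Divisor.degZero (K := K₁) (F := F₁) := by
    rw [Divisor.mem_degZero, ← s27b_degree_cn x x₁ h, hcn]
    exact E'.2
  have hpic : s27b_pic x x₁ h (Pic0.mk ⟨E, hdeg⟩) = Pic0.mk E' := by
    rw [s27b_pic_mk]
    congr 1
    apply Subtype.ext
    rw [s27b_coe_cn0]
    exact hcn
  refine ⟨Pic0.mk ⟨E, hdeg⟩, ?_, hpic⟩
  rw [Pic0.mem_torsion] at hE' ⊢
  apply s27b_pic_injective x x₁ h
  rw [map_zsmul, hpic, hE', map_zero]

/-- the map on `N`-torsion. -/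
def s27b_picT (N : ℕ) (c : ↥(Pic0.torsion K₁ F₁ N)) : ↥(Pic0.torsion K F N) :=
  ⟨s27b_pic x x₁ h c, s27b_pic_mem_torsion x x₁ h c.2⟩

theorem s27b_picT_injective (N : ℕ) : Function.Injective (s27b_picT x x₁ h N) := by
  intro c c' hcc
  apply Subtype.ext
  apply s27b_pic_injective x x₁ h
  exact congrArg Subtype.val hcc

end Fermat.Agent.Lib.S27
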