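/-
Programme Z (S27), brick [BC] (helper2, prefix `s27b_`): the case of an ISOMORPHISM of pairs
(change of universe).

If `K' → K₁` and `F' → F₁` are onto (hence isomorphisms), then `s27b_Ext K' F' K₁ F₁` holds
trivially, every place of `F₁` comes from `F'`, and therefore the torsion of `Pic⁰` has the same
cardinality and the genera agree (`s27b_iso`).
-/
import Fermat.Agent.Lib.S27.BPic

set_option autoImplicit false
set_option linter.unusedSectionVars false
set_option linter.unusedVariables false
set_option linter.style.haveILetI false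

noncomputable section

namespace Fermat.Agent.Lib.S27

open AlgebraicCurve TensorProduct Fermat.Agent.Lib.FF

variable {K₁ F₁ K F : Type*} [Field K₁] [Field F₁] [Field K] [Field F]
  [Algebra K₁ F₁] [Algebra K F] [Algebra K₁ K] [Algebra F₁ F] [Algebra K₁ F]
  [IsScalarTower K₁ K F] [IsScalarTower K₁ F₁ F]

/-- an isomorphism of pairs is a constant field extension. -/
theorem s27b_ext_of_surjective (hK : Function.Surjective (algebraMap K₁ K))
    (hF : Function.Surjective (algebraMap F₁ F)) : s27b_Ext K₁ F₁ K F := by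
  have hpure : ∀ t : K ⊗[K₁] F₁, ∃ f : F₁, t = (1 : K) ⊗ₜ[K₁] f := by
    intro t
    induction t using TensorProduct.induction_on with
    | zero => exact ⟨0, (TensorProduct.tmul_zero _ _).symm⟩
    | tmul c f =>
      obtain ⟨c', rfl⟩ := hK c
      refine ⟨c' • f, ?_⟩
      rw [← TensorProduct.smul_tmul, Algebra.smul_def, mul_one]
    | add a b ha hb =>
      obtain ⟨f, rfl⟩ := ha
      obtain ⟨g, rfl⟩ := hb
      exact ⟨f + g, (TensorProduct.tmul_add _ _ _).symm⟩
  refine ⟨?_, ?_, fun c _ => hK c⟩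
  · intro t t' htt
    obtain ⟨f, rfl⟩ := hpure t
    obtain ⟨g, rfl⟩ := hpure t'
    rw [s27b_mu_tmul, s27b_mu_tmul, map_one, one_mul, one_mul] at htt
    rw [(algebraMap F₁ F).injective htt]
  · intro f
    obtain ⟨f', rfl⟩ := hF f
    refine ⟨(1 : K) ⊗ₜ[K₁] f', 1, ?_, ?_⟩
    · rw [map_one]
      exact one_ne_zero
    · rw [map_one, mul_one, s27b_mu_tmul, map_one, one_mul]

/-- under an isomorphism no place is trivial on the small field. -/
theorem s27b_restr_ne_top_of_surjective (hF : Function.Surjective (algebraMap F₁ F))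
    (P : Place K F) : s27b_restr F₁ P ≠ ⊤ := by
  intro htop
  apply P.ne_top'
  rw [eq_top_iff]
  intro f _
  obtain ⟨f', rfl⟩ := hF f
  rw [← s27b_mem_restr, htop]
  exact ValuationSubring.mem_top _

/-- **change of universe**: torsion and genus along an isomorphism of pairs. -/
theorem s27b_iso [CharZero K] [IsAlgClosed K] (x : F) [FFGen K x]
    [CharZero K₁] [IsAlgClosed K₁] (x₁ : F₁) [FFGen K₁ x₁]
    (hK : Function.Surjective (algebraMap K₁ K)) (hF : Function.Surjective (algebraMap F₁ F))
    (N : ℕ) :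
    Nat.card ↥(Pic0.torsion K F N) = Nat.card ↥(Pic0.torsion K₁ F₁ N) ∧
      genusFF K F = genusFF K₁ F₁ := by
  have h : s27b_Ext K₁ F₁ K F := s27b_ext_of_surjective hK hF
  refine ⟨?_, s27b_genus_eq x x₁ h⟩
  symm
  apply Nat.card_eq_of_bijective (s27b_picT x x₁ h N)
  refine ⟨s27b_picT_injective x x₁ h N, ?_⟩
  rintro ⟨c, hc⟩
  obtain ⟨E', rfl⟩ := Pic0.mk_surjective c
  obtain ⟨c₁, hc₁, hpic⟩ := s27b_pic_lift x x₁ h E' (fun P _ => by
    rcases s27b_cases x x₁ h P with htop | hup
    · exact absurd htop (s27b_restr_ne_top_of_surjective hF P)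
    · exact hup) hc
  exact ⟨⟨c₁, hc₁⟩, Subtype.ext hpic⟩

end Fermat.Agent.Lib.S27
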