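/-
Programme Z (S27), brick [BC] (helper2, prefix `s27b_`): THE COUNTING ARGUMENT.

`s27b_bc_ff` : S27 for a function field `F / K` with a coordinate (`K` algebraically closed of
characteristic `0`, any universes), from
  * `hS` : S27 over small constant fields living in `Type` (the statement `s27_Small0` of
    `RIface.lean`, inlined),
  * `hM : s27b_ModelExists` ([BC-MODEL]) and `hU : s27b_ShrinkExists` ([BC-UNIV]).

(≥) one model gives an injection `Pic⁰(F₁)[N] ↪ Pic⁰(F)[N]`; (≤) finitely many torsion classes of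
`F` are represented by divisors supported on finitely many places, which all become rational over
a suitable model, so that the classes come from `Pic⁰(F₁)[N]`.
-/
import Fermat.Agent.Lib.S27.BIso
import Fermat.Agent.Lib.S27.BIface

set_option autoImplicit false
set_option linter.unusedSectionVars false
set_option linter.unusedVariables false
set_option linter.style.haveILetI false

noncomputable section

namespace Fermat.Agent.Lib.S27

open AlgebraicCurve TensorProduct Fermat.Agent.Lib.FF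

section Rational

variable {K₁ F₁ K F : Type*} [Field K₁] [Field F₁] [Field K] [Field F]
  [Algebra K₁ F₁] [Algebra K F] [Algebra K₁ K] [Algebra F₁ F] [Algebra K₁ F]
  [IsScalarTower K₁ K F] [IsScalarTower K₁ F₁ F]

/-- a place whose `x`-coordinate is rational over `K₁` is not trivial on `F₁`. -/
theorem s27b_restr_ne_top_of_val
    (hs : ∀ P : Place K F, Function.Surjective (algebraMap K P.ResidueField)) (P : Place K F)
    (x₁ : F₁) (hx₁ : ∀ a₁ : K₁, x₁ ≠ algebraMap K₁ F₁ a₁)
    (hval : ∀ hx : algebraMap F₁ F x₁ ∈ P.toValuationSubring,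
      ∃ a₁ : K₁, s27b_val P (hs P) ⟨algebraMap F₁ F x₁, hx⟩ = algebraMap K₁ K a₁) :
    s27b_restr F₁ P ≠ ⊤ := by
  intro htop
  have hall : ∀ f : F₁, algebraMap F₁ F f ∈ P.toValuationSubring := by
    intro f
    rw [← s27b_mem_restr, htop]
    exact ValuationSubring.mem_top _
  have hx := hall x₁
  obtain ⟨a₁, ha₁⟩ := hval hx
  set d : F₁ := x₁ - algebraMap K₁ F₁ a₁ with hd
  have hd0 : d ≠ 0 := sub_ne_zero.mpr (hx₁ a₁)
  have hmem := s27b_sub_val_mem P (hs P) ⟨algebraMap F₁ F x₁, hx⟩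
  rw [ha₁] at hmem
  have hcoe : ((⟨algebraMap F₁ F x₁, hx⟩ : ↥P.toValuationSubring)
      - algebraMap K ↥P.toValuationSubring (algebraMap K₁ K a₁))
      = ⟨algebraMap F₁ F d, hall d⟩ := by
    apply Subtype.ext
    show algebraMap F₁ F x₁
      - ((algebraMap K ↥P.toValuationSubring (algebraMap K₁ K a₁) : ↥P.toValuationSubring) : F)
      = algebraMap F₁ F d
    rw [Place.coe_algebraMap, ← IsScalarTower.algebraMap_apply,
      IsScalarTower.algebraMap_apply K₁ F₁ F, ← map_sub]
  rw [hcoe, IsLocalRing.mem_maximalIdeal, mem_nonunits_iff] at hmem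
  apply hmem
  refine isUnit_iff_exists_inv.mpr ⟨⟨algebraMap F₁ F d⁻¹, hall d⁻¹⟩, ?_⟩
  apply Subtype.ext
  show algebraMap F₁ F d * algebraMap F₁ F d⁻¹ = 1
  rw [← map_mul, mul_inv_cancel₀ hd0, map_one]

end Rational

section Count

universe u v

/-- **step (a)**: over every finite set of constants there is a model `F₁ / K₁` whose
`ℓ^k`-torsion has `ℓ^(2 g k)` elements, `g` the genus of `F`. -/
theorem s27b_model_count
    (hS : ∀ (K F : Type) [Field K] [Field F] [Algebra K F] [IsAlgClosed K] [CharZero K] (x : F)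
      [FFGen K x] (ι : Type) [Fintype ι] (t : ι → K), IsTranscendenceBasis ℚ t →
      ∀ (ℓ : ℕ) [Fact ℓ.Prime] (e : ℕ),
      Nat.card ↥(Pic0.torsion K F (ℓ ^ e)) = ℓ ^ (2 * genusFF K F * e))
    (hM : s27b_ModelExists.{u, v}) (hU : s27b_ShrinkExists.{u, v})
    (K : Type u) (F : Type v) [Field K] [Field F] [Algebra K F] [IsAlgClosed K] [CharZero K]
    (x : F) [FFGen K x] (ℓ : ℕ) [Fact ℓ.Prime] (k : ℕ) (s : Finset K) :
    ∃ (K₁ : IntermediateField ℚ K) (F₁ : IntermediateField ↥K₁ F) (x₁ : ↥F₁)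
      (_ : IsAlgClosed ↥K₁) (_ : FFGen ↥K₁ x₁) (_ : s27b_Ext ↥K₁ ↥F₁ K F),
      (∀ c ∈ s, c ∈ K₁) ∧ (x₁ : F) = x ∧
      Nat.card ↥(Pic0.torsion ↥K₁ ↥F₁ (ℓ ^ k)) = ℓ ^ (2 * genusFF K F * k) := by
  obtain ⟨K₁, F₁, x₁, hs, hac, hft, hx, hgen, hext⟩ := hM K F x s
  haveI := hac
  haveI := hgen
  obtain ⟨K', F', iK', iF', iA', iac', icz', x', igen', n, t, ht, eK, eF, hcomp, hx'⟩ :=
    hU ↥K₁ ↥F₁ x₁ hft
  have hcard' := hS K' F' x' (Fin n) t ht ℓ k
  -- the isomorphism of pairs
  letI : Algebra K' ↥K₁ := eK.toRingHom.toAlgebra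
  letI : Algebra F' ↥F₁ := eF.toRingHom.toAlgebra
  letI : Algebra K' ↥F₁ := ((algebraMap ↥K₁ ↥F₁).comp eK.toRingHom).toAlgebra
  haveI : IsScalarTower K' ↥K₁ ↥F₁ := IsScalarTower.of_algebraMap_eq (fun c => rfl)
  haveI : IsScalarTower K' F' ↥F₁ := IsScalarTower.of_algebraMap_eq (fun c => (hcomp c).symm)
  obtain ⟨hc, hg⟩ := s27b_iso (K₁ := K') (F₁ := F') (K := ↥K₁) (F := ↥F₁) x₁ x'
    eK.surjective eF.surjective (ℓ ^ k)
  refine ⟨K₁, F₁, x₁, hac, hgen, hext, hs, hx, ?_⟩
  rw [hc, hcard', ← hg, s27b_genus_eq x x₁ hext]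

/-- **[BC] for function fields with a coordinate.** -/
theorem s27b_bc_ff
    (hS : ∀ (K F : Type) [Field K] [Field F] [Algebra K F] [IsAlgClosed K] [CharZero K] (x : F)
      [FFGen K x] (ι : Type) [Fintype ι] (t : ι → K), IsTranscendenceBasis ℚ t →
      ∀ (ℓ : ℕ) [Fact ℓ.Prime] (e : ℕ),
      Nat.card ↥(Pic0.torsion K F (ℓ ^ e)) = ℓ ^ (2 * genusFF K F * e))
    (hM : s27b_ModelExists.{u, v}) (hU : s27b_ShrinkExists.{u, v})
    (K : Type u) (F : Type v) [Field K] [Field F] [Algebra K F] [IsAlgClosed K] [CharZero K]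
    (x : F) [FFGen K x] (ℓ : ℕ) [Fact ℓ.Prime] (k : ℕ) :
    Nat.card ↥(Pic0.torsion K F (ℓ ^ k)) = ℓ ^ (2 * genusFF K F * k) := by
  classical
  set N := ℓ ^ k with hN
  set B := ℓ ^ (2 * genusFF K F * k) with hB
  have hB0 : 0 < B := pow_pos (Nat.Prime.pos (Fact.out)) _
  have hs : ∀ P : Place K F, Function.Surjective (algebraMap K P.ResidueField) :=
    fun P => ff_residue_surjective K x P
  -- finitely many torsion classes come from one model
  have claim1 : ∀ T : Finset ↥(Pic0.torsion K F N), T.card ≤ B := by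
    intro T
    choose rep hrep using fun c : ↥(Pic0.torsion K F N) => Pic0.mk_surjective (c : Pic0 K F)
    set S : Finset (Place K F) := T.biUnion (fun c => ((rep c : Divisor K F)).support) with hSdef
    set val : Place K F → K := fun P =>
      if hx : x ∈ P.toValuationSubring then s27b_val P (hs P) ⟨x, hx⟩ else 0 with hval
    set s : Finset K := S.image val with hsdef
    obtain ⟨K₁, F₁, x₁, hac, hgen, hext, hsK, hx, hcard⟩ :=
      s27b_model_count hS hM hU K F x ℓ k s
    haveI := hac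
    haveI := hgen
    have hxx : algebraMap ↥F₁ F x₁ = x := hx
    have hup : ∀ P ∈ S, ∃ P₁, P = s27b_upP x x₁ hext P₁ := by
      intro P hP
      rcases s27b_cases x x₁ hext P with htop | hup
      · exfalso
        refine s27b_restr_ne_top_of_val (K₁ := ↥K₁) hs P x₁ ?_ ?_ htop
        · intro a₁ h
          exact (FFGen.transc (K := ↥K₁) (x := x₁)) (h ▸ isAlgebraic_algebraMap a₁)
        · intro hx'
          have hxP : x ∈ P.toValuationSubring := hxx ▸ hx'
          refine ⟨⟨val P, hsK _ (Finset.mem_image_of_mem val hP)⟩, ?_⟩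
          show s27b_val P (hs P) ⟨algebraMap ↥F₁ F x₁, hx'⟩ = val P
          rw [hval]
          simp only
          rw [dif_pos hxP]
          congr 1
          exact Subtype.ext hxx
      · exact hup
    have hlift : ∀ c ∈ T, ∃ c₁ : ↥(Pic0.torsion ↥K₁ ↥F₁ N), s27b_picT x x₁ hext N c₁ = c := by
      intro c hc
      obtain ⟨c₁, hc₁, hpic⟩ := s27b_pic_lift x x₁ hext (N := N) (rep c)
        (fun P hP => hup P (Finset.mem_biUnion.mpr ⟨c, hc, hP⟩))
        (by rw [hrep c]; exact c.2)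
      refine ⟨⟨c₁, hc₁⟩, Subtype.ext ?_⟩
      show s27b_pic x x₁ hext c₁ = (c : Pic0 K F)
      rw [hpic, hrep c]
    haveI : Finite ↥(Pic0.torsion ↥K₁ ↥F₁ N) :=
      Nat.finite_of_card_ne_zero (by rw [hcard]; exact hB0.ne')
    haveI := Fintype.ofFinite ↥(Pic0.torsion ↥K₁ ↥F₁ N)
    calc T.card ≤ (Finset.univ.image (s27b_picT x x₁ hext N)).card :=
          Finset.card_le_card (fun c hc => by
            obtain ⟨c₁, h⟩ := hlift c hc
            exact Finset.mem_image.mpr ⟨c₁, Finset.mem_univ _, h⟩)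
      _ ≤ (Finset.univ : Finset ↥(Pic0.torsion ↥K₁ ↥F₁ N)).card := Finset.card_image_le
      _ = B := by rw [Finset.card_univ, ← Nat.card_eq_fintype_card, hcard]
  -- the torsion is finite
  haveI : Finite ↥(Pic0.torsion K F N) := by
    by_contra hinf
    rw [not_finite_iff_infinite] at hinf
    obtain ⟨T, hT⟩ := Infinite.exists_subset_card_eq ↥(Pic0.torsion K F N) (B + 1)
    have := claim1 T
    omega
  haveI := Fintype.ofFinite ↥(Pic0.torsion K F N)
  apply le_antisymm
  · rw [Nat.card_eq_fintype_card, ← Finset.card_univ]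
    exact claim1 Finset.univ
  · obtain ⟨K₁, F₁, x₁, hac, hgen, hext, hsK, hx, hcard⟩ :=
      s27b_model_count hS hM hU K F x ℓ k ∅
    haveI := hac
    haveI := hgen
    rw [hB, ← hcard]
    exact Nat.card_le_card_of_injective _ (s27b_picT_injective x x₁ hext N)

end Count

end Fermat.Agent.Lib.S27
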