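/-
Programme Z (S27), brick [BC-UNIV] (helper2, prefix `s27b_`): CHANGE OF UNIVERSE.

A function field `F₁ / K₁` (any universes) whose constant field is algebraic over a finitely
generated field is countable, hence isomorphic to a function field `F' / K'` living in `Type`;
all the hypotheses of `s27_Small0` are transported: `s27b_shrinkExists : s27b_ShrinkExists`.
-/
import Fermat.Agent.Lib.S27.BIface

set_option autoImplicit false
set_option linter.unusedSectionVars false
set_option linter.unusedVariables false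
set_option linter.style.haveILetI false

noncomputable section

namespace Fermat.Agent.Lib.S27

open AlgebraicCurve IntermediateField Fermat.Agent.Lib.FF Polynomial Cardinal

universe u v

/-! ### countability -/

/-- a field algebraic over a countable subfield is countable. -/
theorem s27b_countable_of_isAlgebraic (R : Type u) (A : Type v) [Field R] [Field A] [Algebra R A]
    [Countable R] [Algebra.IsAlgebraic R A] : Countable A := by
  have h := Algebraic.countable R A
  have huniv : {x : A | IsAlgebraic R x} = Set.univ :=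
    Set.eq_univ_of_forall fun x => Algebra.IsAlgebraic.isAlgebraic x
  rw [huniv] at h
  exact Set.countable_univ_iff.mp h

/-- a field generated by a countable set over a countable field is countable. -/
theorem s27b_countable_adjoin (R : Type u) (A : Type v) [Field R] [Field A] [Algebra R A]
    [Countable R] (s : Set A) (hs : s.Countable) : Countable ↥(adjoin R s) := by
  have h := IntermediateField.lift_cardinalMk_adjoin_le R s
  rw [← Cardinal.mk_le_aleph0_iff, ← Cardinal.lift_le_aleph0.{v, u}]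
  refine h.trans ?_
  have h1 : Cardinal.lift.{v} #R ≤ ℵ₀ := by
    rw [Cardinal.lift_le_aleph0]
    exact Cardinal.mk_le_aleph0
  have h2 : Cardinal.lift.{u} #↥s ≤ ℵ₀ := by
    rw [Cardinal.lift_le_aleph0]
    exact Cardinal.mk_le_aleph0_iff.mpr hs.to_subtype
  exact sup_le (sup_le h1 h2) le_rfl

theorem s27b_countable_of_finTr (K : Type u) [Field K] [CharZero K] (h : s27b_FinTr K) :
    Countable K := by
  obtain ⟨s, hs⟩ := h
  haveI : Countable ↥(adjoin ℚ (s : Set K)) :=
    s27b_countable_adjoin ℚ K _ s.finite_toSet.countable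
  exact s27b_countable_of_isAlgebraic ↥(adjoin ℚ (s : Set K)) K

theorem s27b_countable_ff (K : Type u) (F : Type v) [Field K] [Field F] [Algebra K F]
    [Countable K] (x : F) [FFGen K x] : Countable F := by
  haveI : Countable ↥K⟮x⟯ := s27b_countable_adjoin K F _ (Set.countable_singleton x)
  haveI : FiniteDimensional ↥K⟮x⟯ F := FFGen.finite
  haveI : Algebra.IsAlgebraic ↥K⟮x⟯ F := Algebra.IsAlgebraic.of_finite _ _
  exact s27b_countable_of_isAlgebraic ↥K⟮x⟯ F

/-! ### transport along an isomorphism of pairs -/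

section Transport

variable {K' F' K₁ F₁ : Type*} [Field K'] [Field F'] [Field K₁] [Field F₁] [Algebra K' F']
  [Algebra K₁ F₁] (eK : K' ≃+* K₁) (eF : F' ≃+* F₁)
  (hcomp : ∀ c : K', eF (algebraMap K' F' c) = algebraMap K₁ F₁ (eK c))

include hcomp in
theorem s27b_map_aeval (p : K'[X]) (a : F') :
    eF (aeval a p) = aeval (eF a) (p.map (eK : K' →+* K₁)) := by
  have h : (algebraMap K₁ F₁).comp (eK : K' →+* K₁)
      = (eF : F' →+* F₁).comp (algebraMap K' F') := by
    ext c
    exact (hcomp c).symm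
  exact Polynomial.map_aeval_eq_aeval_map h p a

include hcomp in
theorem s27b_transcendental_of_equiv {x' : F'} (hx : Transcendental K₁ (eF x')) :
    Transcendental K' x' := by
  rintro ⟨p, hp0, hp⟩
  apply hx
  refine ⟨p.map (eK : K' →+* K₁), ?_, ?_⟩
  · rwa [Ne, Polynomial.map_eq_zero_iff eK.injective]
  · rw [← s27b_map_aeval eK eF hcomp, hp, map_zero]

include hcomp in
/-- every element of `K₁(x₁)` comes from `K'(x')`. -/
theorem s27b_exists_preimage_adjoin (x' : F') (c : F₁) (hc : c ∈ K₁⟮eF x'⟯) :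
    ∃ c' : F', c' ∈ K'⟮x'⟯ ∧ eF c' = c := by
  obtain ⟨r, q, rfl⟩ := (mem_adjoin_simple_iff K₁ c).mp hc
  refine ⟨aeval x' (r.map (eK.symm : K₁ →+* K')) / aeval x' (q.map (eK.symm : K₁ →+* K')),
    (mem_adjoin_simple_iff K' _).mpr ⟨_, _, rfl⟩, ?_⟩
  have hid : ∀ p : K₁[X], (p.map (eK.symm : K₁ →+* K')).map (eK : K' →+* K₁) = p := by
    intro p
    rw [Polynomial.map_map]
    have : (eK : K' →+* K₁).comp (eK.symm : K₁ →+* K') = RingHom.id K₁ := by
      ext c
      exact eK.apply_symm_apply c
    rw [this, Polynomial.map_id]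
  rw [map_div₀, s27b_map_aeval eK eF hcomp, s27b_map_aeval eK eF hcomp, hid, hid]

include hcomp in
theorem s27b_ffgen_of_equiv (x' : F') [hgen : FFGen K₁ (eF x')] : FFGen K' x' := by
  classical
  refine ⟨s27b_transcendental_of_equiv eK eF hcomp hgen.transc, ?_⟩
  haveI := hgen.finite
  -- a finite spanning family
  set n := Module.finrank ↥K₁⟮eF x'⟯ F₁ with hn
  set b := Module.finBasis ↥K₁⟮eF x'⟯ F₁ with hb
  show Module.Finite ↥K'⟮x'⟯ F'
  refine ⟨⟨Finset.univ.image (fun i : Fin n => eF.symm (b i)), ?_⟩⟩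
  rw [eq_top_iff]
  intro f' _
  -- expand `eF f'` in the basis
  have hrepr : eF f' = ∑ i : Fin n, (b.repr (eF f') i : F₁) * b i := by
    conv_lhs => rw [← b.sum_repr (eF f')]
    refine Finset.sum_congr rfl fun i _ => ?_
    rw [Algebra.smul_def]
    rfl
  choose c' hc'mem hc' using fun i : Fin n =>
    s27b_exists_preimage_adjoin eK eF hcomp x' (b.repr (eF f') i : F₁) (b.repr (eF f') i).2
  have hf' : f' = ∑ i : Fin n, (⟨c' i, hc'mem i⟩ : ↥K'⟮x'⟯) • eF.symm (b i) := by
    apply eF.injective
    rw [hrepr, map_sum]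
    refine Finset.sum_congr rfl fun i _ => ?_
    rw [Algebra.smul_def, map_mul, RingEquiv.apply_symm_apply]
    congr 1
    exact (hc' i).symm
  rw [hf']
  refine Submodule.sum_mem _ fun i _ => Submodule.smul_mem _ _ (Submodule.subset_span ?_)
  exact Finset.mem_coe.mpr (Finset.mem_image_of_mem _ (Finset.mem_univ i))

end Transport

/-! ### the contract -/

/-- algebraic closedness along a ring isomorphism (universe-polymorphic). -/
theorem s27b_isAlgClosed_of_ringEquiv {k : Type u} {k' : Type v} [Field k] [Field k']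
    (e : k ≃+* k') [IsAlgClosed k] : IsAlgClosed k' := by
  apply IsAlgClosed.of_exists_root
  intro p hmp hp
  have hpe : degree (p.map (e.symm : k' →+* k)) ≠ 0 := by
    rw [degree_map]
    exact ne_of_gt (degree_pos_of_irreducible hp)
  rcases IsAlgClosed.exists_root (k := k) (p.map (e.symm : k' →+* k)) hpe with ⟨x, hx⟩
  refine ⟨e x, ?_⟩
  rw [IsRoot, eval_map] at hx
  have h1 : (e : k →+* k') (eval₂ (e.symm : k' →+* k) x p) = (e : k →+* k') 0 :=
    congrArg (e : k →+* k') hx
  rw [map_zero, Polynomial.hom_eval₂] at h1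
  have h2 : (e : k →+* k').comp (e.symm : k' →+* k) = RingHom.id k' := by
    ext c
    exact e.apply_symm_apply c
  rw [h2, eval₂_id] at h1
  exact h1

open scoped IntermediateField.algebraAdjoinAdjoin in
/-- a finite transcendence basis indexed by `Fin n`. -/
theorem s27b_exists_basis_of_finTr (K : Type u) [Field K] [CharZero K] (h : s27b_FinTr K) :
    ∃ (n : ℕ) (t : Fin n → K), IsTranscendenceBasis ℚ t := by
  obtain ⟨s, hs⟩ := h
  haveI : Algebra.IsAlgebraic ↥(Algebra.adjoin ℚ (s : Set K)) K :=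
    (IsFractionRing.comap_isAlgebraic_iff (K := ↥(adjoin ℚ (s : Set K)))).mpr hs
  obtain ⟨t, hts, ht⟩ := exists_isTranscendenceBasis_subset (R := ℚ) (s : Set K)
  haveI : Finite ↥t := (s.finite_toSet.subset hts).to_subtype
  set e : Fin (Nat.card ↥t) ≃ ↥t := (Finite.equivFin ↥t).symm with he
  exact ⟨Nat.card ↥t, _, ht.comp_equiv e⟩

/-- **[BC-UNIV]** -/
theorem s27b_shrinkExists : s27b_ShrinkExists.{u, v} := by
  intro K₁ F₁ _ _ _ _ _ x₁ _ hft
  haveI : Countable K₁ := s27b_countable_of_finTr K₁ hft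
  haveI : Countable F₁ := s27b_countable_ff K₁ F₁ x₁
  let eK : Shrink.{0} K₁ ≃+* K₁ := Shrink.ringEquiv.{0, u} K₁
  let eF : Shrink.{0} F₁ ≃+* F₁ := Shrink.ringEquiv.{0, v} F₁
  letI : Algebra (Shrink.{0} K₁) (Shrink.{0} F₁) :=
    ((eF.symm : F₁ →+* Shrink.{0} F₁).comp
      ((algebraMap K₁ F₁).comp (eK : Shrink.{0} K₁ →+* K₁))).toAlgebra
  have hcomp : ∀ c : Shrink.{0} K₁,
      eF (algebraMap (Shrink.{0} K₁) (Shrink.{0} F₁) c) = algebraMap K₁ F₁ (eK c) :=
    fun c => eF.apply_symm_apply _
  haveI : IsAlgClosed (Shrink.{0} K₁) := s27b_isAlgClosed_of_ringEquiv eK.symm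
  haveI : CharZero (Shrink.{0} K₁) :=
    charZero_of_injective_ringHom (f := (eK.symm : K₁ →+* Shrink.{0} K₁)) eK.symm.injective
  have hx' : eF (eF.symm x₁) = x₁ := eF.apply_symm_apply x₁
  haveI : FFGen K₁ (eF (eF.symm x₁)) := by
    rw [hx']
    infer_instance
  haveI : FFGen (Shrink.{0} K₁) (eF.symm x₁) := s27b_ffgen_of_equiv eK eF hcomp (eF.symm x₁)
  obtain ⟨n, t, ht⟩ := s27b_exists_basis_of_finTr K₁ hft
  have ht' : IsTranscendenceBasis ℚ (eK.symm.toRatAlgEquiv ∘ t) :=
    eK.symm.toRatAlgEquiv.isTranscendenceBasis ht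
  exact ⟨Shrink.{0} K₁, Shrink.{0} F₁, inferInstance, inferInstance, inferInstance,
    inferInstance, inferInstance, eF.symm x₁, inferInstance, n, _, ht', eK, eF, hcomp, hx'⟩

end Fermat.Agent.Lib.S27
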