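/-
Programme Z (S27), brick [BC] (helper2, prefix `s27b_`): THE FINAL FORM.

`s27b_bc` : the frozen statement S27 (arbitrary universes, `IsCurveOver` + `EssFiniteType`) from
  * `hS` : S27 over small constant fields living in `Type` (`s27_Small0` of `RIface.lean`, inlined),
  * `hM : s27b_ModelExists` ([BC-MODEL]).
-/
import Fermat.Agent.Lib.S27.BTop
import Fermat.Agent.Lib.S27.BUniv
import Fermat.Agent.Lib.S27.BGlue

set_option autoImplicit false

noncomputable section

namespace Fermat.Agent.Lib.S27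

open AlgebraicCurve Fermat.Agent.Lib.FF

universe u v

/-- **[BC]**: S27 from S27 over small constant fields. -/
theorem s27b_bc
    (hS : ∀ (K F : Type) [Field K] [Field F] [Algebra K F] [IsAlgClosed K] [CharZero K] (x : F)
      [FFGen K x] (ι : Type) [Fintype ι] (t : ι → K), IsTranscendenceBasis ℚ t →
      ∀ (ℓ : ℕ) [Fact ℓ.Prime] (e : ℕ),
      Nat.card ↥(Pic0.torsion K F (ℓ ^ e)) = ℓ ^ (2 * genusFF K F * e))
    (hM : s27b_ModelExists.{u, v})
    (K : Type u) (F : Type v) [Field K] [Field F] [Algebra K F] [IsAlgClosed K] [CharZero K]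
    [IsCurveOver K F] [Algebra.EssFiniteType K F] (ℓ : ℕ) [Fact ℓ.Prime] (k : ℕ) :
    Nat.card ↥(Pic0.torsion K F (ℓ ^ k)) = ℓ ^ (2 * genusFF K F * k) := by
  obtain ⟨x, hx⟩ := s27b_exists_gen (K := K) (F := F)
  exact s27b_bc_ff hS hM s27b_shrinkExists K F x ℓ k

end Fermat.Agent.Lib.S27
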