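/-
Programme Z (S27), reduction half, brick [GR-C4] (helper2, prefix `s27b_`), part (a):
THE COORDINATE OF THE SPECIAL FIBRE.  Under `s27r_WProps W`, `s27r_SCUnit W A` the special fibre
`R̄ = s27r_Rbar W A` is free over `k[X]` (through `x̄`) on the `w̄ i`, hence `x̄` is transcendental
over the residue field `k`, `Fb = Frac R̄` is a function field in one variable over `k` with
coordinate `x̄`, and `[Fb : k(x̄)] = n`.
-/
import Fermat.Agent.Lib.S27.RDomain

set_option autoImplicit false
set_option linter.unusedSectionVars false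
set_option linter.unusedVariables false
set_option linter.style.haveILetI false
set_option warn.classDefReducibility false

noncomputable section

namespace Fermat.Agent.Lib.S27

open AlgebraicCurve Fermat.Agent.Lib.FF Polynomial IsLocalRing IntermediateField

variable {K F : Type} [Field K] [Field F] [Algebra K F] {x : F}
variable (W : s27r_WD K F x) (A : ValuationSubring K)

/-- the coordinate of the special fibre, in its function field. -/
def s27b_xF : s27r_Fb W A := algebraMap (s27r_Rbar W A) (s27r_Fb W A) (s27r_xb W A)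

/-- the basis of the special fibre, in its function field. -/
def s27b_wF (i : Fin W.n) : s27r_Fb W A :=
  algebraMap (s27r_Rbar W A) (s27r_Fb W A) (s27r_wb W A i)

theorem s27b_wb_zero : s27r_wb W A ⟨0, W.hn⟩ = 1 := by
  unfold s27r_wb
  have : (⟨W.w ⟨0, W.hn⟩, s27r_w_mem W A ⟨0, W.hn⟩⟩ : ↥(s27r_RA W A)) = 1 :=
    Subtype.ext W.w_zero
  rw [this, map_one]

theorem s27b_Phib_single (i : Fin W.n) (p : (ResidueField ↥A)[X]) :
    s27r_Phib W A (Pi.single i p) = aeval (s27r_xb W A) p * s27r_wb W A i := by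
  classical
  unfold s27r_Phib
  rw [Finset.sum_eq_single i]
  · rw [Pi.single_eq_same]
  · intro j _ hj
    rw [Pi.single_eq_of_ne hj, map_zero, zero_mul]
  · intro h
    exact absurd (Finset.mem_univ _) h

theorem s27b_Phib_single_zero (p : (ResidueField ↥A)[X]) :
    s27r_Phib W A (Pi.single ⟨0, W.hn⟩ p) = aeval (s27r_xb W A) p := by
  rw [s27b_Phib_single, s27b_wb_zero, mul_one]

theorem s27b_Phib_smul (p : (ResidueField ↥A)[X]) (b : Fin W.n → (ResidueField ↥A)[X]) :
    s27r_Phib W A (p • b) = aeval (s27r_xb W A) p * s27r_Phib W A b := by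
  unfold s27r_Phib
  rw [Finset.mul_sum]
  refine Finset.sum_congr rfl fun i _ => ?_
  rw [Pi.smul_apply, smul_eq_mul, map_mul, mul_assoc]

theorem s27b_aeval_xF (p : (ResidueField ↥A)[X]) :
    aeval (s27b_xF W A) p = algebraMap (s27r_Rbar W A) (s27r_Fb W A) (aeval (s27r_xb W A) p) :=
  Polynomial.aeval_algebraMap_apply _ _ _

variable {W A}

theorem s27b_aeval_xb_injective (hW : s27r_WProps W) (hsc : s27r_SCUnit W A) :
    Function.Injective (aeval (R := ResidueField ↥A) (s27r_xb W A)) := by
  classical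
  rw [injective_iff_map_eq_zero]
  intro p hp
  rw [← s27b_Phib_single_zero, s27r_Phib_eq_zero_iff hW hsc] at hp
  have := congrFun hp ⟨0, W.hn⟩
  rwa [Pi.single_eq_same] at this

theorem s27b_aeval_xF_injective (hW : s27r_WProps W) (hsc : s27r_SCUnit W A)
    [IsDomain (s27r_Rbar W A)] :
    Function.Injective (aeval (R := ResidueField ↥A) (s27b_xF W A)) := by
  intro p q hpq
  rw [s27b_aeval_xF, s27b_aeval_xF] at hpq
  exact s27b_aeval_xb_injective hW hsc (IsFractionRing.injective _ _ hpq)

/-- **(a1)** the coordinate of the special fibre is transcendental over the residue field. -/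
theorem s27b_transcendental_xF (hW : s27r_WProps W) (hsc : s27r_SCUnit W A)
    [IsDomain (s27r_Rbar W A)] : Transcendental (ResidueField ↥A) (s27b_xF W A) :=
  transcendental_iff_injective.mpr (s27b_aeval_xF_injective hW hsc)

/-! ### The degree `[Fb : k(x̄)] = n` -/

section finrank

variable (W A)

/-- `R̄` as an algebra over `k[X]` through `x̄` (NOT an instance). -/
def s27b_algPolyRbar : Algebra (ResidueField ↥A)[X] (s27r_Rbar W A) :=
  (aeval (s27r_xb W A)).toRingHom.toAlgebra

/-- `k(x̄)` as an algebra over `k[X]` (NOT an instance). -/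
def s27b_algPolyAdj [IsDomain (s27r_Rbar W A)] :
    Algebra (ResidueField ↥A)[X] ↥(ResidueField ↥A)⟮s27b_xF W A⟯ :=
  (aeval (AdjoinSimple.gen (ResidueField ↥A) (s27b_xF W A))).toRingHom.toAlgebra

variable {W A}

/-- **(a3)** the degree of the special fibre over its coordinate. -/
theorem s27b_finrank_xF (hW : s27r_WProps W) (hsc : s27r_SCUnit W A)
    [IsDomain (s27r_Rbar W A)] :
    Module.finrank ↥(ResidueField ↥A)⟮s27b_xF W A⟯ (s27r_Fb W A) = W.n := by
  classical
  letI i1 : Algebra (ResidueField ↥A)[X] (s27r_Rbar W A) := s27b_algPolyRbar W A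
  letI i3 : Algebra (ResidueField ↥A)[X] ↥(ResidueField ↥A)⟮s27b_xF W A⟯ := s27b_algPolyAdj W A
  have hmap : ∀ p : (ResidueField ↥A)[X],
      algebraMap (ResidueField ↥A)[X] (s27r_Fb W A) p = aeval (s27b_xF W A) p := by
    intro p
    rw [IsScalarTower.algebraMap_apply (ResidueField ↥A)[X] (s27r_Rbar W A) (s27r_Fb W A),
      s27b_aeval_xF]
    rfl
  haveI t2 : IsScalarTower (ResidueField ↥A)[X] ↥(ResidueField ↥A)⟮s27b_xF W A⟯ (s27r_Fb W A) :=
    IsScalarTower.of_algebraMap_eq (fun p => by
      rw [hmap]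
      exact (AdjoinSimple.coe_aeval_gen_apply (F := ResidueField ↥A) (α := s27b_xF W A) p).symm)
  have hinj : Function.Injective
      (algebraMap (ResidueField ↥A)[X] ↥(ResidueField ↥A)⟮s27b_xF W A⟯) := by
    intro p q h
    have h1 := congrArg Subtype.val h
    change ((aeval (AdjoinSimple.gen (ResidueField ↥A) (s27b_xF W A)) p :
        ↥(ResidueField ↥A)⟮s27b_xF W A⟯) : s27r_Fb W A) =
      ((aeval (AdjoinSimple.gen (ResidueField ↥A) (s27b_xF W A)) q :
        ↥(ResidueField ↥A)⟮s27b_xF W A⟯) : s27r_Fb W A) at h1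
    rw [AdjoinSimple.coe_aeval_gen_apply, AdjoinSimple.coe_aeval_gen_apply] at h1
    exact s27b_aeval_xF_injective hW hsc h1
  haveI : FaithfulSMul (ResidueField ↥A)[X] ↥(ResidueField ↥A)⟮s27b_xF W A⟯ :=
    (faithfulSMul_iff_algebraMap_injective _ _).mpr hinj
  haveI : IsFractionRing (ResidueField ↥A)[X] ↥(ResidueField ↥A)⟮s27b_xF W A⟯ := by
    refine IsFractionRing.of_field _ _ (fun z => ?_)
    obtain ⟨r, s, hrs⟩ := (mem_adjoin_simple_iff (ResidueField ↥A) (z : s27r_Fb W A)).mp z.2
    refine ⟨r, s, Subtype.ext ?_⟩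
    rw [hrs]
    change _ = ((_ / _ : ↥(ResidueField ↥A)⟮s27b_xF W A⟯) : s27r_Fb W A)
    rw [IntermediateField.coe_div]
    change _ = ((aeval (AdjoinSimple.gen (ResidueField ↥A) (s27b_xF W A)) r :
        ↥(ResidueField ↥A)⟮s27b_xF W A⟯) : s27r_Fb W A) /
      ((aeval (AdjoinSimple.gen (ResidueField ↥A) (s27b_xF W A)) s :
        ↥(ResidueField ↥A)⟮s27b_xF W A⟯) : s27r_Fb W A)
    rw [AdjoinSimple.coe_aeval_gen_apply, AdjoinSimple.coe_aeval_gen_apply]
  rw [IsFractionRing.finrank_eq (ResidueField ↥A)[X] ↥(ResidueField ↥A)⟮s27b_xF W A⟯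
    (s27r_Rbar W A) (s27r_Fb W A)]
  let e : (Fin W.n → (ResidueField ↥A)[X]) ≃ₗ[(ResidueField ↥A)[X]] s27r_Rbar W A :=
    LinearEquiv.ofBijective
      { toFun := s27r_Phib W A
        map_add' := s27r_Phib_add W A
        map_smul' := fun p b => by
          rw [s27b_Phib_smul]
          rfl }
      ⟨s27r_Phib_injective hW hsc, s27r_Phib_surjective hsc⟩
  rw [← e.finrank_eq, Module.finrank_fin_fun]

/-- **(a2)** the special fibre is a function field in one variable with coordinate `x̄`. -/
theorem s27b_ffGen_xF (hW : s27r_WProps W) (hsc : s27r_SCUnit W A)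
    [IsDomain (s27r_Rbar W A)] : FFGen (ResidueField ↥A) (s27b_xF W A) where
  transc := s27b_transcendental_xF hW hsc
  finite := Module.finite_of_finrank_pos (by rw [s27b_finrank_xF hW hsc]; exact W.hn)

end finrank

end Fermat.Agent.Lib.S27
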