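/-
Programme Z (S27), reduction half, brick [GR-C4] (helper2, prefix `s27b_`), part (b):
SEPARABILITY OF THE SPECIAL FIBRE.  The residue characteristic `p` is larger than the degree
`n = [Fb : k(x̄)]`, hence `Fb / k(x̄)` is separable (an inseparable irreducible polynomial is a
polynomial in `X ^ p`) and `x̄` is not a `p`-th power in `Fb` (`X ^ p - x̄` is irreducible over
`k(x̄)`).  The two general lemmas are stated for arbitrary fields.
-/
import Fermat.Agent.Lib.S27.BGrA

set_option autoImplicit false
set_option linter.unusedSectionVars false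
set_option linter.unusedVariables false
set_option linter.style.haveILetI false

noncomputable section

namespace Fermat.Agent.Lib.S27

open AlgebraicCurve Fermat.Agent.Lib.FF Polynomial IsLocalRing IntermediateField

/-- a finite extension of degree smaller than the characteristic is separable. -/
theorem s27b_isSeparable_of_finrank_lt {L E : Type*} [Field L] [Field E] [Algebra L E]
    [FiniteDimensional L E] (p : ℕ) [Fact p.Prime] [CharP L p] (h : Module.finrank L E < p) :
    Algebra.IsSeparable L E := by
  refine ⟨fun y => ?_⟩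
  have hint : IsIntegral L y := IsIntegral.of_finite L y
  have hirr : Irreducible (minpoly L y) := minpoly.irreducible hint
  rcases Polynomial.separable_or p hirr with hs | ⟨-, g, hg, hgf⟩
  · exact hs
  · exfalso
    have h1 : (minpoly L y).natDegree = g.natDegree * p := by
      rw [← hgf, Polynomial.natDegree_expand]
    have h2 : 0 < g.natDegree := hg.natDegree_pos
    have h3 : (minpoly L y).natDegree ≤ Module.finrank L E := minpoly.natDegree_le y
    have h4 : p ≤ g.natDegree * p := Nat.le_mul_of_pos_left p h2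
    omega

/-- a transcendental element is not a `p`-th power in the field it generates. -/
theorem s27b_gen_not_pow {k E : Type*} [Field k] [Field E] [Algebra k E] (x : E)
    (hx : Transcendental k x) (p : ℕ) (hp : 2 ≤ p) :
    ∀ b : ↥k⟮x⟯, b ^ p ≠ AdjoinSimple.gen k x := by
  intro b hb
  have hb' : (b : E) ^ p = x := by
    have := congrArg Subtype.val hb
    simpa using this
  have hinj : Function.Injective (aeval (R := k) x) := transcendental_iff_injective.mp hx
  have hx0 : x ≠ 0 := by
    rintro rfl
    exact hx ⟨X, X_ne_zero, by simp⟩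
  obtain ⟨r, s, hrs⟩ := (mem_adjoin_simple_iff k (b : E)).mp b.2
  have hs0 : aeval x s ≠ 0 := by
    intro h0
    rw [h0, div_zero] at hrs
    rw [hrs, zero_pow (by omega)] at hb'
    exact hx0 hb'.symm
  have hs : s ≠ 0 := by
    rintro rfl
    exact hs0 (map_zero _)
  have h1 : aeval x (r ^ p) = aeval x (X * s ^ p) := by
    rw [map_pow, map_mul, map_pow, aeval_X]
    have h0 : (aeval x r / aeval x s) ^ p = x := by
      rw [← hrs]
      exact hb'
    rw [div_pow] at h0
    exact (div_eq_iff (pow_ne_zero _ hs0)).mp h0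
  have h2 : r ^ p = X * s ^ p := hinj h1
  have hr : r ≠ 0 := by
    rintro rfl
    rw [zero_pow (by omega)] at h2
    exact (mul_ne_zero X_ne_zero (pow_ne_zero _ hs)) h2.symm
  have h3 := congrArg Polynomial.natDegree h2
  rw [natDegree_pow, natDegree_mul X_ne_zero (pow_ne_zero _ hs), natDegree_X, natDegree_pow] at h3
  have h4 : p ∣ 1 := by
    have : p * r.natDegree - p * s.natDegree = 1 := by omega
    rw [← this, ← Nat.mul_sub]
    exact dvd_mul_right _ _
  have := Nat.le_of_dvd one_pos h4
  omega

/-- a transcendental coordinate of degree smaller than the prime `p` is not a `p`-th power. -/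
theorem s27b_not_pow_of_finrank_lt {k E : Type*} [Field k] [Field E] [Algebra k E] (x : E)
    (hx : Transcendental k x) [FiniteDimensional ↥k⟮x⟯ E] (p : ℕ) [hp : Fact p.Prime]
    (h : Module.finrank ↥k⟮x⟯ E < p) : ∀ y : E, y ^ p ≠ x := by
  intro y hy
  have hirr : Irreducible (X ^ p - C (AdjoinSimple.gen k x) : (↥k⟮x⟯)[X]) :=
    X_pow_sub_C_irreducible_of_prime hp.out (s27b_gen_not_pow x hx p hp.out.two_le)
  have hmonic : (X ^ p - C (AdjoinSimple.gen k x) : (↥k⟮x⟯)[X]).Monic :=
    monic_X_pow_sub_C _ hp.out.ne_zero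
  have hroot : aeval y (X ^ p - C (AdjoinSimple.gen k x) : (↥k⟮x⟯)[X]) = 0 := by
    rw [map_sub, map_pow, aeval_X, aeval_C, hy]
    exact sub_self _
  have hmin := minpoly.eq_of_irreducible_of_monic hirr hroot hmonic
  have h3 : (minpoly ↥k⟮x⟯ y).natDegree ≤ Module.finrank ↥k⟮x⟯ E := minpoly.natDegree_le y
  rw [← hmin, natDegree_X_pow_sub_C] at h3
  omega

variable {K F : Type} [Field K] [Field F] [Algebra K F] {x : F}
variable {W : s27r_WD K F x} {A : ValuationSubring K}

/-- **(b1)** the special fibre is separable over its coordinate as soon as `n < p`. -/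
theorem s27b_isSeparable_xF (hW : s27r_WProps W) (hsc : s27r_SCUnit W A)
    [IsDomain (s27r_Rbar W A)] (p : ℕ) [Fact p.Prime] [CharP (ResidueField ↥A) p]
    (hp : W.n < p) :
    Algebra.IsSeparable ↥(ResidueField ↥A)⟮s27b_xF W A⟯ (s27r_Fb W A) := by
  haveI : FiniteDimensional ↥(ResidueField ↥A)⟮s27b_xF W A⟯ (s27r_Fb W A) :=
    (s27b_ffGen_xF hW hsc).finite
  haveI : CharP ↥(ResidueField ↥A)⟮s27b_xF W A⟯ p :=
    charP_of_injective_algebraMap
      (algebraMap (ResidueField ↥A) ↥(ResidueField ↥A)⟮s27b_xF W A⟯).injective p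
  exact s27b_isSeparable_of_finrank_lt p (by rw [s27b_finrank_xF hW hsc]; exact hp)

/-- **(b2)** the coordinate of the special fibre is not a `p`-th power as soon as `n < p`. -/
theorem s27b_not_pow_xF (hW : s27r_WProps W) (hsc : s27r_SCUnit W A)
    [IsDomain (s27r_Rbar W A)] (p : ℕ) [Fact p.Prime] (hp : W.n < p) :
    ∀ y : s27r_Fb W A, y ^ p ≠ s27b_xF W A := by
  haveI : FiniteDimensional ↥(ResidueField ↥A)⟮s27b_xF W A⟯ (s27r_Fb W A) :=
    (s27b_ffGen_xF hW hsc).finite
  exact s27b_not_pow_of_finrank_lt (s27b_xF W A) (s27b_transcendental_xF hW hsc) p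
    (by rw [s27b_finrank_xF hW hsc]; exact hp)

end Fermat.Agent.Lib.S27
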