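/-
Programme Z (S27), reduction half, brick [GR-C4] (helper2, prefix `s27b_`), part (c):
THE SPECIAL FIBRE AS A CURVE over an algebraically closed residue field of characteristic `p > n`:
principal divisors have degree zero, all places have degree one, Riemann's theorem (with the genus
`genusFF k Fb` of the special fibre itself).
-/
import Fermat.Agent.Lib.S27.BGrB
import Fermat.Agent.Lib.S44.RSepDiv
import Fermat.Agent.Lib.S37.DegOne
import Fermat.Agent.Lib.S19.EGenus

set_option autoImplicit false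
set_option linter.unusedSectionVars false
set_option linter.unusedVariables false
set_option linter.style.haveILetI false

noncomputable section

namespace Fermat.Agent.Lib.S27

open AlgebraicCurve Fermat.Agent.Lib.FF Fermat.Agent.Lib.S19 Fermat.Agent.Lib.S37
  Fermat.Agent.Lib.S44 Polynomial IsLocalRing IntermediateField

variable {K F : Type} [Field K] [Field F] [Algebra K F] {x : F}
variable {W : s27r_WD K F x} {A : ValuationSubring K}

/-- **(c1)** principal divisors of the special fibre. -/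
theorem s27b_hasPrincipalDivisors_Fb (hW : s27r_WProps W) (hsc : s27r_SCUnit W A)
    [IsDomain (s27r_Rbar W A)] [IsAlgClosed (ResidueField ↥A)] (p : ℕ) [Fact p.Prime]
    [CharP (ResidueField ↥A) p] (hp : W.n < p) :
    HasPrincipalDivisors (ResidueField ↥A) (s27r_Fb W A) := by
  haveI : FFGen (ResidueField ↥A) (s27b_xF W A) := s27b_ffGen_xF hW hsc
  exact s44rq_hasPrincipalDivisors (s27b_xF W A) p (s27b_not_pow_xF hW hsc p hp)

/-- **(c2)** every place of the special fibre has degree one. -/
theorem s27b_deg_eq_one_Fb (hW : s27r_WProps W) (hsc : s27r_SCUnit W A)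
    [IsDomain (s27r_Rbar W A)] [IsAlgClosed (ResidueField ↥A)]
    (Q : Place (ResidueField ↥A) (s27r_Fb W A)) : Q.deg = 1 := by
  haveI : FFGen (ResidueField ↥A) (s27b_xF W A) := s27b_ffGen_xF hW hsc
  exact s37dg_deg_eq_one (s27b_xF W A) Q

/-- **(c3)** Riemann's theorem for the special fibre (with its own genus). -/
theorem s27b_riemann_Fb (hW : s27r_WProps W) (hsc : s27r_SCUnit W A)
    [IsDomain (s27r_Rbar W A)] [IsAlgClosed (ResidueField ↥A)] (p : ℕ) [Fact p.Prime]
    [CharP (ResidueField ↥A) p] (hp : W.n < p) :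
    s19_Riemann (ResidueField ↥A) (s27r_Fb W A)
      (genusFF (ResidueField ↥A) (s27r_Fb W A)) := by
  haveI : FFGen (ResidueField ↥A) (s27b_xF W A) := s27b_ffGen_xF hW hsc
  haveI : Algebra.IsSeparable ↥(ResidueField ↥A)⟮s27b_xF W A⟯ (s27r_Fb W A) :=
    s27b_isSeparable_xF hW hsc p hp
  haveI : HasPrincipalDivisors (ResidueField ↥A) (s27r_Fb W A) :=
    s27b_hasPrincipalDivisors_Fb hW hsc p hp
  exact s19e_riemann_of_sep (s27b_xF W A)

/-- the residue characteristic: `p ∈ 𝔪_A` makes the residue field of characteristic `p`. -/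
theorem s27b_charP_residue (A : ValuationSubring K) (p : ℕ) [hp : Fact p.Prime]
    (h : ((p : ℕ) : ↥A) ∈ maximalIdeal ↥A) : CharP (ResidueField ↥A) p := by
  rw [CharP.charP_iff_prime_eq_zero hp.out]
  have h1 : residue ↥A ((p : ℕ) : ↥A) = 0 := (residue_eq_zero_iff _).mpr h
  rwa [map_natCast] at h1

/-- the residue characteristic, in terms of an absolute value with unit ball `A`. -/
theorem s27b_charP_residue_abv (A : ValuationSubring K) (abv : AbsoluteValue K ℝ)
    (hA : ∀ a : K, a ∈ A ↔ abv a ≤ 1) (p : ℕ) [hp : Fact p.Prime] (h : abv (p : K) < 1) :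
    CharP (ResidueField ↥A) p := by
  refine s27b_charP_residue A p ?_
  rw [mem_maximalIdeal, mem_nonunits_iff]
  intro hu
  have h1 : ((((p : ℕ) : ↥A) : K))⁻¹ ∈ A := by
    obtain ⟨u, hu'⟩ := hu
    have h2 : (((u⁻¹ : (↥A)ˣ) : ↥A) : K) = ((((p : ℕ) : ↥A) : K))⁻¹ := by
      have h3 : (((u : ↥A) : K)) * (((u⁻¹ : (↥A)ˣ) : ↥A) : K) = 1 := by
        rw [← Subring.coe_mul, Units.mul_inv, Subring.coe_one]
      rw [← hu']
      exact eq_inv_of_mul_eq_one_right h3
    rw [← h2]
    exact ((u⁻¹ : (↥A)ˣ) : ↥A).2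
  have h4 : (((p : ℕ) : ↥A) : K) = (p : K) := by simp
  rw [h4, hA, map_inv₀] at h1
  have h5 : 0 < abv (p : K) := by
    rw [AbsoluteValue.pos_iff]
    intro h0
    have h7 : ((p : ℕ) : ↥A) = 0 := Subtype.ext (by rw [h4, h0]; rfl)
    rw [h7] at hu
    exact not_isUnit_zero hu
  have h6 : 1 < (abv (p : K))⁻¹ := (one_lt_inv₀ h5).mpr h
  exact absurd h1 (not_le.mpr h6)

end Fermat.Agent.Lib.S27
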