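/-
Programme Z (S27), arithmetic half, brick [ZA] part 1 (helper1, prefix `s27d_`): Mathlib-only
algebra.
 * `s27d_per Φ` : the periodic points of a ring endomorphism of a field form a subfield;
 * `s27d_extend` : a ring automorphism `τ` of a field `L` all of whose orbits are finite has a
   power which extends to an automorphism of a finite separable extension `E / L`, again with all
   orbits finite;
 * `s27d_ratAut σ` : the automorphism of `RatFunc k` acting by `σ` on the coefficients; all its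
   orbits are finite when those of `σ` are.
-/
import Mathlib

set_option autoImplicit false

noncomputable section

namespace Fermat.Agent.Lib.S27

open Polynomial

section Per

variable {E : Type*} [Field E]

theorem s27d_pow_fix {Φ : E →+* E} {n : ℕ} {y : E} (h : (Φ ^ n) y = y) (m : ℕ) :
    (Φ ^ (n * m)) y = y := by
  rw [pow_mul, RingHom.coe_pow]
  exact Function.iterate_fixed h m

theorem s27d_pow_fix' {Φ : E →+* E} {n : ℕ} {y : E} (h : (Φ ^ n) y = y) (m : ℕ) :
    (Φ ^ (m * n)) y = y := by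
  rw [mul_comm]
  exact s27d_pow_fix h m

/-- the periodic points of a ring endomorphism of a field. -/
def s27d_per (Φ : E →+* E) : Subfield E where
  carrier := {y | ∃ n : ℕ, 0 < n ∧ (Φ ^ n) y = y}
  mul_mem' := by
    rintro a b ⟨n, hn, ha⟩ ⟨m, hm, hb⟩
    exact ⟨n * m, Nat.mul_pos hn hm, by rw [map_mul, s27d_pow_fix ha, s27d_pow_fix' hb]⟩
  one_mem' := ⟨1, one_pos, map_one _⟩
  add_mem' := by
    rintro a b ⟨n, hn, ha⟩ ⟨m, hm, hb⟩
    exact ⟨n * m, Nat.mul_pos hn hm, by rw [map_add, s27d_pow_fix ha, s27d_pow_fix' hb]⟩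
  zero_mem' := ⟨1, one_pos, map_zero _⟩
  neg_mem' := by
    rintro a ⟨n, hn, ha⟩
    exact ⟨n, hn, by rw [map_neg, ha]⟩
  inv_mem' := by
    rintro a ⟨n, hn, ha⟩
    exact ⟨n, hn, by rw [map_inv₀, ha]⟩

theorem s27d_mem_per {Φ : E →+* E} {y : E} :
    y ∈ s27d_per Φ ↔ ∃ n : ℕ, 0 < n ∧ (Φ ^ n) y = y := Iff.rfl

end Per

section Comm

variable {A B : Type*} [Semiring A] [Semiring B]

/-- if `Φ ∘ i = i ∘ τ` then `Φⁿ ∘ i = i ∘ τⁿ`. -/
theorem s27d_pow_comm {Φ : B →+* B} {τ : A →+* A} {i : A →+* B}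
    (h : ∀ a : A, Φ (i a) = i (τ a)) (n : ℕ) (a : A) : (Φ ^ n) (i a) = i ((τ ^ n) a) := by
  induction n generalizing a with
  | zero => simp
  | succ n ih =>
    rw [pow_succ, pow_succ, RingHom.mul_def, RingHom.mul_def, RingHom.comp_apply,
      RingHom.comp_apply, h, ih]

end Comm

section Ext

variable {L : Type*} [Field L]

/-- a common period for finitely many periodic elements. -/
theorem s27d_common_period (τ : L →+* L) (hτ : ∀ l : L, ∃ n : ℕ, 0 < n ∧ (τ ^ n) l = l)
    (s : Finset L) : ∃ n : ℕ, 0 < n ∧ ∀ l ∈ s, (τ ^ n) l = l := by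
  classical
  induction s using Finset.induction_on with
  | empty => exact ⟨1, one_pos, fun l hl => absurd hl (Finset.notMem_empty l)⟩
  | insert a s _ ih =>
    obtain ⟨n, hn, hs⟩ := ih
    obtain ⟨m, hm, ha⟩ := hτ a
    refine ⟨m * n, Nat.mul_pos hm hn, fun l hl => ?_⟩
    rcases Finset.mem_insert.mp hl with rfl | hl
    · exact s27d_pow_fix ha n
    · exact s27d_pow_fix' (hs l hl) m

/-- a polynomial with periodic coefficients is fixed by a power. -/
theorem s27d_map_fix (τ : L →+* L) (hτ : ∀ l : L, ∃ n : ℕ, 0 < n ∧ (τ ^ n) l = l)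
    (m : L[X]) : ∃ n : ℕ, 0 < n ∧ m.map (τ ^ n) = m := by
  obtain ⟨n, hn, h⟩ := s27d_common_period τ hτ m.coeffs
  refine ⟨n, hn, Polynomial.ext fun i => ?_⟩
  rw [coeff_map]
  by_cases h0 : m.coeff i = 0
  · rw [h0, map_zero]
  · exact h _ (coeff_mem_coeffs h0)

variable {E : Type*} [Field E] [Algebra L E] [FiniteDimensional L E] [Algebra.IsSeparable L E]

/-- **extension of a power of an automorphism with finite orbits to a finite separable
extension.** -/
theorem s27d_extend (τ : L →+* L) (hτ : ∀ l : L, ∃ n : ℕ, 0 < n ∧ (τ ^ n) l = l) :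
    ∃ (n₀ : ℕ) (Φ : E ≃+* E), 0 < n₀ ∧
      (∀ l : L, Φ (algebraMap L E l) = algebraMap L E ((τ ^ n₀) l)) ∧
      ∀ y : E, ∃ n : ℕ, 0 < n ∧ (⇑Φ)^[n] y = y := by
  classical
  set pb := Field.powerBasisOfFiniteOfSeparable L E with hpb
  set m := minpoly L pb.gen with hm
  obtain ⟨n₀, hn₀, hfix⟩ := s27d_map_fix τ hτ m
  set τ₀ : L →+* L := τ ^ n₀ with hτ₀
  have h₁ : aeval (AdjoinRoot.root m) (minpoly L pb.gen) = 0 := by
    rw [AdjoinRoot.aeval_eq, ← hm, AdjoinRoot.mk_self]
  have h₂ : aeval pb.gen m = 0 := minpoly.aeval L pb.gen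
  set e : AdjoinRoot m ≃ₐ[L] E := AdjoinRoot.equiv' m pb h₁ h₂ with he
  have hlift : m.eval₂ ((algebraMap L E).comp τ₀) pb.gen = 0 := by
    rw [← Polynomial.eval₂_map, hfix]
    exact h₂
  set Φ₀ : E →+* E :=
    (AdjoinRoot.lift ((algebraMap L E).comp τ₀) pb.gen hlift).comp
      (e.symm : E →+* AdjoinRoot m) with hΦ₀
  have hΦL : ∀ l : L, Φ₀ (algebraMap L E l) = algebraMap L E (τ₀ l) := by
    intro l
    rw [hΦ₀, RingHom.comp_apply]
    have : (e.symm : E →+* AdjoinRoot m) (algebraMap L E l) = AdjoinRoot.of m l := by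
      show e.symm (algebraMap L E l) = _
      rw [e.symm.commutes, AdjoinRoot.algebraMap_eq]
    rw [this, AdjoinRoot.lift_of, RingHom.comp_apply]
  have hΦg : Φ₀ pb.gen = pb.gen := by
    rw [hΦ₀, RingHom.comp_apply]
    have : (e.symm : E →+* AdjoinRoot m) pb.gen = AdjoinRoot.root m := by
      show pb.lift (AdjoinRoot.root m) h₁ pb.gen = _
      exact pb.lift_gen _ _
    rw [this, AdjoinRoot.lift_root]
  have hperL : ∀ l : L, algebraMap L E l ∈ s27d_per Φ₀ := by
    intro l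
    obtain ⟨n, hn, hl⟩ := hτ l
    refine ⟨n, hn, ?_⟩
    rw [s27d_pow_comm (i := algebraMap L E) hΦL, hτ₀, ← pow_mul, s27d_pow_fix' hl]
  have hperg : pb.gen ∈ s27d_per Φ₀ := ⟨1, one_pos, by rw [pow_one]; exact hΦg⟩
  have hper : ∀ y : E, y ∈ s27d_per Φ₀ := by
    intro y
    have hy : y ∈ Algebra.adjoin L ({pb.gen} : Set E) := by
      rw [pb.adjoin_gen_eq_top]; exact Algebra.mem_top
    induction hy using Algebra.adjoin_induction with
    | mem x hx => rw [Set.mem_singleton_iff.mp hx]; exact hperg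
    | algebraMap r => exact hperL r
    | add x y _ _ hx hy => exact add_mem hx hy
    | mul x y _ _ hx hy => exact mul_mem hx hy
  have hinj : Function.Injective Φ₀ := Φ₀.injective
  have hsurj : Function.Surjective Φ₀ := by
    intro y
    obtain ⟨n, hn, hy⟩ := hper y
    obtain ⟨j, rfl⟩ := Nat.exists_eq_succ_of_ne_zero hn.ne'
    refine ⟨(Φ₀ ^ j) y, ?_⟩
    rw [pow_succ', RingHom.mul_def, RingHom.comp_apply] at hy
    exact hy
  refine ⟨n₀, RingEquiv.ofBijective Φ₀ ⟨hinj, hsurj⟩, hn₀, fun l => hΦL l, fun y => ?_⟩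
  obtain ⟨n, hn, hy⟩ := hper y
  refine ⟨n, hn, ?_⟩
  rw [RingHom.coe_pow] at hy
  exact hy

end Ext

section Rat

variable {k : Type*} [Field k]

/-- the automorphism of `k(X)` acting by `σ` on the coefficients. -/
def s27d_ratAut (σ : k ≃+* k) : RatFunc k ≃+* RatFunc k :=
  IsFractionRing.ringEquivOfRingEquiv (K := RatFunc k) (L := RatFunc k) (Polynomial.mapEquiv σ)

theorem s27d_ratAut_algebraMap (σ : k ≃+* k) (q : k[X]) :
    s27d_ratAut σ (algebraMap k[X] (RatFunc k) q) = algebraMap k[X] (RatFunc k) (q.map (σ : k →+* k)) := by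
  unfold s27d_ratAut
  rw [IsFractionRing.ringEquivOfRingEquiv_algebraMap]
  rfl

theorem s27d_ratAut_C (σ : k ≃+* k) (c : k) :
    s27d_ratAut σ (RatFunc.C c) = RatFunc.C (σ c) := by
  rw [← RatFunc.algebraMap_C, s27d_ratAut_algebraMap, Polynomial.map_C, RatFunc.algebraMap_C]
  rfl

theorem s27d_ratAut_X (σ : k ≃+* k) : s27d_ratAut σ (RatFunc.X) = RatFunc.X := by
  rw [← RatFunc.algebraMap_X, s27d_ratAut_algebraMap, Polynomial.map_X]

theorem s27d_ratAut_per (σ : k ≃+* k) (hσ : ∀ c : k, ∃ n : ℕ, 0 < n ∧ ((σ : k →+* k) ^ n) c = c)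
    (f : RatFunc k) : f ∈ s27d_per (s27d_ratAut σ : RatFunc k →+* RatFunc k) := by
  set Φ : RatFunc k →+* RatFunc k := (s27d_ratAut σ : RatFunc k →+* RatFunc k) with hΦ
  have hC : ∀ c : k, RatFunc.C c ∈ s27d_per Φ := by
    intro c
    obtain ⟨n, hn, hc⟩ := hσ c
    refine ⟨n, hn, ?_⟩
    rw [s27d_pow_comm (i := (RatFunc.C : k →+* RatFunc k)) (τ := (σ : k →+* k))
      (fun a => s27d_ratAut_C σ a), hc]
  have hX : (RatFunc.X : RatFunc k) ∈ s27d_per Φ :=
    ⟨1, one_pos, by rw [pow_one]; exact s27d_ratAut_X σ⟩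
  have hpoly : ∀ q : k[X], algebraMap k[X] (RatFunc k) q ∈ s27d_per Φ := by
    intro q
    induction q using Polynomial.induction_on' with
    | add p q hp hq => rw [map_add]; exact add_mem hp hq
    | monomial n a =>
      rw [← Polynomial.C_mul_X_pow_eq_monomial, map_mul, map_pow, RatFunc.algebraMap_C,
        RatFunc.algebraMap_X]
      exact mul_mem (hC a) (pow_mem hX n)
  induction f using RatFunc.induction_on with
  | f p q hq => exact div_mem (hpoly p) (hpoly q)

end Rat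

end Fermat.Agent.Lib.S27
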