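import Fermat.Agent.Lib.S27.ZIface2
import Fermat.Agent.Lib.S27.DFrobRat
import Fermat.Agent.Lib.S19.NNonSp
import Fermat.Prelude.Def_AlgebraicCurve_BaseChangeGalois

set_option autoImplicit false

noncomputable section

namespace Fermat.Agent.Lib.S27

open AlgebraicCurve Fermat.Agent.Lib.FF Fermat.Agent.Lib.S19

universe u v

section Places

variable {k : Type u} {Fb : Type v} [Field k] [Field Fb] [Algebra k Fb]

/-- a point whose orbit (along multiples of `m`) stays in a finite set is periodic. -/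
theorem s27d_periodic_of_finite {X : Type*} (θ : Equiv.Perm X) (S : Set X) (hS : S.Finite)
    (P : X) (m : ℕ) (hm : 0 < m) (h : ∀ j : ℕ, (θ ^ (m * j)) P ∈ S) :
    ∃ n : ℕ, 0 < n ∧ (θ ^ n) P = P := by
  obtain ⟨i, j, hij, he⟩ := hS.exists_lt_map_eq_of_forall_mem (f := fun j : ℕ => (θ ^ (m * j)) P) h
  refine ⟨m * (j - i), Nat.mul_pos hm (Nat.sub_pos_of_lt hij), ?_⟩
  have hj : m * j = m * i + m * (j - i) := by
    rw [← Nat.mul_add, Nat.add_sub_cancel' hij.le]
  change (θ ^ (m * i)) P = (θ ^ (m * j)) P at he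
  rw [hj, pow_add, Equiv.Perm.mul_apply] at he
  exact ((θ ^ (m * i)).injective he).symm

/-- the support of a nonzero function is finite. -/
theorem s27d_finite_ord_ne_zero [hpd : HasPrincipalDivisors k Fb] {f : Fb} (hf : f ≠ 0) :
    {P : Place k Fb | P.ord f ≠ 0}.Finite := by
  obtain ⟨D, hD, _⟩ := HasPrincipalDivisors.exists_divisor (K := k) f hf
  refine D.support.finite_toSet.subset fun P hP => ?_
  rw [Finset.mem_coe, Finsupp.mem_support_iff, hD]
  exact hP

theorem s27d_ord_iter (φ : Fb ≃+* Fb) (θ : Equiv.Perm (Place k Fb))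
    (hord : ∀ (P : Place k Fb) (y : Fb), (θ P).ord (φ y) = P.ord y) (n : ℕ) (P : Place k Fb)
    (y : Fb) : ((θ ^ n) P).ord ((⇑φ)^[n] y) = P.ord y := by
  induction n generalizing P y with
  | zero => rfl
  | succ n ih =>
    rw [pow_succ', Equiv.Perm.mul_apply, Function.iterate_succ_apply', hord, ih]

/-- **the action on places of a semilinear automorphism fixing a non-constant function.** -/
theorem s27d_places [hpd : HasPrincipalDivisors k Fb] (hdeg : ∀ P : Place k Fb, P.deg = 1)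
    (φ : Fb ≃+* Fb) (σ₀ : k → k)
    (hφk : ∀ c : k, φ (algebraMap k Fb c) = algebraMap k Fb (σ₀ c))
    (x : Fb) (hx : ∀ c : k, x - algebraMap k Fb c ≠ 0) (hφx : φ x = x)
    (hσper : ∀ c : k, ∃ n : ℕ, 0 < n ∧ σ₀^[n] c = c)
    (hσfin : ∀ n : ℕ, 0 < n → {c : k | σ₀^[n] c = c}.Finite)
    (θ : Equiv.Perm (Place k Fb))
    (hord : ∀ (P : Place k Fb) (y : Fb), (θ P).ord (φ y) = P.ord y) :
    (∀ P : Place k Fb, ∃ n : ℕ, 0 < n ∧ (θ ^ n) P = P) ∧
      ∀ n : ℕ, 0 < n → {P : Place k Fb | (θ ^ n) P = P}.Finite := by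
  have hx0 : x ≠ 0 := by simpa using hx 0
  -- the two kinds of places
  set Pinf : Set (Place k Fb) := {P | P.ord x < 0} with hPinf
  set Z : k → Set (Place k Fb) := fun a => {P | 0 < P.ord (x - algebraMap k Fb a)} with hZ
  have hPinf_fin : Pinf.Finite :=
    (s27d_finite_ord_ne_zero hx0).subset fun P hP => ne_of_lt hP
  have hZ_fin : ∀ a, (Z a).Finite := fun a =>
    (s27d_finite_ord_ne_zero (hx a)).subset fun P hP => ne_of_gt hP
  have hclass : ∀ P : Place k Fb, P ∈ Pinf ∨ ∃ a, P ∈ Z a := by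
    intro P
    by_cases h : P.ord x < 0
    · exact Or.inl h
    · right
      have hmem : x ∈ P.toValuationSubring := (ff_mem_iff_ord_nonneg P hx0).mpr (not_lt.mp h)
      obtain ⟨c, hc | hc⟩ := s19n_exists_value P (hdeg P) x hmem
      · exact absurd hc (hx c)
      · exact ⟨c, hc⟩
  -- iterates
  have hiter_k : ∀ (n : ℕ) (c : k), (⇑φ)^[n] (algebraMap k Fb c) = algebraMap k Fb (σ₀^[n] c) := by
    intro n c
    have hs : Function.Semiconj (algebraMap k Fb) σ₀ φ := fun c => (hφk c).symm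
    exact ((hs.iterate_right n).eq c).symm
  have hiter_x : ∀ n : ℕ, (⇑φ)^[n] x = x := fun n => Function.iterate_fixed hφx n
  have hiter : ∀ (n : ℕ) (a : k), (⇑φ)^[n] (x - algebraMap k Fb a) = x - algebraMap k Fb (σ₀^[n] a) := by
    intro n a
    rw [iterate_map_sub, hiter_x, hiter_k]
  have hmapZ : ∀ (n : ℕ) (a : k) (P : Place k Fb), P ∈ Z a → (θ ^ n) P ∈ Z (σ₀^[n] a) := by
    intro n a P hP
    show 0 < ((θ ^ n) P).ord (x - algebraMap k Fb (σ₀^[n] a))
    rw [← hiter, s27d_ord_iter φ θ hord]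
    exact hP
  have hmapInf : ∀ (n : ℕ) (P : Place k Fb), P ∈ Pinf → (θ ^ n) P ∈ Pinf := by
    intro n P hP
    show ((θ ^ n) P).ord x < 0
    rw [← hiter_x n, s27d_ord_iter φ θ hord]
    exact hP
  refine ⟨fun P => ?_, fun n hn => ?_⟩
  · rcases hclass P with hP | ⟨a, hP⟩
    · exact s27d_periodic_of_finite θ Pinf hPinf_fin P 1 one_pos fun j => hmapInf _ P hP
    · obtain ⟨m, hm, hma⟩ := hσper a
      refine s27d_periodic_of_finite θ (Z a) (hZ_fin a) P m hm fun j => ?_
      have := hmapZ (m * j) a P hP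
      rwa [Function.iterate_mul, Function.iterate_fixed hma] at this
  · refine ((hPinf_fin.union ((hσfin n hn).biUnion fun a _ => hZ_fin a))).subset fun P hP => ?_
    rcases hclass P with hP' | ⟨a, hP'⟩
    · exact Or.inl hP'
    · right
      have h1 := hmapZ n a P hP'
      have hP2 : (θ ^ n) P = P := hP
      rw [hP2] at h1
      have : σ₀^[n] a = a := ff_ord_sub_pos_unique P h1 hP'
      exact Set.mem_biUnion (show a ∈ {c : k | σ₀^[n] c = c} from this) hP'

end Places

end Fermat.Agent.Lib.S27
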