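/-
Programme Z (S27), reduction half, brick [JAC] (J2) + (J3) (helper1, prefix `s27d_`), Mathlib only.
 * (J3) `s27d_dedekind_of_local_gen` : a noetherian domain of dimension `≤ 1` all of whose maximal
   ideals are locally principal is a Dedekind domain;
 * (J2) `s27d_local_generator` : Jacobian criterion at a rational point of an affine curve
   `R̄ = κ[v₁ … v_N]`, `G_β(v) = 0`: if some `(N-1)`-minor of the Jacobian matrix does not vanish at
   the point then the maximal ideal of the point is locally generated by one of the `v_t - v_t(pt)`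
   (first-order Taylor expansion + Cramer + Nakayama).
-/
import Mathlib

set_option autoImplicit false
set_option linter.style.haveILetI false
set_option linter.unusedSectionVars false

noncomputable section

namespace Fermat.Agent.Lib.S27

open MvPolynomial

/-- **(J3) Dedekind criterion**: a noetherian domain of dimension `≤ 1` in which every maximal
ideal is locally principal is a Dedekind domain. -/
theorem s27d_dedekind_of_local_gen (R : Type*) [CommRing R] [IsDomain R] [IsNoetherianRing R]
    (hdim : ∀ p : Ideal R, p.IsPrime → p ≠ ⊥ → p.IsMaximal)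
    (hloc : ∀ n : Ideal R, n.IsMaximal →
      ∃ τ ∈ n, ∀ g ∈ n, ∃ s, s ∉ n ∧ s * g ∈ Ideal.span {τ}) :
    IsDedekindDomain R := by
  haveI : IsDedekindDomainDvr R := by
    refine { is_dvr_at_nonzero_prime := fun P hP0 hP => ?_ }
    haveI := hP
    have hmax := hdim P hP hP0
    obtain ⟨τ, hτ, hgen⟩ := hloc P hmax
    have hnf : ¬ IsField (Localization.AtPrime P) :=
      IsLocalization.AtPrime.not_isField R hP0 _
    refine ((IsDiscreteValuationRing.TFAE (Localization.AtPrime P) hnf).out 4 0).mp ?_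
    refine ⟨⟨algebraMap R _ τ, ?_⟩⟩
    rw [← Localization.AtPrime.map_eq_maximalIdeal]
    apply le_antisymm
    · rw [Ideal.map_le_iff_le_comap]
      intro g hg
      obtain ⟨s, hs, hsg⟩ := hgen g hg
      rw [Ideal.mem_comap]
      have hu : IsUnit (algebraMap R (Localization.AtPrime P) s) :=
        IsLocalization.map_units _ (⟨s, hs⟩ : P.primeCompl)
      obtain ⟨a, ha⟩ := Ideal.mem_span_singleton'.mp hsg
      have h1 : algebraMap R (Localization.AtPrime P) s * algebraMap R (Localization.AtPrime P) g =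
          algebraMap R (Localization.AtPrime P) a * algebraMap R (Localization.AtPrime P) τ := by
        rw [← map_mul, ← map_mul, ha]
      have h2 : algebraMap R (Localization.AtPrime P) g =
          (↑hu.unit⁻¹ * algebraMap R (Localization.AtPrime P) a) *
            algebraMap R (Localization.AtPrime P) τ := by
        rw [mul_assoc, ← h1, ← mul_assoc, IsUnit.val_inv_mul, one_mul]
      show algebraMap R (Localization.AtPrime P) g ∈ Submodule.span _ _
      rw [h2]
      exact Ideal.mul_mem_left _ _ (Ideal.subset_span rfl)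
    · show Submodule.span _ _ ≤ _
      rw [Submodule.span_le, Set.singleton_subset_iff]
      exact Ideal.mem_map_of_mem _ hτ
  exact IsDedekindDomainDvr.isDedekindDomain R

section Taylor

variable {κ : Type*} [Field κ] {N : ℕ} {Rb : Type*} [CommRing Rb] [Algebra κ Rb]
  (v : Fin N → Rb) (φ : Rb →ₐ[κ] κ)

/-- the local coordinates `v t - v t (point)`. -/
def s27d_u (t : Fin N) : Rb := v t - algebraMap κ Rb (φ (v t))

theorem s27d_u_mem (t : Fin N) : s27d_u v φ t ∈ RingHom.ker (φ : Rb →+* κ) := by
  rw [RingHom.mem_ker]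
  show φ (v t - algebraMap κ Rb (φ (v t))) = 0
  rw [map_sub, φ.commutes, Algebra.algebraMap_self_apply, sub_self]

theorem s27d_phi_aeval (P : MvPolynomial (Fin N) κ) :
    φ (aeval v P) = eval (fun t => φ (v t)) P := by
  rw [← AlgHom.comp_apply, comp_aeval]
  rfl

/-- order-zero Taylor: `P(v) - P(q) ∈ (v_t - q_t)_t`. -/
theorem s27d_taylor0 (P : MvPolynomial (Fin N) κ) :
    aeval v P - algebraMap κ Rb (eval (fun t => φ (v t)) P) ∈
      Ideal.span (Set.range (s27d_u v φ)) := by
  induction P using MvPolynomial.induction_on with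
  | C a =>
    rw [aeval_C, eval_C, sub_self]
    exact Ideal.zero_mem _
  | add p q hp hq =>
    rw [map_add, map_add, map_add]
    have : aeval v p + aeval v q -
        (algebraMap κ Rb (eval (fun t => φ (v t)) p) + algebraMap κ Rb (eval (fun t => φ (v t)) q)) =
        (aeval v p - algebraMap κ Rb (eval (fun t => φ (v t)) p)) +
          (aeval v q - algebraMap κ Rb (eval (fun t => φ (v t)) q)) := by ring
    rw [this]
    exact Ideal.add_mem _ hp hq
  | mul_X p i hp =>
    rw [map_mul, map_mul, map_mul, aeval_X, eval_X]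
    have : aeval v p * v i - algebraMap κ Rb (eval (fun t => φ (v t)) p) * algebraMap κ Rb (φ (v i)) =
        (aeval v p - algebraMap κ Rb (eval (fun t => φ (v t)) p)) * v i +
          algebraMap κ Rb (eval (fun t => φ (v t)) p) * s27d_u v φ i := by
      unfold s27d_u; ring
    rw [this]
    exact Ideal.add_mem _ (Ideal.mul_mem_right _ _ hp)
      (Ideal.mul_mem_left _ _ (Ideal.subset_span ⟨i, rfl⟩))

/-- the kernel of a point is generated by the local coordinates. -/
theorem s27d_ker_eq_span (hv : Algebra.adjoin κ (Set.range v) = ⊤) :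
    RingHom.ker (φ : Rb →+* κ) = Ideal.span (Set.range (s27d_u v φ)) := by
  apply le_antisymm
  · intro g hg
    have hmem : g ∈ (aeval v : MvPolynomial (Fin N) κ →ₐ[κ] Rb).range := by
      rw [← Algebra.adjoin_range_eq_range_aeval, hv]
      exact Algebra.mem_top
    obtain ⟨P, rfl⟩ := hmem
    have h0 : eval (fun t => φ (v t)) P = 0 := by
      rw [← s27d_phi_aeval]
      exact hg
    have := s27d_taylor0 v φ P
    rwa [h0, map_zero, sub_zero] at this
  · rw [Ideal.span_le]
    rintro _ ⟨t, rfl⟩
    exact s27d_u_mem v φ t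

/-- first-order Taylor: `P(v) - P(q) - Σ ∂_t P(q) (v_t - q_t) ∈ 𝔫²`. -/
theorem s27d_taylor1 (P : MvPolynomial (Fin N) κ) :
    aeval v P - algebraMap κ Rb (eval (fun t => φ (v t)) P) -
        ∑ t, algebraMap κ Rb (eval (fun t => φ (v t)) (pderiv t P)) * s27d_u v φ t ∈
      RingHom.ker (φ : Rb →+* κ) ^ 2 := by
  set q : Fin N → κ := fun t => φ (v t) with hq
  set I := RingHom.ker (φ : Rb →+* κ) with hI
  induction P using MvPolynomial.induction_on with
  | C a =>
    have : ∀ t, pderiv t (C a : MvPolynomial (Fin N) κ) = 0 := fun t => pderiv_C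
    simp only [this, map_zero, zero_mul, Finset.sum_const_zero, aeval_C, eval_C, sub_self]
    exact Ideal.zero_mem _
  | add p r hp hr =>
    simp only [map_add, add_mul, Finset.sum_add_distrib]
    have : aeval v p + aeval v r - (algebraMap κ Rb (eval q p) + algebraMap κ Rb (eval q r)) -
        (∑ t, algebraMap κ Rb (eval q (pderiv t p)) * s27d_u v φ t +
          ∑ t, algebraMap κ Rb (eval q (pderiv t r)) * s27d_u v φ t) =
        (aeval v p - algebraMap κ Rb (eval q p) -
            ∑ t, algebraMap κ Rb (eval q (pderiv t p)) * s27d_u v φ t) +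
          (aeval v r - algebraMap κ Rb (eval q r) -
            ∑ t, algebraMap κ Rb (eval q (pderiv t r)) * s27d_u v φ t) := by ring
    rw [this]
    exact Ideal.add_mem _ hp hr
  | mul_X p i hp =>
    set L : Rb := ∑ t, algebraMap κ Rb (eval q (pderiv t p)) * s27d_u v φ t with hL
    have hLmem : L ∈ I := Ideal.sum_mem _ fun t _ => Ideal.mul_mem_left _ _ (s27d_u_mem v φ t)
    have hsum : ∑ t, algebraMap κ Rb (eval q (pderiv t (p * X i))) * s27d_u v φ t =
        algebraMap κ Rb (q i) * L + algebraMap κ Rb (eval q p) * s27d_u v φ i := by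
      have h1 : ∀ t, algebraMap κ Rb (eval q (pderiv t (p * X i))) * s27d_u v φ t =
          algebraMap κ Rb (q i) * (algebraMap κ Rb (eval q (pderiv t p)) * s27d_u v φ t) +
            (if t = i then algebraMap κ Rb (eval q p) * s27d_u v φ i else 0) := by
        intro t
        rw [Derivation.leibniz, pderiv_X, smul_eq_mul, smul_eq_mul, map_add, map_mul, map_mul,
          eval_X, map_add, map_mul, map_mul]
        by_cases hti : t = i
        · subst hti
          simp only [Pi.single_eq_same, map_one, mul_one, if_true]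
          ring
        · rw [Pi.single_eq_of_ne' hti, map_zero, map_zero, mul_zero, zero_add, if_neg hti, add_zero]
          ring
      rw [Finset.sum_congr rfl fun t _ => h1 t, Finset.sum_add_distrib, ← Finset.mul_sum,
        Finset.sum_ite_eq' Finset.univ i, if_pos (Finset.mem_univ i)]
    rw [hsum, map_mul, map_mul, map_mul, aeval_X, eval_X]
    have : aeval v p * v i - algebraMap κ Rb (eval q p) * algebraMap κ Rb (q i) -
        (algebraMap κ Rb (q i) * L + algebraMap κ Rb (eval q p) * s27d_u v φ i) =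
        L * s27d_u v φ i + (aeval v p - algebraMap κ Rb (eval q p) - L) * v i := by
      unfold s27d_u; ring
    rw [this]
    refine Ideal.add_mem _ ?_ (Ideal.mul_mem_right _ _ hp)
    rw [pow_two]
    exact Ideal.mul_mem_mul hLmem (s27d_u_mem v φ i)

end Taylor

section Nak

variable {R : Type*} [CommRing R]

/-- **Nakayama, global form**: a finitely generated ideal `𝔫 ≤ (τ) + 𝔫²` is generated by `τ` up to
one denominator `s ≡ 1 mod 𝔫`. -/
theorem s27d_nakayama_principal (n : Ideal R) (hfg : n.FG) (τ : R)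
    (h : n ≤ Ideal.span {τ} ⊔ n ^ 2) :
    ∃ s : R, s - 1 ∈ n ∧ ∀ g ∈ n, s * g ∈ Ideal.span {τ} := by
  set J : Ideal R := Ideal.span {τ} with hJ
  set N : Submodule R (R ⧸ J) := Submodule.map (Submodule.mkQ J) n with hN
  have hNfg : N.FG := Submodule.FG.map _ hfg
  have hle : N ≤ n • N := by
    rintro _ ⟨g, hg, rfl⟩
    obtain ⟨a, ha, b, hb, rfl⟩ := Submodule.mem_sup.mp (h hg)
    have h1 : Submodule.mkQ J (a + b) = Submodule.mkQ J b := by
      rw [map_add, Submodule.mkQ_apply, (Submodule.Quotient.mk_eq_zero J).mpr ha, zero_add]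
    rw [h1, hN, ← Submodule.map_smul'']
    refine Submodule.mem_map_of_mem ?_
    rw [pow_two] at hb
    exact hb
  obtain ⟨r, hr1, hr2⟩ :=
    Submodule.exists_sub_one_mem_and_smul_eq_zero_of_fg_of_le_smul n N hNfg hle
  refine ⟨r, hr1, fun g hg => ?_⟩
  have := hr2 (Submodule.mkQ J g) (Submodule.mem_map_of_mem hg)
  rw [← map_smul, smul_eq_mul, Submodule.mkQ_apply, Submodule.Quotient.mk_eq_zero] at this
  exact this

end Nak

section Lin

variable {κ : Type*} [Field κ] {Rb : Type*} [CommRing Rb] [Algebra κ Rb]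

/-- solving a linear system with invertible matrix of constants modulo an ideal. -/
theorem s27d_solve_mod (S : Ideal Rb) {m : ℕ} (A : Matrix (Fin m) (Fin m) κ) (hA : A.det ≠ 0)
    (y : Fin m → Rb) (h : ∀ s, ∑ t, algebraMap κ Rb (A s t) * y t ∈ S) : ∀ t, y t ∈ S := by
  intro t
  have hinv : A⁻¹ * A = 1 := Matrix.nonsing_inv_mul A (isUnit_iff_ne_zero.mpr hA)
  have key : y t = ∑ s, algebraMap κ Rb (A⁻¹ t s) * ∑ t'', algebraMap κ Rb (A s t'') * y t'' := by
    simp_rw [Finset.mul_sum]
    rw [Finset.sum_comm]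
    have h1 : ∀ t'', ∑ s, algebraMap κ Rb (A⁻¹ t s) * (algebraMap κ Rb (A s t'') * y t'') =
        algebraMap κ Rb ((A⁻¹ * A) t t'') * y t'' := by
      intro t''
      rw [Matrix.mul_apply, map_sum, Finset.sum_mul]
      refine Finset.sum_congr rfl fun s _ => ?_
      rw [map_mul]
      ring
    simp_rw [h1, hinv, Matrix.one_apply]
    simp
  rw [key]
  exact Ideal.sum_mem _ fun s _ => Ideal.mul_mem_left _ _ (h s)

end Lin

section Main

variable {κ : Type*} [Field κ] {N : ℕ} {ι : Type*} {Rb : Type*} [CommRing Rb] [Algebra κ Rb]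

/-- **(J2)**, strong form (one denominator `s ≡ 1` for the whole maximal ideal). -/
theorem s27d_local_generator' (hN : 0 < N) (G : ι → MvPolynomial (Fin N) κ) (v : Fin N → Rb)
    (hv : Algebra.adjoin κ (Set.range v) = ⊤) (hG : ∀ β, aeval v (G β) = 0) (φ : Rb →ₐ[κ] κ)
    (γ : (Fin (N - 1) → ι) × (Fin (N - 1) → Fin N))
    (hγ : eval (fun t => φ (v t))
      (Matrix.det (Matrix.of fun s t => pderiv (γ.2 t) (G (γ.1 s)))) ≠ 0) :
    ∃ t₀ : Fin N, ∃ s : Rb, s - 1 ∈ RingHom.ker (φ : Rb →+* κ) ∧
      ∀ g ∈ RingHom.ker (φ : Rb →+* κ),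
        s * g ∈ Ideal.span {v t₀ - algebraMap κ Rb (φ (v t₀))} := by
  classical
  set q : Fin N → κ := fun t => φ (v t) with hq
  set n : Ideal Rb := RingHom.ker (φ : Rb →+* κ) with hn
  set A : Matrix (Fin (N - 1)) (Fin (N - 1)) κ :=
    Matrix.of fun s t => eval q (pderiv (γ.2 t) (G (γ.1 s))) with hAdef
  have hAdet : A.det ≠ 0 := by
    have h1 : A = (eval q).mapMatrix (Matrix.of fun s t => pderiv (γ.2 t) (G (γ.1 s))) := by
      ext s t; rfl
    rw [h1, ← RingHom.map_det]
    exact hγ
  -- the column selection is injective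
  have hinj : Function.Injective γ.2 := by
    intro t t' htt
    by_contra hne
    exact hAdet (Matrix.det_zero_of_column_eq hne fun s => by
      show eval q (pderiv (γ.2 t) (G (γ.1 s))) = eval q (pderiv (γ.2 t') (G (γ.1 s)))
      rw [htt])
  -- the missing column
  have hcard : (Finset.univ.image γ.2).card = N - 1 := by
    rw [Finset.card_image_of_injective _ hinj, Finset.card_univ, Fintype.card_fin]
  obtain ⟨t₀, ht₀⟩ : ∃ t₀ : Fin N, t₀ ∉ Finset.univ.image γ.2 := by
    by_contra hcon
    have hcon' : ∀ t : Fin N, t ∈ Finset.univ.image γ.2 := fun t => by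
      by_contra h
      exact hcon ⟨t, h⟩
    have : Finset.univ.image γ.2 = Finset.univ := Finset.eq_univ_iff_forall.mpr hcon'
    rw [this, Finset.card_univ, Fintype.card_fin] at hcard
    omega
  have hall : insert t₀ (Finset.univ.image γ.2) = Finset.univ := by
    apply Finset.eq_univ_of_card
    rw [Finset.card_insert_of_notMem ht₀, hcard, Fintype.card_fin]
    omega
  -- the ideal `(u t₀) + 𝔫²`
  set S : Ideal Rb := Ideal.span {s27d_u v φ t₀} ⊔ n ^ 2 with hS
  have hu0 : s27d_u v φ t₀ ∈ S := Ideal.mem_sup_left (Ideal.subset_span rfl)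
  have hrel : ∀ s : Fin (N - 1), ∑ t, algebraMap κ Rb (A s t) * s27d_u v φ (γ.2 t) ∈ S := by
    intro s
    have h1 := s27d_taylor1 v φ (G (γ.1 s))
    have h0 : eval q (G (γ.1 s)) = 0 := by
      rw [hq, ← s27d_phi_aeval, hG, map_zero]
    rw [hG, ← hq, h0, map_zero, sub_zero, zero_sub] at h1
    have h2 := Ideal.neg_mem_iff _ |>.mp h1
    rw [← Finset.sum_neg_distrib] at h1
    have h3 : ∑ t', algebraMap κ Rb (eval q (pderiv t' (G (γ.1 s)))) * s27d_u v φ t' ∈ n ^ 2 := by
      have := (n ^ 2).neg_mem h1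
      simpa using this
    rw [← hall, Finset.sum_insert ht₀, Finset.sum_image (fun a _ b _ h => hinj h)] at h3
    have h4 : ∑ t, algebraMap κ Rb (A s t) * s27d_u v φ (γ.2 t) =
        (algebraMap κ Rb (eval q (pderiv t₀ (G (γ.1 s)))) * s27d_u v φ t₀ +
          ∑ t, algebraMap κ Rb (eval q (pderiv (γ.2 t) (G (γ.1 s)))) * s27d_u v φ (γ.2 t)) -
        algebraMap κ Rb (eval q (pderiv t₀ (G (γ.1 s)))) * s27d_u v φ t₀ := by
      rw [add_sub_cancel_left]
      rfl
    rw [h4]
    exact S.sub_mem (Ideal.mem_sup_right h3) (Ideal.mul_mem_left _ _ hu0)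
  have hsel := s27d_solve_mod S A hAdet (fun t => s27d_u v φ (γ.2 t)) hrel
  have hall_mem : ∀ t' : Fin N, s27d_u v φ t' ∈ S := by
    intro t'
    have : t' ∈ insert t₀ (Finset.univ.image γ.2) := by rw [hall]; exact Finset.mem_univ _
    rcases Finset.mem_insert.mp this with rfl | h
    · exact hu0
    · obtain ⟨t, _, rfl⟩ := Finset.mem_image.mp h
      exact hsel t
  have hker : n = Ideal.span (Set.range (s27d_u v φ)) := s27d_ker_eq_span v φ hv
  have hle : n ≤ Ideal.span {s27d_u v φ t₀} ⊔ n ^ 2 := by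
    rw [hker, Ideal.span_le]
    rintro _ ⟨t', rfl⟩
    rw [← hker]
    exact hall_mem t'
  have hfg : n.FG := by
    rw [hker]
    exact Submodule.fg_span (Set.finite_range _)
  obtain ⟨s, hs1, hs2⟩ := s27d_nakayama_principal n hfg (s27d_u v φ t₀) hle
  exact ⟨t₀, s, hs1, hs2⟩

/-- **(J2)**, in the form consumed by (J3). -/
theorem s27d_local_generator (hN : 0 < N) (G : ι → MvPolynomial (Fin N) κ) (v : Fin N → Rb)
    (hv : Algebra.adjoin κ (Set.range v) = ⊤) (hG : ∀ β, aeval v (G β) = 0) (φ : Rb →ₐ[κ] κ)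
    (γ : (Fin (N - 1) → ι) × (Fin (N - 1) → Fin N))
    (hγ : eval (fun t => φ (v t))
      (Matrix.det (Matrix.of fun s t => pderiv (γ.2 t) (G (γ.1 s)))) ≠ 0) :
    ∃ t₀ : Fin N, ∀ g ∈ RingHom.ker (φ : Rb →+* κ), ∃ s, s ∉ RingHom.ker (φ : Rb →+* κ) ∧
      s * g ∈ Ideal.span {v t₀ - algebraMap κ Rb (φ (v t₀))} := by
  obtain ⟨t₀, s, hs1, hs2⟩ := s27d_local_generator' hN G v hv hG φ γ hγ
  refine ⟨t₀, fun g hg => ⟨s, fun hs => ?_, hs2 g hg⟩⟩
  have h1 : (1 : Rb) ∈ RingHom.ker (φ : Rb →+* κ) := by
    have := (RingHom.ker (φ : Rb →+* κ)).sub_mem hs hs1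
    rwa [sub_sub_cancel] at this
  rw [RingHom.mem_ker, map_one] at h1
  exact one_ne_zero h1

end Main

end Fermat.Agent.Lib.S27
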