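/-
Programme Z (S27), [GR]/[JAC]: the SHARED definition of the Jacobian minors (helper5).
Mathlib only; byte-copy this file, do not redefine.
-/
import Mathlib

set_option autoImplicit false

noncomputable section

namespace Fermat.Agent.Lib.S27

open MvPolynomial

/-- the index set of the `(N-1)`-minors of the Jacobian matrix of a family `G : ι → κ[X_0..X_{N-1}]`:
a choice of `N - 1` rows and `N - 1` columns. -/
abbrev s27r_Gam (ι : Type*) (N : ℕ) : Type _ := (Fin (N - 1) → ι) × (Fin (N - 1) → Fin N)

/-- the `(N-1)`-minor of the Jacobian matrix `(∂ G_s / ∂ X_t)` with rows `γ.1`, columns `γ.2`. -/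
def s27r_minor {κ : Type*} [CommRing κ] {ι : Type*} {N : ℕ} (G : ι → MvPolynomial (Fin N) κ)
    (γ : s27r_Gam ι N) : MvPolynomial (Fin N) κ :=
  Matrix.det (Matrix.of fun s t => pderiv (γ.2 t) (G (γ.1 s)))

end Fermat.Agent.Lib.S27
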