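/-
Programme Z (S27), reduction half, brick [JAC] (Jk) (helper1, prefix `s27d_`): (J2) + (J3) packaged.
 * `s27d_maximal_eq_ker` : Nullstellensatz, maximal ideals of `κ[v]` are kernels of rational points;
 * `s27d_dedekind_of_cert` : a Jacobian certificate `Σ_γ b_γ M_γ(v) = 1` makes a one-dimensional
   domain `R = κ[v]`, `G_s(v) = 0`, a Dedekind domain.
Mathlib + `RJacDef` (helper5, byte copy) + `DJac`.
-/
import Fermat.Agent.Lib.S27.DJac
import Fermat.Agent.Lib.S27.RJacDef

set_option autoImplicit false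
set_option linter.style.haveILetI false
set_option linter.unusedSectionVars false

noncomputable section

namespace Fermat.Agent.Lib.S27

open MvPolynomial

section Cert

variable {κ R : Type*} [Field κ] [IsAlgClosed κ] [CommRing R] [Algebra κ R] {N : ℕ}

/-- Nullstellensatz: in a finitely generated algebra over an algebraically closed field every
maximal ideal is the kernel of a rational point. -/
theorem s27d_maximal_eq_ker (v : Fin N → R)
    (hsurj : Function.Surjective (aeval v : MvPolynomial (Fin N) κ →ₐ[κ] R)) (n : Ideal R)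
    (hn : n.IsMaximal) : ∃ φ : R →ₐ[κ] κ, RingHom.ker (φ : R →+* κ) = n := by
  haveI := hn
  have hmax : (n.comap (aeval v : MvPolynomial (Fin N) κ →ₐ[κ] R)).IsMaximal :=
    Ideal.comap_isMaximal_of_surjective _ hsurj
  obtain ⟨q, hq⟩ := (MvPolynomial.isMaximal_iff_eq_vanishingIdeal_singleton (K := κ)).mp hmax
  have hmem : ∀ P : MvPolynomial (Fin N) κ, aeval v P ∈ n ↔ aeval q P = 0 := by
    intro P
    rw [← MvPolynomial.mem_vanishingIdeal_singleton_iff, ← hq, Ideal.mem_comap]
  have H : RingHom.ker (aeval v : MvPolynomial (Fin N) κ →ₐ[κ] R).toRingHom ≤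
      RingHom.ker (aeval q : MvPolynomial (Fin N) κ →ₐ[κ] κ).toRingHom := by
    intro P hP
    rw [RingHom.mem_ker] at hP ⊢
    have h0 : aeval v P = 0 := hP
    exact (hmem P).mp (by rw [h0]; exact n.zero_mem)
  refine ⟨AlgHom.liftOfSurjective (aeval v) hsurj (aeval q) H, ?_⟩
  ext g
  obtain ⟨P, rfl⟩ := hsurj g
  rw [RingHom.mem_ker]
  show AlgHom.liftOfSurjective (aeval v) hsurj (aeval q) H (aeval v P) = 0 ↔ _
  rw [AlgHom.liftOfSurjective_apply, hmem]

variable [IsDomain R] {ι : Type*} [Fintype ι]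

/-- **(Jk)**: the Jacobian certificate makes a one-dimensional finitely generated domain over an
algebraically closed field a Dedekind domain. -/
theorem s27d_dedekind_of_cert (v : Fin N → R) (G : ι → MvPolynomial (Fin N) κ)
    (hsurj : Function.Surjective (aeval v : MvPolynomial (Fin N) κ →ₐ[κ] R))
    (hG : ∀ s, aeval v (G s) = 0)
    (b : s27r_Gam ι N → R) (hb : ∑ γ, b γ * aeval v (s27r_minor G γ) = 1)
    (hdim : Ring.DimensionLEOne R) : IsDedekindDomain R := by
  haveI : IsNoetherianRing R :=
    isNoetherianRing_of_surjective _ R (aeval v : MvPolynomial (Fin N) κ →ₐ[κ] R).toRingHom hsurj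
  have hv : Algebra.adjoin κ (Set.range v) = ⊤ := by
    rw [Algebra.adjoin_range_eq_range_aeval, AlgHom.range_eq_top]
    exact hsurj
  refine s27d_dedekind_of_local_gen R (fun p hp hp0 => hdim.maximalOfPrime hp0 hp) fun n hn => ?_
  obtain ⟨φ, rfl⟩ := s27d_maximal_eq_ker v hsurj n hn
  rcases Nat.eq_zero_or_pos N with hN | hN
  · subst hN
    refine ⟨0, Ideal.zero_mem _, fun g hg => ⟨1, fun h1 => ?_, ?_⟩⟩
    · rw [RingHom.mem_ker, map_one] at h1
      exact one_ne_zero h1
    · have hker := s27d_ker_eq_span v φ hv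
      have hemp : Set.range (s27d_u v φ) = ∅ := Set.range_eq_empty _
      rw [hemp, Ideal.span_empty] at hker
      rw [hker] at hg
      rw [Ideal.mem_bot.mp hg, mul_zero]
      exact Ideal.zero_mem _
  · -- some minor does not vanish at the point
    have h1 := congrArg φ hb
    rw [map_sum, map_one] at h1
    have hex : ∃ γ : s27r_Gam ι N, eval (fun t => φ (v t)) (s27r_minor G γ) ≠ 0 := by
      by_contra hcon
      have hall : ∀ γ : s27r_Gam ι N, eval (fun t => φ (v t)) (s27r_minor G γ) = 0 := fun γ => by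
        by_contra h
        exact hcon ⟨γ, h⟩
      have : ∑ γ, φ (b γ * aeval v (s27r_minor G γ)) = 0 :=
        Finset.sum_eq_zero fun γ _ => by
          rw [map_mul, s27d_phi_aeval, hall γ, mul_zero]
      rw [this] at h1
      exact zero_ne_one h1
    obtain ⟨γ, hγ⟩ := hex
    obtain ⟨t₀, ht₀⟩ := s27d_local_generator hN G v hv hG φ γ hγ
    exact ⟨v t₀ - algebraMap κ R (φ (v t₀)), s27d_u_mem v φ t₀, ht₀⟩

end Cert

end Fermat.Agent.Lib.S27
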