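/-
Programme Z (S27), reduction half (helper8): the coordinate ring of the special fibre has
dimension `≤ 1` (it is a finite module over `k[x̄]`).
-/
import Fermat.Agent.Lib.S27.RDomain

set_option autoImplicit false

noncomputable section

namespace Fermat.Agent.Lib.S27

open AlgebraicCurve Polynomial IsLocalRing

/-- a domain integral over a ring of dimension `≤ 1` has dimension `≤ 1`. -/
theorem s27e_dimLEOne_of_integral (A B : Type*) [CommRing A] [Nontrivial A]
    [Ring.DimensionLEOne A] [CommRing B] [IsDomain B] [Algebra A B] [Algebra.IsIntegral A B] :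
    Ring.DimensionLEOne B where
  maximalOfPrime := by
    intro P hP0 hPprime
    have h1 : P.comap (algebraMap A B) ≠ ⊥ := by
      obtain ⟨y, hyP, hy0⟩ := Submodule.exists_mem_ne_zero_of_ne_bot hP0
      exact Ideal.comap_ne_bot_of_integral_mem hy0 hyP (Algebra.IsIntegral.isIntegral y)
    have h2 : (P.comap (algebraMap A B)).IsPrime := Ideal.comap_isPrime _ P
    have h3 : (P.comap (algebraMap A B)).IsMaximal := Ring.DimensionLEOne.maximalOfPrime h1 h2
    exact Ideal.isMaximal_of_isIntegral_of_isMaximal_comap P h3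

variable {K F : Type} [Field K] [Field F] [Algebra K F] {x : F}
variable {W : s27r_WD K F x} {A : ValuationSubring K}

/-- **the coordinate ring of the special fibre has dimension `≤ 1`.** -/
theorem s27e_dimLEOne_Rbar (hW : s27r_WProps W) (hsc : s27r_SCUnit W A) :
    Ring.DimensionLEOne (s27r_Rbar W A) := by
  classical
  have hdom : IsDomain (s27r_Rbar W A) := s27r_isDomain_Rbar hW hsc
  let _ : Algebra (ResidueField ↥A)[X] (s27r_Rbar W A) :=
    (aeval (s27r_xb W A) :
      (ResidueField ↥A)[X] →ₐ[ResidueField ↥A] s27r_Rbar W A).toRingHom.toAlgebra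
  have hsmul : ∀ (p : (ResidueField ↥A)[X]) (y : s27r_Rbar W A),
      p • y = aeval (s27r_xb W A) p * y := fun p y => rfl
  have hfin : Module.Finite (ResidueField ↥A)[X] (s27r_Rbar W A) := by
    refine ⟨⟨Finset.univ.image (s27r_wb W A), ?_⟩⟩
    rw [eq_top_iff]
    intro y _
    obtain ⟨b, rfl⟩ := s27r_Phib_surjective hsc y
    unfold s27r_Phib
    refine Submodule.sum_mem _ fun i _ => ?_
    rw [← hsmul]
    refine Submodule.smul_mem _ _ (Submodule.subset_span ?_)
    rw [Finset.coe_image]
    exact ⟨i, Finset.mem_coe.mpr (Finset.mem_univ i), rfl⟩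
  have hint : Algebra.IsIntegral (ResidueField ↥A)[X] (s27r_Rbar W A) :=
    Algebra.IsIntegral.of_finite _ _
  exact s27e_dimLEOne_of_integral (ResidueField ↥A)[X] (s27r_Rbar W A)

/-- the same in the shape "every non-zero prime is maximal". -/
theorem s27e_prime_isMaximal_Rbar (hW : s27r_WProps W) (hsc : s27r_SCUnit W A) :
    ∀ p : Ideal (s27r_Rbar W A), p.IsPrime → p ≠ ⊥ → p.IsMaximal := fun _ hp h0 =>
  (s27e_dimLEOne_Rbar hW hsc).maximalOfPrime h0 hp

end Fermat.Agent.Lib.S27
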