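/-
Programme Z (S27), reduction half, brick [JAC] (helper8), parts (J1) and (J5).  Mathlib only.

(J1) a matrix with `N` columns whose kernel has dimension `≤ 1` has a non-zero minor of size
     `N - 1`.
(J5) Nullstellensatz certificate: elements without a common zero generate the unit ideal.
-/
import Mathlib

set_option autoImplicit false

namespace Fermat.Agent.Lib.S27

open Matrix Module

section J1

variable {κ : Type*} [Field κ]

/-- `ρ ≤ rank A` ⇒ there are `ρ` linearly independent rows. -/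
theorem s27e_exists_indep_rows {m n : Type*} [Fintype m] [Fintype n] (A : Matrix m n κ) (ρ : ℕ)
    (hρ : ρ ≤ A.rank) : ∃ r : Fin ρ → m, LinearIndependent κ (fun s => A.row (r s)) := by
  obtain ⟨f, hf, -, hind⟩ := Submodule.exists_fun_fin_finrank_span_eq κ (Set.range A.row)
  have hρ' : ρ ≤ finrank κ (Submodule.span κ (Set.range A.row)) := by
    rw [← A.rank_eq_finrank_span_row]
    exact hρ
  choose r hr using hf
  refine ⟨fun s => r (Fin.castLE hρ' s), ?_⟩
  have h1 : (fun s => A.row (r (Fin.castLE hρ' s))) = f ∘ Fin.castLE hρ' := by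
    funext s
    exact hr _
  rw [h1]
  exact hind.comp _ (Fin.castLE_injective hρ')

/-- **(J1)**: if any two vectors of the kernel of `J` are proportional, then `J` has a non-zero
minor of size `N - 1`. -/
theorem s27e_exists_minor {ι : Type*} [Fintype ι] {N : ℕ} (J : Matrix ι (Fin N) κ)
    (hker : ∀ ξ η : Fin N → κ, J *ᵥ ξ = 0 → J *ᵥ η = 0 →
      ∃ a b : κ, (a ≠ 0 ∨ b ≠ 0) ∧ a • ξ + b • η = 0) :
    ∃ (r : Fin (N - 1) → ι) (c : Fin (N - 1) → Fin N), (J.submatrix r c).det ≠ 0 := by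
  classical
  -- the kernel has dimension at most one
  have hk : finrank κ ↥(LinearMap.ker J.mulVecLin) ≤ 1 := by
    by_cases hbot : LinearMap.ker J.mulVecLin = ⊥
    · rw [hbot, finrank_bot]
      exact Nat.zero_le 1
    · obtain ⟨ξ₀, hξ₀, hne⟩ := Submodule.exists_mem_ne_zero_of_ne_bot hbot
      refine finrank_le_one (⟨ξ₀, hξ₀⟩ : ↥(LinearMap.ker J.mulVecLin)) ?_
      rintro ⟨η, hη⟩
      obtain ⟨a, b, hab, h⟩ := hker ξ₀ η (by simpa using hξ₀) (by simpa using hη)
      have hb : b ≠ 0 := by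
        rintro rfl
        rw [zero_smul, add_zero] at h
        rcases hab with ha | hb
        · exact hne ((smul_eq_zero.mp h).resolve_left ha)
        · exact hb rfl
      refine ⟨-(b⁻¹ * a), Subtype.ext ?_⟩
      show (-(b⁻¹ * a)) • ξ₀ = η
      have h2 : b • η = -(a • ξ₀) := eq_neg_of_add_eq_zero_right h
      calc (-(b⁻¹ * a)) • ξ₀ = b⁻¹ • (-(a • ξ₀)) := by
            rw [neg_smul, mul_smul, smul_neg]
        _ = b⁻¹ • (b • η) := by rw [h2]
        _ = η := by rw [smul_smul, inv_mul_cancel₀ hb, one_smul]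
  have hrank : N - 1 ≤ J.rank := by
    have h1 := LinearMap.finrank_range_add_finrank_ker J.mulVecLin
    rw [finrank_fintype_fun_eq_card, Fintype.card_fin] at h1
    have h2 : J.rank = finrank κ ↥(LinearMap.range J.mulVecLin) := rfl
    omega
  -- `N - 1` independent rows
  obtain ⟨r, hr⟩ := s27e_exists_indep_rows J (N - 1) hrank
  have hrank' : (J.submatrix r id).rank = N - 1 := by
    have := LinearIndependent.rank_matrix (M := J.submatrix r id) hr
    rwa [Fintype.card_fin] at this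
  -- `N - 1` independent columns of these rows
  obtain ⟨c, hc⟩ := s27e_exists_indep_rows (J.submatrix r id)ᵀ (N - 1)
    (by rw [rank_transpose, hrank'])
  refine ⟨r, c, ?_⟩
  have h3 : LinearIndependent κ (J.submatrix r c)ᵀ.row := hc
  rw [linearIndependent_rows_iff_isUnit, isUnit_iff_isUnit_det, det_transpose] at h3
  exact h3.ne_zero

end J1

section J5

variable {κ R : Type*} [Field κ] [CommRing R] [Algebra κ R]

/-- **(J5)**, abstract form: if every maximal ideal is the kernel of a `κ`-point, elements without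
a common zero generate the unit ideal. -/
theorem s27e_cert_of_no_common_zero
    (hmax : ∀ 𝔪 : Ideal R, 𝔪.IsMaximal → ∃ φ : R →ₐ[κ] κ, RingHom.ker φ = 𝔪)
    {Γ : Type*} [Fintype Γ] (m : Γ → R) (h : ∀ φ : R →ₐ[κ] κ, ∃ γ, φ (m γ) ≠ 0) :
    ∃ b : Γ → R, ∑ γ, b γ * m γ = 1 := by
  have htop : Ideal.span (Set.range m) = ⊤ := by
    by_contra hne
    obtain ⟨𝔪, h𝔪, hle⟩ := Ideal.exists_le_maximal _ hne
    obtain ⟨φ, hφ⟩ := hmax 𝔪 h𝔪
    obtain ⟨γ, hγ⟩ := h φ
    apply hγ
    have : m γ ∈ RingHom.ker φ := by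
      rw [hφ]
      exact hle (Ideal.subset_span ⟨γ, rfl⟩)
    exact this
  have h1 : (1 : R) ∈ Ideal.span (Set.range m) := by
    rw [htop]
    exact Submodule.mem_top
  exact Ideal.mem_span_range_iff_exists_fun.mp h1

/-- the Nullstellensatz: in a finitely generated algebra over an algebraically closed field every
maximal ideal is the kernel of a `κ`-point. -/
theorem s27e_maximal_eq_ker [IsAlgClosed κ] [Algebra.FiniteType κ R] (𝔪 : Ideal R)
    (h𝔪 : 𝔪.IsMaximal) : ∃ φ : R →ₐ[κ] κ, RingHom.ker φ = 𝔪 := by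
  let _ := Ideal.Quotient.field 𝔪
  have : Algebra.FiniteType κ (R ⧸ 𝔪) :=
    Algebra.FiniteType.of_surjective (Ideal.Quotient.mkₐ κ 𝔪) (Ideal.Quotient.mkₐ_surjective κ 𝔪)
  have : Module.Finite κ (R ⧸ 𝔪) := finite_of_finite_type_of_isJacobsonRing κ (R ⧸ 𝔪)
  have hbij : Function.Bijective (algebraMap κ (R ⧸ 𝔪)) :=
    IsAlgClosed.algebraMap_bijective_of_isIntegral
  let e : κ ≃ₐ[κ] (R ⧸ 𝔪) := AlgEquiv.ofBijective (Algebra.ofId κ (R ⧸ 𝔪)) hbij
  refine ⟨(e.symm : (R ⧸ 𝔪) →ₐ[κ] κ).comp (Ideal.Quotient.mkₐ κ 𝔪), ?_⟩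
  ext f
  rw [RingHom.mem_ker]
  show e.symm (Ideal.Quotient.mk 𝔪 f) = 0 ↔ f ∈ 𝔪
  rw [map_eq_zero_iff e.symm e.symm.injective, Ideal.Quotient.eq_zero_iff_mem]

/-- **(J5)**. -/
theorem s27e_nullstellensatz_cert [IsAlgClosed κ] [Algebra.FiniteType κ R]
    {Γ : Type*} [Fintype Γ] (m : Γ → R) (h : ∀ φ : R →ₐ[κ] κ, ∃ γ, φ (m γ) ≠ 0) :
    ∃ b : Γ → R, ∑ γ, b γ * m γ = 1 :=
  s27e_cert_of_no_common_zero (fun 𝔪 h𝔪 => s27e_maximal_eq_ker 𝔪 h𝔪) m h

end J5

end Fermat.Agent.Lib.S27
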