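/-
Programme Z (S27), reduction half, brick [JAC] (helper8), part (J4).  Mathlib only.

(J4) the tangent space at a `κ`-point of a Dedekind `κ`-algebra has dimension `≤ 1`: any two point
     derivations at the same point are proportional.
-/
import Mathlib

set_option autoImplicit false

namespace Fermat.Agent.Lib.S27

section J4

variable {κ R : Type*} [Field κ] [CommRing R] [Algebra κ R]

/-- a point derivation kills `1`. -/
theorem s27e_pder_one (φ : R →ₐ[κ] κ) (D : R →ₗ[κ] κ)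
    (hD : ∀ f g : R, D (f * g) = φ f * D g + φ g * D f) : D 1 = 0 := by
  have h := hD 1 1
  rw [mul_one, map_one φ, one_mul] at h
  have h2 : D 1 + D 1 = D 1 + 0 := by rw [add_zero]; exact h.symm
  exact add_left_cancel h2

/-- a point derivation kills the constants. -/
theorem s27e_pder_algebraMap (φ : R →ₐ[κ] κ) (D : R →ₗ[κ] κ)
    (hD : ∀ f g : R, D (f * g) = φ f * D g + φ g * D f) (c : κ) : D (algebraMap κ R c) = 0 := by
  rw [Algebra.algebraMap_eq_smul_one, map_smul, s27e_pder_one φ D hD, smul_zero]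

/-- a point derivation kills the square of the maximal ideal of the point. -/
theorem s27e_pder_sq (φ : R →ₐ[κ] κ) (D : R →ₗ[κ] κ)
    (hD : ∀ f g : R, D (f * g) = φ f * D g + φ g * D f) {h : R}
    (hh : h ∈ (RingHom.ker (φ : R →+* κ)) ^ 2) : D h = 0 := by
  rw [pow_two] at hh
  refine Submodule.mul_induction_on hh ?_ ?_
  · intro f hf g hg
    have hf' : φ f = 0 := hf
    have hg' : φ g = 0 := hg
    rw [hD, hf', hg', zero_mul, zero_mul, add_zero]
  · intro x y hx hy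
    rw [map_add, hx, hy, add_zero]

/-- decomposition of an element into its value and an element of the maximal ideal. -/
theorem s27e_sub_value_mem_ker (φ : R →ₐ[κ] κ) (f : R) :
    f - algebraMap κ R (φ f) ∈ RingHom.ker (φ : R →+* κ) := by
  rw [RingHom.mem_ker]
  show φ (f - algebraMap κ R (φ f)) = 0
  rw [map_sub, AlgHom.commutes]
  exact sub_self _

/-- **(J4), general form**: if the maximal ideal of the point is generated by `τ` modulo its
square, two point derivations are proportional. -/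
theorem s27e_tangent_of_generator (φ : R →ₐ[κ] κ) (τ : R)
    (hτ : τ ∈ RingHom.ker (φ : R →+* κ))
    (hgen : RingHom.ker (φ : R →+* κ) ≤ Ideal.span {τ} ⊔ (RingHom.ker (φ : R →+* κ)) ^ 2)
    (D₁ D₂ : R →ₗ[κ] κ)
    (h₁ : ∀ f g : R, D₁ (f * g) = φ f * D₁ g + φ g * D₁ f)
    (h₂ : ∀ f g : R, D₂ (f * g) = φ f * D₂ g + φ g * D₂ f) :
    ∃ c₁ c₂ : κ, (c₁ ≠ 0 ∨ c₂ ≠ 0) ∧ c₁ • D₁ + c₂ • D₂ = 0 := by
  -- on the maximal ideal a point derivation is `φ a * D τ` with `a` independent of `D`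
  have hval : ∀ g ∈ RingHom.ker (φ : R →+* κ), ∃ a : R, ∀ (D : R →ₗ[κ] κ)
      (hD : ∀ f g : R, D (f * g) = φ f * D g + φ g * D f), D g = φ a * D τ := by
    intro g hg
    obtain ⟨y, hy, z, hz, rfl⟩ := Submodule.mem_sup.mp (hgen hg)
    obtain ⟨a, rfl⟩ := Ideal.mem_span_singleton'.mp hy
    refine ⟨a, fun D hD => ?_⟩
    have hτ' : φ τ = 0 := hτ
    rw [map_add, s27e_pder_sq φ D hD hz, add_zero, hD, hτ', zero_mul, add_zero]
  -- a point derivation is determined by its value at `τ`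
  have hdet : ∀ (c₁ c₂ : κ), c₁ * D₁ τ + c₂ * D₂ τ = 0 → c₁ • D₁ + c₂ • D₂ = 0 := by
    intro c₁ c₂ hc
    ext f
    have hf : f = algebraMap κ R (φ f) + (f - algebraMap κ R (φ f)) := by ring
    obtain ⟨a, ha⟩ := hval _ (s27e_sub_value_mem_ker φ f)
    rw [LinearMap.add_apply, LinearMap.smul_apply, LinearMap.smul_apply, LinearMap.zero_apply,
      smul_eq_mul, smul_eq_mul, hf, map_add, map_add, s27e_pder_algebraMap φ D₁ h₁,
      s27e_pder_algebraMap φ D₂ h₂, zero_add, zero_add, ha D₁ h₁, ha D₂ h₂]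
    linear_combination (φ a) * hc
  by_cases h0 : D₁ τ = 0 ∧ D₂ τ = 0
  · refine ⟨1, 0, Or.inl one_ne_zero, hdet 1 0 ?_⟩
    rw [h0.1, mul_zero, zero_mul, add_zero]
  · refine ⟨D₂ τ, -D₁ τ, ?_, hdet _ _ (by ring)⟩
    by_contra hcon
    rw [not_or, not_not, not_not] at hcon
    exact h0 ⟨neg_eq_zero.mp hcon.2, hcon.1⟩

/-- in a Dedekind domain a maximal ideal is generated by one element modulo its square. -/
theorem s27e_exists_generator_mod_sq [IsDedekindDomain R] (𝔪 : Ideal R) (h𝔪 : 𝔪.IsMaximal) :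
    ∃ τ ∈ 𝔪, 𝔪 ≤ Ideal.span {τ} ⊔ 𝔪 ^ 2 := by
  by_cases h0 : 𝔪 = ⊥
  · exact ⟨0, 𝔪.zero_mem, by rw [h0]; exact bot_le⟩
  · have : 𝔪.IsPrime := h𝔪.isPrime
    obtain ⟨τ, hτ1, hτ2⟩ := Ideal.exists_mem_pow_notMem_pow_succ 𝔪 h0 h𝔪.ne_top 1
    rw [pow_one] at hτ1
    refine ⟨τ, hτ1, ?_⟩
    have hlt : 𝔪 ^ (1 + 1) < Ideal.span {τ} ⊔ 𝔪 ^ 2 := by
      refine lt_of_le_of_ne le_sup_right ?_
      intro heq
      apply hτ2
      rw [heq]
      exact Ideal.mem_sup_left (Ideal.mem_span_singleton_self τ)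
    have hle : Ideal.span {τ} ⊔ 𝔪 ^ 2 ≤ 𝔪 ^ 1 := by
      rw [pow_one]
      exact sup_le ((Ideal.span_singleton_le_iff_mem 𝔪).mpr hτ1) (Ideal.pow_le_self two_ne_zero)
    have := Ideal.eq_prime_pow_of_succ_lt_of_le h0 hlt hle
    rw [this, pow_one]

/-- **(J4)**: on a Dedekind `κ`-algebra two point derivations at the same `κ`-point are
proportional. -/
theorem s27e_tangent_dim_le_one [IsDedekindDomain R] (φ : R →ₐ[κ] κ) (D₁ D₂ : R →ₗ[κ] κ)
    (h₁ : ∀ f g : R, D₁ (f * g) = φ f * D₁ g + φ g * D₁ f)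
    (h₂ : ∀ f g : R, D₂ (f * g) = φ f * D₂ g + φ g * D₂ f) :
    ∃ c₁ c₂ : κ, (c₁ ≠ 0 ∨ c₂ ≠ 0) ∧ c₁ • D₁ + c₂ • D₂ = 0 := by
  have hsurj : Function.Surjective (φ : R →+* κ) := fun c => ⟨algebraMap κ R c, φ.commutes c⟩
  have hmax : (RingHom.ker (φ : R →+* κ)).IsMaximal := RingHom.ker_isMaximal_of_surjective _ hsurj
  obtain ⟨τ, hτ, hgen⟩ := s27e_exists_generator_mod_sq (RingHom.ker (φ : R →+* κ)) hmax
  exact s27e_tangent_of_generator φ τ hτ hgen D₁ D₂ h₁ h₂

end J4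

end Fermat.Agent.Lib.S27
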