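/-
Programme Z (S27), reduction half, brick [JAC] (helper8): glue of (J1), (J4), (J5).  Mathlib only.

`R = κ[v₁, …, v_N]` a Dedekind `κ`-algebra presented by the relations `G β`; then at every
`κ`-point some minor of size `N - 1` of the Jacobian matrix of `G` does not vanish, and (for `κ`
algebraically closed) the minors generate the unit ideal of `R`.
-/
import Fermat.Agent.Lib.S27.EJac1
import Fermat.Agent.Lib.S27.EJac4

set_option autoImplicit false

noncomputable section

namespace Fermat.Agent.Lib.S27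

open MvPolynomial Matrix

section Glue

variable {κ : Type*} [Field κ] {N : ℕ}

/-- the directional derivative at the point `q` in the direction `ξ`. -/
def s27e_dir (q ξ : Fin N → κ) : MvPolynomial (Fin N) κ →ₗ[κ] κ :=
  ∑ t : Fin N, ξ t • ((MvPolynomial.aeval q : MvPolynomial (Fin N) κ →ₐ[κ] κ).toLinearMap.comp
    (pderiv t).toLinearMap)

theorem s27e_dir_apply (q ξ : Fin N → κ) (P : MvPolynomial (Fin N) κ) :
    s27e_dir q ξ P = ∑ t : Fin N, ξ t * eval q (pderiv t P) := by
  unfold s27e_dir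
  rw [LinearMap.sum_apply]
  rfl

theorem s27e_dir_mul (q ξ : Fin N → κ) (P Q : MvPolynomial (Fin N) κ) :
    s27e_dir q ξ (P * Q) = eval q P * s27e_dir q ξ Q + eval q Q * s27e_dir q ξ P := by
  simp only [s27e_dir_apply, pderiv_mul, map_add, map_mul, Finset.mul_sum]
  rw [← Finset.sum_add_distrib]
  refine Finset.sum_congr rfl fun t _ => ?_
  ring

theorem s27e_dir_X (q ξ : Fin N → κ) (t : Fin N) : s27e_dir q ξ (X t) = ξ t := by
  classical
  rw [s27e_dir_apply, Finset.sum_eq_single t]
  · rw [pderiv_X_self, map_one, mul_one]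
  · intro s _ hs
    rw [pderiv_X_of_ne (Ne.symm hs), map_zero, mul_zero]
  · intro h
    exact absurd (Finset.mem_univ t) h

/-- the Jacobian matrix of the relations at a point. -/
def s27e_jac {ι : Type*} (G : ι → MvPolynomial (Fin N) κ) (q : Fin N → κ) : Matrix ι (Fin N) κ :=
  Matrix.of fun β t => eval q (pderiv t (G β))

theorem s27e_jac_mulVec {ι : Type*} (G : ι → MvPolynomial (Fin N) κ) (q ξ : Fin N → κ) (β : ι) :
    (s27e_jac G q *ᵥ ξ) β = s27e_dir q ξ (G β) := by
  rw [s27e_dir_apply]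
  unfold s27e_jac
  simp only [Matrix.mulVec, dotProduct, Matrix.of_apply]
  exact Finset.sum_congr rfl fun t _ => mul_comm _ _

/-- a tangent vector kills the ideal of relations. -/
theorem s27e_dir_of_mem_span {ι : Type*} (G : ι → MvPolynomial (Fin N) κ) (q ξ : Fin N → κ)
    (hq : ∀ β, eval q (G β) = 0) (hξ : s27e_jac G q *ᵥ ξ = 0) {P : MvPolynomial (Fin N) κ}
    (hP : P ∈ Ideal.span (Set.range G)) : eval q P = 0 ∧ s27e_dir q ξ P = 0 := by
  refine Submodule.span_induction ?_ ?_ ?_ ?_ hP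
  · rintro _ ⟨β, rfl⟩
    refine ⟨hq β, ?_⟩
    rw [← s27e_jac_mulVec, hξ]
    rfl
  · exact ⟨map_zero _, map_zero _⟩
  · rintro P Q _ _ ⟨h1, h2⟩ ⟨h3, h4⟩
    exact ⟨by rw [map_add, h1, h3, add_zero], by rw [map_add, h2, h4, add_zero]⟩
  · rintro a P _ ⟨h1, h2⟩
    refine ⟨by rw [smul_eq_mul, map_mul, h1, mul_zero], ?_⟩
    rw [smul_eq_mul, s27e_dir_mul, h1, h2, mul_zero, zero_mul, add_zero]

variable {R : Type*} [CommRing R] [Algebra κ R]

/-- **(J1) + (J4)**: at a `κ`-point of a Dedekind `κ`-algebra presented by generators `v` and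
relations `G`, some minor of size `N - 1` of the Jacobian matrix does not vanish. -/
theorem s27e_exists_minor_at_point [IsDedekindDomain R] {ι : Type*} [Fintype ι] (v : Fin N → R)
    (G : ι → MvPolynomial (Fin N) κ)
    (hsurj : Function.Surjective (MvPolynomial.aeval v : MvPolynomial (Fin N) κ → R))
    (hker : ∀ P : MvPolynomial (Fin N) κ, MvPolynomial.aeval v P = 0 →
      P ∈ Ideal.span (Set.range G))
    (hG : ∀ β, MvPolynomial.aeval v (G β) = 0) (φ : R →ₐ[κ] κ) :
    ∃ (r : Fin (N - 1) → ι) (c : Fin (N - 1) → Fin N),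
      ((s27e_jac G fun t => φ (v t)).submatrix r c).det ≠ 0 := by
  set q : Fin N → κ := fun t => φ (v t) with hq
  have hφ : ∀ P : MvPolynomial (Fin N) κ, φ (MvPolynomial.aeval v P) = eval q P := by
    intro P
    rw [comp_aeval_apply]
    rfl
  have hqG : ∀ β, eval q (G β) = 0 := fun β => by rw [← hφ, hG, map_zero]
  apply s27e_exists_minor
  intro ξ η hξ hη
  -- the point derivation attached to a tangent vector
  have hwd : ∀ ζ : Fin N → κ, s27e_jac G q *ᵥ ζ = 0 → ∀ P Q : MvPolynomial (Fin N) κ,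
      MvPolynomial.aeval v P = MvPolynomial.aeval v Q → s27e_dir q ζ P = s27e_dir q ζ Q := by
    intro ζ hζ P Q hPQ
    have h1 : MvPolynomial.aeval v (P - Q) = 0 := by rw [map_sub, hPQ, sub_self]
    have h2 := (s27e_dir_of_mem_span G q ζ hqG hζ (hker _ h1)).2
    rw [map_sub, sub_eq_zero] at h2
    exact h2
  have hinv : ∀ f : R, MvPolynomial.aeval v (Function.surjInv hsurj f) = f :=
    Function.surjInv_eq hsurj
  have hD : ∀ ζ : Fin N → κ, s27e_jac G q *ᵥ ζ = 0 → ∃ D : R →ₗ[κ] κ,
      (∀ P : MvPolynomial (Fin N) κ, D (MvPolynomial.aeval v P) = s27e_dir q ζ P) ∧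
        ∀ f g : R, D (f * g) = φ f * D g + φ g * D f := by
    intro ζ hζ
    have hkey : ∀ P : MvPolynomial (Fin N) κ,
        s27e_dir q ζ (Function.surjInv hsurj (MvPolynomial.aeval v P)) = s27e_dir q ζ P :=
      fun P => hwd ζ hζ _ _ (hinv _)
    refine ⟨{ toFun := fun f => s27e_dir q ζ (Function.surjInv hsurj f)
              map_add' := ?_
              map_smul' := ?_ }, ?_, ?_⟩
    · intro f g
      rw [← map_add]
      apply hwd ζ hζ
      rw [hinv, map_add, hinv, hinv]
    · intro a f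
      rw [RingHom.id_apply, ← map_smul]
      apply hwd ζ hζ
      rw [hinv, map_smul, hinv]
    · intro P
      exact hkey P
    · intro f g
      show s27e_dir q ζ (Function.surjInv hsurj (f * g)) =
        φ f * s27e_dir q ζ (Function.surjInv hsurj g) + φ g * s27e_dir q ζ (Function.surjInv hsurj f)
      have h1 : s27e_dir q ζ (Function.surjInv hsurj (f * g)) =
          s27e_dir q ζ (Function.surjInv hsurj f * Function.surjInv hsurj g) := by
        apply hwd ζ hζ
        rw [hinv, map_mul, hinv, hinv]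
      rw [h1, s27e_dir_mul, ← hφ, ← hφ, hinv, hinv]
  obtain ⟨D₁, hD₁, hL₁⟩ := hD ξ hξ
  obtain ⟨D₂, hD₂, hL₂⟩ := hD η hη
  obtain ⟨c₁, c₂, hc, h0⟩ := s27e_tangent_dim_le_one φ D₁ D₂ hL₁ hL₂
  refine ⟨c₁, c₂, hc, ?_⟩
  funext t
  have h1 := LinearMap.congr_fun h0 (MvPolynomial.aeval v (X t : MvPolynomial (Fin N) κ))
  rw [LinearMap.add_apply, LinearMap.smul_apply, LinearMap.smul_apply, hD₁, hD₂, s27e_dir_X,
    s27e_dir_X, LinearMap.zero_apply] at h1
  exact h1

end Glue

section Cert

variable {κ : Type*} [Field κ] {N : ℕ} {R : Type*} [CommRing R] [Algebra κ R]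

/-- the minors of size `N - 1` of the Jacobian matrix, as polynomials. -/
def s27e_minorPoly {ι : Type*} (G : ι → MvPolynomial (Fin N) κ)
    (γ : (Fin (N - 1) → ι) × (Fin (N - 1) → Fin N)) : MvPolynomial (Fin N) κ :=
  (Matrix.of fun s t => pderiv (γ.2 t) (G (γ.1 s))).det

theorem s27e_eval_minorPoly {ι : Type*} (G : ι → MvPolynomial (Fin N) κ)
    (γ : (Fin (N - 1) → ι) × (Fin (N - 1) → Fin N)) (q : Fin N → κ) :
    eval q (s27e_minorPoly G γ) = ((s27e_jac G q).submatrix γ.1 γ.2).det := by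
  unfold s27e_minorPoly
  rw [RingHom.map_det]
  rfl

/-- **(J1) + (J4) + (J5)**: the minors of size `N - 1` of the Jacobian matrix of a presentation of
a Dedekind algebra over an algebraically closed field generate the unit ideal. -/
theorem s27e_jacobian_cert [IsAlgClosed κ] [IsDedekindDomain R] {ι : Type*} [Fintype ι]
    (v : Fin N → R) (G : ι → MvPolynomial (Fin N) κ)
    (hsurj : Function.Surjective (MvPolynomial.aeval v : MvPolynomial (Fin N) κ → R))
    (hker : ∀ P : MvPolynomial (Fin N) κ, MvPolynomial.aeval v P = 0 →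
      P ∈ Ideal.span (Set.range G))
    (hG : ∀ β, MvPolynomial.aeval v (G β) = 0) :
    ∃ b : ((Fin (N - 1) → ι) × (Fin (N - 1) → Fin N)) → R,
      ∑ γ, b γ * MvPolynomial.aeval v (s27e_minorPoly G γ) = 1 := by
  have : Algebra.FiniteType κ R :=
    Algebra.FiniteType.of_surjective (MvPolynomial.aeval v : MvPolynomial (Fin N) κ →ₐ[κ] R) hsurj
  apply s27e_nullstellensatz_cert (κ := κ)
  intro φ
  obtain ⟨r, c, hrc⟩ := s27e_exists_minor_at_point v G hsurj hker hG φ
  refine ⟨(r, c), ?_⟩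
  rw [comp_aeval_apply]
  show eval (fun t => φ (v t)) (s27e_minorPoly G (r, c)) ≠ 0
  rw [s27e_eval_minorPoly]
  exact hrc

end Cert

end Fermat.Agent.Lib.S27
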