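/-
Programme Z (S27), reduction half, brick [JAC] (helper8), parts (J6) and (J7).  Mathlib only.

(J6) dual-number Taylor expansion of a multivariate polynomial.
(J7) `MvPolynomial.map` commutes with the minors of the Jacobian matrix.
-/
import Fermat.Agent.Lib.S27.EJacGlue

set_option autoImplicit false

noncomputable section

namespace Fermat.Agent.Lib.S27

open MvPolynomial Matrix

section J6

variable {κ : Type*} [CommRing κ] {σ : Type*} [Fintype σ]

/-- **(J6)**: `P(q + ε ξ) = P(q) + ε Σ_t ξ_t ∂_t P(q)` in the dual numbers. -/
theorem s27e_aeval_dualNumber (P : MvPolynomial σ κ) (q ξ : σ → κ) :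
    MvPolynomial.aeval
        (fun t => (TrivSqZeroExt.inl (q t) + TrivSqZeroExt.inr (ξ t) : DualNumber κ)) P =
      TrivSqZeroExt.inl (eval q P) + TrivSqZeroExt.inr (∑ t, ξ t * eval q (pderiv t P)) := by
  classical
  induction P using MvPolynomial.induction_on with
  | C a =>
    rw [aeval_C, eval_C]
    simp only [pderiv_C, map_zero, mul_zero, Finset.sum_const_zero, TrivSqZeroExt.inr_zero,
      add_zero]
    rfl
  | add P Q hP hQ =>
    rw [map_add, hP, hQ, map_add]
    simp only [map_add, mul_add, Finset.sum_add_distrib, TrivSqZeroExt.inl_add,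
      TrivSqZeroExt.inr_add]
    abel
  | mul_X P t hP =>
    rw [map_mul, hP, aeval_X, map_mul, eval_X]
    have h1 : ∑ s, ξ s * eval q (pderiv s (P * X t)) =
        (∑ s, ξ s * eval q (pderiv s P)) * q t + eval q P * ξ t := by
      simp only [pderiv_mul, map_add, map_mul, eval_X, mul_add, Finset.sum_add_distrib]
      congr 1
      · rw [Finset.sum_mul]
        exact Finset.sum_congr rfl fun s _ => by ring
      · rw [Finset.sum_eq_single t]
        · rw [pderiv_X_self, map_one, mul_one, mul_comm]
        · intro s _ hs
          rw [pderiv_X_of_ne (Ne.symm hs), map_zero, mul_zero, mul_zero]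
        · intro h
          exact absurd (Finset.mem_univ t) h
    rw [h1]
    ext
    · simp
    · simp [TrivSqZeroExt.snd_mul]
      ring

end J6

section J7

variable {κ κ' : Type*} [Field κ] [Field κ'] {N : ℕ}

/-- **(J7)**: base change of the minors of the Jacobian matrix. -/
theorem s27e_map_minorPoly {A B : Type*} [CommRing A] [CommRing B] (f : A →+* B) {ι : Type*}
    {m : ℕ} (G : ι → MvPolynomial (Fin N) A) (r : Fin m → ι) (c : Fin m → Fin N) :
    MvPolynomial.map f (Matrix.of fun s t => pderiv (c t) (G (r s))).det =
      (Matrix.of fun s t => pderiv (c t) (MvPolynomial.map f (G (r s)))).det := by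
  rw [RingHom.map_det]
  congr 1
  ext s t
  simp only [RingHom.mapMatrix_apply, Matrix.map_apply, Matrix.of_apply, pderiv_map]

end J7

end Fermat.Agent.Lib.S27
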