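/-
Programme Z (S27), reduction half, brick [JAC] (helper8): (JK) the certificate on the generic fibre
and (J7), in the vocabulary of `RJacDef.lean`.  Mathlib + `RJacDef` only.
-/
import Fermat.Agent.Lib.S27.RJacDef
import Fermat.Agent.Lib.S27.EJac6

set_option autoImplicit false

noncomputable section

namespace Fermat.Agent.Lib.S27

open MvPolynomial

theorem s27e_minorPoly_eq {κ : Type*} [Field κ] {ι : Type*} {N : ℕ}
    (G : ι → MvPolynomial (Fin N) κ) (γ : s27r_Gam ι N) : s27e_minorPoly G γ = s27r_minor G γ :=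
  rfl

/-- **(JK)**: the `(N-1)`-minors of the Jacobian matrix of a presentation of a Dedekind algebra
over an algebraically closed field generate the unit ideal. -/
theorem s27e_cert {κ R : Type*} [Field κ] [IsAlgClosed κ] [CommRing R] [Algebra κ R]
    [IsDedekindDomain R] {N : ℕ} {ι : Type*} [Fintype ι] (v : Fin N → R)
    (G : ι → MvPolynomial (Fin N) κ)
    (hsurj : Function.Surjective (aeval v : MvPolynomial (Fin N) κ →ₐ[κ] R))
    (hker : RingHom.ker (aeval v : MvPolynomial (Fin N) κ →ₐ[κ] R) = Ideal.span (Set.range G)) :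
    ∃ b : s27r_Gam ι N → R, ∑ γ, b γ * aeval v (s27r_minor G γ) = 1 := by
  have hG : ∀ β, aeval v (G β) = 0 := by
    intro β
    have : G β ∈ RingHom.ker (aeval v : MvPolynomial (Fin N) κ →ₐ[κ] R) := by
      rw [hker]
      exact Ideal.subset_span ⟨β, rfl⟩
    exact this
  have hker' : ∀ P : MvPolynomial (Fin N) κ, aeval v P = 0 → P ∈ Ideal.span (Set.range G) := by
    intro P hP
    rw [← hker]
    exact hP
  exact s27e_jacobian_cert v G hsurj hker' hG

/-- **(J7)**: base change of the minors. -/
theorem s27e_map_minor {κ κ' : Type*} [CommRing κ] [CommRing κ'] (f : κ →+* κ') {ι : Type*}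
    {N : ℕ} (G : ι → MvPolynomial (Fin N) κ) (γ : s27r_Gam ι N) :
    MvPolynomial.map f (s27r_minor G γ) = s27r_minor (fun s => MvPolynomial.map f (G s)) γ :=
  s27e_map_minorPoly f G γ.1 γ.2

end Fermat.Agent.Lib.S27
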