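/-
Programme Z (S27), reduction half, brick [GR-D] part 10 (helper9, prefix `s27j_`): DIVISORS OF
FUNCTIONS and push-forward along a map of places (generic; Mathlib + the divisor definitions).

* `s27j_div f : Divisor K F` (needs `HasPrincipalDivisors K F`), `s27j_div_apply`, `s27j_div_degree`,
  `s27j_div_mul`, `s27j_div_unique`, `s27j_fin` (finite support of `ord · f`);
* `s27j_mapDomain_eq_zero`, `s27j_mapDomain_eq_single` : fibre sums of a push-forward;
* `s27j_degree_eq_sum`, `s27j_degree_mapDomain` : with all places of degree one, the degree is the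
  sum of the coefficients and is preserved by push-forward;
* `s27j_eq_of_degree` : two divisors of the same degree which agree off one place agree there.
-/
import Mathlib
import Fermat.Prelude.Def_AlgebraicCurve_DivisorClassGroup

set_option autoImplicit false
set_option linter.unusedSectionVars false
set_option linter.unusedVariables false

noncomputable section

namespace Fermat.Agent.Lib.S27

open AlgebraicCurve

/-- `mapDomain` evaluated at a point. -/
theorem s27j_mapDomain_apply {α β : Type*} (r : α → β) (Dv : α →₀ ℤ) (Q : β)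
    [DecidablePred fun P => r P = Q] :
    Finsupp.mapDomain r Dv Q = ∑ P ∈ Dv.support with r P = Q, Dv P := by
  classical
  rw [Finsupp.mapDomain, Finsupp.sum_apply, Finsupp.sum, Finset.sum_filter]
  refine Finset.sum_congr rfl fun P _ => ?_
  rw [Finsupp.single_apply]

theorem s27j_mapDomain_eq_zero {α β : Type*} (r : α → β) (Dv : α →₀ ℤ) (Q : β)
    (h : ∀ P, r P = Q → Dv P = 0) : Finsupp.mapDomain r Dv Q = 0 := by
  classical
  rw [s27j_mapDomain_apply]
  refine Finset.sum_eq_zero fun P hP => ?_
  exact h P (Finset.mem_filter.mp hP).2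

theorem s27j_mapDomain_eq_single {α β : Type*} (r : α → β) (Dv : α →₀ ℤ) (Q : β) (P₀ : α)
    (h₀ : r P₀ = Q) (h : ∀ P, r P = Q → P ≠ P₀ → Dv P = 0) :
    Finsupp.mapDomain r Dv Q = Dv P₀ := by
  classical
  rw [s27j_mapDomain_apply]
  by_cases hmem : P₀ ∈ Dv.support
  · rw [Finset.sum_eq_single_of_mem P₀ (Finset.mem_filter.mpr ⟨hmem, h₀⟩)]
    intro P hP hne
    exact h P (Finset.mem_filter.mp hP).2 hne
  · rw [Finsupp.notMem_support_iff.mp hmem]
    refine Finset.sum_eq_zero fun P hP => ?_
    have hP' := Finset.mem_filter.mp hP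
    by_cases hne : P = P₀
    · rw [hne]
      exact Finsupp.notMem_support_iff.mp hmem
    · exact h P hP'.2 hne

variable {K F : Type*} [Field K] [Field F] [Algebra K F]

section Div

variable [HasPrincipalDivisors K F]

variable (K) in
/-- **the divisor of a function** (`0` for the zero function). -/
def s27j_div (f : F) : Divisor K F := by
  classical
  exact if hf : f = 0 then 0
    else Classical.choose (HasPrincipalDivisors.exists_divisor (K := K) f hf)

theorem s27j_div_apply (f : F) (P : Place K F) : s27j_div K f P = P.ord f := by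
  classical
  unfold s27j_div
  by_cases hf : f = 0
  · rw [dif_pos hf, hf, Place.ord_zero]
    rfl
  · rw [dif_neg hf]
    exact (Classical.choose_spec (HasPrincipalDivisors.exists_divisor (K := K) f hf)).1 P

theorem s27j_div_degree (f : F) : Divisor.degree (s27j_div K f) = 0 := by
  classical
  unfold s27j_div
  by_cases hf : f = 0
  · rw [dif_pos hf, map_zero]
  · rw [dif_neg hf]
    exact (Classical.choose_spec (HasPrincipalDivisors.exists_divisor (K := K) f hf)).2

theorem s27j_div_unique {f : F} (Dv : Divisor K F) (h : ∀ P, Dv P = P.ord f) :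
    Dv = s27j_div K f := by
  ext P
  rw [h P, s27j_div_apply]

theorem s27j_div_mul {f g : F} (hf : f ≠ 0) (hg : g ≠ 0) :
    s27j_div K (f * g) = s27j_div K f + s27j_div K g := by
  ext P
  rw [Finsupp.add_apply, s27j_div_apply, s27j_div_apply, s27j_div_apply, P.ord_mul hf hg]

variable (K) in
/-- divisors of functions have finite support. -/
theorem s27j_fin (y : F) : {P : Place K F | P.ord y ≠ 0}.Finite := by
  refine (s27j_div K y).support.finite_toSet.subset ?_
  intro P hP
  rw [Finset.mem_coe, Finsupp.mem_support_iff, s27j_div_apply]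
  exact hP

end Div

/-- with all places of degree one, the degree is the sum of the coefficients. -/
theorem s27j_degree_eq_sum (hdeg : ∀ P : Place K F, P.deg = 1) (D : Divisor K F) :
    Divisor.degree D = D.sum fun _ n => n := by
  unfold Divisor.degree
  rw [Finsupp.liftAddHom_apply]
  refine Finsupp.sum_congr fun P _ => ?_
  rw [AddMonoidHom.mulRight_apply, hdeg P]
  simp

variable {k Fb : Type*} [Field k] [Field Fb] [Algebra k Fb]

/-- push-forward preserves the degree when all places have degree one. -/
theorem s27j_degree_mapDomain (hdeg : ∀ P : Place K F, P.deg = 1)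
    (hdegb : ∀ Q : Place k Fb, Q.deg = 1) (r : Place K F → Place k Fb) (D : Divisor K F) :
    Divisor.degree (Finsupp.mapDomain r D : Divisor k Fb) = Divisor.degree D := by
  rw [s27j_degree_eq_sum hdegb, s27j_degree_eq_sum hdeg,
    Finsupp.sum_mapDomain_index (fun _ => rfl) (fun _ _ _ => rfl)]

/-- two divisors of the same degree which agree off one place agree there. -/
theorem s27j_eq_of_degree (hdegb : ∀ Q : Place k Fb, Q.deg = 1) (E E' : Divisor k Fb)
    (Q₀ : Place k Fb) (hdeg : Divisor.degree E = Divisor.degree E')
    (h : ∀ Q, Q ≠ Q₀ → E Q = E' Q) : E Q₀ = E' Q₀ := by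
  classical
  have h1 : E - E' = Finsupp.single Q₀ (E Q₀ - E' Q₀) := by
    ext Q
    rw [Finsupp.sub_apply]
    by_cases hQ : Q = Q₀
    · rw [hQ, Finsupp.single_eq_same]
    · rw [Finsupp.single_eq_of_ne hQ, h Q hQ, sub_self]
  have h2 : Divisor.degree (E - E') = 0 := by
    rw [map_sub, hdeg, sub_self]
  rw [h1, Divisor.degree_single, hdegb Q₀] at h2
  have h3 : E Q₀ - E' Q₀ = 0 := by simpa using h2
  exact sub_eq_zero.mp h3

end Fermat.Agent.Lib.S27
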