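/-
Programme Z (S27), reduction half, brick [GR-D] part 2 (helper9, prefix `s27j_`): two abstract
lemmas for CONSERVATION OF NUMBER (Mathlib only).

* `s27j_cramer` (local generators lift): `𝔭 = (γ_1, …, γ_N)` an ideal of `R`, `M ≤ 𝔑` ideals with
  `𝔑` prime and `M ∩ 𝔭 ⊆ M · 𝔭`; if `τ ∈ 𝔭` generates `𝔭` modulo `M` up to factors outside `𝔑`
  (`s_j γ_j - u_j τ ∈ M`, `s_j ∉ 𝔑`), then ONE factor `s ∉ 𝔑` satisfies `s · 𝔭 ⊆ (τ)`
  (Cramer's rule for the matrix `diag(s_j) - (m_{jl})`, `m_{jl} ∈ M`).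
* `s27j_exists_val` (existence of a zero): `R ⊆ F` a subring of a field, `S` a submonoid of `R`,
  `f ∈ R` with `(f) ∩ S = ∅`: there is a valuation ring `V ⊇ R` of `F` in which `f` is a non-unit
  and every element of `S` is a unit.
-/
import Mathlib

set_option autoImplicit false
set_option linter.unusedSectionVars false
set_option linter.unusedVariables false

noncomputable section

namespace Fermat.Agent.Lib.S27

open Matrix

/-- **local generators lift** (Cramer). -/
theorem s27j_cramer {R : Type*} [CommRing R] {N : ℕ} (γ : Fin N → R) (M 𝔑 : Ideal R)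
    [h𝔑 : 𝔑.IsPrime] (hM𝔑 : M ≤ 𝔑) (τ : R)
    (hMγ : ∀ y ∈ M, y ∈ Ideal.span (Set.range γ) →
      ∃ m : Fin N → R, (∀ l, m l ∈ M) ∧ y = ∑ l, m l * γ l)
    (hτ : τ ∈ Ideal.span (Set.range γ))
    (hloc : ∀ j, ∃ s u : R, s ∉ 𝔑 ∧ s * γ j - u * τ ∈ M) :
    ∃ s : R, s ∉ 𝔑 ∧ ∀ g ∈ Ideal.span (Set.range γ), s * g ∈ Ideal.span {τ} := by
  classical
  choose s u hs hsu using hloc
  have hmem : ∀ j, s j * γ j - u j * τ ∈ Ideal.span (Set.range γ) := fun j =>
    Ideal.sub_mem _ (Ideal.mul_mem_left _ _ (Ideal.subset_span ⟨j, rfl⟩))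
      (Ideal.mul_mem_left _ _ hτ)
  choose m hmM hm using fun j => hMγ _ (hsu j) (hmem j)
  set C : Matrix (Fin N) (Fin N) R := Matrix.diagonal s - Matrix.of m with hC
  have hCγ : C *ᵥ γ = fun j => u j * τ := by
    funext j
    rw [hC, Matrix.sub_mulVec, Pi.sub_apply, Matrix.mulVec_diagonal]
    have h1 : (Matrix.of m *ᵥ γ) j = ∑ l, m j l * γ l := rfl
    rw [h1, ← hm j]
    ring
  have hdet : ∀ l, C.det * γ l ∈ Ideal.span {τ} := by
    intro l
    have h1 : (C.adjugate * C) *ᵥ γ = C.det • γ := by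
      rw [Matrix.adjugate_mul, Matrix.smul_mulVec, Matrix.one_mulVec]
    rw [← Matrix.mulVec_mulVec, hCγ] at h1
    have h2 := congrFun h1 l
    rw [Pi.smul_apply, smul_eq_mul] at h2
    rw [← h2, Ideal.mem_span_singleton']
    refine ⟨∑ j, C.adjugate l j * u j, ?_⟩
    rw [Matrix.mulVec, dotProduct, Finset.sum_mul]
    refine Finset.sum_congr rfl fun j _ => ?_
    ring
  have hdetN : C.det ∉ 𝔑 := by
    -- modulo `M` the matrix is diagonal
    have h1 : (Ideal.Quotient.mk M) C.det = ∏ j, (Ideal.Quotient.mk M) (s j) := by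
      rw [RingHom.map_det]
      have h2 : (Ideal.Quotient.mk M).mapMatrix C =
          Matrix.diagonal fun j => (Ideal.Quotient.mk M) (s j) := by
        ext j l
        rw [RingHom.mapMatrix_apply, Matrix.map_apply, hC, Matrix.sub_apply, map_sub,
          Matrix.of_apply, Ideal.Quotient.eq_zero_iff_mem.mpr (hmM j l), sub_zero,
          Matrix.diagonal_apply, Matrix.diagonal_apply]
        split_ifs
        · rfl
        · exact map_zero _
      rw [h2, Matrix.det_diagonal]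
    rw [← map_prod, Ideal.Quotient.eq] at h1
    intro hdet𝔑
    have h3 : ∏ j, s j ∈ 𝔑 := by
      have := Ideal.sub_mem 𝔑 hdet𝔑 (hM𝔑 h1)
      rwa [sub_sub_cancel] at this
    obtain ⟨j, -, hj⟩ := (h𝔑.prod_mem_iff).mp h3
    exact hs j hj
  refine ⟨C.det, hdetN, fun g hg => ?_⟩
  induction hg using Submodule.span_induction with
  | mem y hy =>
    obtain ⟨l, rfl⟩ := hy
    exact hdet l
  | zero =>
    rw [mul_zero]
    exact Ideal.zero_mem _
  | add y z _ _ hy hz =>
    rw [mul_add]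
    exact Ideal.add_mem _ hy hz
  | smul a y _ hy =>
    rw [smul_eq_mul, mul_left_comm]
    exact Ideal.mul_mem_left _ a hy

/-! ### Existence of a zero -/

variable {F : Type*} [Field F]

/-- the localisation `S⁻¹R` inside the field `F`. -/
def s27j_locSub (R : Subring F) (S : Submonoid ↥R) : Subring F where
  carrier := {y | ∃ f g : ↥R, g ∈ S ∧ y * (g : F) = (f : F)}
  mul_mem' := by
    rintro y y' ⟨f, g, hg, hy⟩ ⟨f', g', hg', hy'⟩
    refine ⟨f * f', g * g', S.mul_mem hg hg', ?_⟩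
    rw [Subring.coe_mul, Subring.coe_mul, ← hy, ← hy']
    ring
  one_mem' := ⟨1, 1, S.one_mem, by simp⟩
  add_mem' := by
    rintro y y' ⟨f, g, hg, hy⟩ ⟨f', g', hg', hy'⟩
    refine ⟨f * g' + f' * g, g * g', S.mul_mem hg hg', ?_⟩
    rw [Subring.coe_add, Subring.coe_mul, Subring.coe_mul, Subring.coe_mul, ← hy, ← hy']
    ring
  zero_mem' := ⟨0, 1, S.one_mem, by simp⟩
  neg_mem' := by
    rintro y ⟨f, g, hg, hy⟩
    exact ⟨-f, g, hg, by rw [Subring.coe_neg, ← hy]; ring⟩

theorem s27j_coe_mem_locSub (R : Subring F) (S : Submonoid ↥R) (r : ↥R) :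
    (r : F) ∈ s27j_locSub R S := ⟨r, 1, S.one_mem, by simp⟩

/-- **existence of a zero**: if no multiple of `f` lies in the submonoid `S`, some valuation ring
of `F` containing `R` makes `f` a non-unit and the elements of `S` units. -/
theorem s27j_exists_val (R : Subring F) (S : Submonoid ↥R) (f : ↥R)
    (hdisj : ∀ g : ↥R, f * g ∉ S) :
    ∃ V : ValuationSubring F, (∀ r : ↥R, (r : F) ∈ V) ∧ (f : F) ∈ V.nonunits ∧
      ∀ z ∈ S, ((z : F))⁻¹ ∈ V := by
  set T : Subring F := s27j_locSub R S with hT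
  have h0S : ∀ z ∈ S, (z : F) ≠ 0 := by
    intro z hz h0
    have : z = 0 := Subtype.ext h0
    apply hdisj 0
    rw [mul_zero, ← this]
    exact hz
  set fT : ↥T := ⟨(f : F), s27j_coe_mem_locSub R S f⟩ with hfT
  have hI : Ideal.span {fT} ≠ ⊤ := by
    intro htop
    have h1 : (1 : ↥T) ∈ Ideal.span {fT} := by
      rw [htop]
      exact Submodule.mem_top
    obtain ⟨t, ht⟩ := Ideal.mem_span_singleton'.mp h1
    obtain ⟨r, z, hz, htz⟩ := t.2
    have h2 : ((t : F)) * (f : F) = 1 := by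
      have := congrArg (fun y : ↥T => (y : F)) ht
      simpa [hfT] using this
    apply hdisj r
    have h3 : f * r = z := by
      apply Subtype.ext
      rw [Subring.coe_mul, ← htz]
      calc (f : F) * ((t : F) * (z : F)) = ((t : F) * (f : F)) * (z : F) := by ring
        _ = (z : F) := by rw [h2, one_mul]
    rw [h3]
    exact hz
  obtain ⟨V, hTV, hIV⟩ := Ideal.image_subset_nonunits_valuationSubring (Ideal.span {fT}) hI
  refine ⟨V, fun r => hTV (s27j_coe_mem_locSub R S r), ?_, fun z hz => ?_⟩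
  · exact hIV ⟨fT, Ideal.subset_span rfl, rfl⟩
  · apply hTV
    refine ⟨1, z, hz, ?_⟩
    rw [inv_mul_cancel₀ (h0S z hz)]
    rfl

end Fermat.Agent.Lib.S27
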