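/-
Programme Z (S27), reduction half, brick [GR-D] part 6 (helper9, prefix `s27j_`): THE KERNEL OF THE
EVALUATION AT AN INTEGRAL PLACE.

For an integral place `P` with `α = x(P)`, `β i = w_i(P)` (all in `A`):
* `s27j_sub_const_mem` : `f - (f(P))` lies in the ideal `I_P = (x - α, w_i - β_i)` of the model;
* `s27j_ker_evRA` : `ker (R_A → A) = I_P`;
* `s27j_ker_phi` : the point of the special fibre is `ker φ_P = I_P R̄`;
* `s27j_mRA_factor` : a non-zero element of `𝔪 R_A` is `c · y'` with `c ∈ 𝔪 ∖ 0`, `y' ∈ R_A`;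
* `s27j_hMgam` : `𝔪R_A ∩ I_P ⊆ 𝔪R_A · I_P` in the form needed by `s27j_cramer`.
-/
import Fermat.Agent.Lib.S27.JDefs
import Fermat.Agent.Lib.S27.JZero

set_option autoImplicit false
set_option linter.unusedSectionVars false
set_option linter.unusedVariables false
set_option linter.style.haveILetI false

noncomputable section

namespace Fermat.Agent.Lib.S27

open AlgebraicCurve Fermat.Agent.Lib.FF Fermat.Agent.Lib.S44 Fermat.Agent.Lib.S19
  Fermat.Agent.Lib.S37 Polynomial IsLocalRing IsDedekindDomain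

variable {K F : Type} [Field K] [Field F] [Algebra K F] [IsAlgClosed K] [CharZero K] {x : F}
  [FFGen K x] {W : s27r_WD K F x} {A : ValuationSubring K}

/-- the value of `x` at an integral place. -/
def s27j_alpha (hsc : s27r_SCUnit W A) {P : Place K F} (hP : s27j_Int W A P) : ↥A :=
  s27j_evRA hsc hP ⟨x, s27r_x_mem W A⟩

/-- the values of the `w i` at an integral place. -/
def s27j_beta (hsc : s27r_SCUnit W A) {P : Place K F} (hP : s27j_Int W A P) (i : Fin W.n) : ↥A :=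
  s27j_evRA hsc hP ⟨W.w i, s27r_w_mem W A i⟩

/-- the generators `x - α`, `w_i - β_i` of the kernel of the evaluation. -/
def s27j_gam (hsc : s27r_SCUnit W A) {P : Place K F} (hP : s27j_Int W A P) :
    Fin (W.n + 1) → ↥(s27r_RA W A) :=
  Fin.cons (⟨x, s27r_x_mem W A⟩ - s27r_constA W A (s27j_alpha hsc hP))
    fun i => ⟨W.w i, s27r_w_mem W A i⟩ - s27r_constA W A (s27j_beta hsc hP i)

/-- the ideal `(x - α, w_i - β_i)`. -/
def s27j_I (hsc : s27r_SCUnit W A) {P : Place K F} (hP : s27j_Int W A P) :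
    Ideal ↥(s27r_RA W A) :=
  Ideal.span (Set.range (s27j_gam hsc hP))

theorem s27j_x_sub_mem_I (hsc : s27r_SCUnit W A) {P : Place K F} (hP : s27j_Int W A P) :
    (⟨x, s27r_x_mem W A⟩ : ↥(s27r_RA W A)) - s27r_constA W A (s27j_alpha hsc hP) ∈
      s27j_I hsc hP :=
  Ideal.subset_span ⟨0, by rw [s27j_gam, Fin.cons_zero]⟩

theorem s27j_w_sub_mem_I (hsc : s27r_SCUnit W A) {P : Place K F} (hP : s27j_Int W A P)
    (i : Fin W.n) :
    (⟨W.w i, s27r_w_mem W A i⟩ : ↥(s27r_RA W A)) - s27r_constA W A (s27j_beta hsc hP i) ∈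
      s27j_I hsc hP :=
  Ideal.subset_span ⟨i.succ, by rw [s27j_gam, Fin.cons_succ]⟩

theorem s27j_evA_C (a : ↥A) : s27r_evA W A (C a) = s27r_constA W A a := by
  simp [s27r_evA]

theorem s27j_evA_X : s27r_evA W A X = ⟨x, s27r_x_mem W A⟩ := by
  simp [s27r_evA]

/-- the evaluation of a polynomial in `x`. -/
theorem s27j_evRA_evA (hsc : s27r_SCUnit W A) {P : Place K F} (hP : s27j_Int W A P)
    (q : (↥A)[X]) : s27j_evRA hsc hP (s27r_evA W A q) = q.eval (s27j_alpha hsc hP) := by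
  have h : (s27j_evRA hsc hP).comp (s27r_evA W A) = Polynomial.evalRingHom (s27j_alpha hsc hP) := by
    apply Polynomial.ringHom_ext
    · intro a
      rw [RingHom.comp_apply, s27j_evA_C, s27j_evRA_const, Polynomial.coe_evalRingHom,
        Polynomial.eval_C]
    · rw [RingHom.comp_apply, s27j_evA_X, Polynomial.coe_evalRingHom, Polynomial.eval_X]
      rfl
  have := congrArg (fun φ : (↥A)[X] →+* ↥A => φ q) h
  simpa using this

/-- `q(x) - q(α) ∈ I_P`. -/
theorem s27j_evA_sub_mem (hsc : s27r_SCUnit W A) {P : Place K F} (hP : s27j_Int W A P)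
    (q : (↥A)[X]) :
    s27r_evA W A q - s27r_constA W A (q.eval (s27j_alpha hsc hP)) ∈ s27j_I hsc hP := by
  have h := Polynomial.sub_dvd_eval_sub (⟨x, s27r_x_mem W A⟩ : ↥(s27r_RA W A))
    (s27r_constA W A (s27j_alpha hsc hP)) (q.map (s27r_constA W A))
  rw [Polynomial.eval_map, Polynomial.eval_map, Polynomial.eval₂_at_apply] at h
  obtain ⟨u, hu⟩ := h
  have h2 : s27r_evA W A q = Polynomial.eval₂ (s27r_constA W A) ⟨x, s27r_x_mem W A⟩ q := rfl
  rw [h2, hu]
  exact Ideal.mul_mem_right _ _ (s27j_x_sub_mem_I hsc hP)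

/-- **`f - f(P) ∈ I_P`.** -/
theorem s27j_sub_const_mem (hsc : s27r_SCUnit W A) {P : Place K F} (hP : s27j_Int W A P)
    (f : ↥(s27r_RA W A)) :
    f - s27r_constA W A (s27j_evRA hsc hP f) ∈ s27j_I hsc hP := by
  obtain ⟨a, rfl⟩ := s27r_exists_PsiA hsc f
  rw [← Ideal.Quotient.eq]
  have h1 : ∀ q : (↥A)[X], Ideal.Quotient.mk (s27j_I hsc hP) (s27r_evA W A q) =
      Ideal.Quotient.mk (s27j_I hsc hP) (s27r_constA W A (q.eval (s27j_alpha hsc hP))) :=
    fun q => Ideal.Quotient.eq.mpr (s27j_evA_sub_mem hsc hP q)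
  have h2 : ∀ i : Fin W.n, Ideal.Quotient.mk (s27j_I hsc hP)
      (⟨W.w i, s27r_w_mem W A i⟩ : ↥(s27r_RA W A)) =
      Ideal.Quotient.mk (s27j_I hsc hP) (s27r_constA W A (s27j_beta hsc hP i)) :=
    fun i => Ideal.Quotient.eq.mpr (s27j_w_sub_mem_I hsc hP i)
  have h3 : s27j_evRA hsc hP (s27r_PsiA W A a) =
      ∑ i, (a i).eval (s27j_alpha hsc hP) * s27j_beta hsc hP i := by
    unfold s27r_PsiA
    rw [map_sum]
    refine Finset.sum_congr rfl fun i _ => ?_
    rw [map_mul, s27j_evRA_evA]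
    rfl
  rw [h3]
  unfold s27r_PsiA
  rw [map_sum, map_sum, map_sum]
  refine Finset.sum_congr rfl fun i _ => ?_
  rw [map_mul, map_mul, map_mul, h1, h2]

theorem s27j_I_le_ker (hsc : s27r_SCUnit W A) {P : Place K F} (hP : s27j_Int W A P) :
    s27j_I hsc hP ≤ RingHom.ker (s27j_evRA hsc hP) := by
  unfold s27j_I
  rw [Ideal.span_le]
  rintro _ ⟨l, rfl⟩
  rw [SetLike.mem_coe, RingHom.mem_ker]
  refine Fin.cases ?_ (fun i => ?_) l
  · rw [s27j_gam, Fin.cons_zero, map_sub, s27j_evRA_const]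
    exact sub_self _
  · rw [s27j_gam, Fin.cons_succ, map_sub, s27j_evRA_const]
    exact sub_self _

/-- **the kernel of the evaluation is `I_P`.** -/
theorem s27j_ker_evRA (hsc : s27r_SCUnit W A) {P : Place K F} (hP : s27j_Int W A P) :
    RingHom.ker (s27j_evRA hsc hP) = s27j_I hsc hP := by
  refine le_antisymm (fun f hf => ?_) (s27j_I_le_ker hsc hP)
  have h := s27j_sub_const_mem hsc hP f
  rw [RingHom.mem_ker] at hf
  rwa [hf, map_zero, sub_zero] at h

theorem s27j_mem_I_iff (hsc : s27r_SCUnit W A) {P : Place K F} (hP : s27j_Int W A P)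
    (f : ↥(s27r_RA W A)) : f ∈ s27j_I hsc hP ↔ s27j_evRA hsc hP f = 0 := by
  rw [← s27j_ker_evRA, RingHom.mem_ker]

theorem s27j_constA_mem_mRA {c : ↥A} (hc : c ∈ maximalIdeal ↥A) :
    s27r_constA W A c ∈ s27r_mRA W A :=
  Ideal.mem_map_of_mem _ hc

/-- **the point of the special fibre is the image of `I_P`.** -/
theorem s27j_ker_phi (hsc : s27r_SCUnit W A) {P : Place K F} (hP : s27j_Int W A P) :
    RingHom.ker (s27j_phi hsc hP) = Ideal.map (s27r_mk W A) (s27j_I hsc hP) := by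
  apply le_antisymm
  · intro g hg
    obtain ⟨f, rfl⟩ := Ideal.Quotient.mk_surjective g
    rw [RingHom.mem_ker] at hg
    have h1 : s27j_phi hsc hP (s27r_mk W A f) = residue ↥A (s27j_evRA hsc hP f) :=
      s27j_phi_mk hsc hP f
    have hg' : residue ↥A (s27j_evRA hsc hP f) = 0 := h1 ▸ hg
    rw [residue_eq_zero_iff] at hg'
    have h2 : s27r_mk W A (s27r_constA W A (s27j_evRA hsc hP f)) = 0 :=
      Ideal.Quotient.eq_zero_iff_mem.mpr (s27j_constA_mem_mRA hg')
    have h3 : s27r_mk W A f = s27r_mk W A (f - s27r_constA W A (s27j_evRA hsc hP f)) := by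
      rw [map_sub, h2, sub_zero]
    show s27r_mk W A f ∈ _
    rw [h3]
    exact Ideal.mem_map_of_mem _ (s27j_sub_const_mem hsc hP f)
  · rw [Ideal.map_le_iff_le_comap]
    intro f hf
    rw [Ideal.mem_comap, RingHom.mem_ker, s27j_phi_mk, (s27j_mem_I_iff hsc hP f).mp hf, map_zero]

/-- an element of `A` whose inverse is not in `A` lies in the maximal ideal. -/
theorem s27j_mem_maximalIdeal_of_inv_notMem {c : K} (hc : c ∈ A) (hinv : c⁻¹ ∉ A) :
    (⟨c, hc⟩ : ↥A) ∈ maximalIdeal ↥A := by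
  rw [mem_maximalIdeal, mem_nonunits_iff]
  intro hu
  obtain ⟨b, hb⟩ := isUnit_iff_exists_inv.mp hu
  apply hinv
  have h1 : c * (b : K) = 1 := by
    have := congrArg (fun z : ↥A => (z : K)) hb
    simpa using this
  have : c⁻¹ = (b : K) := by
    rw [eq_comm, ← mul_eq_one_iff_eq_inv₀]
    · rw [mul_comm]; exact h1
    · intro h0
      rw [h0, zero_mul] at h1
      exact zero_ne_one h1
  rw [this]
  exact b.2

/-- **a non-zero element of `𝔪 R_A` is a non-zero constant of `𝔪` times an element of `R_A`.** -/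
theorem s27j_mRA_factor (hW : s27r_WProps W) (hsc : s27r_SCUnit W A) {y : ↥(s27r_RA W A)}
    (hy : y ∈ s27r_mRA W A) (hy0 : y ≠ 0) :
    ∃ (c : ↥A) (y' : ↥(s27r_RA W A)), c ∈ maximalIdeal ↥A ∧ c ≠ 0 ∧ y' ∉ s27r_mRA W A ∧
      y = s27r_constA W A c * y' := by
  have hyF : (y : F) ≠ 0 := fun h => hy0 (Subtype.ext h)
  obtain ⟨c₀, hc₀, a, ha, hred⟩ := s27j_scaleB hW A (s27j_RA_le_B hsc y.2) hyF
  have hy' : s27r_PsiA W A a ∉ s27r_mRA W A := fun h => hred ((s27r_mem_mRA_iff hW hsc a).mp h)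
  have hcA : c₀ ∉ A := by
    intro hc
    apply hy'
    have : s27r_PsiA W A a = s27r_constA W A ⟨c₀, hc⟩ * y :=
      Subtype.ext (by rw [s27r_PsiA_coe, ha]; rfl)
    rw [this]
    exact Ideal.mul_mem_left _ _ hy
  have hcinv : c₀⁻¹ ∈ A := (A.mem_or_inv_mem c₀).resolve_left hcA
  refine ⟨⟨c₀⁻¹, hcinv⟩, s27r_PsiA W A a, ?_, ?_, hy', ?_⟩
  · apply s27j_mem_maximalIdeal_of_inv_notMem hcinv
    rw [inv_inv]
    exact hcA
  · intro h0
    have := congrArg (fun z : ↥A => (z : K)) h0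
    simp only [ZeroMemClass.coe_zero] at this
    exact inv_ne_zero hc₀ this
  · apply Subtype.ext
    rw [Subring.coe_mul, s27r_PsiA_coe, ha, s27r_constA_coe]
    simp only
    rw [map_inv₀, ← mul_assoc, inv_mul_cancel₀ ((_root_.map_ne_zero _).mpr hc₀), one_mul]

/-- **`𝔪R_A ∩ I_P ⊆ 𝔪R_A · I_P`**, in the form needed by `s27j_cramer`. -/
theorem s27j_hMgam (hW : s27r_WProps W) (hsc : s27r_SCUnit W A) {P : Place K F}
    (hP : s27j_Int W A P) (y : ↥(s27r_RA W A)) (hy : y ∈ s27r_mRA W A)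
    (hyI : y ∈ Ideal.span (Set.range (s27j_gam hsc hP))) :
    ∃ m : Fin (W.n + 1) → ↥(s27r_RA W A), (∀ l, m l ∈ s27r_mRA W A) ∧
      y = ∑ l, m l * s27j_gam hsc hP l := by
  rcases eq_or_ne y 0 with rfl | hy0
  · exact ⟨0, fun l => Ideal.zero_mem _, by simp⟩
  obtain ⟨c, y', hc, hc0, -, rfl⟩ := s27j_mRA_factor hW hsc hy hy0
  have hev : s27j_evRA hsc hP y' = 0 := by
    have h1 := (s27j_mem_I_iff hsc hP _).mp hyI
    rw [map_mul, s27j_evRA_const] at h1
    exact (mul_eq_zero.mp h1).resolve_left hc0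
  have hy'I : y' ∈ Ideal.span (Set.range (s27j_gam hsc hP)) := (s27j_mem_I_iff hsc hP y').mpr hev
  obtain ⟨g, hg⟩ := (Ideal.mem_span_range_iff_exists_fun).mp hy'I
  refine ⟨fun l => s27r_constA W A c * g l, fun l =>
    Ideal.mul_mem_right _ _ (s27j_constA_mem_mRA hc), ?_⟩
  rw [← hg, Finset.mul_sum]
  refine Finset.sum_congr rfl fun l _ => ?_
  ring

end Fermat.Agent.Lib.S27
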