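/-
Programme Z (S27), [GR]/[JAC] glue, GENERIC part (helper5, prefix `s27r_`; Mathlib + RJacDef only).

The model `⊕ κ[x] w_i` (`w_0 = 1`) is the quotient of `κ[X_0, …, X_{n-1}]` (`X_0 ↦ x`, `X_i ↦ w_i` for
`i ≥ 1`) by the MULTIPLICATION TABLE `Ŵ_i Ŵ_j - Σ_k c_{ijk}(X_0) Ŵ_k`.  Here: the relations
`s27r_Grel`, the normal forms `s27r_nf`, "every polynomial is congruent to a normal form modulo the
table" (`s27r_exists_nf`), evaluation at generators, and compatibility with `MvPolynomial.map`
(including the minors).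
-/
import Fermat.Agent.Lib.S27.RJacDef

set_option autoImplicit false
set_option linter.unusedSectionVars false
set_option linter.unusedVariables false

noncomputable section

namespace Fermat.Agent.Lib.S27

open scoped Polynomial

variable {κ : Type*} [CommRing κ] {n : ℕ}

/-- the variable standing for `w_i` (`1` for `i = 0`). -/
def s27r_What (κ : Type*) [CommRing κ] {n : ℕ} (i : Fin n) : MvPolynomial (Fin n) κ :=
  if (i : ℕ) = 0 then 1 else MvPolynomial.X i

/-- a polynomial in `x`, as a polynomial in the variable `X_0`. -/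
def s27r_inX (hn : 0 < n) : κ[X] →ₐ[κ] MvPolynomial (Fin n) κ :=
  Polynomial.aeval (MvPolynomial.X ⟨0, hn⟩ : MvPolynomial (Fin n) κ)

/-- the normal form with coefficients `a`. -/
def s27r_nf (hn : 0 < n) (a : Fin n → κ[X]) : MvPolynomial (Fin n) κ :=
  ∑ i, s27r_inX hn (a i) * s27r_What κ i

/-- the multiplication table. -/
def s27r_Grel (hn : 0 < n) (c : Fin n → Fin n → Fin n → κ[X]) (ij : Fin n × Fin n) :
    MvPolynomial (Fin n) κ :=
  s27r_What κ ij.1 * s27r_What κ ij.2 - s27r_nf hn (c ij.1 ij.2)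

/-- the generators: `x` at the index `0`, `w_i` at `i ≥ 1`. -/
def s27r_gen {T : Type*} (xh : T) (wh : Fin n → T) : Fin n → T :=
  fun i => if (i : ℕ) = 0 then xh else wh i

theorem s27r_gen_zero {T : Type*} (hn : 0 < n) (xh : T) (wh : Fin n → T) :
    s27r_gen xh wh ⟨0, hn⟩ = xh := by
  simp [s27r_gen]

theorem s27r_gen_comp {T T' : Type*} (f : T → T') (xh : T) (wh : Fin n → T) :
    (fun i => f (s27r_gen xh wh i)) = s27r_gen (f xh) (fun i => f (wh i)) := by
  funext i
  unfold s27r_gen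
  split_ifs <;> rfl

theorem s27r_What_zero (hn : 0 < n) : s27r_What κ (⟨0, hn⟩ : Fin n) = 1 := by
  simp [s27r_What]

theorem s27r_What_of_ne {i : Fin n} (hi : (i : ℕ) ≠ 0) : s27r_What κ i = MvPolynomial.X i := by
  simp [s27r_What, hi]

theorem s27r_nf_zero (hn : 0 < n) : s27r_nf (κ := κ) hn 0 = 0 := by
  simp [s27r_nf]

theorem s27r_nf_add (hn : 0 < n) (a b : Fin n → κ[X]) :
    s27r_nf hn (a + b) = s27r_nf hn a + s27r_nf hn b := by
  simp only [s27r_nf, Pi.add_apply, map_add, add_mul, Finset.sum_add_distrib]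

theorem s27r_nf_single (hn : 0 < n) (i : Fin n) (p : κ[X]) :
    s27r_nf hn (Pi.single i p) = s27r_inX hn p * s27r_What κ i := by
  classical
  unfold s27r_nf
  rw [Finset.sum_eq_single i]
  · rw [Pi.single_eq_same]
  · intro j _ hj
    rw [Pi.single_eq_of_ne hj, map_zero, zero_mul]
  · intro h
    exact absurd (Finset.mem_univ i) h

theorem s27r_inX_X (hn : 0 < n) :
    s27r_inX (κ := κ) hn Polynomial.X = MvPolynomial.X ⟨0, hn⟩ := by
  simp [s27r_inX]

theorem s27r_nf_mul_X0 (hn : 0 < n) (a : Fin n → κ[X]) :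
    s27r_nf hn a * MvPolynomial.X ⟨0, hn⟩ = s27r_nf hn (fun i => Polynomial.X * a i) := by
  unfold s27r_nf
  rw [Finset.sum_mul]
  refine Finset.sum_congr rfl fun i _ => ?_
  rw [map_mul, s27r_inX_X]
  ring

theorem s27r_nf_mul_What (hn : 0 < n) (c : Fin n → Fin n → Fin n → κ[X]) (a : Fin n → κ[X])
    (t : Fin n) :
    s27r_nf hn a * s27r_What κ t - s27r_nf hn (fun k => ∑ i, a i * c i t k) =
      ∑ i, s27r_inX hn (a i) * s27r_Grel hn c (i, t) := by
  have h1 : s27r_nf hn (fun k => ∑ i, a i * c i t k) =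
      ∑ i, s27r_inX hn (a i) * s27r_nf hn (c i t) := by
    unfold s27r_nf
    simp only [map_sum, map_mul, Finset.sum_mul, Finset.mul_sum]
    rw [Finset.sum_comm]
    refine Finset.sum_congr rfl fun i _ => Finset.sum_congr rfl fun k _ => ?_
    ring
  rw [h1]
  unfold s27r_Grel
  simp only [mul_sub, Finset.sum_sub_distrib]
  congr 1
  unfold s27r_nf
  rw [Finset.sum_mul]
  refine Finset.sum_congr rfl fun i _ => ?_
  ring

/-- **every polynomial is congruent to a normal form modulo the multiplication table.** -/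
theorem s27r_exists_nf (hn : 0 < n) (c : Fin n → Fin n → Fin n → κ[X])
    (P : MvPolynomial (Fin n) κ) :
    ∃ a : Fin n → κ[X], P - s27r_nf hn a ∈ Ideal.span (Set.range (s27r_Grel hn c)) := by
  classical
  induction P using MvPolynomial.induction_on with
  | C r =>
    refine ⟨Pi.single ⟨0, hn⟩ (Polynomial.C r), ?_⟩
    rw [s27r_nf_single, s27r_What_zero, mul_one]
    have : s27r_inX (κ := κ) hn (Polynomial.C r) = MvPolynomial.C r := by
      simp [s27r_inX, MvPolynomial.algebraMap_eq]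
    rw [this, sub_self]
    exact Ideal.zero_mem _
  | add P Q hP hQ =>
    obtain ⟨a, ha⟩ := hP
    obtain ⟨b, hb⟩ := hQ
    refine ⟨a + b, ?_⟩
    rw [s27r_nf_add]
    have : P + Q - (s27r_nf hn a + s27r_nf hn b) = (P - s27r_nf hn a) + (Q - s27r_nf hn b) := by
      ring
    rw [this]
    exact Ideal.add_mem _ ha hb
  | mul_X P t hP =>
    obtain ⟨a, ha⟩ := hP
    by_cases ht : (t : ℕ) = 0
    · have ht' : t = ⟨0, hn⟩ := Fin.ext ht
      refine ⟨fun i => Polynomial.X * a i, ?_⟩
      rw [ht', ← s27r_nf_mul_X0, ← sub_mul]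
      exact Ideal.mul_mem_right _ _ ha
    · refine ⟨fun k => ∑ i, a i * c i t k, ?_⟩
      have h1 : P * MvPolynomial.X t - s27r_nf hn (fun k => ∑ i, a i * c i t k) =
          (P - s27r_nf hn a) * MvPolynomial.X t +
            (s27r_nf hn a * s27r_What κ t - s27r_nf hn (fun k => ∑ i, a i * c i t k)) := by
        rw [s27r_What_of_ne ht]
        ring
      rw [h1, s27r_nf_mul_What]
      refine Ideal.add_mem _ (Ideal.mul_mem_right _ _ ha) (Ideal.sum_mem _ fun i _ => ?_)
      exact Ideal.mul_mem_left _ _ (Ideal.subset_span ⟨(i, t), rfl⟩)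

/-! ### evaluation at generators -/

section Eval

variable {T : Type*} [CommRing T] [Algebra κ T] (hn : 0 < n) (xh : T) (wh : Fin n → T)

theorem s27r_aeval_What (h0 : wh ⟨0, hn⟩ = 1) (i : Fin n) :
    MvPolynomial.aeval (s27r_gen xh wh) (s27r_What κ i) = wh i := by
  unfold s27r_What
  split_ifs with hi
  · rw [map_one]
    have : i = ⟨0, hn⟩ := Fin.ext hi
    rw [this, h0]
  · rw [MvPolynomial.aeval_X]
    simp [s27r_gen, hi]

theorem s27r_aeval_inX (p : κ[X]) :
    MvPolynomial.aeval (s27r_gen xh wh) (s27r_inX hn p) = Polynomial.aeval xh p := by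
  unfold s27r_inX
  rw [← AlgHom.comp_apply]
  congr 1
  apply Polynomial.algHom_ext
  rw [AlgHom.comp_apply, Polynomial.aeval_X, MvPolynomial.aeval_X, Polynomial.aeval_X,
    s27r_gen_zero]

theorem s27r_aeval_nf (h0 : wh ⟨0, hn⟩ = 1) (a : Fin n → κ[X]) :
    MvPolynomial.aeval (s27r_gen xh wh) (s27r_nf hn a) = ∑ i, Polynomial.aeval xh (a i) * wh i := by
  unfold s27r_nf
  rw [map_sum]
  refine Finset.sum_congr rfl fun i _ => ?_
  rw [map_mul, s27r_aeval_inX, s27r_aeval_What hn xh wh h0]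

theorem s27r_aeval_Grel (h0 : wh ⟨0, hn⟩ = 1) (c : Fin n → Fin n → Fin n → κ[X])
    (ij : Fin n × Fin n) :
    MvPolynomial.aeval (s27r_gen xh wh) (s27r_Grel hn c ij) =
      wh ij.1 * wh ij.2 - ∑ k, Polynomial.aeval xh (c ij.1 ij.2 k) * wh k := by
  unfold s27r_Grel
  rw [map_sub, map_mul, s27r_aeval_What hn xh wh h0, s27r_aeval_What hn xh wh h0,
    s27r_aeval_nf hn xh wh h0]

end Eval

/-! ### base change -/

section Map

variable {κ' : Type*} [CommRing κ'] (f : κ →+* κ')

theorem s27r_map_What (i : Fin n) : MvPolynomial.map f (s27r_What κ i) = s27r_What κ' i := by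
  unfold s27r_What
  split_ifs
  · rw [map_one]
  · rw [MvPolynomial.map_X]

theorem s27r_map_inX (hn : 0 < n) (p : κ[X]) :
    MvPolynomial.map f (s27r_inX hn p) = s27r_inX hn (p.map f) := by
  induction p using Polynomial.induction_on with
  | C a =>
    simp [s27r_inX, MvPolynomial.algebraMap_eq]
  | add p q hp hq =>
    rw [map_add, map_add, hp, hq, Polynomial.map_add, map_add]
  | monomial m a ih =>
    simp [s27r_inX, MvPolynomial.algebraMap_eq]

theorem s27r_map_nf (hn : 0 < n) (a : Fin n → κ[X]) :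
    MvPolynomial.map f (s27r_nf hn a) = s27r_nf hn (fun i => (a i).map f) := by
  unfold s27r_nf
  rw [map_sum]
  refine Finset.sum_congr rfl fun i _ => ?_
  rw [map_mul, s27r_map_inX, s27r_map_What]

theorem s27r_map_Grel (hn : 0 < n) (c : Fin n → Fin n → Fin n → κ[X]) (ij : Fin n × Fin n) :
    MvPolynomial.map f (s27r_Grel hn c ij) =
      s27r_Grel hn (fun i j k => (c i j k).map f) ij := by
  unfold s27r_Grel
  rw [map_sub, map_mul, s27r_map_What, s27r_map_What, s27r_map_nf]

/-- **(J7)** base change commutes with the minors. -/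
theorem s27r_map_minor {ι : Type*} {N : ℕ} (G : ι → MvPolynomial (Fin N) κ) (γ : s27r_Gam ι N) :
    MvPolynomial.map f (s27r_minor G γ) = s27r_minor (fun s => MvPolynomial.map f (G s)) γ := by
  unfold s27r_minor
  rw [RingHom.map_det]
  congr 1
  ext s t
  simp only [RingHom.mapMatrix_apply, Matrix.map_apply, Matrix.of_apply]
  rw [MvPolynomial.pderiv_map]

end Map

end Fermat.Agent.Lib.S27
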