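/-
Programme Z (S27), [GR]/[JAC] GLUE (helper5, prefix `s27r_`).

`B = ⊕ K[x] w_i` is presented by the multiplication table (`s27r_aevalF_eq_zero_iff`), it is the
Dedekind domain `ffB K x`, hence (helper8's (JK) `s27e_cert`) the `(n-1)`-minors of the Jacobian
matrix of the table generate the unit ideal of `B`: the CERTIFICATE `s27r_cert_K`.  If the
coefficients `b γ` of the certificate lie in the model `R_A`, the certificate reduces to the special
fibre (`s27r_cert_k`), where the same table holds (`s27r_aevalb_Gb`) and the generators generate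
(`s27r_aevalb_surjective`).
-/
import Fermat.Agent.Lib.S27.RDomain
import Fermat.Agent.Lib.S27.RJacGen
import Fermat.Agent.Lib.S27.EJacK

set_option autoImplicit false
set_option linter.unusedSectionVars false
set_option linter.unusedVariables false
set_option linter.style.haveILetI false

noncomputable section

namespace Fermat.Agent.Lib.S27

open AlgebraicCurve Fermat.Agent.Lib.FF Fermat.Agent.Lib.S44 IsLocalRing
open scoped Polynomial

variable {K F : Type} [Field K] [Field F] [Algebra K F] {x : F}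

/-! ### the generic fibre -/

section KSide

variable (W : s27r_WD K F x)

/-- the generators of `B`, in `F`. -/
def s27r_vF : Fin W.n → F := s27r_gen x W.w

/-- the multiplication table of `B`. -/
def s27r_GK : Fin W.n × Fin W.n → MvPolynomial (Fin W.n) K := s27r_Grel W.hn (s27r_sc W)

theorem s27r_aevalF_nf (a : Fin W.n → K[X]) :
    MvPolynomial.aeval (s27r_vF W) (s27r_nf W.hn a) = s27r_Phi W a :=
  s27r_aeval_nf W.hn x W.w W.w_zero a

theorem s27r_aevalF_GK (ij : Fin W.n × Fin W.n) :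
    MvPolynomial.aeval (s27r_vF W) (s27r_GK W ij) = 0 := by
  unfold s27r_GK s27r_vF
  rw [s27r_aeval_Grel W.hn x W.w W.w_zero, s27r_w_mul]
  exact sub_self _

theorem s27r_aevalF_of_mem_span {P : MvPolynomial (Fin W.n) K}
    (hP : P ∈ Ideal.span (Set.range (s27r_GK W))) : MvPolynomial.aeval (s27r_vF W) P = 0 := by
  have hle : Ideal.span (Set.range (s27r_GK W)) ≤
      RingHom.ker (MvPolynomial.aeval (s27r_vF W) : MvPolynomial (Fin W.n) K →ₐ[K] F) := by
    rw [Ideal.span_le]
    rintro _ ⟨ij, rfl⟩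
    exact s27r_aevalF_GK W ij
  exact hle hP

variable {W}

/-- **`B` is presented by its multiplication table.** -/
theorem s27r_aevalF_eq_zero_iff (hW : s27r_WProps W) (P : MvPolynomial (Fin W.n) K) :
    MvPolynomial.aeval (s27r_vF W) P = 0 ↔ P ∈ Ideal.span (Set.range (s27r_GK W)) := by
  refine ⟨fun h => ?_, s27r_aevalF_of_mem_span W⟩
  obtain ⟨a, ha⟩ := s27r_exists_nf W.hn (s27r_sc W) P
  have h1 := s27r_aevalF_of_mem_span W ha
  rw [map_sub, h, zero_sub, neg_eq_zero, s27r_aevalF_nf] at h1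
  have h2 : a = 0 := hW.ind a h1
  rw [h2, s27r_nf_zero, sub_zero] at ha
  exact ha

variable (W)

theorem s27r_aevalF_mem_B (P : MvPolynomial (Fin W.n) K) :
    MvPolynomial.aeval (s27r_vF W) P ∈ s44rc_B W.vinf := by
  obtain ⟨a, ha⟩ := s27r_exists_nf W.hn (s27r_sc W) P
  have h1 := s27r_aevalF_of_mem_span W ha
  rw [map_sub, sub_eq_zero, s27r_aevalF_nf] at h1
  rw [h1]
  exact s27r_Phi_mem_B W a

theorem s27r_exists_aevalF {f : F} (hf : f ∈ s44rc_B W.vinf) :
    ∃ P : MvPolynomial (Fin W.n) K, MvPolynomial.aeval (s27r_vF W) P = f :=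
  ⟨s27r_nf W.hn (s27r_coef W f), by rw [s27r_aevalF_nf, s27r_Phi_coef W hf]⟩

theorem s27r_ord_x_neg : W.vinf.ord x < 0 := by
  rw [W.ord_x]
  have := W.hn
  omega

variable [CharZero K] [FFGen K x]

theorem s27r_mem_ffB_iff (f : F) : f ∈ s44rc_B W.vinf ↔ f ∈ ffB K x :=
  s44rc_mem_B_iff_mem_ffB W.vinf W.x_mem (s27r_ord_x_neg W) f

/-- the generators, in the Dedekind domain `ffB K x`. -/
def s27r_vB : Fin W.n → ↥(ffB K x) := fun i =>
  ⟨s27r_vF W i, (s27r_mem_ffB_iff W _).mp (by
    have := s27r_aevalF_mem_B W (MvPolynomial.X i)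
    rwa [MvPolynomial.aeval_X] at this)⟩

theorem s27r_aevalB_coe (P : MvPolynomial (Fin W.n) K) :
    ((MvPolynomial.aeval (s27r_vB W) P : ↥(ffB K x)) : F) = MvPolynomial.aeval (s27r_vF W) P := by
  have h := MvPolynomial.comp_aeval_apply (f := s27r_vB W)
    (IsScalarTower.toAlgHom K ↥(ffB K x) F) P
  exact h

variable {W}

/-- **the certificate on the generic fibre.** -/
theorem s27r_cert_K [IsAlgClosed K] (hW : s27r_WProps W) :
    ∃ b : s27r_Gam (Fin W.n × Fin W.n) W.n → F, (∀ γ, b γ ∈ s44rc_B W.vinf) ∧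
      ∑ γ, b γ * MvPolynomial.aeval (s27r_vF W) (s27r_minor (s27r_GK W) γ) = 1 := by
  have hsurj : Function.Surjective
      (MvPolynomial.aeval (s27r_vB W) : MvPolynomial (Fin W.n) K →ₐ[K] ↥(ffB K x)) := by
    intro f
    obtain ⟨P, hP⟩ := s27r_exists_aevalF W ((s27r_mem_ffB_iff W _).mpr f.2)
    exact ⟨P, Subtype.ext ((s27r_aevalB_coe W P).trans hP)⟩
  have hker : RingHom.ker
      (MvPolynomial.aeval (s27r_vB W) : MvPolynomial (Fin W.n) K →ₐ[K] ↥(ffB K x)) =
      Ideal.span (Set.range (s27r_GK W)) := by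
    ext P
    rw [RingHom.mem_ker, ← s27r_aevalF_eq_zero_iff hW, ← s27r_aevalB_coe]
    constructor
    · intro h
      rw [h]
      rfl
    · intro h
      exact Subtype.ext h
  obtain ⟨b, hb⟩ := s27e_cert (s27r_vB W) (s27r_GK W) hsurj hker
  refine ⟨fun γ => ((b γ : ↥(ffB K x)) : F), fun γ => (s27r_mem_ffB_iff W _).mpr (b γ).2, ?_⟩
  have h1 := congrArg (Subtype.val : ↥(ffB K x) → F) hb
  rw [AddSubmonoidClass.coe_finsetSum] at h1
  refine Eq.trans ?_ h1
  refine Finset.sum_congr rfl fun γ _ => ?_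
  rw [← s27r_aevalB_coe]
  rfl

end KSide

/-! ### the model and the special fibre -/

section kSide

variable (W : s27r_WD K F x) (A : ValuationSubring K)

/-- the generators, in the model. -/
def s27r_vA : Fin W.n → ↥(s27r_RA W A) :=
  s27r_gen ⟨x, s27r_x_mem W A⟩ (fun i => ⟨W.w i, s27r_w_mem W A i⟩)

/-- the generators of the special fibre. -/
def s27r_vb : Fin W.n → s27r_Rbar W A := s27r_gen (s27r_xb W A) (s27r_wb W A)

theorem s27r_vA_coe : (fun i => ((s27r_vA W A i : ↥(s27r_RA W A)) : F)) = s27r_vF W := by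
  unfold s27r_vA s27r_vF
  rw [s27r_gen_comp (fun z : ↥(s27r_RA W A) => (z : F))]

theorem s27r_mk_vA : (fun i => s27r_mk W A (s27r_vA W A i)) = s27r_vb W A := by
  unfold s27r_vA s27r_vb
  rw [s27r_gen_comp (fun z : ↥(s27r_RA W A) => s27r_mk W A z)]
  rfl

theorem s27r_wb_zero : s27r_wb W A ⟨0, W.hn⟩ = 1 := by
  unfold s27r_wb
  have : (⟨W.w ⟨0, W.hn⟩, s27r_w_mem W A ⟨0, W.hn⟩⟩ : ↥(s27r_RA W A)) = 1 :=
    Subtype.ext W.w_zero
  rw [this, map_one]

variable {W A}

/-- the multiplication table over `A`. -/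
def s27r_GA (hsc : s27r_SCUnit W A) : Fin W.n × Fin W.n → MvPolynomial (Fin W.n) ↥A :=
  s27r_Grel W.hn (s27r_scA hsc)

/-- the multiplication table of the special fibre. -/
def s27r_Gb (hsc : s27r_SCUnit W A) :
    Fin W.n × Fin W.n → MvPolynomial (Fin W.n) (ResidueField ↥A) :=
  s27r_Grel W.hn (s27r_scb hsc)

theorem s27r_map_GA (hsc : s27r_SCUnit W A) (ij : Fin W.n × Fin W.n) :
    MvPolynomial.map A.subtype (s27r_GA hsc ij) = s27r_GK W ij := by
  unfold s27r_GA s27r_GK
  rw [s27r_map_Grel]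
  congr 1
  funext i j k
  exact s27r_scA_map hsc i j k

theorem s27r_map_GA_residue (hsc : s27r_SCUnit W A) (ij : Fin W.n × Fin W.n) :
    MvPolynomial.map (residue ↥A) (s27r_GA hsc ij) = s27r_Gb hsc ij := by
  unfold s27r_GA s27r_Gb
  rw [s27r_map_Grel]
  rfl

variable (W A)

theorem s27r_eval₂_coe (P : MvPolynomial (Fin W.n) ↥A) :
    ((MvPolynomial.eval₂ (s27r_constA W A) (s27r_vA W A) P : ↥(s27r_RA W A)) : F) =
      MvPolynomial.aeval (s27r_vF W) (MvPolynomial.map A.subtype P) := by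
  have h1 := MvPolynomial.eval₂_comp_left (s27r_RA W A).subtype (s27r_constA W A) (s27r_vA W A) P
  rw [Subring.coe_subtype] at h1
  rw [h1, MvPolynomial.aeval_def, MvPolynomial.eval₂_map]
  have h2 : (Subtype.val ∘ s27r_vA W A) = s27r_vF W := s27r_vA_coe W A
  rw [h2]
  rfl

theorem s27r_mk_eval₂ (P : MvPolynomial (Fin W.n) ↥A) :
    s27r_mk W A (MvPolynomial.eval₂ (s27r_constA W A) (s27r_vA W A) P) =
      MvPolynomial.aeval (s27r_vb W A) (MvPolynomial.map (residue ↥A) P) := by
  rw [MvPolynomial.eval₂_comp_left (s27r_mk W A) (s27r_constA W A) (s27r_vA W A) P,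
    MvPolynomial.aeval_def, MvPolynomial.eval₂_map]
  have h2 : (s27r_mk W A ∘ s27r_vA W A) = s27r_vb W A := s27r_mk_vA W A
  rw [h2]
  rfl

variable {W A}

/-- the multiplication table holds in the special fibre. -/
theorem s27r_aevalb_Gb (hsc : s27r_SCUnit W A) (ij : Fin W.n × Fin W.n) :
    MvPolynomial.aeval (s27r_vb W A) (s27r_Gb hsc ij) = 0 := by
  rw [← s27r_map_GA_residue hsc, ← s27r_mk_eval₂]
  have h0 : MvPolynomial.eval₂ (s27r_constA W A) (s27r_vA W A) (s27r_GA hsc ij) = 0 := by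
    apply Subtype.ext
    rw [s27r_eval₂_coe, s27r_map_GA hsc, s27r_aevalF_GK]
    rfl
  rw [h0, map_zero]

/-- the generators generate the special fibre. -/
theorem s27r_aevalb_surjective (hsc : s27r_SCUnit W A) :
    Function.Surjective (MvPolynomial.aeval (s27r_vb W A) :
      MvPolynomial (Fin W.n) (ResidueField ↥A) →ₐ[ResidueField ↥A] s27r_Rbar W A) := by
  intro y
  obtain ⟨b, rfl⟩ := s27r_Phib_surjective hsc y
  refine ⟨s27r_nf W.hn b, ?_⟩
  unfold s27r_vb
  rw [s27r_aeval_nf W.hn (s27r_xb W A) (s27r_wb W A) (s27r_wb_zero W A)]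
  rfl

/-- **reduction of the certificate.** -/
theorem s27r_cert_k (hsc : s27r_SCUnit W A)
    (b : s27r_Gam (Fin W.n × Fin W.n) W.n → F) (hbA : ∀ γ, b γ ∈ s27r_RA W A)
    (hb : ∑ γ, b γ * MvPolynomial.aeval (s27r_vF W) (s27r_minor (s27r_GK W) γ) = 1) :
    ∑ γ, s27r_mk W A ⟨b γ, hbA γ⟩ *
      MvPolynomial.aeval (s27r_vb W A) (s27r_minor (s27r_Gb hsc) γ) = 1 := by
  have hG : s27r_GK W = fun ij => MvPolynomial.map A.subtype (s27r_GA hsc ij) := by
    funext ij
    exact (s27r_map_GA hsc ij).symm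
  have hGb : s27r_Gb hsc = fun ij => MvPolynomial.map (residue ↥A) (s27r_GA hsc ij) := by
    funext ij
    exact (s27r_map_GA_residue hsc ij).symm
  have h1 : ∑ γ, (⟨b γ, hbA γ⟩ : ↥(s27r_RA W A)) *
      MvPolynomial.eval₂ (s27r_constA W A) (s27r_vA W A) (s27r_minor (s27r_GA hsc) γ) = 1 := by
    apply Subtype.ext
    rw [AddSubmonoidClass.coe_finsetSum]
    refine Eq.trans ?_ hb
    refine Finset.sum_congr rfl fun γ _ => ?_
    rw [Subring.coe_mul, s27r_eval₂_coe, s27r_map_minor, ← hG]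
  have h2 := congrArg (s27r_mk W A) h1
  rw [map_sum, map_one] at h2
  rw [← h2]
  refine Finset.sum_congr rfl fun γ _ => ?_
  rw [map_mul, s27r_mk_eval₂, s27r_map_minor, ← hGb]

/-! ### the second half of the bad set -/

variable (W)

/-- the non-zero coefficients of a function of `B`. -/
def s27r_coefSet (f : F) : Finset K := by
  classical
  exact Finset.univ.biUnion fun i : Fin W.n =>
    (s27r_coef W f i).support.image (s27r_coef W f i).coeff

variable {W}

theorem s27r_mem_RA_of_coefSet {f : F} (hf : f ∈ s44rc_B W.vinf)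
    (h : ∀ s ∈ s27r_coefSet W f, s ∈ A) : f ∈ s27r_RA W A := by
  classical
  have hlift : ∀ i, ∃ q : (↥A)[X], q.map A.subtype = s27r_coef W f i := by
    intro i
    have : s27r_coef W f i ∈ Polynomial.lifts A.subtype := by
      rw [Polynomial.lifts_iff_coeff_lifts]
      intro m
      by_cases hm : (s27r_coef W f i).coeff m = 0
      · rw [hm]
        exact ⟨0, map_zero _⟩
      · have hmem : (s27r_coef W f i).coeff m ∈ s27r_coefSet W f := by
          unfold s27r_coefSet
          simp only [Finset.mem_biUnion, Finset.mem_univ, true_and, Finset.mem_image,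
            Polynomial.mem_support_iff]
          exact ⟨i, m, hm, rfl⟩
        exact ⟨⟨_, h _ hmem⟩, rfl⟩
    exact this
  choose a ha using hlift
  have h1 : s27r_Psi W A a = f := by
    unfold s27r_Psi
    have : (fun i => (a i).map A.subtype) = s27r_coef W f := funext ha
    rw [this, s27r_Phi_coef W hf]
  rw [← h1]
  exact s27r_Psi_mem_RA W A a

end kSide

end Fermat.Agent.Lib.S27
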