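/-
Programme Z (S27), [GR]/[JAC], conclusion (helper5): **the special fibre `R̄` is a Dedekind domain**
as soon as the structure constants are units of `A` and the coefficients of the certificate
`1 = Σ_γ b_γ · M_γ(x, w)` lie in the model `R_A`.
(certificate over `K`: helper8's `s27e_cert`; criterion: helper1's `s27d_dedekind_of_cert`;
dimension: helper8's `s27e_dimLEOne_Rbar`.)
-/
import Fermat.Agent.Lib.S27.RJac
import Fermat.Agent.Lib.S27.DJacK
import Fermat.Agent.Lib.S27.EDim

set_option autoImplicit false
set_option linter.unusedSectionVars false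
set_option linter.unusedVariables false
set_option linter.style.haveILetI false

noncomputable section

namespace Fermat.Agent.Lib.S27

open AlgebraicCurve Fermat.Agent.Lib.FF Fermat.Agent.Lib.S44 IsLocalRing
open scoped Polynomial

variable {K F : Type} [Field K] [Field F] [Algebra K F] {x : F} {W : s27r_WD K F x}
  {A : ValuationSubring K}

/-- **normality of the special fibre.** -/
theorem s27r_isDedekind_Rbar [IsAlgClosed (ResidueField ↥A)] (hW : s27r_WProps W)
    (hsc : s27r_SCUnit W A) (b : s27r_Gam (Fin W.n × Fin W.n) W.n → F)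
    (hbA : ∀ γ, b γ ∈ s27r_RA W A)
    (hb : ∑ γ, b γ * MvPolynomial.aeval (s27r_vF W) (s27r_minor (s27r_GK W) γ) = 1) :
    IsDedekindDomain (s27r_Rbar W A) := by
  haveI : IsDomain (s27r_Rbar W A) := s27r_isDomain_Rbar hW hsc
  exact s27d_dedekind_of_cert (s27r_vb W A) (s27r_Gb hsc) (s27r_aevalb_surjective hsc)
    (s27r_aevalb_Gb hsc) (fun γ => s27r_mk W A ⟨b γ, hbA γ⟩) (s27r_cert_k hsc b hbA hb)
    (s27e_dimLEOne_Rbar hW hsc)

end Fermat.Agent.Lib.S27
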