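/-
Programme Z (S27), reduction half, brick [GR-A] (helper6, prefix `s27w_`), part (A1):
EXISTENCE of Weierstrass data for a function field over an algebraically closed field of
characteristic zero: a coordinate `x` with a single pole `vinf`, and a `K[x]`-basis `w i` of the
ring of functions regular outside `vinf` with pole orders `h i ≡ i mod n`, minimal in their classes.
-/
import Fermat.Agent.Lib.S27.WGrDim
import Fermat.Agent.Lib.S44.RRiemK4

set_option autoImplicit false

noncomputable section

namespace Fermat.Agent.Lib.S27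

open AlgebraicCurve Fermat.Agent.Lib.FF Fermat.Agent.Lib.S44 Polynomial IntermediateField

variable {K F : Type} [Field K] [Field F] [Algebra K F]

/-- the spanning property, by induction on the pole order. -/
theorem s27w_span_aux (vinf : Place K F)
    (hres : ∀ y ∈ vinf.toValuationSubring, ∃ c : K,
      y - algebraMap K F c ∈ vinf.toValuationSubring.nonunits)
    (hreg0 : ∀ f ∈ s44rc_B vinf, 0 < vinf.ord f → f = 0)
    (n : ℕ) (hn : 0 < n) (x : F) (hxB : x ∈ s44rc_B vinf) (hxord : vinf.ord x = -(n : ℤ))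
    (h : Fin n → ℕ) (w : Fin n → F) (hwB : ∀ i, w i ∈ s44rc_B vinf) (hw0 : ∀ i, w i ≠ 0)
    (hword : ∀ i, vinf.ord (w i) = -(h i : ℤ)) (hmod : ∀ i, h i % n = (i : ℕ))
    (hmin : ∀ (i : Fin n) (m : ℕ), m % n = (i : ℕ) → s44rk_Ng vinf m → h i ≤ m) :
    ∀ m : ℕ, ∀ f ∈ s44rc_B vinf, f ≠ 0 → -(m : ℤ) < vinf.ord f →
      ∃ a : Fin n → K[X], f = ∑ i, aeval x (a i) * w i := by
  classical
  have hx0 : x ≠ 0 := by
    rintro rfl
    rw [Place.ord_zero] at hxord
    omega
  intro m
  induction m with
  | zero =>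
    intro f hfB hf0 hord
    exact absurd (hreg0 f hfB (by simpa using hord)) hf0
  | succ m ih =>
    intro f hfB hf0 hord
    have hle : vinf.ord f ≤ 0 := by
      by_contra hpos
      exact hf0 (hreg0 f hfB (not_le.mp hpos))
    obtain ⟨μ, hμ⟩ : ∃ μ : ℕ, vinf.ord f = -(μ : ℤ) := ⟨(-vinf.ord f).toNat, by omega⟩
    have hμm : μ ≤ m := by
      have : -((m + 1 : ℕ) : ℤ) < -(μ : ℤ) := by rw [← hμ]; exact hord
      push_cast at this
      omega
    set i : Fin n := ⟨μ % n, Nat.mod_lt _ hn⟩ with hi
    have hNg : s44rk_Ng vinf μ := ⟨f, hfB, hμ⟩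
    have hhi : h i ≤ μ := hmin i μ rfl hNg
    have hdvd : n ∣ μ - h i := by
      have h1 : h i % n = μ % n := hmod i
      exact (Nat.modEq_iff_dvd' hhi).mp h1
    obtain ⟨j, hj⟩ := hdvd
    have hμj : μ = h i + n * j := by omega
    set g : F := x ^ j * w i with hg
    have hg0 : g ≠ 0 := mul_ne_zero (pow_ne_zero _ hx0) (hw0 i)
    have hgB : g ∈ s44rc_B vinf :=
      Subalgebra.mul_mem _ (Subalgebra.pow_mem _ hxB j) (hwB i)
    have hgord : vinf.ord g = -(μ : ℤ) := by
      rw [hg, vinf.ord_mul (pow_ne_zero _ hx0) (hw0 i), s27w_ord_pow, hxord, hword, hμj]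
      push_cast
      ring
    set q : F := f * g⁻¹ with hq
    have hq0 : q ≠ 0 := mul_ne_zero hf0 (inv_ne_zero hg0)
    have hqord : vinf.ord q = 0 := by
      rw [hq, vinf.ord_mul hf0 (inv_ne_zero hg0), vinf.ord_inv, hμ, hgord]
      ring
    have hqmem : q ∈ vinf.toValuationSubring :=
      (ff_mem_iff_ord_nonneg vinf hq0).mpr (by rw [hqord])
    obtain ⟨c, hc⟩ := hres q hqmem
    have hfg : f = q * g := by
      rw [hq, mul_assoc, inv_mul_cancel₀ hg0, mul_one]
    -- the term to be split off
    have hterm : ∀ a' : Fin n → K[X],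
        ∑ k, aeval x ((a' + (Pi.single i (C c * X ^ j) : Fin n → K[X])) k) * w k =
          ∑ k, aeval x (a' k) * w k + algebraMap K F c * g := by
      intro a'
      have h1 : ∀ k, aeval x ((a' + (Pi.single i (C c * X ^ j) : Fin n → K[X])) k) * w k =
          aeval x (a' k) * w k + aeval x ((Pi.single i (C c * X ^ j) : Fin n → K[X]) k) * w k :=
        fun k => by rw [Pi.add_apply, map_add, add_mul]
      rw [Finset.sum_congr rfl fun k _ => h1 k, Finset.sum_add_distrib]
      congr 1
      rw [Finset.sum_eq_single i]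
      · rw [Pi.single_eq_same, map_mul, aeval_C, map_pow, aeval_X, hg, mul_assoc]
      · intro k _ hk
        rw [Pi.single_eq_of_ne hk, map_zero, zero_mul]
      · intro hi'
        exact absurd (Finset.mem_univ i) hi'
    by_cases hf' : f - algebraMap K F c * g = 0
    · refine ⟨0 + Pi.single i (C c * X ^ j), ?_⟩
      rw [hterm]
      simp only [Pi.zero_apply, map_zero, zero_mul, Finset.sum_const_zero, zero_add]
      exact sub_eq_zero.mp hf'
    · have hqc : q - algebraMap K F c ≠ 0 := by
        intro h0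
        apply hf'
        rw [hfg, ← sub_mul, h0, zero_mul]
      have hqcpos : 0 < vinf.ord (q - algebraMap K F c) := by
        rw [ff_ord_pos_iff vinf hqc]
        rcases (ValuationSubring.mem_nonunits_iff_or _).mp hc with h1 | h1
        · exact absurd h1 hqc
        · exact ⟨sub_mem hqmem (vinf.algebraMap_mem' c), h1⟩
      have hf'eq : f - algebraMap K F c * g = (q - algebraMap K F c) * g := by
        rw [sub_mul, ← hfg]
      have hf'ord : -(m : ℤ) < vinf.ord (f - algebraMap K F c * g) := by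
        rw [hf'eq, vinf.ord_mul hqc hg0, hgord]
        have : (μ : ℤ) ≤ (m : ℤ) := by exact_mod_cast hμm
        omega
      have hf'B : f - algebraMap K F c * g ∈ s44rc_B vinf :=
        Subalgebra.sub_mem _ hfB (Subalgebra.mul_mem _ (Subalgebra.algebraMap_mem _ c) hgB)
      obtain ⟨a', ha'⟩ := ih _ hf'B hf' hf'ord
      refine ⟨a' + Pi.single i (C c * X ^ j), ?_⟩
      rw [hterm, ← ha']
      ring

/-- **(A1) existence of Weierstrass data.** -/
theorem s27w_exists_WD (K F : Type) [Field K] [Field F] [Algebra K F] [IsAlgClosed K]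
    [CharZero K] (x₀ : F) [FFGen K x₀] : ∃ x : F, Nonempty (s27r_WD K F x) := by
  classical
  -- a place
  obtain ⟨P, hP, -, hsum⟩ := s44rk_fibreSum_poles K x₀
  have : FiniteDimensional K⟮x₀⟯ F := FFGen.finite
  have hpos : 0 < Module.finrank K⟮x₀⟯ F := Module.finrank_pos
  obtain ⟨vinf, -⟩ : P.Nonempty := by
    by_contra hemp
    rw [Finset.not_nonempty_iff_eq_empty] at hemp
    rw [hemp, Finset.sum_empty] at hsum
    have : (0 : ℤ) < (Module.finrank K⟮x₀⟯ F : ℤ) := by exact_mod_cast hpos
    omega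
  have hres := s27w_hres (x := x₀) vinf
  have hreg0 : ∀ f ∈ s44rc_B vinf, 0 < vinf.ord f → f = 0 := by
    intro f hfB hpos
    have hf0 : f ≠ 0 := by
      rintro rfl
      rw [Place.ord_zero] at hpos
      exact lt_irrefl _ hpos
    refine s44rk_eq_zero_of_regular x₀ (fun v => ?_) vinf ?_
    · by_cases hv : v = vinf
      · subst hv
        exact (ff_mem_iff_ord_nonneg v hf0).mpr hpos.le
      · exact hfB v hv
    · rw [ValuationSubring.mem_nonunits_iff_or]
      right
      exact ((ff_ord_pos_iff vinf hf0).mp hpos).2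
  obtain ⟨γ, hγ⟩ := s44rk_large_orders x₀ vinf hres
  set n : ℕ := max γ 1 with hndef
  have hn : 0 < n := lt_of_lt_of_le Nat.zero_lt_one (le_max_right _ _)
  have hγn : γ ≤ n := le_max_left _ _
  obtain ⟨x, hxB, hxord⟩ := hγ n hγn
  -- the least non-gap in each class mod `n`
  have hex : ∀ i : Fin n, ∃ m, m % n = (i : ℕ) ∧ s44rk_Ng vinf m := fun i =>
    ⟨i + n * γ, by rw [Nat.add_mul_mod_self_left, Nat.mod_eq_of_lt i.2],
      hγ _ (by nlinarith [i.2])⟩
  set h : Fin n → ℕ := fun i => Nat.find (hex i) with hh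
  have hspec : ∀ i, h i % n = (i : ℕ) ∧ s44rk_Ng vinf (h i) := fun i => Nat.find_spec (hex i)
  have hmin : ∀ (i : Fin n) (m : ℕ), m % n = (i : ℕ) → s44rk_Ng vinf m → h i ≤ m :=
    fun i m h1 h2 => Nat.find_min' (hex i) ⟨h1, h2⟩
  have h0 : h ⟨0, hn⟩ = 0 := by
    apply Nat.le_zero.mp
    refine hmin ⟨0, hn⟩ 0 (Nat.zero_mod n) ⟨1, fun v _ => v.toValuationSubring.one_mem, ?_⟩
    rw [Place.ord_one]
    simp
  set w : Fin n → F := fun i =>
    if i = ⟨0, hn⟩ then 1 else Classical.choose (hspec i).2 with hwdef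
  have hw : ∀ i, w i ∈ s44rc_B vinf ∧ vinf.ord (w i) = -(h i : ℤ) := by
    intro i
    by_cases hi : i = ⟨0, hn⟩
    · have : w i = 1 := by rw [hwdef]; simp only [if_pos hi]
      rw [this, hi, h0, Place.ord_one]
      exact ⟨Subalgebra.one_mem _, by simp⟩
    · have : w i = Classical.choose (hspec i).2 := by rw [hwdef]; simp only [if_neg hi]
      rw [this]
      exact Classical.choose_spec (hspec i).2
  have hw0 : ∀ i, w i ≠ 0 := by
    intro i hwi
    by_cases hi : i = ⟨0, hn⟩
    · have : w i = 1 := by rw [hwdef]; simp only [if_pos hi]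
      rw [this] at hwi
      exact one_ne_zero hwi
    · have h1 := (hw i).2
      rw [hwi, Place.ord_zero] at h1
      have h2 : h i = 0 := by omega
      have h3 := (hspec i).1
      rw [h2, Nat.zero_mod] at h3
      exact hi (Fin.ext h3.symm)
  have hspan := s27w_span_aux vinf hres hreg0 n hn x hxB hxord h w (fun i => (hw i).1) hw0
    (fun i => (hw i).2) (fun i => (hspec i).1) hmin
  refine ⟨x, ⟨{
    vinf := vinf
    n := n
    hn := hn
    h := h
    w := w
    x_mem := hxB
    ord_x := hxord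
    w_mem := fun i => (hw i).1
    ord_w := fun i => (hw i).2
    h_mod := fun i => (hspec i).1
    w_zero := by rw [hwdef]; simp
    span := fun f hfB => by
      rcases eq_or_ne f 0 with rfl | hf0
      · exact ⟨0, by simp⟩
      have hle : vinf.ord f ≤ 0 := by
        by_contra hpos
        exact hf0 (hreg0 f hfB (not_le.mp hpos))
      exact hspan ((-vinf.ord f).toNat + 1) f hfB hf0 (by push_cast; omega) }⟩⟩

end Fermat.Agent.Lib.S27
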