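/-
Programme Z (S27), reduction half, brick [GR-A] (helper6, prefix `s27w_`): the package
`s27r_WProps W` consumed by [GR-C] (`RBasis.lean`), for ANY Weierstrass data (no hypothesis on `K`).
-/
import Fermat.Agent.Lib.S27.WGrCoef
import Fermat.Agent.Lib.S27.RBasis

set_option autoImplicit false

noncomputable section

namespace Fermat.Agent.Lib.S27

open AlgebraicCurve Fermat.Agent.Lib.FF Fermat.Agent.Lib.S44 Polynomial

variable {K F : Type} [Field K] [Field F] [Algebra K F] {x : F}

theorem s27w_Phi_eq_comb (W : s27r_WD K F x) (a : Fin W.n → K[X]) :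
    s27r_Phi W a = s27w_comb W a := rfl

/-- **[GR-A] → [GR-C]**: independence of the basis and triangularity of the structure constants. -/
theorem s27w_wprops (W : s27r_WD K F x) : s27r_WProps W where
  ind := fun a ha => (s27w_comb_eq_zero_iff W).mp ha
  sc_deg := fun i j k hk => s27w_sc_wt_le W i j k hk
  sc_top := fun i j => by
    obtain ⟨k, hk, hkeq, -⟩ := s27w_sc_top W i j
    exact ⟨k, hk, hkeq⟩

end Fermat.Agent.Lib.S27
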