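/-
Programme Z (S27), [GR]: THE ASSEMBLY of `s27_GR` (helper5).

`s27r_CurveBrick` is what [GR-D] + [GR-C6/C7] deliver: under the standing hypotheses on the model
(structure constants units, the special fibre a Dedekind domain, residue characteristic `p > n`)
an `s19_Curve` package for `(F, Frac R̄)` with `FW = ⊤`, `l = p` and the genus of `F`.
`s27r_gr_of : s27r_CurveBrick → s27_GR`.
-/
import Fermat.Agent.Lib.S27.RIface
import Fermat.Agent.Lib.S27.RDedekind
import Fermat.Agent.Lib.S27.RPrep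
import Fermat.Agent.Lib.S27.WGrExists
import Fermat.Agent.Lib.S27.WGrProps
import Fermat.Agent.Lib.S27.BGrC
import Fermat.Agent.Lib.S18.NResidue

set_option autoImplicit false
set_option linter.unusedSectionVars false
set_option linter.unusedVariables false
set_option linter.style.haveILetI false

noncomputable section

namespace Fermat.Agent.Lib.S27

open AlgebraicCurve Fermat.Agent.Lib.FF Fermat.Agent.Lib.S44 Fermat.Agent.Lib.S19
  Fermat.Agent.Lib.S18 IsLocalRing
open scoped Polynomial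

/-- **what [GR-D] + [GR-C6/C7] deliver.** -/
def s27r_CurveBrick : Prop :=
  ∀ (K F : Type) [Field K] [Field F] [Algebra K F] [IsAlgClosed K] [CharZero K] (x : F)
    [FFGen K x] (W : s27r_WD K F x) (hW : s27r_WProps W) (A : ValuationSubring K)
    (hsc : s27r_SCUnit W A) (abv : AbsoluteValue K ℝ)
    (hna : ∀ a b : K, abv (a + b) ≤ max (abv a) (abv b)) (hA : ∀ a : K, a ∈ A ↔ abv a ≤ 1)
    (p : ℕ) [Fact p.Prime] (hNp : W.n < p) (hpabv : abv ((p : ℕ) : K) < 1)
    [IsDomain (s27r_Rbar W A)] [IsDedekindDomain (s27r_Rbar W A)]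
    [IsAlgClosed (ResidueField ↥A)] [CharP (ResidueField ↥A) p],
    ∃ (O : ValuationSubring F) (red : ↥O →+* s27r_Fb W A)
      (r : Place K F → Place (ResidueField ↥A) (s27r_Fb W A)),
      s19_Curve x A (residue ↥A) O red r ⊤ (((p : ℕ) : ↥A)) (genusFF K F)

/-- **[GR] from the curve brick.** -/
theorem s27r_gr_of (hCB : s27r_CurveBrick) : s27_GR := by
  intro K F _ _ _ _ _ x₀ _
  classical
  obtain ⟨x, ⟨W⟩⟩ := s27w_exists_WD K F x₀
  have hW : s27r_WProps W := s27w_wprops W
  haveI hx : FFGen K x := s27w_ffgen W x₀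
  obtain ⟨b, hbB, hb⟩ := s27r_cert_K hW
  refine ⟨x, hx, s27r_scSet W ∪ Finset.univ.biUnion (fun γ => s27r_coefSet W (b γ)), W.n, ?_, ?_⟩
  · intro s hs
    rcases Finset.mem_union.mp hs with h | h
    · exact s27r_scSet_ne_zero W h
    · obtain ⟨γ, -, hγ⟩ := Finset.mem_biUnion.mp h
      exact s27r_coefSet_ne_zero W hγ
  intro p _ A abv hNp hna hA hpabv hS
  have hsc : s27r_SCUnit W A :=
    s27r_scUnit_of_abv W A abv hA (fun s hs => hS s (Finset.mem_union_left _ hs))
  have hbA : ∀ γ, b γ ∈ s27r_RA W A := fun γ =>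
    s27r_mem_RA_of_coefSet (hbB γ) (fun s hs => (s27r_unit_mem A abv hA
      (hS s (Finset.mem_union_right _
        (Finset.mem_biUnion.mpr ⟨γ, Finset.mem_univ _, hs⟩)))).1)
  haveI : IsAlgClosed (ResidueField ↥A) := s18n_isAlgClosed_residueField A
  haveI : CharP (ResidueField ↥A) p := s27r_charP_residue A abv hA p hpabv
  haveI : IsDomain (s27r_Rbar W A) := s27r_isDomain_Rbar hW hsc
  haveI : IsDedekindDomain (s27r_Rbar W A) := s27r_isDedekind_Rbar hW hsc b hbA hb
  obtain ⟨O, red, r, hC⟩ := hCB K F x W hW A hsc abv hna hA p hNp hpabv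
  exact ⟨s27r_Fb W A, inferInstance, inferInstance, O, red, r, ((p : ℕ) : ↥A), hC,
    s27b_xF W A, s27b_ffGen_xF hW hsc, s27b_isSeparable_xF hW hsc p hNp⟩

end Fermat.Agent.Lib.S27
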