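/-
Programme Z (S27), [GR], small pieces of the final assembly (helper5, prefix `s27r_`): what the
hypotheses on the absolute value give for the valuation ring `A` (units, residue characteristic,
the field `base` of `s19_Curve` with `FW = ⊤`).
-/
import Fermat.Agent.Lib.S27.RJac
import Fermat.Agent.Lib.S19.IfaceCurve

set_option autoImplicit false
set_option linter.unusedSectionVars false
set_option linter.unusedVariables false
set_option linter.style.haveILetI false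

noncomputable section

namespace Fermat.Agent.Lib.S27

open AlgebraicCurve Fermat.Agent.Lib.FF Fermat.Agent.Lib.S44 Fermat.Agent.Lib.S19 IsLocalRing
open scoped Polynomial

section Abv

variable {K : Type} [Field K] (A : ValuationSubring K) (abv : AbsoluteValue K ℝ)
  (hA : ∀ a : K, a ∈ A ↔ abv a ≤ 1)

include hA

theorem s27r_unit_mem {s : K} (hs : abv s = 1) : s ∈ A ∧ s⁻¹ ∈ A := by
  refine ⟨(hA s).mpr hs.le, (hA _).mpr ?_⟩
  rw [map_inv₀, hs, inv_one]

theorem s27r_mem_maximalIdeal_iff (a : ↥A) : a ∈ maximalIdeal ↥A ↔ abv (a : K) < 1 := by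
  rw [mem_maximalIdeal, mem_nonunits_iff]
  constructor
  · intro hnu
    by_contra hlt
    push Not at hlt
    have h1 : abv (a : K) = 1 := le_antisymm ((hA _).mp a.2) hlt
    have ha0 : (a : K) ≠ 0 := by
      intro h0
      rw [h0, map_zero] at h1
      exact zero_ne_one h1
    have hinv : ((a : K))⁻¹ ∈ A := (s27r_unit_mem A abv hA h1).2
    apply hnu
    refine ⟨⟨a, ⟨_, hinv⟩, ?_, ?_⟩, rfl⟩
    · exact Subtype.ext (mul_inv_cancel₀ ha0)
    · exact Subtype.ext (inv_mul_cancel₀ ha0)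
  · intro hlt hu
    obtain ⟨u, hu⟩ := hu
    have h4 : (((u⁻¹ : (↥A)ˣ) : ↥A) : K) * ((u : ↥A) : K) = 1 := by
      rw [← Subring.coe_mul]
      simp
    rw [hu] at h4
    have h5 : abv (((u⁻¹ : (↥A)ˣ) : ↥A) : K) ≤ 1 := (hA _).mp ((u⁻¹ : (↥A)ˣ) : ↥A).2
    have h6 : abv ((((u⁻¹ : (↥A)ˣ) : ↥A) : K) * (a : K)) = 1 := by rw [h4, map_one]
    rw [map_mul] at h6
    have h7 : abv ((((u⁻¹ : (↥A)ˣ) : ↥A) : K)) * abv (a : K) < 1 := by
      calc abv ((((u⁻¹ : (↥A)ˣ) : ↥A) : K)) * abv (a : K)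
          ≤ 1 * abv (a : K) := mul_le_mul_of_nonneg_right h5 (abv.nonneg _)
        _ < 1 := by rw [one_mul]; exact hlt
    rw [h6] at h7
    exact lt_irrefl _ h7

theorem s27r_natCast_mem_maximalIdeal (p : ℕ) (hp : abv ((p : ℕ) : K) < 1) :
    ((p : ℕ) : ↥A) ∈ maximalIdeal ↥A := by
  rw [s27r_mem_maximalIdeal_iff A abv hA]
  simpa using hp

theorem s27r_charP_residue (p : ℕ) [hp : Fact p.Prime] (hpabv : abv ((p : ℕ) : K) < 1) :
    CharP (ResidueField ↥A) p := by
  refine (CharP.charP_iff_prime_eq_zero hp.out).mpr ?_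
  have h2 : residue ↥A ((p : ℕ) : ↥A) = 0 := by
    rw [residue_eq_zero_iff]
    exact s27r_natCast_mem_maximalIdeal A abv hA p hpabv
  rwa [map_natCast] at h2

/-- the field `base` of `s19_Curve` for `FW = ⊤`, `l = p`. -/
theorem s27r_base {F : Type} [Field F] [Algebra K F] [CharZero K] [IsAlgClosed K] (p : ℕ) [hp : Fact p.Prime]
    (hpabv : abv ((p : ℕ) : K) < 1) :
    s19_Base (((p : ℕ) : ↥A)) (s19a_W A (⊤ : Subring F)) := by
  refine ⟨s27r_natCast_mem_maximalIdeal A abv hA p hpabv, ?_, ?_⟩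
  · intro c hc
    have hc1 : abv (c : K) < 1 := (s27r_mem_maximalIdeal_iff A abv hA c).mp hc
    have hp0 : ((p : ℕ) : K) ≠ 0 := by exact_mod_cast hp.out.ne_zero
    have hppos : 0 < abv ((p : ℕ) : K) := abv.pos hp0
    obtain ⟨e, he⟩ := exists_pow_lt_of_lt_one hppos hc1
    have hq : (c : K) ^ e / ((p : ℕ) : K) ∈ A := by
      rw [hA, map_div₀, map_pow]
      exact (div_le_one hppos).mpr he.le
    refine ⟨e, ⟨⟨_, hq⟩, ?_⟩⟩
    apply Subtype.ext
    have : (((p : ℕ) : ↥A) : K) = ((p : ℕ) : K) := by simp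
    show ((c ^ e : ↥A) : K) = (((p : ℕ) : ↥A) : K) * ((c : K) ^ e / ((p : ℕ) : K))
    rw [this, SubmonoidClass.coe_pow]
    field_simp
  · intro w hw
    obtain ⟨u, hu⟩ := hw
    have hmem : ((u⁻¹ : (↥A)ˣ) : ↥A) ∈ s19a_W A (⊤ : Subring F) := by
      rw [s19a_mem_W]
      exact Subring.mem_top _
    refine ⟨⟨w, ⟨_, hmem⟩, ?_, ?_⟩, rfl⟩
    · apply Subtype.ext
      show (w : ↥A) * ((u⁻¹ : (↥A)ˣ) : ↥A) = 1
      rw [← hu]
      simp
    · apply Subtype.ext
      show ((u⁻¹ : (↥A)ˣ) : ↥A) * (w : ↥A) = 1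
      rw [← hu]
      simp

end Abv

section Bad

variable {K F : Type} [Field K] [Field F] [Algebra K F] {x : F} (W : s27r_WD K F x)
  (A : ValuationSubring K) (abv : AbsoluteValue K ℝ) (hA : ∀ a : K, a ∈ A ↔ abv a ≤ 1)

theorem s27r_scSet_ne_zero {s : K} (hs : s ∈ s27r_scSet W) : s ≠ 0 := by
  obtain ⟨i, j, k, m, -, h0⟩ := (s27r_mem_scSet W).mp hs
  exact h0

theorem s27r_coefSet_ne_zero {f : F} {s : K} (hs : s ∈ s27r_coefSet W f) : s ≠ 0 := by
  classical
  unfold s27r_coefSet at hs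
  simp only [Finset.mem_biUnion, Finset.mem_univ, true_and, Finset.mem_image,
    Polynomial.mem_support_iff] at hs
  obtain ⟨i, m, hm, rfl⟩ := hs
  exact hm

include hA in
theorem s27r_scUnit_of_abv (hS : ∀ s ∈ s27r_scSet W, abv s = 1) : s27r_SCUnit W A := by
  intro i j k m
  by_cases h0 : (s27r_sc W i j k).coeff m = 0
  · exact Or.inl h0
  · exact Or.inr (s27r_unit_mem A abv hA
      (hS _ ((s27r_mem_scSet W).mpr ⟨i, j, k, m, rfl, h0⟩)))

end Bad

end Fermat.Agent.Lib.S27
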