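/-
Programme Z (S27), brick [SP] (helper4, prefix `s27s_`), file 2 (Mathlib only):
ABSTRACT NEWTON ITERATION AND UNIQUENESS over a local ring.

`F : (n → 𝔪) → n → A` with a "Jacobian" `J : (n → 𝔪) → Matrix n n A` and a second-order expansion
`F z' ≡ F z + J z · (z' - z)  mod d²` whenever `d ∣ z' - z` (`s27s_Exp2`).
* `s27s_newton_step`: an approximate zero modulo `d ∈ 𝔪` with invertible Jacobian improves to an
  approximate zero modulo `d²`;
* `s27s_newton_seq`: the Newton sequence;
* `s27s_newton_unique`: over a valuation ring, `F` is injective at points with invertible Jacobian.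
-/
import Mathlib

set_option autoImplicit false
set_option linter.unusedSectionVars false
set_option linter.unusedVariables false
set_option linter.overlappingInstances false

noncomputable section

namespace Fermat.Agent.Lib.S27

open IsLocalRing

/-- dependent choice with an invariant depending on the index. -/
theorem s27s_exists_seq {X : Type*} (P : ℕ → X → Prop) (R : ℕ → X → X → Prop) (x₀ : X)
    (h₀ : P 0 x₀) (hstep : ∀ n x, P n x → ∃ x', P (n + 1) x' ∧ R n x x') :
    ∃ f : ℕ → X, f 0 = x₀ ∧ (∀ n, P n (f n)) ∧ ∀ n, R n (f n) (f (n + 1)) := by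
  classical
  let F : (n : ℕ) → {x : X // P n x} := fun n =>
    Nat.rec (motive := fun n => {x : X // P n x}) ⟨x₀, h₀⟩
      (fun n x => ⟨Classical.choose (hstep n x.1 x.2),
        (Classical.choose_spec (hstep n x.1 x.2)).1⟩) n
  refine ⟨fun n => (F n).1, rfl, fun n => (F n).2, fun n => ?_⟩
  exact (Classical.choose_spec (hstep n (F n).1 (F n).2)).2

/-- in a local ring, an element congruent to a unit modulo the maximal ideal is a unit. -/
theorem s27s_isUnit_of_sub_mem {A : Type*} [CommRing A] [IsLocalRing A] {x u : A} (hu : IsUnit u)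
    (h : x - u ∈ maximalIdeal A) : IsUnit x := by
  by_contra hx
  have hx' : x ∈ maximalIdeal A := (IsLocalRing.mem_maximalIdeal x).mpr hx
  have : u ∈ maximalIdeal A := by
    have : u = x - (x - u) := by ring
    rw [this]
    exact Ideal.sub_mem _ hx' h
  exact ((IsLocalRing.mem_maximalIdeal u).mp this) hu

/-- determinants of matrices congruent modulo an ideal are congruent. -/
theorem s27s_det_sub_mem {A : Type*} [CommRing A] {n : Type*} [Fintype n] [DecidableEq n]
    (I : Ideal A) (M N : Matrix n n A) (h : ∀ i j, M i j - N i j ∈ I) : M.det - N.det ∈ I := by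
  rw [← Ideal.Quotient.eq, RingHom.map_det, RingHom.map_det]
  congr 1
  ext i j
  simp only [RingHom.mapMatrix_apply, Matrix.map_apply]
  exact Ideal.Quotient.eq.mpr (h i j)

/-- a matrix congruent modulo the maximal ideal to a matrix with unit determinant has unit
determinant. -/
theorem s27s_isUnit_det_of_congr {A : Type*} [CommRing A] [IsLocalRing A] {n : Type*} [Fintype n]
    [DecidableEq n] (M N : Matrix n n A) (hN : IsUnit N.det)
    (h : ∀ i j, M i j - N i j ∈ maximalIdeal A) : IsUnit M.det :=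
  s27s_isUnit_of_sub_mem hN (s27s_det_sub_mem _ M N h)

/-- in a valuation ring finitely many elements have a common divisor which is `0` or one of
them. -/
theorem s27s_exists_gcd {R : Type*} [CommRing R] [IsDomain R] [ValuationRing R] (S : Finset R) :
    ∃ d : R, (d = 0 ∨ d ∈ S) ∧ ∀ x ∈ S, d ∣ x := by
  classical
  induction S using Finset.induction_on with
  | empty => exact ⟨0, Or.inl rfl, fun x hx => absurd hx (Finset.notMem_empty x)⟩
  | insert a S ha ih =>
    obtain ⟨d, hd, hdS⟩ := ih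
    rcases ValuationRing.dvd_total a d with h | h
    · refine ⟨a, Or.inr (Finset.mem_insert_self a S), fun x hx => ?_⟩
      rcases Finset.mem_insert.mp hx with rfl | hx
      · exact dvd_rfl
      · exact h.trans (hdS x hx)
    · refine ⟨d, hd.imp id (fun h' => Finset.mem_insert_of_mem h'), fun x hx => ?_⟩
      rcases Finset.mem_insert.mp hx with rfl | hx
      · exact h
      · exact hdS x hx

/-- in a valuation ring finitely many elements of the maximal ideal have a common divisor in the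
maximal ideal. -/
theorem s27s_exists_common_dvd {R : Type*} [CommRing R] [IsDomain R] [ValuationRing R]
    (S : Finset R) (hS : ∀ x ∈ S, x ∈ maximalIdeal R) :
    ∃ d ∈ maximalIdeal R, ∀ x ∈ S, d ∣ x := by
  obtain ⟨d, hd, hdS⟩ := s27s_exists_gcd S
  refine ⟨d, ?_, hdS⟩
  rcases hd with rfl | hd
  · exact Ideal.zero_mem _
  · exact hS d hd

section newton

variable {A : Type*} [CommRing A] [IsLocalRing A] {n : Type*} [Fintype n] [DecidableEq n]
  (F : (n → ↥(maximalIdeal A)) → n → A) (J : (n → ↥(maximalIdeal A)) → Matrix n n A)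

/-- `J` is a Jacobian of `F`: second-order expansion. -/
def s27s_Exp2 : Prop :=
  ∀ (z z' : n → ↥(maximalIdeal A)) (d : A), (∀ a, d ∣ ((z' a : A) - (z a : A))) →
    ∀ m, d ^ 2 ∣ F z' m - F z m - ∑ a, J z m a * ((z' a : A) - (z a : A))

variable {F J}

/-- **the Newton step.** -/
theorem s27s_newton_step (hFJ : s27s_Exp2 F J) (z : n → ↥(maximalIdeal A))
    (hJ : IsUnit (J z).det) (d : A) (hd : d ∈ maximalIdeal A) (hF : ∀ m, d ∣ F z m) :
    ∃ z' : n → ↥(maximalIdeal A), (∀ a, d ∣ ((z' a : A) - (z a : A))) ∧ ∀ m, d ^ 2 ∣ F z' m := by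
  classical
  choose e he using hF
  set w' : n → A := fun a => -((J z)⁻¹.mulVec e) a with hw'
  have hmem : ∀ a, (z a : A) + d * w' a ∈ maximalIdeal A := fun a =>
    Ideal.add_mem _ (z a).2 (Ideal.mul_mem_right _ _ hd)
  set z' : n → ↥(maximalIdeal A) := fun a => ⟨(z a : A) + d * w' a, hmem a⟩ with hz'
  have hdiff : ∀ a, ((z' a : A) - (z a : A)) = d * w' a := by
    intro a
    simp only [hz']
    ring
  have hJw : ∀ m, ∑ a, J z m a * ((z' a : A) - (z a : A)) = -F z m := by
    intro m
    have h1 : (J z).mulVec ((J z)⁻¹.mulVec e) = e := by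
      rw [Matrix.mulVec_mulVec, Matrix.mul_nonsing_inv (J z) hJ, Matrix.one_mulVec]
    have h2 : ∑ a, J z m a * ((J z)⁻¹.mulVec e) a = e m := by
      have := congrFun h1 m
      simpa [Matrix.mulVec, dotProduct] using this
    rw [he m, ← h2, Finset.mul_sum, ← Finset.sum_neg_distrib]
    refine Finset.sum_congr rfl fun a _ => ?_
    rw [hdiff a]
    simp only [hw']
    ring
  refine ⟨z', fun a => ⟨w' a, hdiff a⟩, fun m => ?_⟩
  have h3 := hFJ z z' d (fun a => ⟨w' a, hdiff a⟩) m
  rw [hJw m] at h3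
  have h4 : F z' m - F z m - -F z m = F z' m := by ring
  rwa [h4] at h3

/-- **the Newton sequence.** -/
theorem s27s_newton_seq (hFJ : s27s_Exp2 F J) (hJ : ∀ z, IsUnit (J z).det)
    (d₀ : A) (hd₀ : d₀ ∈ maximalIdeal A) (z₀ : n → ↥(maximalIdeal A)) (h0 : ∀ m, d₀ ∣ F z₀ m) :
    ∃ z : ℕ → n → ↥(maximalIdeal A), z 0 = z₀ ∧
      (∀ k a, d₀ ^ 2 ^ k ∣ ((z (k + 1) a : A) - (z k a : A))) ∧
      ∀ k m, d₀ ^ 2 ^ k ∣ F (z k) m := by
  have hstep : ∀ (k : ℕ) (x : n → ↥(maximalIdeal A)), (∀ m, d₀ ^ 2 ^ k ∣ F x m) →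
      ∃ x' : n → ↥(maximalIdeal A), (∀ m, d₀ ^ 2 ^ (k + 1) ∣ F x' m) ∧
        ∀ a, d₀ ^ 2 ^ k ∣ ((x' a : A) - (x a : A)) := by
    intro k x hx
    have hd : d₀ ^ 2 ^ k ∈ maximalIdeal A :=
      Ideal.pow_mem_of_mem _ hd₀ _ (Nat.pos_of_ne_zero (by positivity))
    obtain ⟨x', h1, h2⟩ := s27s_newton_step hFJ x (hJ x) (d₀ ^ 2 ^ k) hd hx
    have hpow : (d₀ ^ 2 ^ k) ^ 2 = d₀ ^ 2 ^ (k + 1) := by
      rw [← pow_mul, pow_succ]
    rw [hpow] at h2
    exact ⟨x', h2, h1⟩
  obtain ⟨f, hf0, hP, hR⟩ := s27s_exists_seq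
    (X := n → ↥(maximalIdeal A))
    (fun k x => ∀ m, d₀ ^ 2 ^ k ∣ F x m)
    (fun k x x' => ∀ a, d₀ ^ 2 ^ k ∣ ((x' a : A) - (x a : A)))
    z₀ (by simpa using h0) hstep
  exact ⟨f, hf0, hR, hP⟩

/-- **uniqueness**: over a valuation ring, two points with the same image, one of which has an
invertible Jacobian, are equal. -/
theorem s27s_newton_unique [IsDomain A] [ValuationRing A] (hFJ : s27s_Exp2 F J)
    (z z' : n → ↥(maximalIdeal A)) (hJ : IsUnit (J z).det) (h : F z = F z') : z = z' := by
  classical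
  set w : n → A := fun a => (z' a : A) - (z a : A) with hw
  obtain ⟨d, hd, hdS⟩ := s27s_exists_gcd (Finset.univ.image w)
  have hdw : ∀ a, d ∣ w a := fun a => hdS _ (Finset.mem_image_of_mem _ (Finset.mem_univ a))
  have hdm : d ∈ maximalIdeal A := by
    rcases hd with rfl | hd
    · exact Ideal.zero_mem _
    · obtain ⟨a, -, rfl⟩ := Finset.mem_image.mp hd
      exact Ideal.sub_mem _ (z' a).2 (z a).2
  -- `J w ≡ 0 mod d²`
  have h1 : ∀ m, d ^ 2 ∣ ∑ a, J z m a * w a := by
    intro m
    have h2 := hFJ z z' d hdw m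
    rw [← h, sub_self, zero_sub] at h2
    exact (dvd_neg.mp h2)
  choose ρ hρ using h1
  -- `w = J⁻¹ (J w) ≡ 0 mod d²`
  have h3 : ∀ a, d ^ 2 ∣ w a := by
    intro a
    have h4 : (J z)⁻¹.mulVec ((J z).mulVec w) = w := by
      rw [Matrix.mulVec_mulVec, Matrix.nonsing_inv_mul (J z) hJ, Matrix.one_mulVec]
    have h5 : (J z).mulVec w = fun m => d ^ 2 * ρ m := by
      funext m
      rw [← hρ m]
      simp [Matrix.mulVec, dotProduct]
    rw [h5] at h4
    have h6 := congrFun h4 a
    rw [← h6]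
    simp only [Matrix.mulVec, dotProduct]
    refine Finset.dvd_sum fun m _ => ?_
    exact Dvd.intro_left _ (by ring : (J z)⁻¹ a m * ρ m * d ^ 2 = (J z)⁻¹ a m * (d ^ 2 * ρ m))
  -- hence `d = 0`
  have hd0 : d = 0 := by
    rcases hd with rfl | hd
    · rfl
    · obtain ⟨a, -, rfl⟩ := Finset.mem_image.mp hd
      obtain ⟨u, hu⟩ := h3 a
      have h7 : w a * (1 - w a * u) = 0 := by
        linear_combination hu
      have h8 : IsUnit (1 - w a * u) := by
        by_contra hnu
        have h9 : 1 - w a * u ∈ maximalIdeal A := (IsLocalRing.mem_maximalIdeal _).mpr hnu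
        have h10 : (1 : A) ∈ maximalIdeal A := by
          have : (1 : A) = (1 - w a * u) + w a * u := by ring
          rw [this]
          exact Ideal.add_mem _ h9 (Ideal.mul_mem_right _ _ hdm)
        exact (Ideal.ne_top_iff_one _).mp (maximalIdeal.isMaximal A).ne_top h10
      exact (h8.mul_left_eq_zero).mp h7
  funext a
  have h11 := hdw a
  rw [hd0, zero_dvd_iff] at h11
  apply Subtype.ext
  have : (z' a : A) - (z a : A) = 0 := h11
  exact (sub_eq_zero.mp this).symm

end newton

end Fermat.Agent.Lib.S27
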