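/-
Programme Z (S27), brick [SP] "J[ℓ^e] ≅ J̄[ℓ^e]" (helper4, prefix `s27s_`), file 1:
HIGHER-ORDER TAYLOR CALCULUS ON AN ABSTRACT DISC `D : s19_Disc A W G` (landed `Lib/S19/IfaceAlg`,
`Lib/S19/DDiffBasic`; generalises `Lib/S17/YDisc` from order 2 to any order).

* `s27s_tc D j q h`: the `j`-th Taylor coefficient of `h` at the point of parameter `q`
  (`= s19_dd` with `j` repeated nodes `q`; `s19_tay D j = s27s_tc D j 0`);
* linearity; `tc_j(q)((t - q)·h) = tc_{j-1}(q) h`;
* second-order expansion in the node: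
  `tc_j(a) h = tc_j(b) h + (a - b)·(j+1)·tc_{j+1}(b) h + (a - b)²·ρ`;
* Leibniz (Hasse–Schmidt) rule `tc_j(q)(g·h) = Σ_{a+b=j} tc_a(q) g · tc_b(q) h`;
* `tc_m(q) h = 0` for all `m < n`  ⇔  `h = (t - q)^n · h'`;
* congruences modulo the maximal ideal.
-/
import Fermat.Agent.Lib.S17.YDisc

set_option autoImplicit false
set_option linter.unusedSectionVars false
set_option linter.unusedVariables false

noncomputable section

namespace Fermat.Agent.Lib.S27

open IsLocalRing Fermat.Agent.Lib.S19 Fermat.Agent.Lib.S17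

variable {A : Type*} [CommRing A] [IsLocalRing A] {W : Subring A}
  {G : Type*} [CommRing G] [Algebra A G] (D : s19_Disc A W G)

/-- the `j`-fold iterated divided difference of `h` at the node `q`. -/
def s27s_dqn (j : ℕ) (q : ↥(maximalIdeal A)) (h : G) : G := s19_dqs D (List.replicate j q) h

/-- the `j`-th Taylor coefficient of `h` at the point of parameter `q`. -/
def s27s_tc (j : ℕ) (q : ↥(maximalIdeal A)) (h : G) : A := s19_dd D (List.replicate j q) q h

lemma s27s_tc_eq (j : ℕ) (q : ↥(maximalIdeal A)) (h : G) :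
    s27s_tc D j q h = D.ev q (s27s_dqn D j q h) := rfl

lemma s27s_tay_eq (j : ℕ) (h : G) : s19_tay D j h = s27s_tc D j 0 h := rfl

@[simp] lemma s27s_dqn_zero (q : ↥(maximalIdeal A)) (h : G) : s27s_dqn D 0 q h = h := rfl

lemma s27s_dqn_succ (j : ℕ) (q : ↥(maximalIdeal A)) (h : G) :
    s27s_dqn D (j + 1) q h = s27s_dqn D j q (D.dq q h) := rfl

lemma s27s_dqn_succ' (j : ℕ) (q : ↥(maximalIdeal A)) (h : G) :
    s27s_dqn D (j + 1) q h = D.dq q (s27s_dqn D j q h) := by
  induction j generalizing h with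
  | zero => rfl
  | succ j ih => rw [s27s_dqn_succ, ih, ← s27s_dqn_succ]

@[simp] lemma s27s_tc_zero (q : ↥(maximalIdeal A)) (h : G) : s27s_tc D 0 q h = D.ev q h := rfl

lemma s27s_tc_succ (j : ℕ) (q : ↥(maximalIdeal A)) (h : G) :
    s27s_tc D (j + 1) q h = s27s_tc D j q (D.dq q h) := rfl

lemma s27s_tc_one (q : ↥(maximalIdeal A)) (h : G) : s27s_tc D 1 q h = s17y_t1 D q h := rfl

/-! ### linearity -/

lemma s27s_tc_add (j : ℕ) (q : ↥(maximalIdeal A)) (g h : G) :
    s27s_tc D j q (g + h) = s27s_tc D j q g + s27s_tc D j q h := s19d_dd_add D _ _ g h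

lemma s27s_tc_sub (j : ℕ) (q : ↥(maximalIdeal A)) (g h : G) :
    s27s_tc D j q (g - h) = s27s_tc D j q g - s27s_tc D j q h := s19d_dd_sub D _ _ g h

lemma s27s_tc_smul (j : ℕ) (q : ↥(maximalIdeal A)) (a : A) (h : G) :
    s27s_tc D j q (algebraMap A G a * h) = a * s27s_tc D j q h := s19d_dd_smul D _ _ a h

lemma s27s_tc_sum {μ : Type*} (s : Finset μ) (j : ℕ) (q : ↥(maximalIdeal A)) (g : μ → G) :
    s27s_tc D j q (∑ m ∈ s, g m) = ∑ m ∈ s, s27s_tc D j q (g m) := s19d_dd_sum D s _ _ g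

lemma s27s_tc_zero_fun (j : ℕ) (q : ↥(maximalIdeal A)) : s27s_tc D j q (0 : G) = 0 := by
  have := s27s_tc_sub D j q (0 : G) 0
  rwa [sub_self, sub_self] at this

lemma s27s_dqn_add (j : ℕ) (q : ↥(maximalIdeal A)) (g h : G) :
    s27s_dqn D j q (g + h) = s27s_dqn D j q g + s27s_dqn D j q h := s19d_dqs_add D _ g h

lemma s27s_dqn_smul (j : ℕ) (q : ↥(maximalIdeal A)) (a : A) (h : G) :
    s27s_dqn D j q (algebraMap A G a * h) = algebraMap A G a * s27s_dqn D j q h :=
  s19d_dqs_smul D _ a h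

/-- Taylor coefficients of a constant. -/
lemma s27s_tc_const (j : ℕ) (q : ↥(maximalIdeal A)) (a : A) :
    s27s_tc D (j + 1) q (algebraMap A G a) = 0 := by
  rw [s27s_tc_succ, s19d_dq_const, s27s_tc_zero_fun]

lemma s27s_tc_zero_const (q : ↥(maximalIdeal A)) (a : A) :
    s27s_tc D 0 q (algebraMap A G a) = a := by
  rw [s27s_tc_zero, AlgHom.commutes]
  rfl

/-- Taylor coefficients of the parameter. -/
lemma s27s_tc_one_t (q : ↥(maximalIdeal A)) : s27s_tc D 1 q D.t = 1 := by
  rw [s27s_tc_succ, s19d_dq_t, s27s_tc_zero, map_one]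

lemma s27s_tc_t (j : ℕ) (q : ↥(maximalIdeal A)) : s27s_tc D (j + 2) q D.t = 0 := by
  rw [s27s_tc_succ, s19d_dq_t]
  have : (1 : G) = algebraMap A G 1 := (map_one _).symm
  rw [this, s27s_tc_const]

/-! ### multiplication by `t - q` -/

lemma s27s_tc_zero_mul_sub (q : ↥(maximalIdeal A)) (h : G) :
    s27s_tc D 0 q ((D.t - algebraMap A G (q : A)) * h) = 0 := s19d_ev_mul_sub D q h

lemma s27s_tc_succ_mul_sub (j : ℕ) (q : ↥(maximalIdeal A)) (h : G) :
    s27s_tc D (j + 1) q ((D.t - algebraMap A G (q : A)) * h) = s27s_tc D j q h := by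
  rw [s27s_tc_succ, s19d_dq_mul_sub]

/-- Taylor coefficients of `(t - q)^n · h` of order `< n` vanish. -/
lemma s27s_tc_pow_mul_lt (n : ℕ) (q : ↥(maximalIdeal A)) (h : G) (m : ℕ) (hm : m < n) :
    s27s_tc D m q ((D.t - algebraMap A G (q : A)) ^ n * h) = 0 := by
  induction n generalizing m with
  | zero => omega
  | succ n ih =>
    rw [pow_succ', mul_assoc]
    cases m with
    | zero => exact s27s_tc_zero_mul_sub D q _
    | succ m =>
      rw [s27s_tc_succ_mul_sub]
      exact ih m (by omega)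

/-- the Taylor coefficients of `(t - q)^n · h` of order `n + m`. -/
lemma s27s_tc_pow_mul_add (n : ℕ) (q : ↥(maximalIdeal A)) (h : G) (m : ℕ) :
    s27s_tc D (n + m) q ((D.t - algebraMap A G (q : A)) ^ n * h) = s27s_tc D m q h := by
  induction n with
  | zero => rw [pow_zero, one_mul, zero_add]
  | succ n ih =>
    rw [pow_succ', mul_assoc, show n + 1 + m = (n + m) + 1 by ring, s27s_tc_succ_mul_sub, ih]

/-- **Taylor's formula with remainder.** -/
lemma s27s_taylor (n : ℕ) (q : ↥(maximalIdeal A)) (h : G) :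
    h = ∑ m ∈ Finset.range n, algebraMap A G (s27s_tc D m q h) *
        (D.t - algebraMap A G (q : A)) ^ m +
      (D.t - algebraMap A G (q : A)) ^ n * s27s_dqn D n q h := by
  induction n with
  | zero => simp
  | succ n ih =>
    have h1 := D.dq_spec q (s27s_dqn D n q h)
    rw [Finset.sum_range_succ, s27s_dqn_succ', s27s_tc_eq D n q h]
    nth_rewrite 1 [ih]
    nth_rewrite 1 [h1]
    ring

/-- a function whose Taylor coefficients of order `< n` at `q` vanish is divisible by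
`(t - q)^n`. -/
lemma s27s_pow_dvd (n : ℕ) (q : ↥(maximalIdeal A)) (h : G)
    (h0 : ∀ m, m < n → s27s_tc D m q h = 0) :
    h = (D.t - algebraMap A G (q : A)) ^ n * s27s_dqn D n q h := by
  have h1 := s27s_taylor D n q h
  rw [Finset.sum_eq_zero (fun m hm => by
    rw [h0 m (Finset.mem_range.mp hm), map_zero, zero_mul]), zero_add] at h1
  exact h1

/-! ### expansion in the node -/

/-- **second-order expansion of `q ↦ tc_j(q) h`.** -/
lemma s27s_tc_exp2 (j : ℕ) (a b : ↥(maximalIdeal A)) (h : G) :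
    ∃ ρ : A, s27s_tc D j a h = s27s_tc D j b h +
      ((a : A) - (b : A)) * (((j + 1 : ℕ) : A) * s27s_tc D (j + 1) b h) +
      ((a : A) - (b : A)) ^ 2 * ρ := by
  induction j generalizing h with
  | zero =>
    refine ⟨D.ev a (D.dq b (D.dq b h)), ?_⟩
    have := s17y_ev_exp2 D a b h
    simp only [s27s_tc_zero, s27s_tc_succ, zero_add, Nat.cast_one, one_mul]
    rw [this]
    rfl
  | succ j ih =>
    -- `dq a h = dq b h + s·dq b (dq b h) + s²·dq a (dq b (dq b h))`
    have h1 := s19d_dq_change D a b h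
    have h2 := s19d_dq_change D a b (D.dq b h)
    have h3 : D.dq a h = D.dq b h + algebraMap A G ((a : A) - (b : A)) * D.dq b (D.dq b h) +
        algebraMap A G (((a : A) - (b : A)) ^ 2) * D.dq a (D.dq b (D.dq b h)) := by
      rw [h1]
      nth_rewrite 1 [h2]
      rw [map_pow]
      ring
    obtain ⟨ρ1, hρ1⟩ := ih (D.dq b h)
    obtain ⟨ρ2, hρ2⟩ := ih (D.dq b (D.dq b h))
    refine ⟨ρ1 + ((j + 1 : ℕ) : A) * s27s_tc D (j + 1) b (D.dq b (D.dq b h)) +
      ((a : A) - (b : A)) * ρ2 + s27s_tc D j a (D.dq a (D.dq b (D.dq b h))), ?_⟩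
    rw [s27s_tc_succ D j a h, h3, s27s_tc_add, s27s_tc_add, s27s_tc_smul, s27s_tc_smul, hρ1, hρ2,
      s27s_tc_succ D j b h, s27s_tc_succ D (j + 1) b h, s27s_tc_succ D j b (D.dq b h)]
    push_cast
    ring

/-- first-order expansion of `q ↦ tc_j(q) h`. -/
lemma s27s_tc_dvd (j : ℕ) (a b : ↥(maximalIdeal A)) (h : G) :
    ((a : A) - (b : A)) ∣ s27s_tc D j a h - s27s_tc D j b h := by
  obtain ⟨ρ, hρ⟩ := s27s_tc_exp2 D j a b h
  exact ⟨((j + 1 : ℕ) : A) * s27s_tc D (j + 1) b h + ((a : A) - (b : A)) * ρ, by rw [hρ]; ring⟩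

/-! ### the Leibniz rule -/

/-- Leibniz rule for the iterated divided difference. -/
lemma s27s_dqn_mul (j : ℕ) (q : ↥(maximalIdeal A)) (g h : G) :
    s27s_dqn D j q (g * h) = s27s_dqn D j q g * h +
      ∑ a ∈ Finset.range j, algebraMap A G (s27s_tc D a q g) * s27s_dqn D (j - a) q h := by
  induction j with
  | zero => simp
  | succ j ih =>
    rw [s27s_dqn_succ', ih, s19d_dq_add, s17y_dq_mul, s19d_dq_sum, Finset.sum_range_succ,
      ← s27s_dqn_succ', ← s27s_tc_eq]
    have h1 : ∀ a ∈ Finset.range j,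
        D.dq q (algebraMap A G (s27s_tc D a q g) * s27s_dqn D (j - a) q h) =
          algebraMap A G (s27s_tc D a q g) * s27s_dqn D (j + 1 - a) q h := by
      intro a ha
      have ha' : a < j := Finset.mem_range.mp ha
      rw [s19d_dq_smul, ← s27s_dqn_succ', show j + 1 - a = j - a + 1 by omega]
    rw [Finset.sum_congr rfl h1, show j + 1 - j = 1 by omega]
    have h2 : s27s_dqn D 1 q h = D.dq q h := rfl
    rw [h2]
    ring

/-- **Leibniz (Hasse–Schmidt) rule for the Taylor coefficients.** -/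
lemma s27s_tc_mul (j : ℕ) (q : ↥(maximalIdeal A)) (g h : G) :
    s27s_tc D j q (g * h) =
      ∑ a ∈ Finset.range (j + 1), s27s_tc D a q g * s27s_tc D (j - a) q h := by
  rw [s27s_tc_eq, s27s_dqn_mul, map_add, map_mul, map_sum, Finset.sum_range_succ, ← s27s_tc_eq,
    Nat.sub_self, s27s_tc_zero]
  have h1 : ∀ a ∈ Finset.range j,
      D.ev q (algebraMap A G (s27s_tc D a q g) * s27s_dqn D (j - a) q h) =
        s27s_tc D a q g * s27s_tc D (j - a) q h := by
    intro a _
    rw [s17y_ev_smul, ← s27s_tc_eq]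
  rw [Finset.sum_congr rfl h1]
  ring

/-! ### congruences -/

/-- moving the node and the function inside the maximal ideal. -/
lemma s27s_tc_congr (j : ℕ) (a : ↥(maximalIdeal A)) {g h : G} (hgh : g - h ∈ s19d_mG A G) :
    s27s_tc D j a g - s19_tay D j h ∈ maximalIdeal A :=
  s19d_ev_congr D a 0 (s19d_dqs_congr D _ _ (by simp) hgh)

lemma s27s_tc_congr_self (j : ℕ) (a : ↥(maximalIdeal A)) (h : G) :
    s27s_tc D j a h - s19_tay D j h ∈ maximalIdeal A :=
  s27s_tc_congr D j a (by rw [sub_self]; exact Submodule.zero_mem _)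

end Fermat.Agent.Lib.S27
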