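/-
Programme Z (S27), brick [SP] (helper4, prefix `s27s_`), file 3:
THE `ℓ`-FOLD-ZERO SYSTEM ON A FAMILY OF DISCS (`ℓ = L + 1`), its Jacobian and its Newton sequence.

Discs `D i : s19_Disc A W (G i)`, functions `ψ0 i, ψ κ i ∈ G i` (`κ : ι × Fin L`).  Unknowns
`z = (c, q)`, `c : ι × Fin L → 𝔪`, `q : ι → 𝔪`;  `Ψ_i(c) = ψ0 i + Σ_κ c_κ ψ κ i`;  equations
`F z (i, j) = tc_j(q_i)(Ψ_i(c))` for `j ≤ L` (indexed by `(ι × Fin L) ⊕ ι`, the second summand for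
`j = L`).  The Jacobian is congruent modulo `𝔪` to the block-triangular matrix
`[[T', 0], [*, ℓ·tay_ℓ(ψ0)]]`, `T' = (tay_j(ψ κ i))_{(i, j<L), κ}`.
-/
import Fermat.Agent.Lib.S27.STaylor
import Fermat.Agent.Lib.S27.SNewton

set_option autoImplicit false
set_option linter.unusedSectionVars false
set_option linter.unusedVariables false
set_option linter.overlappingInstances false

noncomputable section

namespace Fermat.Agent.Lib.S27

open IsLocalRing Fermat.Agent.Lib.S19 Fermat.Agent.Lib.S17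

/-- the index type of the unknowns and of the equations. -/
abbrev s27s_Ix (ι : Type*) (L : ℕ) := (ι × Fin L) ⊕ ι

/-- the disc of an equation. -/
def s27s_disc {ι : Type*} {L : ℕ} : s27s_Ix ι L → ι
  | Sum.inl p => p.1
  | Sum.inr i => i

/-- the order of an equation. -/
def s27s_ord {ι : Type*} {L : ℕ} : s27s_Ix ι L → ℕ
  | Sum.inl p => (p.2 : ℕ)
  | Sum.inr _ => L

lemma s27s_ord_le {ι : Type*} {L : ℕ} (m : s27s_Ix ι L) : s27s_ord m ≤ L := by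
  rcases m with p | i
  · exact p.2.2.le
  · exact le_rfl

variable {A : Type*} [CommRing A] [IsLocalRing A] {W : Subring A}
  {ι : Type*} [Fintype ι] [DecidableEq ι]
  {G : ι → Type*} [∀ i, CommRing (G i)] [∀ i, Algebra A (G i)] (D : ∀ i, s19_Disc A W (G i))
  (L : ℕ) (ψ0 : ∀ i, G i) (ψ : ι × Fin L → ∀ i, G i)

/-- the function `Ψ_i(c) = ψ0 i + Σ_κ c_κ ψ κ i` on the disc `i`. -/
def s27s_Psi (c : ι × Fin L → A) (i : ι) : G i := ψ0 i + ∑ κ, algebraMap A (G i) (c κ) * ψ κ i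

/-- the `c`-part of a point. -/
def s27s_cz (z : s27s_Ix ι L → ↥(maximalIdeal A)) : ι × Fin L → A := fun κ => (z (Sum.inl κ) : A)

/-- the `q`-part of a point. -/
def s27s_qz (z : s27s_Ix ι L → ↥(maximalIdeal A)) : ι → ↥(maximalIdeal A) := fun i => z (Sum.inr i)

/-- **the system**: the Taylor coefficients of order `≤ L` of `Ψ_i(c)` at `q_i`. -/
def s27s_F (z : s27s_Ix ι L → ↥(maximalIdeal A)) (m : s27s_Ix ι L) : A :=
  s27s_tc (D (s27s_disc m)) (s27s_ord m) (s27s_qz L z (s27s_disc m))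
    (s27s_Psi L ψ0 ψ (s27s_cz L z) (s27s_disc m))

/-- **the Jacobian** of the system. -/
def s27s_J (z : s27s_Ix ι L → ↥(maximalIdeal A)) : Matrix (s27s_Ix ι L) (s27s_Ix ι L) A :=
  fun m => Sum.elim
    (fun κ => s27s_tc (D (s27s_disc m)) (s27s_ord m) (s27s_qz L z (s27s_disc m)) (ψ κ (s27s_disc m)))
    (fun i' => if s27s_disc m = i' then
      ((s27s_ord m + 1 : ℕ) : A) * s27s_tc (D (s27s_disc m)) (s27s_ord m + 1)
        (s27s_qz L z (s27s_disc m)) (s27s_Psi L ψ0 ψ (s27s_cz L z) (s27s_disc m)) else 0)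

lemma s27s_Psi_add (c γ : ι × Fin L → A) (i : ι) :
    s27s_Psi L ψ0 ψ (c + γ) i = s27s_Psi L ψ0 ψ c i + ∑ κ, algebraMap A (G i) (γ κ) * ψ κ i := by
  unfold s27s_Psi
  simp only [Pi.add_apply, map_add, add_mul, Finset.sum_add_distrib]
  ring

lemma s27s_Psi_zero (i : ι) : s27s_Psi L ψ0 ψ (0 : ι × Fin L → A) i = ψ0 i := by
  unfold s27s_Psi
  simp

lemma s27s_tc_Psi (c : ι × Fin L → A) (j : ℕ) (a : ↥(maximalIdeal A)) (i : ι) :
    s27s_tc (D i) j a (s27s_Psi L ψ0 ψ c i) =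
      s27s_tc (D i) j a (ψ0 i) + ∑ κ, c κ * s27s_tc (D i) j a (ψ κ i) := by
  unfold s27s_Psi
  rw [s27s_tc_add, s27s_tc_sum]
  simp only [s27s_tc_smul]

lemma s27s_tc_sum_smul (γ : ι × Fin L → A) (j : ℕ) (a : ↥(maximalIdeal A)) (i : ι) :
    s27s_tc (D i) j a (∑ κ, algebraMap A (G i) (γ κ) * ψ κ i) =
      ∑ κ, γ κ * s27s_tc (D i) j a (ψ κ i) := by
  rw [s27s_tc_sum]
  simp only [s27s_tc_smul]

lemma s27s_Psi_sub_mem (c : ι × Fin L → A) (hc : ∀ κ, c κ ∈ maximalIdeal A) (i : ι) :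
    s27s_Psi L ψ0 ψ c i - ψ0 i ∈ s19d_mG A (G i) := by
  unfold s27s_Psi
  rw [add_sub_cancel_left]
  exact Submodule.sum_mem _ fun κ _ => s19d_smul_mem_mG (hc κ) _

/-- **the second-order expansion of the system.** -/
theorem s27s_exp2 : s27s_Exp2 (s27s_F D L ψ0 ψ) (s27s_J D L ψ0 ψ) := by
  classical
  intro z z' d hd m
  choose v hv using hd
  set i := s27s_disc m with hi
  set j := s27s_ord m with hj
  set c := s27s_cz L z with hc
  set q := s27s_qz L z with hq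
  have hc' : s27s_cz L z' = c + fun κ => d * v (Sum.inl κ) := by
    funext κ
    simp only [hc, s27s_cz, Pi.add_apply]
    linear_combination hv (Sum.inl κ)
  have hq' : ((s27s_qz L z' i : ↥(maximalIdeal A)) : A) - (q i : A) = d * v (Sum.inr i) :=
    hv (Sum.inr i)
  obtain ⟨ρ0, hρ0⟩ := s27s_tc_exp2 (D i) j (s27s_qz L z' i) (q i) (s27s_Psi L ψ0 ψ c i)
  choose ρ hρ using fun κ => s27s_tc_dvd (D i) j (s27s_qz L z' i) (q i) (ψ κ i)
  rw [hq'] at hρ0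
  simp only [hq'] at hρ
  have hF' : s27s_F D L ψ0 ψ z' m = s27s_tc (D i) j (s27s_qz L z' i) (s27s_Psi L ψ0 ψ c i) +
      ∑ κ, (d * v (Sum.inl κ)) * s27s_tc (D i) j (s27s_qz L z' i) (ψ κ i) := by
    unfold s27s_F
    rw [hc', s27s_Psi_add, s27s_tc_add, s27s_tc_sum_smul]
  have hJsum : ∑ a, s27s_J D L ψ0 ψ z m a * ((z' a : A) - (z a : A)) =
      ∑ κ, s27s_tc (D i) j (q i) (ψ κ i) * (d * v (Sum.inl κ)) +
        ((j + 1 : ℕ) : A) * s27s_tc (D i) (j + 1) (q i) (s27s_Psi L ψ0 ψ c i) *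
          (d * v (Sum.inr i)) := by
    rw [Fintype.sum_sum_type]
    congr 1
    · refine Finset.sum_congr rfl fun κ _ => ?_
      rw [hv (Sum.inl κ)]
      rfl
    · have h1 : ∀ i' : ι, s27s_J D L ψ0 ψ z m (Sum.inr i') * ((z' (Sum.inr i') : A) -
          (z (Sum.inr i') : A)) = if i = i' then
            ((j + 1 : ℕ) : A) * s27s_tc (D i) (j + 1) (q i) (s27s_Psi L ψ0 ψ c i) *
              (d * v (Sum.inr i)) else 0 := by
        intro i'
        rw [hv (Sum.inr i')]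
        show (if i = i' then _ else 0) * _ = _
        by_cases hii : i = i'
        · subst hii
          rw [if_pos rfl, if_pos rfl]
        · rw [if_neg hii, if_neg hii, zero_mul]
      rw [Finset.sum_congr rfl fun i' _ => h1 i', Finset.sum_ite_eq, if_pos (Finset.mem_univ i)]
  have hFz : s27s_F D L ψ0 ψ z m = s27s_tc (D i) j (q i) (s27s_Psi L ψ0 ψ c i) := rfl
  rw [hF', hJsum, hFz, hρ0]
  refine ⟨v (Sum.inr i) ^ 2 * ρ0 + ∑ κ, v (Sum.inl κ) * (v (Sum.inr i) * ρ κ), ?_⟩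
  have h2 : ∀ κ, s27s_tc (D i) j (s27s_qz L z' i) (ψ κ i) =
      s27s_tc (D i) j (q i) (ψ κ i) + d * v (Sum.inr i) * ρ κ := fun κ => by
    linear_combination hρ κ
  simp only [h2]
  have hS : ∑ κ, d * v (Sum.inl κ) * (s27s_tc (D i) j (q i) (ψ κ i) + d * v (Sum.inr i) * ρ κ) =
      ∑ κ, s27s_tc (D i) j (q i) (ψ κ i) * (d * v (Sum.inl κ)) +
        d ^ 2 * ∑ κ, v (Sum.inl κ) * (v (Sum.inr i) * ρ κ) := by
    rw [Finset.mul_sum, ← Finset.sum_add_distrib]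
    exact Finset.sum_congr rfl fun κ _ => by ring
  rw [hS]
  push_cast
  ring

/-- **the Jacobian is invertible** at every point (with entries in the maximal ideal). -/
theorem s27s_isUnit_det_J
    (hm : ∀ i j, 1 ≤ j → j ≤ L → s19_tay (D i) j (ψ0 i) ∈ maximalIdeal A)
    (hu : ∀ i, IsUnit (s19_tay (D i) (L + 1) (ψ0 i))) (hℓ : IsUnit ((L + 1 : ℕ) : A))
    (hdet : IsUnit (Matrix.det (Matrix.of fun (p κ : ι × Fin L) =>
      s19_tay (D p.1) (p.2 : ℕ) (ψ κ p.1))))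
    (z : s27s_Ix ι L → ↥(maximalIdeal A)) : IsUnit (s27s_J D L ψ0 ψ z).det := by
  classical
  set T' : Matrix (ι × Fin L) (ι × Fin L) A :=
    Matrix.of fun (p κ : ι × Fin L) => s19_tay (D p.1) (p.2 : ℕ) (ψ κ p.1) with hT'
  set C : Matrix ι (ι × Fin L) A := Matrix.of fun i κ => s19_tay (D i) L (ψ κ i) with hC
  set Δ : Matrix ι ι A :=
    Matrix.diagonal fun i => ((L + 1 : ℕ) : A) * s19_tay (D i) (L + 1) (ψ0 i) with hΔ
  set N : Matrix (s27s_Ix ι L) (s27s_Ix ι L) A := Matrix.fromBlocks T' 0 C Δ with hN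
  have hNdet : IsUnit N.det := by
    rw [hN, Matrix.det_fromBlocks_zero₁₂, hΔ, Matrix.det_diagonal]
    refine hdet.mul ?_
    rw [IsUnit.prod_univ_iff]
    exact fun i => hℓ.mul (hu i)
  have hcm : ∀ κ, s27s_cz L z κ ∈ maximalIdeal A := fun κ => (z (Sum.inl κ)).2
  refine s27s_isUnit_det_of_congr _ N hNdet fun m a => ?_
  rcases m with p | i <;> rcases a with κ | i'
  · -- (inl, inl)
    show s27s_tc (D p.1) (p.2 : ℕ) (s27s_qz L z p.1) (ψ κ p.1) -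
      s19_tay (D p.1) (p.2 : ℕ) (ψ κ p.1) ∈ maximalIdeal A
    exact s27s_tc_congr_self (D p.1) _ _ _
  · -- (inl, inr)
    show (if p.1 = i' then (((p.2 : ℕ) + 1 : ℕ) : A) * s27s_tc (D p.1) ((p.2 : ℕ) + 1)
      (s27s_qz L z p.1) (s27s_Psi L ψ0 ψ (s27s_cz L z) p.1) else 0) - 0 ∈ maximalIdeal A
    rw [sub_zero]
    split_ifs with h
    · refine Ideal.mul_mem_left _ _ ?_
      have h1 := s27s_tc_congr (D p.1) ((p.2 : ℕ) + 1) (s27s_qz L z p.1)
        (s27s_Psi_sub_mem L ψ0 ψ (s27s_cz L z) hcm p.1)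
      have h2 := hm p.1 ((p.2 : ℕ) + 1) (by omega) (by have := p.2.2; omega)
      have := Ideal.add_mem _ h1 h2
      rwa [sub_add_cancel] at this
    · exact Ideal.zero_mem _
  · -- (inr, inl)
    show s27s_tc (D i) L (s27s_qz L z i) (ψ κ i) - s19_tay (D i) L (ψ κ i) ∈ maximalIdeal A
    exact s27s_tc_congr_self (D i) _ _ _
  · -- (inr, inr)
    show (if i = i' then ((L + 1 : ℕ) : A) * s27s_tc (D i) (L + 1)
      (s27s_qz L z i) (s27s_Psi L ψ0 ψ (s27s_cz L z) i) else 0) -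
        Matrix.diagonal (fun i => ((L + 1 : ℕ) : A) * s19_tay (D i) (L + 1) (ψ0 i)) i i' ∈
        maximalIdeal A
    by_cases h : i = i'
    · subst h
      rw [if_pos rfl, Matrix.diagonal_apply_eq, ← mul_sub]
      refine Ideal.mul_mem_left _ _ ?_
      exact s27s_tc_congr (D i) (L + 1) (s27s_qz L z i)
        (s27s_Psi_sub_mem L ψ0 ψ (s27s_cz L z) hcm i)
    · rw [if_neg h, Matrix.diagonal_apply_ne _ h, sub_zero]
      exact Ideal.zero_mem _

/-- the value of the system at the origin. -/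
lemma s27s_F_zero (m : s27s_Ix ι L) :
    s27s_F D L ψ0 ψ (0 : s27s_Ix ι L → ↥(maximalIdeal A)) m =
      s19_tay (D (s27s_disc m)) (s27s_ord m) (ψ0 (s27s_disc m)) := by
  unfold s27s_F
  have h1 : s27s_cz L (0 : s27s_Ix ι L → ↥(maximalIdeal A)) = (0 : ι × Fin L → A) := rfl
  rw [h1, s27s_Psi_zero]
  rfl

/-- the output of the Newton iteration. -/
structure s27s_NSeq (d₀ : A) (z : ℕ → s27s_Ix ι L → ↥(maximalIdeal A)) : Prop where
  d_mem : d₀ ∈ maximalIdeal A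
  step : ∀ k a, d₀ ^ 2 ^ k ∣ ((z (k + 1) a : A) - (z k a : A))
  eqn : ∀ k m, d₀ ^ 2 ^ k ∣ s27s_F D L ψ0 ψ (z k) m

/-- **the Newton sequence of the `ℓ`-fold-zero system.** -/
theorem s27s_sys_newton
    (hm : ∀ i j, j ≤ L → s19_tay (D i) j (ψ0 i) ∈ maximalIdeal A)
    (hu : ∀ i, IsUnit (s19_tay (D i) (L + 1) (ψ0 i))) (hℓ : IsUnit ((L + 1 : ℕ) : A))
    (hdet : IsUnit (Matrix.det (Matrix.of fun (p κ : ι × Fin L) =>
      s19_tay (D p.1) (p.2 : ℕ) (ψ κ p.1))))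
    (d₀ : A) (hd₀ : d₀ ∈ maximalIdeal A)
    (h0 : ∀ i j, j ≤ L → d₀ ∣ s19_tay (D i) j (ψ0 i)) :
    ∃ z : ℕ → s27s_Ix ι L → ↥(maximalIdeal A), s27s_NSeq D L ψ0 ψ d₀ z := by
  obtain ⟨z, -, h1, h2⟩ := s27s_newton_seq (s27s_exp2 D L ψ0 ψ)
    (s27s_isUnit_det_J D L ψ0 ψ (fun i j _ hj => hm i j hj) hu hℓ hdet) d₀ hd₀ 0 (fun m => by
      rw [s27s_F_zero]
      exact h0 _ _ (s27s_ord_le m))
  exact ⟨z, hd₀, h1, h2⟩

/-- **uniqueness of the solution of the `ℓ`-fold-zero system** over a valuation ring. -/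
theorem s27s_sys_unique [IsDomain A] [ValuationRing A]
    (hm : ∀ i j, 1 ≤ j → j ≤ L → s19_tay (D i) j (ψ0 i) ∈ maximalIdeal A)
    (hu : ∀ i, IsUnit (s19_tay (D i) (L + 1) (ψ0 i))) (hℓ : IsUnit ((L + 1 : ℕ) : A))
    (hdet : IsUnit (Matrix.det (Matrix.of fun (p κ : ι × Fin L) =>
      s19_tay (D p.1) (p.2 : ℕ) (ψ κ p.1))))
    (z z' : s27s_Ix ι L → ↥(maximalIdeal A))
    (h : s27s_F D L ψ0 ψ z = s27s_F D L ψ0 ψ z') : z = z' :=
  s27s_newton_unique (s27s_exp2 D L ψ0 ψ) z z' (s27s_isUnit_det_J D L ψ0 ψ hm hu hℓ hdet z) h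

/-- a point at which every `Ψ_i(c)` is divisible by `(t_i - q_i)^(L+1)` is a zero of the system. -/
lemma s27s_F_eq_zero_of_dvd (z : s27s_Ix ι L → ↥(maximalIdeal A))
    (h : ∀ i, ∃ g' : G i, s27s_Psi L ψ0 ψ (s27s_cz L z) i =
      ((D i).t - algebraMap A (G i) ((s27s_qz L z i : ↥(maximalIdeal A)) : A)) ^ (L + 1) * g') :
    s27s_F D L ψ0 ψ z = 0 := by
  funext m
  obtain ⟨g', hg'⟩ := h (s27s_disc m)
  unfold s27s_F
  rw [hg']
  exact s27s_tc_pow_mul_lt (D (s27s_disc m)) (L + 1) _ g' _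
    (Nat.lt_succ_of_le (s27s_ord_le m))

/-- a zero of the system: every `Ψ_i(c)` is divisible by `(t_i - q_i)^(L+1)`. -/
lemma s27s_dvd_of_F_eq_zero (z : s27s_Ix ι L → ↥(maximalIdeal A))
    (h : s27s_F D L ψ0 ψ z = 0) (i : ι) :
    s27s_Psi L ψ0 ψ (s27s_cz L z) i =
      ((D i).t - algebraMap A (G i) ((s27s_qz L z i : ↥(maximalIdeal A)) : A)) ^ (L + 1) *
        s27s_dqn (D i) (L + 1) (s27s_qz L z i) (s27s_Psi L ψ0 ψ (s27s_cz L z) i) := by
  refine s27s_pow_dvd (D i) (L + 1) _ _ fun m hm => ?_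
  rcases Nat.lt_succ_iff_lt_or_eq.mp hm with hlt | rfl
  · exact congrFun h (Sum.inl (i, ⟨m, hlt⟩))
  · exact congrFun h (Sum.inr i)

end Fermat.Agent.Lib.S27
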