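/-
Programme Z (S27), brick [SP] (helper4, prefix `s27s_`), file 4:
THE ALGEBRAICITY STEP for the `ℓ`-fold-zero system (generalises `Lib/S17/YAlg` from 2 to `ℓ = L+1`).

`s27s_Limit` = the data produced by the analytic part (SLimit): a field `Lf ⊇ K`, limit
coefficients `chat κ ∈ Lf`, for every disc the "Taylor coefficients at the limit point"
`d i j : G i →+ Lf` (`d i 0 = e i` a ring homomorphism) with the Hasse–Schmidt Leibniz rule, the
limit equations (orders `≤ L`), and for every disc the dichotomy "the limit point is transcendental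
over `K`" / "it is a point `q ∈ 𝔪` of the disc".

`s27s_exact_of_limit`: from such a package (K algebraically closed of characteristic zero, the
`G i` domains, algebraic over `A[t_i]`), exact solutions in `A`.
Stage 1: chain rule `D(d_j h) = (j+1)·d_{j+1} h • D(e t)` (induction on `j`, uniqueness of
derivations on algebraic extensions); differentiate the equations of order `j < L`: the bracket in
front of `D(e t)` is the equation of order `j+1`, hence `D(chat) = 0`, hence `chat κ ∈ K`.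
Stage 2: `Ψ_i(c)` is killed by all `d i j`, `j ≤ L`; either `e i` is injective (then `Ψ_i(c) = 0`)
or the limit point is a point `q` of the disc and `Ψ_i(c) = (t - q)^(L+1)·g'`.
-/
import Fermat.Agent.Lib.S27.SSys
import Fermat.Agent.Lib.S17.YAlg

set_option autoImplicit false
set_option linter.unusedSectionVars false
set_option linter.unusedVariables false

noncomputable section

namespace Fermat.Agent.Lib.S27

open IsLocalRing Fermat.Agent.Lib.S19 Fermat.Agent.Lib.S17 Polynomial

/-- **Hasse–Schmidt bookkeeping**: if `δ(G_a) = (a+1)·G_{a+1}·ω` and `δ(H_a) = (a+1)·H_{a+1}·ω` for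
`a < j`, then the defect of this rule for the Cauchy product at order `j` is the Leibniz combination
of the defects of `G` and `H` at order `j`. -/
theorem s27s_hs_leibniz {R M : Type*} [CommRing R] [AddCommGroup M] [Module R M] (δ : R →+ M)
    (hδ : ∀ x y, δ (x * y) = x • δ y + y • δ x) (ω : M) (Gs Hs : ℕ → R) (j : ℕ)
    (hG : ∀ a, a < j → δ (Gs a) = (((a + 1 : ℕ) : R) * Gs (a + 1)) • ω)
    (hH : ∀ a, a < j → δ (Hs a) = (((a + 1 : ℕ) : R) * Hs (a + 1)) • ω) :
    δ (∑ p ∈ Finset.HasAntidiagonal.antidiagonal j, Gs p.1 * Hs p.2) -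
        (((j + 1 : ℕ) : R) * ∑ p ∈ Finset.HasAntidiagonal.antidiagonal (j + 1), Gs p.1 * Hs p.2) • ω =
      Gs 0 • (δ (Hs j) - (((j + 1 : ℕ) : R) * Hs (j + 1)) • ω) +
        Hs 0 • (δ (Gs j) - (((j + 1 : ℕ) : R) * Gs (j + 1)) • ω) := by
  classical
  set EG : ℕ → M := fun a => δ (Gs a) - (((a + 1 : ℕ) : R) * Gs (a + 1)) • ω with hEG
  set EH : ℕ → M := fun a => δ (Hs a) - (((a + 1 : ℕ) : R) * Hs (a + 1)) • ω with hEH
  have hEG0 : ∀ a, a < j → EG a = 0 := fun a ha => by simp only [hEG]; rw [hG a ha, sub_self]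
  have hEH0 : ∀ a, a < j → EH a = 0 := fun a ha => by simp only [hEH]; rw [hH a ha, sub_self]
  have hδG : ∀ a, δ (Gs a) = EG a + (((a + 1 : ℕ) : R) * Gs (a + 1)) • ω := fun a => by
    simp only [hEG]; abel
  have hδH : ∀ a, δ (Hs a) = EH a + (((a + 1 : ℕ) : R) * Hs (a + 1)) • ω := fun a => by
    simp only [hEH]; abel
  -- the identity in `R`
  have hI : ((j + 1 : ℕ) : R) * ∑ p ∈ Finset.HasAntidiagonal.antidiagonal (j + 1), Gs p.1 * Hs p.2 =
      ∑ p ∈ Finset.HasAntidiagonal.antidiagonal j, (((p.2 + 1 : ℕ) : R) * (Gs p.1 * Hs (p.2 + 1)) +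
        ((p.1 + 1 : ℕ) : R) * (Gs (p.1 + 1) * Hs p.2)) := by
    have h1 : ((j + 1 : ℕ) : R) * ∑ p ∈ Finset.HasAntidiagonal.antidiagonal (j + 1), Gs p.1 * Hs p.2 =
        ∑ p ∈ Finset.HasAntidiagonal.antidiagonal (j + 1), ((p.1 : ℕ) : R) * (Gs p.1 * Hs p.2) +
          ∑ p ∈ Finset.HasAntidiagonal.antidiagonal (j + 1), ((p.2 : ℕ) : R) * (Gs p.1 * Hs p.2) := by
      rw [Finset.mul_sum, ← Finset.sum_add_distrib]
      refine Finset.sum_congr rfl fun p hp => ?_
      rw [← add_mul, ← Nat.cast_add, Finset.HasAntidiagonal.mem_antidiagonal.mp hp]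
    rw [h1, Finset.Nat.sum_antidiagonal_succ, Finset.Nat.sum_antidiagonal_succ',
      Finset.sum_add_distrib]
    simp only [Nat.cast_zero, zero_mul, zero_add]
    rw [add_comm]
  -- expand `δ` of the product
  have h2 : δ (∑ p ∈ Finset.HasAntidiagonal.antidiagonal j, Gs p.1 * Hs p.2) =
      ∑ p ∈ Finset.HasAntidiagonal.antidiagonal j, Gs p.1 • EH p.2 + ∑ p ∈ Finset.HasAntidiagonal.antidiagonal j, Hs p.2 • EG p.1 +
        (∑ p ∈ Finset.HasAntidiagonal.antidiagonal j, (((p.2 + 1 : ℕ) : R) * (Gs p.1 * Hs (p.2 + 1)) +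
          ((p.1 + 1 : ℕ) : R) * (Gs (p.1 + 1) * Hs p.2))) • ω := by
    rw [map_sum, Finset.sum_smul, ← Finset.sum_add_distrib, ← Finset.sum_add_distrib]
    refine Finset.sum_congr rfl fun p _ => ?_
    rw [hδ, hδG, hδH, smul_add, smul_add, smul_smul, smul_smul, add_smul]
    have e1 : Gs p.1 * (((p.2 + 1 : ℕ) : R) * Hs (p.2 + 1)) =
        ((p.2 + 1 : ℕ) : R) * (Gs p.1 * Hs (p.2 + 1)) := by ring
    have e2 : Hs p.2 * (((p.1 + 1 : ℕ) : R) * Gs (p.1 + 1)) =
        ((p.1 + 1 : ℕ) : R) * (Gs (p.1 + 1) * Hs p.2) := by ring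
    rw [e1, e2]
    abel
  have h3 : ∑ p ∈ Finset.HasAntidiagonal.antidiagonal j, Gs p.1 • EH p.2 = Gs 0 • EH j := by
    rw [Finset.sum_eq_single (0, j)]
    · rintro ⟨a, b⟩ hp hne
      have hab : a + b = j := Finset.HasAntidiagonal.mem_antidiagonal.mp hp
      have hb : b < j := by
        rcases Nat.eq_zero_or_pos a with rfl | ha
        · exfalso; apply hne; rw [zero_add] at hab; rw [hab]
        · omega
      show Gs a • EH b = 0
      rw [hEH0 b hb, smul_zero]
    · intro h
      exact absurd (Finset.HasAntidiagonal.mem_antidiagonal.mpr (zero_add j)) h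
  have h4 : ∑ p ∈ Finset.HasAntidiagonal.antidiagonal j, Hs p.2 • EG p.1 = Hs 0 • EG j := by
    rw [Finset.sum_eq_single (j, 0)]
    · rintro ⟨a, b⟩ hp hne
      have hab : a + b = j := Finset.HasAntidiagonal.mem_antidiagonal.mp hp
      have ha : a < j := by
        rcases Nat.eq_zero_or_pos b with rfl | hb
        · exfalso; apply hne; rw [add_zero] at hab; rw [hab]
        · omega
      show Hs b • EG a = 0
      rw [hEG0 a ha, smul_zero]
    · intro h
      exact absurd (Finset.HasAntidiagonal.mem_antidiagonal.mpr (add_zero j)) h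
  rw [h2, h3, h4, hI]
  abel

section main

variable {K : Type*} [Field K] (A : ValuationSubring K) {W : Subring ↥A}
  {ι : Type*} [Fintype ι] [DecidableEq ι]
  {G : ι → Type*} [∀ i, CommRing (G i)] [∀ i, Algebra ↥A (G i)] (D : ∀ i, s19_Disc ↥A W (G i))
  (L : ℕ) (ψ0 : ∀ i, G i) (ψ : ι × Fin L → ∀ i, G i)

/-- **the limit package** produced by the analytic part. -/
structure s27s_Limit (Lf : Type*) [Field Lf] [Algebra K Lf] where
  /-- the limit coefficients -/
  chat : ι × Fin L → Lf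
  /-- evaluation at the limit point of the disc `i` -/
  e : ∀ i, G i →+* Lf
  /-- the Taylor coefficients at the limit point of the disc `i` -/
  d : ∀ i, ℕ → G i →+ Lf
  d_zero : ∀ i (h : G i), d i 0 h = e i h
  e_const : ∀ i (a : ↥A), e i (algebraMap ↥A (G i) a) = algebraMap K Lf (a : K)
  d_mul : ∀ i j (g h : G i),
    d i j (g * h) = ∑ p ∈ Finset.HasAntidiagonal.antidiagonal j, d i p.1 g * d i p.2 h
  d_const : ∀ i j (a : ↥A), d i (j + 1) (algebraMap ↥A (G i) a) = 0
  d_one_t : ∀ i, d i 1 (D i).t = 1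
  d_t : ∀ i j, d i (j + 2) (D i).t = 0
  eqn : ∀ i j, j ≤ L → d i j (ψ0 i) + ∑ κ, chat κ * d i j (ψ κ i) = 0
  det_ne : Matrix.det (Matrix.of fun (p κ : ι × Fin L) => d p.1 (p.2 : ℕ) (ψ κ p.1)) ≠ 0
  dich : ∀ i, Transcendental K (e i (D i).t) ∨
    ∃ q : ↥(maximalIdeal ↥A), ∀ j (h : G i),
      d i j h = algebraMap K Lf ((s27s_tc (D i) j q h : ↥A) : K)
  c_mem : ∀ c : ι × Fin L → K, (∀ κ, chat κ = algebraMap K Lf (c κ)) →
    ∀ κ, ∃ hc : c κ ∈ A, (⟨c κ, hc⟩ : ↥A) ∈ maximalIdeal ↥A

variable {A D L ψ0 ψ}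

/-- Taylor coefficients at the limit point of a constant multiple. -/
theorem s27s_Limit.d_smul {Lf : Type*} [Field Lf] [Algebra K Lf] (P : s27s_Limit A D L ψ0 ψ Lf)
    (i : ι) (j : ℕ) (a : ↥A) (h : G i) :
    P.d i j (algebraMap ↥A (G i) a * h) = algebraMap K Lf (a : K) * P.d i j h := by
  rw [P.d_mul, Finset.sum_eq_single (0, j)]
  · rw [P.d_zero, P.e_const]
  · rintro ⟨a', b⟩ hp hne
    have hab : a' + b = j := Finset.HasAntidiagonal.mem_antidiagonal.mp hp
    rcases Nat.eq_zero_or_pos a' with rfl | ha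
    · exfalso; apply hne; rw [zero_add] at hab; rw [hab]
    · obtain ⟨a'', rfl⟩ : ∃ a'', a' = a'' + 1 := ⟨a' - 1, by omega⟩
      show P.d i (a'' + 1) _ * _ = 0
      rw [P.d_const, zero_mul]
  · intro h
    exact absurd (Finset.HasAntidiagonal.mem_antidiagonal.mpr (zero_add j)) h

/-- **the chain rule at the limit point**, all orders. -/
theorem s27s_chain [CharZero K] [∀ i, IsDomain (G i)]
    (halg : ∀ i (h : G i), IsAlgebraic ↥(Algebra.adjoin ↥A {(D i).t}) h)
    {Lf : Type*} [Field Lf] [Algebra K Lf] (P : s27s_Limit A D L ψ0 ψ Lf) (i : ι) (j : ℕ)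
    (h : G i) :
    KaehlerDifferential.D K Lf (P.d i j h) =
      (((j + 1 : ℕ) : Lf) * P.d i (j + 1) h) • KaehlerDifferential.D K Lf (P.e i (D i).t) := by
  have : CharZero Lf := charZero_of_injective_algebraMap (algebraMap K Lf).injective
  rcases P.dich i with htr | ⟨q, hq⟩
  · -- transcendental limit point
    set dL := KaehlerDifferential.D K Lf with hdL
    set ω := dL (P.e i (D i).t) with hω
    have hinj := s17y_injective_of_transcendental A (D i).t (P.e i) (P.e_const i) htr (halg i)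
    induction j using Nat.strong_induction_on generalizing h with
    | _ j ih =>
      let Δ : G i →+ Ω[Lf⁄K] := AddMonoidHom.mk'
        (fun h => dL (P.d i j h) - (((j + 1 : ℕ) : Lf) * P.d i (j + 1) h) • ω)
        (fun g h => by
          simp only [map_add, mul_add, add_smul]
          abel)
      have hΔapp : ∀ h, Δ h = dL (P.d i j h) - (((j + 1 : ℕ) : Lf) * P.d i (j + 1) h) • ω :=
        fun h => rfl
      have hΔ : ∀ g h, Δ (g * h) = P.e i g • Δ h + P.e i h • Δ g := by
        intro g h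
        have key := s27s_hs_leibniz (dL : Lf →+ Ω[Lf⁄K]) (fun x y => by
            show dL (x * y) = x • dL y + y • dL x
            exact Derivation.leibniz dL x y) ω
          (fun a => P.d i a g) (fun a => P.d i a h) j (fun a ha => ih a ha g) (fun a ha => ih a ha h)
        rw [hΔapp, hΔapp, hΔapp, P.d_mul, P.d_mul, ← P.d_zero i g, ← P.d_zero i h]
        exact key
      have h0 : ∀ r : ↥(Algebra.adjoin ↥A {(D i).t}), Δ (r : G i) = 0 := by
        rintro ⟨r, hr⟩
        refine Algebra.adjoin_induction (hx := hr) ?_ ?_ ?_ ?_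
        · intro x hx
          rw [Set.mem_singleton_iff] at hx
          subst hx
          rw [hΔapp]
          rcases j with _ | _ | j
          · rw [P.d_zero, P.d_one_t, zero_add, Nat.cast_one, mul_one, one_smul, sub_self]
          · rw [P.d_one_t, P.d_t]
            have : dL (1 : Lf) = 0 := by
              have := Derivation.map_algebraMap dL (1 : K)
              rwa [map_one] at this
            rw [this, mul_zero, zero_smul, sub_self]
          · rw [P.d_t, P.d_t, map_zero, mul_zero, zero_smul, sub_self]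
        · intro a
          rw [hΔapp, P.d_const, mul_zero, zero_smul, sub_zero]
          rcases j with _ | j
          · rw [P.d_zero, P.e_const]
            exact Derivation.map_algebraMap _ _
          · rw [P.d_const, map_zero]
        · intro x y _ _ hx hy
          rw [map_add, hx, hy, add_zero]
        · intro x y _ _ hx hy
          rw [hΔ, hx, hy, smul_zero, smul_zero, add_zero]
      have := s17y_delta_eq_zero (P.e i) Δ hΔ hinj _ h0 (halg i) h
      rw [hΔapp, sub_eq_zero] at this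
      exact this
  · -- the limit point is in `K`
    rw [hq j h, ← P.d_zero, hq 0 (D i).t, Derivation.map_algebraMap, Derivation.map_algebraMap,
      smul_zero]

/-- Stage 1: every `K`-derivation kills the limit coefficients. -/
theorem s27s_D_chat [CharZero K] [∀ i, IsDomain (G i)]
    (halg : ∀ i (h : G i), IsAlgebraic ↥(Algebra.adjoin ↥A {(D i).t}) h)
    {Lf : Type*} [Field Lf] [Algebra K Lf] (P : s27s_Limit A D L ψ0 ψ Lf) (κ₀ : ι × Fin L) :
    KaehlerDifferential.D K Lf (P.chat κ₀) = 0 := by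
  classical
  set dL := KaehlerDifferential.D K Lf with hdL
  set M : Matrix (ι × Fin L) (ι × Fin L) Lf :=
    Matrix.of fun (p κ : ι × Fin L) => P.d p.1 (p.2 : ℕ) (ψ κ p.1) with hM
  -- the differentiated equations of order `< L`
  have hrow : ∀ p : ι × Fin L, ∑ κ, M p κ • dL (P.chat κ) = 0 := by
    rintro ⟨i, j⟩
    have hj : (j : ℕ) + 1 ≤ L := j.2
    have h1 := congrArg dL (P.eqn i (j : ℕ) (by omega))
    rw [map_zero, map_add, map_sum] at h1
    simp only [Derivation.leibniz] at h1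
    rw [Finset.sum_add_distrib] at h1
    have hchain : ∀ h : G i, dL (P.d i (j : ℕ) h) =
        ((((j : ℕ) + 1 : ℕ) : Lf) * P.d i ((j : ℕ) + 1) h) • dL (P.e i (D i).t) :=
      s27s_chain halg P i (j : ℕ)
    have hsum : ∑ κ, P.chat κ • dL (P.d i (j : ℕ) (ψ κ i)) =
        ∑ κ, P.chat κ • ((((j : ℕ) + 1 : ℕ) : Lf) * P.d i ((j : ℕ) + 1) (ψ κ i)) •
          dL (P.e i (D i).t) :=
      Finset.sum_congr rfl fun κ _ => by rw [hchain (ψ κ i)]
    rw [hchain (ψ0 i), hsum] at h1
    have h2 : ((((j : ℕ) + 1 : ℕ) : Lf) * P.d i ((j : ℕ) + 1) (ψ0 i)) • dL (P.e i (D i).t) +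
        ∑ κ, P.chat κ • ((((j : ℕ) + 1 : ℕ) : Lf) * P.d i ((j : ℕ) + 1) (ψ κ i)) •
          dL (P.e i (D i).t) =
        ((((j : ℕ) + 1 : ℕ) : Lf) * (P.d i ((j : ℕ) + 1) (ψ0 i) +
          ∑ κ, P.chat κ * P.d i ((j : ℕ) + 1) (ψ κ i))) • dL (P.e i (D i).t) := by
      rw [mul_add, add_smul, Finset.mul_sum, Finset.sum_smul]
      congr 1
      refine Finset.sum_congr rfl fun κ _ => ?_
      rw [smul_smul]
      congr 1
      ring
    have h3 : ((((j : ℕ) + 1 : ℕ) : Lf) * P.d i ((j : ℕ) + 1) (ψ0 i)) • dL (P.e i (D i).t) +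
        (∑ κ, P.chat κ • ((((j : ℕ) + 1 : ℕ) : Lf) * P.d i ((j : ℕ) + 1) (ψ κ i)) •
          dL (P.e i (D i).t) + ∑ κ, P.d i (j : ℕ) (ψ κ i) • dL (P.chat κ)) = 0 := h1
    rw [← add_assoc, h2, P.eqn i ((j : ℕ) + 1) hj, mul_zero, zero_smul, zero_add] at h3
    exact h3
  -- invert the matrix
  have hMdet : IsUnit M.det := isUnit_iff_ne_zero.mpr P.det_ne
  have hinv : M⁻¹ * M = 1 := Matrix.nonsing_inv_mul M hMdet
  have h4 : ∑ p, M⁻¹ κ₀ p • ∑ κ, M p κ • dL (P.chat κ) = dL (P.chat κ₀) := by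
    simp only [Finset.smul_sum, smul_smul]
    rw [Finset.sum_comm]
    simp only [← Finset.sum_smul]
    have h5 : ∀ κ, ∑ p, M⁻¹ κ₀ p * M p κ = (1 : Matrix (ι × Fin L) (ι × Fin L) Lf) κ₀ κ := by
      intro κ
      rw [← hinv, Matrix.mul_apply]
    simp only [h5, Matrix.one_apply, ite_smul, one_smul, zero_smul]
    rw [Finset.sum_ite_eq]
    simp
  rw [← h4]
  simp only [hrow, smul_zero, Finset.sum_const_zero]

/-- **the algebraicity step**: a limit package gives an exact solution. -/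
theorem s27s_exact_of_limit [IsAlgClosed K] [CharZero K] [∀ i, IsDomain (G i)]
    (halg : ∀ i (h : G i), IsAlgebraic ↥(Algebra.adjoin ↥A {(D i).t}) h)
    {Lf : Type*} [Field Lf] [Algebra K Lf] (P : s27s_Limit A D L ψ0 ψ Lf) :
    ∃ (c : ι × Fin L → ↥(maximalIdeal ↥A)) (q : ι → ↥(maximalIdeal ↥A)), ∀ i, ∃ g' : G i,
      s27s_Psi L ψ0 ψ (fun κ => ((c κ : ↥(maximalIdeal ↥A)) : ↥A)) i =
        ((D i).t - algebraMap ↥A (G i) (q i : ↥A)) ^ (L + 1) * g' := by
  classical
  -- Stage 1
  choose cK hcK using fun κ => s17y_mem_range_of_isAlgebraic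
    (s17y_isAlgebraic_of_D_eq_zero (P.chat κ) (s27s_D_chat halg P κ))
  choose hcA hcm using P.c_mem cK hcK
  set c : ι × Fin L → ↥(maximalIdeal ↥A) := fun κ => ⟨⟨cK κ, hcA κ⟩, hcm κ⟩ with hc
  have hchat : ∀ κ, P.chat κ = algebraMap K Lf (((c κ : ↥(maximalIdeal ↥A)) : ↥A) : K) := hcK
  -- Stage 2
  set Ψ : ∀ i, G i := fun i => s27s_Psi L ψ0 ψ (fun κ => ((c κ : ↥(maximalIdeal ↥A)) : ↥A)) i
    with hΨ
  have hd : ∀ i j, j ≤ L → P.d i j (Ψ i) = 0 := by
    intro i j hj
    simp only [hΨ, s27s_Psi, map_add, map_sum, P.d_smul, ← hchat]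
    exact P.eqn i j hj
  have key : ∀ i, ∃ (q : ↥(maximalIdeal ↥A)) (g' : G i),
      Ψ i = ((D i).t - algebraMap ↥A (G i) (q : ↥A)) ^ (L + 1) * g' := by
    intro i
    rcases P.dich i with htr | ⟨q, hq⟩
    · have hinj := s17y_injective_of_transcendental A (D i).t (P.e i) (P.e_const i) htr (halg i)
      have h0 : Ψ i = 0 := by
        apply (injective_iff_map_eq_zero (P.e i)).mp hinj
        rw [← P.d_zero]
        exact hd i 0 (Nat.zero_le L)
      exact ⟨0, 0, by rw [h0, mul_zero]⟩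
    · have hinjK : Function.Injective (algebraMap K Lf) := (algebraMap K Lf).injective
      refine ⟨q, _, s27s_pow_dvd (D i) (L + 1) q (Ψ i) fun m hm => ?_⟩
      have := hd i m (by omega)
      rw [hq, ← map_zero (algebraMap K Lf)] at this
      exact Subtype.ext (hinjK this)
  choose q g' hq using key
  exact ⟨c, q, fun i => ⟨g' i, hq i⟩⟩

end main

end Fermat.Agent.Lib.S27
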