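import Mathlib

/-!
# Programme Z (S27), brick [BC-MODEL], linear algebra (Mathlib only)

`K₁ ⊆ K ⊆ F` a tower of fields, `x ∈ F` transcendental over `K`.
* `s27z_li_ratfunc` : a `K₁`-linearly independent family of `K` is linearly independent over
  `K₁⟮x⟯ ⊆ F`.
-/

set_option autoImplicit false

noncomputable section

namespace Fermat.Agent.Lib.S27

open Polynomial IntermediateField
open scoped IntermediateField.algebraAdjoinAdjoin

section RatFunc

variable {K₁ K F : Type*} [Field K₁] [Field K] [Field F] [Algebra K₁ K] [Algebra K F]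
  [Algebra K₁ F] [IsScalarTower K₁ K F]

/-- a polynomial relation `Σ_j c_j P_j(x) = 0` with `x` transcendental over `K` and the `c_j`
independent over `K₁` forces `P_j = 0`. -/
theorem s27z_poly_rel {x : F} (hx : Transcendental K x) {ι : Type*} {c : ι → K}
    (hc : LinearIndependent K₁ c) (S : Finset ι) (P : ι → K₁[X])
    (h : ∑ j ∈ S, aeval x (P j) * algebraMap K F (c j) = 0) : ∀ j ∈ S, P j = 0 := by
  classical
  -- the polynomial `Σ_j c_j • map P_j ∈ K[X]` vanishes at `x`
  have h1 : aeval x (∑ j ∈ S, C (c j) * (P j).map (algebraMap K₁ K)) = 0 := by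
    rw [map_sum, ← h]
    refine Finset.sum_congr rfl fun j _ => ?_
    rw [map_mul, aeval_C, aeval_map_algebraMap, mul_comm]
  have h2 : ∑ j ∈ S, C (c j) * (P j).map (algebraMap K₁ K) = 0 := by
    by_contra hne
    exact hx ⟨_, hne, h1⟩
  intro j hj
  ext t
  have h3 := congrArg (fun p => p.coeff t) h2
  simp only [finsetSum_coeff, coeff_C_mul, coeff_map, coeff_zero] at h3
  have h4 : ∑ i ∈ S, (P i).coeff t • c i = 0 := by
    rw [← h3]
    refine Finset.sum_congr rfl fun i _ => ?_
    rw [Algebra.smul_def, mul_comm]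
  have := linearIndependent_iff'.mp hc S (fun i => (P i).coeff t) h4 j hj
  rw [this, coeff_zero]

/-- **(A)** a `K₁`-independent family of `K` stays independent over `K₁⟮x⟯` in `F`. -/
theorem s27z_li_ratfunc {x : F} (hx : Transcendental K x) {ι : Type*} {c : ι → K}
    (hc : LinearIndependent K₁ c) :
    LinearIndependent (IntermediateField.adjoin K₁ ({x} : Set F))
      (fun j => algebraMap K F (c j)) := by
  classical
  rw [← LinearIndependent.iff_fractionRing (R := Algebra.adjoin K₁ ({x} : Set F))
    (K := IntermediateField.adjoin K₁ ({x} : Set F))]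
  rw [linearIndependent_iff']
  intro S g hg j hj
  -- every element of `K₁[x]` is `P(x)`
  have hrep : ∀ a : Algebra.adjoin K₁ ({x} : Set F), ∃ P : K₁[X], aeval x P = (a : F) := by
    intro a
    have hmem : (a : F) ∈ (Polynomial.aeval x : K₁[X] →ₐ[K₁] F).range := by
      rw [← Algebra.adjoin_singleton_eq_range_aeval]
      exact a.2
    exact hmem
  choose P hP using hrep
  have h : ∑ i ∈ S, aeval x (P (g i)) * algebraMap K F (c i) = 0 := by
    rw [← hg]
    refine Finset.sum_congr rfl fun i _ => ?_
    rw [hP]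
    rfl
  have h0 := s27z_poly_rel hx hc S (fun i => P (g i)) h j hj
  apply Subtype.ext
  rw [← hP, h0, map_zero]
  rfl

end RatFunc

section Rep

variable {L₁ F : Type*} [Field L₁] [Field F] [Algebra L₁ F]

/-- elements of `L₁⟮y⟯` are `L₁`-combinations of `1, y, …, y^(d-1)`, `d` the degree of a monic
polynomial killing `y`. -/
theorem s27z_rep {y : F} {m₁ : L₁[X]} (hm : m₁.Monic) (hroot : aeval y m₁ = 0) {f : F}
    (hf : f ∈ L₁⟮y⟯) : ∃ a : Fin m₁.natDegree → L₁, f = ∑ i, a i • y ^ (i : ℕ) := by
  have halg : IsAlgebraic L₁ y := ⟨m₁, hm.ne_zero, hroot⟩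
  have hf' : f ∈ (L₁⟮y⟯).toSubalgebra := hf
  rw [adjoin_simple_toSubalgebra_of_isAlgebraic halg, Algebra.adjoin_singleton_eq_range_aeval]
    at hf'
  obtain ⟨P, rfl⟩ := hf'
  have hne1 : m₁ ≠ 1 := by
    rintro rfl
    rw [map_one] at hroot
    exact one_ne_zero hroot
  have hdeg := natDegree_modByMonic_lt P hm hne1
  refine ⟨fun i => (P %ₘ m₁).coeff i, ?_⟩
  have h1 : aeval y P = aeval y (P %ₘ m₁) := (aeval_modByMonic_eq_self_of_root hroot).symm
  show aeval y P = _
  rw [h1, aeval_eq_sum_range' hdeg, Finset.sum_range]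

end Rep

section Model

variable {K₁ K F : Type*} [Field K₁] [Field K] [Field F] [Algebra K₁ K] [Algebra K F]
  [Algebra K₁ F] [IsScalarTower K₁ K F]

/-- `K₁⟮x⟯ ⊆ K⟮x⟯` inside `F`. -/
theorem s27z_adjoin_le (S : Set F) {f : F} (hf : f ∈ IntermediateField.adjoin K₁ S) :
    f ∈ IntermediateField.adjoin K S := by
  have h : IntermediateField.adjoin K₁ S ≤ (IntermediateField.adjoin K S).restrictScalars K₁ :=
    IntermediateField.adjoin_le_iff.mpr (IntermediateField.subset_adjoin K S)
  exact h hf

/-- **(B)** a `K₁`-independent family of `K` stays independent over `K₁(x, y)` in `F`, if the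
powers `y^i`, `i < d`, are independent over `K⟮x⟯` and `y` is killed by a monic polynomial of
degree `d` over `K₁⟮x⟯`. -/
theorem s27z_li_model {x y : F} (hx : Transcendental K x)
    (m₁ : Polynomial (IntermediateField.adjoin K₁ ({x} : Set F))) (hm₁ : m₁.Monic)
    (hroot : aeval y m₁ = 0)
    (hli : LinearIndependent (IntermediateField.adjoin K ({x} : Set F))
      (fun i : Fin m₁.natDegree => y ^ (i : ℕ)))
    {ι : Type*} {c : ι → K} (hc : LinearIndependent K₁ c) :
    LinearIndependent (IntermediateField.adjoin K₁ ({x, y} : Set F))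
      (fun j => algebraMap K F (c j)) := by
  classical
  have hA := s27z_li_ratfunc (K₁ := K₁) hx hc
  rw [linearIndependent_iff']
  intro S g hg
  -- representation of the coefficients
  have hmem : ∀ j, ((g j : IntermediateField.adjoin K₁ ({x, y} : Set F)) : F) ∈
      IntermediateField.adjoin (IntermediateField.adjoin K₁ ({x} : Set F)) ({y} : Set F) := by
    intro j
    have h1 : ((g j : IntermediateField.adjoin K₁ ({x, y} : Set F)) : F) ∈
        (IntermediateField.adjoin (IntermediateField.adjoin K₁ ({x} : Set F))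
          ({y} : Set F)).restrictScalars K₁ := by
      rw [IntermediateField.adjoin_adjoin_left, Set.singleton_union]
      exact (g j).2
    exact h1
  choose a ha using fun j => s27z_rep hm₁ hroot (hmem j)
  -- the relation, sorted by powers of `y`
  have hrel : ∑ i : Fin m₁.natDegree,
      (∑ j ∈ S, ((a j i : IntermediateField.adjoin K₁ ({x} : Set F)) : F) *
        algebraMap K F (c j)) * y ^ (i : ℕ) = 0 := by
    have h0 : ∑ j ∈ S, ((g j : IntermediateField.adjoin K₁ ({x, y} : Set F)) : F) *
        algebraMap K F (c j) = 0 := by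
      rw [← hg]
      refine Finset.sum_congr rfl fun j _ => ?_
      rfl
    rw [← h0]
    simp_rw [Finset.sum_mul]
    rw [Finset.sum_comm]
    refine Finset.sum_congr rfl fun j _ => ?_
    rw [ha j, Finset.sum_mul]
    refine Finset.sum_congr rfl fun i _ => ?_
    rw [Algebra.smul_def]
    have : algebraMap (↥(IntermediateField.adjoin K₁ ({x} : Set F))) F (a j i) =
        ((a j i : IntermediateField.adjoin K₁ ({x} : Set F)) : F) := rfl
    rw [this]
    ring
  -- the coefficients lie in `K⟮x⟯`
  have hbmem : ∀ i : Fin m₁.natDegree,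
      (∑ j ∈ S, ((a j i : IntermediateField.adjoin K₁ ({x} : Set F)) : F) *
        algebraMap K F (c j)) ∈ IntermediateField.adjoin K ({x} : Set F) := by
    intro i
    refine sum_mem fun j _ => ?_
    exact mul_mem (s27z_adjoin_le _ (a j i).2)
      (IntermediateField.algebraMap_mem (IntermediateField.adjoin K ({x} : Set F)) (c j))
  have hb0 := Fintype.linearIndependent_iff.mp hli
    (fun i => ⟨_, hbmem i⟩) (by
      rw [← hrel]
      refine Finset.sum_congr rfl fun i _ => ?_
      rfl)
  -- apply (A)
  intro j hj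
  have haz : ∀ i, a j i = 0 := by
    intro i
    have h1 : ∑ j ∈ S, (a j i) • algebraMap K F (c j) = 0 := by
      have h2 : (∑ j ∈ S, ((a j i : IntermediateField.adjoin K₁ ({x} : Set F)) : F) *
          algebraMap K F (c j)) = 0 := congrArg Subtype.val (hb0 i)
      rw [← h2]
      rfl
    exact linearIndependent_iff'.mp hA S (fun j => a j i) h1 j hj
  apply Subtype.ext
  rw [ha j]
  simp [haz]

end Model

end Fermat.Agent.Lib.S27
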