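import Mathlib
import Fermat.Agent.Lib.S27.ZMLin

/-!
# Programme Z (S27), brick [BC-MODEL]: descent of a polynomial over `K⟮x⟯` to `K₁⟮x⟯`
(Mathlib + `ZMLin`)

`K₁ ⊆ K ⊆ F`.  A polynomial over `K⟮x⟯ ⊆ F` all of whose coefficients are quotients
`r(x) / s(x)` with `r, s ∈ K[X]` having coefficients in `K₁` comes from a polynomial over
`K₁⟮x⟯ ⊆ F` (`s27z_descend_poly`).  The inclusion of subfields is set up for ARBITRARY
intermediate fields `L₁ ⊆ L` (so that no definitional unfolding of `adjoin` is ever needed).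
-/

set_option autoImplicit false

noncomputable section

namespace Fermat.Agent.Lib.S27

open Polynomial IntermediateField

section Aeval

variable {K₁ K F : Type*} [Field K₁] [Field K] [Field F] [Algebra K₁ K] [Algebra K F]
  [Algebra K₁ F] [IsScalarTower K₁ K F]

/-- the value at `x` of a polynomial with coefficients in `K₁` lies in `K₁⟮x⟯`. -/
theorem s27z_aeval_mem_adjoin (P : K[X]) (hP : ∀ n, P.coeff n ∈ (algebraMap K₁ K).range)
    (x : F) : aeval x P ∈ IntermediateField.adjoin K₁ ({x} : Set F) := by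
  have hl : P ∈ Polynomial.lifts (algebraMap K₁ K) := by
    rw [Polynomial.lifts_iff_coeff_lifts]
    intro n
    exact hP n
  obtain ⟨P', rfl⟩ := (Polynomial.mem_lifts P).mp hl
  rw [aeval_map_algebraMap]
  exact IntermediateField.algebra_adjoin_le_adjoin K₁ _ (aeval_mem_adjoin_singleton K₁ x)

end Aeval

section Incl

variable {K₁ K F : Type*} [Field K₁] [Field K] [Field F] [Algebra K F] [Algebra K₁ F]

variable (L₁ : IntermediateField K₁ F) (L : IntermediateField K F)
  (hLL : ∀ a : F, a ∈ L₁ → a ∈ L)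

/-- the inclusion `L₁ → L` of subfields of `F`. -/
def s27z_incl : ↥L₁ →+* ↥L where
  toFun a := ⟨(a : F), hLL _ a.2⟩
  map_one' := rfl
  map_mul' _ _ := rfl
  map_zero' := rfl
  map_add' _ _ := rfl

theorem s27z_incl_coe (a : ↥L₁) : ((s27z_incl L₁ L hLL a : ↥L) : F) = (a : F) := rfl

theorem s27z_incl_injective : Function.Injective (s27z_incl L₁ L hLL) := by
  intro a b h
  apply Subtype.ext
  have h2 := congrArg Subtype.val h
  rw [s27z_incl_coe, s27z_incl_coe] at h2
  exact h2

/-- **descent of a polynomial.** -/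
theorem s27z_descend_poly (m : Polynomial ↥L)
    (hm : ∀ i, ((m.coeff i : ↥L) : F) ∈ L₁) :
    ∃ m₁ : Polynomial ↥L₁, m₁.map (s27z_incl L₁ L hLL) = m := by
  have hl : m ∈ Polynomial.lifts (s27z_incl L₁ L hLL) := by
    rw [Polynomial.lifts_iff_coeff_lifts]
    intro i
    refine ⟨⟨_, hm i⟩, Subtype.ext ?_⟩
    rw [s27z_incl_coe]
  exact (Polynomial.mem_lifts m).mp hl

/-- evaluation at `y ∈ F` is compatible with the descent. -/
theorem s27z_aeval_descend (y : F) (m₁ : Polynomial ↥L₁) :
    aeval y (m₁.map (s27z_incl L₁ L hLL)) = aeval y m₁ := by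
  have h : (algebraMap (↥L) F).comp (s27z_incl L₁ L hLL) = algebraMap (↥L₁) F :=
    RingHom.ext fun a => s27z_incl_coe L₁ L hLL a
  rw [aeval_def, aeval_def, eval₂_map, h]

end Incl

end Fermat.Agent.Lib.S27
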