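import Mathlib
import Fermat.Agent.Lib.S27.BFix
import Fermat.Agent.Lib.S27.BExt
import Fermat.Agent.Lib.S27.ZMLin

/-!
# Programme Z (S27), brick [BC-MODEL]: the constant field extension `s27b_Ext`

`K₁ ⊆ K` algebraically closed, `F = K(x, y)`, `x` transcendental over `K`, `y` killed by a monic
polynomial of degree `d` over `K₁⟮x⟯` and `1, y, …, y^(d-1)` independent over `K⟮x⟯`.  Then
`F₁ := K₁(x, y)` satisfies `s27b_Ext K₁ F₁ K F` (`s27z_ext`).
-/

set_option autoImplicit false

noncomputable section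

namespace Fermat.Agent.Lib.S27

open Polynomial IntermediateField TensorProduct

variable {K₁ K F : Type*} [Field K₁] [Field K] [Field F] [Algebra K₁ K] [Algebra K F]
  [Algebra K₁ F] [IsScalarTower K₁ K F]

/-- injectivity of the multiplication map from the independence of a basis. -/
theorem s27z_mu_injective (F₁ : IntermediateField K₁ F)
    (hli : LinearIndependent F₁
      (fun j => algebraMap K F (Module.Basis.ofVectorSpace K₁ K j))) :
    Function.Injective (s27b_mu K₁ F₁ K F) := by
  classical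
  rw [injective_iff_map_eq_zero]
  intro t ht
  set ℬ := Module.Basis.ofVectorSpace K₁ K with hℬ
  set e := TensorProduct.equivFinsuppOfBasisLeft (N := F₁) ℬ with he
  have ht' : t = e.symm (e t) := (e.symm_apply_apply t).symm
  rw [TensorProduct.equivFinsuppOfBasisLeft_symm_apply] at ht'
  have h1 : s27b_mu K₁ F₁ K F t =
      ∑ i ∈ (e t).support, (e t i) • algebraMap K F (ℬ i) := by
    conv_lhs => rw [ht']
    rw [Finsupp.sum, map_sum]
    refine Finset.sum_congr rfl fun i _ => ?_
    rw [s27b_mu_tmul, Algebra.smul_def, mul_comm]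
  rw [ht] at h1
  have h2 := linearIndependent_iff'.mp hli (e t).support (fun i => e t i) h1.symm
  have h3 : e t = 0 := by
    ext i
    by_cases hi : i ∈ (e t).support
    · rw [h2 i hi]; rfl
    · rw [Finsupp.notMem_support_iff.mp hi]; rfl
  exact (LinearEquiv.map_eq_zero_iff e).mp h3

/-- **the constant field extension** attached to a model. -/
theorem s27z_ext [IsAlgClosed K₁] [IsAlgClosed K] {x y : F} (hx : Transcendental K x)
    (m₁ : Polynomial (IntermediateField.adjoin K₁ ({x} : Set F))) (hm₁ : m₁.Monic)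
    (hroot : aeval y m₁ = 0)
    (hli : LinearIndependent (IntermediateField.adjoin K ({x} : Set F))
      (fun i : Fin m₁.natDegree => y ^ (i : ℕ)))
    (htop : IntermediateField.adjoin K ({x, y} : Set F) = ⊤) :
    s27b_Ext K₁ (IntermediateField.adjoin K₁ ({x, y} : Set F)) K F := by
  set F₁ := IntermediateField.adjoin K₁ ({x, y} : Set F) with hF₁
  refine ⟨?_, ?_, ?_⟩
  · exact s27z_mu_injective F₁
      (s27z_li_model hx m₁ hm₁ hroot hli (Module.Basis.ofVectorSpace K₁ K).linearIndependent)
  · -- every element is a quotient of elements of the range of `μ`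
    have hxmem : x ∈ F₁ := IntermediateField.subset_adjoin K₁ _ (by simp)
    have hymem : y ∈ F₁ := IntermediateField.subset_adjoin K₁ _ (by simp)
    have hle : Algebra.adjoin K ({x, y} : Set F) ≤ (s27b_mu K₁ F₁ K F).range := by
      refine Algebra.adjoin_le ?_
      intro z hz
      rcases hz with rfl | hz
      · refine ⟨(1 : K) ⊗ₜ[K₁] (⟨z, hxmem⟩ : F₁), ?_⟩
        show s27b_mu K₁ F₁ K F ((1 : K) ⊗ₜ[K₁] (⟨z, hxmem⟩ : F₁)) = z
        rw [s27b_mu_tmul, map_one, one_mul]; rfl
      · rw [Set.mem_singleton_iff] at hz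
        subst hz
        refine ⟨(1 : K) ⊗ₜ[K₁] (⟨z, hymem⟩ : F₁), ?_⟩
        show s27b_mu K₁ F₁ K F ((1 : K) ⊗ₜ[K₁] (⟨z, hymem⟩ : F₁)) = z
        rw [s27b_mu_tmul, map_one, one_mul]; rfl
    intro f
    have hf : f ∈ IntermediateField.adjoin K ({x, y} : Set F) := by rw [htop]; trivial
    obtain ⟨r, hr, s, hs, hfrs⟩ := IntermediateField.mem_adjoin_iff_div.mp hf
    obtain ⟨a, ha⟩ := hle hr
    obtain ⟨b, hb⟩ := hle hs
    by_cases hs0 : s = 0
    · refine ⟨0, 1, ?_, ?_⟩
      · rw [map_one]; exact one_ne_zero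
      · rw [map_one, map_zero, mul_one, hfrs, hs0, div_zero]
    · refine ⟨a, b, ?_, ?_⟩
      · have : s27b_mu K₁ F₁ K F b = s := hb
        rw [this]; exact hs0
      · have h1 : s27b_mu K₁ F₁ K F b = s := hb
        have h2 : s27b_mu K₁ F₁ K F a = r := ha
        rw [h1, h2, hfrs, div_mul_cancel₀ _ hs0]
  · exact fun c hc => s27b_mem_range_of_fixed c hc

end Fermat.Agent.Lib.S27
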