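import Mathlib

/-!
# Programme Z (S27), brick [BC-MODEL]: the small algebraically closed subfield (Mathlib only)

`K` algebraically closed of characteristic `0`, `S ⊆ K` finite.  `s27z_K1 S` is the algebraic
closure in `K` of `ℚ(S)`: an algebraically closed subfield containing `S`, algebraic over the
subfield generated by (the preimage of) `S`.
-/

set_option autoImplicit false

noncomputable section

namespace Fermat.Agent.Lib.S27

open IntermediateField

variable {K : Type*} [Field K] [CharZero K]

/-- the algebraic closure in `K` of the field generated by a finite set. -/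
def s27z_K1 (S : Finset K) : IntermediateField ℚ K :=
  (algebraicClosure (IntermediateField.adjoin ℚ (S : Set K)) K).restrictScalars ℚ

theorem s27z_mem_K1 {S : Finset K} {c : K} :
    c ∈ s27z_K1 S ↔ IsAlgebraic (IntermediateField.adjoin ℚ (S : Set K)) c := by
  unfold s27z_K1
  rw [IntermediateField.mem_restrictScalars, mem_algebraicClosure_iff]

theorem s27z_adjoin_le_K1 (S : Finset K) {c : K}
    (hc : c ∈ IntermediateField.adjoin ℚ (S : Set K)) : c ∈ s27z_K1 S := by
  rw [s27z_mem_K1]
  exact isAlgebraic_algebraMap (⟨c, hc⟩ : IntermediateField.adjoin ℚ (S : Set K))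

theorem s27z_subset_K1 (S : Finset K) {c : K} (hc : c ∈ S) : c ∈ s27z_K1 S :=
  s27z_adjoin_le_K1 S (IntermediateField.subset_adjoin ℚ _ (Finset.mem_coe.mpr hc))

theorem s27z_K1_isAlgClosed [IsAlgClosed K] (S : Finset K) : IsAlgClosed ↥(s27z_K1 S) := by
  have h : IsAlgClosed ↥(algebraicClosure (IntermediateField.adjoin ℚ (S : Set K)) K) :=
    (algebraicClosure.isAlgClosure (IntermediateField.adjoin ℚ (S : Set K)) K).isAlgClosed
  exact h

open Classical in
/-- the finite generating set inside `K₁`. -/
def s27z_gens (S : Finset K) : Finset ↥(s27z_K1 S) :=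
  S.subtype (fun c => c ∈ s27z_K1 S)

open Classical in
theorem s27z_image_gens (S : Finset K) :
    Subtype.val '' (↑(s27z_gens S) : Set ↥(s27z_K1 S)) = (S : Set K) := by
  ext c
  constructor
  · rintro ⟨c', hc', rfl⟩
    exact Finset.mem_coe.mpr ((Finset.mem_subtype.mp (Finset.mem_coe.mp hc')))
  · intro hc
    refine ⟨⟨c, s27z_subset_K1 S (Finset.mem_coe.mp hc)⟩, ?_, rfl⟩
    exact Finset.mem_coe.mpr (Finset.mem_subtype.mpr (Finset.mem_coe.mp hc))

/-- `K₁` is algebraic over the subfield generated by finitely many of its elements. -/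
theorem s27z_K1_algebraic (S : Finset K) :
    Algebra.IsAlgebraic
      (IntermediateField.adjoin ℚ (↑(s27z_gens S) : Set ↥(s27z_K1 S))) ↥(s27z_K1 S) := by
  have hlift : IntermediateField.lift
      (IntermediateField.adjoin ℚ (↑(s27z_gens S) : Set ↥(s27z_K1 S))) =
      IntermediateField.adjoin ℚ (S : Set K) := by
    rw [IntermediateField.lift_adjoin, s27z_image_gens]
  let f : ↥(IntermediateField.adjoin ℚ (↑(s27z_gens S) : Set ↥(s27z_K1 S))) ≃+*
      ↥(IntermediateField.adjoin ℚ (S : Set K)) :=
    ((IntermediateField.liftAlgEquiv _).trans (IntermediateField.equivOfEq hlift)).toRingEquiv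
  have hcomp : (algebraMap (↥(IntermediateField.adjoin ℚ (S : Set K))) K).comp
      (f : ↥(IntermediateField.adjoin ℚ (↑(s27z_gens S) : Set ↥(s27z_K1 S))) →+*
        ↥(IntermediateField.adjoin ℚ (S : Set K))) =
      (algebraMap (↥(s27z_K1 S)) K).comp
        (algebraMap (↥(IntermediateField.adjoin ℚ (↑(s27z_gens S) : Set ↥(s27z_K1 S))))
          (↥(s27z_K1 S))) := by
    ext e
    rfl
  refine ⟨fun c => ?_⟩
  have hc : IsAlgebraic (IntermediateField.adjoin ℚ (S : Set K))
      (algebraMap (↥(s27z_K1 S)) K c) := s27z_mem_K1.mp c.2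
  exact (isAlgebraic_ringHom_iff_of_comp_eq f (algebraMap (↥(s27z_K1 S)) K)
    (algebraMap (↥(s27z_K1 S)) K).injective hcomp).mp hc

end Fermat.Agent.Lib.S27
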