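import Mathlib
import Fermat.Agent.Lib.FF.FFBasicDedekind

/-!
# Programme Z (S27), brick [BC-MODEL]: `FFGen K₁ x₁` for the model `F₁ = K₁(x, y)`

`K₁ ⊆ K ⊆ F`, `x ∈ F` transcendental over `K`, `y ∈ F` algebraic over `K₁⟮x⟯ ⊆ F`.  Then in
`F₁ := K₁(x, y)` the element `x₁ = x` is a transcendental generator: `FFGen K₁ x₁`.
-/

set_option autoImplicit false

noncomputable section

namespace Fermat.Agent.Lib.S27

open Polynomial IntermediateField Fermat.Agent.Lib.FF

variable {K₁ K F : Type*} [Field K₁] [Field K] [Field F] [Algebra K₁ K] [Algebra K F]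
  [Algebra K₁ F] [IsScalarTower K₁ K F]

/-- transcendence descends to the subfield. -/
theorem s27z_transc_sub {x : F} (hx : Transcendental K x) : Transcendental K₁ x :=
  fun h => hx (h.tower_top K)

section Gen

variable (F₁ : IntermediateField K₁ F) (x₁ y₁ : ↥F₁)

/-- the lift of `K₁⟮x₁⟯ ⊆ F₁` to `F` is `K₁⟮x⟯`. -/
theorem s27z_lift_adjoin_simple :
    IntermediateField.lift (IntermediateField.adjoin K₁ ({x₁} : Set ↥F₁)) =
      IntermediateField.adjoin K₁ ({(x₁ : F)} : Set F) := by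
  rw [IntermediateField.lift_adjoin, Set.image_singleton]

/-- algebraicity over `K₁⟮x⟯ ⊆ F` gives algebraicity over `K₁⟮x₁⟯ ⊆ F₁`. -/
theorem s27z_isAlgebraic_sub
    (hy : IsAlgebraic (IntermediateField.adjoin K₁ ({(x₁ : F)} : Set F)) (y₁ : F)) :
    IsAlgebraic (IntermediateField.adjoin K₁ ({x₁} : Set ↥F₁)) y₁ := by
  set E := IntermediateField.adjoin K₁ ({x₁} : Set ↥F₁) with hE
  let f : ↥E ≃+* ↥(IntermediateField.adjoin K₁ ({(x₁ : F)} : Set F)) :=
    ((IntermediateField.liftAlgEquiv E).trans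
      (IntermediateField.equivOfEq (s27z_lift_adjoin_simple F₁ x₁))).toRingEquiv
  have hcomp : (algebraMap (↥(IntermediateField.adjoin K₁ ({(x₁ : F)} : Set F))) F).comp
      (f : ↥E →+* ↥(IntermediateField.adjoin K₁ ({(x₁ : F)} : Set F))) =
      (algebraMap (↥F₁) F).comp (algebraMap (↥E) (↥F₁)) := by
    ext e
    rfl
  exact (isAlgebraic_ringHom_iff_of_comp_eq f (algebraMap (↥F₁) F)
    (algebraMap (↥F₁) F).injective hcomp).mp hy

/-- `K₁⟮x₁⟯⟮y₁⟯ = ⊤` in `F₁ = K₁(x, y)`. -/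
theorem s27z_adjoin_top (hF₁ : F₁ = IntermediateField.adjoin K₁ ({(x₁ : F), (y₁ : F)} : Set F)) :
    IntermediateField.adjoin (IntermediateField.adjoin K₁ ({x₁} : Set ↥F₁)) ({y₁} : Set ↥F₁) = ⊤ := by
  have h1 : IntermediateField.adjoin K₁ ({x₁, y₁} : Set ↥F₁) = ⊤ := by
    apply IntermediateField.lift_injective F₁
    rw [IntermediateField.lift_adjoin, IntermediateField.lift_top, Set.image_pair]
    exact hF₁.symm
  apply IntermediateField.restrictScalars_injective K₁
  rw [IntermediateField.adjoin_adjoin_left, Set.singleton_union, h1]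
  rfl

/-- **`FFGen K₁ x₁`.** -/
theorem s27z_ffgen {x : F} (hx : Transcendental K x) (hx₁ : (x₁ : F) = x)
    (hF₁ : F₁ = IntermediateField.adjoin K₁ ({(x₁ : F), (y₁ : F)} : Set F))
    (hy : IsAlgebraic (IntermediateField.adjoin K₁ ({(x₁ : F)} : Set F)) (y₁ : F)) :
    FFGen K₁ x₁ := by
  refine ⟨?_, ?_⟩
  · have h1 : Transcendental K₁ (x₁ : F) := by rw [hx₁]; exact s27z_transc_sub hx
    intro h
    apply h1
    have : (x₁ : F) = algebraMap (↥F₁) F x₁ := rfl
    rw [this]
    exact (isAlgebraic_algebraMap_iff (algebraMap (↥F₁) F).injective).mpr h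
  · have halg := s27z_isAlgebraic_sub F₁ x₁ y₁ hy
    have hfd := IntermediateField.adjoin.finiteDimensional halg.isIntegral
    have htop := s27z_adjoin_top F₁ x₁ y₁ hF₁
    rw [htop] at hfd
    exact Module.Finite.equiv
      (IntermediateField.topEquiv (F := ↥(IntermediateField.adjoin K₁ ({x₁} : Set ↥F₁)))
        (E := ↥F₁)).toLinearEquiv

end Gen

end Fermat.Agent.Lib.S27
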