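import Mathlib
import Fermat.Agent.Lib.FF.FFBasicDedekind
import Fermat.Agent.Lib.S27.BIface
import Fermat.Agent.Lib.S27.ZMLin
import Fermat.Agent.Lib.S27.ZMExt
import Fermat.Agent.Lib.S27.ZMGen
import Fermat.Agent.Lib.S27.ZMField
import Fermat.Agent.Lib.S27.ZMDesc

/-!
# Programme Z (S27), brick [BC-MODEL]: the contract `s27b_ModelExists` of `BIface`

`s27z_modelExists : s27b_ModelExists` — every function field `F / K` with a coordinate `x`
(`K` algebraically closed of characteristic `0`) is a constant field extension of a function field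
`F₁ / K₁` with `K₁ ⊆ K` algebraically closed, algebraic over a finitely generated field, and
containing a prescribed finite set.
-/

set_option autoImplicit false

noncomputable section

namespace Fermat.Agent.Lib.S27

open Polynomial IntermediateField Fermat.Agent.Lib.FF

universe u v

/-- the coefficients of a polynomial whose coefficient set lies in `S` lie in `K₁ ⊇ S`. -/
theorem s27z_coeff_mem {K : Type*} [Field K] [CharZero K] (S : Finset K) (P : K[X])
    (hP : P.coeffs ⊆ S) (n : ℕ) :
    P.coeff n ∈ (algebraMap (↥(s27z_K1 S)) K).range := by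
  by_cases h : P.coeff n = 0
  · rw [h]; exact Subring.zero_mem _
  · exact ⟨⟨P.coeff n, s27z_subset_K1 S (hP (coeff_mem_coeffs h))⟩, rfl⟩

/-- **CONTRACT [BC-MODEL] discharged.** -/
theorem s27z_modelExists : s27b_ModelExists.{u, v} := by
  intro K F _ _ _ _ _ x hgen s
  classical
  have hx : Transcendental K x := hgen.transc
  have : FiniteDimensional K⟮x⟯ F := hgen.finite
  obtain ⟨y, hy⟩ := Field.exists_primitive_element K⟮x⟯ F
  have hint : IsIntegral K⟮x⟯ y := Algebra.IsIntegral.isIntegral y
  -- the coefficients of the minimal polynomial as quotients of polynomials in `x`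
  have hcoef : ∀ i, ∃ r t : K[X],
      (((minpoly K⟮x⟯ y).coeff i : K⟮x⟯) : F) = aeval x r / aeval x t :=
    fun i => (IntermediateField.mem_adjoin_simple_iff K _).mp ((minpoly K⟮x⟯ y).coeff i).2
  choose r t hrt using hcoef
  set S₀ : Finset K := (Finset.range ((minpoly K⟮x⟯ y).natDegree + 1)).biUnion
    fun i => (r i).coeffs ∪ (t i).coeffs with hS₀
  set S : Finset K := s ∪ S₀ with hS
  have hrS : ∀ i, i ≤ (minpoly K⟮x⟯ y).natDegree → (r i).coeffs ⊆ S := by
    intro i hi c hc
    rw [hS, hS₀]
    refine Finset.mem_union_right _ (Finset.mem_biUnion.mpr ⟨i, ?_, Finset.mem_union_left _ hc⟩)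
    exact Finset.mem_range.mpr (by omega)
  have htS : ∀ i, i ≤ (minpoly K⟮x⟯ y).natDegree → (t i).coeffs ⊆ S := by
    intro i hi c hc
    rw [hS, hS₀]
    refine Finset.mem_union_right _ (Finset.mem_biUnion.mpr ⟨i, ?_, Finset.mem_union_right _ hc⟩)
    exact Finset.mem_range.mpr (by omega)
  -- the coefficients lie in `K₁⟮x⟯`
  have hm : ∀ i, (((minpoly K⟮x⟯ y).coeff i : K⟮x⟯) : F) ∈
      IntermediateField.adjoin (↥(s27z_K1 S)) ({x} : Set F) := by
    intro i
    by_cases hi : i ≤ (minpoly K⟮x⟯ y).natDegree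
    · rw [hrt i]
      exact div_mem
        (s27z_aeval_mem_adjoin (K₁ := ↥(s27z_K1 S)) (r i)
          (s27z_coeff_mem S (r i) (hrS i hi)) x)
        (s27z_aeval_mem_adjoin (K₁ := ↥(s27z_K1 S)) (t i)
          (s27z_coeff_mem S (t i) (htS i hi)) x)
    · rw [coeff_eq_zero_of_natDegree_lt (by omega)]
      exact zero_mem _
  have hLL : ∀ a : F, a ∈ IntermediateField.adjoin (↥(s27z_K1 S)) ({x} : Set F) →
      a ∈ IntermediateField.adjoin K ({x} : Set F) := fun a ha => s27z_adjoin_le _ ha
  obtain ⟨m₁, hm₁⟩ := s27z_descend_poly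
    (IntermediateField.adjoin (↥(s27z_K1 S)) ({x} : Set F))
    (IntermediateField.adjoin K ({x} : Set F)) hLL (minpoly K⟮x⟯ y) hm
  have hinj := s27z_incl_injective
    (IntermediateField.adjoin (↥(s27z_K1 S)) ({x} : Set F))
    (IntermediateField.adjoin K ({x} : Set F)) hLL
  have hmonic : m₁.Monic := monic_of_injective hinj (by rw [hm₁]; exact minpoly.monic hint)
  have hroot : aeval y m₁ = 0 := by
    rw [← s27z_aeval_descend _ _ hLL y m₁, hm₁]
    exact minpoly.aeval _ _
  have hdeg : m₁.natDegree = (minpoly K⟮x⟯ y).natDegree := by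
    rw [← natDegree_map_eq_of_injective hinj m₁, hm₁]
  have hli : LinearIndependent (IntermediateField.adjoin K ({x} : Set F))
      (fun i : Fin m₁.natDegree => y ^ (i : ℕ)) := by
    rw [hdeg]
    exact linearIndependent_pow y
  have htop : IntermediateField.adjoin K ({x, y} : Set F) = ⊤ := by
    have h := IntermediateField.adjoin_adjoin_left K ({x} : Set F) ({y} : Set F)
    rw [hy, IntermediateField.restrictScalars_top, Set.singleton_union] at h
    exact h.symm
  -- the model
  have hxmem : x ∈ IntermediateField.adjoin (↥(s27z_K1 S)) ({x, y} : Set F) :=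
    IntermediateField.subset_adjoin _ _ (by simp)
  have hymem : y ∈ IntermediateField.adjoin (↥(s27z_K1 S)) ({x, y} : Set F) :=
    IntermediateField.subset_adjoin _ _ (by simp)
  have : IsAlgClosed ↥(s27z_K1 S) := s27z_K1_isAlgClosed S
  refine ⟨s27z_K1 S, IntermediateField.adjoin (↥(s27z_K1 S)) ({x, y} : Set F), ⟨x, hxmem⟩,
    fun c hc => s27z_subset_K1 S (Finset.mem_union_left _ hc), inferInstance,
    ⟨s27z_gens S, s27z_K1_algebraic S⟩, rfl, ?_, ?_⟩
  · exact s27z_ffgen (K₁ := ↥(s27z_K1 S)) (K := K)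
      (IntermediateField.adjoin (↥(s27z_K1 S)) ({x, y} : Set F)) ⟨x, hxmem⟩ ⟨y, hymem⟩ hx rfl rfl
      ⟨m₁, hmonic.ne_zero, hroot⟩
  · exact s27z_ext hx m₁ hmonic hroot hli htop

end Fermat.Agent.Lib.S27
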